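import Mathlib

/-!
# T6 [W3c] (helper17), part 1: the `ℤ[τ]`-identity behind perfectness of the Weil pairing

For an endomorphism `τ` of an abelian group `A` and `n : ℕ`:

  `n • x = N x + (Θ x - τ (Θ x))`,   `N = ∑_{i<n} τ^i`,  `Θ = ∑_{k<n} ∑_{i<k} τ^i`.

Consequently, if `A` is `n`-divisible then every `c ∈ A` is of the form
`N m + (Θ m - τ (Θ m))`; this is the step `[P' - τ P'] = π^* π_* m' + (1 - τ) Θ m'` of the
classical proof that the Weil pairing is perfect (cyclic unramified cover).

Mathlib only.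
-/

set_option autoImplicit false

namespace Fermat.Agent.T6.helper17

open Finset

variable {A : Type*} [AddCommGroup A]

/-- the partial norm `S_k = ∑_{i<k} τ^i` -/
def partNorm (τ : A →+ A) (k : ℕ) (x : A) : A := ∑ i ∈ range k, (⇑τ)^[i] x

/-- `Θ = ∑_{k<n} S_k` -/
def thetaOp (τ : A →+ A) (n : ℕ) (x : A) : A := ∑ k ∈ range n, partNorm τ k x

theorem iterate_add (τ : A →+ A) (i : ℕ) (x y : A) :
    (⇑τ)^[i] (x + y) = (⇑τ)^[i] x + (⇑τ)^[i] y := by
  induction i with
  | zero => rfl
  | succ i ih => rw [Function.iterate_succ_apply', Function.iterate_succ_apply',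
      Function.iterate_succ_apply', ih, map_add]

theorem iterate_neg (τ : A →+ A) (i : ℕ) (x : A) :
    (⇑τ)^[i] (-x) = -(⇑τ)^[i] x := by
  induction i with
  | zero => rfl
  | succ i ih => rw [Function.iterate_succ_apply', Function.iterate_succ_apply', ih, map_neg]

theorem iterate_zero' (τ : A →+ A) (i : ℕ) : (⇑τ)^[i] (0 : A) = 0 := by
  induction i with
  | zero => rfl
  | succ i ih => rw [Function.iterate_succ_apply', ih, map_zero]

theorem partNorm_add (τ : A →+ A) (k : ℕ) (x y : A) :
    partNorm τ k (x + y) = partNorm τ k x + partNorm τ k y := by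
  simp only [partNorm, iterate_add, sum_add_distrib]

theorem partNorm_neg (τ : A →+ A) (k : ℕ) (x : A) :
    partNorm τ k (-x) = -partNorm τ k x := by
  simp only [partNorm, iterate_neg, sum_neg_distrib]

theorem partNorm_zero (τ : A →+ A) (k : ℕ) : partNorm τ k (0 : A) = 0 := by
  simp only [partNorm, iterate_zero', sum_const_zero]

theorem thetaOp_add (τ : A →+ A) (n : ℕ) (x y : A) :
    thetaOp τ n (x + y) = thetaOp τ n x + thetaOp τ n y := by
  simp only [thetaOp, partNorm_add, sum_add_distrib]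

theorem thetaOp_neg (τ : A →+ A) (n : ℕ) (x : A) :
    thetaOp τ n (-x) = -thetaOp τ n x := by
  simp only [thetaOp, partNorm_neg, sum_neg_distrib]

theorem thetaOp_zero (τ : A →+ A) (n : ℕ) : thetaOp τ n (0 : A) = 0 := by
  simp only [thetaOp, partNorm_zero, sum_const_zero]

/-- `partNorm` as an additive homomorphism -/
def partNormHom (τ : A →+ A) (k : ℕ) : A →+ A where
  toFun := partNorm τ k
  map_zero' := partNorm_zero τ k
  map_add' := partNorm_add τ k

/-- `thetaOp` as an additive homomorphism -/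
def thetaHom (τ : A →+ A) (n : ℕ) : A →+ A where
  toFun := thetaOp τ n
  map_zero' := thetaOp_zero τ n
  map_add' := thetaOp_add τ n

@[simp] theorem partNormHom_apply (τ : A →+ A) (k : ℕ) (x : A) :
    partNormHom τ k x = partNorm τ k x := rfl

@[simp] theorem thetaHom_apply (τ : A →+ A) (n : ℕ) (x : A) :
    thetaHom τ n x = thetaOp τ n x := rfl

theorem map_partNorm (τ : A →+ A) (k : ℕ) (x : A) :
    τ (partNorm τ k x) = ∑ i ∈ range k, (⇑τ)^[i + 1] x := by
  simp only [partNorm, map_sum]
  exact sum_congr rfl fun i _ => (Function.iterate_succ_apply' _ _ _).symm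

/-- `(1 - τ) S_k = 1 - τ^k` -/
theorem partNorm_sub_map (τ : A →+ A) (k : ℕ) (x : A) :
    partNorm τ k x - τ (partNorm τ k x) = x - (⇑τ)^[k] x := by
  rw [map_partNorm, partNorm, ← sum_sub_distrib]
  have := Finset.sum_range_sub' (fun i => (⇑τ)^[i] x) k
  rw [this]
  rfl

/-- **the `ℤ[τ]`-identity** `n = N + (1 - τ) Θ` -/
theorem nsmul_eq_partNorm_add (τ : A →+ A) (n : ℕ) (x : A) :
    n • x = partNorm τ n x + (thetaOp τ n x - τ (thetaOp τ n x)) := by
  have h1 : thetaOp τ n x - τ (thetaOp τ n x) = ∑ k ∈ range n, (x - (⇑τ)^[k] x) := by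
    simp only [thetaOp, map_sum, ← sum_sub_distrib]
    exact sum_congr rfl fun k _ => partNorm_sub_map τ k x
  rw [h1, sum_sub_distrib, sum_const, card_range, partNorm]
  abel

theorem map_iterate_of_invariant {B : Type*} (d : A → B) (τ : A →+ A)
    (hd : ∀ x, d (τ x) = d x) (i : ℕ) (x : A) : d ((⇑τ)^[i] x) = d x := by
  induction i with
  | zero => rfl
  | succ i ih => rw [Function.iterate_succ_apply', hd, ih]

/-- the degree of `S_k x`, for a "degree" invariant under `τ` -/
theorem map_partNorm_of_invariant {B : Type*} [AddCommGroup B] (d : A →+ B) (τ : A →+ A)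
    (hd : ∀ x, d (τ x) = d x) (k : ℕ) (x : A) : d (partNorm τ k x) = k • d x := by
  simp only [partNorm, map_sum, map_iterate_of_invariant (⇑d) τ hd, sum_const, card_range]

theorem map_thetaOp_of_invariant {B : Type*} [AddCommGroup B] (d : A →+ B) (τ : A →+ A)
    (hd : ∀ x, d (τ x) = d x) (n : ℕ) (x : A) (hx : d x = 0) : d (thetaOp τ n x) = 0 := by
  simp only [thetaOp, map_sum, map_partNorm_of_invariant d τ hd, hx, smul_zero, sum_const_zero]

/-- if a `τ`-stable subgroup contains `x`, it contains `S_k x` -/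
theorem partNorm_mem {S : AddSubgroup A} (τ : A →+ A) (hS : ∀ x ∈ S, τ x ∈ S) (k : ℕ) {x : A}
    (hx : x ∈ S) : partNorm τ k x ∈ S := by
  have hpow : ∀ i : ℕ, (⇑τ)^[i] x ∈ S := by
    intro i
    induction i with
    | zero => exact hx
    | succ i ih =>
      rw [Function.iterate_succ_apply']
      exact hS _ ih
  exact S.sum_mem fun i _ => hpow i

theorem thetaOp_mem {S : AddSubgroup A} (τ : A →+ A) (hS : ∀ x ∈ S, τ x ∈ S) (n : ℕ) {x : A}
    (hx : x ∈ S) : thetaOp τ n x ∈ S :=
  S.sum_mem fun k _ => partNorm_mem τ hS k hx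

end Fermat.Agent.T6.helper17
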