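import Mathlib
import Fermat.Prelude.Def_AlgebraicCurve_DivisorPushPull
import Fermat.Agent.T6.helper17_W3cAlg

/-!
# T6 [W3c] (helper17), part 2: the divisor-level construction

Setting: `F'/F` a finite extension of function fields over `K` (Prelude vocabulary), `T` an
additive endomorphism of `Divisor K F'` (the action of a generator `τ` of a cyclic cover of
degree `ℓ`) with

* `deg (T D') = deg D'`, `π_* (T D') = π_* D'`,
* `π^* π_* D' = ∑_{i<ℓ} T^i D'` (unramified, fibres = `τ`-orbits),
* `π_* π^* D = ℓ D`, and the norm formula `div (N f') = π_* (div f')`.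

If `Pic⁰(F')` is `ℓ`-divisible, then for every place `P'` of degree one there are a divisor `V`
of degree `1` on `F'`, a divisor `D` of degree `0` on `F` and `ν' ∈ F'ˣ` with

  `div ν' = (1 - T) V + π^* D`,   `div (N ν') = ℓ D`,

and `V`, `π^* D` can be chosen disjoint from any given finite `T`-stable set `S ∌ P'`.
-/

set_option autoImplicit false
set_option linter.unusedSectionVars false

noncomputable section

namespace Fermat.Agent.T6.helper17

open AlgebraicCurve Finset

variable {K F F' : Type*} [Field K] [Field F] [Field F'] [Algebra K F] [Algebra K F']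
  [Algebra F F'] [IsScalarTower K F F'] [Algebra.IsIntegral F F'] [HasPrincipalDivisors K F']
  [Module.Finite F F']

variable (F) in
/-- the divisor-level properties of a cyclic unramified cover of degree `ℓ` with generator
acting by `T` on divisors -/
structure CoverDiv (ℓ : ℕ) (T : Divisor K F' →+ Divisor K F') : Prop where
  deg_T : ∀ D' : Divisor K F', Divisor.degree (T D') = Divisor.degree D'
  push_T : ∀ D' : Divisor K F', Divisor.pushforward F (T D') = Divisor.pushforward F D'
  pull_push : ∀ D' : Divisor K F',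
    Divisor.pullback F' (Divisor.pushforward F D') = partNorm T ℓ D'
  push_pull : ∀ D : Divisor K F, Divisor.pushforward F (Divisor.pullback F' D) = ℓ • D
  norm : Divisor.PushforwardNormFormula K F F'

/-- the subgroup of divisors vanishing on a set of places -/
def offSet (S : Set (Place K F')) : AddSubgroup (Divisor K F') where
  carrier := {D | ∀ w ∈ S, D w = 0}
  zero_mem' := fun _ _ => rfl
  add_mem' := fun {a b} ha hb w hw => by rw [Finsupp.add_apply, ha w hw, hb w hw, add_zero]
  neg_mem' := fun {a} ha w hw => by rw [Finsupp.neg_apply, ha w hw, neg_zero]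

theorem mem_offSet {S : Set (Place K F')} {D : Divisor K F'} :
    D ∈ offSet S ↔ ∀ w ∈ S, D w = 0 := Iff.rfl

/-- **the divisor-level construction** -/
theorem exists_kummer_pair {ℓ : ℕ} {T : Divisor K F' →+ Divisor K F'} (C : CoverDiv F ℓ T)
    (hdivis : ∀ c : Divisor K F', Divisor.degree c = 0 →
      ∃ (m : Divisor K F') (g : F'), Divisor.degree m = 0 ∧ g ≠ 0 ∧
        ∀ w : Place K F', (ℓ • m - c) w = w.ord g)
    (S : Set (Place K F')) (hS : ∀ D' ∈ offSet S, T D' ∈ offSet S)
    (hmove : ∀ m : Divisor K F', ∃ φ : F', φ ≠ 0 ∧ ∀ w ∈ S, m w + w.ord φ = 0)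
    (P' : Place K F') (hP' : P' ∉ S) (hdeg : P'.deg = 1) :
    ∃ (V : Divisor K F') (D : Divisor K F) (ν' : F'), ν' ≠ 0 ∧
      Divisor.degree V = 1 ∧ Divisor.degree D = 0 ∧
      (∀ w : Place K F', w.ord ν' = (V - T V + Divisor.pullback F' D) w) ∧
      (∀ v : Place K F, v.ord (Algebra.norm F ν') = ((ℓ : ℤ) • D) v) ∧
      V ∈ offSet S ∧ Divisor.pullback F' D ∈ offSet S := by
  classical
  set e : Divisor K F' := Finsupp.single P' 1 with he
  have hedeg : Divisor.degree e = 1 := by
    rw [he, Divisor.degree_single, hdeg]; norm_num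
  have heS : e ∈ offSet S := by
    intro w hw
    rw [he, Finsupp.single_apply, if_neg]
    rintro rfl
    exact hP' hw
  set c : Divisor K F' := e - T e with hc
  have hcdeg : Divisor.degree c = 0 := by
    rw [hc, map_sub, C.deg_T, sub_self]
  obtain ⟨m₀, g, hm₀, hg, hmg⟩ := hdivis c hcdeg
  obtain ⟨φ, hφ, hφS⟩ := hmove m₀
  obtain ⟨Dφ, hDφ, hDφdeg⟩ := HasPrincipalDivisors.exists_divisor (K := K) φ hφ
  set m : Divisor K F' := m₀ + Dφ with hm
  have hmdeg : Divisor.degree m = 0 := by
    rw [hm, map_add, hm₀, hDφdeg, add_zero]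
  have hmS : m ∈ offSet S := by
    intro w hw
    rw [hm, Finsupp.add_apply, hDφ, hφS w hw]
  -- the function of `ℓ m - c`
  set G : F' := g * φ ^ ℓ with hG
  have hG0 : G ≠ 0 := mul_ne_zero hg (pow_ne_zero _ hφ)
  have hGord : ∀ w : Place K F', (ℓ • m - c) w = w.ord G := by
    intro w
    have h1 := hmg w
    rw [hG, w.ord_mul hg (pow_ne_zero _ hφ), ← zpow_natCast, w.ord_zpow, ← h1]
    simp only [hm, Finsupp.sub_apply, Finsupp.smul_apply, Finsupp.add_apply, hDφ,
      nsmul_eq_mul, smul_add]
    ring
  refine ⟨e - thetaOp T ℓ m, -Divisor.pushforward F m, G⁻¹, inv_ne_zero hG0, ?_, ?_, ?_, ?_, ?_,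
    ?_⟩
  · rw [map_sub, hedeg, map_thetaOp_of_invariant Divisor.degree T C.deg_T ℓ m hmdeg, sub_zero]
  · rw [map_neg, Divisor.degree_pushforward, hmdeg, neg_zero]
  · -- the divisor of `ν'`
    have key : e - thetaOp T ℓ m - T (e - thetaOp T ℓ m) +
        Divisor.pullback F' (-Divisor.pushforward F m) = -(ℓ • m - c) := by
      rw [map_neg, C.pull_push, map_sub, nsmul_eq_partNorm_add T ℓ m, hc]
      abel
    intro w
    rw [key, Finsupp.neg_apply, hGord, w.ord_inv]
  · -- the divisor of the norm
    have key : e - thetaOp T ℓ m - T (e - thetaOp T ℓ m) +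
        Divisor.pullback F' (-Divisor.pushforward F m) = -(ℓ • m - c) := by
      rw [map_neg, C.pull_push, map_sub, nsmul_eq_partNorm_add T ℓ m, hc]
      abel
    intro v
    have hdivν : ∀ w : Place K F', (e - thetaOp T ℓ m - T (e - thetaOp T ℓ m) +
        Divisor.pullback F' (-Divisor.pushforward F m)) w = w.ord G⁻¹ := by
      intro w
      rw [key, Finsupp.neg_apply, hGord, w.ord_inv]
    rw [← C.norm G⁻¹ (inv_ne_zero hG0) _ hdivν v, map_add, map_sub, C.push_T, sub_self, zero_add,
      C.push_pull, natCast_zsmul]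
  · exact (offSet S).sub_mem heS (thetaOp_mem T hS ℓ hmS)
  · rw [map_neg, C.pull_push]
    exact (offSet S).neg_mem (partNorm_mem T hS ℓ hmS)

end Fermat.Agent.T6.helper17

end
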