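/-
T6 [W0] (helper26): VALUE OF A FUNCTION AT A PLACE, `f(D)`, calculus.

For any `(K, F)` (field `K`, field `F`, `Algebra K F`) with the Prelude `Place` API.
The DEFINITIONS carry no hypothesis (junk value `0`); the lemmas use
`hS : Fermat.Agent.P2.helper74.RiemannSetting K F` (only its field `residue`) where needed.

* `IsVal P f a`     : `f = a` or `0 < ord_P (f - a)`  (`a` is the value of `f` at `P`)
* `pval P f : K`    : the value of `f` at `P` (`0` if `f` has a pole at `P`)
* `pvalHom hS P`    : the `K`-algebra hom `O_P →ₐ[K] K`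
* `Disj f D`        : `f ≠ 0` and `ord_P f = 0` on the support of `D`
* `dval f D : K`    : `f(D) = ∏_P f(P) ^ D(P)`
* `divOf f`         : the divisor of `f` (junk `0` without principal divisors)
* `WeilRec K F`     : Weil reciprocity `f(div g) = g(div f)` (the contract of block [W1])
* semilinear (Galois) compatibility: `pval (g • P) (g • f) = baseAut g (pval P f)`,
  `dval (g • f) (g • D) = baseAut g (dval f D)`.
-/
import Mathlib
import Fermat.Agent.P2.helper74_Riemann
import Fermat.Prelude.Def_AlgebraicCurve_BaseChangeGalois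

set_option autoImplicit false

noncomputable section

open AlgebraicCurve

namespace Fermat.Agent.T6.helper26

open Fermat.Agent.P2.helper74

variable {K F : Type*} [Field K] [Field F] [Algebra K F]

/-! ### Orders -/

section Ord

variable (P : Place K F)

theorem ord_const (a : K) : P.ord (algebraMap K F a) = 0 :=
  Fermat.Agent.S24.helper82.ord_algebraMap P a

theorem ord_neg_eq (f : F) : P.ord (-f) = P.ord f := by
  rcases eq_or_ne f 0 with rfl | hf
  · simp
  have h1 : (-1 : F) = algebraMap K F (-1) := by simp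
  rw [neg_eq_neg_one_mul, P.ord_mul (by simp) hf, h1, ord_const, zero_add]

theorem ord_sub_comm (f g : F) : P.ord (f - g) = P.ord (g - f) := by
  rw [← ord_neg_eq P (g - f), neg_sub]

/-- ultrametric inequality, total form (`ord 0 = 0` by convention, so the sum must be `≠ 0`
or the bound must be `≤ 0`). -/
theorem ord_add_pos {f g : F} (hf : 0 < P.ord f) (hg : 0 < P.ord g) (h : f + g ≠ 0) :
    0 < P.ord (f + g) :=
  lt_of_lt_of_le (lt_min hf hg) (ord_add_ge P h)

theorem ord_add_nonneg {f g : F} (hf : 0 ≤ P.ord f) (hg : 0 ≤ P.ord g) :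
    0 ≤ P.ord (f + g) := by
  rcases eq_or_ne (f + g) 0 with h | h
  · rw [h, Place.ord_zero]
  · exact le_trans (le_min hf hg) (ord_add_ge P h)

theorem ord_mul_nonneg {f g : F} (hf : 0 ≤ P.ord f) (hg : 0 ≤ P.ord g) :
    0 ≤ P.ord (f * g) := by
  rcases eq_or_ne f 0 with rfl | hf0
  · simp
  rcases eq_or_ne g 0 with rfl | hg0
  · simp
  rw [P.ord_mul hf0 hg0]
  exact add_nonneg hf hg

theorem ord_mul_pos_left {f g : F} (hf : 0 < P.ord f) (hg : 0 ≤ P.ord g) (hg0 : g ≠ 0) :
    0 < P.ord (f * g) := by
  have hf0 : f ≠ 0 := ne_zero_of_ord_ne_zero P hf.ne'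
  rw [P.ord_mul hf0 hg0]
  exact add_pos_of_pos_of_nonneg hf hg

end Ord

/-! ### The value at a place -/

/-- `a` is the value of `f` at `P`. -/
def IsVal (P : Place K F) (f : F) (a : K) : Prop :=
  f = algebraMap K F a ∨ 0 < P.ord (f - algebraMap K F a)

namespace IsVal

variable {P : Place K F} {f g : F} {a b : K}

theorem ord_nonneg (h : IsVal P f a) : 0 ≤ P.ord f := by
  rcases h with h | h
  · rw [h, ord_const]
  · have : f = (f - algebraMap K F a) + algebraMap K F a := by ring
    rw [this]
    exact ord_add_nonneg P h.le (ord_const P a).ge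

theorem unique (h : IsVal P f a) (h' : IsVal P f b) : a = b := by
  by_contra hab
  have hc : algebraMap K F a - algebraMap K F b ≠ 0 := by
    rw [sub_ne_zero]
    exact fun h => hab ((algebraMap K F).injective h)
  have h0 : P.ord (algebraMap K F a - algebraMap K F b) = 0 := by
    rw [← map_sub]
    exact ord_const P _
  rcases h with h | h <;> rcases h' with h' | h'
  · exact hab ((algebraMap K F).injective (h.symm.trans h'))
  · rw [h] at h'
    omega
  · rw [h', ord_sub_comm] at h
    omega
  · have e : algebraMap K F a - algebraMap K F b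
        = (f - algebraMap K F b) + -(f - algebraMap K F a) := by ring
    have h2 : 0 < P.ord (-(f - algebraMap K F a)) := by rwa [ord_neg_eq]
    have := ord_add_pos P h' h2 (by rwa [← e])
    rw [← e] at this
    omega

theorem const (P : Place K F) (a : K) : IsVal P (algebraMap K F a) a := Or.inl rfl

theorem of_ord_pos (h : 0 < P.ord f) : IsVal P f 0 := by
  right
  rwa [map_zero, sub_zero]

theorem add (h : IsVal P f a) (h' : IsVal P g b) : IsVal P (f + g) (a + b) := by
  by_cases e : f + g = algebraMap K F (a + b)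
  · exact Or.inl e
  right
  have e' : f + g - algebraMap K F (a + b)
      = (f - algebraMap K F a) + (g - algebraMap K F b) := by rw [map_add]; ring
  have hne : (f - algebraMap K F a) + (g - algebraMap K F b) ≠ 0 := by
    rw [← e', sub_ne_zero]
    exact e
  rw [e']
  rcases h with h | h <;> rcases h' with h' | h'
  · exfalso
    apply hne
    rw [h, h', sub_self, sub_self, add_zero]
  · rw [h, sub_self, zero_add]
    exact h'
  · rw [h', sub_self, add_zero]
    exact h
  · exact ord_add_pos P h h' hne

theorem neg (h : IsVal P f a) : IsVal P (-f) (-a) := by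
  rcases h with h | h
  · left
    rw [h, map_neg]
  · right
    rw [map_neg, ← neg_sub', ord_neg_eq]
    exact h

theorem sub (h : IsVal P f a) (h' : IsVal P g b) : IsVal P (f - g) (a - b) := by
  rw [sub_eq_add_neg, sub_eq_add_neg]
  exact h.add h'.neg

theorem mul (h : IsVal P f a) (h' : IsVal P g b) : IsVal P (f * g) (a * b) := by
  by_cases e : f * g = algebraMap K F (a * b)
  · exact Or.inl e
  right
  have e' : f * g - algebraMap K F (a * b)
      = (f - algebraMap K F a) * g + algebraMap K F a * (g - algebraMap K F b) := by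
    rw [map_mul]; ring
  have hne : (f - algebraMap K F a) * g + algebraMap K F a * (g - algebraMap K F b) ≠ 0 := by
    rw [← e', sub_ne_zero]
    exact e
  rw [e']
  have hg := h'.ord_nonneg
  -- the two summands are `0` or have positive order
  have h1 : (f - algebraMap K F a) * g = 0 ∨ 0 < P.ord ((f - algebraMap K F a) * g) := by
    rcases h with h | h
    · left
      rw [h, sub_self, zero_mul]
    · rcases eq_or_ne g 0 with rfl | hg0
      · left
        rw [mul_zero]
      · exact Or.inr (ord_mul_pos_left P h hg hg0)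
  have h2 : algebraMap K F a * (g - algebraMap K F b) = 0
      ∨ 0 < P.ord (algebraMap K F a * (g - algebraMap K F b)) := by
    rcases h' with h' | h'
    · left
      rw [h', sub_self, mul_zero]
    · rcases eq_or_ne (algebraMap K F a) 0 with ha | ha
      · left
        rw [ha, zero_mul]
      · right
        rw [mul_comm]
        exact ord_mul_pos_left P h' (ord_const P a).ge ha
  rcases h1 with h1 | h1 <;> rcases h2 with h2 | h2
  · exfalso
    apply hne
    rw [h1, h2, add_zero]
  · rw [h1, zero_add]
    exact h2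
  · rw [h2, add_zero]
    exact h1
  · exact ord_add_pos P h1 h2 hne

theorem ne_zero_of_ord_eq_zero (h : IsVal P f a) (hf : f ≠ 0) (h0 : P.ord f = 0) : a ≠ 0 := by
  rintro rfl
  rcases h with h | h
  · exact hf (by rw [h, map_zero])
  · rw [map_zero, sub_zero] at h
    omega

theorem ord_pos_of_eq_zero (h : IsVal P f 0) (hf : f ≠ 0) : 0 < P.ord f := by
  rcases h with h | h
  · exact absurd (by rw [h, map_zero]) hf
  · rwa [map_zero, sub_zero] at h

theorem inv (h : IsVal P f a) (hf : f ≠ 0) (h0 : P.ord f = 0) : IsVal P f⁻¹ a⁻¹ := by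
  have ha : a ≠ 0 := h.ne_zero_of_ord_eq_zero hf h0
  have haF : algebraMap K F a ≠ 0 := fun e => ha ((map_eq_zero _).mp e)
  rcases h with h | h
  · left
    rw [h, map_inv₀]
  · right
    have e : f⁻¹ - algebraMap K F a⁻¹
        = -(f - algebraMap K F a) * (f⁻¹ * (algebraMap K F a)⁻¹) := by
      rw [map_inv₀]
      field_simp
      ring
    have hne : f - algebraMap K F a ≠ 0 := ne_zero_of_ord_ne_zero P h.ne'
    rw [e, P.ord_mul (neg_ne_zero.mpr hne) (mul_ne_zero (inv_ne_zero hf) (inv_ne_zero haF)),
      ord_neg_eq, P.ord_mul (inv_ne_zero hf) (inv_ne_zero haF), Place.ord_inv, Place.ord_inv,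
      h0, ord_const]
    simpa using h

/-- semilinear compatibility -/
theorem smul (g : SemilinearAut K F) (h : IsVal P f a) :
    IsVal (g • P) (g • f) (SemilinearAut.baseAut g a) := by
  rcases h with h | h
  · left
    rw [h, SemilinearAut.smul_algebraMap]
  · right
    rw [← SemilinearAut.smul_algebraMap, ← smul_sub, SemilinearAut.ord_smul]
    exact h

end IsVal

open Classical in
/-- **the value of `f` at the place `P`** (junk value `0` if `f` has a pole at `P`) -/
def pval (P : Place K F) (f : F) : K :=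
  if h : ∃ a, IsVal P f a then h.choose else 0

section PVal

variable {P : Place K F} {f g : F} {a : K}

theorem pval_eq_of_isVal (h : IsVal P f a) : pval P f = a := by
  have hex : ∃ a, IsVal P f a := ⟨a, h⟩
  rw [pval, dif_pos hex]
  exact hex.choose_spec.unique h

theorem pval_of_not_exists (h : ¬ ∃ a, IsVal P f a) : pval P f = 0 := by
  rw [pval, dif_neg h]

theorem pval_of_ord_neg (h : P.ord f < 0) : pval P f = 0 :=
  pval_of_not_exists fun ⟨_, ha⟩ => absurd ha.ord_nonneg (not_le.mpr h)

@[simp]
theorem pval_algebraMap (P : Place K F) (a : K) : pval P (algebraMap K F a) = a :=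
  pval_eq_of_isVal (IsVal.const P a)

@[simp]
theorem pval_zero (P : Place K F) : pval P (0 : F) = 0 := by
  have := pval_algebraMap P (0 : K)
  rwa [map_zero] at this

@[simp]
theorem pval_one (P : Place K F) : pval P (1 : F) = 1 := by
  have := pval_algebraMap P (1 : K)
  rwa [map_one] at this

theorem pval_of_ord_pos (h : 0 < P.ord f) : pval P f = 0 :=
  pval_eq_of_isVal (IsVal.of_ord_pos h)

/-- semilinear (Galois) compatibility, unconditional -/
theorem pval_smul (g : SemilinearAut K F) (P : Place K F) (f : F) :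
    pval (g • P) (g • f) = SemilinearAut.baseAut g (pval P f) := by
  by_cases h : ∃ a, IsVal P f a
  · obtain ⟨a, ha⟩ := h
    rw [pval_eq_of_isVal ha, pval_eq_of_isVal (ha.smul g)]
  · rw [pval_of_not_exists h, map_zero]
    apply pval_of_not_exists
    rintro ⟨b, hb⟩
    apply h
    have := hb.smul g⁻¹
    rw [inv_smul_smul, inv_smul_smul] at this
    exact ⟨_, this⟩

variable (hS : RiemannSetting K F)

include hS

theorem isVal_pval (hf : 0 ≤ P.ord f) : IsVal P f (pval P f) := by
  obtain ⟨a, ha⟩ := hS.residue P f hf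
  have h : IsVal P f a := ha
  rw [pval_eq_of_isVal h]
  exact h

theorem pval_spec (hf : 0 ≤ P.ord f) :
    f = algebraMap K F (pval P f) ∨ 0 < P.ord (f - algebraMap K F (pval P f)) :=
  isVal_pval hS hf

theorem pval_add (hf : 0 ≤ P.ord f) (hg : 0 ≤ P.ord g) :
    pval P (f + g) = pval P f + pval P g :=
  pval_eq_of_isVal ((isVal_pval hS hf).add (isVal_pval hS hg))

theorem pval_neg (P : Place K F) (f : F) : pval P (-f) = -pval P f := by
  by_cases hf : 0 ≤ P.ord f
  · exact pval_eq_of_isVal (isVal_pval hS hf).neg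
  · rw [pval_of_ord_neg (not_le.mp hf), pval_of_ord_neg (by rw [ord_neg_eq]; exact not_le.mp hf),
      neg_zero]

theorem pval_sub (hf : 0 ≤ P.ord f) (hg : 0 ≤ P.ord g) :
    pval P (f - g) = pval P f - pval P g :=
  pval_eq_of_isVal ((isVal_pval hS hf).sub (isVal_pval hS hg))

theorem pval_mul (hf : 0 ≤ P.ord f) (hg : 0 ≤ P.ord g) :
    pval P (f * g) = pval P f * pval P g :=
  pval_eq_of_isVal ((isVal_pval hS hf).mul (isVal_pval hS hg))

theorem pval_pow (hf : 0 ≤ P.ord f) (n : ℕ) : pval P (f ^ n) = pval P f ^ n := by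
  induction n with
  | zero => simp
  | succ n ih =>
    have hn : 0 ≤ P.ord (f ^ n) := by
      have := P.ord_zpow f n
      rw [zpow_natCast] at this
      rw [this]
      positivity
    rw [pow_succ, pval_mul hS hn hf, ih, pow_succ]

theorem pval_ne_zero (hf : f ≠ 0) (h0 : P.ord f = 0) : pval P f ≠ 0 :=
  (isVal_pval hS h0.ge).ne_zero_of_ord_eq_zero hf h0

theorem pval_eq_zero_iff (hf : f ≠ 0) (h0 : 0 ≤ P.ord f) : pval P f = 0 ↔ 0 < P.ord f := by
  constructor
  · intro h
    have := isVal_pval hS h0
    rw [h] at this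
    exact this.ord_pos_of_eq_zero hf
  · exact pval_of_ord_pos

theorem pval_inv (hf : f ≠ 0) (h0 : P.ord f = 0) : pval P f⁻¹ = (pval P f)⁻¹ :=
  pval_eq_of_isVal ((isVal_pval hS h0.ge).inv hf h0)

theorem pval_div (hf : 0 ≤ P.ord f) (hg : g ≠ 0) (h0 : P.ord g = 0) :
    pval P (f / g) = pval P f / pval P g := by
  rw [div_eq_mul_inv, pval_mul hS hf (by rw [Place.ord_inv, h0, neg_zero]), pval_inv hS hg h0,
    div_eq_mul_inv]

theorem pval_zpow (hf : f ≠ 0) (h0 : P.ord f = 0) (n : ℤ) : pval P (f ^ n) = pval P f ^ n := by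
  rcases n with n | n
  · simpa using pval_pow hS h0.ge n
  · rw [zpow_negSucc, zpow_negSucc, pval_inv hS (pow_ne_zero _ hf), pval_pow hS h0.ge]
    have := P.ord_zpow f ((n + 1 : ℕ) : ℤ)
    rw [zpow_natCast] at this
    rw [this, h0, mul_zero]

/-- the value at `P` as a `K`-algebra hom on the valuation ring of `P` -/
def pvalHom (P : Place K F) : P.toValuationSubring →ₐ[K] K where
  toFun x := pval P (x : F)
  map_one' := by simp
  map_mul' x y := pval_mul hS (Fermat.Agent.S24.helper82.ord_nonneg_of_mem P x.2)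
    (Fermat.Agent.S24.helper82.ord_nonneg_of_mem P y.2)
  map_zero' := by simp
  map_add' x y := pval_add hS (Fermat.Agent.S24.helper82.ord_nonneg_of_mem P x.2)
    (Fermat.Agent.S24.helper82.ord_nonneg_of_mem P y.2)
  commutes' a := pval_algebraMap P a

@[simp]
theorem pvalHom_apply (P : Place K F) (x : P.toValuationSubring) :
    pvalHom hS P x = pval P (x : F) := rfl

end PVal


/-! ### The value at a divisor -/

/-- `f` is a nonzero function without zeros and poles on the support of `D`. -/
def Disj (f : F) (D : Divisor K F) : Prop :=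
  f ≠ 0 ∧ ∀ P : Place K F, D P ≠ 0 → P.ord f = 0

/-- **`f(D) = ∏_P f(P) ^ D(P)`** -/
def dval (f : F) (D : Divisor K F) : K :=
  D.prod fun P n => pval P f ^ n

namespace Disj

variable {f g : F} {D E : Divisor K F}

theorem ne_zero (h : Disj f D) : f ≠ 0 := h.1

theorem ord_eq_zero (h : Disj f D) {P : Place K F} (hP : P ∈ D.support) : P.ord f = 0 :=
  h.2 P (Finsupp.mem_support_iff.mp hP)

theorem zero_right (hf : f ≠ 0) : Disj f (0 : Divisor K F) :=
  ⟨hf, fun P hP => absurd (Finsupp.zero_apply (a := P)) hP⟩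

theorem single {P : Place K F} (hf : f ≠ 0) (h : P.ord f = 0) (n : ℤ) :
    Disj f (Finsupp.single P n) := by
  refine ⟨hf, fun Q hQ => ?_⟩
  classical
  rw [Finsupp.single_apply] at hQ
  split_ifs at hQ with e
  · rw [← e]
    exact h
  · exact absurd rfl hQ

theorem add (h : Disj f D) (h' : Disj f E) : Disj f (D + E) := by
  refine ⟨h.1, fun P hP => ?_⟩
  by_cases hD : D P = 0
  · refine h'.2 P fun hE => hP ?_
    rw [Finsupp.add_apply, hD, hE, add_zero]
  · exact h.2 P hD

theorem neg (h : Disj f D) : Disj f (-D) :=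
  ⟨h.1, fun P hP => h.2 P fun hD => hP (by rw [Finsupp.neg_apply, hD, neg_zero])⟩

theorem sub (h : Disj f D) (h' : Disj f E) : Disj f (D - E) := by
  rw [sub_eq_add_neg]
  exact h.add h'.neg

theorem zsmul (h : Disj f D) (n : ℤ) : Disj f (n • D) :=
  ⟨h.1, fun P hP => h.2 P fun hD => hP (by rw [Finsupp.smul_apply, hD, smul_zero])⟩

theorem nsmul (h : Disj f D) (n : ℕ) : Disj f (n • D) :=
  ⟨h.1, fun P hP => h.2 P fun hD => hP (by rw [Finsupp.smul_apply, hD, smul_zero])⟩

theorem mul (h : Disj f D) (h' : Disj g D) : Disj (f * g) D :=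
  ⟨mul_ne_zero h.1 h'.1, fun P hP => by rw [P.ord_mul h.1 h'.1, h.2 P hP, h'.2 P hP, add_zero]⟩

theorem inv (h : Disj f D) : Disj f⁻¹ D :=
  ⟨inv_ne_zero h.1, fun P hP => by rw [Place.ord_inv, h.2 P hP, neg_zero]⟩

theorem div (h : Disj f D) (h' : Disj g D) : Disj (f / g) D := by
  rw [div_eq_mul_inv]
  exact h.mul h'.inv

theorem pow (h : Disj f D) (n : ℕ) : Disj (f ^ n) D :=
  ⟨pow_ne_zero n h.1, fun P hP => by
    have := P.ord_zpow f n
    rw [zpow_natCast] at this
    rw [this, h.2 P hP, mul_zero]⟩

theorem zpow (h : Disj f D) (n : ℤ) : Disj (f ^ n) D :=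
  ⟨zpow_ne_zero n h.1, fun P hP => by rw [P.ord_zpow, h.2 P hP, mul_zero]⟩

theorem const {a : K} (ha : a ≠ 0) (D : Divisor K F) : Disj (algebraMap K F a) D :=
  ⟨fun e => ha ((map_eq_zero _).mp e), fun P _ => ord_const P a⟩

theorem smul (g : SemilinearAut K F) (h : Disj f D) : Disj (g • f) (g • D) := by
  refine ⟨fun e => h.1 ?_, fun P hP => ?_⟩
  · have := congrArg (g⁻¹ • ·) e
    simpa using this
  · rw [SemilinearAut.divisor_smul_apply] at hP
    have := h.2 _ hP
    rw [← SemilinearAut.ord_smul g, smul_inv_smul] at this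
    exact this

end Disj

section DVal

variable {f g : F} {D E : Divisor K F}

@[simp]
theorem dval_zero_right (f : F) : dval f (0 : Divisor K F) = 1 :=
  Finsupp.prod_zero_index

@[simp]
theorem dval_single (f : F) (P : Place K F) (n : ℤ) :
    dval f (Finsupp.single P n) = pval P f ^ n :=
  Finsupp.prod_single_index (zpow_zero _)

theorem dval_eq_prod (f : F) (D : Divisor K F) :
    dval f D = ∏ P ∈ D.support, pval P f ^ D P := rfl

/-- semilinear (Galois) compatibility, unconditional -/
theorem dval_smul (g : SemilinearAut K F) (f : F) (D : Divisor K F) :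
    dval (g • f) (g • D) = SemilinearAut.baseAut g (dval f D) := by
  rw [dval, SemilinearAut.divisor_smul_def,
    Finsupp.prod_mapDomain_index_inj (MulAction.injective g), dval, Finsupp.prod, Finsupp.prod,
    map_prod]
  refine Finset.prod_congr rfl fun P _ => ?_
  rw [pval_smul, map_zpow₀]

theorem dval_neg (f : F) (D : Divisor K F) : dval f (-D) = (dval f D)⁻¹ := by
  rw [dval, Finsupp.prod_neg_index (fun P => zpow_zero _), dval, Finsupp.prod, Finsupp.prod,
    ← Finset.prod_inv_distrib]
  exact Finset.prod_congr rfl fun P _ => zpow_neg _ _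

variable (hS : RiemannSetting K F)

include hS

theorem pval_ne_zero_of_disj (h : Disj f D) {P : Place K F} (hP : P ∈ D.support) :
    pval P f ≠ 0 :=
  pval_ne_zero hS h.1 (h.ord_eq_zero hP)

theorem dval_ne_zero (h : Disj f D) : dval f D ≠ 0 := by
  rw [dval_eq_prod, Finset.prod_ne_zero_iff]
  exact fun P hP => zpow_ne_zero _ (pval_ne_zero_of_disj hS h hP)

theorem dval_add (h : Disj f D) (h' : Disj f E) : dval f (D + E) = dval f D * dval f E := by
  classical
  refine Finsupp.prod_add_index (fun P _ => zpow_zero _) fun P hP m n => ?_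
  have hP0 : pval P f ≠ 0 := by
    rcases Finset.mem_union.mp hP with hP | hP
    · exact pval_ne_zero_of_disj hS h hP
    · exact pval_ne_zero_of_disj hS h' hP
  exact zpow_add₀ hP0 m n

theorem dval_sub (h : Disj f D) (h' : Disj f E) : dval f (D - E) = dval f D / dval f E := by
  rw [sub_eq_add_neg, dval_add hS h h'.neg, dval_neg, div_eq_mul_inv]

theorem dval_nsmul (h : Disj f D) (n : ℕ) : dval f (n • D) = dval f D ^ n := by
  induction n with
  | zero => simp
  | succ n ih => rw [succ_nsmul, dval_add hS (h.nsmul n) h, ih, pow_succ]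

theorem dval_zsmul (h : Disj f D) (n : ℤ) : dval f (n • D) = dval f D ^ n := by
  rcases n with n | n
  · rw [Int.ofNat_eq_natCast, natCast_zsmul, zpow_natCast]
    exact dval_nsmul hS h n
  · rw [negSucc_zsmul, dval_neg, dval_nsmul hS h, zpow_negSucc]

theorem dval_mul (h : Disj f D) (h' : Disj g D) : dval (f * g) D = dval f D * dval g D := by
  rw [dval, dval, dval, Finsupp.prod, Finsupp.prod, Finsupp.prod, ← Finset.prod_mul_distrib]
  refine Finset.prod_congr rfl fun P hP => ?_
  rw [pval_mul hS (h.ord_eq_zero hP).ge (h'.ord_eq_zero hP).ge, mul_zpow]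

theorem dval_inv (h : Disj f D) : dval f⁻¹ D = (dval f D)⁻¹ := by
  rw [dval, dval, Finsupp.prod, Finsupp.prod, ← Finset.prod_inv_distrib]
  refine Finset.prod_congr rfl fun P hP => ?_
  rw [pval_inv hS h.1 (h.ord_eq_zero hP), inv_zpow]

theorem dval_div (h : Disj f D) (h' : Disj g D) : dval (f / g) D = dval f D / dval g D := by
  rw [div_eq_mul_inv, dval_mul hS h h'.inv, dval_inv hS h', div_eq_mul_inv]

theorem dval_pow (h : Disj f D) (n : ℕ) : dval (f ^ n) D = dval f D ^ n := by
  rw [dval, dval, Finsupp.prod, Finsupp.prod, ← Finset.prod_pow]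
  refine Finset.prod_congr rfl fun P hP => ?_
  rw [pval_pow hS (h.ord_eq_zero hP).ge, ← zpow_natCast, ← zpow_natCast, ← zpow_mul, ← zpow_mul,
    mul_comm]

theorem dval_zpow (h : Disj f D) (n : ℤ) : dval (f ^ n) D = dval f D ^ n := by
  rw [dval, dval, Finsupp.prod, Finsupp.prod, ← Finset.prod_zpow]
  refine Finset.prod_congr rfl fun P hP => ?_
  rw [pval_zpow hS h.1 (h.ord_eq_zero hP), ← zpow_mul, ← zpow_mul, mul_comm]

/-- the value of a nonzero constant: `c(D) = c ^ deg D` -/
theorem dval_algebraMap {a : K} (ha : a ≠ 0) (D : Divisor K F) :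
    dval (algebraMap K F a) D = a ^ Divisor.degree D := by
  induction D using Finsupp.induction with
  | zero => simp
  | single_add P n D _ _ ih =>
    rw [dval_add hS (Disj.const ha _) (Disj.const ha _), ih, dval_single, pval_algebraMap,
      map_add, Divisor.degree_single, hS.deg_one P, Nat.cast_one, mul_one, zpow_add₀ ha]

/-- on divisors of degree `0` the value does not see constant factors -/
theorem dval_const_mul {a : K} (ha : a ≠ 0) (h : Disj f D) (hD : Divisor.degree D = 0) :
    dval (algebraMap K F a * f) D = dval f D := by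
  rw [dval_mul hS (Disj.const ha D) h, dval_algebraMap hS ha, hD, zpow_zero, one_mul]

end DVal


/-! ### The divisor of a function; the contract of Weil reciprocity -/

open Classical in
/-- **the divisor of `f`** (`0` for `f = 0`; junk `0` if `f` has no divisor) -/
def divOf (K : Type*) {F : Type*} [Field K] [Field F] [Algebra K F] (f : F) : Divisor K F :=
  if h : ∃ D : Divisor K F, ∀ P, D P = P.ord f then h.choose else 0

section DivOf

variable {f g : F}

theorem divOf_eq_of_forall {D : Divisor K F} (h : ∀ P, D P = P.ord f) : divOf K f = D := by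
  have hex : ∃ D : Divisor K F, ∀ P, D P = P.ord f := ⟨D, h⟩
  rw [divOf, dif_pos hex]
  ext P
  rw [hex.choose_spec P, h P]

@[simp]
theorem divOf_zero : divOf K (0 : F) = (0 : Divisor K F) :=
  divOf_eq_of_forall fun P => by simp

theorem divOf_algebraMap (a : K) : divOf K (algebraMap K F a) = (0 : Divisor K F) :=
  divOf_eq_of_forall fun P => by rw [Finsupp.zero_apply, ord_const]

@[simp]
theorem divOf_one : divOf K (1 : F) = (0 : Divisor K F) :=
  divOf_eq_of_forall fun P => by simp

variable (hS : RiemannSetting K F)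

include hS

theorem divOf_apply (f : F) (P : Place K F) : divOf K f P = P.ord f := by
  rcases eq_or_ne f 0 with rfl | hf
  · simp
  obtain ⟨D, hD, -⟩ := hS.principal.exists_divisor f hf
  rw [divOf_eq_of_forall hD, hD]

theorem degree_divOf (f : F) : Divisor.degree (divOf K f) = 0 := by
  rcases eq_or_ne f 0 with rfl | hf
  · simp
  obtain ⟨D, hD, hdeg⟩ := hS.principal.exists_divisor f hf
  rw [divOf_eq_of_forall hD, hdeg]

theorem divOf_mem_degZero (f : F) : divOf K f ∈ Divisor.degZero (K := K) (F := F) :=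
  degree_divOf hS f

theorem isPrincipal_divOf (hf : f ≠ 0) : Divisor.IsPrincipal (divOf K f) :=
  ⟨f, hf, divOf_apply hS f⟩

theorem divOf_mem_principal (hf : f ≠ 0) : divOf K f ∈ Divisor.principal (K := K) (F := F) :=
  isPrincipal_divOf hS hf

theorem isPrincipal_iff_exists_divOf {D : Divisor K F} :
    Divisor.IsPrincipal D ↔ ∃ f : F, f ≠ 0 ∧ divOf K f = D :=
  ⟨fun ⟨f, hf, h⟩ => ⟨f, hf, divOf_eq_of_forall h⟩,
    fun ⟨_, hf, h⟩ => h ▸ isPrincipal_divOf hS hf⟩

theorem divOf_mul (hf : f ≠ 0) (hg : g ≠ 0) : divOf K (f * g) = divOf K f + divOf K g :=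
  divOf_eq_of_forall fun P => by
    rw [Finsupp.add_apply, divOf_apply hS, divOf_apply hS, P.ord_mul hf hg]

theorem divOf_inv (f : F) : divOf K f⁻¹ = -divOf K f :=
  divOf_eq_of_forall fun P => by rw [Finsupp.neg_apply, divOf_apply hS, Place.ord_inv]

theorem divOf_div (hf : f ≠ 0) (hg : g ≠ 0) : divOf K (f / g) = divOf K f - divOf K g := by
  rw [div_eq_mul_inv, divOf_mul hS hf (inv_ne_zero hg), divOf_inv hS, sub_eq_add_neg]

theorem divOf_zpow (f : F) (n : ℤ) : divOf K (f ^ n) = n • divOf K f :=
  divOf_eq_of_forall fun P => by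
    rw [Finsupp.smul_apply, divOf_apply hS, P.ord_zpow, smul_eq_mul]

theorem divOf_pow (f : F) (n : ℕ) : divOf K (f ^ n) = n • divOf K f := by
  have := divOf_zpow hS f n
  rwa [zpow_natCast, natCast_zsmul] at this

theorem divOf_const_mul {a : K} (ha : a ≠ 0) (f : F) :
    divOf K (algebraMap K F a * f) = divOf K f := by
  rcases eq_or_ne f 0 with rfl | hf
  · simp
  rw [divOf_mul hS (fun e => ha ((map_eq_zero _).mp e)) hf, divOf_algebraMap, zero_add]

theorem divOf_smul (g : SemilinearAut K F) (f : F) : divOf K (g • f) = g • divOf K f :=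
  divOf_eq_of_forall fun P => by
    rw [SemilinearAut.divisor_smul_apply, divOf_apply hS]
    have := SemilinearAut.ord_smul g (g⁻¹ • P) f
    rw [smul_inv_smul] at this
    exact this.symm

theorem disj_divOf_iff : Disj f (divOf K g) ↔ f ≠ 0 ∧ ∀ P : Place K F, P.ord g ≠ 0 → P.ord f = 0 := by
  unfold Disj
  simp only [divOf_apply hS]

theorem disj_divOf_of_forall (hf : f ≠ 0) (h : ∀ P : Place K F, P.ord f = 0 ∨ P.ord g = 0) :
    Disj f (divOf K g) :=
  (disj_divOf_iff hS).mpr ⟨hf, fun P hP => (h P).resolve_right hP⟩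

/-- functions with the same divisor differ by a nonzero constant -/
theorem exists_const_of_divOf_eq (hf : f ≠ 0) (hg : g ≠ 0) (h : divOf K f = divOf K g) :
    ∃ a : K, a ≠ 0 ∧ f = algebraMap K F a * g := by
  have h0 : ∀ P : Place K F, 0 ≤ P.ord (f / g) := fun P => by
    rw [div_eq_mul_inv, P.ord_mul hf (inv_ne_zero hg), Place.ord_inv, ← divOf_apply hS f,
      ← divOf_apply hS g, h, add_neg_cancel]
  obtain ⟨a, ha⟩ := exists_eq_algebraMap_of_forall_ord_nonneg hS h0
  refine ⟨a, fun e => ?_, ?_⟩
  · rw [e, map_zero] at ha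
    exact div_ne_zero hf hg ha
  · rw [← ha, div_mul_cancel₀ f hg]

end DivOf

/-- **Weil reciprocity** (the contract of block [W1]): `f(div g) = g(div f)` for nonzero
functions with disjoint divisors. -/
def WeilRec (K F : Type*) [Field K] [Field F] [Algebra K F] : Prop :=
  ∀ f g : F, f ≠ 0 → g ≠ 0 → (∀ P : Place K F, P.ord f = 0 ∨ P.ord g = 0) →
    dval f (divOf K g) = dval g (divOf K f)

end Fermat.Agent.T6.helper26

end
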