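import Mathlib
import Fermat.Agent.T6.helper17_W3cDiv
import Fermat.Agent.T6.helper26_PVal

/-!
# T6 [W3c] (helper17), part 3: the value computation `ν(D_y) = ζ · h(D)`

Setting: `F'/F` a finite extension of function fields over `K` (Prelude vocabulary, both
`RiemannSetting`s), `τ : F' ≃ₐ[F] F'`, `z ∈ F'` with `z^ℓ = h ∈ F` and `τ z = ζ z`,
`ℓ D_y = div h`.  Inputs (contracts of the other blocks of T6):

* `CoverDiv F ℓ (tauDiv τ)` (block [W3a]: unramified cyclic cover on divisors, norm formula);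
* `NormVal K F F'` (blocks [W1] / [W3a]): `N(f')(D) = f'(π^* D)`;
* `helper26.WeilRec K F'` (block [W1]): Weil reciprocity on `F'`;
* divisibility of `Pic⁰(F')` by `ℓ` (block [W3b]) and the moving lemma on `F'`.

Output (`exists_pairing_eq`): a divisor `D` of degree `0` on `F` and `ν ∈ Fˣ` with
`div ν = ℓ D`, `ν` disjoint from `D_y`, `h` disjoint from `D`, and

  `ν(D_y) = ζ · h(D)`,

i.e. the Weil pairing of the classes of `D` and `D_y` is `ζ^{±1} ≠ 1`.
-/

set_option autoImplicit false
set_option linter.unusedSectionVars false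
set_option linter.unusedVariables false

noncomputable section

namespace Fermat.Agent.T6.helper17

open AlgebraicCurve Finset
open Fermat.Agent.P2.helper74 (RiemannSetting)
open Fermat.Agent.T6.helper26

variable {K F F' : Type*} [Field K] [Field F] [Field F'] [Algebra K F] [Algebra K F']
  [Algebra F F'] [IsScalarTower K F F'] [Algebra.IsIntegral F F'] [HasPrincipalDivisors K F']
  [Module.Finite F F']

/-- the semilinear automorphism attached to an `F`-automorphism of `F'` -/
def tauAut (τ : F' ≃ₐ[F] F') : SemilinearAut K F' :=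
  SemilinearAut.ofAlgAut (τ.restrictScalars K)

theorem tauAut_smul (τ : F' ≃ₐ[F] F') (x : F') : (tauAut (K := K) τ) • x = τ x := rfl

theorem tauAut_inv_smul (τ : F' ≃ₐ[F] F') (x : F') : (tauAut (K := K) τ)⁻¹ • x = τ.symm x := rfl

theorem baseAut_tauAut (τ : F' ≃ₐ[F] F') : SemilinearAut.baseAut (tauAut (K := K) τ) = 1 := rfl

/-- the action of `τ` on divisors, as an additive homomorphism -/
def tauDiv (τ : F' ≃ₐ[F] F') : Divisor K F' →+ Divisor K F' :=
  DistribSMul.toAddMonoidHom (Divisor K F') (tauAut (K := K) τ)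

theorem tauDiv_apply (τ : F' ≃ₐ[F] F') (D : Divisor K F') :
    tauDiv τ D = (tauAut (K := K) τ) • D := rfl

variable (K F F') in
/-- **the value of a norm** (contract of [W1] / [W3a]): `N(f')(D) = f'(π^* D)`. -/
def NormVal : Prop :=
  ∀ (f' : F') (D : Divisor K F), Disj f' (Divisor.pullback F' D) →
    dval (Algebra.norm F f') D = dval f' (Divisor.pullback F' D)

/-- a divisor vanishing on the zeros and poles of `z` is disjoint from `z` -/
theorem disj_of_mem_offSet {z : F'} (hz : z ≠ 0) {X : Divisor K F'}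
    (hX : X ∈ offSet {w : Place K F' | w.ord z ≠ 0}) : Disj z X := by
  refine ⟨hz, fun P hP => ?_⟩
  by_contra h
  exact hP (hX P h)

/-- **the value computation** -/
theorem exists_pairing_eq (hS : RiemannSetting K F) (hS' : RiemannSetting K F')
    {ℓ : ℕ} (hℓ : ℓ ≠ 0) (τ : F' ≃ₐ[F] F') (C : CoverDiv F ℓ (tauDiv (K := K) τ))
    (hdivis : ∀ c : Divisor K F', Divisor.degree c = 0 →
      ∃ (m : Divisor K F') (g : F'), Divisor.degree m = 0 ∧ g ≠ 0 ∧
        ∀ w : Place K F', (ℓ • m - c) w = w.ord g)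
    (hmove : ∀ (S : Finset (Place K F')) (m : Divisor K F'),
      ∃ φ : F', φ ≠ 0 ∧ ∀ w ∈ S, m w + w.ord φ = 0)
    (hW : WeilRec K F') (hNV : NormVal K F F')
    (z : F') (h : F) (hh : h ≠ 0) (hz : z ^ ℓ = algebraMap F F' h)
    (ζ : K) (hζ0 : ζ ≠ 0) (hζ : τ z = algebraMap K F' ζ * z)
    (hNz : ∃ a : K, a ≠ 0 ∧ Algebra.norm F z = algebraMap K F a * h)
    (Dy : Divisor K F) (hDy : ∀ v : Place K F, ((ℓ : ℤ) • Dy) v = v.ord h)
    (P' : Place K F') (hP' : P'.ord z = 0) :
    ∃ (D : Divisor K F) (ν : F), ν ≠ 0 ∧ Divisor.degree D = 0 ∧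
      (∀ v : Place K F, v.ord ν = ((ℓ : ℤ) • D) v) ∧ Disj ν Dy ∧ Disj h D ∧
      dval ν Dy = ζ * dval h D := by
  classical
  have hℓZ : (ℓ : ℤ) ≠ 0 := by exact_mod_cast hℓ
  have hz0 : z ≠ 0 := by
    rintro rfl
    rw [zero_pow hℓ] at hz
    exact hh ((map_eq_zero (algebraMap F F')).mp hz.symm)
  have hah : algebraMap F F' h ≠ 0 := (map_ne_zero (algebraMap F F')).mpr hh
  set g := tauAut (K := K) τ with hg
  set S : Set (Place K F') := {w | w.ord z ≠ 0} with hSdef
  -- the divisor of `z`
  have hordz : ∀ w : Place K F', w.ord (algebraMap F F' h) = ℓ * w.ord z := by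
    intro w
    rw [← hz, ← zpow_natCast, w.ord_zpow]
  have hpullDy : ∀ w : Place K F', Divisor.pullback F' Dy w = w.ord z := by
    intro w
    have h1 : Divisor.pullback F' ((ℓ : ℤ) • Dy) w = w.ord (algebraMap F F' h) :=
      Divisor.pullback_apply_eq_ord hDy w
    rw [map_zsmul, Finsupp.smul_apply, smul_eq_mul, hordz] at h1
    exact mul_left_cancel₀ hℓZ h1
  have hdivz : divOf K z = Divisor.pullback F' Dy :=
    divOf_eq_of_forall fun w => hpullDy w
  -- `S` is finite and `τ`-stable
  have hSfin : S.Finite := by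
    have : S = ((Divisor.pullback F' Dy).support : Set (Place K F')) := by
      ext w
      show w.ord z ≠ 0 ↔ w ∈ ((Divisor.pullback F' Dy).support : Set (Place K F'))
      rw [Finset.mem_coe, Finsupp.mem_support_iff, hpullDy]
    rw [this]
    exact Finset.finite_toSet _
  have hordτ : ∀ w : Place K F', (g⁻¹ • w).ord z = w.ord z := by
    intro w
    have h1 := SemilinearAut.ord_smul g (g⁻¹ • w) z
    rw [smul_inv_smul, hg, tauAut_smul, hζ,
      w.ord_mul ((map_ne_zero (algebraMap K F')).mpr hζ0) hz0, ord_const, zero_add] at h1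
    exact h1.symm
  have hSstab : ∀ D' ∈ offSet S, tauDiv (K := K) τ D' ∈ offSet S := by
    intro D' hD' w hw
    rw [tauDiv_apply, SemilinearAut.divisor_smul_apply]
    refine hD' _ ?_
    show (g⁻¹ • w).ord z ≠ 0
    rw [hordτ]
    exact hw
  have hP'S : P' ∉ S := fun h => h hP'
  -- the divisor-level construction
  obtain ⟨V, D, ν', hν', hVdeg, hDdeg, hνord, hNord, hVS, hDS⟩ :=
    exists_kummer_pair C hdivis S hSstab
      (fun m => by
        obtain ⟨φ, hφ, hφS⟩ := hmove hSfin.toFinset m
        exact ⟨φ, hφ, fun w hw => hφS w (hSfin.mem_toFinset.mpr hw)⟩)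
      P' hP'S (hS'.deg_one P')
  have hTVS : tauDiv (K := K) τ V ∈ offSet S := hSstab V hVS
  -- disjointness
  have dzV : Disj z V := disj_of_mem_offSet hz0 hVS
  have dzTV : Disj z (tauDiv (K := K) τ V) := disj_of_mem_offSet hz0 hTVS
  have dzD : Disj z (Divisor.pullback F' D) := disj_of_mem_offSet hz0 hDS
  have hνS : ∀ w ∈ S, w.ord ν' = 0 := by
    intro w hw
    rw [hνord, Finsupp.add_apply, Finsupp.sub_apply, hVS w hw, hTVS w hw, hDS w hw]
    norm_num
  have dνDy : Disj ν' (Divisor.pullback F' Dy) := by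
    refine ⟨hν', fun w hw => hνS w ?_⟩
    rwa [hpullDy] at hw
  -- every place of `F` lies under a place of `F'`
  have hsurj : ∀ v : Place K F, ∃ w : Place K F', w.restrict F = v := by
    intro v
    by_contra hne0
    have hne : ∀ w : Place K F', w.restrict F ≠ v := fun w hw => hne0 ⟨w, hw⟩
    have h0 : Divisor.pullback F' (Finsupp.single v (1 : ℤ)) = 0 := by
      ext w
      rw [Divisor.pullback_single_apply_of_restrict_ne (hne w), Finsupp.zero_apply]
    have h1 := C.push_pull (Finsupp.single v (1 : ℤ))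
    rw [h0, map_zero] at h1
    have h2 := congrArg (fun E : Divisor K F => E v) h1
    simp only [Finsupp.zero_apply, Finsupp.smul_apply, Finsupp.single_eq_same, nsmul_eq_mul,
      mul_one] at h2
    exact hℓZ h2.symm
  have hD0 : ∀ v : Place K F, v.ord h ≠ 0 → D v = 0 := by
    intro v hv
    obtain ⟨w, rfl⟩ := hsurj v
    have hwS : w ∈ S := by
      show w.ord z ≠ 0
      intro h0
      have h1 := hordz w
      rw [h0, mul_zero, Place.ord_restrict] at h1
      rcases mul_eq_zero.mp h1 with h2 | h2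
      · have := Place.ramificationIndex_pos (F := F) w
        omega
      · exact hv h2
    have h3 := hDS w hwS
    rw [Divisor.pullback_apply] at h3
    rcases mul_eq_zero.mp h3 with h4 | h4
    · have := Place.ramificationIndex_pos (F := F) w
      omega
    · exact h4
  have dhD : Disj h D := ⟨hh, fun v hv => by
    by_contra h0
    exact hv (hD0 v h0)⟩
  have hN0 : Algebra.norm F ν' ≠ 0 := Algebra.norm_ne_zero_iff.mpr hν'
  have dνDy' : Disj (Algebra.norm F ν') Dy := by
    refine ⟨hN0, fun v hv => ?_⟩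
    rw [hNord, Finsupp.smul_apply, smul_eq_mul]
    have : v.ord h ≠ 0 := by
      rw [← hDy, Finsupp.smul_apply, smul_eq_mul]
      exact mul_ne_zero hℓZ hv
    rw [hD0 v this, mul_zero]
  refine ⟨D, Algebra.norm F ν', hN0, hDdeg, hNord, dνDy', dhD, ?_⟩
  -- the computation
  have hdivν : divOf K ν' = V - tauDiv (K := K) τ V + Divisor.pullback F' D :=
    divOf_eq_of_forall fun w => (hνord w).symm
  have hWeil : dval ν' (divOf K z) = dval z (divOf K ν') := by
    refine hW ν' z hν' hz0 fun w => ?_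
    by_cases hw : w.ord z = 0
    · exact Or.inr hw
    · exact Or.inl (hνS w hw)
  -- `z(τ V) = ζ⁻¹ z(V)`
  have hτsymm : τ.symm z = algebraMap K F' ζ⁻¹ * z := by
    apply τ.injective
    rw [AlgEquiv.apply_symm_apply, map_mul, hζ, ← mul_assoc]
    have : τ (algebraMap K F' ζ⁻¹) = algebraMap K F' ζ⁻¹ := by
      rw [IsScalarTower.algebraMap_apply K F F']
      exact τ.commutes _
    rw [this, ← map_mul, inv_mul_cancel₀ hζ0, map_one, one_mul]
  have hzTV : dval z (tauDiv (K := K) τ V) = ζ⁻¹ * dval z V := by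
    have h1 := dval_smul g (g⁻¹ • z) V
    rw [smul_inv_smul, hg, baseAut_tauAut, tauAut_inv_smul, hτsymm] at h1
    rw [tauDiv_apply, h1]
    have hd : Disj (algebraMap K F' ζ⁻¹) V := Disj.const (inv_ne_zero hζ0) V
    rw [RingAut.one_apply, dval_mul hS' hd dzV, dval_algebraMap hS' (inv_ne_zero hζ0), hVdeg,
      zpow_one]
  -- `z(π^* D) = h(D)`
  have hzD : dval z (Divisor.pullback F' D) = dval h D := by
    obtain ⟨a, ha, hNz'⟩ := hNz
    rw [← hNV z D dzD, hNz', dval_const_mul hS ha dhD hDdeg]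
  have hzV0 : dval z V ≠ 0 := dval_ne_zero hS' dzV
  calc dval (Algebra.norm F ν') Dy = dval ν' (Divisor.pullback F' Dy) := hNV ν' Dy dνDy
    _ = dval z (divOf K ν') := by rw [← hdivz, hWeil]
    _ = dval z V / dval z (tauDiv (K := K) τ V) * dval z (Divisor.pullback F' D) := by
        rw [hdivν, dval_add hS' (dzV.sub dzTV) dzD, dval_sub hS' dzV dzTV]
    _ = ζ * dval h D := by
        rw [hzTV, hzD]
        field_simp

end Fermat.Agent.T6.helper17

end
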