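import Mathlib
import Fermat.Agent.T6.helper17_W3cVal
import Fermat.Agent.P2.helper74_NonSpecial

/-!
# T6 [W3c] (helper17), part 4: adapters for the inputs of `exists_pairing_eq`

* `exists_move` : the moving lemma in the shape `hmove` (from P2 `exists_prescribed_ord`);
* `exists_norm_eq` : `N(z) = a · h` for `z^ℓ = h`, `[F' : F] = ℓ` (shape `hNz`);
* `hdivis_of_pic0` : divisibility of `Pic⁰(F')` in the shape `hdivis`;
* `exists_pairing_eq'` : `exists_pairing_eq` with these inputs plugged in.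
-/

set_option autoImplicit false
set_option linter.unusedSectionVars false
set_option linter.unusedVariables false

noncomputable section

namespace Fermat.Agent.T6.helper17

open AlgebraicCurve Finset
open Fermat.Agent.P2.helper74 (RiemannSetting ell)
open Fermat.Agent.T6.helper26

section Move

variable {K F : Type*} [Field K] [Field F] [Algebra K F]

/-- **moving lemma**: a function with prescribed orders `-m` on a finite set of places -/
theorem exists_move (hS : RiemannSetting K F) {g : ℕ} {c : ℤ}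
    (hc : ∀ D : Divisor K F, c ≤ Divisor.degree D → (ell D : ℤ) + g = Divisor.degree D + 1)
    [Infinite K] (S : Finset (Place K F)) (m : Divisor K F) :
    ∃ φ : F, φ ≠ 0 ∧ ∀ w ∈ S, m w + w.ord φ = 0 := by
  have := Fermat.Agent.P2.helper74.infinite_place hS hc
  obtain ⟨Q₁, hQ₁⟩ := Infinite.exists_notMem_finset S
  obtain ⟨t, ht, hts, -⟩ :=
    Fermat.Agent.P2.helper74.exists_prescribed_ord hS hc S (fun P => -m P) Q₁ hQ₁
  exact ⟨t, ht, fun w hw => by rw [hts w hw]; ring⟩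

/-- divisibility of `Pic⁰` in divisor form -/
theorem hdivis_of_pic0 {ℓ : ℕ} (hd : ∀ x : Pic0 K F, ∃ y : Pic0 K F, ℓ • y = x) :
    ∀ c : Divisor K F, Divisor.degree c = 0 →
      ∃ (m : Divisor K F) (g : F), Divisor.degree m = 0 ∧ g ≠ 0 ∧
        ∀ w : Place K F, (ℓ • m - c) w = w.ord g := by
  intro c hc
  obtain ⟨y, hy⟩ := hd (Pic0.mk ⟨c, Divisor.mem_degZero.mpr hc⟩)
  obtain ⟨m, rfl⟩ := Pic0.mk_surjective y
  have h1 : Pic0.mk (ℓ • m - ⟨c, Divisor.mem_degZero.mpr hc⟩) = 0 := by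
    have : Pic0.mk (ℓ • m - ⟨c, Divisor.mem_degZero.mpr hc⟩) =
        ℓ • Pic0.mk m - Pic0.mk ⟨c, Divisor.mem_degZero.mpr hc⟩ := rfl
    rw [this, hy, sub_self]
  have h2 := (QuotientAddGroup.eq_zero_iff _).mp h1
  obtain ⟨g, hg, hgD⟩ : Divisor.IsPrincipal
      ((ℓ • m - ⟨c, Divisor.mem_degZero.mpr hc⟩ : Divisor.degZero (K := K) (F := F)) :
        Divisor K F) := Divisor.mem_principal.mp (AddSubgroup.mem_addSubgroupOf.mp h2)
  refine ⟨(m : Divisor K F), g, Divisor.mem_degZero.mp m.2, hg, fun w => ?_⟩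
  rw [← hgD w]
  rfl

end Move

variable {K F F' : Type*} [Field K] [Field F] [Field F'] [Algebra K F] [Algebra K F']
  [Algebra F F'] [IsScalarTower K F F'] [Algebra.IsIntegral F F'] [HasPrincipalDivisors K F']
  [Module.Finite F F']

/-- **the norm of a Kummer generator**: `N(z) = a · h` with a nonzero constant `a`. -/
theorem exists_norm_eq (hS : RiemannSetting K F) {ℓ : ℕ} (hℓ : ℓ ≠ 0)
    (hfr : Module.finrank F F' = ℓ) (z : F') (h : F) (hh : h ≠ 0)
    (hz : z ^ ℓ = algebraMap F F' h) :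
    ∃ a : K, a ≠ 0 ∧ Algebra.norm F z = algebraMap K F a * h := by
  have hℓZ : (ℓ : ℤ) ≠ 0 := by exact_mod_cast hℓ
  have hz0 : z ≠ 0 := by
    rintro rfl
    rw [zero_pow hℓ] at hz
    exact hh ((map_eq_zero (algebraMap F F')).mp hz.symm)
  have hN0 : Algebra.norm F z ≠ 0 := Algebra.norm_ne_zero_iff.mpr hz0
  have hpow : Algebra.norm F z ^ ℓ = h ^ ℓ := by
    rw [← map_pow, hz, Algebra.norm_algebraMap, hfr]
  set ξ : F := Algebra.norm F z / h with hξ
  have hξ0 : ξ ≠ 0 := div_ne_zero hN0 hh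
  have hξpow : ξ ^ ℓ = 1 := by
    rw [hξ, div_pow, hpow, div_self (pow_ne_zero _ hh)]
  have hord : ∀ v : Place K F, 0 ≤ v.ord ξ := by
    intro v
    have h1 : v.ord (ξ ^ (ℓ : ℤ)) = ℓ * v.ord ξ := v.ord_zpow ξ ℓ
    rw [zpow_natCast, hξpow, Place.ord_one] at h1
    rcases mul_eq_zero.mp h1.symm with h2 | h2
    · exact absurd h2 hℓZ
    · exact h2.ge
  obtain ⟨a, ha⟩ := Fermat.Agent.P2.helper74.exists_eq_algebraMap_of_forall_ord_nonneg hS hord
  refine ⟨a, fun e => ?_, ?_⟩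
  · rw [e, map_zero] at ha
    exact hξ0 ha
  · rw [← ha, hξ, div_mul_cancel₀ _ hh]

/-- **the value computation, with the generic inputs plugged in**: the remaining hypotheses
are the contracts of [W3a] (`CoverDiv`, `finrank`, `τ z = ζ z`), [W1] (`WeilRec`, `NormVal`)
and [W3b] (divisibility of `Pic⁰(F')`). -/
theorem exists_pairing_eq' [Infinite K] (hS : RiemannSetting K F) (hS' : RiemannSetting K F')
    {g' : ℕ} {c' : ℤ}
    (hc' : ∀ D : Divisor K F', c' ≤ Divisor.degree D →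
      (ell D : ℤ) + g' = Divisor.degree D + 1)
    {ℓ : ℕ} (hℓ : ℓ ≠ 0) (hfr : Module.finrank F F' = ℓ) (τ : F' ≃ₐ[F] F')
    (C : CoverDiv F ℓ (tauDiv (K := K) τ))
    (hd : ∀ x : Pic0 K F', ∃ y : Pic0 K F', ℓ • y = x)
    (hW : WeilRec K F') (hNV : NormVal K F F')
    (z : F') (h : F) (hh : h ≠ 0) (hz : z ^ ℓ = algebraMap F F' h)
    (ζ : K) (hζ0 : ζ ≠ 0) (hζ : τ z = algebraMap K F' ζ * z)
    (Dy : Divisor K F) (hDy : ∀ v : Place K F, ((ℓ : ℤ) • Dy) v = v.ord h) :
    ∃ (D : Divisor K F) (ν : F), ν ≠ 0 ∧ Divisor.degree D = 0 ∧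
      (∀ v : Place K F, v.ord ν = ((ℓ : ℤ) • D) v) ∧ Disj ν Dy ∧ Disj h D ∧
      dval ν Dy = ζ * dval h D := by
  classical
  have hz0 : z ≠ 0 := by
    rintro rfl
    rw [zero_pow hℓ] at hz
    exact hh ((map_eq_zero (algebraMap F F')).mp hz.symm)
  -- a place off the divisor of `z`
  have := Fermat.Agent.P2.helper74.infinite_place hS' hc'
  obtain ⟨P', hP'⟩ := Infinite.exists_notMem_finset (divOf K z).support
  have hP'0 : P'.ord z = 0 := by
    rw [Finsupp.mem_support_iff, not_not, divOf_apply hS'] at hP'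
    exact hP'
  exact exists_pairing_eq hS hS' hℓ τ C (hdivis_of_pic0 hd)
    (fun S m => exists_move hS' hc' S m) hW hNV z h hh hz ζ hζ0 hζ
    (exists_norm_eq hS hℓ hfr z h hh hz) Dy hDy P' hP'0

end Fermat.Agent.T6.helper17

end
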