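/-
TIER 6 (S19), block [W3a], helper9: **places of a Kummer cover** `F' = F(h^(1/ℓ))`, `div h = ℓ D`.

Generic: `K` algebraically closed of characteristic zero, `F'/F` a finite extension of function
fields over `K` (both `RiemannSetting`s), `z ∈ F'` with `z ^ ℓ = h`, `∀ v, ord_v h = ℓ D(v)`,
and an automorphism `τ` of `F'` over `F` with `τ z = ζ z`, `ζ` a primitive `ℓ`-th root of unity.

* `IsKummerCover.exists_value` : at every place `w` of `F'` over `v` the normalised generator
  `z₁ = z / t ^ D(v)` takes a value `ζ ^ j c₀` (`c₀ ^ ℓ` = value of `h / t ^ (ℓ D v)` at `v`);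
* `IsKummerCover.smul_pow_ne` : `τ ^ i • w ≠ w` for `0 < i < ℓ` (free action);
* `IsKummerCover.restrict_smul` : `τ` preserves the fibres of `restrict`.
-/
import Fermat.Agent.P3.helper58_FFExt
import Fermat.Agent.P2.helper74_Riemann
import Fermat.Agent.S24.helper82_FFBasic

set_option autoImplicit false
set_option linter.unusedSectionVars false
set_option linter.style.haveILetI false
set_option linter.unusedVariables false

noncomputable section

namespace Fermat.Agent.T6.helper9

open AlgebraicCurve Fermat.Agent.P2.helper74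

variable {K F F' : Type*} [Field K] [Field F] [Field F'] [Algebra K F] [Algebra K F']
  [Algebra F F'] [IsScalarTower K F F']

/-- **the data of a Kummer cover**: `z ^ ℓ = h`, `div h = ℓ D`, `τ` an automorphism of `F'`
over `F` with `τ z = ζ z`. -/
structure IsKummerCover (ℓ : ℕ) (h : F) (D : Divisor K F) (z : F') (ζ : K)
    (τ : F' ≃ₐ[K] F') : Prop where
  two_le : 2 ≤ ℓ
  h_ne : h ≠ 0
  pow_eq : z ^ ℓ = algebraMap F F' h
  ord_h : ∀ v : Place K F, v.ord h = ℓ * D v
  zeta : IsPrimitiveRoot ζ ℓ
  tau_fix : ∀ f : F, τ (algebraMap F F' f) = algebraMap F F' f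
  tau_z : τ z = algebraMap K F' ζ * z

namespace IsKummerCover

variable {ℓ : ℕ} {h : F} {D : Divisor K F} {z : F'} {ζ : K} {τ : F' ≃ₐ[K] F'}

section Basic

variable (H : IsKummerCover ℓ h D z ζ τ)
include H

theorem ell_pos : 0 < ℓ := by have := H.two_le; omega

theorem ell_ne_zero : ℓ ≠ 0 := H.ell_pos.ne'

theorem z_ne : z ≠ 0 := by
  intro hz
  have h1 := H.pow_eq
  rw [hz, zero_pow H.ell_ne_zero] at h1
  exact H.h_ne ((algebraMap F F').injective (by rw [← h1, map_zero]))

theorem zeta_ne_zero : ζ ≠ 0 := H.zeta.ne_zero H.ell_ne_zero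

theorem zeta_ne_one : ζ ≠ 1 := H.zeta.ne_one (by have := H.two_le; omega)

/-- `τ ^ i` fixes `F` -/
theorem tau_pow_fix (i : ℕ) (f : F) : (τ ^ i) (algebraMap F F' f) = algebraMap F F' f := by
  induction i with
  | zero => simp
  | succ i ih => rw [pow_succ, AlgEquiv.mul_apply, H.tau_fix, ih]

/-- `τ ^ i z = ζ ^ i z` -/
theorem tau_pow_z (i : ℕ) : (τ ^ i) z = algebraMap K F' (ζ ^ i) * z := by
  induction i with
  | zero => simp
  | succ i ih =>
    rw [pow_succ, AlgEquiv.mul_apply, H.tau_z, map_mul, AlgEquiv.commutes, ih, pow_succ, map_mul]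
    ring

theorem tau_inv_fix (f : F) : τ⁻¹ (algebraMap F F' f) = algebraMap F F' f := by
  have := H.tau_fix f
  calc τ⁻¹ (algebraMap F F' f) = τ⁻¹ (τ (algebraMap F F' f)) := by rw [this]
    _ = algebraMap F F' f := by
      rw [← AlgEquiv.mul_apply, inv_mul_cancel]; rfl

variable [FiniteDimensional F F']

/-- `τ` preserves the fibres of `restrict` -/
theorem restrict_smul (w : Place K F') : (τ • w).restrict F = w.restrict F := by
  apply Place.ext
  ext f
  rw [Place.mem_restrict_iff, Place.mem_restrict_iff, Place.smul_toValuationSubring,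
    ValuationSubring.mem_pointwise_smul_iff_inv_smul_mem]
  have : τ⁻¹ • algebraMap F F' f = algebraMap F F' f := H.tau_inv_fix f
  rw [this]

theorem restrict_pow_smul (w : Place K F') (i : ℕ) : (τ ^ i • w).restrict F = w.restrict F := by
  induction i with
  | zero => simp
  | succ i ih => rw [pow_succ', mul_smul, H.restrict_smul, ih]

/-- the ramification index is `τ`-invariant -/
theorem ramificationIndex_smul (w : Place K F') :
    (τ • w).ramificationIndex F = w.ramificationIndex F := by
  obtain ⟨π, hπ⟩ := IsDiscreteValuationRing.exists_irreducible (w.restrict F).toValuationSubring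
  have h1 : (w.restrict F).ord (π : F) = 1 := (w.restrict F).ord_coe_irreducible hπ
  have h2 := w.ord_restrict (π : F)
  have h3 := (τ • w).ord_restrict (π : F)
  rw [H.restrict_smul, h1, mul_one] at h3
  rw [h1, mul_one] at h2
  have h4 : (τ • w).ord (algebraMap F F' (π : F)) = w.ord (algebraMap F F' (π : F)) := by
    have := Place.ord_smul τ w (algebraMap F F' (π : F))
    rwa [H.tau_fix] at this
  rw [h2, h3] at h4
  exact_mod_cast h4

/-- the order of `z` at a place `w` over `v` is `e(w) D(v)` -/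
theorem ord_z (w : Place K F') :
    w.ord z = (w.ramificationIndex F : ℤ) * D (w.restrict F) := by
  have h1 : w.ord (z ^ ℓ) = ℓ * w.ord z := by
    have := w.ord_zpow z (ℓ : ℤ)
    rwa [zpow_natCast] at this
  rw [H.pow_eq, w.ord_restrict, H.ord_h] at h1
  have hℓ : (ℓ : ℤ) ≠ 0 := by exact_mod_cast H.ell_ne_zero
  have : (ℓ : ℤ) * w.ord z = ℓ * ((w.ramificationIndex F : ℤ) * D (w.restrict F)) := by
    rw [← h1]; ring
  exact mul_left_cancel₀ hℓ this

end Basic

/-! ### The normalised generator at a place `v` of `F` -/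

section Local

variable (H : IsKummerCover ℓ h D z ζ τ) [FiniteDimensional F F']
variable (v : Place K F) (t : F)

/-- the normalised generator `z₁ = z / t ^ D(v)` -/
def z1 (D : Divisor K F) (z : F') (v : Place K F) (t : F) : F' :=
  z * (algebraMap F F' t) ^ (-(D v))

/-- the normalised unit `u = h / t ^ (ℓ D(v))` -/
def u1 (ℓ : ℕ) (h : F) (D : Divisor K F) (v : Place K F) (t : F) : F :=
  h * t ^ (-((ℓ : ℤ) * D v))

include H

theorem z1_pow (ht : t ≠ 0) : (z1 D z v t) ^ ℓ = algebraMap F F' (u1 ℓ h D v t) := by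
  rw [z1, u1, mul_pow, H.pow_eq, map_mul, map_zpow₀, ← zpow_natCast ((algebraMap F F' t) ^ _),
    ← zpow_mul]
  congr 2
  ring

theorem ord_u1 (ht : v.ord t = 1) : v.ord (u1 ℓ h D v t) = 0 := by
  have ht0 : t ≠ 0 := ne_zero_of_ord_ne_zero v (by rw [ht]; exact one_ne_zero)
  rw [u1, v.ord_mul H.h_ne (zpow_ne_zero _ ht0), v.ord_zpow, H.ord_h, ht]
  ring

theorem u1_ne (ht : t ≠ 0) : u1 ℓ h D v t ≠ 0 :=
  mul_ne_zero H.h_ne (zpow_ne_zero _ ht)

theorem z1_ne (ht : t ≠ 0) : z1 D z v t ≠ 0 :=
  mul_ne_zero H.z_ne (zpow_ne_zero _ (by simpa using ht))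

theorem tau_z1 : τ (z1 D z v t) = algebraMap K F' ζ * z1 D z v t := by
  rw [z1, map_mul, map_zpow₀, H.tau_fix, H.tau_z]
  ring

theorem tau_pow_z1 (i : ℕ) : (τ ^ i) (z1 D z v t) = algebraMap K F' (ζ ^ i) * z1 D z v t := by
  induction i with
  | zero => simp
  | succ i ih =>
    rw [pow_succ, AlgEquiv.mul_apply, H.tau_z1, map_mul, AlgEquiv.commutes, ih, pow_succ, map_mul]
    ring

/-- `z₁` is a unit at every place over `v` -/
theorem ord_z1 (ht : v.ord t = 1) (w : Place K F') (hw : w.restrict F = v) :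
    w.ord (z1 D z v t) = 0 := by
  have ht0 : t ≠ 0 := ne_zero_of_ord_ne_zero v (by rw [ht]; exact one_ne_zero)
  rw [z1, w.ord_mul H.z_ne (zpow_ne_zero _ (by simpa using ht0)), w.ord_zpow, H.ord_z,
    w.ord_restrict, hw, ht]
  ring

/-- `z₁` is not a constant -/
theorem z1_ne_const (ht : t ≠ 0) (a : K) : z1 D z v t ≠ algebraMap K F' a := by
  intro h1
  have h2 := H.tau_z1 v t
  rw [h1, AlgEquiv.commutes, ← h1] at h2
  have h3 : (algebraMap K F' ζ - 1) * z1 D z v t = 0 := by rw [sub_mul, one_mul, ← h2, sub_self]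
  rcases mul_eq_zero.mp h3 with h4 | h4
  · have h5 : algebraMap K F' ζ = algebraMap K F' 1 := by rw [map_one]; exact sub_eq_zero.mp h4
    exact H.zeta_ne_one ((algebraMap K F').injective h5)
  · exact H.z1_ne v t ht h4

end Local

/-! ### Values of the normalised generator -/

section Value

variable (H : IsKummerCover ℓ h D z ζ τ) [FiniteDimensional F F']

omit [IsScalarTower K F F'] in
/-- two "values" of the same element at a place coincide -/
theorem val_unique (w : Place K F') {f : F'} {a b : K}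
    (ha : 0 < w.ord (f - algebraMap K F' a)) (hb : 0 < w.ord (f - algebraMap K F' b)) :
    a = b := by
  by_contra hab
  have h1 : (f - algebraMap K F' b) + (-(f - algebraMap K F' a)) = algebraMap K F' (a - b) := by
    rw [map_sub]; ring
  have h2 : algebraMap K F' (a - b) ≠ 0 := by
    rw [Ne, map_eq_zero]; exact sub_ne_zero.mpr hab
  have h3 := ord_add_ge w (f := f - algebraMap K F' b) (g := -(f - algebraMap K F' a))
    (by rw [h1]; exact h2)
  rw [h1, Fermat.Agent.S24.helper82.ord_algebraMap] at h3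
  have h4 : w.ord (-(f - algebraMap K F' a)) = w.ord (f - algebraMap K F' a) := by
    rcases eq_or_ne (f - algebraMap K F' a) 0 with h0 | h0
    · rw [h0, neg_zero]
    · have : -(f - algebraMap K F' a) = algebraMap K F' (-1) * (f - algebraMap K F' a) := by
        rw [map_neg, map_one]; ring
      rw [this, w.ord_mul (by rw [Ne, map_eq_zero]; norm_num) h0,
        Fermat.Agent.S24.helper82.ord_algebraMap, zero_add]
  rw [h4] at h3
  have := le_min_iff.mp (le_refl (min (w.ord (f - algebraMap K F' b))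
    (w.ord (f - algebraMap K F' a))))
  have h5 : 0 < min (w.ord (f - algebraMap K F' b)) (w.ord (f - algebraMap K F' a)) :=
    lt_min hb ha
  omega

include H

/-- translation of values by `τ` -/
theorem val_smul (v : Place K F) (t : F) (w : Place K F') {a : K}
    (ha : 0 < w.ord (z1 D z v t - algebraMap K F' a)) :
    0 < (τ • w).ord (z1 D z v t - algebraMap K F' (ζ⁻¹ * a)) := by
  have h1 := Place.ord_smul τ w (z1 D z v t - algebraMap K F' a)
  rw [map_sub, H.tau_z1, AlgEquiv.commutes] at h1
  have h2 : algebraMap K F' ζ * z1 D z v t - algebraMap K F' a =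
      algebraMap K F' ζ * (z1 D z v t - algebraMap K F' (ζ⁻¹ * a)) := by
    rw [mul_sub, ← map_mul, ← mul_assoc, mul_inv_cancel₀ H.zeta_ne_zero, one_mul]
  have h3 : z1 D z v t - algebraMap K F' (ζ⁻¹ * a) ≠ 0 := by
    intro h0
    rw [h2, h0, mul_zero, Place.ord_zero] at h1
    omega
  rw [h2, (τ • w).ord_mul (by rw [Ne, map_eq_zero]; exact H.zeta_ne_zero) h3,
    Fermat.Agent.S24.helper82.ord_algebraMap, zero_add] at h1
  omega

theorem val_pow_smul (v : Place K F) (t : F) (w : Place K F') {a : K}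
    (ha : 0 < w.ord (z1 D z v t - algebraMap K F' a)) (i : ℕ) :
    0 < (τ ^ i • w).ord (z1 D z v t - algebraMap K F' ((ζ⁻¹) ^ i * a)) := by
  induction i with
  | zero => simpa using ha
  | succ i ih =>
    have := H.val_smul v t (τ ^ i • w) ih
    rw [← mul_smul, ← pow_succ', ← mul_assoc, ← pow_succ'] at this
    exact this

/-- **free action**: if `z₁` has a nonzero value at `w`, the places `τ ^ i • w`, `i < ℓ`, are
pairwise distinct. -/
theorem pow_smul_injOn (v : Place K F) (t : F) (w : Place K F') {a : K} (ha0 : a ≠ 0)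
    (ha : 0 < w.ord (z1 D z v t - algebraMap K F' a)) :
    Set.InjOn (fun i : ℕ => τ ^ i • w) (Finset.range ℓ : Set ℕ) := by
  intro i hi j hj hij
  simp only [Finset.coe_range, Set.mem_Iio] at hi hj
  have h1 := H.val_pow_smul v t w ha i
  have h2 := H.val_pow_smul v t w ha j
  simp only at hij
  rw [hij] at h1
  have h3 := val_unique _ h1 h2
  have h4 : (ζ⁻¹) ^ i = (ζ⁻¹) ^ j := mul_right_cancel₀ ha0 h3
  have hζ' : IsPrimitiveRoot ζ⁻¹ ℓ := H.zeta.inv
  exact hζ'.pow_inj hi hj h4

end Value

/-! ### Existence of values and the structure of the fibres -/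

section Fiber

omit [IsScalarTower K F F'] [Algebra F F'] [Algebra K F] in
theorem ord_prod (w : Place K F') {ι : Type*} (s : Finset ι) (f : ι → F')
    (hf : ∀ i ∈ s, f i ≠ 0) : w.ord (∏ i ∈ s, f i) = ∑ i ∈ s, w.ord (f i) := by
  classical
  induction s using Finset.induction_on with
  | empty => simp
  | insert a s ha ih =>
    rw [Finset.prod_insert ha, Finset.sum_insert ha,
      w.ord_mul (hf a (Finset.mem_insert_self a s))
        (Finset.prod_ne_zero_iff.mpr fun i hi => hf i (Finset.mem_insert_of_mem hi)),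
      ih fun i hi => hf i (Finset.mem_insert_of_mem hi)]

variable (H : IsKummerCover ℓ h D z ζ τ) [FiniteDimensional F F'] [IsAlgClosed K]
  (hS : RiemannSetting K F)
include H hS

/-- **values of the normalised generator**: there is `c₀ ≠ 0` such that at every place `w` over
`v` the element `z₁ = z / t ^ D(v)` takes one of the values `ζ ^ j c₀`. -/
theorem exists_value (v : Place K F) (t : F) (ht : v.ord t = 1) :
    ∃ c₀ : K, c₀ ≠ 0 ∧ ∀ w : Place K F', w.restrict F = v →
      ∃ j ∈ Finset.range ℓ, 0 < w.ord (z1 D z v t - algebraMap K F' (ζ ^ j * c₀)) := by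
  have ht0 : t ≠ 0 := ne_zero_of_ord_ne_zero v (by rw [ht]; exact one_ne_zero)
  have hu0 := H.ord_u1 v t ht
  obtain ⟨c, hc⟩ := hS.residue v (u1 ℓ h D v t) hu0.ge
  obtain ⟨c₀, hc₀⟩ := IsAlgClosed.exists_pow_nat_eq c H.ell_pos
  -- the product formula
  have hζ' : IsPrimitiveRoot (algebraMap K F' ζ) ℓ :=
    H.zeta.map_of_injective (algebraMap K F').injective
  have hprod : algebraMap F F' (u1 ℓ h D v t) - algebraMap K F' c =
      ∏ i ∈ Finset.range ℓ, (z1 D z v t - algebraMap K F' (ζ ^ i * c₀)) := by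
    have h1 := X_pow_sub_C_eq_prod hζ' H.ell_pos
      (show (algebraMap K F' c₀) ^ ℓ = algebraMap K F' c by rw [← map_pow, hc₀])
    have h2 := congrArg (Polynomial.eval (z1 D z v t)) h1
    rw [Polynomial.eval_sub, Polynomial.eval_pow, Polynomial.eval_X, Polynomial.eval_C,
      Polynomial.eval_prod, H.z1_pow v t ht0] at h2
    rw [h2]
    refine Finset.prod_congr rfl fun i _ => ?_
    rw [Polynomial.eval_sub, Polynomial.eval_X, Polynomial.eval_C, map_mul, map_pow]
  have hfac : ∀ i ∈ Finset.range ℓ, z1 D z v t - algebraMap K F' (ζ ^ i * c₀) ≠ 0 :=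
    fun i _ h0 => H.z1_ne_const v t ht0 _ (sub_eq_zero.mp h0)
  have hne : algebraMap F F' (u1 ℓ h D v t) - algebraMap K F' c ≠ 0 := by
    rw [hprod]; exact Finset.prod_ne_zero_iff.mpr hfac
  have hne' : u1 ℓ h D v t - algebraMap K F c ≠ 0 := by
    intro h0
    apply hne
    rw [IsScalarTower.algebraMap_apply K F F', ← map_sub, h0, map_zero]
  have hpos : 0 < v.ord (u1 ℓ h D v t - algebraMap K F c) := by
    rcases hc with hc | hc
    · exact absurd (sub_eq_zero.mpr hc) hne'
    · exact hc
  have hc0 : c ≠ 0 := by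
    rintro rfl
    rw [map_zero, sub_zero] at hpos
    omega
  have hc₀0 : c₀ ≠ 0 := by
    rintro rfl
    rw [zero_pow H.ell_ne_zero] at hc₀
    exact hc0 hc₀.symm
  refine ⟨c₀, hc₀0, fun w hw => ?_⟩
  have hz1 := H.ord_z1 v t ht w hw
  have h1 : 0 < w.ord (algebraMap F F' (u1 ℓ h D v t) - algebraMap K F' c) := by
    rw [IsScalarTower.algebraMap_apply K F F', ← map_sub, w.ord_restrict, hw]
    have := w.ramificationIndex_pos (F := F)
    positivity
  rw [hprod, ord_prod w _ _ hfac] at h1
  by_contra hcon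
  simp only [not_exists, not_and, not_lt] at hcon
  have h2 : ∑ i ∈ Finset.range ℓ, w.ord (z1 D z v t - algebraMap K F' (ζ ^ i * c₀)) ≤ 0 :=
    Finset.sum_nonpos fun i hi => hcon i hi
  omega

variable (hS' : RiemannSetting K F') [HasPrincipalDivisors K F'] [FundamentalIdentity K F F']
  (hrank : Module.finrank F F' = ℓ)
include hS' hrank

/-- the fibre over `v` is not empty -/
theorem fiber_nonempty (v : Place K F) : (v.fiber F').Nonempty := by
  classical
  by_contra hne
  rw [Finset.not_nonempty_iff_eq_empty] at hne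
  have h1 := FundamentalIdentity.sum_ramificationIndex_mul_deg (K := K) (F := F) (F' := F') v
  rw [hne, Finset.sum_empty, hrank, hS.deg_one] at h1
  have := H.ell_pos
  simp only [Nat.cast_one, mul_one] at h1
  omega

open Classical in
/-- **the fibre over `v` is a free `τ`-orbit of length `ℓ`, and the cover is unramified** -/
theorem fiber_eq (w₀ : Place K F') :
    ((w₀.restrict F).fiber F' = (Finset.range ℓ).image (fun i : ℕ => τ ^ i • w₀)) ∧
      (∀ w ∈ (w₀.restrict F).fiber F', w.ramificationIndex F = 1) ∧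
      Set.InjOn (fun i : ℕ => τ ^ i • w₀) (Finset.range ℓ : Set ℕ) := by
  classical
  set v := w₀.restrict F with hv
  obtain ⟨π, hπ⟩ := IsDiscreteValuationRing.exists_irreducible v.toValuationSubring
  have ht : v.ord (π : F) = 1 := v.ord_coe_irreducible hπ
  obtain ⟨c₀, hc₀, hval⟩ := H.exists_value hS v (π : F) ht
  obtain ⟨j, -, hj⟩ := hval w₀ rfl
  have ha0 : ζ ^ j * c₀ ≠ 0 := mul_ne_zero (pow_ne_zero _ H.zeta_ne_zero) hc₀
  have hinj := H.pow_smul_injOn v (π : F) w₀ ha0 hj
  set T := (Finset.range ℓ).image (fun i : ℕ => τ ^ i • w₀) with hT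
  have hTsub : T ⊆ v.fiber F' := by
    intro w hw
    rw [hT, Finset.mem_image] at hw
    obtain ⟨i, -, rfl⟩ := hw
    exact Place.mem_fiber.mpr (H.restrict_pow_smul w₀ i)
  have hTcard : T.card = ℓ := by
    rw [hT, Finset.card_image_of_injOn hinj, Finset.card_range]
  have hFI := FundamentalIdentity.sum_ramificationIndex_mul_deg (K := K) (F := F) (F' := F') v
  rw [hrank, hS.deg_one] at hFI
  have hFI' : ∑ w ∈ v.fiber F', (w.ramificationIndex F : ℤ) = ℓ := by
    rw [Nat.cast_one, mul_one] at hFI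
    rw [← hFI]
    exact Finset.sum_congr rfl fun w _ => by rw [hS'.deg_one, Nat.cast_one, mul_one]
  have hpos : ∀ w : Place K F', (1 : ℤ) ≤ (w.ramificationIndex F : ℤ) := fun w => by
    have := w.ramificationIndex_pos (F := F)
    omega
  have hsplit := Finset.sum_sdiff (f := fun w : Place K F' => (w.ramificationIndex F : ℤ)) hTsub
  have hT1 : (ℓ : ℤ) ≤ ∑ w ∈ T, (w.ramificationIndex F : ℤ) := by
    calc (ℓ : ℤ) = ∑ w ∈ T, (1 : ℤ) := by rw [Finset.sum_const, hTcard]; simp
      _ ≤ _ := Finset.sum_le_sum fun w _ => hpos w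
  have hrest : (v.fiber F' \ T) = ∅ := by
    by_contra hne
    obtain ⟨w, hw⟩ := Finset.nonempty_iff_ne_empty.mpr hne
    have : (1 : ℤ) ≤ ∑ w ∈ v.fiber F' \ T, (w.ramificationIndex F : ℤ) :=
      calc (1 : ℤ) ≤ (w.ramificationIndex F : ℤ) := hpos w
        _ ≤ _ := Finset.single_le_sum (f := fun w : Place K F' => (w.ramificationIndex F : ℤ))
            (fun w _ => le_trans zero_le_one (hpos w)) hw
    omega
  have hfib : v.fiber F' = T :=
    Finset.Subset.antisymm (Finset.sdiff_eq_empty_iff_subset.mp hrest) hTsub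
  refine ⟨hfib, fun w hw => ?_, hinj⟩
  rw [hrest, Finset.sum_empty, zero_add] at hsplit
  rw [hfib] at hw
  by_contra hne
  have h2 : (2 : ℤ) ≤ (w.ramificationIndex F : ℤ) := by
    have := w.ramificationIndex_pos (F := F)
    omega
  have h3 : ∑ w ∈ T, (w.ramificationIndex F : ℤ) =
      (w.ramificationIndex F : ℤ) + ∑ w' ∈ T.erase w, (w'.ramificationIndex F : ℤ) := by
    exact (Finset.add_sum_erase T (fun w' : Place K F' => (w'.ramificationIndex F : ℤ)) hw).symm
  have h4 : ((T.erase w).card : ℤ) ≤ ∑ w' ∈ T.erase w, (w'.ramificationIndex F : ℤ) := by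
    calc ((T.erase w).card : ℤ) = ∑ w' ∈ T.erase w, (1 : ℤ) := by rw [Finset.sum_const]; simp
      _ ≤ _ := Finset.sum_le_sum fun w _ => hpos w
  rw [Finset.card_erase_of_mem hw, hTcard] at h4
  have := H.ell_pos
  rw [Nat.cast_sub (by omega)] at h4
  push_cast at h4
  omega

/-- **the cover is unramified** -/
theorem ramificationIndex_eq_one (w : Place K F') : w.ramificationIndex F = 1 :=
  (H.fiber_eq hS hS' hrank w).2.1 w (Place.restrict_mem_fiber w)

/-- every place of `F` lies under a place of `F'` -/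
theorem restrict_surjective (v : Place K F) : ∃ w : Place K F', w.restrict F = v := by
  obtain ⟨w, hw⟩ := H.fiber_nonempty hS hS' hrank v
  exact ⟨w, Place.mem_fiber.mp hw⟩

/-- two places with the same restriction are `τ`-conjugate -/
theorem exists_pow_smul_eq {w w' : Place K F'} (hww' : w.restrict F = w'.restrict F) :
    ∃ i ∈ Finset.range ℓ, τ ^ i • w = w' := by
  classical
  have h1 := (H.fiber_eq hS hS' hrank w).1
  have h2 : w' ∈ (w.restrict F).fiber F' := Place.mem_fiber.mpr hww'.symm
  rw [h1, Finset.mem_image] at h2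
  exact h2

/-- the places `τ ^ i • w`, `i < ℓ`, are pairwise distinct -/
theorem pow_smul_injOn' (w : Place K F') :
    Set.InjOn (fun i : ℕ => τ ^ i • w) (Finset.range ℓ : Set ℕ) :=
  (H.fiber_eq hS hS' hrank w).2.2

/-- sums over a fibre are sums over the `τ`-orbit -/
theorem sum_fiber {M : Type*} [AddCommMonoid M] (w₀ : Place K F') (g : Place K F' → M) :
    ∑ w ∈ (w₀.restrict F).fiber F', g w = ∑ i ∈ Finset.range ℓ, g (τ ^ i • w₀) := by
  classical
  rw [(H.fiber_eq hS hS' hrank w₀).1, Finset.sum_image (H.pow_smul_injOn' hS hS' hrank w₀)]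

/-- the fibres have `ℓ` elements -/
theorem card_fiber (v : Place K F) : (v.fiber F').card = ℓ := by
  classical
  obtain ⟨w₀, rfl⟩ := H.restrict_surjective hS hS' hrank v
  rw [(H.fiber_eq hS hS' hrank w₀).1,
    Finset.card_image_of_injOn (H.pow_smul_injOn' hS hS' hrank w₀), Finset.card_range]

/-- the order of `z` at `w` is `D (restrict w)` -/
theorem ord_z_eq (w : Place K F') : w.ord z = D (w.restrict F) := by
  rw [H.ord_z, H.ramificationIndex_eq_one hS hS' hrank]
  simp

/-- orders of elements of `F` are unchanged -/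
theorem ord_algebraMap (w : Place K F') (f : F) :
    w.ord (algebraMap F F' f) = (w.restrict F).ord f := by
  rw [w.ord_restrict, H.ramificationIndex_eq_one hS hS' hrank]
  simp

end Fiber

end IsKummerCover

end Fermat.Agent.T6.helper9

end
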