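/-
TIER 6 (S19), block [W3a], helper9: **divisors on a Kummer cover** `F' = F(h^(1/ℓ))`.

With `π^* = Divisor.pullback F'` and `π_* = Divisor.pushforward F` (Prelude):

* `pullback_apply_cover`   : `(π^* D₀)(w) = D₀(w|F)` (unramified);
* `pushforward_single_cover` : `π_* w = w|F`;
* `pushforward_pullback`   : `π_* π^* D₀ = ℓ D₀`;
* `pullback_pushforward`   : `π^* π_* D' = ∑_{i < ℓ} τ^i D'`;
* `pullback_eq_ord_z`      : `π^* D = div z`;
* `pushforward_smul`       : `π_* (τ D') = π_* D'`.
-/
import Fermat.Agent.T6.helper9_CoverPlaces

set_option autoImplicit false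
set_option linter.unusedSectionVars false
set_option linter.style.haveILetI false
set_option linter.unusedVariables false

noncomputable section

namespace Fermat.Agent.T6.helper9

open AlgebraicCurve Fermat.Agent.P2.helper74

variable {K F F' : Type*} [Field K] [Field F] [Field F'] [Algebra K F] [Algebra K F']
  [Algebra F F'] [IsScalarTower K F F']

namespace IsKummerCover

variable {ℓ : ℕ} {h : F} {D : Divisor K F} {z : F'} {ζ : K} {τ : F' ≃ₐ[K] F'}

variable (H : IsKummerCover ℓ h D z ζ τ) [FiniteDimensional F F'] [IsAlgClosed K]
  (hS : RiemannSetting K F) (hS' : RiemannSetting K F') [HasPrincipalDivisors K F']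
  [FundamentalIdentity K F F'] (hrank : Module.finrank F F' = ℓ)

include H hS hS' hrank

/-- the pull-back of a divisor: no ramification -/
theorem pullback_apply_cover (D₀ : Divisor K F) (w : Place K F') :
    Divisor.pullback F' D₀ w = D₀ (w.restrict F) := by
  rw [Divisor.pullback_apply, H.ramificationIndex_eq_one hS hS' hrank]
  simp

/-- the pull-back of `D` is the divisor of `z` -/
theorem pullback_eq_ord_z (w : Place K F') : Divisor.pullback F' D w = w.ord z := by
  rw [H.pullback_apply_cover hS hS' hrank, H.ord_z_eq hS hS' hrank]

/-- the pull-back of `D` is principal -/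
theorem isPrincipal_pullback_D : (Divisor.pullback F' D).IsPrincipal :=
  ⟨z, H.z_ne, fun w => H.pullback_eq_ord_z hS hS' hrank w⟩

/-- the pull-back of a place is its fibre -/
theorem pullback_single_cover (w₀ : Place K F') (n : ℤ) :
    Divisor.pullback F' (Finsupp.single (w₀.restrict F) n) =
      ∑ i ∈ Finset.range ℓ, Finsupp.single (τ ^ i • w₀) n := by
  rw [Divisor.pullback_single, H.sum_fiber hS hS' hrank w₀]
  refine Finset.sum_congr rfl fun i _ => ?_
  rw [H.ramificationIndex_eq_one hS hS' hrank]
  simp

/-- the inertia degree is one -/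
theorem inertiaDeg_eq_one (w : Place K F') : w.inertiaDeg F = 1 := by
  have h1 := w.deg_restrict_mul_inertiaDeg (F := F)
  rw [hS.deg_one, hS'.deg_one, one_mul] at h1
  exact h1

/-- the push-forward of a place is its restriction -/
theorem pushforward_single_cover (w : Place K F') (n : ℤ) :
    Divisor.pushforward F (Finsupp.single w n) = Finsupp.single (w.restrict F) n := by
  rw [Divisor.pushforward_single, H.inertiaDeg_eq_one hS hS' hrank]
  simp

/-- `π_* π^* = ℓ` -/
theorem pushforward_pullback (D₀ : Divisor K F) :
    Divisor.pushforward F (Divisor.pullback F' D₀) = ℓ • D₀ := by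
  induction D₀ using Finsupp.induction_linear with
  | zero => simp
  | add a b ha hb => rw [map_add, map_add, ha, hb, smul_add]
  | single v n =>
    obtain ⟨w₀, rfl⟩ := H.restrict_surjective hS hS' hrank v
    rw [H.pullback_single_cover hS hS' hrank, map_sum]
    have : ∀ i ∈ Finset.range ℓ, Divisor.pushforward F (Finsupp.single (τ ^ i • w₀) n) =
        Finsupp.single (w₀.restrict F) n := fun i _ => by
      rw [H.pushforward_single_cover hS hS' hrank, H.restrict_pow_smul]
    rw [Finset.sum_congr rfl this, Finset.sum_const, Finset.card_range]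

/-- `π^* π_* = ∑_{i < ℓ} τ^i` -/
theorem pullback_pushforward (D' : Divisor K F') :
    Divisor.pullback F' (Divisor.pushforward F D') = ∑ i ∈ Finset.range ℓ, (τ ^ i) • D' := by
  induction D' using Finsupp.induction_linear with
  | zero => simp
  | add a b ha hb => rw [map_add, map_add, ha, hb, ← Finset.sum_add_distrib]; simp [smul_add]
  | single w n =>
    rw [H.pushforward_single_cover hS hS' hrank, H.pullback_single_cover hS hS' hrank]
    exact Finset.sum_congr rfl fun i _ => (Divisor.smul_single _ _ _).symm

/-- `π_* τ = π_*` -/
theorem pushforward_smul (D' : Divisor K F') :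
    Divisor.pushforward F (τ • D') = Divisor.pushforward F D' := by
  induction D' using Finsupp.induction_linear with
  | zero => simp
  | add a b ha hb => rw [smul_add, map_add, map_add, ha, hb]
  | single w n =>
    rw [Divisor.smul_single, H.pushforward_single_cover hS hS' hrank,
      H.pushforward_single_cover hS hS' hrank, H.restrict_smul]

/-- `π_* (D' - τ D') = 0` -/
theorem pushforward_sub_smul (D' : Divisor K F') :
    Divisor.pushforward F (D' - τ • D') = 0 := by
  rw [map_sub, H.pushforward_smul hS hS' hrank, sub_self]

/-- the degree of a pull-back -/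
theorem degree_pullback_cover (D₀ : Divisor K F) :
    Divisor.degree (Divisor.pullback F' D₀) = ℓ * Divisor.degree D₀ := by
  rw [Divisor.degree_pullback, hrank]

end IsKummerCover

end Fermat.Agent.T6.helper9

end
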