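import Mathlib
import Fermat.Agent.T6.helper17_W3cVal
import Fermat.Agent.T6.helper9_CoverDiv

/-!
# T6 [W3c] (helper17), plug-in 2: the contract `CoverDiv` on a Kummer cover

* `ofAlgAut_smul_place`, `ofAlgAut_smul_divisor` : the two actions of a `K`-automorphism of
  `F` on places / divisors (Prelude: as `F ≃ₐ[K] F` and as `SemilinearAut K F`) agree;
* `coverDiv_of_isKummerCover` : `CoverDiv F ℓ (tauDiv τ)` from helper9 `IsKummerCover`.
-/

set_option autoImplicit false
set_option linter.unusedSectionVars false
set_option linter.unusedVariables false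

noncomputable section

namespace Fermat.Agent.T6.helper17

open AlgebraicCurve Finset
open Fermat.Agent.P2.helper74 (RiemannSetting)
open scoped Pointwise

section Actions

variable {K F : Type*} [Field K] [Field F] [Algebra K F]

/-- the two actions on places agree -/
theorem ofAlgAut_smul_place (σ : F ≃ₐ[K] F) (v : Place K F) :
    SemilinearAut.ofAlgAut σ • v = σ • v := by
  ext1
  rw [SemilinearAut.smul_toValuationSubring, Place.smul_toValuationSubring]
  ext x
  rw [ValuationSubring.mem_pointwise_smul_iff_inv_smul_mem,
    ValuationSubring.mem_pointwise_smul_iff_inv_smul_mem]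
  rfl

/-- the two actions on divisors agree -/
theorem ofAlgAut_smul_divisor (σ : F ≃ₐ[K] F) (D : Divisor K F) :
    SemilinearAut.ofAlgAut σ • D = σ • D := by
  induction D using Finsupp.induction_linear with
  | zero => rw [smul_zero, smul_zero]
  | add a b ha hb => rw [smul_add, smul_add, ha, hb]
  | single v n => rw [SemilinearAut.smul_single, Divisor.smul_single, ofAlgAut_smul_place]

end Actions

variable {K F F' : Type*} [Field K] [Field F] [Field F'] [Algebra K F] [Algebra K F']
  [Algebra F F'] [IsScalarTower K F F'] [FiniteDimensional F F'] [HasPrincipalDivisors K F']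

theorem tauDiv_eq_smul (τ : F' ≃ₐ[F] F') (D' : Divisor K F') :
    tauDiv (K := K) τ D' = (τ.restrictScalars K) • D' := by
  rw [tauDiv_apply]
  exact ofAlgAut_smul_divisor (τ.restrictScalars K) D'

theorem tauDiv_iterate (τ : F' ≃ₐ[F] F') (i : ℕ) (D' : Divisor K F') :
    (⇑(tauDiv (K := K) τ))^[i] D' = ((τ.restrictScalars K) ^ i) • D' := by
  induction i with
  | zero => rw [Function.iterate_zero, id, pow_zero, one_smul]
  | succ i ih =>
    rw [Function.iterate_succ_apply', ih, tauDiv_eq_smul, ← mul_smul, ← pow_succ']

/-- **`CoverDiv` for a Kummer cover** -/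
theorem coverDiv_of_isKummerCover [IsAlgClosed K] [FundamentalIdentity K F F']
    {ℓ : ℕ} {h : F} {D : Divisor K F} {z : F'} {ζ : K} (τ : F' ≃ₐ[F] F')
    (H : Fermat.Agent.T6.helper9.IsKummerCover ℓ h D z ζ (τ.restrictScalars K))
    (hS : RiemannSetting K F) (hS' : RiemannSetting K F')
    (hrank : Module.finrank F F' = ℓ) (hN : Divisor.PushforwardNormFormula K F F') :
    CoverDiv F ℓ (tauDiv (K := K) τ) where
  deg_T D' := by
    rw [tauDiv_apply]
    exact SemilinearAut.degree_smul _ D'
  push_T D' := by
    rw [tauDiv_eq_smul]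
    exact H.pushforward_smul hS hS' hrank D'
  pull_push D' := by
    rw [H.pullback_pushforward hS hS' hrank D']
    unfold partNorm
    exact Finset.sum_congr rfl fun i _ => (tauDiv_iterate τ i D').symm
  push_pull D₀ := H.pushforward_pullback hS hS' hrank D₀
  norm := hN

end Fermat.Agent.T6.helper17

end
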