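/-
TIER 6 (S19 / S32), helper98, block **[W3a]**: the cyclic cover `F' = F(h^(1/ℓ))` of a function
field `F / K` (`K` algebraically closed of characteristic `0`) is UNRAMIFIED when `ℓ ∣ div h`, the
places above a place `P` of `F` are exactly the `ℓ` pairwise distinct Galois translates of any one
of them.

Generic setting (no model of `F'` is fixed): `hS : RiemannSetting K F`, `hS' : RiemannSetting K F'`,
`F' / F` finite of degree `ℓ`, `w ∈ F'` with `w ^ ℓ = h`, `ℓ ∣ ord_P h` for all `P`, `ζ ∈ K` a
primitive `ℓ`-th root of unity and `σ ∈ Aut(F'/F)` with `σ w = ζ w`.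

* `galSmul σ w`         : the action of `Aut(F'/F)` on the places of `F'`;
* `restrict_galSmul`    : it preserves the fibres of `restrict`;
* `fundamentalIdentity` : `FundamentalIdentity K F F'` from the two `RiemannSetting`s;
* `ord_root`            : `ord_{P'} w = e(P') * (ord_P h / ℓ)`;
* `galSmul_pow_ne`      : `σ^i P' ≠ P'` for `0 < i < ℓ`;
* `ramificationIndex_eq_one` : **`F' / F` is unramified**;
* `card_fiber`          : every place of `F` has exactly `ℓ` places above it;
* `fiber_eq_image`      : the fibre above `P' ∣ P` is `{σ^i P' : i < ℓ}`;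
* `ord_algebraMap_eq`   : `ord_{P'} f = ord_P f` for `f ∈ F`.
-/
import Mathlib
import Fermat.Prelude.Def_AlgebraicCurve_Correspondence
import Fermat.Agent.P2.helper74_NonSpecial
import Fermat.Agent.P3.helper58_FFExt

set_option autoImplicit false
set_option linter.unusedSectionVars false
set_option linter.unusedVariables false
set_option linter.style.longLine false
set_option linter.style.haveILetI false

noncomputable section

namespace Fermat.Agent.T6.helper98

open AlgebraicCurve Fermat.Agent.P2.helper74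

section Gal

variable {K F F' : Type*} [Field K] [Field F] [Field F'] [Algebra K F] [Algebra K F']
  [Algebra F F'] [IsScalarTower K F F']

/-- the action of `Aut(F'/F)` on the places of `F'` -/
def galSmul (σ : F' ≃ₐ[F] F') (w : Place K F') : Place K F' := (σ.restrictScalars K) • w

theorem ord_galSmul (σ : F' ≃ₐ[F] F') (w : Place K F') (f : F') :
    (galSmul σ w).ord (σ f) = w.ord f :=
  Place.ord_smul (σ.restrictScalars K) w f

theorem ord_galSmul' (σ : F' ≃ₐ[F] F') (w : Place K F') (f : F') :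
    (galSmul σ w).ord f = w.ord (σ.symm f) := by
  have h := ord_galSmul σ w (σ.symm f)
  rwa [AlgEquiv.apply_symm_apply] at h

@[simp]
theorem galSmul_one (w : Place K F') : galSmul (1 : F' ≃ₐ[F] F') w = w := by
  have : ((1 : F' ≃ₐ[F] F').restrictScalars K) = 1 := rfl
  rw [galSmul, this, one_smul]

theorem galSmul_mul (σ τ : F' ≃ₐ[F] F') (w : Place K F') :
    galSmul (σ * τ) w = galSmul σ (galSmul τ w) := by
  have : ((σ * τ).restrictScalars K) = σ.restrictScalars K * τ.restrictScalars K := rfl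
  rw [galSmul, this, mul_smul]
  rfl

theorem galSmul_pow_succ (σ : F' ≃ₐ[F] F') (w : Place K F') (i : ℕ) :
    galSmul (σ ^ (i + 1)) w = galSmul σ (galSmul (σ ^ i) w) := by
  rw [pow_succ', galSmul_mul]

theorem restrict_galSmul [Algebra.IsIntegral F F'] (σ : F' ≃ₐ[F] F') (w : Place K F') :
    (galSmul σ w).restrict F = w.restrict F := by
  apply Place.ext
  ext f
  rw [Place.restrict_toValuationSubring, Place.restrict_toValuationSubring,
    ValuationSubring.mem_comap, ValuationSubring.mem_comap,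
    Fermat.Agent.S24.helper82.mem_iff_ord_nonneg, Fermat.Agent.S24.helper82.mem_iff_ord_nonneg,
    ord_galSmul', σ.symm.commutes]

end Gal

section Cyc

variable {K F F' : Type*} [Field K] [Field F] [Field F'] [Algebra K F] [Algebra K F']
  [Algebra F F'] [IsScalarTower K F F'] [FiniteDimensional F F']

omit [FiniteDimensional F F'] in
/-- the residue map `K → κ(v)` of a `RiemannSetting` is onto -/
theorem residue_surjective (hS : RiemannSetting K F) (v : Place K F) :
    Function.Surjective (algebraMap K v.ResidueField) := by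
  intro y
  obtain ⟨⟨f, hf⟩, rfl⟩ := IsLocalRing.residue_surjective y
  obtain ⟨a, ha⟩ := hS.residue v f ((Fermat.Agent.S24.helper82.mem_iff_ord_nonneg v).mp hf)
  refine ⟨a, ?_⟩
  rcases ha with ha | ha
  · have : (⟨f, hf⟩ : v.toValuationSubring) = algebraMap K v.toValuationSubring a :=
      Subtype.ext ha
    rw [this]
    rfl
  · obtain ⟨y, hy, hym⟩ := Fermat.Agent.S24.helper82.mem_maximalIdeal_of_ord_pos v ha
    have e1 : (⟨f, hf⟩ : v.toValuationSubring) = algebraMap K v.toValuationSubring a + y := by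
      apply Subtype.ext
      push_cast
      rw [hy]
      simp
    rw [e1, map_add, (IsLocalRing.residue_eq_zero_iff y).mpr hym, add_zero]
    rfl

/-- the fundamental identity for a finite extension of `RiemannSetting`s in characteristic `0` -/
theorem fundamentalIdentity [IsAlgClosed K] [CharZero F] (hS : RiemannSetting K F)
    (hS' : RiemannSetting K F') :
    haveI := hS'.principal
    FundamentalIdentity K F F' :=
  haveI := hS'.principal
  Fermat.Agent.P3.helper58.fundamentalIdentity_of_surjective (residue_surjective hS) hS'.deg_one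

omit [FiniteDimensional F F'] [IsScalarTower K F F'] [Algebra F F'] [Algebra K F'] [Field F'] in
/-- a uniformizer at a place -/
theorem exists_ord_eq_one (v : Place K F) : ∃ t : F, t ≠ 0 ∧ v.ord t = 1 := by
  obtain ⟨π, hπ⟩ := IsDiscreteValuationRing.exists_irreducible v.toValuationSubring
  refine ⟨(π : F), ?_, v.ord_coe_irreducible hπ⟩
  simpa [ne_eq, ZeroMemClass.coe_eq_zero] using hπ.ne_zero

omit [FiniteDimensional F F'] [IsScalarTower K F F'] [Algebra F F'] [Algebra K F'] [Field F'] in
theorem ord_pow' (v : Place K F) (f : F) (n : ℕ) : v.ord (f ^ n) = n * v.ord f := by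
  rw [← zpow_natCast, v.ord_zpow]

variable {ℓ : ℕ} {h : F} {w : F'} {ζ : K}

omit [FiniteDimensional F F'] in
/-- `ord_{P'} w = e(P') * m` if `ord_P h = ℓ m` -/
theorem ord_root [Algebra.IsIntegral F F'] (hℓ : 0 < ℓ) (hw : w ^ ℓ = algebraMap F F' h)
    (P' : Place K F') {m : ℤ} (hm : (P'.restrict F).ord h = ℓ * m) :
    P'.ord w = (P'.ramificationIndex F : ℤ) * m := by
  have h1 : P'.ord (w ^ ℓ) = ℓ * P'.ord w := ord_pow' P' w ℓ
  rw [hw, P'.ord_restrict h, hm] at h1
  have h2 : (ℓ : ℤ) * ((P'.ramificationIndex F : ℤ) * m) = ℓ * P'.ord w := by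
    rw [← h1]
    ring
  have hℓ' : (ℓ : ℤ) ≠ 0 := by exact_mod_cast hℓ.ne'
  exact (mul_left_cancel₀ hℓ' h2).symm

omit [FiniteDimensional F F'] in
/-- **no place of `F'` is fixed by a nontrivial element of the Galois group** -/
theorem galSmul_ne [Algebra.IsIntegral F F'] (hS' : RiemannSetting K F') (hℓ : 0 < ℓ)
    (h0 : h ≠ 0) (hdiv : ∀ P : Place K F, (ℓ : ℤ) ∣ P.ord h) (hw : w ^ ℓ = algebraMap F F' h)
    {η : K} (hη : η ≠ 1) (ρ : F' ≃ₐ[F] F') (hρ : ρ w = algebraMap K F' η * w)
    (P' : Place K F') : galSmul ρ P' ≠ P' := by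
  intro hfix
  obtain ⟨m, hm⟩ := hdiv (P'.restrict F)
  obtain ⟨t, ht0, ht⟩ := exists_ord_eq_one (P'.restrict F)
  have hw0 : w ≠ 0 := by
    rintro rfl
    rw [zero_pow hℓ.ne'] at hw
    exact h0 ((map_eq_zero (algebraMap F F')).mp hw.symm)
  have ht0' : algebraMap F F' t ≠ 0 := by simpa using ht0
  have hordw := ord_root hℓ hw P' hm
  have hordt : P'.ord (algebraMap F F' t) = (P'.ramificationIndex F : ℤ) := by
    rw [P'.ord_restrict t, ht, mul_one]
  set w₁ : F' := w * (algebraMap F F' t) ^ (-m) with hw₁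
  have hw₁0 : w₁ ≠ 0 := mul_ne_zero hw0 (zpow_ne_zero _ ht0')
  have hord₁ : P'.ord w₁ = 0 := by
    rw [hw₁, P'.ord_mul hw0 (zpow_ne_zero _ ht0'), P'.ord_zpow, hordw, hordt]
    ring
  have hρ₁ : ρ w₁ = algebraMap K F' η * w₁ := by
    rw [hw₁, map_mul, map_zpow₀, ρ.commutes, hρ]
    ring
  have hfixord : ∀ f : F', P'.ord (ρ f) = P'.ord f := by
    intro f
    have := ord_galSmul (K := K) ρ P' f
    rwa [hfix] at this
  obtain ⟨c, hc⟩ := hS'.residue P' w₁ hord₁.ge
  have hη1 : algebraMap K F' (η - 1) ≠ 0 := by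
    rw [ne_eq, map_eq_zero, sub_eq_zero]
    exact hη
  rcases hc with hc | hc
  · -- `w₁` is constant: `ρ w₁ = w₁`
    have e1 : ρ w₁ = w₁ := by
      rw [hc, IsScalarTower.algebraMap_apply K F F', ρ.commutes]
    rw [hρ₁] at e1
    have e2 : algebraMap K F' (η - 1) * w₁ = 0 := by
      rw [map_sub, map_one, sub_mul, one_mul, e1, sub_self]
    rcases mul_eq_zero.mp e2 with e3 | e3
    · exact hη1 e3
    · exact hw₁0 e3
  · have hc' : 0 < P'.ord (ρ (w₁ - algebraMap K F' c)) := by
      rw [hfixord]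
      exact hc
    have e1 : ρ (w₁ - algebraMap K F' c) = algebraMap K F' η * w₁ - algebraMap K F' c := by
      rw [map_sub, hρ₁, IsScalarTower.algebraMap_apply K F F' c, ρ.commutes]
    rw [e1] at hc'
    have e2 : (algebraMap K F' η * w₁ - algebraMap K F' c) + -(w₁ - algebraMap K F' c)
        = algebraMap K F' (η - 1) * w₁ := by
      rw [map_sub, map_one]
      ring
    have hne : (algebraMap K F' η * w₁ - algebraMap K F' c) + -(w₁ - algebraMap K F' c) ≠ 0 := by
      rw [e2]
      exact mul_ne_zero hη1 hw₁0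
    have h3 := ord_add_ge P' hne
    have hneg : P'.ord (-(w₁ - algebraMap K F' c)) = P'.ord (w₁ - algebraMap K F' c) := by
      have hx : w₁ - algebraMap K F' c ≠ 0 := by
        intro hx
        rw [hx, Place.ord_zero] at hc
        exact lt_irrefl _ hc
      have hm1 : P'.ord (algebraMap K F' (-1)) = 0 := Fermat.Agent.S24.helper82.ord_algebraMap P' (-1)
      have : -(w₁ - algebraMap K F' c) = algebraMap K F' (-1) * (w₁ - algebraMap K F' c) := by
        rw [map_neg, map_one]
        ring
      rw [this, P'.ord_mul (by rw [map_neg, map_one]; exact neg_ne_zero.mpr one_ne_zero) hx, hm1,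
        zero_add]
    rw [e2, hneg, P'.ord_mul hη1 hw₁0, Fermat.Agent.S24.helper82.ord_algebraMap, hord₁] at h3
    have := lt_min hc' hc
    omega

omit [FiniteDimensional F F'] in
theorem galSmul_injective (σ : F' ≃ₐ[F] F') :
    Function.Injective (galSmul (K := K) σ) := by
  intro P Q hPQ
  have h1 := congrArg (galSmul (K := K) σ⁻¹) hPQ
  rwa [← galSmul_mul, ← galSmul_mul, inv_mul_cancel, galSmul_one, galSmul_one] at h1

omit [FiniteDimensional F F'] in
theorem pow_apply_root {σ : F' ≃ₐ[F] F'} (hσ : σ w = algebraMap K F' ζ * w) (k : ℕ) :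
    (σ ^ k) w = algebraMap K F' (ζ ^ k) * w := by
  induction k with
  | zero => simp
  | succ k ih =>
    rw [pow_succ', AlgEquiv.mul_apply, ih, map_mul, IsScalarTower.algebraMap_apply K F F' (ζ ^ k),
      σ.commutes, hσ, ← IsScalarTower.algebraMap_apply K F F', pow_succ', map_mul]
    ring

omit [FiniteDimensional F F'] in
/-- the translates `σ^i P'`, `i < ℓ`, are pairwise distinct -/
theorem galSmul_pow_injOn [Algebra.IsIntegral F F'] (hS' : RiemannSetting K F')
    (h0 : h ≠ 0) (hdiv : ∀ P : Place K F, (ℓ : ℤ) ∣ P.ord h) (hw : w ^ ℓ = algebraMap F F' h)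
    (hζ : IsPrimitiveRoot ζ ℓ) {σ : F' ≃ₐ[F] F'} (hσ : σ w = algebraMap K F' ζ * w)
    (P' : Place K F') :
    Set.InjOn (fun i : ℕ => galSmul (σ ^ i) P') (Finset.range ℓ : Set ℕ) := by
  have key : ∀ i j : ℕ, i < j → j < ℓ → galSmul (σ ^ i) P' ≠ galSmul (σ ^ j) P' := by
    intro i j hij hj heq
    have hℓ : 0 < ℓ := by omega
    have e1 : σ ^ j = σ ^ i * σ ^ (j - i) := by
      rw [← pow_add]
      congr 1
      omega
    rw [e1, galSmul_mul] at heq
    have e2 := galSmul_injective (K := K) (σ ^ i) heq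
    have hη : ζ ^ (j - i) ≠ 1 := hζ.pow_ne_one_of_pos_of_lt (by omega) (by omega)
    exact galSmul_ne hS' hℓ h0 hdiv hw hη (σ ^ (j - i)) (pow_apply_root hσ (j - i)) P' e2.symm
  intro i hi j hj hij
  simp only [Finset.coe_range, Set.mem_Iio] at hi hj
  rcases lt_trichotomy i j with h1 | h1 | h1
  · exact absurd hij (key i j h1 hj)
  · exact h1
  · exact absurd hij.symm (key j i h1 hi)

section Count

variable [IsAlgClosed K] [CharZero F] (hS : RiemannSetting K F) (hS' : RiemannSetting K F')
  (hfr : Module.finrank F F' = ℓ)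
  (h0 : h ≠ 0) (hdiv : ∀ P : Place K F, (ℓ : ℤ) ∣ P.ord h) (hw : w ^ ℓ = algebraMap F F' h)
  (hζ : IsPrimitiveRoot ζ ℓ) {σ : F' ≃ₐ[F] F'} (hσ : σ w = algebraMap K F' ζ * w)

include hS hS' hfr in
/-- the fundamental identity in the form `∑_{P' ∣ P} e(P') = ℓ` -/
theorem sum_ramificationIndex (P : Place K F) :
    haveI := hS'.principal
    ∑ Q ∈ P.fiber F', (Q.ramificationIndex F : ℤ) = ℓ := by
  haveI := hS'.principal
  haveI := fundamentalIdentity hS hS'
  have h1 := FundamentalIdentity.sum_ramificationIndex_mul_deg (K := K) (F := F) (F' := F') P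
  rw [hS.deg_one, hfr, Nat.cast_one, mul_one] at h1
  rw [← h1]
  refine Finset.sum_congr rfl fun Q _ => ?_
  rw [hS'.deg_one, Nat.cast_one, mul_one]

include hS hS' hfr h0 hdiv hw hζ hσ in
open Classical in
/-- **the fibre above `P' ∣ P` consists of the translates `σ^i P'`, and `e = 1` on it** -/
theorem fiber_eq_image_and (P' : Place K F') :
    haveI := hS'.principal
    (P'.restrict F).fiber F' = (Finset.range ℓ).image (fun i : ℕ => galSmul (σ ^ i) P') ∧
      ∀ Q ∈ (P'.restrict F).fiber F', Q.ramificationIndex F = 1 := by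
  classical
  haveI := hS'.principal
  set S : Finset (Place K F') := (Finset.range ℓ).image (fun i : ℕ => galSmul (σ ^ i) P') with hSdef
  have hcard : S.card = ℓ := by
    rw [hSdef, Finset.card_image_of_injOn (galSmul_pow_injOn hS' h0 hdiv hw hζ hσ P'),
      Finset.card_range]
  have hsub : S ⊆ (P'.restrict F).fiber F' := by
    intro Q hQ
    obtain ⟨i, -, rfl⟩ := Finset.mem_image.mp hQ
    exact Place.mem_fiber.mpr (restrict_galSmul _ _)
  have hsum := sum_ramificationIndex hS hS' hfr (P'.restrict F)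
  have hpos : ∀ Q : Place K F', (1 : ℤ) ≤ (Q.ramificationIndex F : ℤ) := by
    intro Q
    have := Q.ramificationIndex_pos (F := F)
    omega
  rw [← Finset.sum_sdiff hsub] at hsum
  have h1 : (S.card : ℤ) ≤ ∑ Q ∈ S, (Q.ramificationIndex F : ℤ) := by
    have := Finset.card_nsmul_le_sum S (fun Q => (Q.ramificationIndex F : ℤ)) 1
      (fun Q _ => hpos Q)
    simpa using this
  have h2 : (((P'.restrict F).fiber F' \ S).card : ℤ)
      ≤ ∑ Q ∈ (P'.restrict F).fiber F' \ S, (Q.ramificationIndex F : ℤ) := by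
    have := Finset.card_nsmul_le_sum ((P'.restrict F).fiber F' \ S)
      (fun Q => (Q.ramificationIndex F : ℤ)) 1 (fun Q _ => hpos Q)
    simpa using this
  rw [hcard] at h1
  have h3 : ((P'.restrict F).fiber F' \ S).card = 0 := by omega
  have h4 : (P'.restrict F).fiber F' \ S = ∅ := Finset.card_eq_zero.mp h3
  have h5 : (P'.restrict F).fiber F' = S :=
    Finset.Subset.antisymm (Finset.sdiff_eq_empty_iff_subset.mp h4) hsub
  refine ⟨h5, ?_⟩
  rw [h4, Finset.sum_empty, zero_add] at hsum
  intro Q hQ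
  rw [h5] at hQ
  by_contra hne
  have h6 : (2 : ℤ) ≤ (Q.ramificationIndex F : ℤ) := by
    have := Q.ramificationIndex_pos (F := F)
    omega
  have h7 : ∑ Q' ∈ S, (Q'.ramificationIndex F : ℤ)
      = (Q.ramificationIndex F : ℤ) + ∑ Q' ∈ S.erase Q, (Q'.ramificationIndex F : ℤ) :=
    (Finset.add_sum_erase S _ hQ).symm
  have h8 : ((S.erase Q).card : ℤ) ≤ ∑ Q' ∈ S.erase Q, (Q'.ramificationIndex F : ℤ) := by
    have := Finset.card_nsmul_le_sum (S.erase Q) (fun Q => (Q.ramificationIndex F : ℤ)) 1
      (fun Q _ => hpos Q)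
    simpa using this
  have h9 : (S.erase Q).card = ℓ - 1 := by rw [Finset.card_erase_of_mem hQ, hcard]
  have hℓ : 0 < ℓ := by
    rw [← hcard]
    exact Finset.card_pos.mpr ⟨Q, hQ⟩
  rw [h9] at h8
  have : ((ℓ - 1 : ℕ) : ℤ) = (ℓ : ℤ) - 1 := by omega
  omega

include hS hS' hfr h0 hdiv hw hζ hσ in
/-- **`F(h^(1/ℓ)) / F` is unramified.** -/
theorem ramificationIndex_eq_one (P' : Place K F') : P'.ramificationIndex F = 1 := by
  haveI := hS'.principal
  exact (fiber_eq_image_and hS hS' hfr h0 hdiv hw hζ hσ P').2 P' (Place.mem_fiber.mpr rfl)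

include hS hS' hfr h0 hdiv hw hζ hσ in
/-- `ord_{P'} f = ord_P f` for `f ∈ F` -/
theorem ord_algebraMap_eq (P' : Place K F') (f : F) :
    P'.ord (algebraMap F F' f) = (P'.restrict F).ord f := by
  rw [P'.ord_restrict f, ramificationIndex_eq_one hS hS' hfr h0 hdiv hw hζ hσ P', Nat.cast_one,
    one_mul]

include hS hS' hfr h0 hdiv hw hζ hσ in
open Classical in
/-- the fibre above `P' ∣ P` is `{σ^i P' : i < ℓ}` -/
theorem fiber_eq_image (P' : Place K F') :
    haveI := hS'.principal
    (P'.restrict F).fiber F' = (Finset.range ℓ).image (fun i : ℕ => galSmul (σ ^ i) P') :=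
  (fiber_eq_image_and hS hS' hfr h0 hdiv hw hζ hσ P').1

include hS hS' hfr in
/-- every place of `F` has a place of `F'` above it -/
theorem exists_restrict_eq (hℓ : 0 < ℓ) (P : Place K F) :
    ∃ P' : Place K F', P'.restrict F = P := by
  classical
  haveI := hS'.principal
  have hsum := sum_ramificationIndex hS hS' hfr P
  have hne : (P.fiber F').Nonempty := by
    rw [Finset.nonempty_iff_ne_empty]
    intro he
    rw [he, Finset.sum_empty] at hsum
    omega
  obtain ⟨P', hP'⟩ := hne
  exact ⟨P', Place.mem_fiber.mp hP'⟩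

include hS hS' hfr h0 hdiv hw hζ hσ in
/-- every place of `F` has exactly `ℓ` places above it -/
theorem card_fiber (hℓ : 0 < ℓ) (P : Place K F) :
    haveI := hS'.principal
    (P.fiber F').card = ℓ := by
  classical
  haveI := hS'.principal
  obtain ⟨P', rfl⟩ := exists_restrict_eq hS hS' hfr hℓ P
  rw [fiber_eq_image hS hS' hfr h0 hdiv hw hζ hσ P',
    Finset.card_image_of_injOn (galSmul_pow_injOn hS' h0 hdiv hw hζ hσ P'), Finset.card_range]

include hS hS' hfr h0 hdiv hw hζ hσ in
/-- two places above the same place are translates of each other -/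
theorem exists_galSmul_pow_eq {P' Q' : Place K F'} (hPQ : Q'.restrict F = P'.restrict F) :
    ∃ i : ℕ, i < ℓ ∧ galSmul (σ ^ i) P' = Q' := by
  classical
  haveI := hS'.principal
  have hQ : Q' ∈ (P'.restrict F).fiber F' := Place.mem_fiber.mpr hPQ
  rw [fiber_eq_image hS hS' hfr h0 hdiv hw hζ hσ P'] at hQ
  obtain ⟨i, hi, rfl⟩ := Finset.mem_image.mp hQ
  exact ⟨i, Finset.mem_range.mp hi, rfl⟩

end Count

end Cyc

end Fermat.Agent.T6.helper98

end
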