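/-
TIER 6 (S19 / S32), helper98, block **[W3a]**, part 2: values at places and the VALUE OF A NORM for
the cyclic unramified cover `F' = F(h^(1/ℓ))` (setting of `helper98_CycCover`).

* `IsValAt P f c`        : `c ∈ K` is the value of `f` at the place `P` (`f = c` or
                           `ord_P (f - c) > 0`); `isValAt_iff_mem`, `IsValAt.mul`, `IsValAt.prod`,
                           `IsValAt.unique`, `exists_isValAt`, `IsValAt.ne_zero_iff`;
* `IsValAt.galSmul`      : `(σ f)(σ P') = f(P')`;
* `isValAt_restrict_iff` : `f(P' ∩ F) = f(P')` for `f ∈ F`;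
* `isValAt_root_galSmul` : `w(σ P') = ζ⁻¹ w(P')`;
* `norm_eq_prod_pow`     : `N(f') = ∏_{i < ℓ} σ^i f'`;
* `isValAt_norm`         : **`N(f')(P) = ∏_{P' ∣ P} f'(P')`**;
* `pullback_apply_eq`    : `(π^* D)(P') = D(P' ∩ F)`;
* `ord_root_eq`          : **`div w = π^* D`** if `div h = ℓ D`.
-/
import Mathlib
import Fermat.Agent.T6.helper98_CycCover

set_option autoImplicit false
set_option linter.unusedSectionVars false
set_option linter.unusedVariables false
set_option linter.style.longLine false
set_option linter.style.haveILetI false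

noncomputable section

namespace Fermat.Agent.T6.helper98

open AlgebraicCurve Fermat.Agent.P2.helper74

section Val

variable {K F : Type*} [Field K] [Field F] [Algebra K F]

/-- `c` is the value of `f` at the place `P`: `f - c` vanishes at `P` -/
def IsValAt (P : Place K F) (f : F) (c : K) : Prop :=
  f = algebraMap K F c ∨ 0 < P.ord (f - algebraMap K F c)

theorem isValAt_iff_mem {P : Place K F} {f : F} {c : K} :
    IsValAt P f c ↔ ∃ y : P.toValuationSubring,
      y ∈ IsLocalRing.maximalIdeal P.toValuationSubring ∧ f = algebraMap K F c + (y : F) := by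
  constructor
  · rintro (h | h)
    · exact ⟨0, zero_mem _, by simp [h]⟩
    · obtain ⟨y, hy, hym⟩ := Fermat.Agent.S24.helper82.mem_maximalIdeal_of_ord_pos P h
      exact ⟨y, hym, by rw [hy]; ring⟩
  · rintro ⟨y, hym, hy⟩
    by_cases hy0 : y = 0
    · left
      rw [hy, hy0]
      simp
    · right
      have := Fermat.Agent.S24.helper82.ord_pos_of_mem_maximalIdeal P hym hy0
      rwa [hy, add_sub_cancel_left]

theorem isValAt_algebraMap (P : Place K F) (c : K) : IsValAt P (algebraMap K F c) c := Or.inl rfl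

theorem isValAt_one (P : Place K F) : IsValAt P (1 : F) 1 := Or.inl (map_one _).symm

theorem IsValAt.mul {P : Place K F} {f g : F} {c d : K} (hf : IsValAt P f c)
    (hg : IsValAt P g d) : IsValAt P (f * g) (c * d) := by
  rw [isValAt_iff_mem] at hf hg ⊢
  obtain ⟨y, hym, hy⟩ := hf
  obtain ⟨z, hzm, hz⟩ := hg
  refine ⟨algebraMap K P.toValuationSubring c * z + y * algebraMap K P.toValuationSubring d
    + y * z, ?_, ?_⟩
  · exact add_mem (add_mem (Ideal.mul_mem_left _ _ hzm) (Ideal.mul_mem_right _ _ hym))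
      (Ideal.mul_mem_left _ _ hzm)
  · rw [hy, hz, map_mul]
    show _ = _ + (algebraMap K F c * (z : F) + (y : F) * algebraMap K F d + (y : F) * (z : F))
    ring

theorem IsValAt.prod {ι : Type*} {P : Place K F} (s : Finset ι) {f : ι → F} {c : ι → K}
    (h : ∀ i ∈ s, IsValAt P (f i) (c i)) : IsValAt P (∏ i ∈ s, f i) (∏ i ∈ s, c i) := by
  classical
  induction s using Finset.induction_on with
  | empty => simpa using isValAt_one P
  | insert a s ha ih =>
    rw [Finset.prod_insert ha, Finset.prod_insert ha]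
    exact (h a (Finset.mem_insert_self a s)).mul
      (ih fun i hi => h i (Finset.mem_insert_of_mem hi))

theorem IsValAt.ord_nonneg {P : Place K F} {f : F} {c : K} (hf : IsValAt P f c) :
    0 ≤ P.ord f := by
  rw [isValAt_iff_mem] at hf
  obtain ⟨y, hym, hy⟩ := hf
  rw [← Fermat.Agent.S24.helper82.mem_iff_ord_nonneg, hy]
  exact add_mem (P.algebraMap_mem' c) y.2

theorem IsValAt.unique {P : Place K F} {f : F} {c d : K} (hc : IsValAt P f c)
    (hd : IsValAt P f d) : c = d := by
  rw [isValAt_iff_mem] at hc hd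
  obtain ⟨y, hym, hy⟩ := hc
  obtain ⟨z, hzm, hz⟩ := hd
  by_contra hne
  have h1 : algebraMap K P.toValuationSubring (c - d) = z - y := by
    apply Subtype.ext
    show algebraMap K F (c - d) = (z : F) - (y : F)
    rw [map_sub]
    linear_combination hz - hy
  have h2 : algebraMap K P.toValuationSubring (c - d) ∈
      IsLocalRing.maximalIdeal P.toValuationSubring := by
    rw [h1]
    exact sub_mem hzm hym
  have h3 : IsUnit (algebraMap K P.toValuationSubring (c - d)) :=
    (isUnit_iff_ne_zero.mpr (sub_ne_zero.mpr hne)).map _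
  exact (IsLocalRing.mem_maximalIdeal _).mp h2 h3

theorem exists_isValAt (hS : RiemannSetting K F) (P : Place K F) {f : F} (hf : 0 ≤ P.ord f) :
    ∃ c : K, IsValAt P f c := hS.residue P f hf

/-- the value is nonzero iff the function is a unit at the place -/
theorem IsValAt.ne_zero_iff {P : Place K F} {f : F} {c : K} (hf : IsValAt P f c) :
    c ≠ 0 ↔ (f ≠ 0 ∧ P.ord f = 0) := by
  constructor
  · intro hc
    have hc' : algebraMap K F c ≠ 0 := by simpa using hc
    rcases hf with h | h
    · rw [h]
      exact ⟨hc', Fermat.Agent.S24.helper82.ord_algebraMap P c⟩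
    · have hf0 : f ≠ 0 := by
        rintro rfl
        rw [zero_sub] at h
        have hm1 : P.ord (-(algebraMap K F c)) = 0 := by
          rw [← map_neg]
          exact Fermat.Agent.S24.helper82.ord_algebraMap P (-c)
        omega
      refine ⟨hf0, ?_⟩
      have h1 : f - algebraMap K F c + algebraMap K F c ≠ 0 := by rwa [sub_add_cancel]
      have h2 := ord_add_ge P h1
      rw [sub_add_cancel, Fermat.Agent.S24.helper82.ord_algebraMap] at h2
      have h3 : f + -(f - algebraMap K F c) ≠ 0 := by
        rw [neg_sub, add_sub_cancel]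
        exact hc'
      have h4 := ord_add_ge P h3
      have hneg : P.ord (-(f - algebraMap K F c)) = P.ord (f - algebraMap K F c) := by
        have hx : f - algebraMap K F c ≠ 0 := by
          intro hx
          rw [hx, Place.ord_zero] at h
          exact lt_irrefl _ h
        have hm1 : P.ord (algebraMap K F (-1)) = 0 :=
          Fermat.Agent.S24.helper82.ord_algebraMap P (-1)
        have : -(f - algebraMap K F c) = algebraMap K F (-1) * (f - algebraMap K F c) := by
          rw [map_neg, map_one]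
          ring
        rw [this, P.ord_mul (by rw [map_neg, map_one]; exact neg_ne_zero.mpr one_ne_zero) hx,
          hm1, zero_add]
      rw [neg_sub, add_sub_cancel, Fermat.Agent.S24.helper82.ord_algebraMap, ← neg_sub,
        hneg] at h4
      have h5 := min_le_iff.mp h4
      have h6 := min_le_iff.mp h2
      rcases h5 with h5 | h5
      · rcases h6 with h6 | h6
        · omega
        · omega
      · omega
  · rintro ⟨hf0, hord⟩ hc
    subst hc
    rcases hf with h | h
    · rw [map_zero] at h
      exact hf0 h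
    · rw [map_zero, sub_zero] at h
      omega

end Val

section ValGal

variable {K F F' : Type*} [Field K] [Field F] [Field F'] [Algebra K F] [Algebra K F']
  [Algebra F F'] [IsScalarTower K F F']

theorem IsValAt.galSmul {P' : Place K F'} {f : F'} {c : K} (hf : IsValAt P' f c)
    (σ : F' ≃ₐ[F] F') : IsValAt (galSmul σ P') (σ f) c := by
  have hσc : σ (algebraMap K F' c) = algebraMap K F' c := by
    rw [IsScalarTower.algebraMap_apply K F F', σ.commutes]
  rcases hf with h | h
  · left
    rw [h, hσc]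
  · right
    rw [← hσc, ← map_sub, ord_galSmul]
    exact h

theorem isValAt_restrict_iff [Algebra.IsIntegral F F'] {P' : Place K F'} {f : F} {c : K} :
    IsValAt (P'.restrict F) f c ↔ IsValAt P' (algebraMap F F' f) c := by
  have hpos := P'.ramificationIndex_pos (F := F)
  have e1 : algebraMap F F' f - algebraMap K F' c = algebraMap F F' (f - algebraMap K F c) := by
    rw [map_sub, ← IsScalarTower.algebraMap_apply]
  unfold IsValAt
  rw [e1, P'.ord_restrict, IsScalarTower.algebraMap_apply K F F' c,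
    (algebraMap F F').injective.eq_iff]
  constructor
  · rintro (h | h)
    · exact Or.inl h
    · exact Or.inr (by positivity)
  · rintro (h | h)
    · exact Or.inl h
    · right
      by_contra hneg
      have : (P'.ramificationIndex F : ℤ) * (P'.restrict F).ord (f - algebraMap K F c) ≤ 0 :=
        mul_nonpos_of_nonneg_of_nonpos (by positivity) (by omega)
      omega

end ValGal

section Norm

variable {K F F' : Type*} [Field K] [Field F] [Field F'] [Algebra K F] [Algebra K F']
  [Algebra F F'] [IsScalarTower K F F'] [FiniteDimensional F F']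

variable {ℓ : ℕ} {h : F} {w : F'} {ζ : K}

omit [FiniteDimensional F F'] in
theorem inv_apply_root (hζ : IsPrimitiveRoot ζ ℓ) (hℓ : 0 < ℓ) {σ : F' ≃ₐ[F] F'}
    (hσ : σ w = algebraMap K F' ζ * w) : σ⁻¹ w = algebraMap K F' ζ⁻¹ * w := by
  have hζ0 : ζ ≠ 0 := hζ.ne_zero hℓ.ne'
  rw [AlgEquiv.aut_inv, AlgEquiv.symm_apply_eq, map_mul, hσ,
    IsScalarTower.algebraMap_apply K F F' ζ⁻¹, σ.commutes, ← IsScalarTower.algebraMap_apply,
    ← mul_assoc, ← map_mul, inv_mul_cancel₀ hζ0, map_one, one_mul]

omit [FiniteDimensional F F'] in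
/-- `w (σ P') = ζ⁻¹ w (P')` -/
theorem isValAt_root_galSmul (hζ : IsPrimitiveRoot ζ ℓ) (hℓ : 0 < ℓ) {σ : F' ≃ₐ[F] F'}
    (hσ : σ w = algebraMap K F' ζ * w) {P' : Place K F'} {c : K} (hc : IsValAt P' w c) :
    IsValAt (galSmul σ P') w (ζ⁻¹ * c) := by
  have hζ0 : ζ ≠ 0 := hζ.ne_zero hℓ.ne'
  have h1 := (isValAt_algebraMap (galSmul σ P') ζ⁻¹).mul (hc.galSmul σ)
  rwa [hσ, ← mul_assoc, ← map_mul, inv_mul_cancel₀ hζ0, map_one, one_mul] at h1

open Classical in
theorem univ_eq_image_pow [IsGalois F F'] (hfr : Module.finrank F F' = ℓ) (hw0 : w ≠ 0)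
    (hζ : IsPrimitiveRoot ζ ℓ) {σ : F' ≃ₐ[F] F'} (hσ : σ w = algebraMap K F' ζ * w) :
    (Finset.univ : Finset (F' ≃ₐ[F] F')) = (Finset.range ℓ).image (fun i : ℕ => σ ^ i) := by
  classical
  symm
  apply Finset.eq_univ_of_card
  rw [Finset.card_image_of_injOn, Finset.card_range, ← hfr, ← IsGalois.card_aut_eq_finrank,
    Nat.card_eq_fintype_card]
  intro i hi j hj hij
  simp only [Finset.coe_range, Set.mem_Iio] at hi hj
  have h1 : (σ ^ i) w = (σ ^ j) w := by
    change σ ^ i = σ ^ j at hij
    rw [hij]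
  rw [pow_apply_root hσ, pow_apply_root hσ] at h1
  have h2 := mul_right_cancel₀ hw0 h1
  exact hζ.pow_inj hi hj ((algebraMap K F').injective h2)

theorem norm_eq_prod_pow [IsGalois F F'] (hfr : Module.finrank F F' = ℓ) (hw0 : w ≠ 0)
    (hζ : IsPrimitiveRoot ζ ℓ) {σ : F' ≃ₐ[F] F'} (hσ : σ w = algebraMap K F' ζ * w) (f' : F') :
    algebraMap F F' (Algebra.norm F f') = ∏ i ∈ Finset.range ℓ, (σ ^ i) f' := by
  classical
  rw [Algebra.norm_eq_prod_automorphisms, univ_eq_image_pow hfr hw0 hζ hσ, Finset.prod_image]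
  intro i hi j hj hij
  simp only [Finset.coe_range, Set.mem_Iio] at hi hj
  have h1 : (σ ^ i) w = (σ ^ j) w := by
    change σ ^ i = σ ^ j at hij
    rw [hij]
  rw [pow_apply_root hσ, pow_apply_root hσ] at h1
  have h2 := mul_right_cancel₀ hw0 h1
  exact hζ.pow_inj hi hj ((algebraMap K F').injective h2)

variable [IsAlgClosed K] [CharZero F] (hS : RiemannSetting K F) (hS' : RiemannSetting K F')
  (hfr : Module.finrank F F' = ℓ)
  (h0 : h ≠ 0) (hdiv : ∀ P : Place K F, (ℓ : ℤ) ∣ P.ord h) (hw : w ^ ℓ = algebraMap F F' h)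
  (hζ : IsPrimitiveRoot ζ ℓ) {σ : F' ≃ₐ[F] F'} (hσ : σ w = algebraMap K F' ζ * w)

include hS hS' hfr h0 hdiv hw hζ hσ in
/-- **the value of a norm**: `N(f')(P) = ∏_{P' ∣ P} f'(P')`. -/
theorem isValAt_norm [IsGalois F F'] (hℓ : 0 < ℓ) (P : Place K F) (f' : F')
    (c : Place K F' → K) (hc : ∀ Q : Place K F', Q.restrict F = P → IsValAt Q f' (c Q)) :
    haveI := hS'.principal
    IsValAt P (Algebra.norm F f') (∏ Q ∈ P.fiber F', c Q) := by
  classical
  haveI := hS'.principal
  obtain ⟨P', rfl⟩ := exists_restrict_eq hS hS' hfr hℓ P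
  have hw0 : w ≠ 0 := by
    rintro rfl
    rw [zero_pow hℓ.ne'] at hw
    exact h0 ((map_eq_zero (algebraMap F F')).mp hw.symm)
  rw [isValAt_restrict_iff, norm_eq_prod_pow hfr hw0 hζ hσ]
  have hσ' := inv_apply_root hζ hℓ hσ
  have hζ' : IsPrimitiveRoot ζ⁻¹ ℓ := hζ.inv
  have hfib := fiber_eq_image hS hS' hfr h0 hdiv hw hζ' hσ' P'
  have hinj := galSmul_pow_injOn hS' h0 hdiv hw hζ' hσ' P'
  rw [hfib, Finset.prod_image hinj]
  apply IsValAt.prod
  intro i hi
  have h1 := (hc (galSmul (σ⁻¹ ^ i) P') (restrict_galSmul _ _)).galSmul (σ ^ i)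
  rw [← galSmul_mul, inv_pow, mul_inv_cancel, galSmul_one] at h1
  rw [inv_pow]
  exact h1

include hS hS' hfr h0 hdiv hw hζ hσ in
/-- the pull-back of a divisor along an unramified cover -/
theorem pullback_apply_eq (D : Divisor K F) (P' : Place K F') :
    haveI := hS'.principal
    Divisor.pullback F' D P' = D (P'.restrict F) := by
  haveI := hS'.principal
  rw [Divisor.pullback_apply, ramificationIndex_eq_one hS hS' hfr h0 hdiv hw hζ hσ P',
    Nat.cast_one, one_mul]

include hS hS' hfr h0 hdiv hw hζ hσ in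
/-- **`div w = π^* D`** if `div h = ℓ D` -/
theorem ord_root_eq (hℓ : 0 < ℓ) {D : Divisor K F} (hD : ∀ P : Place K F, P.ord h = ℓ * D P)
    (P' : Place K F') : P'.ord w = D (P'.restrict F) := by
  rw [ord_root hℓ hw P' (hD (P'.restrict F)),
    ramificationIndex_eq_one hS hS' hfr h0 hdiv hw hζ hσ P', Nat.cast_one, one_mul]

end Norm

end Fermat.Agent.T6.helper98

end
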