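/-
TIER 6 (S19 / S32), helper98, block **[W3a]**, part 3: the cyclic cover as a function field.

* `riemannSetting_of_finite`, `exists_hasRiemannGenus_of_finite` : a finite extension `F'` of a
  function field `F / K` (`K` algebraically closed of characteristic `0`, `F` finite over `K(x)`)
  is a `RiemannSetting` and has a Riemann genus;
* `exists_root_sigma`, `finrank_of_splitting`, `isGalois_of_splitting` : for a splitting field
  `F'` of an irreducible `X^ℓ - h` the Kummer generator `w`, the automorphism `σ w = ζ w`,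
  `[F' : F] = ℓ`, `F' / F` Galois (Mathlib `KummerExtension`);
* `isSplittingField_adjoinRoot` : the model `F[X] / (X^ℓ - h)`;
* `cyclic_cover` : everything together.
-/
import Mathlib
import Fermat.Agent.T6.helper98_CycNorm
import Fermat.Agent.P2.helper74_RiemannSep

set_option autoImplicit false
set_option linter.unusedSectionVars false
set_option linter.unusedVariables false
set_option linter.style.longLine false
set_option linter.style.haveILetI false

noncomputable section

namespace Fermat.Agent.T6.helper98

open AlgebraicCurve Fermat.Agent.P2.helper74 IntermediateField Polynomial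

section Inst

variable {K F F' : Type*} [Field K] [Field F] [Field F'] [Algebra K F] [Algebra K F']
  [Algebra F F'] [IsScalarTower K F F'] [FiniteDimensional F F']

/-- tower law over `K(x)` -/
theorem finrank_adjoin_algebraMap (x : F) :
    Module.finrank K⟮x⟯ F * Module.finrank F F' = Module.finrank K⟮algebraMap F F' x⟯ F' := by
  have tower := Module.finrank_mul_finrank (K⟮x⟯) F F'
  let φ : F →ₐ[K] F' := IsScalarTower.toAlgHom K F F'
  have hmap : (K⟮x⟯).map φ = K⟮algebraMap F F' x⟯ := by
    rw [IntermediateField.adjoin_map, Set.image_singleton]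
    rfl
  let i : K⟮x⟯ ≃+* K⟮algebraMap F F' x⟯ :=
    ((IntermediateField.equivMap (K⟮x⟯) φ).trans (IntermediateField.equivOfEq hmap)).toRingEquiv
  have key : Module.finrank (K⟮x⟯) F' = Module.finrank (K⟮algebraMap F F' x⟯) F' :=
    Algebra.finrank_eq_of_equiv_equiv i (RingEquiv.refl _) (by
      ext y
      rfl)
  rw [tower, key]

theorem finiteDimensional_adjoin_algebraMap (x : F) [FiniteDimensional K⟮x⟯ F] :
    FiniteDimensional K⟮algebraMap F F' x⟯ F' := by
  apply Module.finite_of_finrank_pos
  rw [← finrank_adjoin_algebraMap]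
  exact Nat.mul_pos Module.finrank_pos Module.finrank_pos

omit [FiniteDimensional F F'] in
theorem transcendental_algebraMap {x : F} (hx : Transcendental K x) :
    Transcendental K (algebraMap F F' x) := by
  intro h
  exact hx ((isAlgebraic_algebraMap_iff (algebraMap F F').injective).mp h)

variable [IsAlgClosed K] [CharZero K]

/-- **a finite extension of a function field is a function field** (characteristic `0`) -/
theorem riemannSetting_of_finite (x : F) (hx : Transcendental K x) [FiniteDimensional K⟮x⟯ F] :
    RiemannSetting K F' := by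
  haveI := finiteDimensional_adjoin_algebraMap (K := K) (F' := F') x
  haveI : CharZero K⟮algebraMap F F' x⟯ := charZero_of_injective_algebraMap (algebraMap K _).injective
  exact riemannSetting_of_separating (algebraMap F F' x) (transcendental_algebraMap hx)

theorem exists_hasRiemannGenus_of_finite (x : F) (hx : Transcendental K x)
    [FiniteDimensional K⟮x⟯ F] : ∃ g : ℕ, HasRiemannGenus K F' g := by
  haveI := finiteDimensional_adjoin_algebraMap (K := K) (F' := F') x
  haveI : CharZero K⟮algebraMap F F' x⟯ := charZero_of_injective_algebraMap (algebraMap K _).injective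
  exact exists_hasRiemannGenus (algebraMap F F' x) (transcendental_algebraMap hx)

end Inst

section Kummer

variable {K F F' : Type*} [Field K] [Field F] [Field F'] [Algebra K F] [Algebra K F']
  [Algebra F F'] [IsScalarTower K F F']
variable {ℓ : ℕ} {h : F} {ζ : K}

/-- the Kummer generator and the Kummer automorphism of a splitting field of `X^ℓ - h` -/
theorem exists_root_sigma [NeZero ℓ] (hζ : IsPrimitiveRoot ζ ℓ) (H : Irreducible (X ^ ℓ - C h))
    [IsSplittingField F F' (X ^ ℓ - C h)] :
    ∃ (w : F') (σ : F' ≃ₐ[F] F'), w ^ ℓ = algebraMap F F' h ∧ σ w = algebraMap K F' ζ * w := by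
  have hζF : IsPrimitiveRoot (algebraMap K F ζ) ℓ :=
    hζ.map_of_injective (algebraMap K F).injective
  refine ⟨rootOfSplitsXPowSubC (NeZero.pos ℓ) h F',
    (autEquivZmod H F' hζF).symm (Multiplicative.ofAdd ((1 : ℕ) : ZMod ℓ)),
    rootOfSplitsXPowSubC_pow h F', ?_⟩
  rw [autEquivZmod_symm_apply_natCast H F' (rootOfSplitsXPowSubC_pow h F') hζF 1, pow_one,
    Algebra.smul_def, ← IsScalarTower.algebraMap_apply]

theorem finrank_of_splitting [NeZero ℓ] (hζ : IsPrimitiveRoot ζ ℓ) (H : Irreducible (X ^ ℓ - C h))
    [IsSplittingField F F' (X ^ ℓ - C h)] : Module.finrank F F' = ℓ := by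
  have hζF : IsPrimitiveRoot (algebraMap K F ζ) ℓ :=
    hζ.map_of_injective (algebraMap K F).injective
  exact finrank_of_isSplittingField_X_pow_sub_C
    ⟨algebraMap K F ζ, (mem_primitiveRoots (NeZero.pos ℓ)).mpr hζF⟩ H F'

theorem isGalois_of_splitting [NeZero ℓ] (hζ : IsPrimitiveRoot ζ ℓ) (H : Irreducible (X ^ ℓ - C h))
    [IsSplittingField F F' (X ^ ℓ - C h)] : IsGalois F F' := by
  have hζF : IsPrimitiveRoot (algebraMap K F ζ) ℓ :=
    hζ.map_of_injective (algebraMap K F).injective
  exact isGalois_of_isSplittingField_X_pow_sub_C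
    ⟨algebraMap K F ζ, (mem_primitiveRoots (NeZero.pos ℓ)).mpr hζF⟩ H F'

/-- the model `F[X] / (X^ℓ - h)` -/
theorem isSplittingField_adjoinRoot [NeZero ℓ] (hζ : IsPrimitiveRoot ζ ℓ)
    (H : Irreducible (X ^ ℓ - C h)) :
    haveI := Fact.mk H
    IsSplittingField F (AdjoinRoot (X ^ ℓ - C h)) (X ^ ℓ - C h) := by
  have hζF : IsPrimitiveRoot (algebraMap K F ζ) ℓ :=
    hζ.map_of_injective (algebraMap K F).injective
  exact isSplittingField_AdjoinRoot_X_pow_sub_C
    ⟨algebraMap K F ζ, (mem_primitiveRoots (NeZero.pos ℓ)).mpr hζF⟩ H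

end Kummer

section Package

variable {K F F' : Type*} [Field K] [Field F] [Field F'] [Algebra K F] [Algebra K F']
  [Algebra F F'] [IsScalarTower K F F'] [FiniteDimensional F F']

/-- **the setting of a cyclic unramified cover** `F' = F(w)`, `w ^ ℓ = h`, `ℓ ∣ div h`,
`σ w = ζ w`. -/
structure CycSetting (K : Type*) {F F' : Type*} [Field K] [Field F] [Field F'] [Algebra K F]
    [Algebra K F'] [Algebra F F'] [IsScalarTower K F F'] (ℓ : ℕ) (h : F) (w : F') (ζ : K)
    (σ : F' ≃ₐ[F] F') : Prop where
  pos : 0 < ℓ
  setting : RiemannSetting K F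
  setting' : RiemannSetting K F'
  galois : IsGalois F F'
  finrank_eq : Module.finrank F F' = ℓ
  ne_zero : h ≠ 0
  dvd_ord : ∀ P : Place K F, (ℓ : ℤ) ∣ P.ord h
  root_pow : w ^ ℓ = algebraMap F F' h
  primitive : IsPrimitiveRoot ζ ℓ
  sigma_root : σ w = algebraMap K F' ζ * w

variable [IsAlgClosed K] [CharZero K]

/-- **existence of the cyclic cover setting** on any splitting field of `X^ℓ - h`. -/
theorem exists_cycSetting (x : F) (hx : Transcendental K x) [FiniteDimensional K⟮x⟯ F]
    {ℓ : ℕ} (hℓ : ℓ.Prime) {h : F} (hpow : ∀ b : F, b ^ ℓ ≠ h)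
    (hdiv : ∀ P : Place K F, (ℓ : ℤ) ∣ P.ord h) [IsSplittingField F F' (X ^ ℓ - C h)]
    {ζ : K} (hζ : IsPrimitiveRoot ζ ℓ) :
    ∃ (w : F') (σ : F' ≃ₐ[F] F'), CycSetting K ℓ h w ζ σ := by
  haveI : NeZero ℓ := ⟨hℓ.ne_zero⟩
  have H : Irreducible (X ^ ℓ - C h) := X_pow_sub_C_irreducible_of_prime hℓ hpow
  obtain ⟨w, σ, hw, hσ⟩ := exists_root_sigma (K := K) (F' := F') hζ H
  have h0 : h ≠ 0 := by
    rintro rfl
    exact hpow 0 (zero_pow hℓ.ne_zero)
  exact ⟨w, σ, hℓ.pos, riemannSetting_of_separating x hx, riemannSetting_of_finite x hx,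
    isGalois_of_splitting hζ H, finrank_of_splitting hζ H, h0, hdiv, hw, hζ, hσ⟩

omit [IsAlgClosed K] [CharZero K] [FiniteDimensional F F'] in
theorem CycSetting.root_ne_zero {ℓ : ℕ} {h : F} {w : F'} {ζ : K} {σ : F' ≃ₐ[F] F'}
    (C : CycSetting K ℓ h w ζ σ) : w ≠ 0 := by
  rintro rfl
  have := C.root_pow
  rw [zero_pow C.pos.ne'] at this
  exact C.ne_zero ((map_eq_zero (algebraMap F F')).mp this.symm)

variable {ℓ : ℕ} {h : F} {w : F'} {ζ : K} {σ : F' ≃ₐ[F] F'} (C : CycSetting K ℓ h w ζ σ)

include C

/-- the cover is unramified -/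
theorem CycSetting.ramificationIndex_eq_one (P' : Place K F') : P'.ramificationIndex F = 1 :=
  haveI : CharZero F := charZero_of_injective_algebraMap (algebraMap K F).injective
  Fermat.Agent.T6.helper98.ramificationIndex_eq_one C.setting C.setting' C.finrank_eq C.ne_zero
    C.dvd_ord C.root_pow C.primitive C.sigma_root P'

/-- `ord_{P'} f = ord_P f` for `f ∈ F` -/
theorem CycSetting.ord_algebraMap (P' : Place K F') (f : F) :
    P'.ord (algebraMap F F' f) = (P'.restrict F).ord f :=
  haveI : CharZero F := charZero_of_injective_algebraMap (algebraMap K F).injective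
  Fermat.Agent.T6.helper98.ord_algebraMap_eq C.setting C.setting' C.finrank_eq C.ne_zero
    C.dvd_ord C.root_pow C.primitive C.sigma_root P' f

/-- every place of `F` has a place above it -/
theorem CycSetting.exists_restrict_eq (P : Place K F) : ∃ P' : Place K F', P'.restrict F = P :=
  haveI : CharZero F := charZero_of_injective_algebraMap (algebraMap K F).injective
  Fermat.Agent.T6.helper98.exists_restrict_eq C.setting C.setting' C.finrank_eq C.pos P

/-- two places above the same place are translates of each other -/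
theorem CycSetting.exists_galSmul_pow_eq {P' Q' : Place K F'}
    (hPQ : Q'.restrict F = P'.restrict F) : ∃ i : ℕ, i < ℓ ∧ galSmul (σ ^ i) P' = Q' :=
  haveI : CharZero F := charZero_of_injective_algebraMap (algebraMap K F).injective
  Fermat.Agent.T6.helper98.exists_galSmul_pow_eq C.setting C.setting' C.finrank_eq C.ne_zero
    C.dvd_ord C.root_pow C.primitive C.sigma_root hPQ

/-- the translates `σ^i P'`, `i < ℓ`, are pairwise distinct -/
theorem CycSetting.galSmul_pow_injOn (P' : Place K F') :
    Set.InjOn (fun i : ℕ => galSmul (σ ^ i) P') (Finset.range ℓ : Set ℕ) :=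
  Fermat.Agent.T6.helper98.galSmul_pow_injOn C.setting' C.ne_zero C.dvd_ord C.root_pow
    C.primitive C.sigma_root P'

/-- every place of `F` has exactly `ℓ` places above it -/
theorem CycSetting.card_fiber (P : Place K F) :
    haveI := C.setting'.principal
    (P.fiber F').card = ℓ :=
  haveI : CharZero F := charZero_of_injective_algebraMap (algebraMap K F).injective
  Fermat.Agent.T6.helper98.card_fiber C.setting C.setting' C.finrank_eq C.ne_zero
    C.dvd_ord C.root_pow C.primitive C.sigma_root C.pos P

/-- **the value of a norm**: `N(f')(P) = ∏_{P' ∣ P} f'(P')`. -/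
theorem CycSetting.isValAt_norm (P : Place K F) (f' : F') (c : Place K F' → K)
    (hc : ∀ Q : Place K F', Q.restrict F = P → IsValAt Q f' (c Q)) :
    haveI := C.setting'.principal
    IsValAt P (Algebra.norm F f') (∏ Q ∈ P.fiber F', c Q) :=
  haveI := C.galois
  haveI : CharZero F := charZero_of_injective_algebraMap (algebraMap K F).injective
  Fermat.Agent.T6.helper98.isValAt_norm C.setting C.setting' C.finrank_eq C.ne_zero
    C.dvd_ord C.root_pow C.primitive C.sigma_root C.pos P f' c hc

/-- `(π^* D)(P') = D(P' ∩ F)` -/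
theorem CycSetting.pullback_apply (D : Divisor K F) (P' : Place K F') :
    haveI := C.setting'.principal
    Divisor.pullback F' D P' = D (P'.restrict F) :=
  haveI : CharZero F := charZero_of_injective_algebraMap (algebraMap K F).injective
  Fermat.Agent.T6.helper98.pullback_apply_eq C.setting C.setting' C.finrank_eq C.ne_zero
    C.dvd_ord C.root_pow C.primitive C.sigma_root D P'

/-- **`div w = π^* D`** if `div h = ℓ D` -/
theorem CycSetting.ord_root {D : Divisor K F} (hD : ∀ P : Place K F, P.ord h = ℓ * D P)
    (P' : Place K F') : P'.ord w = D (P'.restrict F) :=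
  haveI : CharZero F := charZero_of_injective_algebraMap (algebraMap K F).injective
  Fermat.Agent.T6.helper98.ord_root_eq C.setting C.setting' C.finrank_eq C.ne_zero
    C.dvd_ord C.root_pow C.primitive C.sigma_root C.pos hD P'

omit [IsAlgClosed K] [CharZero K] [FiniteDimensional F F'] in
/-- `w (σ P') = ζ⁻¹ w (P')` -/
theorem CycSetting.isValAt_root_galSmul {P' : Place K F'} {c : K} (hc : IsValAt P' w c) :
    IsValAt (galSmul σ P') w (ζ⁻¹ * c) :=
  Fermat.Agent.T6.helper98.isValAt_root_galSmul C.primitive C.pos C.sigma_root hc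

end Package

end Fermat.Agent.T6.helper98

end
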