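import Mathlib
import Fermat.Agent.T6.helper17_W3cVal
import Fermat.Agent.T6.helper98_CycInst

/-!
# T6 [W3c] (helper17), plug-in 1: the contract `NormVal` on a cyclic unramified cover

`normVal_of_cycSetting` : on a cyclic cover `F' = F(w)`, `w^ℓ = h` (helper98 `CycSetting`)

  `N(f')(D) = f'(π^* D)`   (`dval`, W0 vocabulary of helper26)

for every `f'` without zeros and poles on `π^* D`.  Input: helper98 `CycSetting.isValAt_norm`
(the value of a norm at a place is the product of the values over the fibre) and
`CycSetting.pullback_apply` (the cover is unramified).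
-/

set_option autoImplicit false
set_option linter.unusedSectionVars false
set_option linter.unusedVariables false

noncomputable section

namespace Fermat.Agent.T6.helper17

open AlgebraicCurve Finset
open Fermat.Agent.P2.helper74 (RiemannSetting)
open Fermat.Agent.T6.helper26

variable {K F F' : Type*} [Field K] [Field F] [Field F'] [Algebra K F] [Algebra K F']
  [Algebra F F'] [IsScalarTower K F F'] [FiniteDimensional F F'] [HasPrincipalDivisors K F']
  [IsAlgClosed K] [CharZero K]

/-- the support of a pull-back on an unramified cover is the union of the fibres -/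
theorem support_pullback_of_unramified
    (hpb : ∀ (D : Divisor K F) (Q : Place K F'), Divisor.pullback F' D Q = D (Q.restrict F))
    (D : Divisor K F) [DecidableEq (Place K F')] :
    (Divisor.pullback F' D).support = D.support.biUnion fun P => P.fiber F' := by
  ext Q
  rw [Finsupp.mem_support_iff, hpb, Finset.mem_biUnion]
  constructor
  · intro hQ
    exact ⟨Q.restrict F, Finsupp.mem_support_iff.mpr hQ, Place.mem_fiber.mpr rfl⟩
  · rintro ⟨P, hP, hQ⟩
    rw [Place.mem_fiber.mp hQ]
    exact Finsupp.mem_support_iff.mp hP

/-- **the value of a norm on divisors**, from the value of a norm at places -/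
theorem normVal_of_isVal (hS : RiemannSetting K F) (hS' : RiemannSetting K F')
    (hpb : ∀ (D : Divisor K F) (Q : Place K F'), Divisor.pullback F' D Q = D (Q.restrict F))
    (hnv : ∀ (P : Place K F) (f' : F') (c : Place K F' → K),
      (∀ Q : Place K F', Q.restrict F = P → IsVal Q f' (c Q)) →
        IsVal P (Algebra.norm F f') (∏ Q ∈ P.fiber F', c Q)) :
    NormVal K F F' := by
  classical
  intro f' D hdisj
  have hsupp := support_pullback_of_unramified hpb D
  have hord : ∀ Q : Place K F', Q.restrict F ∈ D.support → Q.ord f' = 0 := by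
    intro Q hQ
    refine hdisj.2 Q ?_
    rw [hpb]
    exact Finsupp.mem_support_iff.mp hQ
  have hP : ∀ P ∈ D.support, pval P (Algebra.norm F f') = ∏ Q ∈ P.fiber F', pval Q f' := by
    intro P hP
    refine pval_eq_of_isVal (hnv P f' (fun Q => pval Q f') fun Q hQ => ?_)
    refine isVal_pval hS' ?_
    rw [hord Q (by rw [hQ]; exact hP)]
  unfold dval Finsupp.prod
  rw [hsupp, Finset.prod_biUnion]
  · refine Finset.prod_congr rfl fun P hPs => ?_
    show pval P (Algebra.norm F f') ^ D P =
      ∏ Q ∈ P.fiber F', pval Q f' ^ (Divisor.pullback F' D) Q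
    rw [hP P hPs, ← Finset.prod_zpow]
    refine Finset.prod_congr rfl fun Q hQ => ?_
    rw [hpb, Place.mem_fiber.mp hQ]
  · intro P _ P' _ hne
    refine Finset.disjoint_left.mpr fun Q hQ hQ' => hne ?_
    rw [← Place.mem_fiber.mp hQ, ← Place.mem_fiber.mp hQ']

/-- **`NormVal` for a cyclic unramified cover** -/
theorem normVal_of_cycSetting {ℓ : ℕ} {h : F} {w : F'} {ζ : K} {σ : F' ≃ₐ[F] F'}
    (C : Fermat.Agent.T6.helper98.CycSetting K ℓ h w ζ σ) : NormVal K F F' :=
  normVal_of_isVal C.setting C.setting' (fun D Q => C.pullback_apply D Q)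
    (fun P f' c hc => C.isValAt_norm P f' c hc)

end Fermat.Agent.T6.helper17

end
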