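/-
TIER 6 (S19 / S32), helper98, block **[KM-RR]**: the Khuri-Makdisi lemmas for an abstract function
field with Riemann's theorem in WEAK form.

Setting: `hS : helper74.RiemannSetting K F`, `K` infinite, a genus `g` and a threshold `c` with
`hc : ∀ D, c ≤ deg D → ℓ(D) + g = deg D + 1` (this is `HasRiemannGenus K F g` unpacked).  Nothing
else: no canonical divisor, no duality, no hypothesis on the characteristic.  All statements hold
for both fibres of a curve with good reduction.

* `exists_exact`      : for `deg D ≥ c + 1` and a finite set `T` of places a section `s ∈ L(D)`,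
                        `s ≠ 0`, with `ord_P s = - D P` for all `P ∈ T`;
* `finite_zeros`      : the zeros of a section form a finite set;
* `exists_pencil`     : **base-point-free pencil**: `s, t ∈ L(D)` with
                        `min (ord_P s) (ord_P t) = - D P` at EVERY place;
* `ker_pencil`        : **pencil trick**: `s a + t b = 0`, `a, b ∈ L(D₂)` ⟹ `a = t h`, `b = - s h`
                        with `h ∈ L(D₂ - D₁)`;
* `mul_pencil`        : **[K-M 2.2], gap form**: `L(D₁ + D₂) = s L(D₂) + t L(D₂)` if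
                        `deg D₂ ≥ c`, `deg D₂ - deg D₁ ≥ c`, `deg D₁ + deg D₂ ≥ c`;
* `mul_span`          : `L(D₁ + D₂)` is spanned by the products `u v`, `u ∈ L(D₁)`, `v ∈ L(D₂)`;
* `division`          : **[K-M 2.3], general form**: for `deg D₂ ≥ c + 1`:
                        `(∀ w ∈ L(D₂), t w ∈ L(D₃)) ↔ t ∈ L(D₃ - D₂)`;
* `L_injective`       : `D` is determined by `L(D)` for `deg D ≥ c + 1`;
* `ell_sub_effective` : `ℓ(D - E) + deg E = ℓ(D)` for `deg (D - E) ≥ c` (codimension of
                        `W = L(D - E)` in `V = L(D)`).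
-/
import Mathlib
import Fermat.Agent.P2.helper74_NonSpecial

set_option autoImplicit false
set_option linter.unusedSectionVars false
set_option linter.unusedVariables false
set_option linter.style.longLine false

noncomputable section

namespace Fermat.Agent.T6.helper98

open AlgebraicCurve Fermat.Agent.P2.helper74

variable {K F : Type*} [Field K] [Field F] [Algebra K F]

section Basic

/-- the order of a product with a nonzero factor on the right, as an inequality-free formula -/
theorem ord_mul_of_ne (v : Place K F) {f g : F} (hf : f ≠ 0) (hg : g ≠ 0) :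
    v.ord (f * g) = v.ord f + v.ord g := v.ord_mul hf hg

theorem ord_ge_of_mem_L {D : Divisor K F} {f : F} (hf : f ∈ riemannRochSpace D) (hf0 : f ≠ 0)
    (v : Place K F) : -D v ≤ v.ord f :=
  (mem_L_iff' hf0).mp hf v

/-- products: `L(D₁) · L(D₂) ⊆ L(D₁ + D₂)` -/
theorem mul_mem_L {D₁ D₂ : Divisor K F} {u v : F} (hu : u ∈ riemannRochSpace D₁)
    (hv : v ∈ riemannRochSpace D₂) : u * v ∈ riemannRochSpace (D₁ + D₂) := by
  by_cases h0 : u * v = 0
  · rw [h0]
    exact zero_mem _
  · have hu0 : u ≠ 0 := left_ne_zero_of_mul h0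
    have hv0 : v ≠ 0 := right_ne_zero_of_mul h0
    rw [mem_L_iff' h0]
    intro P
    rw [P.ord_mul hu0 hv0, Finsupp.add_apply]
    have h1 := ord_ge_of_mem_L hu hu0 P
    have h2 := ord_ge_of_mem_L hv hv0 P
    omega

end Basic

section KMRR

variable (hS : RiemannSetting K F)

include hS

/-- **the zeros of a section form a finite set** -/
theorem finite_zeros (D : Divisor K F) {s : F} (hs0 : s ≠ 0) :
    ∃ T : Finset (Place K F), ∀ P : Place K F, P ∉ T → P.ord s = -D P := by
  classical
  obtain ⟨E, hE, -⟩ := hS.principal.exists_divisor s hs0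
  refine ⟨(E + D).support, fun P hP => ?_⟩
  have h0 : (E + D) P = 0 := Finsupp.notMem_support_iff.mp hP
  rw [Finsupp.add_apply, hE P] at h0
  omega

variable {g : ℕ} {c : ℤ}
  (hc : ∀ D : Divisor K F, c ≤ Divisor.degree D → (ell D : ℤ) + g = Divisor.degree D + 1)

include hc

/-- **sections with exact orders on a finite set of places**. -/
theorem exists_exact [Infinite K] {D : Divisor K F} (hD : c + 1 ≤ Divisor.degree D)
    (T : Finset (Place K F)) :
    ∃ s : F, s ∈ riemannRochSpace D ∧ s ≠ 0 ∧ ∀ P ∈ T, P.ord s = -D P := by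
  classical
  rcases T.eq_empty_or_nonempty with hT | ⟨P₀, hP₀⟩
  · subst hT
    obtain ⟨P⟩ := hS.nonempty
    obtain ⟨f, hf0, hfD, -⟩ := exists_mem_L_ord_eq hS hc hD P
    exact ⟨f, hfD, hf0, fun P hP => absurd hP (Finset.notMem_empty P)⟩
  let p : T → Submodule K (riemannRochSpace D) := fun P =>
    (riemannRochSpace (D - Finsupp.single (P : Place K F) 1)).comap (riemannRochSpace D).subtype
  have hp : ∀ P : T, p P ≠ ⊤ := by
    intro P hP
    obtain ⟨f, hf0, hfD, hford⟩ := exists_mem_L_ord_eq hS hc hD (P : Place K F)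
    have hmem : (⟨f, hfD⟩ : riemannRochSpace D) ∈ p P := by
      rw [hP]
      exact Submodule.mem_top
    have hmem' : f ∈ riemannRochSpace (D - Finsupp.single (P : Place K F) 1) := hmem
    have := ((mem_L_sub_single_iff hf0).mp hmem').2
    omega
  obtain ⟨⟨t, htD⟩, ht⟩ := Submodule.exists_forall_notMem_of_forall_ne_top p hp
  have ht0 : t ≠ 0 := by
    rintro rfl
    exact ht ⟨P₀, hP₀⟩ (zero_mem _)
  refine ⟨t, htD, ht0, fun P hPT => ?_⟩
  have h1 := ord_ge_of_mem_L htD ht0 P
  have h2 : ¬ (-D P < P.ord t) := fun h =>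
    ht ⟨P, hPT⟩ ((mem_L_sub_single_iff ht0).mpr ⟨htD, h⟩)
  omega

/-- **base-point-free pencils**. -/
theorem exists_pencil [Infinite K] {D : Divisor K F} (hD : c + 1 ≤ Divisor.degree D) :
    ∃ s t : F, s ∈ riemannRochSpace D ∧ t ∈ riemannRochSpace D ∧ s ≠ 0 ∧ t ≠ 0 ∧
      ∀ P : Place K F, min (P.ord s) (P.ord t) = -D P := by
  classical
  obtain ⟨s, hsD, hs0, -⟩ := exists_exact hS hc hD ∅
  obtain ⟨T, hT⟩ := finite_zeros hS D hs0
  obtain ⟨t, htD, ht0, ht⟩ := exists_exact hS hc hD T
  refine ⟨s, t, hsD, htD, hs0, ht0, fun P => ?_⟩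
  have h1 := ord_ge_of_mem_L hsD hs0 P
  have h2 := ord_ge_of_mem_L htD ht0 P
  by_cases hP : P ∈ T
  · have := ht P hP
    omega
  · have := hT P hP
    omega

omit hc in
/-- **the pencil trick**: the relations `s a + t b = 0` of a base-point-free pencil. -/
theorem ker_pencil {D₁ D₂ : Divisor K F} {s t : F} (hs0 : s ≠ 0) (ht0 : t ≠ 0)
    (hmin : ∀ P : Place K F, min (P.ord s) (P.ord t) = -D₁ P) {a b : F}
    (ha : a ∈ riemannRochSpace D₂) (hb : b ∈ riemannRochSpace D₂) (hab : s * a + t * b = 0) :
    ∃ h : F, h ∈ riemannRochSpace (D₂ - D₁) ∧ a = t * h ∧ b = -(s * h) := by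
  refine ⟨a / t, ?_, by field_simp, ?_⟩
  · by_cases ha0 : a = 0
    · rw [ha0, zero_div]
      exact zero_mem _
    have hh0 : a / t ≠ 0 := div_ne_zero ha0 ht0
    have hb0 : b ≠ 0 := by
      rintro rfl
      rw [mul_zero, add_zero] at hab
      exact ha0 ((mul_eq_zero.mp hab).resolve_left hs0)
    have e2 : a / t = -(b / s) := by
      have : s * a = -(t * b) := eq_neg_of_add_eq_zero_left hab
      field_simp
      linear_combination this
    rw [mem_L_iff' hh0]
    intro P
    have o1 : P.ord (a / t) = P.ord a - P.ord t := by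
      rw [div_eq_mul_inv, P.ord_mul ha0 (inv_ne_zero ht0), P.ord_inv]
      ring
    have o2 : P.ord (a / t) = P.ord b - P.ord s := by
      rw [e2]
      have hbs : b / s ≠ 0 := div_ne_zero hb0 hs0
      have hneg : -(b / s) = (-1 : F) * (b / s) := by ring
      rw [hneg, P.ord_mul (neg_ne_zero.mpr one_ne_zero) hbs, div_eq_mul_inv,
        P.ord_mul hb0 (inv_ne_zero hs0), P.ord_inv]
      have h1 : P.ord (-1 : F) = 0 := by
        have h2 : P.ord ((-1 : F) * (-1 : F)) = P.ord (-1 : F) + P.ord (-1 : F) :=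
          P.ord_mul (neg_ne_zero.mpr one_ne_zero) (neg_ne_zero.mpr one_ne_zero)
        rw [neg_one_mul, neg_neg, P.ord_one] at h2
        omega
      rw [h1]
      ring
    have h1 := ord_ge_of_mem_L ha ha0 P
    have h2 := ord_ge_of_mem_L hb hb0 P
    have h3 := hmin P
    rw [Finsupp.sub_apply]
    rcases min_choice (P.ord s) (P.ord t) with h4 | h4
    · rw [h4] at h3
      omega
    · rw [h4] at h3
      omega
  · have hsa : s * a = -(t * b) := eq_neg_of_add_eq_zero_left hab
    rw [mul_div_assoc', hsa, neg_div, neg_neg, mul_div_cancel_left₀ b ht0]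

/-- **[K-M 2.2], gap form**: a base-point-free pencil of `L(D₁)` generates `L(D₁ + D₂)` over
`L(D₂)`. -/
theorem mul_pencil {D₁ D₂ : Divisor K F} {s t : F} (hs : s ∈ riemannRochSpace D₁)
    (ht : t ∈ riemannRochSpace D₁) (hs0 : s ≠ 0) (ht0 : t ≠ 0)
    (hmin : ∀ P : Place K F, min (P.ord s) (P.ord t) = -D₁ P)
    (h2 : c ≤ Divisor.degree D₂) (hgap : c ≤ Divisor.degree D₂ - Divisor.degree D₁)
    (hsum : c ≤ Divisor.degree D₁ + Divisor.degree D₂)
    {f : F} (hf : f ∈ riemannRochSpace (D₁ + D₂)) :
    ∃ a ∈ riemannRochSpace D₂, ∃ b ∈ riemannRochSpace D₂, f = s * a + t * b := by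
  classical
  have := finiteDimensional_L hS D₂
  have := finiteDimensional_L hS (D₁ + D₂)
  have := finiteDimensional_L hS (D₂ - D₁)
  -- the map `(a, b) ↦ s a + t b`
  let φ : (riemannRochSpace D₂ × riemannRochSpace D₂) →ₗ[K] riemannRochSpace (D₁ + D₂) :=
    { toFun := fun p => ⟨s * (p.1 : F) + t * (p.2 : F),
        add_mem (mul_mem_L hs p.1.2) (mul_mem_L ht p.2.2)⟩
      map_add' := fun p p' => by
        apply Subtype.ext
        simp only [Prod.fst_add, Prod.snd_add, Submodule.coe_add]
        ring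
      map_smul' := fun k p => by
        apply Subtype.ext
        simp only [Prod.smul_fst, Prod.smul_snd, Submodule.coe_smul, RingHom.id_apply,
          Algebra.smul_def]
        ring }
  -- the map `h ↦ (t h, - s h)`
  have hmem : ∀ h : F, h ∈ riemannRochSpace (D₂ - D₁) → ∀ u : F, u ∈ riemannRochSpace D₁ →
      u * h ∈ riemannRochSpace D₂ := by
    intro h hh u hu
    have := mul_mem_L hu hh
    rwa [add_sub_cancel] at this
  let ψ : riemannRochSpace (D₂ - D₁) →ₗ[K] (riemannRochSpace D₂ × riemannRochSpace D₂) :=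
    { toFun := fun h => (⟨t * (h : F), hmem h h.2 t ht⟩,
        ⟨-(s * (h : F)), neg_mem (hmem h h.2 s hs)⟩)
      map_add' := fun h h' => by
        apply Prod.ext
        · apply Subtype.ext
          simp only [Submodule.coe_add, Prod.fst_add]
          ring
        · apply Subtype.ext
          simp only [Submodule.coe_add, Prod.snd_add]
          ring
      map_smul' := fun k h => by
        apply Prod.ext
        · apply Subtype.ext
          simp only [Submodule.coe_smul, RingHom.id_apply, Prod.smul_fst, Algebra.smul_def]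
          ring
        · apply Subtype.ext
          simp only [Submodule.coe_smul, RingHom.id_apply, Prod.smul_snd, Algebra.smul_def]
          ring }
  have hψinj : Function.Injective ψ := by
    intro h h' e
    have e1 := congrArg (fun p => ((p.1 : riemannRochSpace D₂) : F)) e
    simp only [ψ, LinearMap.coe_mk, AddHom.coe_mk] at e1
    exact Subtype.ext (mul_left_cancel₀ ht0 e1)
  have hker : LinearMap.ker φ = LinearMap.range ψ := by
    ext p
    rw [LinearMap.mem_ker, LinearMap.mem_range]
    constructor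
    · intro hp
      have hp' : s * (p.1 : F) + t * (p.2 : F) = 0 := congrArg Subtype.val hp
      obtain ⟨h, hh, e1, e2⟩ := ker_pencil hS hs0 ht0 hmin p.1.2 p.2.2 hp'
      refine ⟨⟨h, hh⟩, ?_⟩
      apply Prod.ext
      · exact Subtype.ext e1.symm
      · exact Subtype.ext e2.symm
    · rintro ⟨h, rfl⟩
      apply Subtype.ext
      simp only [φ, ψ, LinearMap.coe_mk, AddHom.coe_mk, ZeroMemClass.coe_zero]
      ring
  -- dimension count
  have d1 := LinearMap.finrank_range_add_finrank_ker φ
  have d2 : Module.finrank K (LinearMap.ker φ) = ell (D₂ - D₁) := by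
    rw [hker, LinearMap.finrank_range_of_inj hψinj]
    rfl
  have d3 : Module.finrank K (riemannRochSpace D₂ × riemannRochSpace D₂) = ell D₂ + ell D₂ :=
    Module.finrank_prod
  have e1 := hc D₂ h2
  have e2 := hc (D₂ - D₁) (by rw [map_sub]; exact hgap)
  have e3 := hc (D₁ + D₂) (by rw [map_add]; exact hsum)
  rw [map_sub] at e2
  rw [map_add] at e3
  have d4 : Module.finrank K (LinearMap.range φ) = Module.finrank K (riemannRochSpace (D₁ + D₂)) := by
    have e4 : (ell (D₁ + D₂) : ℤ) = Module.finrank K (riemannRochSpace (D₁ + D₂)) := rfl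
    rw [d2, d3] at d1
    have : ((Module.finrank K (LinearMap.range φ) : ℕ) : ℤ) = (ell (D₁ + D₂) : ℤ) := by
      have d1' : ((Module.finrank K (LinearMap.range φ) : ℕ) : ℤ) + (ell (D₂ - D₁) : ℤ)
          = (ell D₂ : ℤ) + (ell D₂ : ℤ) := by exact_mod_cast d1
      linarith
    exact_mod_cast this
  have htop : LinearMap.range φ = ⊤ := Submodule.eq_top_of_finrank_eq d4
  have hfr : (⟨f, hf⟩ : riemannRochSpace (D₁ + D₂)) ∈ LinearMap.range φ := by
    rw [htop]
    exact Submodule.mem_top
  obtain ⟨p, hp⟩ := hfr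
  exact ⟨p.1, p.1.2, p.2, p.2.2, (congrArg Subtype.val hp).symm⟩

/-- **[K-M 2.2]**: `L(D₁ + D₂)` is spanned by the products. -/
theorem mul_span [Infinite K] {D₁ D₂ : Divisor K F} (h1 : c + 1 ≤ Divisor.degree D₁)
    (h2 : c ≤ Divisor.degree D₂) (hgap : c ≤ Divisor.degree D₂ - Divisor.degree D₁)
    (hsum : c ≤ Divisor.degree D₁ + Divisor.degree D₂) :
    Submodule.span K {x : F | ∃ u ∈ riemannRochSpace D₁, ∃ v ∈ riemannRochSpace D₂, x = u * v}
      = riemannRochSpace (D₁ + D₂) := by
  apply le_antisymm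
  · rw [Submodule.span_le]
    rintro x ⟨u, hu, v, hv, rfl⟩
    exact mul_mem_L hu hv
  · intro f hf
    obtain ⟨s, t, hs, ht, hs0, ht0, hmin⟩ := exists_pencil hS hc h1
    obtain ⟨a, ha, b, hb, rfl⟩ := mul_pencil hS hc hs ht hs0 ht0 hmin h2 hgap hsum hf
    exact add_mem (Submodule.subset_span ⟨s, hs, a, ha, rfl⟩)
      (Submodule.subset_span ⟨t, ht, b, hb, rfl⟩)

/-- **[K-M 2.3], the division lemma**. -/
theorem division {D₂ D₃ : Divisor K F} (h2 : c + 1 ≤ Divisor.degree D₂) (t : F) :
    (∀ w ∈ riemannRochSpace D₂, t * w ∈ riemannRochSpace D₃) ↔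
      t ∈ riemannRochSpace (D₃ - D₂) := by
  constructor
  · intro h
    by_cases ht0 : t = 0
    · rw [ht0]
      exact zero_mem _
    rw [mem_L_iff' ht0]
    intro P
    obtain ⟨w, hw0, hwD, hword⟩ := exists_mem_L_ord_eq hS hc h2 P
    have h3 := ord_ge_of_mem_L (h w hwD) (mul_ne_zero ht0 hw0) P
    rw [P.ord_mul ht0 hw0, hword] at h3
    rw [Finsupp.sub_apply]
    omega
  · intro ht w hw
    have := mul_mem_L ht hw
    rwa [sub_add_cancel] at this

/-- **`D` is determined by `L(D)`** in large degree. -/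
theorem L_injective {D D' : Divisor K F} (hD : c + 1 ≤ Divisor.degree D)
    (hD' : c + 1 ≤ Divisor.degree D') (h : riemannRochSpace D = riemannRochSpace D') :
    D = D' := by
  ext P
  obtain ⟨w, hw0, hwD, hword⟩ := exists_mem_L_ord_eq hS hc hD P
  obtain ⟨w', hw0', hwD', hword'⟩ := exists_mem_L_ord_eq hS hc hD' P
  have h1 := ord_ge_of_mem_L (h ▸ hwD) hw0 P
  have h2 := ord_ge_of_mem_L (h.symm ▸ hwD') hw0' P
  omega

/-- the codimension of `L(D - E)` in `L(D)` is `deg E`, in large degree -/
theorem ell_sub_effective {D E : Divisor K F} (h : c ≤ Divisor.degree D - Divisor.degree E)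
    (hE : 0 ≤ Divisor.degree E) :
    (ell (D - E) : ℤ) + Divisor.degree E = ell D := by
  have e1 := hc (D - E) (by rw [map_sub]; exact h)
  have e2 := hc D (by linarith)
  rw [map_sub] at e1
  linarith

end KMRR

end Fermat.Agent.T6.helper98

end
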