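/-
T6 [W2] (helper35, second prover): THE WEIL PAIRING ON `Pic0[n]` FROM WEIL RECIPROCITY.

Setting: any `(K, F)` with `hS : helper74.RiemannSetting K F`, the contract
`hW : helper26.WeilRec K F` of block [W1] and the moving property `hM : Moving K F`
(`moving_of_weakRR` : it follows from weak Riemann-Roch, `K` infinite).

* `IsRep D u`                 : `D` is a divisor of degree `0` in the class `u : Pic0 K F`
* `WPData n u y Du Dy hu hy`  : admissible data: `div hu = n Du`, `div hy = n Dy`,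
                                 `hu` has no zero / pole on `Dy`, `hy` none on `Du`
* `wp n u y : K`              : the Weil pairing `e_n(u, y) = hu(Dy) / hy(Du)` (junk `1`)
* `wp_eq`                     : `wp n u y = dval hu Dy / dval hy Du` for ANY admissible data
* `wp_pow`, `wp_ne_zero`, `wp_swap`, `wp_add_left`, `wp_add_right`, `wp_zero_left`,
  `wp_zero_right`, `wp_compat` (`e_{nm}(u, y) = e_n(m u, y)`), `wp_smul` (Galois).
-/
import Mathlib
import Fermat.Agent.T6.helper26_PVal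
import Fermat.Agent.T6.helper98_KMRR

set_option autoImplicit false
set_option linter.unusedSectionVars false
set_option linter.unusedVariables false
set_option linter.unusedSimpArgs false

noncomputable section

open AlgebraicCurve

namespace Fermat.Agent.T6.helper35

open Fermat.Agent.P2.helper74 Fermat.Agent.T6.helper26

variable {K F : Type*} [Field K] [Field F] [Algebra K F]

/-! ### The moving property -/

/-- **the moving property**: a function with prescribed orders on a finite set of places. -/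
def Moving (K F : Type*) [Field K] [Field F] [Algebra K F] : Prop :=
  ∀ (D : Divisor K F) (T : Finset (Place K F)), ∃ f : F, f ≠ 0 ∧ ∀ P ∈ T, P.ord f = -D P

/-- weak Riemann-Roch gives the moving property -/
theorem moving_of_weakRR (hS : RiemannSetting K F) [Infinite K] {g : ℕ} {c : ℤ}
    (hc : ∀ D : Divisor K F, c ≤ Divisor.degree D → (ell D : ℤ) + g = Divisor.degree D + 1) :
    Moving K F := by
  classical
  intro D T
  obtain ⟨Q⟩ := hS.nonempty
  obtain ⟨m, hm1, hm2⟩ : ∃ m : ℕ, c + 1 - Divisor.degree D ≤ m ∧ c + 1 ≤ (m : ℤ) := by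
    refine ⟨(max (c + 1 - Divisor.degree D) (c + 1)).toNat, ?_, ?_⟩
    · exact le_trans (le_max_left _ _) (Int.self_le_toNat _)
    · exact le_trans (le_max_right _ _) (Int.self_le_toNat _)
  have hd1 : c + 1 ≤ Divisor.degree (D + Finsupp.single Q (m : ℤ)) := by
    rw [map_add, Divisor.degree_single, hS.deg_one Q]
    push_cast
    linarith
  have hd2 : c + 1 ≤ Divisor.degree (Finsupp.single Q (m : ℤ) : Divisor K F) := by
    rw [Divisor.degree_single, hS.deg_one Q]
    push_cast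
    linarith
  obtain ⟨s₁, -, hs₁0, hs₁⟩ := Fermat.Agent.T6.helper98.exists_exact hS hc hd1 T
  obtain ⟨s₂, -, hs₂0, hs₂⟩ := Fermat.Agent.T6.helper98.exists_exact hS hc hd2 T
  refine ⟨s₁ / s₂, div_ne_zero hs₁0 hs₂0, fun P hP => ?_⟩
  rw [div_eq_mul_inv, P.ord_mul hs₁0 (inv_ne_zero hs₂0), Place.ord_inv, hs₁ P hP, hs₂ P hP,
    Finsupp.add_apply]
  ring

/-! ### Representatives of classes -/

/-- `D` is a divisor of degree `0` in the class `u`. -/
def IsRep (D : Divisor K F) (u : Pic0 K F) : Prop :=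
  ∃ h : D ∈ Divisor.degZero (K := K) (F := F), Pic0.mk ⟨D, h⟩ = u

namespace IsRep

variable {D E : Divisor K F} {u v : Pic0 K F}

theorem degree (h : IsRep D u) : Divisor.degree D = 0 := h.1

theorem mk (D : Divisor.degZero (K := K) (F := F)) : IsRep (D : Divisor K F) (Pic0.mk D) :=
  ⟨D.2, rfl⟩

theorem zero : IsRep (0 : Divisor K F) (0 : Pic0 K F) :=
  ⟨(Divisor.degZero (K := K) (F := F)).zero_mem, rfl⟩

theorem add (h : IsRep D u) (h' : IsRep E v) : IsRep (D + E) (u + v) := by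
  obtain ⟨hD, rfl⟩ := h
  obtain ⟨hE, rfl⟩ := h'
  exact ⟨(Divisor.degZero (K := K) (F := F)).add_mem hD hE, rfl⟩

theorem neg (h : IsRep D u) : IsRep (-D) (-u) := by
  obtain ⟨hD, rfl⟩ := h
  exact ⟨(Divisor.degZero (K := K) (F := F)).neg_mem hD, rfl⟩

theorem nsmul (h : IsRep D u) (m : ℕ) : IsRep (m • D) (m • u) := by
  induction m with
  | zero => simpa using (zero : IsRep (0 : Divisor K F) (0 : Pic0 K F))
  | succ m ih =>
    rw [succ_nsmul, succ_nsmul]
    exact ih.add h

theorem smul (g : SemilinearAut K F) (h : IsRep D u) : IsRep (g • D) (g • u) := by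
  obtain ⟨hD, rfl⟩ := h
  exact ⟨SemilinearAut.smul_mem_degZero g hD, rfl⟩

end IsRep

theorem exists_isRep (u : Pic0 K F) : ∃ D : Divisor K F, IsRep D u := by
  obtain ⟨D, rfl⟩ := Pic0.mk_surjective u
  exact ⟨D, IsRep.mk D⟩

section Rep

variable (hS : RiemannSetting K F)

include hS

/-- the class of a principal divisor is `0` -/
theorem isRep_divOf (f : F) : IsRep (divOf K f) (0 : Pic0 K F) := by
  rcases eq_or_ne f 0 with rfl | hf
  · rw [divOf_zero]
    exact IsRep.zero
  · refine ⟨divOf_mem_degZero hS f, ?_⟩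
    refine (QuotientAddGroup.eq_zero_iff _).mpr ?_
    rw [AddSubgroup.mem_addSubgroupOf]
    exact divOf_mem_principal hS hf

theorem IsRep.add_divOf {D : Divisor K F} {u : Pic0 K F} (h : IsRep D u) (f : F) :
    IsRep (D + divOf K f) u := by
  have := h.add (isRep_divOf hS f)
  rwa [add_zero] at this

/-- a representative of `0` is principal -/
theorem IsRep.exists_divOf_of_zero {D : Divisor K F} (h : IsRep D (0 : Pic0 K F)) :
    ∃ g : F, g ≠ 0 ∧ divOf K g = D := by
  obtain ⟨hD, h0⟩ := h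
  have h1 := (QuotientAddGroup.eq_zero_iff _).mp h0
  rw [AddSubgroup.mem_addSubgroupOf] at h1
  exact (isPrincipal_iff_exists_divOf hS).mp h1

/-- two representatives of a class differ by a principal divisor -/
theorem IsRep.exists_divOf_sub {D E : Divisor K F} {u : Pic0 K F} (h : IsRep D u)
    (h' : IsRep E u) : ∃ g : F, g ≠ 0 ∧ divOf K g = E - D := by
  have h0 : IsRep (E - D) (0 : Pic0 K F) := by
    have := h'.add h.neg
    rwa [add_neg_cancel, ← sub_eq_add_neg] at this
  exact h0.exists_divOf_of_zero hS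

/-- a representative of an `n`-torsion class: `n D` is principal -/
theorem IsRep.exists_divOf_nsmul {D : Divisor K F} {u : Pic0 K F} (h : IsRep D u) {n : ℕ}
    (hu : u ∈ Pic0.torsion K F n) : ∃ f : F, f ≠ 0 ∧ divOf K f = n • D := by
  have h0 : IsRep (n • D) (0 : Pic0 K F) := by
    have := h.nsmul n
    rw [Pic0.mem_torsion, natCast_zsmul] at hu
    rwa [hu] at this
  exact h0.exists_divOf_of_zero hS

theorem IsRep.mem_torsion {D : Divisor K F} {u : Pic0 K F} (h : IsRep D u) {n : ℕ} {f : F}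
    (hf : divOf K f = n • D) : u ∈ Pic0.torsion K F n := by
  rw [Pic0.mem_torsion, natCast_zsmul]
  have h1 := h.nsmul n
  have h2 := isRep_divOf hS f
  rw [hf] at h2
  obtain ⟨hD, e1⟩ := h1
  obtain ⟨hD', e2⟩ := h2
  rw [← e1, ← e2]

end Rep

/-! ### Admissible data -/

/-- **admissible data** for `e_n(u, y)`. -/
structure WPData (n : ℕ) (u y : Pic0 K F) (Du Dy : Divisor K F) (hu hy : F) : Prop where
  repu : IsRep Du u
  repy : IsRep Dy y
  divu : divOf K hu = n • Du
  divy : divOf K hy = n • Dy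
  disju : Disj hu Dy
  disjy : Disj hy Du

namespace WPData

variable {n : ℕ} {u y : Pic0 K F} {Du Dy : Divisor K F} {hu hy : F}

theorem swap (h : WPData n u y Du Dy hu hy) : WPData n y u Dy Du hy hu :=
  ⟨h.repy, h.repu, h.divy, h.divu, h.disjy, h.disju⟩

theorem torsion_left (hS : RiemannSetting K F) (h : WPData n u y Du Dy hu hy) :
    u ∈ Pic0.torsion K F n :=
  h.repu.mem_torsion hS h.divu

theorem torsion_right (hS : RiemannSetting K F) (h : WPData n u y Du Dy hu hy) :
    y ∈ Pic0.torsion K F n :=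
  h.repy.mem_torsion hS h.divy

/-- data from representatives with disjoint supports -/
theorem of_supp (hS : RiemannSetting K F) (repu : IsRep Du u) (repy : IsRep Dy y)
    (hu0 : hu ≠ 0) (hy0 : hy ≠ 0) (divu : divOf K hu = n • Du) (divy : divOf K hy = n • Dy)
    (hd : ∀ P : Place K F, Du P = 0 ∨ Dy P = 0) : WPData n u y Du Dy hu hy := by
  refine ⟨repu, repy, divu, divy, ⟨hu0, fun P hP => ?_⟩, ⟨hy0, fun P hP => ?_⟩⟩
  · rw [← divOf_apply hS hu, divu, Finsupp.smul_apply, (hd P).resolve_right hP, smul_zero]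
  · rw [← divOf_apply hS hy, divy, Finsupp.smul_apply, (hd P).resolve_left hP, smul_zero]

/-- the supports of admissible representatives are disjoint -/
theorem supp (hS : RiemannSetting K F) (hn : n ≠ 0) (h : WPData n u y Du Dy hu hy)
    (P : Place K F) : Du P = 0 ∨ Dy P = 0 := by
  by_cases hP : Dy P = 0
  · exact Or.inr hP
  · left
    have h1 := h.disju.2 P hP
    rw [← divOf_apply hS hu, h.divu, Finsupp.smul_apply, nsmul_eq_mul] at h1
    rcases mul_eq_zero.mp h1 with h2 | h2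
    · exact absurd (by exact_mod_cast h2) hn
    · exact h2

theorem smul (hS : RiemannSetting K F) (g : SemilinearAut K F)
    (h : WPData n u y Du Dy hu hy) : WPData n (g • u) (g • y) (g • Du) (g • Dy) (g • hu) (g • hy) :=
  ⟨h.repu.smul g, h.repy.smul g, by rw [divOf_smul hS, h.divu, smul_comm],
    by rw [divOf_smul hS, h.divy, smul_comm], h.disju.smul g, h.disjy.smul g⟩

end WPData

section Main

variable (hS : RiemannSetting K F) (hW : WeilRec K F)

include hS

/-- moving a representative (with its function) off a finite set of places -/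
theorem exists_moved (hM : Moving K F) {n : ℕ} {u : Pic0 K F} {D : Divisor K F} {h : F}
    (hrep : IsRep D u) (h0 : h ≠ 0) (hdiv : divOf K h = n • D) (T : Finset (Place K F)) :
    ∃ (D' : Divisor K F) (h' : F), IsRep D' u ∧ h' ≠ 0 ∧ divOf K h' = n • D' ∧
      ∀ P ∈ T, D' P = 0 := by
  obtain ⟨f, hf0, hf⟩ := hM D T
  refine ⟨D + divOf K f, h * f ^ n, hrep.add_divOf hS f, mul_ne_zero h0 (pow_ne_zero n hf0), ?_,
    fun P hP => ?_⟩
  · rw [divOf_mul hS h0 (pow_ne_zero n hf0), divOf_pow hS, hdiv, smul_add]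
  · rw [Finsupp.add_apply, divOf_apply hS, hf P hP, add_neg_cancel]

/-- for given data of `y` there are admissible data of any torsion class `u` -/
theorem exists_wpData_left (hM : Moving K F) {n : ℕ} {u y : Pic0 K F}
    (hu : u ∈ Pic0.torsion K F n) {Dy : Divisor K F} {hy : F} (repy : IsRep Dy y)
    (hy0 : hy ≠ 0) (divy : divOf K hy = n • Dy) (T : Finset (Place K F)) :
    ∃ (Du : Divisor K F) (hu : F), WPData n u y Du Dy hu hy ∧ ∀ P ∈ T, Du P = 0 := by
  classical
  obtain ⟨D₀, hD₀⟩ := exists_isRep u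
  obtain ⟨h₀, h₀0, hdiv₀⟩ := hD₀.exists_divOf_nsmul hS hu
  obtain ⟨Du, hu', hrep, hu0, hdiv, hT⟩ := exists_moved hS hM hD₀ h₀0 hdiv₀ (Dy.support ∪ T)
  refine ⟨Du, hu', WPData.of_supp hS hrep repy hu0 hy0 hdiv divy fun P => ?_, fun P hP =>
    hT P (Finset.mem_union_right _ hP)⟩
  by_cases hP : Dy P = 0
  · exact Or.inr hP
  · exact Or.inl (hT P (Finset.mem_union_left _ (Finsupp.mem_support_iff.mpr hP)))

/-- **existence** of admissible data -/
theorem exists_wpData (hM : Moving K F) {n : ℕ} {u y : Pic0 K F}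
    (hu : u ∈ Pic0.torsion K F n) (hy : y ∈ Pic0.torsion K F n) :
    ∃ (Du Dy : Divisor K F) (hu hy : F), WPData n u y Du Dy hu hy := by
  obtain ⟨Dy, hDy⟩ := exists_isRep y
  obtain ⟨hy', hy0, hdivy⟩ := hDy.exists_divOf_nsmul hS hy
  obtain ⟨Du, hu', h, -⟩ := exists_wpData_left hS hM hu hDy hy0 hdivy ∅
  exact ⟨Du, Dy, hu', hy', h⟩

include hW

/-- **the key step**: the value does not depend on the data of `y`. -/
theorem wp_step {n : ℕ} (hn : n ≠ 0) {u y : Pic0 K F} {Du Dy Dy' : Divisor K F}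
    {hu hy hy' : F} (h : WPData n u y Du Dy hu hy) (h' : WPData n u y Du Dy' hu hy') :
    dval hu Dy / dval hy Du = dval hu Dy' / dval hy' Du := by
  obtain ⟨g, hg0, hg⟩ := h.repy.exists_divOf_sub hS h'.repy
  have hdiv : divOf K hy' = divOf K (hy * g ^ n) := by
    rw [divOf_mul hS h.disjy.ne_zero (pow_ne_zero n hg0), divOf_pow hS, h.divy, h'.divy, hg,
      smul_sub]
    abel
  obtain ⟨a, ha0, ha⟩ := exists_const_of_divOf_eq hS h'.disjy.ne_zero
    (mul_ne_zero h.disjy.ne_zero (pow_ne_zero n hg0)) hdiv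
  have hgDu : Disj g Du := by
    refine ⟨hg0, fun P hP => ?_⟩
    have h5 : Dy P = 0 := (h.supp hS hn P).resolve_left hP
    have h6 : Dy' P = 0 := (h'.supp hS hn P).resolve_left hP
    rw [← divOf_apply hS g, hg, Finsupp.sub_apply, h5, h6, sub_zero]
  have hhug : Disj hu (divOf K g) := by
    rw [hg]
    exact h'.disju.sub h.disju
  have hrec : dval hu (divOf K g) = dval g Du ^ n := by
    rw [hW hu g h.disju.ne_zero hg0 ?_, h.divu, dval_nsmul hS hgDu]
    intro P
    by_cases hP : P.ord g = 0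
    · exact Or.inr hP
    · exact Or.inl (hhug.2 P (by rwa [divOf_apply hS]))
  have e1 : dval hu Dy' = dval hu Dy * dval g Du ^ n := by
    have hDy' : Dy' = Dy + divOf K g := by
      rw [hg]
      abel
    rw [hDy', dval_add hS h.disju hhug, hrec]
  have e2 : dval hy' Du = dval hy Du * dval g Du ^ n := by
    rw [ha, dval_const_mul hS ha0 (h.disjy.mul (hgDu.pow n)) h.repu.degree,
      dval_mul hS h.disjy (hgDu.pow n), dval_pow hS hgDu]
  have hX : dval g Du ≠ 0 := dval_ne_zero hS hgDu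
  rw [e1, e2, mul_div_mul_right _ _ (pow_ne_zero n hX)]

/-- the same for the data of `u` -/
theorem wp_step' {n : ℕ} (hn : n ≠ 0) {u y : Pic0 K F} {Du Du' Dy : Divisor K F}
    {hu hu' hy : F} (h : WPData n u y Du Dy hu hy) (h' : WPData n u y Du' Dy hu' hy) :
    dval hu Dy / dval hy Du = dval hu' Dy / dval hy Du' := by
  have := wp_step hS hW hn h.swap h'.swap
  rw [← inv_div, this, inv_div]

/-- **independence of all choices** -/
theorem wp_unique (hM : Moving K F) {n : ℕ} (hn : n ≠ 0) {u y : Pic0 K F}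
    {Du Dy Du' Dy' : Divisor K F} {hu hy hu' hy' : F} (h : WPData n u y Du Dy hu hy)
    (h' : WPData n u y Du' Dy' hu' hy') :
    dval hu Dy / dval hy Du = dval hu' Dy' / dval hy' Du' := by
  classical
  obtain ⟨D, f, hrep, hf0, hdiv, hT⟩ :=
    exists_moved hS hM h.repu h.disju.ne_zero h.divu (Dy.support ∪ Dy'.support)
  have hA : WPData n u y D Dy f hy := by
    refine WPData.of_supp hS hrep h.repy hf0 h.disjy.ne_zero hdiv h.divy fun P => ?_
    by_cases hP : Dy P = 0
    · exact Or.inr hP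
    · exact Or.inl (hT P (Finset.mem_union_left _ (Finsupp.mem_support_iff.mpr hP)))
  have hB : WPData n u y D Dy' f hy' := by
    refine WPData.of_supp hS hrep h'.repy hf0 h'.disjy.ne_zero hdiv h'.divy fun P => ?_
    by_cases hP : Dy' P = 0
    · exact Or.inr hP
    · exact Or.inl (hT P (Finset.mem_union_right _ (Finsupp.mem_support_iff.mpr hP)))
  rw [wp_step' hS hW hn h hA, wp_step hS hW hn hA hB, wp_step' hS hW hn hB h']

end Main

/-! ### The pairing -/

open Classical in
/-- **the Weil pairing** `e_n(u, y)` (junk value `1` if there are no admissible data). -/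
def wp (n : ℕ) (u y : Pic0 K F) : K :=
  if h : ∃ a : K, ∃ (Du Dy : Divisor K F) (hu hy : F),
      WPData n u y Du Dy hu hy ∧ a = dval hu Dy / dval hy Du then h.choose else 1

section Pairing

variable (hS : RiemannSetting K F) (hW : WeilRec K F) (hM : Moving K F)

include hS hW hM

/-- **the pairing is computed by ANY admissible data** -/
theorem wp_eq {n : ℕ} (hn : n ≠ 0) {u y : Pic0 K F} {Du Dy : Divisor K F} {hu hy : F}
    (h : WPData n u y Du Dy hu hy) : wp n u y = dval hu Dy / dval hy Du := by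
  have hex : ∃ a : K, ∃ (Du Dy : Divisor K F) (hu hy : F),
      WPData n u y Du Dy hu hy ∧ a = dval hu Dy / dval hy Du := ⟨_, Du, Dy, hu, hy, h, rfl⟩
  rw [wp, dif_pos hex]
  obtain ⟨Du', Dy', hu', hy', h', e⟩ := hex.choose_spec
  rw [e]
  exact wp_unique hS hW hM hn h' h

theorem wp_ne_zero {n : ℕ} (hn : n ≠ 0) {u y : Pic0 K F} (hu : u ∈ Pic0.torsion K F n)
    (hy : y ∈ Pic0.torsion K F n) : wp n u y ≠ 0 := by
  obtain ⟨Du, Dy, fu, fy, h⟩ := exists_wpData hS hM hu hy
  rw [wp_eq hS hW hM hn h]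
  exact div_ne_zero (dval_ne_zero hS h.disju) (dval_ne_zero hS h.disjy)

/-- `e_n(u, y)` is an `n`-th root of unity -/
theorem wp_pow {n : ℕ} (hn : n ≠ 0) {u y : Pic0 K F} (hu : u ∈ Pic0.torsion K F n)
    (hy : y ∈ Pic0.torsion K F n) : wp n u y ^ n = 1 := by
  obtain ⟨Du, Dy, fu, fy, h⟩ := exists_wpData hS hM hu hy
  rw [wp_eq hS hW hM hn h, div_pow, ← dval_nsmul hS h.disju, ← dval_nsmul hS h.disjy, ← h.divu,
    ← h.divy]
  have hd := h.supp hS hn
  have hrec := hW fu fy h.disju.ne_zero h.disjy.ne_zero (fun P => by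
    rcases hd P with hP | hP
    · left
      rw [← divOf_apply hS fu, h.divu, Finsupp.smul_apply, hP, smul_zero]
    · right
      rw [← divOf_apply hS fy, h.divy, Finsupp.smul_apply, hP, smul_zero])
  rw [hrec]
  refine div_self ?_
  rw [h.divu]
  exact dval_ne_zero hS (h.disjy.nsmul n)

/-- antisymmetry: `e_n(y, u) = e_n(u, y)⁻¹` -/
theorem wp_swap {n : ℕ} (hn : n ≠ 0) {u y : Pic0 K F} (hu : u ∈ Pic0.torsion K F n)
    (hy : y ∈ Pic0.torsion K F n) : wp n y u = (wp n u y)⁻¹ := by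
  obtain ⟨Du, Dy, fu, fy, h⟩ := exists_wpData hS hM hu hy
  rw [wp_eq hS hW hM hn h, wp_eq hS hW hM hn h.swap, inv_div]

/-- additivity in the first variable -/
theorem wp_add_left {n : ℕ} (hn : n ≠ 0) {u₁ u₂ y : Pic0 K F}
    (hu₁ : u₁ ∈ Pic0.torsion K F n) (hu₂ : u₂ ∈ Pic0.torsion K F n)
    (hy : y ∈ Pic0.torsion K F n) : wp n (u₁ + u₂) y = wp n u₁ y * wp n u₂ y := by
  obtain ⟨Dy, hDy⟩ := exists_isRep y
  obtain ⟨fy, fy0, hdivy⟩ := hDy.exists_divOf_nsmul hS hy
  obtain ⟨D₁, f₁, h₁, -⟩ := exists_wpData_left hS hM hu₁ hDy fy0 hdivy ∅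
  obtain ⟨D₂, f₂, h₂, -⟩ := exists_wpData_left hS hM hu₂ hDy fy0 hdivy ∅
  have h₁₂ : WPData n (u₁ + u₂) y (D₁ + D₂) Dy (f₁ * f₂) fy :=
    ⟨h₁.repu.add h₂.repu, hDy, by
      rw [divOf_mul hS h₁.disju.ne_zero h₂.disju.ne_zero, h₁.divu, h₂.divu, smul_add], hdivy,
      h₁.disju.mul h₂.disju, h₁.disjy.add h₂.disjy⟩
  rw [wp_eq hS hW hM hn h₁₂, wp_eq hS hW hM hn h₁, wp_eq hS hW hM hn h₂,
    dval_mul hS h₁.disju h₂.disju, dval_add hS h₁.disjy h₂.disjy, mul_div_mul_comm]

/-- additivity in the second variable -/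
theorem wp_add_right {n : ℕ} (hn : n ≠ 0) {u y₁ y₂ : Pic0 K F}
    (hu : u ∈ Pic0.torsion K F n) (hy₁ : y₁ ∈ Pic0.torsion K F n)
    (hy₂ : y₂ ∈ Pic0.torsion K F n) : wp n u (y₁ + y₂) = wp n u y₁ * wp n u y₂ := by
  have h12 : y₁ + y₂ ∈ Pic0.torsion K F n := (Pic0.torsion K F n).add_mem hy₁ hy₂
  rw [← inv_inv (wp n u (y₁ + y₂)), ← wp_swap hS hW hM hn hu h12,
    wp_add_left hS hW hM hn hy₁ hy₂ hu, wp_swap hS hW hM hn hu hy₁, wp_swap hS hW hM hn hu hy₂,
    mul_inv, inv_inv, inv_inv]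

theorem wp_zero_left {n : ℕ} (hn : n ≠ 0) {y : Pic0 K F} (hy : y ∈ Pic0.torsion K F n) :
    wp n (0 : Pic0 K F) y = 1 := by
  have h0 : (0 : Pic0 K F) ∈ Pic0.torsion K F n := (Pic0.torsion K F n).zero_mem
  have h := wp_add_left hS hW hM hn h0 h0 hy
  rw [add_zero] at h
  have hne := wp_ne_zero hS hW hM hn h0 hy
  exact (mul_eq_left₀ hne).mp h.symm

theorem wp_zero_right {n : ℕ} (hn : n ≠ 0) {u : Pic0 K F} (hu : u ∈ Pic0.torsion K F n) :
    wp n u (0 : Pic0 K F) = 1 := by
  have h0 : (0 : Pic0 K F) ∈ Pic0.torsion K F n := (Pic0.torsion K F n).zero_mem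
  rw [wp_swap hS hW hM hn h0 hu, wp_zero_left hS hW hM hn hu, inv_one]

/-- **compatibility**: `e_{n m}(u, y) = e_n(m u, y)` for `u ∈ Pic0[n m]`, `y ∈ Pic0[n]`. -/
theorem wp_compat {n m : ℕ} (hn : n ≠ 0) (hm : m ≠ 0) {u y : Pic0 K F}
    (hu : u ∈ Pic0.torsion K F (n * m)) (hy : y ∈ Pic0.torsion K F n) :
    wp (n * m) u y = wp n (m • u) y := by
  obtain ⟨Dy, hDy⟩ := exists_isRep y
  obtain ⟨fy, fy0, hdivy⟩ := hDy.exists_divOf_nsmul hS hy
  have hdivy' : divOf K (fy ^ m) = (n * m) • Dy := by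
    rw [divOf_pow hS, hdivy, ← mul_smul, mul_comm]
  obtain ⟨Du, fu, h, -⟩ :=
    exists_wpData_left hS hM hu hDy (pow_ne_zero m fy0) hdivy' ∅
  have hd := h.supp hS (mul_ne_zero hn hm)
  have h2 : WPData n (m • u) y (m • Du) Dy fu fy := by
    refine WPData.of_supp hS (h.repu.nsmul m) hDy h.disju.ne_zero fy0 ?_ hdivy fun P => ?_
    · rw [h.divu, mul_smul]
    · rcases hd P with hP | hP
      · left
        rw [Finsupp.smul_apply, hP, smul_zero]
      · exact Or.inr hP
  have hfyDu : Disj fy Du := by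
    refine ⟨fy0, fun P hP => ?_⟩
    rw [← divOf_apply hS fy, hdivy, Finsupp.smul_apply, (hd P).resolve_left hP, smul_zero]
  rw [wp_eq hS hW hM (mul_ne_zero hn hm) h, wp_eq hS hW hM hn h2, dval_pow hS hfyDu,
    dval_nsmul hS hfyDu]

/-- **Galois equivariance**: `e_n(g u, g y) = g (e_n(u, y))`. -/
theorem wp_smul {n : ℕ} (hn : n ≠ 0) (g : SemilinearAut K F) {u y : Pic0 K F}
    (hu : u ∈ Pic0.torsion K F n) (hy : y ∈ Pic0.torsion K F n) :
    wp n (g • u) (g • y) = SemilinearAut.baseAut g (wp n u y) := by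
  obtain ⟨Du, Dy, fu, fy, h⟩ := exists_wpData hS hM hu hy
  rw [wp_eq hS hW hM hn h, wp_eq hS hW hM hn (h.smul hS g), dval_smul, dval_smul, map_div₀]

end Pairing

end Fermat.Agent.T6.helper35

end
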