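import Mathlib
import Fermat.Agent.LEF.helper99_ComplexModel
import Fermat.Agent.LEF.helper99_P5Uncond
import Fermat.Agent.LEF.helper95_Verbatim
import Fermat.Agent.P5.helper25_S27Wire

/-!
# T6 [W3b] (helper91): `Pic0` is divisible over algebraically closed fields of characteristic `0`

* `pic0Divisible_complex`            : `Pic0` of a complex function field is divisible
                                       (P5, unconditional);
* `exists_conPic0_eq_of_stabilizer`  : a divisor class of a constant field extension which is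
                                       fixed by a subgroup of finite index of `Aut(K'/K)` is a
                                       conorm (the argument of LEF L6, helper82);
* `act_smul_conPic0`                 : conorm classes are invariant;
* `pic0_divisible_prime_of_countable`, `pic0_divisible_prime`, `pic0_divisible` :
  **divisibility of `Pic0 K F`** for every function field `F` of a curve over an algebraically
  closed field `K` of characteristic `0`.

Route: constant field extension to `ℂ` (LEF), divisibility over `ℂ` (P5); a solution `m` of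
`ℓ m = Con c` over `ℂ` has its `Aut(ℂ/K)`-orbit inside `m + Pic0[ℓ]`, which is finite (S27), so
its stabiliser has finite index and `m` descends; the conorm is injective.
-/

set_option autoImplicit false
set_option linter.unusedVariables false
set_option linter.style.haveILetI false

open AlgebraicCurve IntermediateField

namespace Fermat.Agent.T6.helper91

open Fermat.Agent.LEF Fermat.Agent.P2.helper74 Fermat.Agent.P5.helper25 Fermat.Agent.P5.helper42

universe u v

/-- **[AN-div]**, unconditional: `Pic0` of a complex function field is divisible. -/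
theorem pic0Divisible_complex : Pic0Divisible :=
  pic0Divisible_of_modules existsCutModel_final rhStatement_final
    Fermat.Agent.P5.helper56.combDivisible Fermat.Agent.P5.helper42.rrConStatement

section Descent

variable {K F K' F' : Type*} [Field K] [Field F] [Algebra K F] [Field K'] [Field F']
  [Algebra K' F'] (C : ConstExt K F K' F')

/-- **descent**: a divisor class of `F'` fixed by a subgroup of finite index of `Aut(K'/K)` is a
conorm. -/
theorem exists_conPic0_eq_of_stabilizer [IsAlgClosed K] [IsAlgClosed K'] [CharZero K]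
    (hS : RiemannSetting K F) (hS' : RiemannSetting K' F')
    (hR : ∃ g : ℤ, ∀ D : Divisor K' F', Divisor.degree D + 1 - g ≤ (ell D : ℤ))
    (c : Pic0 K' F') (H : Subgroup (RingAut K')) (hH : H ≤ C.gal)
    (hHfin : (H.subgroupOf C.gal).FiniteIndex) (hHc : ∀ σ ∈ H, C.act σ • c = c) :
    ∃ c₀ : Pic0 K F, C.conPic0 c₀ = c := by
  classical
  obtain ⟨D', rfl⟩ := Pic0.mk_surjective c
  obtain ⟨P₀⟩ := hS.nonempty
  obtain ⟨Q₀, hQ₀⟩ := helper99.exists_isExt C hS P₀
  obtain ⟨m, hm⟩ := helper67.exists_ell_add_eq_one hS' hR (D' : Divisor K' F') Q₀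
  obtain ⟨E₁, ⟨hE₁eff, hE₁pr⟩, hE₁uniq⟩ :=
    helper67.existsUnique_effective_of_ell_eq_one hS' _ hm
  -- `E₁` is stable under `H`
  have hstab : ∀ σ ∈ H, C.act σ • E₁ = E₁ := by
    intro σ hσ
    refine hE₁uniq _ ⟨fun v => ?_, ?_⟩
    · rw [SemilinearAut.divisor_smul_apply]
      exact hE₁eff _
    · have h1 : C.act σ • (E₁ - ((D' : Divisor K' F') + Finsupp.single Q₀ m)) ∈
          Divisor.principal (K := K') (F := F') := SemilinearAut.smul_mem_principal _ hE₁pr
      have h2 : (C.act σ • (D' : Divisor K' F')) - (D' : Divisor K' F') ∈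
          Divisor.principal (K := K') (F := F') := by
        have h3 := hHc σ hσ
        rw [SemilinearAut.pic0_smul_mk] at h3
        have h4 := (helper82.l6_mk_eq_mk_iff _ _).mp h3.symm
        exact h4
      have h5 : C.act σ • Q₀ = Q₀ :=
        helper95.act_smul_of_isExt C hS σ (hH hσ)
          (fun h h' => helper99.isExt_unique C hS h h') hQ₀
      have h6 : C.act σ • E₁ - ((D' : Divisor K' F') + Finsupp.single Q₀ m) =
          C.act σ • (E₁ - ((D' : Divisor K' F') + Finsupp.single Q₀ m)) +
            ((C.act σ • (D' : Divisor K' F')) - (D' : Divisor K' F')) := by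
        rw [smul_sub, smul_add, SemilinearAut.smul_single, h5]
        abel
      rw [h6]
      exact add_mem h1 h2
  obtain ⟨E₀, hE₀⟩ := helper82.exists_con_eq_of_stable C hS hS' H hH hHfin E₁ hstab
  -- degrees
  have hdegE₁ : Divisor.degree E₁ = m := by
    have h1 := helper82.l6_degree_eq_zero_of_principal hS' hE₁pr
    rw [map_sub, map_add, Divisor.degree_single, hS'.deg_one] at h1
    have h2 : Divisor.degree (D' : Divisor K' F') = 0 := D'.2
    rw [h2] at h1
    simpa [sub_eq_zero] using h1
  have hdegE₀ : Divisor.degree E₀ = m := by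
    rw [← helper82.l6_degree_con C hS hS', hE₀, hdegE₁]
  have hD₀ : E₀ - Finsupp.single P₀ m ∈ Divisor.degZero (K := K) (F := F) := by
    rw [Divisor.mem_degZero, map_sub, hdegE₀, Divisor.degree_single, hS.deg_one]
    simp
  refine ⟨Pic0.mk ⟨E₀ - Finsupp.single P₀ m, hD₀⟩, ?_⟩
  rw [helper37.conPic0_mk (helper82.l6_conOK C hS hS'), helper82.l6_mk_eq_mk_iff]
  have h7 : ((C.conDegZero (helper82.l6_conOK C hS hS') ⟨E₀ - Finsupp.single P₀ m, hD₀⟩ :
      Divisor.degZero (K := K') (F := F')) : Divisor K' F') =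
      E₁ - Finsupp.single Q₀ m := by
    show C.con (E₀ - Finsupp.single P₀ m) = _
    rw [map_sub, hE₀, helper37.con_single_of_isExt (helper82.l6_plInputs C hS) hQ₀]
  rw [h7]
  have h8 : (D' : Divisor K' F') - (E₁ - Finsupp.single Q₀ m) =
      -(E₁ - ((D' : Divisor K' F') + Finsupp.single Q₀ m)) := by abel
  rw [h8]
  exact neg_mem hE₁pr

/-- conorm classes are invariant under `Aut(K'/K)` -/
theorem act_smul_conPic0 (hS : RiemannSetting K F) (hS' : RiemannSetting K' F')
    (σ : RingAut K') (hσ : σ ∈ C.gal) (c₀ : Pic0 K F) :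
    C.act σ • C.conPic0 c₀ = C.conPic0 c₀ := by
  obtain ⟨D, rfl⟩ := Pic0.mk_surjective c₀
  rw [helper37.conPic0_mk (helper82.l6_conOK C hS hS'), SemilinearAut.pic0_smul_mk]
  refine congrArg Pic0.mk (Subtype.ext ?_)
  rw [SemilinearAut.coe_degZeroSMulHom]
  show C.act σ • C.con (D : Divisor K F) = C.con (D : Divisor K F)
  exact helper95.V.act_smul_con C hS σ hσ D

/-- a class whose `Aut(K'/K)`-orbit lies in a finite set has a stabiliser of finite index -/
theorem exists_stabilizer_of_finite (c : Pic0 K' F') (T : Set (Pic0 K' F')) (hT : T.Finite)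
    (hc : ∀ σ ∈ C.gal, C.act σ • c ∈ T) :
    ∃ H : Subgroup (RingAut K'), H ≤ C.gal ∧ (H.subgroupOf C.gal).FiniteIndex ∧
      ∀ σ ∈ H, C.act σ • c = c := by
  classical
  letI inst : MulAction C.gal (Pic0 K' F') :=
    MulAction.compHom (Pic0 K' F') (helper82.l6ActHom C)
  have horb : (MulAction.orbit C.gal c).Finite := by
    refine hT.subset ?_
    rintro _ ⟨σ, rfl⟩
    exact hc σ σ.2
  haveI : Finite (MulAction.orbit C.gal c) := horb
  set S : Subgroup C.gal := MulAction.stabilizer C.gal c with hSdef
  haveI : Finite (C.gal ⧸ S) :=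
    Finite.of_equiv _ (MulAction.orbitEquivQuotientStabilizer C.gal c)
  have hS : S.FiniteIndex := Subgroup.finiteIndex_of_finite_quotient
  refine ⟨S.map C.gal.subtype, Subgroup.map_subtype_le S, ?_, ?_⟩
  · have : (S.map C.gal.subtype).subgroupOf C.gal = S :=
      Subgroup.comap_map_eq_self_of_injective (Subgroup.subtype_injective _) S
    rw [this]
    exact hS
  · rintro σ ⟨s, hs, rfl⟩
    exact MulAction.mem_stabilizer_iff.mp hs

/-- **divisibility descends**: if `Con c` is divisible by `n` in `Pic0 K' F'` and the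
`n`-torsion of `Pic0 K' F'` is finite, then `c` is divisible by `n` in `Pic0 K F`. -/
theorem exists_zsmul_eq_of_conPic0 [IsAlgClosed K] [IsAlgClosed K'] [CharZero K]
    (hS : RiemannSetting K F) (hS' : RiemannSetting K' F')
    (hR : ∃ g : ℤ, ∀ D : Divisor K' F', Divisor.degree D + 1 - g ≤ (ell D : ℤ))
    (n : ℕ) (hfin : Finite (Pic0.torsion K' F' n)) (c : Pic0 K F) (m : Pic0 K' F')
    (hm : (n : ℤ) • m = C.conPic0 c) : ∃ c' : Pic0 K F, (n : ℤ) • c' = c := by
  classical
  -- the orbit of `m` lies in `m + Pic0[n]`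
  set T : Set (Pic0 K' F') := Set.range fun t : Pic0.torsion K' F' n => m + (t : Pic0 K' F')
    with hTdef
  have hT : T.Finite := Set.finite_range _
  have horb : ∀ σ ∈ C.gal, C.act σ • m ∈ T := by
    intro σ hσ
    have ht : C.act σ • m - m ∈ Pic0.torsion K' F' n := by
      rw [Pic0.mem_torsion, zsmul_sub, ← SemilinearAut.smul_zsmul, hm,
        act_smul_conPic0 C hS hS' σ hσ c, sub_self]
    exact ⟨⟨_, ht⟩, by simp⟩
  obtain ⟨H, hH, hHfin, hHc⟩ := exists_stabilizer_of_finite C m T hT horb
  obtain ⟨c', hc'⟩ := exists_conPic0_eq_of_stabilizer C hS hS' hR m H hH hHfin hHc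
  refine ⟨c', helper99.conPic0_injective C hS hS' ?_⟩
  rw [map_zsmul, hc', hm]

end Descent

/-- **[W3b]** over a countable constant field, prime multiplier. -/
theorem pic0_divisible_prime_of_countable (K : Type u) (F : Type v) [Field K] [Field F]
    [Algebra K F] [IsAlgClosed K] [CharZero K] [IsCurveOver K F] [Algebra.EssFiniteType K F]
    [Countable K] (ℓ : ℕ) (hℓ : ℓ.Prime) (c : Pic0 K F) :
    ∃ c' : Pic0 K F, (ℓ : ℤ) • c' = c := by
  obtain ⟨x, hx, hfd, -, -⟩ := exists_separating_transcendental (K := K) (F := F)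
  haveI := hfd
  haveI : Countable F := helper13.countable_of_essFiniteType K F
  obtain ⟨K₁, F₁, instK₁, instF₁, instA₁, eK, eF, he⟩ := helper13.exists_small_model K F
  haveI : Countable K₁ := eK.symm.toEquiv.injective.countable
  haveI : CharZero K₁ := charZero_of_injective_ringHom eK.toRingHom.injective
  haveI : IsAlgClosed K₁ := helper99.isAlgClosed_of_ringEquiv' eK
  obtain ⟨κ₁⟩ := helper13.exists_ringHom_complex K₁
  obtain ⟨F', instF', instA', C₁, -⟩ := helper57.exists_constExt K₁ F₁ ℂ κ₁
  obtain ⟨C, -, -⟩ := helper86.exists_constExt_comp eK eF he C₁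
  obtain ⟨hx', hfd'⟩ := helper86.transcendental_ι C x hx
  haveI := hfd'
  obtain ⟨hcurve, hess⟩ := helper67.isCurveOver_of_transcendental ℂ F' (C.ι x) hx'
  haveI := hcurve
  haveI := hess
  have hS : RiemannSetting K F := riemannSetting_of_separating x hx
  have hS' : RiemannSetting ℂ F' := riemannSetting_of_separating (C.ι x) hx'
  obtain ⟨g', hg'⟩ := exists_hasRiemannGenus (K := ℂ) (F := F') (C.ι x) hx'
  have hR : ∃ g₀ : ℤ, ∀ D : Divisor ℂ F', Divisor.degree D + 1 - g₀ ≤ (ell D : ℤ) := by
    refine ⟨g', fun D => ?_⟩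
    have := HasRiemannGenus.ineq hS' hg' D
    linarith
  obtain ⟨m, hm⟩ := pic0Divisible_complex F' ℓ hℓ.pos (C.conPic0 c)
  haveI : Fact ℓ.Prime := ⟨hℓ⟩
  have hcard : Nat.card (Pic0.torsion ℂ F' ℓ) = ℓ ^ (2 * genusFF ℂ F' * 1) := by
    have := s27_final ℂ F' ℓ 1
    rwa [pow_one] at this
  have hpos : 0 < Nat.card (Pic0.torsion ℂ F' ℓ) := by
    rw [hcard]
    exact pow_pos hℓ.pos _
  have hfin : Finite (Pic0.torsion ℂ F' ℓ) := (Nat.card_pos_iff.mp hpos).2
  exact exists_zsmul_eq_of_conPic0 C hS hS' hR ℓ hfin c m hm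

/-- **[W3b]** prime multiplier, any algebraically closed constant field of characteristic `0`. -/
theorem pic0_divisible_prime (K : Type u) (F : Type v) [Field K] [Field F]
    [Algebra K F] [IsAlgClosed K] [CharZero K] [IsCurveOver K F] [Algebra.EssFiniteType K F]
    (ℓ : ℕ) (hℓ : ℓ.Prime) (c : Pic0 K F) :
    ∃ c' : Pic0 K F, (ℓ : ℤ) • c' = c := by
  obtain ⟨M⟩ := Fermat.Agent.LEF.helper99.existsCountableModel_uncond K F {c}
  letI := M.fieldK
  letI := M.fieldF
  letI := M.alg
  haveI := M.algClosed
  haveI := M.charZero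
  haveI := M.curve
  haveI := M.ess
  haveI := M.countable
  obtain ⟨c₀, hc₀⟩ := M.mem_range c (Finset.mem_singleton_self c)
  obtain ⟨c₀', h⟩ := pic0_divisible_prime_of_countable M.K₀ M.F₀ ℓ hℓ c₀
  exact ⟨M.tr.con c₀', by rw [← map_zsmul, h, hc₀]⟩

/-- **[W3b] `Pic0` is divisible**: for every function field `F` of a curve over an
algebraically closed field `K` of characteristic `0`, every divisor class of degree `0` is
divisible by every `n > 0`. -/
theorem pic0_divisible (K : Type u) (F : Type v) [Field K] [Field F]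
    [Algebra K F] [IsAlgClosed K] [CharZero K] [IsCurveOver K F] [Algebra.EssFiniteType K F]
    (n : ℕ) (hn : 0 < n) (c : Pic0 K F) :
    ∃ c' : Pic0 K F, (n : ℤ) • c' = c := by
  induction n using Nat.strong_induction_on generalizing c with
  | _ n ih =>
    rcases Nat.lt_or_ge 1 n with h1 | h1
    · obtain ⟨ℓ, hℓ, k, rfl⟩ : ∃ ℓ : ℕ, ℓ.Prime ∧ ∃ k, n = ℓ * k := by
        obtain ⟨ℓ, hℓ, k, hk⟩ := Nat.exists_prime_and_dvd (by omega : n ≠ 1)
        exact ⟨ℓ, hℓ, k, hk⟩
      have hk : 0 < k := Nat.pos_of_ne_zero (by rintro rfl; simp at hn)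
      have hlt : k < ℓ * k := by
        have := hℓ.two_le
        nlinarith
      obtain ⟨c₁, hc₁⟩ := pic0_divisible_prime K F ℓ hℓ c
      obtain ⟨c₂, hc₂⟩ := ih k hlt hk c₁
      refine ⟨c₂, ?_⟩
      rw [← hc₁, ← hc₂, smul_smul]
      push_cast
      rfl
    · have : n = 1 := by omega
      subst this
      exact ⟨c, by simp⟩

/-- the form used in [W3c]: over `ℚ̄`. -/
theorem pic0_divisible_Qbar (F : Type v) [Field F] [Algebra (AlgebraicClosure ℚ) F]
    [IsCurveOver (AlgebraicClosure ℚ) F] [Algebra.EssFiniteType (AlgebraicClosure ℚ) F]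
    (n : ℕ) (hn : 0 < n) (c : Pic0 (AlgebraicClosure ℚ) F) :
    ∃ c' : Pic0 (AlgebraicClosure ℚ) F, (n : ℤ) • c' = c :=
  pic0_divisible (AlgebraicClosure ℚ) F n hn c

/-- the same for a field `F` which is finite over `K(x)`, `x` transcendental (no `IsCurveOver`
instance needed: this is the shape of a finite extension of a function field, e.g. the cyclic
cover of [W3a]). -/
theorem pic0_divisible_of_transcendental (K : Type u) (F : Type v) [Field K] [Field F]
    [Algebra K F] [IsAlgClosed K] [CharZero K] (x : F) (hx : Transcendental K x)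
    [FiniteDimensional K⟮x⟯ F] (n : ℕ) (hn : 0 < n) (c : Pic0 K F) :
    ∃ c' : Pic0 K F, (n : ℤ) • c' = c := by
  obtain ⟨hcurve, hess⟩ := helper67.isCurveOver_of_transcendental K F x hx
  haveI := hcurve
  haveI := hess
  exact pic0_divisible K F n hn c

end Fermat.Agent.T6.helper91
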