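/-
TIER 6 (S19), block [W3a], helper9: **existence of the Kummer cover** `F' = F(h^(1/ℓ))`.

`K` algebraically closed of characteristic zero, `F` a function field of one variable over `K`
(`x` transcendental, `[F : K(x)] < ∞`), `ℓ` prime, `h ∈ F` not an `ℓ`-th power.  Then
`F' := AdjoinRoot (X ^ ℓ - C h)` is a field of degree `ℓ` over `F`, a function field of one
variable over `K` (`x` stays transcendental and `[F' : K(x)] < ∞`), and `z ↦ ζ z` is an
automorphism of `F'` over `F`.

* `finiteDimensional_adjoin_of_tower` : a finite extension of a function field is a function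
  field;
* `exists_kummerCover` : the cover, with `IsKummerCover`.
-/
import Fermat.Agent.T6.helper9_CoverPlaces
import Fermat.Agent.P2.helper74_RiemannSep
import Fermat.Agent.LEF.helper67_Curve2

set_option autoImplicit false
set_option linter.unusedSectionVars false
set_option linter.style.haveILetI false
set_option linter.unusedVariables false

noncomputable section

namespace Fermat.Agent.T6.helper9

open AlgebraicCurve IntermediateField Polynomial

universe u v

section Tower

variable {K : Type*} {F : Type*} {F' : Type*} [Field K] [Field F] [Field F'] [Algebra K F]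
  [Algebra K F'] [Algebra F F'] [IsScalarTower K F F']

/-- a finite extension of a function field of one variable is a function field of one
variable (with the same transcendental element). -/
theorem finiteDimensional_adjoin_of_tower [FiniteDimensional F F'] (x : F)
    [FiniteDimensional K⟮x⟯ F] : FiniteDimensional K⟮algebraMap F F' x⟯ F' := by
  let φ : F →ₐ[K] F' := IsScalarTower.toAlgHom K F F'
  have hmap : (K⟮x⟯).map φ = K⟮algebraMap F F' x⟯ := by
    rw [adjoin_map, Set.image_singleton]
    rfl
  haveI : IsScalarTower K⟮x⟯ F F' := inferInstance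
  haveI : Module.Finite K⟮x⟯ F' := Module.Finite.trans F F'
  let e : K⟮x⟯ ≃+* K⟮algebraMap F F' x⟯ :=
    ((equivMap K⟮x⟯ φ).trans (equivOfEq hmap)).toRingEquiv
  refine Module.Finite.of_equiv_equiv (A₁ := K⟮x⟯) (B₁ := F') e (RingEquiv.refl F') ?_
  ext y
  rfl

omit [Algebra K F'] [IsScalarTower K F F'] in
theorem transcendental_algebraMap_of_transcendental {x : F} (hx : Transcendental K x)
    [Algebra K F'] [IsScalarTower K F F'] : Transcendental K (algebraMap F F' x) := by
  intro halg
  apply hx
  obtain ⟨p, hp0, hp⟩ := halg
  refine ⟨p, hp0, ?_⟩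
  have : algebraMap F F' (Polynomial.aeval x p) = 0 := by
    rw [← Polynomial.aeval_algebraMap_apply, hp]
  exact (algebraMap F F').injective (by rw [this, map_zero])

end Tower

section Exists

variable {K : Type u} {F : Type v} [Field K] [Field F] [Algebra K F]

/-- **the Kummer cover**: for `h` not an `ℓ`-th power in `F` with `div h = ℓ D`. -/
theorem exists_kummerCover [IsAlgClosed K] [CharZero K] (x : F) (hx : Transcendental K x)
    [FiniteDimensional K⟮x⟯ F] {ℓ : ℕ} (hℓ : ℓ.Prime) {h : F} (hh : ∀ g : F, g ^ ℓ ≠ h)
    {D : Divisor K F} (hD : ∀ v : Place K F, v.ord h = ℓ * D v) :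
    ∃ (F' : Type v) (_ : Field F') (_ : Algebra K F') (_ : Algebra F F')
      (_ : IsScalarTower K F F') (_ : FiniteDimensional F F') (z : F') (ζ : K)
      (τ : F' ≃ₐ[K] F'),
      IsKummerCover ℓ h D z ζ τ ∧ Module.finrank F F' = ℓ ∧
        Transcendental K (algebraMap F F' x) ∧
        FiniteDimensional K⟮algebraMap F F' x⟯ F' := by
  have hirr : Irreducible (X ^ ℓ - C h) := X_pow_sub_C_irreducible_of_prime hℓ hh
  haveI : Fact (Irreducible (X ^ ℓ - C h)) := ⟨hirr⟩
  haveI : NeZero ℓ := ⟨hℓ.ne_zero⟩
  haveI : NeZero (ℓ : K) := ⟨by exact_mod_cast hℓ.ne_zero⟩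
  obtain ⟨ζ, hζ⟩ := HasEnoughRootsOfUnity.exists_primitiveRoot K ℓ
  have hζF : (algebraMap K F ζ) ^ ℓ = 1 := by rw [← map_pow, hζ.pow_eq_one, map_one]
  let η : rootsOfUnity ℓ F := rootsOfUnity.mkOfPowEq (algebraMap K F ζ) hζF
  let F' := AdjoinRoot (X ^ ℓ - C h)
  let τF : F' ≃ₐ[F] F' := autAdjoinRootXPowSubC ℓ h η
  have hne : (X ^ ℓ - C h : F[X]) ≠ 0 := hirr.ne_zero
  haveI hfin : FiniteDimensional F F' :=
    (AdjoinRoot.powerBasis hne).finite
  have hrank : Module.finrank F F' = ℓ := by
    rw [(AdjoinRoot.powerBasis hne).finrank, AdjoinRoot.powerBasis_dim,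
      natDegree_X_pow_sub_C]
  have hroot : (AdjoinRoot.root (X ^ ℓ - C h)) ^ ℓ = algebraMap F F' h := by
    have := AdjoinRoot.eval₂_root (X ^ ℓ - C h)
    rw [eval₂_sub, eval₂_pow, eval₂_X, eval₂_C, sub_eq_zero] at this
    exact this
  refine ⟨F', inferInstance, inferInstance, inferInstance, inferInstance, hfin,
    AdjoinRoot.root _, ζ, τF.restrictScalars K, ?_, hrank,
    transcendental_algebraMap_of_transcendental hx, finiteDimensional_adjoin_of_tower x⟩
  refine
    { two_le := hℓ.two_le
      h_ne := ?_
      pow_eq := hroot
      ord_h := hD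
      zeta := hζ
      tau_fix := ?_
      tau_z := ?_ }
  · rintro rfl
    exact hh 0 (zero_pow hℓ.ne_zero)
  · intro f
    exact τF.commutes f
  · show τF (AdjoinRoot.root _) = _
    rw [autAdjoinRootXPowSubC_root, rootsOfUnity.coe_mkOfPowEq, Algebra.smul_def,
      ← IsScalarTower.algebraMap_apply]

end Exists

/-! ### The derived package -/

section Pack

variable {K : Type*} {F : Type*} {F' : Type*} [Field K] [Field F] [Field F'] [Algebra K F]
  [Algebra K F'] [Algebra F F'] [IsScalarTower K F F'] [IsAlgClosed K] [CharZero K]

/-- a function field of one variable over an algebraically closed field of characteristic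
zero is a `RiemannSetting`. -/
theorem riemannSetting_of_ff (x : F) (hx : Transcendental K x) [FiniteDimensional K⟮x⟯ F] :
    Fermat.Agent.P2.helper74.RiemannSetting K F := by
  haveI : CharZero F := charZero_of_injective_algebraMap (algebraMap K F).injective
  haveI : CharZero K⟮x⟯ := charZero_of_injective_algebraMap (algebraMap K K⟮x⟯).injective
  exact Fermat.Agent.P2.helper74.riemannSetting_of_separating x hx

variable (x : F) (hx : Transcendental K x) [FiniteDimensional K⟮x⟯ F] [FiniteDimensional F F']

include hx in
/-- `F'` has principal divisors -/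
theorem hasPrincipalDivisors_cover : HasPrincipalDivisors K F' :=
  haveI := finiteDimensional_adjoin_of_tower (K := K) (F' := F') x
  Fermat.Agent.S24.helper75.ff_hasPrincipalDivisors (algebraMap F F' x)
    (transcendental_algebraMap_of_transcendental hx)

include hx in
/-- `F'` is a `RiemannSetting` -/
theorem riemannSetting_cover : Fermat.Agent.P2.helper74.RiemannSetting K F' :=
  haveI := finiteDimensional_adjoin_of_tower (K := K) (F' := F') x
  riemannSetting_of_ff (algebraMap F F' x) (transcendental_algebraMap_of_transcendental hx)

include hx in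
/-- `F'` is a curve in the sense of the Prelude, essentially of finite type -/
theorem isCurveOver_cover : IsCurveOver K F' ∧ Algebra.EssFiniteType K F' :=
  haveI := finiteDimensional_adjoin_of_tower (K := K) (F' := F') x
  Fermat.Agent.LEF.helper67.isCurveOver_of_transcendental K F' (algebraMap F F' x)
    (transcendental_algebraMap_of_transcendental hx)

include hx in
/-- the fundamental identity `∑ e = [F' : F]` -/
theorem fundamentalIdentity_cover [HasPrincipalDivisors K F'] : FundamentalIdentity K F F' := by
  haveI : CharZero F := charZero_of_injective_algebraMap (algebraMap K F).injective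
  haveI := finiteDimensional_adjoin_of_tower (K := K) (F' := F') x
  exact Fermat.Agent.P3.helper58.fundamentalIdentity_of_surjective
    (fun v => Fermat.Agent.S24.helper82.algebraMap_residueField_surjective x v)
    (fun w => Fermat.Agent.S24.helper82.ff_deg_eq_one (algebraMap F F' x)
      (transcendental_algebraMap_of_transcendental hx) w)

include hx in
/-- the norm formula `π_* div u = div N(u)` -/
theorem normFormula_cover [HasPrincipalDivisors K F'] :
    Divisor.PushforwardNormFormula K F F' := by
  haveI : CharZero F := charZero_of_injective_algebraMap (algebraMap K F).injective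
  haveI := finiteDimensional_adjoin_of_tower (K := K) (F' := F') x
  exact Fermat.Agent.P3.helper58.pushforwardNormFormula_of_surjective
    (fun v => Fermat.Agent.S24.helper82.algebraMap_residueField_surjective x v)
    (fun w => Fermat.Agent.S24.helper82.ff_deg_eq_one (algebraMap F F' x)
      (transcendental_algebraMap_of_transcendental hx) w)

include hx in
/-- all places of `F'` have inertia degree one -/
theorem inertiaDeg_cover (w : Place K F') : w.inertiaDeg F = 1 := by
  haveI : CharZero F := charZero_of_injective_algebraMap (algebraMap K F).injective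
  haveI := hasPrincipalDivisors_cover (F' := F') x hx
  haveI := finiteDimensional_adjoin_of_tower (K := K) (F' := F') x
  exact Fermat.Agent.P3.helper58.inertiaDeg_eq_one
    (fun v => Fermat.Agent.S24.helper82.ff_deg_eq_one x hx v)
    (fun w => Fermat.Agent.S24.helper82.ff_deg_eq_one (algebraMap F F' x)
      (transcendental_algebraMap_of_transcendental hx) w) w

end Pack

end Fermat.Agent.T6.helper9

end
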