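import Mathlib
import Fermat.Agent.T6.helper17_W3cAdapt
import Fermat.Agent.T6.helper17_W3cNormVal
import Fermat.Agent.T6.helper17_W3cCover
import Fermat.Agent.T6.helper9_CoverField
import Fermat.Agent.T6.helper35_WeilPair
import Fermat.Agent.T6.helper91_Pic0Div

/-!
# T6 [W3] (helper17): PERFECTNESS of the Weil pairing at a prime level, from Weil reciprocity

`K` algebraically closed of characteristic `0`, `F` a function field of one variable over `K`
(`x` transcendental, `[F : K(x)] < ∞`), `ℓ` prime.  The ONLY hypothesis is the contract of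
block [W1]:

  `hW : ∀ E (t : E), Transcendental K t → FiniteDimensional K(t) E → helper26.WeilRec K E`.

* `exists_cover_package` : for `h` not an `ℓ`-th power with `div h = ℓ D` the Kummer cover
  `F' = F[X] / (X^ℓ - h)` with all the contracts of the abstract core
  (`CoverDiv` from helper9, `NormVal` from helper98, `RiemannSetting`);
* `exists_wp_ne_one` : **for `y ≠ 0` in `Pic⁰[ℓ]` there is `u ∈ Pic⁰[ℓ]` with
  `e_ℓ(u, y) ≠ 1`** (`helper35.wp`); more precisely `e_ℓ(u, y) = ζ` is a primitive `ℓ`-th root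
  of unity.
-/

set_option autoImplicit false
set_option linter.unusedSectionVars false
set_option linter.unusedVariables false
set_option linter.style.haveILetI false

noncomputable section

universe u v

namespace Fermat.Agent.T6.helper17

open AlgebraicCurve IntermediateField Polynomial
open Fermat.Agent.P2.helper74 (RiemannSetting ell HasRiemannGenus)
open Fermat.Agent.T6.helper26

section Cover

variable {K : Type u} {F : Type v} [Field K] [Field F] [Algebra K F] [IsAlgClosed K] [CharZero K]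

/-- **the Kummer cover with the contracts of the abstract core** -/
theorem exists_cover_package (x : F) (hx : Transcendental K x) [FiniteDimensional K⟮x⟯ F]
    {ℓ : ℕ} (hℓ : ℓ.Prime) {h : F} (hh : ∀ g : F, g ^ ℓ ≠ h)
    {D : Divisor K F} (hD : ∀ v : Place K F, v.ord h = ℓ * D v) :
    ∃ (F' : Type v) (_ : Field F') (_ : Algebra K F') (_ : Algebra F F')
      (_ : IsScalarTower K F F') (_ : FiniteDimensional F F') (_ : HasPrincipalDivisors K F')
      (z : F') (ζ : K) (τ : F' ≃ₐ[F] F'),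
      IsPrimitiveRoot ζ ℓ ∧ z ^ ℓ = algebraMap F F' h ∧ τ z = algebraMap K F' ζ * z ∧
      Module.finrank F F' = ℓ ∧
      Transcendental K (algebraMap F F' x) ∧ FiniteDimensional K⟮algebraMap F F' x⟯ F' ∧
      RiemannSetting K F' ∧ CoverDiv F ℓ (tauDiv (K := K) τ) ∧ NormVal K F F' := by
  have hirr : Irreducible (X ^ ℓ - C h) := X_pow_sub_C_irreducible_of_prime hℓ hh
  haveI : Fact (Irreducible (X ^ ℓ - C h)) := ⟨hirr⟩
  haveI : NeZero ℓ := ⟨hℓ.ne_zero⟩
  haveI : NeZero (ℓ : K) := ⟨by exact_mod_cast hℓ.ne_zero⟩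
  obtain ⟨ζ, hζ⟩ := HasEnoughRootsOfUnity.exists_primitiveRoot K ℓ
  have hζF : (algebraMap K F ζ) ^ ℓ = 1 := by rw [← map_pow, hζ.pow_eq_one, map_one]
  let η : rootsOfUnity ℓ F := rootsOfUnity.mkOfPowEq (algebraMap K F ζ) hζF
  let F' := AdjoinRoot (X ^ ℓ - C h)
  let τF : F' ≃ₐ[F] F' := autAdjoinRootXPowSubC ℓ h η
  have hne : (X ^ ℓ - C h : F[X]) ≠ 0 := hirr.ne_zero
  haveI hfin : FiniteDimensional F F' := (AdjoinRoot.powerBasis hne).finite
  have hrank : Module.finrank F F' = ℓ := by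
    rw [(AdjoinRoot.powerBasis hne).finrank, AdjoinRoot.powerBasis_dim,
      natDegree_X_pow_sub_C]
  have hroot : (AdjoinRoot.root (X ^ ℓ - C h)) ^ ℓ = algebraMap F F' h := by
    have := AdjoinRoot.eval₂_root (X ^ ℓ - C h)
    rw [eval₂_sub, eval₂_pow, eval₂_X, eval₂_C, sub_eq_zero] at this
    exact this
  have hτ : τF (AdjoinRoot.root (X ^ ℓ - C h)) =
      algebraMap K F' ζ * AdjoinRoot.root (X ^ ℓ - C h) := by
    rw [autAdjoinRootXPowSubC_root, rootsOfUnity.coe_mkOfPowEq, Algebra.smul_def,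
      ← IsScalarTower.algebraMap_apply]
  have h0 : h ≠ 0 := by
    rintro rfl
    exact hh 0 (zero_pow hℓ.ne_zero)
  have H : Fermat.Agent.T6.helper9.IsKummerCover ℓ h D (AdjoinRoot.root (X ^ ℓ - C h)) ζ
      (τF.restrictScalars K) :=
    { two_le := hℓ.two_le
      h_ne := h0
      pow_eq := hroot
      ord_h := hD
      zeta := hζ
      tau_fix := fun f => τF.commutes f
      tau_z := hτ }
  haveI hPD : HasPrincipalDivisors K F' :=
    Fermat.Agent.T6.helper9.hasPrincipalDivisors_cover (F' := F') x hx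
  have hS : RiemannSetting K F := Fermat.Agent.T6.helper9.riemannSetting_of_ff x hx
  have hS' : RiemannSetting K F' := Fermat.Agent.T6.helper9.riemannSetting_cover (F' := F') x hx
  haveI hFI : FundamentalIdentity K F F' :=
    Fermat.Agent.T6.helper9.fundamentalIdentity_cover (F' := F') x hx
  have hN : Divisor.PushforwardNormFormula K F F' :=
    Fermat.Agent.T6.helper9.normFormula_cover (F' := F') x hx
  have hCD : CoverDiv F ℓ (tauDiv (K := K) τF) :=
    coverDiv_of_isKummerCover τF H hS hS' hrank hN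
  haveI hSF : IsSplittingField F F' (X ^ ℓ - C h) :=
    Fermat.Agent.T6.helper98.isSplittingField_adjoinRoot hζ hirr
  have hdiv : ∀ P : Place K F, (ℓ : ℤ) ∣ P.ord h := fun P => ⟨D P, hD P⟩
  obtain ⟨w, σ, hC⟩ :=
    Fermat.Agent.T6.helper98.exists_cycSetting (F' := F') x hx hℓ hh hdiv hζ
  have hNV : NormVal K F F' := normVal_of_cycSetting hC
  exact ⟨F', inferInstance, inferInstance, inferInstance, inferInstance, hfin, hPD,
    AdjoinRoot.root _, ζ, τF, hζ, hroot, hτ, hrank,
    Fermat.Agent.T6.helper9.transcendental_algebraMap_of_transcendental hx,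
    Fermat.Agent.T6.helper9.finiteDimensional_adjoin_of_tower x, hS', hCD, hNV⟩

end Cover

section Perfect

variable {K : Type u} {F : Type v} [Field K] [Field F] [Algebra K F] [IsAlgClosed K] [CharZero K]

/-- a representative determines its class -/
theorem isRep_unique {D : Divisor K F} {u v : Pic0 K F} (hu : helper35.IsRep D u)
    (hv : helper35.IsRep D v) : u = v := by
  obtain ⟨h1, rfl⟩ := hu
  obtain ⟨h2, rfl⟩ := hv
  rfl

/-- **PERFECTNESS at a prime level**: for `y ≠ 0` in `Pic⁰[ℓ]` there are `u ∈ Pic⁰[ℓ]` and a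
primitive `ℓ`-th root of unity `ζ` with `e_ℓ(u, y) = ζ`. -/
theorem exists_wp_eq_primitiveRoot (x : F) (hx : Transcendental K x) [FiniteDimensional K⟮x⟯ F]
    {ℓ : ℕ} (hℓ : ℓ.Prime)
    (hW : ∀ (E : Type v) [Field E] [Algebra K E] (t : E), Transcendental K t →
      FiniteDimensional K⟮t⟯ E → WeilRec K E)
    {y : Pic0 K F} (hy : y ∈ Pic0.torsion K F ℓ) (hy0 : y ≠ 0) :
    ∃ (u : Pic0 K F) (ζ : K), u ∈ Pic0.torsion K F ℓ ∧ IsPrimitiveRoot ζ ℓ ∧
      helper35.wp ℓ u y = ζ := by
  classical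
  have hS : RiemannSetting K F := Fermat.Agent.T6.helper9.riemannSetting_of_ff x hx
  haveI : CharZero F := charZero_of_injective_algebraMap (algebraMap K F).injective
  haveI : CharZero K⟮x⟯ := charZero_of_injective_algebraMap (algebraMap K K⟮x⟯).injective
  obtain ⟨g, c, hc⟩ := Fermat.Agent.P2.helper74.exists_hasRiemannGenus x hx
  have hM : helper35.Moving K F := helper35.moving_of_weakRR hS hc
  have hWF : WeilRec K F := hW F x hx inferInstance
  -- a representative of `y` and the function `h` with `div h = ℓ D_y`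
  obtain ⟨Dy, hDy⟩ := helper35.exists_isRep y
  obtain ⟨h, hh0, hdivh⟩ := hDy.exists_divOf_nsmul hS hy
  have hordh : ∀ v : Place K F, v.ord h = ℓ * Dy v := by
    intro v
    rw [← divOf_apply hS h v, hdivh, Finsupp.smul_apply, nsmul_eq_mul]
  -- `h` is not an `ℓ`-th power
  have hpow : ∀ b : F, b ^ ℓ ≠ h := by
    intro b hb
    have hb0 : b ≠ 0 := by
      rintro rfl
      rw [zero_pow hℓ.ne_zero] at hb
      exact hh0 hb.symm
    have hbD : divOf K b = Dy := by
      ext v
      have h1 : v.ord (b ^ ℓ) = ℓ * Dy v := by rw [hb]; exact hordh v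
      have h2 : v.ord (b ^ ℓ) = ℓ * v.ord b := by
        have := v.ord_zpow b ℓ
        rwa [zpow_natCast] at this
      rw [divOf_apply hS]
      have hℓZ : (ℓ : ℤ) ≠ 0 := by exact_mod_cast hℓ.ne_zero
      exact mul_left_cancel₀ hℓZ (h2.symm.trans h1)
    have := helper35.isRep_divOf hS b
    rw [hbD] at this
    exact hy0 (isRep_unique hDy this)
  -- the cover
  obtain ⟨F', iF', iKF', iFF', iT, iFD, iPD, z, ζ, τ, hζ, hz, hτz, hrank, hx', hfd', hS', hCD,
    hNV⟩ := exists_cover_package x hx hℓ hpow hordh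
  haveI := hfd'
  haveI : CharZero F' := charZero_of_injective_algebraMap (algebraMap K F').injective
  haveI : CharZero K⟮algebraMap F F' x⟯ :=
    charZero_of_injective_algebraMap (algebraMap K K⟮algebraMap F F' x⟯).injective
  obtain ⟨g', c', hc'⟩ := Fermat.Agent.P2.helper74.exists_hasRiemannGenus (algebraMap F F' x) hx'
  have hWF' : WeilRec K F' := hW F' (algebraMap F F' x) hx' hfd'
  have hd : ∀ a : Pic0 K F', ∃ b : Pic0 K F', ℓ • b = a := by
    intro a
    obtain ⟨b, hb⟩ := Fermat.Agent.T6.helper91.pic0_divisible_of_transcendental K F'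
      (algebraMap F F' x) hx' ℓ hℓ.pos a
    exact ⟨b, by rw [← hb, natCast_zsmul]⟩
  have hDy' : ∀ v : Place K F, ((ℓ : ℤ) • Dy) v = v.ord h := by
    intro v
    rw [hordh v, Finsupp.smul_apply, smul_eq_mul]
  obtain ⟨D, ν, hν0, hDdeg, hνD, hdisj1, hdisj2, hval⟩ :=
    exists_pairing_eq' hS hS' hc' hℓ.ne_zero hrank τ hCD hd hWF' hNV z h hh0 hz ζ
      (hζ.ne_zero hℓ.ne_zero) hτz Dy hDy'
  -- the class of `D`
  have hDmem : D ∈ Divisor.degZero (K := K) (F := F) := Divisor.mem_degZero.mpr hDdeg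
  have hdivν : divOf K ν = ℓ • D :=
    divOf_eq_of_forall fun P => by
      rw [hνD P, Finsupp.smul_apply, Finsupp.smul_apply, nsmul_eq_mul, smul_eq_mul]
  have hdata : helper35.WPData ℓ (Pic0.mk ⟨D, hDmem⟩) y D Dy ν h :=
    ⟨⟨hDmem, rfl⟩, hDy, hdivν, hdivh, hdisj1, hdisj2⟩
  refine ⟨Pic0.mk ⟨D, hDmem⟩, ζ, hdata.torsion_left hS, hζ, ?_⟩
  rw [helper35.wp_eq hS hWF hM hℓ.ne_zero hdata, hval,
    mul_div_assoc, div_self (dval_ne_zero hS hdisj2), mul_one]

/-- **PERFECTNESS at a prime level**: for `y ≠ 0` in `Pic⁰[ℓ]` there is `u ∈ Pic⁰[ℓ]` with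
`e_ℓ(u, y) ≠ 1`. -/
theorem exists_wp_ne_one (x : F) (hx : Transcendental K x) [FiniteDimensional K⟮x⟯ F]
    {ℓ : ℕ} (hℓ : ℓ.Prime)
    (hW : ∀ (E : Type v) [Field E] [Algebra K E] (t : E), Transcendental K t →
      FiniteDimensional K⟮t⟯ E → WeilRec K E)
    {y : Pic0 K F} (hy : y ∈ Pic0.torsion K F ℓ) (hy0 : y ≠ 0) :
    ∃ u : Pic0 K F, u ∈ Pic0.torsion K F ℓ ∧ helper35.wp ℓ u y ≠ 1 := by
  obtain ⟨u, ζ, hu, hζ, he⟩ := exists_wp_eq_primitiveRoot x hx hℓ hW hy hy0
  exact ⟨u, hu, by rw [he]; exact hζ.ne_one hℓ.one_lt⟩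

end Perfect

end Fermat.Agent.T6.helper17

end
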