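import Fermat.Agent.T6.helper51_PerfAlg

/-!
T6 (S19), leaf [PERF-COUNT] in the shape of ARCHITECT RULING R2 (helper51): the output of W3c at
level `n = ℓ^k` is "no element of order `ℓ` lies in the right kernel of `e_n`".  For a group
killed by `ℓ^k` this is nondegeneracy, hence (count) every character is `e(·, y)^d`.
Mathlib only.

* `nondegenerate_of_prime_order` : right kernel without elements of order `ℓ` is trivial.
* `exists_pairing_pow_eq_of_prime_order` : all characters are pairing characters, in the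
  hypothesis shape `χ 0 = 1`, `χ (u + v) = χ u * χ v` of the criterion.
-/

set_option autoImplicit false

namespace Fermat.Agent.T6.helper51

variable {M : Type*} [AddCommGroup M] {K : Type*} [Field K]

theorem pairing_zero_right (e : M → M → K)
    (hr : ∀ u y y', e u (y + y') = e u y * e u y') (h0 : ∀ u y, e u y ≠ 0) (u : M) :
    e u 0 = 1 := by
  have h := hr u 0 0
  rw [add_zero] at h
  have h2 : e u 0 * 1 = e u 0 * e u 0 := by rw [mul_one]; exact h
  exact (mul_left_cancel₀ (h0 u 0) h2).symm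

theorem pairing_nsmul_right (e : M → M → K)
    (hr : ∀ u y y', e u (y + y') = e u y * e u y') (h0 : ∀ u y, e u y ≠ 0) (n : ℕ) (u y : M) :
    e u (n • y) = e u y ^ n := by
  induction n with
  | zero => rw [zero_smul, pow_zero]; exact pairing_zero_right e hr h0 u
  | succ n ih => rw [succ_nsmul, hr, ih, pow_succ]

/-- If `M` is killed by `ℓ^k` and no element of order `ℓ` is in the right kernel of `e`, then
the right kernel is trivial. -/
theorem nondegenerate_of_prime_order (ℓ k : ℕ) (hM : ∀ y : M, (ℓ ^ k) • y = 0)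
    (e : M → M → K)
    (hr : ∀ u y y', e u (y + y') = e u y * e u y') (h0 : ∀ u y, e u y ≠ 0)
    (hperf : ∀ y : M, ℓ • y = 0 → y ≠ 0 → ∃ u, e u y ≠ 1) :
    ∀ y : M, y ≠ 0 → ∃ u, e u y ≠ 1 := by
  classical
  intro y hy0
  have hex : ∃ j, (ℓ ^ (j + 1)) • y = 0 := by
    rcases Nat.eq_zero_or_pos k with hk | hk
    · subst hk
      have := hM y
      rw [pow_zero, one_smul] at this
      exact absurd this hy0
    · refine ⟨k - 1, ?_⟩
      rw [Nat.sub_add_cancel hk]; exact hM y
  have hj : (ℓ ^ (Nat.find hex + 1)) • y = 0 := Nat.find_spec hex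
  have hj' : (ℓ ^ Nat.find hex) • y ≠ 0 := by
    rcases Nat.eq_zero_or_pos (Nat.find hex) with h | h
    · rw [h, pow_zero, one_smul]; exact hy0
    · intro hzero
      have hlt : Nat.find hex - 1 < Nat.find hex := Nat.sub_lt h Nat.one_pos
      apply Nat.find_min hex hlt
      rwa [Nat.sub_add_cancel h]
  have hℓ : ℓ • ((ℓ ^ Nat.find hex) • y) = 0 := by
    rw [smul_smul, ← pow_succ']; exact hj
  obtain ⟨u, hu⟩ := hperf _ hℓ hj'
  refine ⟨u, fun hone => hu ?_⟩
  rw [pairing_nsmul_right e hr h0, hone, one_pow]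

/-- **All characters are Weil characters** (shape of ruling R2): `M` finite, killed by `ℓ^k`,
`e` bimultiplicative and nowhere zero, no element of order `ℓ` in the right kernel, `d` prime
to `ℓ`.  Then every character of `M` is `u ↦ e u y ^ d`. -/
theorem exists_pairing_pow_eq_of_prime_order [Finite M] [IsAlgClosed K] [CharZero K]
    (ℓ k : ℕ) (hℓ : ℓ.Prime) (hM : ∀ y : M, (ℓ ^ k) • y = 0)
    (e : M → M → K)
    (hl : ∀ u u' y, e (u + u') y = e u y * e u' y)
    (hr : ∀ u y y', e u (y + y') = e u y * e u y')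
    (h0 : ∀ u y, e u y ≠ 0)
    (hperf : ∀ y : M, ℓ • y = 0 → y ≠ 0 → ∃ u, e u y ≠ 1)
    (d : ℕ) (hd : ¬ ℓ ∣ d)
    (χ : M → K) (hχ0 : χ 0 = 1) (hχ : ∀ u v, χ (u + v) = χ u * χ v) :
    ∃ y, ∀ u, χ u = e u y ^ d := by
  classical
  have hnd := nondegenerate_of_prime_order ℓ k hM e hr h0 hperf
  -- `|M|` is a power of `ℓ`
  have hcard : ∃ m, Nat.card M = ℓ ^ m := by
    haveI : Fact ℓ.Prime := ⟨hℓ⟩
    have hp : IsPGroup ℓ (Multiplicative M) := by
      intro g
      refine ⟨k, ?_⟩
      have := hM (Multiplicative.toAdd g)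
      exact Multiplicative.toAdd.injective (by simpa using this)
    obtain ⟨m, hm⟩ := IsPGroup.iff_card.mp hp
    exact ⟨m, by rw [← hm]; exact Nat.card_congr Multiplicative.ofAdd⟩
  obtain ⟨m, hm⟩ := hcard
  have hcop : d.Coprime (Nat.card M) := by
    rw [hm]
    exact Nat.Coprime.pow_right m ((Nat.Prime.coprime_iff_not_dvd hℓ).mpr hd).symm
  exact exists_pairing_pow_eq_of_nondegenerate' e hl hr h0 hnd d hcop χ hχ0 hχ

end Fermat.Agent.T6.helper51
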