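import Mathlib
import Fermat.Prelude.Def_ModularCurve_ArithmeticGalois
import Fermat.Prelude.Def_GaloisRep_Flat
import Fermat.Prelude.Def_AlgebraicCurve_IsCurveOver
import Fermat.Prelude.Def_FLTPrelim_Ramification

/-!
# T6 (S19 / S32), architect helper73: INTERFACE of the Fourier / Weil route

Blocks and their END statements (every block proves ONE of the `Prop`s below):

* `A1Statement`    : a comultiplication-closed order of equivariant functions (`FunOrder`)
                     gives the body of S19 (`FlatBody`);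
* `CritStatement`  : the Fourier criterion: `TI` (every character is an `A`-combination of
                     equivariant `A`-valued functions) gives a `FunOrder`;
* `WeilStatement`  : every character of `Pic0[l^k]` is a Weil character
                     `u ↦ h_u(D_y) / h_y(D_u)`;
* `IntStatement`   : at a good level the Weil characters satisfy `TI`;
* `LevelStatement` : `J_0(p)` embeds equivariantly into `J_0(M)` for a good level `M`.

Definitions only; the assembly is in `helper73_T6Asm`.
-/

set_option autoImplicit false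

noncomputable section

open AlgebraicCurve ModularCurve

namespace Fermat.Agent.T6.helper73

/-- the algebraic closure of `ℚ` -/
abbrev Kq : Type := AlgebraicClosure ℚ

/-- the absolute Galois group of `ℚ` -/
abbrev Gq : Type := Kq ≃ₐ[ℚ] Kq

/-- the base ring `ℤ_(l)` of S19 -/
abbrev Rl (l : ℕ) : Subring ℚ := GaloisRep.ratLocalizedAt l

/-! ### Abstract finite Galois modules -/

/-- `act` is an action of `G_ℚ` on `M` by additive maps. -/
structure IsGalAct {M : Type} [AddCommGroup M] (act : Gq → M → M) : Prop where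
  one : ∀ x, act 1 x = x
  mul : ∀ σ τ x, act (σ * τ) x = act σ (act τ x)
  add : ∀ σ x y, act σ (x + y) = act σ x + act σ y

/-- The body of S19 / of `GaloisRepAdic.IsFlatAt` for an abstract Galois module `(M, act)`. -/
def FlatBody (l : ℕ) (M : Type) [AddCommGroup M] (act : Gq → M → M) : Prop :=
  ∃ (H : Type) (_ : CommRing H) (_ : HopfAlgebra (Rl l) H),
    Module.Finite (Rl l) H ∧ Module.Flat (Rl l) H ∧ Coalgebra.IsCocomm (Rl l) H ∧
    ∃ e : WithConv (H →ₐ[Rl l] Kq) ≃ M,
      (∀ f g, e (f * g) = e f + e g) ∧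
      ∀ (σ : Gq) (f g : WithConv (H →ₐ[Rl l] Kq)),
        (∀ h : H, g h = σ (f h)) → e g = act σ (e f)

/-- **Contract of the Hopf end**: a finitely generated `ℤ_(l)`-algebra of `G_ℚ`-equivariant
functions on `M` which separates points and is closed under `h ↦ h (x + y)` and `h ↦ h (-x)`. -/
structure FunOrder (l : ℕ) {M : Type} [AddCommGroup M] (act : Gq → M → M)
    (H : Subalgebra (Rl l) (M → Kq)) : Prop where
  fg : H.toSubmodule.FG
  eq : ∀ h ∈ H, ∀ (σ : Gq) (x : M), h (act σ x) = σ (h x)
  sep : ∀ x y : M, x ≠ y → ∃ h ∈ H, h x ≠ h y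
  cm : ∀ h ∈ H, ∃ (n : ℕ) (a b : Fin n → M → Kq), (∀ i, a i ∈ H) ∧ (∀ i, b i ∈ H) ∧
    ∀ x y : M, h (x + y) = ∑ i, a i x * b i y
  neg : ∀ h ∈ H, (fun x => h (-x)) ∈ H

/-- **(TI)**: every character of `M` is an `A`-linear combination of `G_ℚ`-equivariant
`A`-valued functions. -/
def TI (A : ValuationSubring Kq) {M : Type} [AddCommGroup M] (act : Gq → M → M) : Prop :=
  ∀ χ : M → Kq, χ 0 = 1 → (∀ x y, χ (x + y) = χ x * χ y) →
    ∃ (n : ℕ) (a : Fin n → Kq) (f : Fin n → M → Kq),
      (∀ i, a i ∈ A) ∧ (∀ i x, f i x ∈ A) ∧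
      (∀ i (σ : Gq) x, f i (act σ x) = σ (f i x)) ∧
      ∀ x, χ x = ∑ i, a i * f i x

/-- **[A1]** the Hopf end. -/
def A1Statement : Prop :=
  ∀ (l : ℕ) [Fact l.Prime] (M : Type) [AddCommGroup M] [Finite M] (act : Gq → M → M),
    IsGalAct act → ∀ H : Subalgebra (Rl l) (M → Kq), FunOrder l act H → FlatBody l M act

/-- **[A3] = CRIT** the Fourier criterion. -/
def CritStatement : Prop :=
  ∀ (l : ℕ) [Fact l.Prime] (A : ValuationSubring Kq), A.LiesOverPrime l →
    ∀ (M : Type) [AddCommGroup M] [Finite M] (act : Gq → M → M),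
      IsGalAct act → TI A act → ∃ H : Subalgebra (Rl l) (M → Kq), FunOrder l act H

/-! ### Values of functions at places, Weil characters -/

section Weil

variable {K F : Type*} [Field K] [Field F] [Algebra K F]

/-- `a` is the value of `f` at the place `P` : `f - a` lies in the maximal ideal of `P`. -/
def IsValueAt (P : Place K F) (f : F) (a : K) : Prop :=
  P.toValuationSubring.valuation (f - algebraMap K F a) < 1

/-- the value of `f` at `P` (junk `0` if `f` has a pole at `P` or no value in `K`) -/
def valueAt (P : Place K F) (f : F) : K := by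
  classical exact if h : ∃ a, IsValueAt P f a then h.choose else 0

/-- `f(D) = ∏_P f(P) ^ D(P)` -/
def evalDiv (f : F) (D : Divisor K F) : K :=
  D.prod fun P n => valueAt P f ^ n

/-- `div f = D` -/
def IsDivOf (f : F) (D : Divisor K F) : Prop :=
  f ≠ 0 ∧ ∀ P : Place K F, D P = P.ord f

variable (K F) in
/-- **[WEIL]** every character `χ` of `Pic0[l^k]` is a Weil character: there is a class `y`
such that `χ u = h(D') / h'(D)` whenever `D ∈ u`, `D' ∈ y` have disjoint supports and
`div h = l^k D`, `div h' = l^k D'`. -/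
def WeilAt (l k : ℕ) : Prop :=
  ∀ χ : Pic0.torsion K F (l ^ k) → K, χ 0 = 1 → (∀ x y, χ (x + y) = χ x * χ y) →
    ∃ y : Pic0.torsion K F (l ^ k),
      ∀ (u : Pic0.torsion K F (l ^ k))
        (D D' : Divisor.degZero (K := K) (F := F)) (h h' : F),
        Pic0.mk D = (u : Pic0 K F) → Pic0.mk D' = (y : Pic0 K F) →
        Disjoint (D : Divisor K F).support (D' : Divisor K F).support →
        IsDivOf h ((l ^ k : ℕ) • (D : Divisor K F)) →
        IsDivOf h' ((l ^ k : ℕ) • (D' : Divisor K F)) →
        χ u * evalDiv h' (D : Divisor K F) = evalDiv h (D' : Divisor K F)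

end Weil

/-- **[WEIL]** for all curve function fields over algebraically closed fields of
characteristic `0` (universe-monomorphic: only `Type` is needed). -/
def WeilStatement : Prop :=
  ∀ (K F : Type) [Field K] [Field F] [Algebra K F] [IsAlgClosed K] [CharZero K]
    [IsCurveOver K F] [Algebra.EssFiniteType K F] (l : ℕ) [Fact l.Prime] (k : ℕ),
    WeilAt K F l k

/-! ### The modular Jacobians -/

/-- the `l^k`-torsion of `J_0(p)` in the shape of S19 -/
abbrev Tors (p l k : ℕ) : Type :=
  ↥(Submodule.torsionBy ℤ (JZero p) ((l : ℤ) ^ k))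

/-- the Galois action on the torsion -/
def actTors (p l k : ℕ) (σ : Gq) (x : Tors p l k) : Tors p l k :=
  ⟨σ • (x : JZero p), by
    have hx := x.2
    rw [Submodule.mem_torsionBy_iff] at hx ⊢
    have h := map_zsmul (DistribSMul.toAddMonoidHom (JZero p) σ) ((l : ℤ) ^ k) (x : JZero p)
    simp only [DistribSMul.toAddMonoidHom_apply] at h
    rw [← h, hx, smul_zero]⟩

@[simp]
theorem coe_actTors (p l k : ℕ) (σ : Gq) (x : Tors p l k) :
    ((actTors p l k σ x : Tors p l k) : JZero p) = σ • (x : JZero p) := rfl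

theorem isGalAct_actTors (p l k : ℕ) : IsGalAct (actTors p l k) where
  one x := Subtype.ext (by simp)
  mul σ τ x := Subtype.ext (by simp [mul_smul])
  add σ x y := Subtype.ext (by simp [smul_add])

/-- good pairs (as in P2): `4 ∣ M` or `9 ∣ M`, and `A` lies over the prime `l ∤ M`. -/
def GoodAt (M l : ℕ) (A : ValuationSubring Kq) : Prop :=
  (4 ∣ M ∨ 9 ∣ M) ∧ l.Prime ∧ ¬ l ∣ M ∧ A.LiesOverPrime l

/-- **[INT]** at a good level the Weil characters satisfy (TI). -/
def IntStatement : Prop :=
  ∀ (M : ℕ) [NeZero M] (l : ℕ) [Fact l.Prime] (A : ValuationSubring Kq), GoodAt M l A →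
    ∀ k : ℕ, WeilAt Kq (modularFunctionFieldBar M) l k → TI A (actTors M l k)

/-- **[LEVEL]** `J_0(p)` embeds `G_ℚ`-equivariantly into `J_0(M)`, `M = 4 p` or `9 p`. -/
def LevelStatement : Prop :=
  ∀ (p M : ℕ) [NeZero p] [NeZero M], p ∣ M →
    ∃ φ : JZero p →+ JZero M, Function.Injective φ ∧
      ∀ (σ : Gq) (x : JZero p), φ (σ • x) = σ • φ x

end Fermat.Agent.T6.helper73
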