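import Mathlib
import Fermat.Agent.T6.helper17_W3cPerf
import Fermat.Agent.T6.helper51_PerfAlg2
import Fermat.Agent.T6.helper73_T6Iface

/-!
# T6 [WEIL] (helper17): `helper73.WeilStatement` from Weil reciprocity ([W1]) ALONE

* `isValueAt_iff_isVal`, `valueAt_eq_pval`, `evalDiv_eq_dval` : the vocabulary of the interface
  (`helper73.valueAt`, `helper73.evalDiv`) is the W0 vocabulary of helper26 (`pval`, `dval`);
* `exists_wp_pow_ne_one` : perfectness at level `ℓ^k` on the elements of order `ℓ`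
  (`helper35.wp_compat` + divisibility of `Pic⁰(F)` + `exists_wp_ne_one`);
* `exists_wp_eq_char` : every character of `Pic⁰[ℓ^k]` is `e_{ℓ^k}(·, y)`;
* `weilAt_of_weilRec` : `helper73.WeilAt K F ℓ k` (any universes);
* `W1Statement`, `weilStatement_of_w1 : W1Statement → helper73.WeilStatement`.
-/

set_option autoImplicit false
set_option linter.unusedSectionVars false
set_option linter.unusedVariables false
set_option linter.style.haveILetI false

noncomputable section

universe u v

namespace Fermat.Agent.T6.helper17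

open AlgebraicCurve IntermediateField
open Fermat.Agent.P2.helper74 (RiemannSetting ell HasRiemannGenus)
open Fermat.Agent.T6.helper26

section Bridge

variable {K F : Type*} [Field K] [Field F] [Algebra K F]

/-- the two notions of "value at a place" agree -/
theorem isValueAt_iff_isVal (P : Place K F) (f : F) (a : K) :
    Fermat.Agent.T6.helper73.IsValueAt P f a ↔ IsVal P f a := by
  have h98 : IsVal P f a ↔ ∃ y : P.toValuationSubring,
      y ∈ IsLocalRing.maximalIdeal P.toValuationSubring ∧ f = algebraMap K F a + (y : F) :=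
    Fermat.Agent.T6.helper98.isValAt_iff_mem (P := P) (f := f) (c := a)
  rw [h98]
  unfold Fermat.Agent.T6.helper73.IsValueAt
  constructor
  · intro h
    have hmem : f - algebraMap K F a ∈ P.toValuationSubring :=
      (P.toValuationSubring.valuation_le_one_iff _).mp h.le
    refine ⟨⟨f - algebraMap K F a, hmem⟩, ?_, by simp⟩
    exact (P.toValuationSubring.valuation_lt_one_iff ⟨f - algebraMap K F a, hmem⟩).mpr h
  · rintro ⟨y, hy, hf⟩
    have : f - algebraMap K F a = (y : F) := by rw [hf]; ring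
    rw [this]
    exact (P.toValuationSubring.valuation_lt_one_iff y).mp hy

theorem valueAt_eq_pval (P : Place K F) (f : F) :
    Fermat.Agent.T6.helper73.valueAt P f = pval P f := by
  classical
  by_cases h : ∃ a, IsVal P f a
  · obtain ⟨a, ha⟩ := h
    have h' : ∃ a, Fermat.Agent.T6.helper73.IsValueAt P f a :=
      ⟨a, (isValueAt_iff_isVal P f a).mpr ha⟩
    rw [pval_eq_of_isVal ha]
    unfold Fermat.Agent.T6.helper73.valueAt
    rw [dif_pos h']
    exact ((isValueAt_iff_isVal P f _).mp h'.choose_spec).unique ha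
  · have h' : ¬ ∃ a, Fermat.Agent.T6.helper73.IsValueAt P f a := by
      rintro ⟨a, ha⟩
      exact h ⟨a, (isValueAt_iff_isVal P f a).mp ha⟩
    rw [pval_of_not_exists h]
    unfold Fermat.Agent.T6.helper73.valueAt
    rw [dif_neg h']

theorem evalDiv_eq_dval (f : F) (D : Divisor K F) :
    Fermat.Agent.T6.helper73.evalDiv f D = dval f D := by
  unfold Fermat.Agent.T6.helper73.evalDiv dval
  exact Finsupp.prod_congr fun P _ => by rw [valueAt_eq_pval]

end Bridge

section End

variable (K : Type u) (F : Type v) [Field K] [Field F] [Algebra K F] [IsAlgClosed K]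
  [CharZero K] [IsCurveOver K F] [Algebra.EssFiniteType K F]

/-- the torsion of `Pic⁰` is finite (S27) -/
theorem finite_torsion_pow (ℓ : ℕ) (hℓ : ℓ.Prime) (k : ℕ) :
    Finite (Pic0.torsion K F (ℓ ^ k)) := by
  haveI : Fact ℓ.Prime := ⟨hℓ⟩
  have h := Fermat.Agent.P5.helper25.s27_final K F ℓ k
  have hpos : 0 < Nat.card (Pic0.torsion K F (ℓ ^ k)) := by
    rw [h]
    exact pow_pos hℓ.pos _
  exact (Nat.card_pos_iff.mp hpos).2

variable {K F}

/-- **perfectness at level `ℓ^k`** on the elements of order `ℓ` -/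
theorem exists_wp_pow_ne_one {ℓ : ℕ} (hℓ : ℓ.Prime) (k : ℕ)
    (hW : ∀ (E : Type v) [Field E] [Algebra K E] (t : E), Transcendental K t →
      FiniteDimensional K⟮t⟯ E → WeilRec K E)
    {y : Pic0 K F} (hy : y ∈ Pic0.torsion K F ℓ) (hy0 : y ≠ 0) (hk : 0 < k) :
    ∃ u : Pic0 K F, u ∈ Pic0.torsion K F (ℓ ^ k) ∧ helper35.wp (ℓ ^ k) u y ≠ 1 := by
  obtain ⟨x, hx, hfd, -, -⟩ :=
    Fermat.Agent.P5.helper42.exists_separating_transcendental (K := K) (F := F)
  haveI := hfd
  have hS : RiemannSetting K F := Fermat.Agent.T6.helper9.riemannSetting_of_ff x hx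
  haveI : CharZero F := charZero_of_injective_algebraMap (algebraMap K F).injective
  haveI : CharZero K⟮x⟯ := charZero_of_injective_algebraMap (algebraMap K K⟮x⟯).injective
  obtain ⟨g, c, hc⟩ := Fermat.Agent.P2.helper74.exists_hasRiemannGenus x hx
  have hM : helper35.Moving K F := helper35.moving_of_weakRR hS hc
  have hWF : WeilRec K F := hW F x hx inferInstance
  obtain ⟨u₁, hu₁, hne⟩ := exists_wp_ne_one x hx hℓ hW hy hy0
  obtain ⟨u, hu⟩ := Fermat.Agent.T6.helper91.pic0_divisible K F (ℓ ^ (k - 1))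
    (pow_pos hℓ.pos _) u₁
  have hu' : (ℓ ^ (k - 1)) • u = u₁ := by
    rw [← hu, ← natCast_zsmul]
  have hpow : ℓ * ℓ ^ (k - 1) = ℓ ^ k := by
    rw [← pow_succ', Nat.sub_add_cancel hk]
  have humem : u ∈ Pic0.torsion K F (ℓ * ℓ ^ (k - 1)) := by
    rw [Pic0.mem_torsion, natCast_zsmul, mul_smul, hu', ← natCast_zsmul]
    exact Pic0.mem_torsion.mp hu₁
  have hcomp := helper35.wp_compat hS hWF hM hℓ.ne_zero (pow_pos hℓ.pos (k - 1)).ne' humem hy
  rw [hu'] at hcomp
  rw [hpow] at hcomp humem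
  exact ⟨u, humem, by rw [hcomp]; exact hne⟩

/-- **every character of `Pic⁰[ℓ^k]` is a Weil character** `e_{ℓ^k}(·, y)` -/
theorem exists_wp_eq_char {ℓ : ℕ} (hℓ : ℓ.Prime) (k : ℕ)
    (hW : ∀ (E : Type v) [Field E] [Algebra K E] (t : E), Transcendental K t →
      FiniteDimensional K⟮t⟯ E → WeilRec K E)
    (χ : Pic0.torsion K F (ℓ ^ k) → K) (hχ0 : χ 0 = 1) (hχ : ∀ a b, χ (a + b) = χ a * χ b) :
    ∃ y : Pic0.torsion K F (ℓ ^ k), ∀ u : Pic0.torsion K F (ℓ ^ k),
      χ u = helper35.wp (ℓ ^ k) (u : Pic0 K F) (y : Pic0 K F) := by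
  classical
  obtain ⟨x, hx, hfd, -, -⟩ :=
    Fermat.Agent.P5.helper42.exists_separating_transcendental (K := K) (F := F)
  haveI := hfd
  have hS : RiemannSetting K F := Fermat.Agent.T6.helper9.riemannSetting_of_ff x hx
  haveI : CharZero F := charZero_of_injective_algebraMap (algebraMap K F).injective
  haveI : CharZero K⟮x⟯ := charZero_of_injective_algebraMap (algebraMap K K⟮x⟯).injective
  obtain ⟨g, c, hc⟩ := Fermat.Agent.P2.helper74.exists_hasRiemannGenus x hx
  have hM : helper35.Moving K F := helper35.moving_of_weakRR hS hc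
  have hWF : WeilRec K F := hW F x hx inferInstance
  have hn : ℓ ^ k ≠ 0 := (pow_pos hℓ.pos k).ne'
  haveI : Finite (Pic0.torsion K F (ℓ ^ k)) := finite_torsion_pow K F ℓ hℓ k
  have hMk : ∀ y : Pic0.torsion K F (ℓ ^ k), (ℓ ^ k) • y = 0 := by
    intro y
    apply Subtype.ext
    rw [AddSubgroup.coe_nsmul, AddSubgroup.coe_zero, ← natCast_zsmul]
    exact Pic0.mem_torsion.mp y.2
  have hperf : ∀ y : Pic0.torsion K F (ℓ ^ k), ℓ • y = 0 → y ≠ 0 →
      ∃ u : Pic0.torsion K F (ℓ ^ k),
        helper35.wp (ℓ ^ k) (u : Pic0 K F) (y : Pic0 K F) ≠ 1 := by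
    intro y hy hy0
    have hk : 0 < k := by
      rcases Nat.eq_zero_or_pos k with h | h
      · exfalso
        apply hy0
        have key : ∀ (n : ℕ) (z : Pic0 K F), n = 1 → (n : ℤ) • z = 0 → z = 0 := by
          rintro n z rfl hz
          rwa [Nat.cast_one, one_smul] at hz
        exact Subtype.ext (key (ℓ ^ k) y (by rw [h, pow_zero]) (Pic0.mem_torsion.mp y.2))
      · exact h
    have hy' : (y : Pic0 K F) ∈ Pic0.torsion K F ℓ := by
      rw [Pic0.mem_torsion, natCast_zsmul, ← AddSubgroup.coe_nsmul, hy, AddSubgroup.coe_zero]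
    have hy0' : (y : Pic0 K F) ≠ 0 := fun h => hy0 (Subtype.ext h)
    obtain ⟨u, hu, hne⟩ := exists_wp_pow_ne_one hℓ k hW hy' hy0' hk
    exact ⟨⟨u, hu⟩, hne⟩
  obtain ⟨y, hy⟩ := Fermat.Agent.T6.helper51.exists_pairing_pow_eq_of_prime_order
    (M := Pic0.torsion K F (ℓ ^ k)) ℓ k hℓ hMk
    (fun u y => helper35.wp (ℓ ^ k) (u : Pic0 K F) (y : Pic0 K F))
    (fun u u' y => helper35.wp_add_left hS hWF hM hn u.2 u'.2 y.2)
    (fun u y y' => helper35.wp_add_right hS hWF hM hn u.2 y.2 y'.2)
    (fun u y => helper35.wp_ne_zero hS hWF hM hn u.2 y.2)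
    hperf 1 (fun h => hℓ.one_lt.ne' (Nat.dvd_one.mp h)) χ hχ0 hχ
  exact ⟨y, fun u => by rw [hy u, pow_one]⟩

variable (K F)

/-- **[WEIL] at `(K, F)`** from Weil reciprocity for the function fields over `K`. -/
theorem weilAt_of_weilRec (ℓ : ℕ) [hℓ : Fact ℓ.Prime] (k : ℕ)
    (hW : ∀ (E : Type v) [Field E] [Algebra K E] (t : E), Transcendental K t →
      FiniteDimensional K⟮t⟯ E → WeilRec K E) :
    Fermat.Agent.T6.helper73.WeilAt K F ℓ k := by
  classical
  intro χ hχ0 hχ
  obtain ⟨x, hx, hfd, -, -⟩ :=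
    Fermat.Agent.P5.helper42.exists_separating_transcendental (K := K) (F := F)
  haveI := hfd
  have hS : RiemannSetting K F := Fermat.Agent.T6.helper9.riemannSetting_of_ff x hx
  haveI : CharZero F := charZero_of_injective_algebraMap (algebraMap K F).injective
  haveI : CharZero K⟮x⟯ := charZero_of_injective_algebraMap (algebraMap K K⟮x⟯).injective
  obtain ⟨g, c, hc⟩ := Fermat.Agent.P2.helper74.exists_hasRiemannGenus x hx
  have hM : helper35.Moving K F := helper35.moving_of_weakRR hS hc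
  have hWF : WeilRec K F := hW F x hx inferInstance
  have hn : ℓ ^ k ≠ 0 := (pow_pos hℓ.out.pos k).ne'
  obtain ⟨y, hy⟩ := exists_wp_eq_char hℓ.out k hW χ hχ0 hχ
  refine ⟨y, fun u D D' h h' hD hD' hdisj hh hh' => ?_⟩
  have hd : ∀ P : Place K F, (D : Divisor K F) P = 0 ∨ (D' : Divisor K F) P = 0 := by
    intro P
    by_cases hP : (D : Divisor K F) P = 0
    · exact Or.inl hP
    · right
      by_contra hP'
      exact (Finset.disjoint_left.mp hdisj) (Finsupp.mem_support_iff.mpr hP)
        (Finsupp.mem_support_iff.mpr hP')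
  have hdata : helper35.WPData (ℓ ^ k) (u : Pic0 K F) (y : Pic0 K F) (D : Divisor K F)
      (D' : Divisor K F) h h' :=
    helper35.WPData.of_supp hS ⟨D.2, hD⟩ ⟨D'.2, hD'⟩ hh.1 hh'.1
      (divOf_eq_of_forall hh.2) (divOf_eq_of_forall hh'.2) hd
  rw [evalDiv_eq_dval, evalDiv_eq_dval, hy u, helper35.wp_eq hS hWF hM hn hdata,
    div_mul_cancel₀ _ (dval_ne_zero hS hdata.disjy)]

end End

/-- **the contract of block [W1]**: Weil reciprocity for the function fields of curves over
algebraically closed fields of characteristic `0` (universe-monomorphic, as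
`helper73.WeilStatement`). -/
def W1Statement : Prop :=
  ∀ (K F : Type) [Field K] [Field F] [Algebra K F] [IsAlgClosed K] [CharZero K]
    [IsCurveOver K F] [Algebra.EssFiniteType K F], WeilRec K F

/-- **[WEIL] from [W1]** -/
theorem weilStatement_of_w1 (h1 : W1Statement) : Fermat.Agent.T6.helper73.WeilStatement := by
  intro K F _ _ _ _ _ _ _ ℓ _ k
  refine weilAt_of_weilRec K F ℓ k fun E _ _ t ht hfd => ?_
  obtain ⟨hcurve, hess⟩ := Fermat.Agent.LEF.helper67.isCurveOver_of_transcendental K E t ht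
  exact @h1 K E _ _ _ _ _ hcurve hess

end Fermat.Agent.T6.helper17

end
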