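/-
T6 [W1-NV] (helper48), part 1: the determinant of a multiplication on a quotient `B / a B` of a
semilocal Dedekind domain `B` with residue fields `K` is the product of the values at the primes,
counted with the multiplicities of the primes in `a`  (filtration by prime factors).
Mathlib + P3 helper58_NormVal (`cnt`) only.
-/
import Mathlib
import Fermat.Agent.P3.helper58_NormVal

set_option autoImplicit false
set_option linter.unusedSectionVars false
set_option linter.style.haveILetI false

open IsDedekindDomain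

namespace Fermat.Agent.T6.helper48

open Fermat.Agent.P3.helper58 (cnt cnt_mul cnt_self cnt_of_ne cnt_top)

section DetFilt

universe u w

variable {K : Type*} [Field K] {B : Type u} [CommRing B] [IsDedekindDomain B] [Algebra K B]

/-- the one-dimensional step: on `B / Q` (residue field `K`) the multiplication by `b` is the
multiplication by the value of `b` at `Q`. -/
theorem det_of_ker_prime (Q : Ideal B) (hQ : Q ≠ ⊤)
    (hres : ∀ x : B, ∃ r : K, x - algebraMap K B r ∈ Q)
    (b : B) (c : K) (hc : b - algebraMap K B c ∈ Q)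
    {V : Type w} [AddCommGroup V] [Module K V] (q : B →ₗ[K] V) (hq : Function.Surjective q)
    (hker : ∀ x, q x = 0 ↔ x ∈ Q) (E : V →ₗ[K] V) (hE : ∀ x, E (q x) = q (b * x)) :
    LinearMap.det E = c := by
  have hqc : ∀ (r : K) (x : B), q (algebraMap K B r * x) = r • q x := by
    intro r x
    rw [← Algebra.smul_def, map_smul]
  have hEq : E = c • LinearMap.id := by
    ext v
    obtain ⟨x, rfl⟩ := hq v
    rw [hE, LinearMap.smul_apply, LinearMap.id_apply, ← hqc]
    have h1 : b * x = (b - algebraMap K B c) * x + algebraMap K B c * x := by ring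
    rw [h1, map_add]
    have h2 : q ((b - algebraMap K B c) * x) = 0 :=
      (hker _).mpr (Q.mul_mem_right _ hc)
    rw [h2, zero_add]
  have h1 : q 1 ≠ 0 := by
    intro h
    exact hQ ((Ideal.eq_top_iff_one Q).mpr ((hker 1).mp h))
  have hfr : Module.finrank K V = 1 := by
    refine finrank_eq_one (q 1) h1 ?_
    intro w
    obtain ⟨x, rfl⟩ := hq w
    obtain ⟨r, hr⟩ := hres x
    refine ⟨r, ?_⟩
    have h2 : q (x - algebraMap K B r) = 0 := (hker _).mpr hr
    rw [map_sub, sub_eq_zero] at h2
    rw [h2]
    have := hqc r 1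
    rw [mul_one] at this
    rw [this]
  rw [hEq, LinearMap.det_smul, hfr, pow_one, LinearMap.det_id, mul_one]

variable [Fintype (HeightOneSpectrum B)]

theorem isPrincipalIdealRing_of_fintype : IsPrincipalIdealRing B := by
  classical
  apply IsPrincipalIdealRing.of_finite_primes
  have hfin : (Set.range (fun Q : HeightOneSpectrum B => Q.asIdeal)).Finite :=
    Set.finite_range _
  refine (hfin.union (Set.finite_singleton (⊥ : Ideal B))).subset ?_
  intro I hI
  by_cases h0 : I = ⊥
  · exact Or.inr h0
  · exact Or.inl ⟨⟨I, hI, h0⟩, rfl⟩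

/-- **Determinant on a filtered quotient.**  `B` a Dedekind domain with finitely many primes, all
with residue field `K`; `c Q` the value of `b` at `Q`.  If `q : B → V` is a surjective `K`-linear
map with kernel `a B` (`a ≠ 0`) and `E` is the endomorphism of `V` induced by the multiplication
by `b`, then `det E = ∏_Q c(Q) ^ (multiplicity of Q in a)`. -/
theorem det_filtration
    (hres : ∀ (Q : HeightOneSpectrum B) (x : B), ∃ r : K, x - algebraMap K B r ∈ Q.asIdeal)
    (b : B) (c : HeightOneSpectrum B → K) (hc : ∀ Q, b - algebraMap K B (c Q) ∈ Q.asIdeal)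
    (a : B) (ha : a ≠ 0)
    (V : Type w) [AddCommGroup V] [Module K V] [FiniteDimensional K V] (q : B →ₗ[K] V)
    (hq : Function.Surjective q) (hker : ∀ x, q x = 0 ↔ a ∣ x) (E : V →ₗ[K] V)
    (hE : ∀ x, E (q x) = q (b * x)) :
    LinearMap.det E = ∏ Q : HeightOneSpectrum B, c Q ^ cnt Q (Ideal.span {a}) := by
  classical
  haveI : IsPrincipalIdealRing B := isPrincipalIdealRing_of_fintype
  revert V
  refine UniqueFactorizationMonoid.induction_on_prime
    (P := fun a => a ≠ 0 → ∀ (V : Type w) [AddCommGroup V] [Module K V] [FiniteDimensional K V]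
      (q : B →ₗ[K] V), Function.Surjective q → (∀ x, q x = 0 ↔ a ∣ x) → ∀ (E : V →ₗ[K] V),
      (∀ x, E (q x) = q (b * x)) →
      LinearMap.det E = ∏ Q : HeightOneSpectrum B, c Q ^ cnt Q (Ideal.span {a})) a ?_ ?_ ?_ ha
  · intro h
    exact absurd rfl h
  · intro x hx _ V _ _ _ q hq hker E _
    haveI : Subsingleton V := by
      refine ⟨fun v w => ?_⟩
      obtain ⟨y, rfl⟩ := hq v
      obtain ⟨z, rfl⟩ := hq w
      rw [(hker y).mpr (hx.dvd), (hker z).mpr (hx.dvd)]
    rw [LinearMap.det_eq_one_of_subsingleton]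
    have htop : Ideal.span {x} = (⊤ : Ideal B) := Ideal.span_singleton_eq_top.mpr hx
    simp only [htop, cnt_top, pow_zero, Finset.prod_const_one]
  · intro a p ha0 hp IH _ V _ _ _ q hq hker E hE
    have hp0 : p ≠ 0 := hp.ne_zero
    -- the prime ideal of `p`
    let Qp : HeightOneSpectrum B :=
      ⟨Ideal.span {p}, (Ideal.span_singleton_prime hp0).mpr hp, by
        rw [Ne, Ideal.span_singleton_eq_bot]; exact hp0⟩
    -- the submodule `W = q (a B)`
    let m : B →ₗ[K] V := q ∘ₗ (LinearMap.mulLeft K a)
    have hm : ∀ x, m x = q (a * x) := fun x => rfl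
    let W : Submodule K V := LinearMap.range m
    have he : W ≤ W.comap E := by
      rintro _ ⟨x, rfl⟩
      refine ⟨b * x, ?_⟩
      rw [hm, hm, hE]
      congr 1
      ring
    -- first piece
    let q₁ : B →ₗ[K] W := m.rangeRestrict
    have hq₁ : Function.Surjective q₁ := LinearMap.surjective_rangeRestrict m
    have hker₁ : ∀ x, q₁ x = 0 ↔ x ∈ Qp.asIdeal := by
      intro x
      rw [← Subtype.coe_inj]
      change q (a * x) = 0 ↔ x ∈ Ideal.span {p}
      rw [hker, Ideal.mem_span_singleton, mul_comm p a]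
      exact mul_dvd_mul_iff_left ha0
    have hE₁ : ∀ x, (E.restrict he) (q₁ x) = q₁ (b * x) := by
      intro x
      apply Subtype.ext
      change E (q (a * x)) = q (a * (b * x))
      rw [hE]
      congr 1
      ring
    have hdet₁ : LinearMap.det (E.restrict he) = c Qp :=
      det_of_ker_prime Qp.asIdeal Qp.isPrime.ne_top (hres Qp) b (c Qp) (hc Qp) q₁ hq₁ hker₁ _ hE₁
    -- second piece
    let q₂ : B →ₗ[K] V ⧸ W := W.mkQ ∘ₗ q
    have hq₂ : Function.Surjective q₂ :=
      (Submodule.mkQ_surjective W).comp hq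
    have hker₂ : ∀ x, q₂ x = 0 ↔ a ∣ x := by
      intro x
      change W.mkQ (q x) = 0 ↔ a ∣ x
      rw [Submodule.mkQ_apply, Submodule.Quotient.mk_eq_zero]
      constructor
      · rintro ⟨y, hy⟩
        rw [hm] at hy
        have h0 : q (x - a * y) = 0 := by rw [map_sub, hy, sub_self]
        rw [hker] at h0
        obtain ⟨z, hz⟩ := h0
        refine ⟨y + p * z, ?_⟩
        have : x = a * y + p * a * z := by rw [← hz]; ring
        rw [this]
        ring
      · rintro ⟨y, rfl⟩
        exact ⟨y, rfl⟩
    have hE₂ : ∀ x, (W.mapQ W E he) (q₂ x) = q₂ (b * x) := by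
      intro x
      change (W.mapQ W E he) (W.mkQ (q x)) = W.mkQ (q (b * x))
      rw [Submodule.mkQ_apply, Submodule.mapQ_apply, hE]
      rfl
    have hdet₂ := IH ha0 (V ⧸ W) q₂ hq₂ hker₂ _ hE₂
    rw [LinearMap.det_eq_det_mul_det W E he, hdet₁, hdet₂]
    have hspan : Ideal.span {p * a} = Ideal.span {p} * Ideal.span {a} := by
      rw [Ideal.span_singleton_mul_span_singleton]
    have hpb : Ideal.span {p} ≠ (⊥ : Ideal B) := by
      rw [Ne, Ideal.span_singleton_eq_bot]; exact hp0
    have hab : Ideal.span {a} ≠ (⊥ : Ideal B) := by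
      rw [Ne, Ideal.span_singleton_eq_bot]; exact ha0
    have hcnt : ∀ Q : HeightOneSpectrum B,
        cnt Q (Ideal.span {p * a}) = cnt Q (Ideal.span {p}) + cnt Q (Ideal.span {a}) := by
      intro Q
      rw [hspan, cnt_mul Q hpb hab]
    simp only [hcnt, pow_add, Finset.prod_mul_distrib]
    congr 1
    rw [Finset.prod_eq_single Qp]
    · have : cnt Qp (Ideal.span {p}) = 1 := cnt_self Qp
      rw [this, pow_one]
    · intro Q _ hQ
      have : cnt Q (Ideal.span {p}) = 0 := cnt_of_ne (Q' := Qp) hQ
      rw [this, pow_zero]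
    · intro h
      exact absurd (Finset.mem_univ _) h

end DetFilt

end Fermat.Agent.T6.helper48
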