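/-
T6 [W1-NV] (helper48), part 2: THE VALUE OF A NORM.

For a finite extension `F'/F` of function fields over an algebraically closed field `K` of
characteristic zero (both `RiemannSetting`s), a place `v` of `F` and `f ∈ F'` a unit at every
place `w` of `F'` above `v`:

  `normVal : pval v (N_{F'/F} f) = ∏ w ∈ v.fiber F', pval w f ^ w.ramificationIndex F`

(= field `norm` of helper1.ValFacts, = helper42.NormValStatement, = hypothesis `nv` of
helper15.CycHyp).  Vocabulary: Prelude `Place`, P3 helper58 (`BV`, fibres), T6 helper26 (`pval`).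

Proof: `A = O_v`, `B` = integral closure of `A` in `F'` (free of finite rank over `A`);
`N(f) mod m_v` = determinant of the multiplication by `f` on `B / π B` (`exists_reduction`);
`B / π B` is filtered by the prime factors of `π`, the graded pieces are the residue fields `K`
on which `f` acts by its values (`det_filtration`).
-/
import Mathlib
import Fermat.Agent.P3.helper58_FFExt
import Fermat.Agent.T6.helper26_PVal
import Fermat.Agent.T6.helper48_DetFilt

set_option autoImplicit false
set_option linter.unusedSectionVars false
set_option linter.style.haveILetI false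

open AlgebraicCurve IsDedekindDomain Ideal

namespace Fermat.Agent.T6.helper48

open Fermat.Agent.P3.helper58 Fermat.Agent.T6.helper26 Fermat.Agent.P2.helper74

section Reduction

universe uB

/-- **Reduction of a norm**: for a finite free `A`-algebra `B` and a `K`-point `φ : A → K` with
kernel `π A`, the value `φ (N_{B/A} b)` is the determinant of an endomorphism `E` of a
`K`-vector space `V = B / π B` induced by the multiplication by `b`. -/
theorem exists_reduction {A : Type*} {B : Type uB} [CommRing A] [CommRing B] [Algebra A B]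
    [Module.Free A B] [Module.Finite A B]
    {K : Type*} [Field K] [Algebra K A] [Algebra K B] [IsScalarTower K A B]
    (φ : A →ₐ[K] K) (π : A) (hπ : ∀ y : A, φ y = 0 ↔ π ∣ y) (b : B) :
    ∃ (ι : Type uB) (_ : Fintype ι) (Ψ : B →ₗ[K] (ι → K)) (E : (ι → K) →ₗ[K] (ι → K)),
      Function.Surjective Ψ ∧ (∀ x, Ψ x = 0 ↔ algebraMap A B π ∣ x) ∧
      (∀ x, E (Ψ x) = Ψ (b * x)) ∧ LinearMap.det E = φ (Algebra.norm A b) := by
  classical
  let ι := Module.Free.ChooseBasisIndex A B
  let bas : Module.Basis ι A B := Module.Free.chooseBasis A B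
  let M : Matrix ι ι A := Algebra.leftMulMatrix bas b
  let Ψ : B →ₗ[K] (ι → K) :=
    { toFun := fun x i => φ (bas.repr x i)
      map_add' := by
        intro x y
        ext i
        simp
      map_smul' := by
        intro r x
        ext i
        have h1 : r • x = (algebraMap K A r) • x := by rw [algebraMap_smul]
        simp only [RingHom.id_apply, Pi.smul_apply, smul_eq_mul]
        rw [h1, map_smul, Finsupp.smul_apply, smul_eq_mul, map_mul, AlgHom.commutes]
        simp }
  have hΨ : ∀ x i, Ψ x i = φ (bas.repr x i) := fun _ _ => rfl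
  refine ⟨ι, inferInstance, Ψ, Matrix.toLin' (M.map φ), ?_, ?_, ?_, ?_⟩
  · intro g
    refine ⟨∑ i, (algebraMap K A (g i)) • bas i, ?_⟩
    ext i
    rw [hΨ, map_sum, Finsupp.finsetSum_apply]
    simp only [map_smul, Module.Basis.repr_self, Finsupp.smul_apply, smul_eq_mul]
    rw [Finset.sum_eq_single i]
    · simp
    · intro j _ hj
      simp [hj]
    · intro h
      exact absurd (Finset.mem_univ _) h
  · intro x
    constructor
    · intro h
      have h1 : ∀ i, π ∣ bas.repr x i := fun i => (hπ _).mp (by rw [← hΨ, h]; rfl)
      choose y hy using h1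
      refine ⟨∑ i, y i • bas i, ?_⟩
      rw [← Algebra.smul_def, Finset.smul_sum]
      conv_lhs => rw [← bas.sum_repr x]
      refine Finset.sum_congr rfl fun i _ => ?_
      rw [hy i, mul_smul]
    · rintro ⟨z, rfl⟩
      ext i
      rw [hΨ, ← Algebra.smul_def, map_smul, Finsupp.smul_apply, smul_eq_mul, map_mul,
        (hπ π).mpr dvd_rfl, zero_mul]
      rfl
  · intro x
    ext i
    rw [Matrix.toLin'_apply, hΨ, ← Algebra.leftMulMatrix_mulVec_repr bas b x]
    simp only [Matrix.mulVec, dotProduct, Matrix.map_apply, hΨ]
    rw [map_sum]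
    refine Finset.sum_congr rfl fun j _ => ?_
    rw [map_mul]
  · rw [LinearMap.det_toLin', Algebra.norm_eq_matrix_det bas b]
    have := RingHom.map_det φ.toRingHom M
    rw [RingHom.mapMatrix_apply] at this
    exact this.symm

end Reduction

section NV

variable {K F : Type*} (F' : Type*) [Field K] [Field F] [Field F'] [Algebra K F] [Algebra K F']
  [Algebra F F'] [IsScalarTower K F F'] [FiniteDimensional F F'] [CharZero F]

variable (v : Place K F)

local instance : IsDedekindDomain (BV F' v) :=
  integralClosure.isDedekindDomain v.toValuationSubring F F'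

local instance : IsFractionRing (BV F' v) F' :=
  integralClosure.isFractionRing_of_finite_extension F F'

local instance : Module.Finite v.toValuationSubring (BV F' v) :=
  IsIntegralClosure.finite v.toValuationSubring F F' (BV F' v)

local instance isScalarTower_OV' : IsScalarTower K v.toValuationSubring F' :=
  IsScalarTower.of_algebraMap_eq fun a => by
    rw [IsScalarTower.algebraMap_apply K F F']
    rfl

local instance isTorsionFree_OV' : Module.IsTorsionFree v.toValuationSubring F' :=
  Module.isTorsionFree_iff_algebraMap_injective.mpr (algebraMap_OV_injective F' v)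

local instance isTorsionFree_BV' : Module.IsTorsionFree v.toValuationSubring (BV F' v) :=
  Subalgebra.instIsTorsionFree (BV F' v)

local instance free_BV : Module.Free v.toValuationSubring (BV F' v) :=
  Module.free_of_finite_type_torsion_free'

theorem norm_BV (b : BV F' v) :
    Algebra.norm F (algebraMap (BV F' v) F' b) =
      algebraMap v.toValuationSubring F (Algebra.norm v.toValuationSubring b) := by
  haveI : IsLocalization (Algebra.algebraMapSubmonoid (BV F' v)
      (nonZeroDivisors v.toValuationSubring)) F' :=
    IsIntegralClosure.isLocalization v.toValuationSubring F F' (BV F' v)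
  exact Algebra.norm_localization v.toValuationSubring (nonZeroDivisors v.toValuationSubring) b

/-- membership in a height one prime of `BV` in terms of the order at the corresponding place -/
theorem mem_asIdeal_iff_ord (Q : HeightOneSpectrum (BV F' v)) (x : BV F' v) :
    x ∈ Q.asIdeal ↔ x = 0 ∨
      0 < (Place.ofHeightOneSpectrum (K := K) (F := F') Q).ord (algebraMap (BV F' v) F' x) := by
  have h1 := ofHeightOneSpectrum_primeOf (K := K) (Place.ofHeightOneSpectrum (K := K) (F := F') Q)
    (algebraMap_mem_ofHeightOneSpectrum (K := K) Q)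
  have h2 : primeOf (Place.ofHeightOneSpectrum (K := K) (F := F') Q)
      (algebraMap_mem_ofHeightOneSpectrum (K := K) Q) = Q := ofHeightOneSpectrum_injective h1
  have h3 := mem_idealOf (Place.ofHeightOneSpectrum (K := K) (F := F') Q)
    (algebraMap_mem_ofHeightOneSpectrum (K := K) Q) x
  rw [← h3]
  conv_lhs => rw [← h2]
  rfl

variable [IsAlgClosed K] [HasPrincipalDivisors K F']

/-- **Value of a norm** [NV]: if `f` is a unit at every place `w` of `F'` above `v`, then
`N_{F'/F}(f)(v) = ∏_{w | v} f(w) ^ e(w | v)`. -/
theorem normVal (hS : RiemannSetting K F) (hS' : RiemannSetting K F') (f : F') (hf : f ≠ 0)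
    (h0 : ∀ w ∈ v.fiber F', w.ord f = 0) :
    pval v (Algebra.norm F f) = ∏ w ∈ v.fiber F', pval w f ^ (w.ramificationIndex F) := by
  classical
  haveI := finite_heightOneSpectrum_BV F' v
  letI := Fintype.ofFinite (HeightOneSpectrum (BV F' v))
  -- the places over `v`
  let W : HeightOneSpectrum (BV F' v) → Place K F' :=
    fun Q => Place.ofHeightOneSpectrum (K := K) (F := F') Q
  have hWfib : ∀ Q, W Q ∈ v.fiber F' :=
    fun Q => Place.mem_fiber.mpr (restrict_ofHeightOneSpectrum F' v Q)
  have hWinj : Function.Injective W := ofHeightOneSpectrum_injective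
  have himg : v.fiber F' = Finset.univ.image W := by
    ext w
    rw [Place.mem_fiber, Finset.mem_image]
    constructor
    · intro hw
      obtain ⟨Q, hQ⟩ := exists_ofHeightOneSpectrum_eq F' v w hw
      exact ⟨Q, Finset.mem_univ _, hQ⟩
    · rintro ⟨Q, -, rfl⟩
      exact restrict_ofHeightOneSpectrum F' v Q
  -- `f` is integral
  obtain ⟨b, hb⟩ : ∃ b : BV F' v, algebraMap (BV F' v) F' b = f := by
    have hval : ∀ Q : HeightOneSpectrum (BV F' v), Q.valuation F' f ≤ 1 := by
      intro Q
      have h1 := Fermat.Agent.S24.helper75.ofHeightOneSpectrum_valuation (K := K)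
        (R := BV F' v) (F := F') Q f hf
      have h2 : (Place.ofHeightOneSpectrum (K := K) (F := F') Q).ord f = 0 := h0 _ (hWfib Q)
      rw [h1, h2]
      simp
    exact HeightOneSpectrum.mem_integers_of_valuation_le_one F' f hval
  have hb0 : b ≠ 0 := by
    rintro rfl
    rw [map_zero] at hb
    exact hf hb.symm
  -- residue fields
  have hres : ∀ (Q : HeightOneSpectrum (BV F' v)) (x : BV F' v),
      ∃ r : K, x - algebraMap K (BV F' v) r ∈ Q.asIdeal := by
    intro Q x
    have hx : 0 ≤ (W Q).ord (algebraMap (BV F' v) F' x) :=
      Fermat.Agent.S24.helper75.place_ord_nonneg_of_mem _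
        (algebraMap_mem_ofHeightOneSpectrum (K := K) Q x)
    obtain ⟨r, hr⟩ := hS'.residue (W Q) _ hx
    refine ⟨r, ?_⟩
    rw [mem_asIdeal_iff_ord]
    have hmap : algebraMap (BV F' v) F' (x - algebraMap K (BV F' v) r) =
        algebraMap (BV F' v) F' x - algebraMap K F' r := by
      rw [map_sub, ← IsScalarTower.algebraMap_apply]
    rcases hr with hr | hr
    · left
      apply FaithfulSMul.algebraMap_injective (BV F' v) F'
      rw [hmap, hr, sub_self, map_zero]
    · right
      rw [hmap]
      exact hr
  -- the values
  have hc : ∀ Q : HeightOneSpectrum (BV F' v),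
      b - algebraMap K (BV F' v) (pval (W Q) f) ∈ Q.asIdeal := by
    intro Q
    rw [mem_asIdeal_iff_ord]
    have hmap : algebraMap (BV F' v) F' (b - algebraMap K (BV F' v) (pval (W Q) f)) =
        f - algebraMap K F' (pval (W Q) f) := by
      rw [map_sub, ← IsScalarTower.algebraMap_apply, hb]
    rcases pval_spec hS' (P := W Q) (f := f) (h0 _ (hWfib Q)).ge with hr | hr
    · left
      apply FaithfulSMul.algebraMap_injective (BV F' v) F'
      rw [hmap, map_zero, sub_eq_zero]
      exact hr
    · right
      rw [hmap]
      exact hr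
  -- uniformizer
  obtain ⟨π, hπ⟩ := IsDiscreteValuationRing.exists_irreducible v.toValuationSubring
  have hπ0 : (π : F) ≠ 0 := by
    simpa [ne_eq, ZeroMemClass.coe_eq_zero] using hπ.ne_zero
  have hφ : ∀ y : v.toValuationSubring, pvalHom hS v y = 0 ↔ π ∣ y := by
    intro y
    rw [pvalHom_apply, ← Ideal.mem_span_singleton, ← hπ.maximalIdeal_eq,
      Fermat.Agent.S24.helper75.place_mem_maximalIdeal_iff]
    rcases eq_or_ne y 0 with rfl | hy
    · simp
    have hy0 : (y : F) ≠ 0 := by
      simpa [ne_eq, ZeroMemClass.coe_eq_zero] using hy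
    rw [pval_eq_zero_iff hS hy0 (Fermat.Agent.S24.helper75.place_ord_nonneg_of_mem v y.2)]
    simp [hy]
  obtain ⟨ι, _, Ψ, E, hΨs, hΨk, hE, hdet⟩ :=
    exists_reduction (pvalHom hS v) π hφ b
  have ha0 : algebraMap v.toValuationSubring (BV F' v) π ≠ 0 := by
    intro h
    apply hπ.ne_zero
    exact FaithfulSMul.algebraMap_injective v.toValuationSubring (BV F' v) (by rw [h, map_zero])
  have key := det_filtration hres b (fun Q => pval (W Q) f) hc
    (algebraMap v.toValuationSubring (BV F' v) π) ha0 (ι → K) Ψ hΨs hΨk E hE
  -- the left side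
  have hL : pval v (Algebra.norm F f) = LinearMap.det E := by
    rw [hdet, pvalHom_apply, ← hb, norm_BV]
    rfl
  rw [hL, key, himg, Finset.prod_image (fun Q _ Q' _ h => hWinj h)]
  refine Finset.prod_congr rfl fun Q _ => ?_
  congr 1
  -- multiplicity = ramification index
  have h1 : (W Q).ord (algebraMap F F' (π : F)) = (W Q).ramificationIndex F := by
    rw [(W Q).ord_restrict, restrict_ofHeightOneSpectrum F' v Q, v.ord_coe_irreducible hπ, mul_one]
  have h2 : algebraMap F F' (π : F) =
      algebraMap (BV F' v) F' (algebraMap v.toValuationSubring (BV F' v) π) := rfl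
  rw [h2, Fermat.Agent.S24.helper75.ofHeightOneSpectrum_ord,
    HeightOneSpectrum.valuation_of_algebraMap, intValuation_eq_exp_cnt Q ha0,
    WithZero.log_exp, neg_neg] at h1
  exact_mod_cast h1

end NV

end Fermat.Agent.T6.helper48
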