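import Mathlib
import Fermat.Prelude.Def_AlgebraicCurve_DivisorPushPull
import Fermat.Agent.S24.helper82_FFBasic

/-!
# T6 [W3c] (helper1): the Kummer computation behind perfectness of the Weil pairing — core

Generic and *value-function agnostic*: `val`, `val'` are arbitrary functions
`Place → field → K` and every property of them that is used is an explicit hypothesis,
so that any implementation of [W0] (value at a place), [W1] (Weil reciprocity,
value of a norm) plugs in.

Setting: `F'/F` integral extension of function fields over `K`, `v ∈ F'` with `v ^ ℓ = h ∈ F`,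
`ℓ • D_y = div h`, `τ` a `K`-automorphism of `F'` over `F` with `τ v = ζ v`, `P'` a place of
`F'` at which `v` is a unit, and `ℓ • M' = P' - τ P' + div w` on `F'` with `M'` supported off
the zeros and poles of `v`.  Then with `D_x := π_* M'`, `h_x := N(w)`:

  `ℓ • D_x = div h_x`  and  `h(D_x) = ζ * h_x(D_y)`.
-/

namespace Fermat.Agent.T6.helper1

open AlgebraicCurve

section Eval

variable {K E : Type*} [Field K] [Field E] [Algebra K E]

/-- `f(D) = ∏_P (val P f) ^ (D P)`, for an arbitrary value function. -/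
noncomputable def evalDiv (val : Place K E → E → K) (f : E) (D : Divisor K E) : K :=
  D.prod fun P n => val P f ^ n

/-- The unit-valued version of a value function (junk value `1` where the value vanishes). -/
noncomputable def uv (val : Place K E → E → K) (f : E) (P : Place K E) : Kˣ :=
  haveI := Classical.dec (val P f = 0)
  if h : val P f = 0 then 1 else Units.mk0 (val P f) h

theorem uv_coe {val : Place K E → E → K} {f : E} {P : Place K E} (h : val P f ≠ 0) :
    ((uv val f P : Kˣ) : K) = val P f := by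
  unfold uv
  rw [dif_neg h]
  rfl

/-- Evaluation of a unit-valued function on divisors. -/
noncomputable def evU (u : Place K E → Kˣ) (D : Divisor K E) : Kˣ :=
  D.prod fun P n => u P ^ n

@[simp]
theorem evU_zero (u : Place K E → Kˣ) : evU u 0 = 1 :=
  Finsupp.prod_zero_index

theorem evU_add (u : Place K E → Kˣ) (D₁ D₂ : Divisor K E) :
    evU u (D₁ + D₂) = evU u D₁ * evU u D₂ :=
  Finsupp.prod_add_index' (fun _ => zpow_zero _) (fun _ _ _ => zpow_add _ _ _)

@[simp]
theorem evU_single (u : Place K E → Kˣ) (P : Place K E) (n : ℤ) :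
    evU u (Finsupp.single P n) = u P ^ n :=
  Finsupp.prod_single_index (zpow_zero _)

theorem evU_neg (u : Place K E → Kˣ) (D : Divisor K E) :
    evU u (-D) = (evU u D)⁻¹ := by
  rw [eq_inv_iff_mul_eq_one, ← evU_add, neg_add_cancel, evU_zero]

theorem evU_sub (u : Place K E → Kˣ) (D₁ D₂ : Divisor K E) :
    evU u (D₁ - D₂) = evU u D₁ / evU u D₂ := by
  rw [sub_eq_add_neg, evU_add, evU_neg, div_eq_mul_inv]

theorem evU_nsmul (u : Place K E → Kˣ) (m : ℕ) (D : Divisor K E) :
    evU u (m • D) = evU u D ^ m := by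
  induction m with
  | zero => simp
  | succ m ih => rw [succ_nsmul, evU_add, ih, pow_succ]

theorem evU_congr {u u' : Place K E → Kˣ} {D : Divisor K E}
    (h : ∀ P ∈ D.support, u P = u' P) : evU u D = evU u' D :=
  Finsupp.prod_congr fun P hP => by rw [h P hP]

theorem evU_mul (u u' : Place K E → Kˣ) (D : Divisor K E) :
    evU (fun P => u P * u' P) D = evU u D * evU u' D := by
  unfold evU
  rw [← Finsupp.prod_mul]
  exact Finsupp.prod_congr fun P _ => mul_zpow _ _ _

theorem evU_pow (u : Place K E → Kˣ) (m : ℕ) (D : Divisor K E) :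
    evU (fun P => u P ^ m) D = evU u D ^ m := by
  induction m with
  | zero => simp [evU]
  | succ m ih =>
    have : (fun P => u P ^ (m + 1)) = fun P => u P ^ m * u P := by
      funext P
      rw [pow_succ]
    rw [this, evU_mul, ih, pow_succ]

theorem evalDiv_eq_evU {val : Place K E → E → K} {f : E} {D : Divisor K E}
    (h : ∀ P ∈ D.support, val P f ≠ 0) :
    evalDiv val f D = ((evU (uv val f) D : Kˣ) : K) := by
  rw [evalDiv, evU, Finsupp.prod, Finsupp.prod, Units.coe_prod]
  refine Finset.prod_congr rfl fun P hP => ?_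
  rw [Units.val_zpow_eq_zpow_val, uv_coe (h P hP)]

theorem evU_finset_sum {ι : Type*} (u : Place K E → Kˣ) (s : Finset ι) (D : ι → Divisor K E) :
    evU u (∑ i ∈ s, D i) = ∏ i ∈ s, evU u (D i) := by
  classical
  induction s using Finset.induction_on with
  | empty => simp
  | insert i s hi ih => rw [Finset.sum_insert hi, Finset.prod_insert hi, evU_add, ih]

theorem ord_pow' (P : Place K E) (f : E) (m : ℕ) : P.ord (f ^ m) = m * P.ord f := by
  rw [← zpow_natCast, Place.ord_zpow]

end Eval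

section Cover

variable {K F F' : Type*} [Field K] [Field F] [Field F']
  [Algebra K F] [Algebra K F'] [Algebra F F'] [IsScalarTower K F F']
  [Algebra.IsIntegral F F'] [HasPrincipalDivisors K F']

omit [HasPrincipalDivisors K F'] in
/-- Projection formula for evaluation, push-forward side (all inertia degrees `1`). -/
theorem evU_pushforward (hdeg : ∀ w : Place K F', w.inertiaDeg F = 1) (u : Place K F → Kˣ)
    (M' : Divisor K F') :
    evU u (Divisor.pushforward F M') = evU (fun Q' => u (Q'.restrict F)) M' := by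
  induction M' using Finsupp.induction_linear with
  | zero => simp
  | add D₁ D₂ h₁ h₂ => rw [map_add, evU_add, evU_add, h₁, h₂]
  | single w n =>
    rw [Divisor.pushforward_single, evU_single, evU_single, hdeg w, Nat.cast_one, mul_one]

/-- Projection formula for evaluation, pull-back side. -/
theorem evU_pullback (b : Place K F' → Kˣ) (D : Divisor K F) :
    evU b (Divisor.pullback F' D)
      = evU (fun Q => ∏ Q' ∈ Q.fiber F', b Q' ^ (Q'.ramificationIndex F)) D := by
  induction D using Finsupp.induction_linear with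
  | zero => simp
  | add D₁ D₂ h₁ h₂ => rw [map_add, evU_add, evU_add, h₁, h₂]
  | single Q n =>
    rw [Divisor.pullback_single, evU_finset_sum, evU_single, ← Finset.prod_zpow]
    refine Finset.prod_congr rfl fun Q' _ => ?_
    rw [evU_single, ← zpow_natCast, ← zpow_mul, mul_comm]

/-- `div v = π^* D_y` when `v ^ ℓ = h` and `ℓ • D_y = div h`. -/
theorem ord_root_eq_pullback {ℓ : ℕ} (hℓ : ℓ ≠ 0) {v : F'} {h : F}
    (hv : v ^ ℓ = algebraMap F F' h) {Dy : Divisor K F}
    (hDy : ∀ Q : Place K F, (ℓ : ℤ) * Dy Q = Q.ord h) (Q' : Place K F') :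
    Q'.ord v = Divisor.pullback F' Dy Q' := by
  have h1 : (ℓ : ℤ) * Q'.ord v = (ℓ : ℤ) * Divisor.pullback F' Dy Q' := by
    rw [← ord_pow', hv, Place.ord_restrict, Divisor.pullback_apply, ← hDy]
    ring
  exact mul_left_cancel₀ (by exact_mod_cast hℓ) h1

omit [HasPrincipalDivisors K F'] in
/-- A place and its translate by an automorphism over `F` restrict to the same place. -/
theorem restrict_smul_eq (τ : F' ≃ₐ[K] F')
    (hτF : ∀ f : F, τ (algebraMap F F' f) = algebraMap F F' f) (Q' : Place K F') :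
    (τ • Q').restrict F = Q'.restrict F := by
  apply Place.ext
  ext f
  rw [Place.restrict_toValuationSubring, Place.restrict_toValuationSubring,
    ValuationSubring.mem_comap, ValuationSubring.mem_comap, Place.smul_toValuationSubring,
    ValuationSubring.mem_pointwise_smul_iff_inv_smul_mem]
  have : τ⁻¹ • (algebraMap F F' f) = algebraMap F F' f := by
    rw [inv_smul_eq_iff, AlgEquiv.smul_def, hτF]
  rw [this]

/-- The facts about value functions `val` (on `F`) and `val'` (on `F'`) consumed by the Kummer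
computation: [W0] multiplicativity, constants, non-vanishing at units, compatibility with
restriction; [W1] value of a norm and Weil reciprocity on `F'` for disjoint supports. -/
structure ValFacts (val : Place K F → F → K) (val' : Place K F' → F' → K) : Prop where
  mul' : ∀ (Q' : Place K F') (f g : F'), f ≠ 0 → g ≠ 0 → Q'.ord f = 0 → Q'.ord g = 0 →
    val' Q' (f * g) = val' Q' f * val' Q' g
  ne_zero' : ∀ (Q' : Place K F') (f : F'), f ≠ 0 → Q'.ord f = 0 → val' Q' f ≠ 0
  const' : ∀ (Q' : Place K F') (c : K), val' Q' (algebraMap K F' c) = c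
  ne_zero : ∀ (Q : Place K F) (f : F), f ≠ 0 → Q.ord f = 0 → val Q f ≠ 0
  res : ∀ (Q' : Place K F') (f : F), f ≠ 0 → (Q'.restrict F).ord f = 0 →
    val' Q' (algebraMap F F' f) = val (Q'.restrict F) f
  norm : ∀ (Q : Place K F) (w : F'), w ≠ 0 → (∀ Q' ∈ Q.fiber F', Q'.ord w = 0) →
    val Q (Algebra.norm F w) = ∏ Q' ∈ Q.fiber F', val' Q' w ^ Q'.ramificationIndex F
  weil' : ∀ (f g : F') (Df Dg : Divisor K F'), f ≠ 0 → g ≠ 0 →
    (∀ Q', Df Q' = Q'.ord f) → (∀ Q', Dg Q' = Q'.ord g) → (∀ Q', Df Q' ≠ 0 → Dg Q' = 0) →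
    evalDiv val' f Dg = evalDiv val' g Df

section Main

variable {val : Place K F → F → K} {val' : Place K F' → F' → K}
  {ℓ : ℕ} {ζ : K} {τ : F' ≃ₐ[K] F'} {v w : F'} {h : F} {Dy : Divisor K F}
  {P' : Place K F'} {M' Dw : Divisor K F'}

theorem val_pow' (hV : ValFacts val val') (Q' : Place K F') {f : F'} (hf : f ≠ 0)
    (hord : Q'.ord f = 0) (m : ℕ) : val' Q' (f ^ m) = val' Q' f ^ m := by
  induction m with
  | zero =>
    rw [pow_zero, pow_zero]
    simpa using hV.const' Q' 1
  | succ m ih =>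
    rw [pow_succ, pow_succ, hV.mul' Q' _ _ (pow_ne_zero m hf) hf
      (by rw [ord_pow', hord, mul_zero]) hord, ih]

omit [HasPrincipalDivisors K F'] in
theorem exists_of_mem_support_pushforward {M' : Divisor K F'} {Q : Place K F}
    (hQ : Q ∈ (Divisor.pushforward F M').support) :
    ∃ Q' ∈ M'.support, Q'.restrict F = Q := by
  classical
  rw [Finsupp.mem_support_iff, Divisor.pushforward_apply] at hQ
  obtain ⟨Q', hQ', hne⟩ := Finset.exists_ne_zero_of_sum_ne_zero hQ
  refine ⟨Q', hQ', ?_⟩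
  by_contra hcon
  exact hne (if_neg hcon)

/-- **The Kummer computation.**  `h(π_* M') = ζ * N(w)(D_y)`. -/
theorem kummer_value (hV : ValFacts val val') (hℓ : ℓ ≠ 0)
    (hτ : ∀ (Q' : Place K F') (f : F'), val' (τ • Q') (τ f) = val' Q' f)
    (hh : h ≠ 0) (hv : v ^ ℓ = algebraMap F F' h) (hτv : τ v = algebraMap K F' ζ * v)
    (hDy : ∀ Q : Place K F, (ℓ : ℤ) * Dy Q = Q.ord h)
    (hdeg : ∀ Q' : Place K F', Q'.inertiaDeg F = 1)
    (hP' : P'.ord v = 0)
    (hw : w ≠ 0) (hDw : ∀ Q', Dw Q' = Q'.ord w)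
    (hM' : ℓ • M' = Finsupp.single P' 1 - Finsupp.single (τ • P') 1 + Dw)
    (hsupp : ∀ Q' ∈ M'.support, Q'.ord v = 0) :
    evalDiv val h (Divisor.pushforward F M') = ζ * evalDiv val (Algebra.norm F w) Dy := by
  classical
  have hah : algebraMap F F' h ≠ 0 := by
    rwa [ne_eq, map_eq_zero]
  have hv0 : v ≠ 0 := by
    rintro rfl
    rw [zero_pow hℓ] at hv
    exact hah hv.symm
  have hζ0 : ζ ≠ 0 := by
    rintro rfl
    rw [map_zero, zero_mul] at hτv
    exact hv0 ((map_eq_zero_iff τ τ.injective).mp hτv)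
  have haζ : algebraMap K F' ζ ≠ 0 := by
    rwa [ne_eq, map_eq_zero]
  have hordζ : ∀ Q' : Place K F', Q'.ord (algebraMap K F' ζ) = 0 := fun Q' =>
    Fermat.Agent.S24.helper82.ord_algebraMap Q' ζ
  have hτP : (τ • P').ord v = 0 := by
    have h1 : (τ • P').ord (τ v) = P'.ord v := Place.ord_smul τ P' v
    rw [hτv, Place.ord_mul _ haζ hv0, hordζ, zero_add, hP'] at h1
    exact h1
  have hvP : ∀ Q' : Place K F', Q'.ord v = Divisor.pullback F' Dy Q' :=
    ord_root_eq_pullback hℓ hv hDy
  have hwunit : ∀ Q' : Place K F', Q'.ord v ≠ 0 → Q'.ord w = 0 := by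
    intro Q' hQ'
    have h1 : M' Q' = 0 := by
      by_contra hne
      exact hQ' (hsupp Q' (Finsupp.mem_support_iff.mpr hne))
    have h2 : P' ≠ Q' := fun e => hQ' (e ▸ hP')
    have h3 : τ • P' ≠ Q' := fun e => hQ' (e ▸ hτP)
    have h4 := DFunLike.congr_fun hM' Q'
    rw [Finsupp.smul_apply, h1, smul_zero, Finsupp.add_apply, Finsupp.sub_apply,
      Finsupp.single_eq_of_ne' h2, Finsupp.single_eq_of_ne' h3, sub_zero, zero_add, hDw] at h4
    exact h4.symm
  have hhunit : ∀ Q' : Place K F', Q'.ord v = 0 → (Q'.restrict F).ord h = 0 := by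
    intro Q' hQ'
    have h1 : Q'.ord (algebraMap F F' h) = 0 := by
      rw [← hv, ord_pow', hQ', mul_zero]
    rw [Place.ord_restrict] at h1
    have he : (Q'.ramificationIndex F : ℤ) ≠ 0 := by
      exact_mod_cast (Place.ramificationIndex_pos (F := F) Q').ne'
    exact (mul_eq_zero.mp h1).resolve_left he
  -- Step A, B, C : `h(π_* M') = v(ℓ M')`
  have hA : evalDiv val h (Divisor.pushforward F M')
      = ((evU (uv val' v) (ℓ • M') : Kˣ) : K) := by
    rw [evalDiv_eq_evU, evU_pushforward hdeg, evU_nsmul, ← evU_pow]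
    · congr 1
      refine evU_congr fun Q' hQ' => ?_
      have hu := hsupp Q' hQ'
      apply Units.ext
      rw [Units.val_pow_eq_pow_val, uv_coe (hV.ne_zero _ h hh (hhunit Q' hu)),
        uv_coe (hV.ne_zero' Q' v hv0 hu), ← hV.res Q' h hh (hhunit Q' hu), ← hv,
        val_pow' hV Q' hv0 hu]
    · intro Q hQ
      obtain ⟨Q', hQ', rfl⟩ := exists_of_mem_support_pushforward hQ
      exact hV.ne_zero _ h hh (hhunit Q' (hsupp Q' hQ'))
  -- Step E : the value at `P' - τ P'`
  have hE : val' P' v = ζ * val' (τ • P') v := by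
    rw [← hτ P' v, hτv, hV.mul' _ _ _ haζ hv0 (hordζ _) hτP, hV.const']
  have hE' : ((uv val' v P' / uv val' v (τ • P') : Kˣ) : K) = ζ := by
    rw [Units.val_div_eq_div_val, uv_coe (hV.ne_zero' P' v hv0 hP'),
      uv_coe (hV.ne_zero' _ v hv0 hτP), hE]
    exact mul_div_cancel_right₀ _ (hV.ne_zero' _ v hv0 hτP)
  -- Step F, G : Weil reciprocity
  have hF : ((evU (uv val' v) Dw : Kˣ) : K) = evalDiv val' w (Divisor.pullback F' Dy) := by
    rw [← evalDiv_eq_evU]
    · refine hV.weil' v w (Divisor.pullback F' Dy) Dw hv0 hw (fun Q' => (hvP Q').symm) hDw ?_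
      intro Q' hQ'
      rw [hDw]
      exact hwunit Q' (by rwa [hvP])
    · intro Q' hQ'
      refine hV.ne_zero' Q' v hv0 ?_
      by_contra hne
      rw [Finsupp.mem_support_iff, hDw] at hQ'
      exact hQ' (hwunit Q' hne)
  -- Step H : value of the norm
  have hfib : ∀ Q ∈ Dy.support, ∀ Q' ∈ Q.fiber F', Q'.ord w = 0 := by
    intro Q hQ Q' hQ'
    apply hwunit
    rw [hvP, Divisor.pullback_apply, Place.mem_fiber.mp hQ']
    exact mul_ne_zero (by exact_mod_cast (Place.ramificationIndex_pos (F := F) Q').ne')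
      (Finsupp.mem_support_iff.mp hQ)
  have hNval : ∀ Q ∈ Dy.support, val Q (Algebra.norm F w)
      = ((∏ Q' ∈ Q.fiber F', uv val' w Q' ^ Q'.ramificationIndex F : Kˣ) : K) := by
    intro Q hQ
    rw [hV.norm Q w hw (hfib Q hQ), Units.coe_prod]
    refine Finset.prod_congr rfl fun Q' hQ' => ?_
    rw [Units.val_pow_eq_pow_val, uv_coe (hV.ne_zero' Q' w hw (hfib Q hQ Q' hQ'))]
  have hH : evalDiv val' w (Divisor.pullback F' Dy) = evalDiv val (Algebra.norm F w) Dy := by
    rw [evalDiv_eq_evU, evU_pullback, evalDiv_eq_evU]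
    · congr 1
      refine evU_congr fun Q hQ => ?_
      apply Units.ext
      rw [← hNval Q hQ, uv_coe]
      rw [hNval Q hQ]
      exact Units.ne_zero _
    · intro Q hQ
      rw [hNval Q hQ]
      exact Units.ne_zero _
    · intro Q' hQ'
      refine hV.ne_zero' Q' w hw (hwunit Q' ?_)
      rw [hvP]
      exact Finsupp.mem_support_iff.mp hQ'
  rw [hA, hM', evU_add, evU_sub, evU_single, evU_single, zpow_one, zpow_one, Units.val_mul,
    hE', hF, hH]

omit [HasPrincipalDivisors K F'] in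
/-- `ℓ • π_* M' = div N(w)`. -/
theorem pushforward_eq_ord_norm [Module.Finite F F']
    (hNF : Divisor.PushforwardNormFormula K F F')
    (hτF : ∀ f : F, τ (algebraMap F F' f) = algebraMap F F' f)
    (hdeg : ∀ Q' : Place K F', Q'.inertiaDeg F = 1)
    (hw : w ≠ 0) (hDw : ∀ Q', Dw Q' = Q'.ord w)
    (hM' : ℓ • M' = Finsupp.single P' 1 - Finsupp.single (τ • P') 1 + Dw) (Q : Place K F) :
    (ℓ : ℤ) * Divisor.pushforward F M' Q = Q.ord (Algebra.norm F w) := by
  have h1 : Divisor.pushforward F (ℓ • M') = Divisor.pushforward F Dw := by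
    rw [hM', map_add, map_sub, Divisor.pushforward_single, Divisor.pushforward_single,
      restrict_smul_eq τ hτF, hdeg, hdeg, sub_self, zero_add]
  rw [map_nsmul] at h1
  have h2 := DFunLike.congr_fun h1 Q
  rw [Finsupp.smul_apply, nsmul_eq_mul, hNF w hw Dw hDw Q] at h2
  exact h2

/-- The supports of `π_* M'` and `D_y` are disjoint. -/
theorem pushforward_disjoint (hℓ : ℓ ≠ 0) (hv : v ^ ℓ = algebraMap F F' h)
    (hDy : ∀ Q : Place K F, (ℓ : ℤ) * Dy Q = Q.ord h)
    (hsupp : ∀ Q' ∈ M'.support, Q'.ord v = 0) (Q : Place K F)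
    (hQ : Divisor.pushforward F M' Q ≠ 0) : Dy Q = 0 := by
  obtain ⟨Q', hQ', rfl⟩ := exists_of_mem_support_pushforward (Finsupp.mem_support_iff.mpr hQ)
  have h1 := hsupp Q' hQ'
  rw [ord_root_eq_pullback hℓ hv hDy, Divisor.pullback_apply] at h1
  exact (mul_eq_zero.mp h1).resolve_left
    (by exact_mod_cast (Place.ramificationIndex_pos (F := F) Q').ne')

/-- The value `N(w)(D_y)` does not vanish. -/
theorem evalDiv_norm_ne_zero (hV : ValFacts val val') (hℓ : ℓ ≠ 0)
    (hτ : ∀ (Q' : Place K F') (f : F'), val' (τ • Q') (τ f) = val' Q' f)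
    (hh : h ≠ 0) (hv : v ^ ℓ = algebraMap F F' h) (hτv : τ v = algebraMap K F' ζ * v)
    (hDy : ∀ Q : Place K F, (ℓ : ℤ) * Dy Q = Q.ord h)
    (hdeg : ∀ Q' : Place K F', Q'.inertiaDeg F = 1)
    (hP' : P'.ord v = 0)
    (hw : w ≠ 0) (hDw : ∀ Q', Dw Q' = Q'.ord w)
    (hM' : ℓ • M' = Finsupp.single P' 1 - Finsupp.single (τ • P') 1 + Dw)
    (hsupp : ∀ Q' ∈ M'.support, Q'.ord v = 0) :
    evalDiv val (Algebra.norm F w) Dy ≠ 0 := by
  have hk := kummer_value hV hℓ hτ hh hv hτv hDy hdeg hP' hw hDw hM' hsupp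
  intro h0
  rw [h0, mul_zero] at hk
  have hne : ∀ Q ∈ (Divisor.pushforward F M').support, val Q h ≠ 0 := by
    intro Q hQ
    obtain ⟨Q', hQ', rfl⟩ := exists_of_mem_support_pushforward hQ
    refine hV.ne_zero _ h hh ?_
    have h1 : Q'.ord (algebraMap F F' h) = 0 := by
      rw [← hv, ord_pow', hsupp Q' hQ', mul_zero]
    rw [Place.ord_restrict] at h1
    exact (mul_eq_zero.mp h1).resolve_left
      (by exact_mod_cast (Place.ramificationIndex_pos (F := F) Q').ne')
  rw [evalDiv_eq_evU hne] at hk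
  exact Units.ne_zero _ hk

/-- **Kummer computation, packaged.**  From the data `(P', M', w)` on the cover one gets a
divisor `D_x` on `F` of degree `deg M'`, with `ℓ • D_x = div h_x`, supported off `D_y`, and
`h(D_x) = ζ * h_x(D_y)`, `h_x(D_y) ≠ 0`; so `h(D_x) ≠ h_x(D_y)` when `ζ ≠ 1`. -/
theorem kummer_pair [Module.Finite F F'] (hV : ValFacts val val') (hℓ : ℓ ≠ 0)
    (hNF : Divisor.PushforwardNormFormula K F F')
    (hτ : ∀ (Q' : Place K F') (f : F'), val' (τ • Q') (τ f) = val' Q' f)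
    (hτF : ∀ f : F, τ (algebraMap F F' f) = algebraMap F F' f)
    (hh : h ≠ 0) (hv : v ^ ℓ = algebraMap F F' h) (hτv : τ v = algebraMap K F' ζ * v)
    (hDy : ∀ Q : Place K F, (ℓ : ℤ) * Dy Q = Q.ord h)
    (hdeg : ∀ Q' : Place K F', Q'.inertiaDeg F = 1)
    (hP' : P'.ord v = 0)
    (hw : w ≠ 0) (hDw : ∀ Q', Dw Q' = Q'.ord w)
    (hM' : ℓ • M' = Finsupp.single P' 1 - Finsupp.single (τ • P') 1 + Dw)
    (hsupp : ∀ Q' ∈ M'.support, Q'.ord v = 0) :
    ∃ (Dx : Divisor K F) (hx : F), hx ≠ 0 ∧ Divisor.degree Dx = Divisor.degree M' ∧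
      (∀ Q : Place K F, (ℓ : ℤ) * Dx Q = Q.ord hx) ∧ (∀ Q : Place K F, Dx Q ≠ 0 → Dy Q = 0) ∧
      evalDiv val h Dx = ζ * evalDiv val hx Dy ∧ evalDiv val hx Dy ≠ 0 :=
  ⟨Divisor.pushforward F M', Algebra.norm F w, Algebra.norm_ne_zero_iff.mpr hw,
    Divisor.degree_pushforward M',
    pushforward_eq_ord_norm hNF hτF hdeg hw hDw hM',
    pushforward_disjoint hℓ hv hDy hsupp,
    kummer_value hV hℓ hτ hh hv hτv hDy hdeg hP' hw hDw hM' hsupp,
    evalDiv_norm_ne_zero hV hℓ hτ hh hv hτv hDy hdeg hP' hw hDw hM' hsupp⟩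

end Main

end Cover

end Fermat.Agent.T6.helper1
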