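/-
TIER 6 (S19 / S32), helper98, block **[W3a]**, part 4: the cyclic cover in the vocabulary of
[W0] (`helper26.pval`, `dval`, `Disj`) and the instances of the contracts of [W3c].

* `pval_algebraMap_restrict` : `f(P') = f(P' ∩ F)` for `f ∈ F` (any integral extension);
* `pval_galSmul`             : `(σ f')(σ P') = f'(P')`;
* `CycSetting.pval_norm`     : `N(f')(P) = ∏_{P' ∣ P} f'(P')`;
* `CycSetting.dval_norm`     : `N(f')(D) = f'(π^* D)`;
* `CycSetting.normVal`       : `helper17.NormVal K F F'`;
* `CycSetting.valFacts`      : `helper1.ValFacts pval pval` from `helper26.WeilRec K F'`;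
* `CycSetting.pval_root_galSmul` : `w(σ P') = ζ⁻¹ w(P')`.
-/
import Mathlib
import Fermat.Agent.T6.helper98_CycInst
import Fermat.Agent.T6.helper26_PVal
import Fermat.Agent.T6.helper1_W3cCore
import Fermat.Agent.T6.helper17_W3cVal

set_option autoImplicit false
set_option linter.unusedSectionVars false
set_option linter.unusedVariables false
set_option linter.style.longLine false
set_option linter.style.haveILetI false

noncomputable section

namespace Fermat.Agent.T6.helper98

open AlgebraicCurve Fermat.Agent.P2.helper74 Fermat.Agent.T6.helper26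

section Generic

variable {K F F' : Type*} [Field K] [Field F] [Field F'] [Algebra K F] [Algebra K F']
  [Algebra F F'] [IsScalarTower K F F']

theorem isValAt_iff_isVal {P : Place K F} {f : F} {c : K} : IsValAt P f c ↔ IsVal P f c :=
  Iff.rfl

/-- `f(P') = f(P' ∩ F)` for `f ∈ F` -/
theorem pval_algebraMap_restrict [Algebra.IsIntegral F F'] (Q : Place K F') (f : F) :
    pval Q (algebraMap F F' f) = pval (Q.restrict F) f := by
  by_cases h : ∃ a, IsVal (Q.restrict F) f a
  · obtain ⟨a, ha⟩ := h
    rw [pval_eq_of_isVal ha, pval_eq_of_isVal (isValAt_restrict_iff.mp ha)]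
  · rw [pval_of_not_exists h]
    apply pval_of_not_exists
    rintro ⟨a, ha⟩
    exact h ⟨a, isValAt_restrict_iff.mpr ha⟩

/-- `(σ f')(σ P') = f'(P')` -/
theorem pval_galSmul (σ : F' ≃ₐ[F] F') (Q : Place K F') (f' : F') :
    pval (galSmul σ Q) (σ f') = pval Q f' := by
  by_cases h : ∃ a, IsVal Q f' a
  · obtain ⟨a, ha⟩ := h
    rw [pval_eq_of_isVal ha, pval_eq_of_isVal (IsValAt.galSmul ha σ)]
  · rw [pval_of_not_exists h]
    apply pval_of_not_exists
    rintro ⟨a, ha⟩
    apply h
    have h1 := IsValAt.galSmul ha σ⁻¹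
    rw [← galSmul_mul, inv_mul_cancel, galSmul_one, AlgEquiv.aut_inv,
      AlgEquiv.symm_apply_apply] at h1
    exact ⟨a, h1⟩

end Generic

section Cyc

variable {K F F' : Type*} [Field K] [Field F] [Field F'] [Algebra K F] [Algebra K F']
  [Algebra F F'] [IsScalarTower K F F'] [FiniteDimensional F F'] [IsAlgClosed K] [CharZero K]
  {ℓ : ℕ} {h : F} {w : F'} {ζ : K} {σ : F' ≃ₐ[F] F'} (C : CycSetting K ℓ h w ζ σ)

include C

/-- **the value of a norm**, `pval` form -/
theorem CycSetting.pval_norm (P : Place K F) (f' : F')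
    (hreg : ∀ Q : Place K F', Q.restrict F = P → 0 ≤ Q.ord f') :
    haveI := C.setting'.principal
    pval P (Algebra.norm F f') = ∏ Q ∈ P.fiber F', pval Q f' :=
  pval_eq_of_isVal (C.isValAt_norm P f' (fun Q => pval Q f')
    (fun Q hQ => isVal_pval C.setting' (hreg Q hQ)))

/-- all inertia degrees are `1` -/
theorem CycSetting.inertiaDeg_eq_one (Q : Place K F') : Q.inertiaDeg F = 1 := by
  have h1 := Q.deg_restrict_mul_inertiaDeg (F := F)
  rw [C.setting.deg_one, C.setting'.deg_one, one_mul] at h1
  exact h1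

/-- **the value of a norm at a divisor**: `N(f')(D) = f'(π^* D)` -/
theorem CycSetting.dval_norm (f' : F') (D : Divisor K F)
    (hdisj : haveI := C.setting'.principal; Disj f' (Divisor.pullback F' D)) :
    haveI := C.setting'.principal
    dval (Algebra.norm F f') D = dval f' (Divisor.pullback F' D) := by
  classical
  haveI := C.setting'.principal
  have hf0 : f' ≠ 0 := hdisj.1
  have hfib : ∀ P ∈ D.support, ∀ Q ∈ P.fiber F', Q.ord f' = 0 := by
    intro P hP Q hQ
    apply hdisj.2
    rw [C.pullback_apply, Place.mem_fiber.mp hQ]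
    exact Finsupp.mem_support_iff.mp hP
  have hval' : ∀ Q ∈ (Divisor.pullback F' D).support, pval Q f' ≠ 0 := fun Q hQ =>
    pval_ne_zero C.setting' hf0 (hdisj.2 Q (Finsupp.mem_support_iff.mp hQ))
  have hN : ∀ P ∈ D.support, pval P (Algebra.norm F f') = ∏ Q ∈ P.fiber F', pval Q f' :=
    fun P hP => C.pval_norm P f' fun Q hQ => (hfib P hP Q (Place.mem_fiber.mpr hQ)).ge
  have hNne : ∀ P ∈ D.support, pval P (Algebra.norm F f') ≠ 0 := by
    intro P hP
    rw [hN P hP, Finset.prod_ne_zero_iff]
    exact fun Q hQ => pval_ne_zero C.setting' hf0 (hfib P hP Q hQ)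
  have e1 : dval (Algebra.norm F f') D
      = ((Fermat.Agent.T6.helper1.evU (Fermat.Agent.T6.helper1.uv pval (Algebra.norm F f')) D : Kˣ) : K) :=
    Fermat.Agent.T6.helper1.evalDiv_eq_evU hNne
  have e2 : dval f' (Divisor.pullback F' D)
      = ((Fermat.Agent.T6.helper1.evU (Fermat.Agent.T6.helper1.uv pval f')
          (Divisor.pullback F' D) : Kˣ) : K) :=
    Fermat.Agent.T6.helper1.evalDiv_eq_evU hval'
  rw [e1, e2, Fermat.Agent.T6.helper1.evU_pullback]
  congr 1
  refine Fermat.Agent.T6.helper1.evU_congr fun P hP => ?_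
  apply Units.ext
  rw [Fermat.Agent.T6.helper1.uv_coe (hNne P hP), hN P hP, Units.coe_prod]
  refine Finset.prod_congr rfl fun Q hQ => ?_
  rw [C.ramificationIndex_eq_one Q, pow_one,
    Fermat.Agent.T6.helper1.uv_coe (pval_ne_zero C.setting' hf0 (hfib P hP Q hQ))]

/-- the contract `NormVal` of helper17 -/
theorem CycSetting.normVal :
    haveI := C.setting'.principal
    Fermat.Agent.T6.helper17.NormVal K F F' :=
  fun f' D hD => C.dval_norm f' D hD

omit [IsAlgClosed K] [CharZero K] [FiniteDimensional F F'] in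
/-- `w(σ P') = ζ⁻¹ w(P')` -/
theorem CycSetting.pval_root_galSmul (P' : Place K F') (hP' : 0 ≤ P'.ord w) :
    pval (galSmul σ P') w = ζ⁻¹ * pval P' w :=
  pval_eq_of_isVal (C.isValAt_root_galSmul (isVal_pval C.setting' hP'))

/-- **the contract `ValFacts` of helper1** for the cyclic cover, from Weil reciprocity on `F'`. -/
theorem CycSetting.valFacts (hW : WeilRec K F') :
    haveI := C.setting'.principal
    Fermat.Agent.T6.helper1.ValFacts (pval : Place K F → F → K)
      (pval : Place K F' → F' → K) := by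
  haveI := C.setting'.principal
  refine
    { mul' := fun Q' f g _ _ hf hg => pval_mul C.setting' hf.ge hg.ge
      ne_zero' := fun Q' f hf h0 => pval_ne_zero C.setting' hf h0
      const' := fun Q' c => pval_algebraMap Q' c
      ne_zero := fun Q f hf h0 => pval_ne_zero C.setting hf h0
      res := fun Q' f _ _ => pval_algebraMap_restrict Q' f
      norm := ?_
      weil' := ?_ }
  · intro Q f' hf' hreg
    rw [C.pval_norm Q f' fun Q' hQ' => (hreg Q' (Place.mem_fiber.mpr hQ')).ge]
    refine Finset.prod_congr rfl fun Q' _ => ?_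
    rw [C.ramificationIndex_eq_one Q', pow_one]
  · intro f g Df Dg hf hg hDf hDg hdisj
    have e1 : divOf K f = Df := divOf_eq_of_forall hDf
    have e2 : divOf K g = Dg := divOf_eq_of_forall hDg
    have h1 := hW f g hf hg (fun P => by
      by_cases hP : P.ord f = 0
      · exact Or.inl hP
      · right
        rw [← hDg]
        exact hdisj P (by rwa [hDf]))
    rw [e1, e2] at h1
    exact h1

end Cyc

end Fermat.Agent.T6.helper98

end
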