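/-
T6 [W1-WR] (helper26): TRANSFER OF WEIL RECIPROCITY along a finite extension `F'/F`
(the assembly step of block [W1]).

For a finite extension `F'/F` of function fields over an algebraically closed field `K`
(both `RiemannSetting`s), `f ∈ F'` and `g ∈ F`:

* `dval_pullback`       : `f(π^* D) = (N f)(D)`              (projection formula, from [NV]);
* `dval_pushforward`    : `(π^* u)(E) = u(π_* E)`;
* `divOf_algebraMap_eq` : `div (π^* g) = π^* div g`;
* `divOf_norm_eq`       : `div (N f) = π_* div f`;
* `weilRec_transfer`    : if Weil reciprocity holds in `F` for the pairs `(u, g)`, then it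
                          holds in `F'` for the pairs `(f, π^* g)`;
* `weilRec_of_adjoin`   : `WeilRec K F'` from the case `F = K(g)`, second function `g`
                          (= block [P1]), for every non-constant `g`.
-/
import Mathlib
import Fermat.Agent.T6.helper26_PVal
import Fermat.Agent.T6.helper48_NormVal
import Fermat.Agent.T6.helper98_CycPVal

set_option autoImplicit false
set_option linter.unusedSectionVars false

noncomputable section

open AlgebraicCurve

namespace Fermat.Agent.T6.helper26

open Fermat.Agent.P2.helper74

/-! ### Products over a larger index set -/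

section Support

variable {K F : Type*} [Field K] [Field F] [Algebra K F]

theorem dval_eq_prod_of_subset (f : F) (D : Divisor K F) {s : Finset (Place K F)}
    (hs : D.support ⊆ s) : dval f D = ∏ P ∈ s, pval P f ^ D P := by
  rw [dval_eq_prod]
  refine Finset.prod_subset hs fun P _ hP => ?_
  rw [Finsupp.notMem_support_iff.mp hP, zpow_zero]

end Support

section Transfer

variable {K F F' : Type*} [Field K] [Field F] [Field F'] [Algebra K F] [Algebra K F']
  [Algebra F F'] [IsScalarTower K F F'] [FiniteDimensional F F'] [CharZero F] [IsAlgClosed K]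
  [HasPrincipalDivisors K F']

variable (hS : RiemannSetting K F) (hS' : RiemannSetting K F')

include hS hS'

/-- the order of a norm vanishes if the function is a unit at all places above -/
theorem ord_norm_eq_zero (v : Place K F) {f : F'} (hf : f ≠ 0)
    (h0 : ∀ w : Place K F', w.restrict F = v → w.ord f = 0) :
    v.ord (Algebra.norm F f) = 0 := by
  rw [← Fermat.Agent.P3.helper58.sum_fiber_ord_eq F' v
    (Fermat.Agent.T6.helper98.residue_surjective hS v) hf]
  exact Finset.sum_eq_zero fun w hw => h0 w (Place.mem_fiber.mp hw)

/-- **projection formula** `f(π^* D) = (N f)(D)` -/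
theorem dval_pullback (f : F') (hf : f ≠ 0) (D : Divisor K F)
    (h0 : ∀ w : Place K F', D (w.restrict F) ≠ 0 → w.ord f = 0) :
    dval f (Divisor.pullback F' D) = dval (Algebra.norm F f) D := by
  classical
  have hN0 : Algebra.norm F f ≠ 0 := Algebra.norm_ne_zero_iff.mpr hf
  induction D using Finsupp.induction with
  | zero => simp
  | single_add v n D hv hn ih =>
    have hDv : D v = 0 := Finsupp.notMem_support_iff.mp hv
    -- units above `v`
    have hv0 : ∀ w : Place K F', w.restrict F = v → w.ord f = 0 := fun w hw => by
      refine h0 w ?_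
      rw [hw, Finsupp.add_apply, Finsupp.single_eq_same, hDv, add_zero]
      exact hn
    -- units above the support of `D`
    have hD0 : ∀ w : Place K F', D (w.restrict F) ≠ 0 → w.ord f = 0 := fun w hw => by
      refine h0 w ?_
      have hne : w.restrict F ≠ v := fun e => hw (e ▸ hDv)
      rw [Finsupp.add_apply, Finsupp.single_eq_of_ne hne, zero_add]
      exact hw
    have d1 : Disj f (Divisor.pullback F' (Finsupp.single v n)) := by
      refine ⟨hf, fun w hw => ?_⟩
      rw [Divisor.pullback_apply] at hw
      refine hv0 w ?_
      by_contra hne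
      exact hw (by rw [Finsupp.single_eq_of_ne hne, mul_zero])
    have d2 : Disj f (Divisor.pullback F' D) := by
      refine ⟨hf, fun w hw => ?_⟩
      rw [Divisor.pullback_apply] at hw
      exact hD0 w fun e => hw (by rw [e, mul_zero])
    have d3 : Disj (Algebra.norm F f) (Finsupp.single v n) :=
      Disj.single hN0 (ord_norm_eq_zero hS hS' v hf hv0) n
    have d4 : Disj (Algebra.norm F f) D := by
      refine ⟨hN0, fun v' hv' => ?_⟩
      exact ord_norm_eq_zero hS hS' v' hf fun w hw => hD0 w (by rw [hw]; exact hv')
    rw [map_add, dval_add hS' d1 d2, dval_add hS d3 d4, ih hD0]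
    congr 1
    -- the single place `v`
    have hsub : (Divisor.pullback F' (Finsupp.single v n)).support ⊆ v.fiber F' := by
      intro w hw
      have := Divisor.restrict_mem_support_of_mem_support_pullback hw
      rw [Finsupp.support_single_ne_zero _ hn, Finset.mem_singleton] at this
      exact Place.mem_fiber.mpr this
    rw [dval_eq_prod_of_subset f _ hsub, dval_single,
      Fermat.Agent.T6.helper48.normVal F' v hS hS' f hf
        (fun w hw => hv0 w (Place.mem_fiber.mp hw)), ← Finset.prod_zpow]
    refine Finset.prod_congr rfl fun w hw => ?_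
    rw [Divisor.pullback_apply, Place.mem_fiber.mp hw, Finsupp.single_eq_same, ← zpow_natCast,
      ← zpow_mul]

omit [CharZero F] [IsAlgClosed K] [HasPrincipalDivisors K F'] in
/-- the values of a function of `F` at the places of `F'` -/
theorem dval_algebraMap_single (u : F) (w : Place K F') (n : ℤ) :
    dval (algebraMap F F' u) (Finsupp.single w n) = pval (w.restrict F) u ^ n := by
  rw [dval_single, Fermat.Agent.T6.helper98.pval_algebraMap_restrict]

/-- **projection formula** `(π^* u)(E) = u(π_* E)` -/
theorem dval_pushforward (u : F) (hu : u ≠ 0) (E : Divisor K F')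
    (h0 : ∀ w : Place K F', E w ≠ 0 → (w.restrict F).ord u = 0) :
    dval (algebraMap F F' u) E = dval u (Divisor.pushforward F E) := by
  classical
  have hu' : algebraMap F F' u ≠ 0 := fun e => hu ((map_eq_zero _).mp e)
  have hin : ∀ w : Place K F', w.inertiaDeg F = 1 :=
    Fermat.Agent.P3.helper58.inertiaDeg_eq_one hS.deg_one hS'.deg_one
  have hunit : ∀ w : Place K F', (w.restrict F).ord u = 0 → w.ord (algebraMap F F' u) = 0 :=
    fun w hw => by rw [Place.ord_restrict, hw, mul_zero]
  induction E using Finsupp.induction with
  | zero => simp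
  | single_add w n E hw hn ih =>
    have hEw : E w = 0 := Finsupp.notMem_support_iff.mp hw
    have hw0 : (w.restrict F).ord u = 0 := by
      refine h0 w ?_
      rw [Finsupp.add_apply, Finsupp.single_eq_same, hEw, add_zero]
      exact hn
    have hE0 : ∀ w' : Place K F', E w' ≠ 0 → (w'.restrict F).ord u = 0 := fun w' hw' => by
      refine h0 w' ?_
      have hne : w' ≠ w := fun e => hw' (e ▸ hEw)
      rw [Finsupp.add_apply, Finsupp.single_eq_of_ne hne, zero_add]
      exact hw'
    have d1 : Disj (algebraMap F F' u) (Finsupp.single w n) := Disj.single hu' (hunit w hw0) n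
    have d2 : Disj (algebraMap F F' u) E := ⟨hu', fun w' hw' => hunit w' (hE0 w' hw')⟩
    have d3 : Disj u (Divisor.pushforward F (Finsupp.single w n)) := by
      rw [Divisor.pushforward_single]
      exact Disj.single hu hw0 _
    have d4 : Disj u (Divisor.pushforward F E) := by
      refine ⟨hu, fun v hv => ?_⟩
      obtain ⟨w', hw', rfl⟩ := Fermat.Agent.T6.helper1.exists_of_mem_support_pushforward
        (Finsupp.mem_support_iff.mpr hv)
      exact hE0 w' (Finsupp.mem_support_iff.mp hw')
    rw [dval_add hS' d1 d2, map_add, dval_add hS d3 d4, ih hE0, dval_single,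
      Fermat.Agent.T6.helper98.pval_algebraMap_restrict, Divisor.pushforward_single,
      dval_single, hin w, Nat.cast_one, mul_one]

omit [CharZero F] [IsAlgClosed K] in
/-- `div (π^* g) = π^* div g` -/
theorem divOf_algebraMap_eq (g : F) :
    divOf K (algebraMap F F' g) = Divisor.pullback F' (divOf K g) :=
  divOf_eq_of_forall fun w =>
    Divisor.pullback_apply_eq_ord (fun v => divOf_apply hS g v) w

/-- `div (N f) = π_* div f` -/
theorem divOf_norm_eq (f : F') (hf : f ≠ 0) :
    divOf K (Algebra.norm F f) = Divisor.pushforward F (divOf K f) := by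
  have H : Divisor.PushforwardNormFormula K F F' :=
    Fermat.Agent.P3.helper58.pushforwardNormFormula_of_surjective
      (fun v => Fermat.Agent.T6.helper98.residue_surjective hS v) hS'.deg_one
  exact divOf_eq_of_forall fun v => H f hf (divOf K f) (fun w => divOf_apply hS' f w) v

/-- **TRANSFER of Weil reciprocity**: reciprocity for `(N f, g)` in `F` gives reciprocity for
`(f, g)` in `F'`. -/
theorem weilRec_transfer (g : F)
    (hP1 : ∀ u : F, u ≠ 0 → (∀ Q : Place K F, Q.ord u = 0 ∨ Q.ord g = 0) →
      dval u (divOf K g) = dval g (divOf K u))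
    (f : F') (hf : f ≠ 0) (hg : g ≠ 0)
    (hdisj : ∀ P : Place K F', P.ord f = 0 ∨ P.ord (algebraMap F F' g) = 0) :
    dval f (divOf K (algebraMap F F' g)) = dval (algebraMap F F' g) (divOf K f) := by
  have hpos : ∀ w : Place K F', (0 : ℤ) < (w.ramificationIndex F : ℤ) := fun w => by
    exact_mod_cast w.ramificationIndex_pos
  -- above a zero or pole of `g` the function `f` is a unit
  have h1 : ∀ w : Place K F', (divOf K g) (w.restrict F) ≠ 0 → w.ord f = 0 := fun w hw => by
    refine (hdisj w).resolve_right ?_
    rw [Place.ord_restrict, ← divOf_apply hS g]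
    exact mul_ne_zero (hpos w).ne' hw
  -- at a zero or pole of `f` the function `g` is a unit
  have h2 : ∀ w : Place K F', (divOf K f) w ≠ 0 → (w.restrict F).ord g = 0 := fun w hw => by
    rw [divOf_apply hS' f] at hw
    have := (hdisj w).resolve_left hw
    rw [Place.ord_restrict] at this
    exact (mul_eq_zero.mp this).resolve_left (hpos w).ne'
  have h3 : ∀ Q : Place K F, Q.ord (Algebra.norm F f) = 0 ∨ Q.ord g = 0 := fun Q => by
    by_cases hQ : Q.ord g = 0
    · exact Or.inr hQ
    · left
      refine ord_norm_eq_zero hS hS' Q hf fun w hw => h1 w ?_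
      rw [hw, divOf_apply hS g]
      exact hQ
  rw [divOf_algebraMap_eq hS hS' g, dval_pullback hS hS' f hf _ h1,
    hP1 _ (Algebra.norm_ne_zero_iff.mpr hf) h3, divOf_norm_eq hS hS' f hf,
    dval_pushforward hS hS' g hg _ h2]

end Transfer


/-! ### Weil reciprocity from the rational case -/

section Adjoin

open IntermediateField

variable {K F' : Type*} [Field K] [Field F'] [Algebra K F']

/-- **the contract of [P1]** for a field `E` and `g ∈ E` (to be used with `E = K(g)`):
Weil reciprocity in `E` for the pairs `(u, g)`. -/
def P1At (K : Type*) {E : Type*} [Field K] [Field E] [Algebra K E] (g : E) : Prop :=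
  ∀ u : E, u ≠ 0 → (∀ Q : Place K E, Q.ord u = 0 ∨ Q.ord g = 0) →
    dval u (divOf K g) = dval g (divOf K u)

/-- Weil reciprocity for a constant second function -/
theorem weilRec_const (hS' : RiemannSetting K F') (f : F') {c : K} (hc : c ≠ 0) :
    dval f (divOf K (algebraMap K F' c)) = dval (algebraMap K F' c) (divOf K f) := by
  rw [divOf_algebraMap, dval_zero_right, dval_algebraMap hS' hc, degree_divOf hS', zpow_zero]

/-- **[W1] from [P1]**: `WeilRec K F'` if for every non-constant `g` the field `F'` is finite
over `K(g)`, `K(g)` is a `RiemannSetting`, and reciprocity holds in `K(g)` for the pairs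
`(u, g)`. -/
theorem weilRec_of_adjoin [IsAlgClosed K] [CharZero K] (hS' : RiemannSetting K F')
    (hP1 : ∀ g : F', g ∉ Set.range (algebraMap K F') →
      FiniteDimensional K⟮g⟯ F' ∧ RiemannSetting K K⟮g⟯ ∧ P1At K (AdjoinSimple.gen K g)) :
    WeilRec K F' := by
  intro f g hf hg hdisj
  by_cases hgc : g ∈ Set.range (algebraMap K F')
  · obtain ⟨c, rfl⟩ := hgc
    exact weilRec_const hS' f (fun e => hg (by rw [e, map_zero]))
  · obtain ⟨hfin, hS, hP⟩ := hP1 g hgc
    have := hfin
    have : HasPrincipalDivisors K F' := hS'.principal
    have : CharZero K⟮g⟯ := charZero_of_injective_algebraMap (algebraMap K K⟮g⟯).injective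
    have hgen : algebraMap K⟮g⟯ F' (AdjoinSimple.gen K g) = g := AdjoinSimple.algebraMap_gen K g
    have hgen0 : AdjoinSimple.gen K g ≠ 0 := fun e => hg (by rw [← hgen, e, map_zero])
    have := weilRec_transfer hS hS' (AdjoinSimple.gen K g) hP f hf hgen0
      (by rw [hgen]; exact hdisj)
    rwa [hgen] at this

end Adjoin

end Fermat.Agent.T6.helper26

end
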