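/-
T6 [W1-P1] (helper87, second prover): **Weil reciprocity on the projective line**.

`E = K(g)` a rational function field over an algebraically closed field `K` (`g` transcendental,
`K⟮g⟯ = ⊤`), in the vocabulary of the Prelude (`Place K E`) and of `helper26_PVal`
(`pval`, `dval`, `divOf`).

* `ord_aeval_of_pos`  : `ord_v p(x) = mult_c(p) · ord_v (x - c)` if `0 < ord_v (x - c)`;
* `ord_aeval_of_neg`  : `ord_v p(x) = deg p · ord_v x` if `ord_v x < 0`;
* `IsGen.exists_zero`, `IsGen.exists_pole` : a generator has exactly one zero and one pole,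
                        both simple (from the count `sum of zero orders = [E : K(y)]`);
* `zeroPl`, `polePl`, `divOf_sub` : `div (g - c) = v_c - v_oo`;
* `riemannSetting_rat` : `RiemannSetting K E`;
* `IsS.all`           : every `h ≠ 0` is `a * g ^ k * (g - 1) ^ m * w` with `w` in the class `IsW`;
* `weilRec_rat`       : `dval h (divOf K g) = dval g (divOf K h)` for `h` without zeros and poles
                        at the zero and the pole of `g`.
-/
import Mathlib
import Fermat.Agent.T6.helper26_PVal
import Fermat.Agent.P2.helper74_RiemannSep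

set_option autoImplicit false
set_option linter.unusedSectionVars false
set_option linter.unusedVariables false
set_option linter.style.haveILetI false
set_option linter.style.longLine false

noncomputable section

open AlgebraicCurve Polynomial IntermediateField
open Fermat.Agent.T6.helper26
open Fermat.Agent.P2.helper74 (RiemannSetting)
open Fermat.Agent.P2.helper95 (place_ord_nonneg_of_mem place_mem_of_ord_nonneg
  place_mem_iff_ord_nonneg place_ord_algebraMap place_ord_add_ge)

namespace Fermat.Agent.T6.helper87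

variable {K E : Type*} [Field K] [Field E] [Algebra K E]

/-! ### Orders of polynomial expressions -/

section Ord

variable (v : Place K E)

/-- the valuation ring of a place as a `K`-subalgebra -/
def placeSubalgebra : Subalgebra K E :=
  { v.toValuationSubring.toSubring with
    algebraMap_mem' := fun a => v.algebraMap_mem' a }

theorem mem_placeSubalgebra (f : E) : f ∈ placeSubalgebra v ↔ 0 ≤ v.ord f :=
  place_mem_iff_ord_nonneg v

theorem ord_aeval_nonneg {x : E} (hx : 0 ≤ v.ord x) (p : K[X]) : 0 ≤ v.ord (aeval x p) := by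
  rw [← mem_placeSubalgebra]
  have h1 : Algebra.adjoin K {x} ≤ placeSubalgebra v := by
    rw [Algebra.adjoin_le_iff]
    rintro y (rfl : y = x)
    exact (mem_placeSubalgebra v y).mpr hx
  exact h1 (Polynomial.aeval_mem_adjoin_singleton K x)

/-- a constant plus something of positive order has order zero -/
theorem ord_const_add {a : K} (ha : a ≠ 0) {y : E} (hy : y = 0 ∨ 0 < v.ord y) :
    v.ord (algebraMap K E a + y) = 0 := by
  rcases hy with rfl | hy
  · rw [add_zero]
    exact place_ord_algebraMap v a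
  have ha' : algebraMap K E a ≠ 0 := by
    rw [Ne, map_eq_zero]
    exact ha
  have hsum : algebraMap K E a + y ≠ 0 := by
    intro h0
    have : y = algebraMap K E (-a) := by
      rw [map_neg]
      exact (neg_eq_of_add_eq_zero_right h0).symm ▸ rfl
    rw [this, place_ord_algebraMap] at hy
    exact lt_irrefl _ hy
  have h1 := place_ord_add_ge v hsum
  rw [place_ord_algebraMap] at h1
  have h2 : 0 ≤ v.ord (algebraMap K E a + y) := le_trans (le_min le_rfl hy.le) h1
  -- the other inequality
  have h3 : (algebraMap K E a + y) + (-y) ≠ 0 := by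
    rw [add_neg_cancel_right]
    exact ha'
  have h4 := place_ord_add_ge v h3
  rw [add_neg_cancel_right, place_ord_algebraMap, ord_neg_eq] at h4
  rcases min_le_iff.mp h4 with h5 | h5
  · exact le_antisymm h5 h2
  · exact absurd hy (not_lt.mpr h5)

theorem ord_nonneg_of_sub {x : E} {c : K} (h : 0 < v.ord (x - algebraMap K E c)) :
    0 ≤ v.ord x := by
  have e : x = algebraMap K E c + (x - algebraMap K E c) := by ring
  rw [e]
  exact ord_add_nonneg v (le_of_eq (place_ord_algebraMap v c).symm) h.le

/-- **orders at a finite place** -/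
theorem ord_aeval_of_pos {x : E} {c : K} (h : 0 < v.ord (x - algebraMap K E c)) (p : K[X])
    (hp : aeval x p ≠ 0) :
    v.ord (aeval x p) = (p.rootMultiplicity c : ℤ) * v.ord (x - algebraMap K E c) := by
  have hp0 : p ≠ 0 := by
    rintro rfl
    exact hp (map_zero _)
  obtain ⟨q, hq, hnd⟩ := exists_eq_pow_rootMultiplicity_mul_and_not_dvd p hp0 c
  have hqc : q.eval c ≠ 0 := fun h0 => hnd (dvd_iff_isRoot.mpr h0)
  obtain ⟨r, hr⟩ := X_sub_C_dvd_sub_C_eval (a := c) (p := q)
  have hq' : aeval x q = algebraMap K E (q.eval c) + (x - algebraMap K E c) * aeval x r := by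
    have := congrArg (aeval x) hr
    rw [map_sub, map_mul, map_sub, aeval_X, aeval_C, aeval_C] at this
    rw [← this]
    ring
  have hx0 : x - algebraMap K E c ≠ 0 := by
    intro h0
    rw [h0, Place.ord_zero] at h
    exact lt_irrefl _ h
  have hq0 : v.ord (aeval x q) = 0 := by
    rw [hq']
    apply ord_const_add v hqc
    rcases eq_or_ne (aeval x r) 0 with h0 | h0
    · left
      rw [h0, mul_zero]
    · right
      rw [v.ord_mul hx0 h0]
      have := ord_aeval_nonneg v (ord_nonneg_of_sub v h) r
      omega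
  have hpe : aeval x p = (x - algebraMap K E c) ^ p.rootMultiplicity c * aeval x q := by
    conv_lhs => rw [hq]
    rw [map_mul, map_pow, map_sub, aeval_X, aeval_C]
  have hqne : aeval x q ≠ 0 := by
    intro h0
    rw [hpe, h0, mul_zero] at hp
    exact hp rfl
  rw [hpe, v.ord_mul (pow_ne_zero _ hx0) hqne, hq0, add_zero, ← zpow_natCast, v.ord_zpow]

/-- **orders at the infinite place** -/
theorem ord_aeval_of_neg {x : E} (h : v.ord x < 0) (p : K[X]) (hp : aeval x p ≠ 0) :
    v.ord (aeval x p) = (p.natDegree : ℤ) * v.ord x := by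
  have hp0 : p ≠ 0 := by
    rintro rfl
    exact hp (map_zero _)
  have hx0 : x ≠ 0 := by
    rintro rfl
    rw [Place.ord_zero] at h
    exact lt_irrefl _ h
  letI : Invertible x := invertibleOfNonzero hx0
  have e := eval₂_reverse_mul_pow (algebraMap K E) x p
  rw [invOf_eq_inv] at e
  have hinv : 0 < v.ord (x⁻¹ - algebraMap K E 0) := by
    rw [map_zero, sub_zero, v.ord_inv]
    omega
  have hrev0 : (reverse p).eval 0 ≠ 0 := by
    rw [← coeff_zero_eq_eval_zero, coeff_zero_reverse]
    exact leadingCoeff_ne_zero.mpr hp0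
  have hrevne : aeval x⁻¹ (reverse p) ≠ 0 := by
    intro h0
    have e' : aeval x p = aeval x⁻¹ (reverse p) * x ^ p.natDegree := e.symm
    rw [e', h0, zero_mul] at hp
    exact hp rfl
  have hrev : v.ord (aeval x⁻¹ (reverse p)) = 0 := by
    rw [ord_aeval_of_pos v hinv _ hrevne]
    have : (reverse p).rootMultiplicity 0 = 0 := by
      rw [rootMultiplicity_eq_zero_iff]
      intro h0
      exact absurd h0 hrev0
    rw [this]
    simp
  have e' : aeval x p = aeval x⁻¹ (reverse p) * x ^ p.natDegree := e.symm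
  rw [e', v.ord_mul hrevne (pow_ne_zero _ hx0), hrev, zero_add, ← zpow_natCast, v.ord_zpow]

theorem sub_ne_zero_of_ord_neg {x : E} (h : v.ord x < 0) (c : K) : x - algebraMap K E c ≠ 0 := by
  intro h0
  rw [sub_eq_zero] at h0
  rw [h0, place_ord_algebraMap] at h
  exact lt_irrefl _ h

end Ord

/-! ### Generators of a rational function field -/

section Gen

variable [IsAlgClosed K]

/-- `y` is transcendental over `K` and generates `E` -/
structure IsGen (K : Type*) {E : Type*} [Field K] [Field E] [Algebra K E] (y : E) : Prop where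
  tr : Transcendental K y
  top : K⟮y⟯ = ⊤

namespace IsGen

variable {y : E}

omit [IsAlgClosed K] in
theorem ne_zero (hy : IsGen K y) : y ≠ 0 := by
  rintro rfl
  exact hy.tr (isAlgebraic_zero)

omit [IsAlgClosed K] in
theorem sub_const (hy : IsGen K y) (c : K) : IsGen K (y - algebraMap K E c) :=
  ⟨Fermat.Agent.S24.helper55.transcendental_sub_algebraMap hy.tr c,
    (Fermat.Agent.S24.helper55.adjoin_sub_algebraMap_eq y c).trans hy.top⟩

omit [IsAlgClosed K] in
theorem inv (hy : IsGen K y) : IsGen K y⁻¹ :=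
  ⟨Fermat.Agent.S24.helper55.transcendental_inv hy.tr,
    (Fermat.Agent.S24.helper55.adjoin_inv_eq y).trans hy.top⟩

omit [IsAlgClosed K] in
theorem sub_ne_zero (hy : IsGen K y) (c : K) : y - algebraMap K E c ≠ 0 :=
  (hy.sub_const c).ne_zero

omit [IsAlgClosed K] in
theorem mem_adjoin (hy : IsGen K y) (x : E) : x ∈ K⟮y⟯ := by
  rw [hy.top]
  exact IntermediateField.mem_top

omit [IsAlgClosed K] in
theorem finrank_eq_one (hy : IsGen K y) : Module.finrank K⟮y⟯ E = 1 := by
  have h1 : Module.finrank K⟮y⟯ E = Module.finrank (⊤ : IntermediateField K E) E := by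
    rw [hy.top]
  rw [h1]
  exact IntermediateField.finrank_top

omit [IsAlgClosed K] in
theorem finiteDimensional (hy : IsGen K y) : FiniteDimensional K⟮y⟯ E :=
  Module.finite_of_finrank_pos (by rw [hy.finrank_eq_one]; exact one_pos)

omit [IsAlgClosed K] in
theorem isSeparable (hy : IsGen K y) : Algebra.IsSeparable K⟮y⟯ E :=
  ⟨fun x => isSeparable_algebraMap (F := K⟮y⟯) (K := E) ⟨x, hy.mem_adjoin x⟩⟩

/-- a generator has exactly one zero, and it is simple -/
theorem exists_zero (hy : IsGen K y) :
    ∃ P : Place K E, P.ord y = 1 ∧ ∀ Q : Place K E, 0 < Q.ord y → Q = P := by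
  haveI := hy.finiteDimensional
  haveI := hy.isSeparable
  have hfin := Fermat.Agent.P2.helper95.ffl_finite_zeros y hy.tr
  have hsum := Fermat.Agent.P2.helper95.ffl_sum_ord_zeros y hy.tr
  rw [hy.finrank_eq_one] at hsum
  have hmem : ∀ w, w ∈ hfin.toFinset ↔ 0 < w.ord y := fun w => by
    rw [Set.Finite.mem_toFinset]
    rfl
  have hge : ∀ w ∈ hfin.toFinset, (1 : ℤ) ≤ w.ord y := fun w hw => (hmem w).mp hw
  have hcard : (hfin.toFinset.card : ℤ) ≤ 1 := by
    have := Finset.card_nsmul_le_sum hfin.toFinset (fun w => w.ord y) 1 hge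
    rw [hsum] at this
    simpa using this
  have hne : hfin.toFinset.Nonempty := by
    rw [Finset.nonempty_iff_ne_empty]
    intro h
    rw [h, Finset.sum_empty] at hsum
    simp at hsum
  obtain ⟨P, hP⟩ := hne
  have h1 : hfin.toFinset.card = 1 := by
    have := Finset.card_pos.mpr ⟨P, hP⟩
    omega
  obtain ⟨Q, hQ⟩ := Finset.card_eq_one.mp h1
  have hPQ : P = Q := by
    rw [hQ] at hP
    exact Finset.mem_singleton.mp hP
  subst hPQ
  refine ⟨P, ?_, fun Q' hQ' => ?_⟩
  · rw [hQ, Finset.sum_singleton] at hsum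
    exact_mod_cast hsum
  · have := (hmem Q').mpr hQ'
    rw [hQ] at this
    exact Finset.mem_singleton.mp this

/-- a generator has exactly one pole, and it is simple -/
theorem exists_pole (hy : IsGen K y) :
    ∃ P : Place K E, P.ord y = -1 ∧ ∀ Q : Place K E, Q.ord y < 0 → Q = P := by
  obtain ⟨P, hP, hu⟩ := hy.inv.exists_zero
  refine ⟨P, ?_, fun Q hQ => hu Q ?_⟩
  · rw [Place.ord_inv] at hP
    omega
  · rw [Place.ord_inv]
    omega

end IsGen

variable {g : E}

/-- the zero of `g - c` -/
def zeroPl (hg : IsGen K g) (c : K) : Place K E := (hg.sub_const c).exists_zero.choose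

/-- the pole of `g` -/
def polePl (hg : IsGen K g) : Place K E := hg.exists_pole.choose

theorem ord_zeroPl (hg : IsGen K g) (c : K) : (zeroPl hg c).ord (g - algebraMap K E c) = 1 :=
  (hg.sub_const c).exists_zero.choose_spec.1

theorem eq_zeroPl (hg : IsGen K g) {c : K} {Q : Place K E}
    (h : 0 < Q.ord (g - algebraMap K E c)) : Q = zeroPl hg c :=
  (hg.sub_const c).exists_zero.choose_spec.2 Q h

theorem ord_polePl (hg : IsGen K g) : (polePl hg).ord g = -1 :=
  hg.exists_pole.choose_spec.1

theorem eq_polePl (hg : IsGen K g) {Q : Place K E} (h : Q.ord g < 0) : Q = polePl hg :=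
  hg.exists_pole.choose_spec.2 Q h

omit [IsAlgClosed K] in
/-- at a pole of `g` the order of `g - c` is the order of `g` -/
theorem ord_sub_of_neg (v : Place K E) {x : E} (h : v.ord x < 0) (c : K) :
    v.ord (x - algebraMap K E c) = v.ord x := by
  have hx0 : x ≠ 0 := by
    rintro rfl
    rw [Place.ord_zero] at h
    exact lt_irrefl _ h
  have e : x - algebraMap K E c = x * (algebraMap K E 1 + -(algebraMap K E c * x⁻¹)) := by
    rw [map_one]
    field_simp
    ring
  have h1 : v.ord (algebraMap K E 1 + -(algebraMap K E c * x⁻¹)) = 0 := by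
    apply ord_const_add v one_ne_zero
    rcases eq_or_ne c 0 with rfl | hc
    · left
      rw [map_zero, zero_mul, neg_zero]
    · right
      have hc' : algebraMap K E c ≠ 0 := by
        rw [Ne, map_eq_zero]
        exact hc
      rw [ord_neg_eq, v.ord_mul hc' (inv_ne_zero hx0), place_ord_algebraMap, v.ord_inv]
      omega
  have hne : algebraMap K E 1 + -(algebraMap K E c * x⁻¹) ≠ 0 := by
    intro h0
    have hx := sub_ne_zero_of_ord_neg v h c
    rw [e, h0, mul_zero] at hx
    exact hx rfl
  rw [e, v.ord_mul hx0 hne, h1, add_zero]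

theorem ord_polePl_sub (hg : IsGen K g) (c : K) : (polePl hg).ord (g - algebraMap K E c) = -1 := by
  rw [ord_sub_of_neg _ (by rw [ord_polePl]; omega) c, ord_polePl]

theorem zeroPl_ne_polePl (hg : IsGen K g) (c : K) : zeroPl hg c ≠ polePl hg := by
  intro h
  have h1 := ord_zeroPl hg c
  rw [h, ord_polePl_sub] at h1
  omega

omit [IsAlgClosed K] in
theorem ord_nonneg_of_sub_nonneg (v : Place K E) {x : E} {c : K}
    (h : 0 ≤ v.ord (x - algebraMap K E c)) : 0 ≤ v.ord x := by
  have e : x = algebraMap K E c + (x - algebraMap K E c) := by ring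
  rw [e]
  exact ord_add_nonneg v (le_of_eq (place_ord_algebraMap v c).symm) h

/-- the order of `g - c` at the other places -/
theorem ord_sub_eq_zero (hg : IsGen K g) (c : K) {Q : Place K E} (h1 : Q ≠ zeroPl hg c)
    (h2 : Q ≠ polePl hg) : Q.ord (g - algebraMap K E c) = 0 := by
  rcases lt_trichotomy (Q.ord (g - algebraMap K E c)) 0 with h | h | h
  · exfalso
    apply h2
    apply eq_polePl hg
    by_contra h0
    rw [not_lt] at h0
    have e : g - algebraMap K E c = g + algebraMap K E (-c) := by
      rw [map_neg, sub_eq_add_neg]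
    have := ord_add_nonneg Q h0 (le_of_eq (place_ord_algebraMap Q (-c)).symm)
    rw [← e] at this
    omega
  · exact h
  · exact absurd (eq_zeroPl hg h) h1

/-- the places `v_c` are distinct -/
theorem ord_zeroPl_sub_of_ne (hg : IsGen K g) {c a : K} (h : a ≠ c) :
    (zeroPl hg c).ord (g - algebraMap K E a) = 0 := by
  have e : g - algebraMap K E a = algebraMap K E (c - a) + (g - algebraMap K E c) := by
    rw [map_sub]
    ring
  rw [e]
  apply ord_const_add _ (sub_ne_zero.mpr h.symm)
  right
  rw [ord_zeroPl]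
  exact one_pos

theorem ord_zeroPl_self (hg : IsGen K g) {c : K} (h : c ≠ 0) : (zeroPl hg c).ord g = 0 := by
  have := ord_zeroPl_sub_of_ne hg (c := c) (a := 0) h.symm
  rwa [map_zero, sub_zero] at this

theorem ord_zeroPl_zero (hg : IsGen K g) : (zeroPl hg 0).ord g = 1 := by
  have := ord_zeroPl hg 0
  rwa [map_zero, sub_zero] at this

theorem isVal_zeroPl (hg : IsGen K g) (c : K) : IsVal (zeroPl hg c) g c :=
  Or.inr (by rw [ord_zeroPl]; exact one_pos)

theorem pval_zeroPl (hg : IsGen K g) (c : K) : pval (zeroPl hg c) g = c :=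
  pval_eq_of_isVal (isVal_zeroPl hg c)

/-- **`div (g - c) = v_c - v_∞`** -/
theorem divOf_sub (hg : IsGen K g) (c : K) :
    divOf K (g - algebraMap K E c)
      = Finsupp.single (zeroPl hg c) (1 : ℤ) - Finsupp.single (polePl hg) (1 : ℤ) := by
  classical
  apply divOf_eq_of_forall
  intro P
  rw [Finsupp.sub_apply]
  by_cases h1 : P = zeroPl hg c
  · subst h1
    rw [Finsupp.single_eq_same, Finsupp.single_eq_of_ne (zeroPl_ne_polePl hg c), ord_zeroPl]
    rfl
  by_cases h2 : P = polePl hg
  · subst h2
    rw [Finsupp.single_eq_same, Finsupp.single_eq_of_ne h1, ord_polePl_sub]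
    rfl
  rw [Finsupp.single_eq_of_ne h1, Finsupp.single_eq_of_ne h2, ord_sub_eq_zero hg c h1 h2]
  rfl

theorem divOf_gen (hg : IsGen K g) :
    divOf K g = Finsupp.single (zeroPl hg 0) (1 : ℤ) - Finsupp.single (polePl hg) (1 : ℤ) := by
  have := divOf_sub hg 0
  rwa [map_zero, sub_zero] at this

/-- the `RiemannSetting` of a rational function field -/
theorem riemannSetting_rat (hg : IsGen K g) : RiemannSetting K E := by
  haveI := hg.finiteDimensional
  haveI := hg.isSeparable
  exact Fermat.Agent.P2.helper74.riemannSetting_of_separating g hg.tr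

theorem ord_gen_eq_zero (hg : IsGen K g) {Q : Place K E} (h1 : Q ≠ zeroPl hg 0)
    (h2 : Q ≠ polePl hg) : Q.ord g = 0 := by
  have := ord_sub_eq_zero hg 0 h1 h2
  rwa [map_zero, sub_zero] at this

end Gen

/-! ### Weil reciprocity against the generator -/

section Weil

variable [IsAlgClosed K] {g : E}

/-- the functions `w`, units at the zero and at the pole of `g`, for which reciprocity against
`g` holds -/
def IsW (hg : IsGen K g) (w : E) : Prop :=
  w ≠ 0 ∧ (zeroPl hg 0).ord w = 0 ∧ (polePl hg).ord w = 0 ∧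
    dval w (divOf K g) = dval g (divOf K w)

namespace IsW

variable {hg : IsGen K g} {w w' : E}

theorem disj_left (h : IsW hg w) : Disj w (divOf K g) := by
  rw [divOf_gen hg]
  exact Disj.sub (Disj.single h.1 h.2.1 1) (Disj.single h.1 h.2.2.1 1)

theorem disj_right (h : IsW hg w) : Disj g (divOf K w) := by
  apply disj_divOf_of_forall (riemannSetting_rat hg) hg.ne_zero
  intro P
  by_cases h1 : P = zeroPl hg 0
  · right
    rw [h1]
    exact h.2.1
  by_cases h2 : P = polePl hg
  · right
    rw [h2]
    exact h.2.2.1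
  left
  exact ord_gen_eq_zero hg h1 h2

theorem one (hg : IsGen K g) : IsW hg 1 := by
  refine ⟨one_ne_zero, Place.ord_one _, Place.ord_one _, ?_⟩
  rw [divOf_one, dval_zero_right, dval, Finsupp.prod]
  exact Finset.prod_eq_one fun P _ => by rw [pval_one, one_zpow]

theorem mul (h : IsW hg w) (h' : IsW hg w') : IsW hg (w * w') := by
  have hS := riemannSetting_rat hg
  refine ⟨mul_ne_zero h.1 h'.1, ?_, ?_, ?_⟩
  · rw [Place.ord_mul _ h.1 h'.1, h.2.1, h'.2.1, add_zero]
  · rw [Place.ord_mul _ h.1 h'.1, h.2.2.1, h'.2.2.1, add_zero]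
  · rw [dval_mul hS h.disj_left h'.disj_left, divOf_mul hS h.1 h'.1,
      dval_add hS h.disj_right h'.disj_right, h.2.2.2, h'.2.2.2]

theorem inv (h : IsW hg w) : IsW hg w⁻¹ := by
  have hS := riemannSetting_rat hg
  refine ⟨inv_ne_zero h.1, ?_, ?_, ?_⟩
  · rw [Place.ord_inv, h.2.1, neg_zero]
  · rw [Place.ord_inv, h.2.2.1, neg_zero]
  · rw [dval_inv hS h.disj_left, divOf_inv hS, dval_neg, h.2.2.2]

/-- the base case `(g - c) / (g - 1)`, `c ≠ 0`: both sides are `c` -/
theorem base (hg : IsGen K g) {c : K} (hc : c ≠ 0) :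
    IsW hg ((g - algebraMap K E c) / (g - algebraMap K E 1)) := by
  have hS := riemannSetting_rat hg
  have hn := hg.sub_ne_zero c
  have hd := hg.sub_ne_zero 1
  have o1 : (zeroPl hg 0).ord (g - algebraMap K E c) = 0 := ord_zeroPl_sub_of_ne hg hc
  have o2 : (zeroPl hg 0).ord (g - algebraMap K E 1) = 0 := ord_zeroPl_sub_of_ne hg one_ne_zero
  have hne : (g - algebraMap K E c) / (g - algebraMap K E 1) ≠ 0 := div_ne_zero hn hd
  have h0 : (zeroPl hg 0).ord ((g - algebraMap K E c) / (g - algebraMap K E 1)) = 0 := by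
    rw [div_eq_mul_inv, Place.ord_mul _ hn (inv_ne_zero hd), Place.ord_inv, o1, o2]
    rfl
  have hi : (polePl hg).ord ((g - algebraMap K E c) / (g - algebraMap K E 1)) = 0 := by
    rw [div_eq_mul_inv, Place.ord_mul _ hn (inv_ne_zero hd), Place.ord_inv, ord_polePl_sub,
      ord_polePl_sub]
    rfl
  refine ⟨hne, h0, hi, ?_⟩
  have hL : dval ((g - algebraMap K E c) / (g - algebraMap K E 1)) (divOf K g) = c := by
    rw [divOf_gen hg, dval_sub hS (Disj.single hne h0 1) (Disj.single hne hi 1), dval_single,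
      dval_single, zpow_one, zpow_one]
    have p0 : pval (zeroPl hg 0) ((g - algebraMap K E c) / (g - algebraMap K E 1)) = c := by
      rw [pval_div hS (le_of_eq o1.symm) hd o2,
        pval_eq_of_isVal ((isVal_zeroPl hg 0).sub (IsVal.const _ c)),
        pval_eq_of_isVal ((isVal_zeroPl hg 0).sub (IsVal.const _ 1))]
      rw [zero_sub, zero_sub, neg_div_neg_eq, div_one]
    have pi : pval (polePl hg) ((g - algebraMap K E c) / (g - algebraMap K E 1)) = 1 := by
      apply pval_eq_of_isVal
      rcases eq_or_ne c 1 with rfl | hc1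
      · left
        rw [div_self hd, map_one]
      · right
        have e : (g - algebraMap K E c) / (g - algebraMap K E 1) - algebraMap K E 1
            = algebraMap K E (1 - c) * (g - algebraMap K E 1)⁻¹ := by
          rw [map_sub, map_one] at *
          field_simp
          ring
        have hc' : algebraMap K E (1 - c) ≠ 0 := by
          rw [Ne, map_eq_zero, sub_eq_zero]
          exact fun h => hc1 h.symm
        rw [e, Place.ord_mul _ hc' (inv_ne_zero hd), place_ord_algebraMap, Place.ord_inv,
          ord_polePl_sub]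
        norm_num
    rw [p0, pi, div_one]
  have hR : dval g (divOf K ((g - algebraMap K E c) / (g - algebraMap K E 1))) = c := by
    rw [divOf_div hS hn hd, divOf_sub hg, divOf_sub hg, sub_sub_sub_cancel_right,
      dval_sub hS (Disj.single hg.ne_zero (ord_zeroPl_self hg hc) 1)
        (Disj.single hg.ne_zero (ord_zeroPl_self hg one_ne_zero) 1),
      dval_single, dval_single, zpow_one, zpow_one, pval_zeroPl, pval_zeroPl, div_one]
  rw [hL, hR]

end IsW

/-- the functions `a * g ^ k * (g - 1) ^ m * w` with `w` in the class `IsW` -/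
def IsS (hg : IsGen K g) (h : E) : Prop :=
  ∃ (a : K) (k m : ℤ) (w : E), a ≠ 0 ∧ IsW hg w ∧
    h = algebraMap K E a * g ^ k * (g - algebraMap K E 1) ^ m * w

namespace IsS

variable {hg : IsGen K g} {x x' : E}

theorem one (hg : IsGen K g) : IsS hg 1 :=
  ⟨1, 0, 0, 1, one_ne_zero, IsW.one hg, by simp⟩

theorem mul (h : IsS hg x) (h' : IsS hg x') : IsS hg (x * x') := by
  obtain ⟨a, k, m, w, ha, hw, rfl⟩ := h
  obtain ⟨a', k', m', w', ha', hw', rfl⟩ := h'
  refine ⟨a * a', k + k', m + m', w * w', mul_ne_zero ha ha', hw.mul hw', ?_⟩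
  rw [zpow_add₀ hg.ne_zero, zpow_add₀ (hg.sub_ne_zero 1), map_mul]
  ring

theorem inv (h : IsS hg x) : IsS hg x⁻¹ := by
  obtain ⟨a, k, m, w, ha, hw, rfl⟩ := h
  refine ⟨a⁻¹, -k, -m, w⁻¹, inv_ne_zero ha, hw.inv, ?_⟩
  rw [zpow_neg, zpow_neg, map_inv₀, mul_inv, mul_inv, mul_inv]

theorem const (hg : IsGen K g) {a : K} (ha : a ≠ 0) : IsS hg (algebraMap K E a) :=
  ⟨a, 0, 0, 1, ha, IsW.one hg, by simp⟩

theorem sub (hg : IsGen K g) (c : K) : IsS hg (g - algebraMap K E c) := by
  rcases eq_or_ne c 0 with rfl | hc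
  · exact ⟨1, 1, 0, 1, one_ne_zero, IsW.one hg, by simp⟩
  · refine ⟨1, 0, 1, _, one_ne_zero, IsW.base hg hc, ?_⟩
    have hd := hg.sub_ne_zero 1
    rw [map_one, one_mul, zpow_zero, one_mul, zpow_one, mul_div_cancel₀ _ (by rwa [map_one] at hd)]

theorem aeval (hg : IsGen K g) {p : K[X]} (hp : p ≠ 0) : IsS hg (Polynomial.aeval g p) := by
  have h := (IsAlgClosed.splits p).eq_prod_roots
  have e : Polynomial.aeval g p = algebraMap K E p.leadingCoeff
      * (p.roots.map fun a => g - algebraMap K E a).prod := by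
    conv_lhs => rw [h]
    rw [map_mul, aeval_C, map_multiset_prod, Multiset.map_map]
    congr 2
    refine Multiset.map_congr rfl fun a _ => ?_
    simp
  rw [e]
  refine (const hg (leadingCoeff_ne_zero.mpr hp)).mul ?_
  refine Multiset.prod_induction (IsS hg) _ (fun a b => mul) (one hg) ?_
  intro y hy
  obtain ⟨a, -, rfl⟩ := Multiset.mem_map.mp hy
  exact sub hg a

/-- every nonzero function is in the class -/
theorem all (hg : IsGen K g) {h : E} (hh : h ≠ 0) : IsS hg h := by
  obtain ⟨r, s, rfl⟩ := (IntermediateField.mem_adjoin_simple_iff K h).mp (hg.mem_adjoin h)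
  have hr : Polynomial.aeval g r ≠ 0 := fun h0 => hh (by rw [h0, zero_div])
  have hs : Polynomial.aeval g s ≠ 0 := fun h0 => hh (by rw [h0, div_zero])
  have hr0 : r ≠ 0 := by
    rintro rfl
    exact hr (map_zero _)
  have hs0 : s ≠ 0 := by
    rintro rfl
    exact hs (map_zero _)
  rw [div_eq_mul_inv]
  exact (aeval hg hr0).mul (aeval hg hs0).inv

end IsS

/-- **Weil reciprocity on the projective line, against the coordinate**: for `E = K(g)` and
`h ≠ 0` without zero or pole at the zero and at the pole of `g`,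
`h(0) / h(∞) = h(div g) = g(div h)`. -/
theorem weilRec_rat (hg : IsGen K g) {h : E} (hh : h ≠ 0)
    (hd : ∀ P : Place K E, P.ord h = 0 ∨ P.ord g = 0) :
    dval h (divOf K g) = dval g (divOf K h) := by
  have hS := riemannSetting_rat hg
  obtain ⟨a, k, m, w, ha, hw, rfl⟩ := IsS.all hg hh
  have h0 := (hd (zeroPl hg 0)).resolve_right (by rw [ord_zeroPl_zero]; exact one_ne_zero)
  have hi := (hd (polePl hg)).resolve_right (by rw [ord_polePl]; norm_num)
  have ha' : algebraMap K E a ≠ 0 := by
    rw [Ne, map_eq_zero]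
    exact ha
  have hg0 := hg.ne_zero
  have hg1 := hg.sub_ne_zero 1
  have key : ∀ P : Place K E,
      P.ord (algebraMap K E a * g ^ k * (g - algebraMap K E 1) ^ m * w)
        = k * P.ord g + m * P.ord (g - algebraMap K E 1) + P.ord w := by
    intro P
    rw [P.ord_mul (mul_ne_zero (mul_ne_zero ha' (zpow_ne_zero _ hg0)) (zpow_ne_zero _ hg1)) hw.1,
      P.ord_mul (mul_ne_zero ha' (zpow_ne_zero _ hg0)) (zpow_ne_zero _ hg1),
      P.ord_mul ha' (zpow_ne_zero _ hg0), place_ord_algebraMap, P.ord_zpow, P.ord_zpow, zero_add]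
  rw [key, ord_zeroPl_zero, ord_zeroPl_sub_of_ne hg one_ne_zero, hw.2.1] at h0
  rw [key, ord_polePl, ord_polePl_sub, hw.2.2.1] at hi
  have hk : k = 0 := by omega
  have hm : m = 0 := by omega
  subst hk hm
  rw [zpow_zero, zpow_zero, mul_one, mul_one,
    dval_const_mul hS ha hw.disj_left (degree_divOf hS g), divOf_const_mul hS ha, hw.2.2.2]

/-- the same statement from the two bare hypotheses on `g` -/
theorem weilRec_rat' (g : E) (hg : Transcendental K g) (htop : K⟮g⟯ = ⊤) (h : E) (hh : h ≠ 0)
    (hd : ∀ P : Place K E, P.ord h = 0 ∨ P.ord g = 0) :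
    dval h (divOf K g) = dval g (divOf K h) :=
  weilRec_rat ⟨hg, htop⟩ hh hd

end Weil

end Fermat.Agent.T6.helper87

end
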