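import Mathlib
import Fermat.Agent.T6.helper26_WeilTransfer
import Fermat.Agent.T6.helper87_WeilP1
import Fermat.Agent.T6.helper17_WeilEnd

/-!
# T6 [W1] + [WEIL] (helper17): Weil reciprocity for function fields, `WeilStatement`

Glue of the landed blocks:

* [W1-WR] `helper26.weilRec_of_adjoin` (transfer of reciprocity along `F / K(g)`, from the value
  of a norm `helper48.normVal`),
* [W1-P1] `helper87.weilRec_rat` (reciprocity on `K(g)` against the coordinate `g`),

gives

* `weilRec_ff`   : `helper26.WeilRec K E` for every `E` finite over `K(t)`, `t` transcendental,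
  `K` algebraically closed of characteristic `0`;
* `w1Statement`  : `W1Statement`;
* `weilAt_ff`    : `helper73.WeilAt K F ℓ k` (any universes), UNCONDITIONAL;
* `weilStatement` : `helper73.WeilStatement`, UNCONDITIONAL.
-/

set_option autoImplicit false
set_option linter.unusedSectionVars false
set_option linter.unusedVariables false
set_option linter.style.haveILetI false

noncomputable section

universe u v

namespace Fermat.Agent.T6.helper17

open AlgebraicCurve IntermediateField
open Fermat.Agent.P2.helper74 (RiemannSetting)
open Fermat.Agent.T6.helper26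

section Glue

variable {K : Type u} {E : Type v} [Field K] [Field E] [Algebra K E]

/-- the generator of `K(g)` is a generator -/
theorem isGen_gen (g : E) (hg : Transcendental K g) :
    Fermat.Agent.T6.helper87.IsGen K (AdjoinSimple.gen K g) where
  tr := by
    have h : algebraMap K⟮g⟯ E (AdjoinSimple.gen K g) = g := AdjoinSimple.algebraMap_gen K g
    rw [← h] at hg
    exact (transcendental_algebraMap_iff (algebraMap K⟮g⟯ E).injective).mp hg
  top := by
    apply IntermediateField.map_injective (K⟮g⟯.val)
    rw [IntermediateField.adjoin_map, Set.image_singleton, ← AlgHom.fieldRange_eq_map,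
      IntermediateField.fieldRange_val]
    rfl

variable [IsAlgClosed K] [CharZero K]

/-- **[W1] Weil reciprocity** for the function fields of one variable over `K`. -/
theorem weilRec_ff (t : E) (ht : Transcendental K t) [FiniteDimensional K⟮t⟯ E] :
    WeilRec K E := by
  have hS' : RiemannSetting K E := Fermat.Agent.T6.helper9.riemannSetting_of_ff t ht
  refine weilRec_of_adjoin hS' fun g hg => ?_
  obtain ⟨hgtr, hgfin⟩ := Fermat.Agent.S24.helper82.ff_transcendental t ht g hg
  have hgen := isGen_gen g hgtr
  exact ⟨hgfin, Fermat.Agent.T6.helper87.riemannSetting_rat hgen,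
    fun u hu hd => Fermat.Agent.T6.helper87.weilRec_rat hgen hu hd⟩

end Glue

/-- **[W1]** in the shape of the interface -/
theorem w1Statement : W1Statement := by
  intro K F _ _ _ _ _ _ _
  obtain ⟨x, hx, hfd, -, -⟩ :=
    Fermat.Agent.P5.helper42.exists_separating_transcendental (K := K) (F := F)
  haveI := hfd
  exact weilRec_ff x hx

/-- **[WEIL] at `(K, F)`**, unconditional: every character of `Pic⁰[ℓ^k]` is a Weil
character. -/
theorem weilAt_ff (K : Type u) (F : Type v) [Field K] [Field F] [Algebra K F] [IsAlgClosed K]
    [CharZero K] [IsCurveOver K F] [Algebra.EssFiniteType K F] (ℓ : ℕ) [Fact ℓ.Prime] (k : ℕ) :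
    Fermat.Agent.T6.helper73.WeilAt K F ℓ k :=
  weilAt_of_weilRec K F ℓ k fun E _ _ t ht hfd => by
    haveI := hfd
    exact weilRec_ff t ht

/-- **[WEIL]**, unconditional. -/
theorem weilStatement : Fermat.Agent.T6.helper73.WeilStatement :=
  weilStatement_of_w1 w1Statement

end Fermat.Agent.T6.helper17

end
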