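import Mathlib
import Fermat.Agent.LEF.helper67_Curve2
import Fermat.Agent.S24.helper77_Degree
import Fermat.Agent.S24.helper77_Transc
import Fermat.Agent.T6.helper73_T6Iface

/-!
# T6 [CURVE] (helper23): the modular function field is a curve function field

`IsCurveOver ℚ̄ (modularFunctionFieldBar M)` and `Algebra.EssFiniteType ℚ̄ (modularFunctionFieldBar M)`
(the instance arguments of `helper73.WeilStatement` / of S27 at `F = F_M`), and the
specialisation of `WeilStatement` to the modular function fields:

* `isCurveOver_FF`, `essFiniteType_FF` ;
* `weilAt_FF` : `WeilStatement → WeilAt ℚ̄ (modularFunctionFieldBar M) l k`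
  (`= ` the hypothesis of `helper73.IntStatement`).
-/

set_option autoImplicit false
set_option linter.unusedSectionVars false
set_option linter.unusedVariables false
set_option linter.style.longLine false

open AlgebraicCurve ModularCurve IntermediateField

noncomputable section

namespace Fermat.Agent.T6.helper23

open Fermat.Agent.T6.helper73

section Curve

variable (M : ℕ) [NeZero M]

theorem isCurveOver_and_essFiniteType_FF :
    IsCurveOver (AlgebraicClosure ℚ) (modularFunctionFieldBar M) ∧
      Algebra.EssFiniteType (AlgebraicClosure ℚ) (modularFunctionFieldBar M) := by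
  haveI := Fermat.Agent.S24.helper77.an_finiteDimensional M
  exact Fermat.Agent.LEF.helper67.isCurveOver_of_transcendental (AlgebraicClosure ℚ)
    (modularFunctionFieldBar M) (Fermat.Agent.S24.xJ M)
    (Fermat.Agent.S24.helper77.an_transcendental M)

/-- **[CURVE]** the modular function field of level `M` is a curve function field over `ℚ̄` -/
theorem isCurveOver_FF : IsCurveOver (AlgebraicClosure ℚ) (modularFunctionFieldBar M) :=
  (isCurveOver_and_essFiniteType_FF M).1

/-- **[CURVE]** the modular function field of level `M` is essentially of finite type -/
theorem essFiniteType_FF :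
    Algebra.EssFiniteType (AlgebraicClosure ℚ) (modularFunctionFieldBar M) :=
  (isCurveOver_and_essFiniteType_FF M).2

/-- **[WEIL] at the modular function fields** : the hypothesis of `helper73.IntStatement` -/
theorem weilAt_FF (hW : WeilStatement) (l : ℕ) [Fact l.Prime] (k : ℕ) :
    WeilAt Kq (modularFunctionFieldBar M) l k := by
  haveI := isCurveOver_FF M
  haveI := essFiniteType_FF M
  exact hW Kq (modularFunctionFieldBar M) l k

end Curve

end Fermat.Agent.T6.helper23

end
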