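import Mathlib

/-!
# T6, [O0-DESCENT], part B (helper40): bases of function spaces inside separating subrings

* `fn_span_eq_top`     : a subring of `T → K` (`T` finite, `K` a field) which separates the points
                         spans `T → K` over `K` (Lagrange interpolation);
* `fn_exists_basis`    : hence there is a `K`-basis of `T → K` inside the subring;
* `fn_repr_semilinear` : coordinates with respect to a basis of `σ`-equivariant functions are
                         `σ`-semilinear;
* `eqSubring`          : the subring of `G_ℚ`-equivariant functions `T → ℚ̄`;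
* `eq_separates`       : for a continuous action of `G_ℚ` on `T`, the equivariant functions
                         separate the points (infinite Galois theory).

Mathlib only.
-/

set_option autoImplicit false
set_option linter.unusedSectionVars false
set_option linter.unusedVariables false
set_option linter.style.haveILetI false

open scoped BigOperators

namespace Fermat.Agent.T6.helper40

section Interp

variable {K : Type*} [Field K] {T : Type*} [Finite T]

/-- indicator functions belong to the `K`-subalgebra generated by a separating set -/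
theorem fn_indicator_mem [DecidableEq T] (S : Set (T → K))
    (hsep : ∀ x y : T, x ≠ y → ∃ f ∈ S, f x ≠ f y)
    (x : T) : (fun y => if y = x then (1 : K) else 0) ∈ Algebra.adjoin K S := by
  cases nonempty_fintype T
  choose! f hf using fun y (hy : y ≠ x) => hsep x y (Ne.symm hy)
  have key : (fun y => if y = x then (1 : K) else 0) =
      ∏ y ∈ Finset.univ.erase x, ((f y - algebraMap K (T → K) (f y y)) *
        algebraMap K (T → K) ((f y x - f y y)⁻¹)) := by
    funext z
    rw [Finset.prod_apply]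
    by_cases hz : z = x
    · subst hz
      rw [if_pos rfl]
      symm
      refine Finset.prod_eq_one fun y hy => ?_
      have hyz : y ≠ z := Finset.ne_of_mem_erase hy
      have h1 : f y z - f y y ≠ 0 := sub_ne_zero.mpr (hf y hyz).2
      simp only [Pi.mul_apply, Pi.sub_apply, Pi.algebraMap_apply, Algebra.algebraMap_self_apply]
      exact mul_inv_cancel₀ h1
    · rw [if_neg hz]
      symm
      refine Finset.prod_eq_zero (Finset.mem_erase.mpr ⟨hz, Finset.mem_univ z⟩) ?_
      simp only [Pi.mul_apply, Pi.sub_apply, Pi.algebraMap_apply, Algebra.algebraMap_self_apply,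
        sub_self, zero_mul]
  rw [key]
  refine Subalgebra.prod_mem _ fun y hy => ?_
  have hyx : y ≠ x := Finset.ne_of_mem_erase hy
  exact Subalgebra.mul_mem _
    (Subalgebra.sub_mem _ (Algebra.subset_adjoin (hf y hyx).1) (Subalgebra.algebraMap_mem _ _))
    (Subalgebra.algebraMap_mem _ _)

/-- a separating set of functions on a finite set generates the algebra of all functions -/
theorem fn_adjoin_eq_top (S : Set (T → K)) (hsep : ∀ x y : T, x ≠ y → ∃ f ∈ S, f x ≠ f y) :
    Algebra.adjoin K S = ⊤ := by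
  classical
  cases nonempty_fintype T
  rw [eq_top_iff]
  intro g _
  have hg : g = ∑ x, g x • (fun y => if y = x then (1 : K) else 0) := by
    funext z
    simp [Finset.sum_apply]
  rw [hg]
  exact Subalgebra.sum_mem _ fun x _ => Subalgebra.smul_mem _ (fn_indicator_mem S hsep x) _

/-- **Lagrange interpolation**: a separating subring of `T → K` spans `T → K` over `K`. -/
theorem fn_span_eq_top (S : Subring (T → K)) (hsep : ∀ x y : T, x ≠ y → ∃ f ∈ S, f x ≠ f y) :
    Submodule.span K (S : Set (T → K)) = ⊤ := by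
  have h1 := fn_adjoin_eq_top (S : Set (T → K)) hsep
  have h2 := Algebra.adjoin_eq_span K (S : Set (T → K))
  have h3 : ((Submonoid.closure (S : Set (T → K)) : Submonoid (T → K)) : Set (T → K)) =
      (S : Set (T → K)) := by
    have := Submonoid.closure_eq S.toSubmonoid
    exact congrArg (fun M : Submonoid (T → K) => (M : Set (T → K))) this
  rw [h3, h1] at h2
  rw [← h2]
  rfl

/-- a separating subring of `T → K` contains a `K`-basis of `T → K` -/
theorem fn_exists_basis (S : Subring (T → K)) (hsep : ∀ x y : T, x ≠ y → ∃ f ∈ S, f x ≠ f y) :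
    ∃ (n : ℕ) (b : Module.Basis (Fin n) K (T → K)), ∀ i, b i ∈ S := by
  classical
  cases nonempty_fintype T
  obtain ⟨B, hBS, hBspan, hBli⟩ := exists_linearIndependent K (S : Set (T → K))
  rw [fn_span_eq_top S hsep] at hBspan
  have hfin : B.Finite := hBli.setFinite
  haveI : Fintype B := hfin.fintype
  have hsp : ⊤ ≤ Submodule.span K (Set.range (Subtype.val : B → T → K)) := by
    rw [Subtype.range_coe, hBspan]
  let b₀ : Module.Basis B K (T → K) := Module.Basis.mk hBli hsp
  refine ⟨Fintype.card B, b₀.reindex (Fintype.equivFin B), fun i => ?_⟩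
  rw [Module.Basis.reindex_apply, Module.Basis.mk_apply]
  exact hBS ((Fintype.equivFin B).symm i).2

/-- coordinates with respect to a basis of `σ`-equivariant functions are `σ`-semilinear -/
theorem fn_repr_semilinear {ι : Type*} [Fintype ι] (b : Module.Basis ι K (T → K))
    (σ : K ≃+* K) (s : T → T) (hs : Function.Surjective s)
    (hb : ∀ i x, b i (s x) = σ (b i x)) (f g : T → K) (hfg : ∀ x, g (s x) = σ (f x)) (i : ι) :
    b.repr g i = σ (b.repr f i) := by
  classical
  set c : ι → K := fun j => b.repr f j with hc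
  have hf : f = ∑ j, c j • b j := (b.sum_repr f).symm
  have hg : g = ∑ j, σ (c j) • b j := by
    funext y
    obtain ⟨x, rfl⟩ := hs y
    rw [hfg, hf]
    simp only [Finset.sum_apply, Pi.smul_apply, smul_eq_mul, map_sum, map_mul, hb]
  have h1 : ⇑(b.repr (∑ j, σ (c j) • b j)) = (fun j => σ (c j)) :=
    b.repr_sum_self _
  rw [hg, h1]

end Interp

section Galois

variable {T : Type*}

/-- the subring of `G_ℚ`-equivariant functions -/
def eqSubring (act : (AlgebraicClosure ℚ ≃ₐ[ℚ] AlgebraicClosure ℚ) → T → T) :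
    Subring (T → AlgebraicClosure ℚ) where
  carrier := {f | ∀ σ x, f (act σ x) = σ (f x)}
  mul_mem' := fun ha hb σ x => by
    simp only [Pi.mul_apply, map_mul, ha σ x, hb σ x]
  one_mem' := fun σ x => by simp
  add_mem' := fun ha hb σ x => by
    simp only [Pi.add_apply, map_add, ha σ x, hb σ x]
  zero_mem' := fun σ x => by simp
  neg_mem' := fun ha σ x => by
    simp only [Pi.neg_apply, map_neg, ha σ x]

theorem mem_eqSubring_iff (act : (AlgebraicClosure ℚ ≃ₐ[ℚ] AlgebraicClosure ℚ) → T → T)
    (f : T → AlgebraicClosure ℚ) : f ∈ eqSubring act ↔ ∀ σ x, f (act σ x) = σ (f x) := Iff.rfl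

theorem eb_isGalois_Qbar : IsGalois ℚ (AlgebraicClosure ℚ) := by
  have h : (DivisionRing.toRatAlgebra : Algebra ℚ (AlgebraicClosure ℚ))
      = AlgebraicClosure.instAlgebra ℚ := Subsingleton.elim _ _
  rw [h]
  infer_instance

variable (act : (AlgebraicClosure ℚ ≃ₐ[ℚ] AlgebraicClosure ℚ) → T → T)
  (hone : ∀ x, act 1 x = x) (hmul : ∀ σ τ x, act (σ * τ) x = act σ (act τ x))

include hone hmul in
/-- an automorphism which moves the point `x` moves an element of `ℚ̄` fixed by the stabiliser
of `x` (infinite Galois theory; the stabiliser is open) -/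
theorem eq_exists_moved (x : T)
    (hcont : ∃ E : IntermediateField ℚ (AlgebraicClosure ℚ), FiniteDimensional ℚ E ∧
      ∀ σ : AlgebraicClosure ℚ ≃ₐ[ℚ] AlgebraicClosure ℚ, (∀ e ∈ E, σ e = e) → act σ x = x)
    (τ : AlgebraicClosure ℚ ≃ₐ[ℚ] AlgebraicClosure ℚ) (hτ : act τ x ≠ x) :
    ∃ c : AlgebraicClosure ℚ, (∀ σ, act σ x = x → σ c = c) ∧ τ c ≠ c := by
  obtain ⟨E, hE, hEx⟩ := hcont
  haveI : IsGalois ℚ (AlgebraicClosure ℚ) := eb_isGalois_Qbar
  let Gx : Subgroup (AlgebraicClosure ℚ ≃ₐ[ℚ] AlgebraicClosure ℚ) :=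
    { carrier := {σ | act σ x = x}
      mul_mem' := fun {a b} ha hb => by
        show act (a * b) x = x
        rw [hmul, show act b x = x from hb, show act a x = x from ha]
      one_mem' := hone x
      inv_mem' := fun {a} ha => by
        show act a⁻¹ x = x
        have h1 : act a⁻¹ (act a x) = x := by rw [← hmul, inv_mul_cancel, hone]
        rw [show act a x = x from ha] at h1
        exact h1 }
  have hle : E.fixingSubgroup ≤ Gx := fun σ hσ =>
    hEx σ (fun e he => (IntermediateField.mem_fixingSubgroup_iff E σ).mp hσ e he)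
  have hopen : IsOpen (Gx : Set (AlgebraicClosure ℚ ≃ₐ[ℚ] AlgebraicClosure ℚ)) :=
    Subgroup.isOpen_mono hle (IntermediateField.fixingSubgroup_isOpen E)
  have hclosed : IsClosed (Gx : Set (AlgebraicClosure ℚ ≃ₐ[ℚ] AlgebraicClosure ℚ)) :=
    Subgroup.isClosed_of_isOpen Gx hopen
  let Gc : ClosedSubgroup (AlgebraicClosure ℚ ≃ₐ[ℚ] AlgebraicClosure ℚ) := ⟨Gx, hclosed⟩
  have h := InfiniteGalois.fixingSubgroup_fixedField Gc
  by_contra hcon
  push Not at hcon
  have h1 : τ ∈ (IntermediateField.fixedField Gc.1).fixingSubgroup := by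
    rw [IntermediateField.mem_fixingSubgroup_iff]
    intro c hc
    refine hcon c fun σ hσ => ?_
    exact (IntermediateField.mem_fixedField_iff _ c).mp hc σ hσ
  rw [h] at h1
  exact hτ h1

include hone hmul in
/-- the orbit function attached to an element fixed by the stabiliser -/
theorem eq_exists_orbit_fn (x : T) (c : AlgebraicClosure ℚ)
    (hc : ∀ σ : AlgebraicClosure ℚ ≃ₐ[ℚ] AlgebraicClosure ℚ, act σ x = x → σ c = c) :
    ∃ f ∈ eqSubring act, (∀ σ, f (act σ x) = σ c) ∧ ∀ y, (∀ σ, act σ x ≠ y) → f y = 0 := by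
  classical
  have hwd : ∀ σ σ' : AlgebraicClosure ℚ ≃ₐ[ℚ] AlgebraicClosure ℚ,
      act σ x = act σ' x → σ c = σ' c := by
    intro σ σ' h
    have h1 : act (σ'⁻¹ * σ) x = x := by
      rw [hmul, h, ← hmul, inv_mul_cancel, hone]
    have h2 := hc _ h1
    rw [AlgEquiv.mul_apply] at h2
    have h3 := congrArg σ' h2
    have h4 : σ' (σ'⁻¹ (σ c)) = σ c := AlgEquiv.apply_symm_apply σ' (σ c)
    rw [h4] at h3
    exact h3
  let f : T → AlgebraicClosure ℚ := fun y =>
    if h : ∃ σ : AlgebraicClosure ℚ ≃ₐ[ℚ] AlgebraicClosure ℚ, act σ x = y then h.choose c else 0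
  have hf1 : ∀ σ, f (act σ x) = σ c := by
    intro σ
    have h : ∃ σ' : AlgebraicClosure ℚ ≃ₐ[ℚ] AlgebraicClosure ℚ, act σ' x = act σ x := ⟨σ, rfl⟩
    show (if h : ∃ σ' : AlgebraicClosure ℚ ≃ₐ[ℚ] AlgebraicClosure ℚ, act σ' x = act σ x
      then h.choose c else 0) = σ c
    rw [dif_pos h]
    exact hwd _ _ h.choose_spec
  have hf0 : ∀ y, (∀ σ, act σ x ≠ y) → f y = 0 := by
    intro y hy
    have h : ¬ ∃ σ : AlgebraicClosure ℚ ≃ₐ[ℚ] AlgebraicClosure ℚ, act σ x = y := by
      push Not
      exact hy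
    show (if h : ∃ σ : AlgebraicClosure ℚ ≃ₐ[ℚ] AlgebraicClosure ℚ, act σ x = y
      then h.choose c else 0) = 0
    rw [dif_neg h]
  refine ⟨f, ?_, hf1, hf0⟩
  intro τ y
  by_cases hy : ∃ σ : AlgebraicClosure ℚ ≃ₐ[ℚ] AlgebraicClosure ℚ, act σ x = y
  · obtain ⟨σ, rfl⟩ := hy
    rw [← hmul, hf1, hf1]
    rfl
  · push Not at hy
    have hy' : ∀ σ, act σ x ≠ act τ y := by
      intro σ hσ
      apply hy (τ⁻¹ * σ)
      rw [hmul, hσ, ← hmul, inv_mul_cancel, hone]
    rw [hf0 y hy, hf0 _ hy', map_zero]

include hone hmul in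
/-- **the equivariant functions separate the points** (for a continuous action) -/
theorem eq_separates
    (hcont : ∀ x : T, ∃ E : IntermediateField ℚ (AlgebraicClosure ℚ), FiniteDimensional ℚ E ∧
      ∀ σ : AlgebraicClosure ℚ ≃ₐ[ℚ] AlgebraicClosure ℚ, (∀ e ∈ E, σ e = e) → act σ x = x) :
    ∀ x y : T, x ≠ y → ∃ f ∈ eqSubring act, f x ≠ f y := by
  intro x y hxy
  by_cases hy : ∃ τ : AlgebraicClosure ℚ ≃ₐ[ℚ] AlgebraicClosure ℚ, act τ x = y
  · obtain ⟨τ, rfl⟩ := hy
    obtain ⟨c, hc, hτc⟩ := eq_exists_moved act hone hmul x (hcont x) τ (Ne.symm hxy)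
    obtain ⟨f, hf, hf1, -⟩ := eq_exists_orbit_fn act hone hmul x c hc
    refine ⟨f, hf, ?_⟩
    have h1 := hf1 1
    rw [hone] at h1
    rw [h1, hf1]
    exact fun h => hτc h.symm
  · push Not at hy
    obtain ⟨f, hf, hf1, hf0⟩ := eq_exists_orbit_fn act hone hmul x 1 (fun σ _ => map_one σ)
    refine ⟨f, hf, ?_⟩
    have h1 := hf1 1
    rw [hone] at h1
    rw [h1, hf0 y hy]
    simp

include hone hmul in
/-- **an equivariant basis**: for a continuous action of `G_ℚ` on a finite set `T` there is a
`ℚ̄`-basis of `T → ℚ̄` consisting of equivariant functions. -/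
theorem eq_exists_basis [Finite T]
    (hcont : ∀ x : T, ∃ E : IntermediateField ℚ (AlgebraicClosure ℚ), FiniteDimensional ℚ E ∧
      ∀ σ : AlgebraicClosure ℚ ≃ₐ[ℚ] AlgebraicClosure ℚ, (∀ e ∈ E, σ e = e) → act σ x = x) :
    ∃ (n : ℕ) (b : Module.Basis (Fin n) (AlgebraicClosure ℚ) (T → AlgebraicClosure ℚ)),
      ∀ i σ x, b i (act σ x) = σ (b i x) :=
  fn_exists_basis (eqSubring act) (eq_separates act hone hmul hcont)

end Galois

end Fermat.Agent.T6.helper40
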