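import Mathlib

/-!
# T6, [O0-DESCENT], abstract core (helper40): descent of a Frobenius-stable lattice

`Ω` a field of characteristic `0`, `O ⊆ Ω` a local subring whose maximal ideal contains `ℓ`,
`φ` a ring automorphism of `Ω` preserving `O` ("Frobenius") such that

* every element of `Ω` has a finite `φ`-orbit;
* for every `m > 0` there is `ζ ∈ O` with `φ ^ m ζ = ζ` such that the differences
  `φ ^ j ζ - φ ^ i ζ` (`i < j < m`) are units of `O` (Teichmüller root of unity of order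
  `ℓ ^ m - 1`);
* every `φ`-fixed element of `O` is congruent to an integer modulo `ℓ O`.

Then every finitely generated `O`-submodule `L` of `ι → Ω` which is stable under the
coordinatewise action of `φ`, bounded (`ℓ ^ a L ⊆ O ^ ι`) and open (`ℓ ^ N O ^ ι ⊆ L`) is generated
over `O` by its vectors with rational coordinates (`lat_descent`).

Mathlib only.
-/

set_option autoImplicit false
set_option linter.unusedSectionVars false
set_option linter.unusedVariables false
set_option linter.style.haveILetI false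

open scoped BigOperators

namespace Fermat.Agent.T6.helper40

section Lattice

variable {Ω : Type*} [Field Ω] (O : Subring Ω) (φ : Ω ≃+* Ω)

/-- coordinatewise action -/
def latAct {ι : Type*} (ψ : Ω ≃+* Ω) (v : ι → Ω) : ι → Ω := fun i => ψ (v i)

theorem latAct_add {ι : Type*} (ψ : Ω ≃+* Ω) (v w : ι → Ω) :
    latAct ψ (v + w) = latAct ψ v + latAct ψ w := by
  funext i; simp [latAct]

theorem latAct_smul {ι : Type*} (ψ : Ω ≃+* Ω) (c : Ω) (v : ι → Ω) :
    latAct ψ (c • v) = ψ c • latAct ψ v := by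
  funext i; simp [latAct]

theorem latAct_sum {ι κ : Type*} (ψ : Ω ≃+* Ω) (s : Finset κ) (f : κ → ι → Ω) :
    latAct ψ (∑ k ∈ s, f k) = ∑ k ∈ s, latAct ψ (f k) := by
  funext i; simp [latAct]

theorem latAct_pow_apply {ι : Type*} (ψ : Ω ≃+* Ω) (n : ℕ) (v : ι → Ω) (i : ι) :
    (latAct ψ)^[n] v i = (ψ ^ n) (v i) := by
  induction n generalizing v with
  | zero => simp
  | succ n ih =>
    rw [Function.iterate_succ_apply', pow_succ', latAct, ih]
    rfl

/-- a common period of finitely many `φ`-finite elements -/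
theorem lat_exists_period (hfin : ∀ x : Ω, ∃ m : ℕ, 0 < m ∧ (φ ^ m) x = x)
    {ι : Type*} [Finite ι] (v : ι → Ω) :
    ∃ m : ℕ, 0 < m ∧ ∀ i, (φ ^ m) (v i) = v i := by
  classical
  cases nonempty_fintype ι
  choose p hp0 hp using fun i => hfin (v i)
  refine ⟨∏ i, p i, Finset.prod_pos (fun i _ => hp0 i), fun i => ?_⟩
  obtain ⟨k, hk⟩ := Finset.dvd_prod_of_mem p (Finset.mem_univ i)
  rw [hk, pow_mul]
  have : ∀ n : ℕ, ((φ ^ p i) ^ n) (v i) = v i := by
    intro n
    induction n with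
    | zero => simp
    | succ n ih =>
      rw [pow_succ]
      show ((φ ^ p i) ^ n) ((φ ^ p i) (v i)) = v i
      rw [hp i, ih]
  exact this k

/-- the hypotheses on the triple `(O, φ, ℓ)` ("unramified Frobenius setup") -/
structure IsFrobSetup (ℓ : ℕ) : Prop where
  /-- `ℓ ≠ 0` in `Ω` -/
  ell_ne : (ℓ : Ω) ≠ 0
  /-- `φ` preserves `O` -/
  map_mem : ∀ x ∈ O, φ x ∈ O
  /-- `ℓ` lies in the Jacobson radical of `O` -/
  jac : ((ℓ : ℕ) : O) ∈ Ideal.jacobson (⊥ : Ideal O)
  /-- `φ`-orbits are finite -/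
  fin : ∀ x : Ω, ∃ m : ℕ, 0 < m ∧ (φ ^ m) x = x
  /-- Teichmüller elements -/
  tei : ∀ m : ℕ, 0 < m → ∃ ζ ∈ O, (φ ^ m) ζ = ζ ∧
    ∀ i j : ℕ, i < j → j < m → ∃ u ∈ O, u * ((φ ^ j) ζ - (φ ^ i) ζ) = 1
  /-- `φ`-fixed elements of `O` are congruent to integers modulo `ℓ` -/
  res : ∀ x ∈ O, φ x = x → ∃ r : ℤ, ∃ y ∈ O, x = (r : Ω) + (ℓ : Ω) * y

variable {O φ} {ℓ : ℕ}

theorem IsFrobSetup.pow_mem (h : IsFrobSetup O φ ℓ) (n : ℕ) {x : Ω} (hx : x ∈ O) :
    (φ ^ n) x ∈ O := by
  induction n with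
  | zero => simpa using hx
  | succ n ih =>
    rw [pow_succ']
    exact h.map_mem _ ih

/-- approximation of `φ`-fixed elements of `O` by integers -/
theorem IsFrobSetup.approx (h : IsFrobSetup O φ ℓ) (k : ℕ) {x : Ω} (hx : x ∈ O)
    (hφ : φ x = x) : ∃ r : ℤ, ∃ y ∈ O, x = (r : Ω) + (ℓ : Ω) ^ k * y := by
  induction k with
  | zero => exact ⟨0, x, hx, by simp⟩
  | succ k ih =>
    obtain ⟨r, y, hy, hxy⟩ := ih
    have hφy : φ y = y := by
      have h1 : φ x = (r : Ω) + (ℓ : Ω) ^ k * φ y := by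
        rw [hxy, map_add, map_mul, map_pow, map_natCast, map_intCast]
      rw [hφ] at h1
      have h2 : (ℓ : Ω) ^ k * y = (ℓ : Ω) ^ k * φ y := by
        have := hxy.symm.trans h1
        exact add_left_cancel this
      exact (mul_left_cancel₀ (pow_ne_zero k h.ell_ne) h2).symm
    obtain ⟨r', y', hy', hyy⟩ := h.res y hy hφy
    refine ⟨r + (ℓ : ℤ) ^ k * r', y', hy', ?_⟩
    rw [hxy, hyy]
    push_cast
    ring

end Lattice

section Descent

variable {Ω : Type*} [Field Ω] {O : Subring Ω} {φ : Ω ≃+* Ω} {ℓ : ℕ}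
  {ι : Type*}

theorem latAct_osmul (c : O) (v : ι → Ω) :
    latAct φ (c • v) = fun i => φ (c : Ω) * φ (v i) := by
  funext i
  simp [latAct, Subring.smul_def]

/-- iterates stay in the lattice -/
theorem lat_iterate_mem (L : Submodule O (ι → Ω)) (hφ : ∀ v ∈ L, latAct φ v ∈ L) (n : ℕ)
    {v : ι → Ω} (hv : v ∈ L) : (latAct φ)^[n] v ∈ L := by
  induction n with
  | zero => simpa using hv
  | succ n ih =>
    rw [Function.iterate_succ_apply']
    exact hφ _ ih

/-- cyclic reindexing of a sum -/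
theorem lat_sum_shift {M : Type*} [AddCommGroup M] (m : ℕ) (F : ℕ → M) (hF : F m = F 0) :
    ∑ i ∈ Finset.range m, F (i + 1) = ∑ i ∈ Finset.range m, F i := by
  have h1 := Finset.sum_range_succ F m
  have h2 := Finset.sum_range_succ' F m
  rw [h1, hF] at h2
  exact (add_right_cancel h2).symm

/-- **Trace step**: every vector of a `φ`-stable lattice is an `O`-combination of `φ`-fixed vectors
of the lattice. -/
theorem lat_trace_step (h : IsFrobSetup O φ ℓ) [Finite ι] (L : Submodule O (ι → Ω))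
    (hφ : ∀ v ∈ L, latAct φ v ∈ L) {v : ι → Ω} (hv : v ∈ L) :
    v ∈ Submodule.span O {w | w ∈ L ∧ latAct φ w = w} := by
  classical
  obtain ⟨m, hm0, hm⟩ := lat_exists_period φ h.fin v
  obtain ⟨ζ, hζO, hζm, hζu⟩ := h.tei m hm0
  -- the conjugates of `ζ`
  set z : Fin m → O := fun i => ⟨(φ ^ (i : ℕ)) ζ, h.pow_mem _ hζO⟩ with hz
  -- the conjugates of `v`
  set w : ℕ → ι → Ω := fun i => (latAct φ)^[i] v with hw
  have hwL : ∀ i, w i ∈ L := fun i => lat_iterate_mem L hφ i hv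
  have hwm : w m = w 0 := by
    funext i
    simp only [hw, Function.iterate_zero, id]
    rw [latAct_pow_apply]
    exact hm i
  -- the traces
  set T : Fin m → ι → Ω := fun j =>
    ∑ i ∈ Finset.range m, (fun k => ((φ ^ i) ζ) ^ (j : ℕ) * w i k) with hT
  have hTL : ∀ j, T j ∈ L := by
    intro j
    refine Submodule.sum_mem _ fun i _ => ?_
    have h1 : (fun k => ((φ ^ i) ζ) ^ (j : ℕ) * w i k) =
        ((⟨(φ ^ i) ζ, h.pow_mem _ hζO⟩ : O) ^ (j : ℕ)) • w i := by
      funext k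
      simp [Subring.smul_def]
    rw [h1]
    exact L.smul_mem _ (hwL i)
  have hTφ : ∀ j, latAct φ (T j) = T j := by
    intro j
    have h1 : latAct φ (T j) =
        ∑ i ∈ Finset.range m, (fun k => ((φ ^ (i + 1)) ζ) ^ (j : ℕ) * w (i + 1) k) := by
      rw [hT, latAct_sum]
      refine Finset.sum_congr rfl fun i _ => ?_
      funext k
      simp only [latAct, map_mul, map_pow]
      congr 1
      · rw [pow_succ']; rfl
      · simp only [hw]
        rw [Function.iterate_succ_apply']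
        rfl
    rw [h1]
    refine lat_sum_shift m (fun i => (fun k => ((φ ^ i) ζ) ^ (j : ℕ) * w i k)) ?_
    funext k
    simp only [hwm, hζm, pow_zero]
    rfl
  -- the Vandermonde matrix
  set V : Matrix (Fin m) (Fin m) O := Matrix.vandermonde z with hV
  have hdet : IsUnit V.det := by
    rw [hV, Matrix.det_vandermonde]
    refine IsUnit.prod_univ_iff.mpr fun i => ?_
    rw [IsUnit.prod_iff]
    intro j hj
    have hij : (i : ℕ) < (j : ℕ) := Fin.lt_def.mp (Finset.mem_Ioi.mp hj)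
    obtain ⟨u, hu, hu1⟩ := hζu i j hij j.2
    refine IsUnit.of_mul_eq_one (⟨u, hu⟩ : O) ?_
    apply Subtype.ext
    simp only [hz, Subring.coe_mul, Subring.coe_one, AddSubgroupClass.coe_sub]
    rw [mul_comm]
    exact hu1
  have hVV : V * V⁻¹ = 1 := Matrix.mul_nonsing_inv V hdet
  -- `T j = ∑ i, V i j • w i`
  have hTV : ∀ j : Fin m, T j = ∑ i : Fin m, V i j • w i := by
    intro j
    rw [hT]
    simp only
    rw [← Fin.sum_univ_eq_sum_range (fun i => (fun k => ((φ ^ i) ζ) ^ (j : ℕ) * w i k)) m]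
    refine Finset.sum_congr rfl fun i _ => ?_
    funext k
    simp [hV, hz, Matrix.vandermonde_apply, Subring.smul_def]
  -- inversion
  have hm' : NeZero m := ⟨hm0.ne'⟩
  have hv0 : v = ∑ j : Fin m, (V⁻¹ j 0) • T j := by
    have h1 : ∑ j : Fin m, (V⁻¹ j 0) • T j =
        ∑ i : Fin m, (∑ j : Fin m, V i j * V⁻¹ j 0) • w i := by
      simp only [hTV, Finset.smul_sum, Finset.sum_smul, smul_smul]
      rw [Finset.sum_comm]
      refine Finset.sum_congr rfl fun i _ => ?_
      refine Finset.sum_congr rfl fun j _ => ?_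
      rw [mul_comm]
    have h2 : ∀ i : Fin m, (∑ j : Fin m, V i j * V⁻¹ j 0) = if i = 0 then 1 else 0 := by
      intro i
      have := congrFun (congrFun hVV i) 0
      rw [Matrix.mul_apply, Matrix.one_apply] at this
      exact this
    rw [h1]
    simp only [h2, ite_smul, one_smul, zero_smul, Finset.sum_ite_eq', Finset.mem_univ, if_true]
    simp [hw]
  rw [hv0]
  refine Submodule.sum_mem _ fun j _ => Submodule.smul_mem _ _ (Submodule.subset_span ?_)
  exact ⟨hTL j, hTφ j⟩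

/-- **Approximation step**: a `φ`-fixed vector of the lattice is congruent modulo `ℓ L` to a
vector of the lattice with coordinates in `ℓ ^ (-a) ℤ`. -/
theorem lat_approx_step (h : IsFrobSetup O φ ℓ) (L : Submodule O (ι → Ω))
    (a : ℕ) (ha : ∀ v ∈ L, ∀ i, (ℓ : Ω) ^ a * v i ∈ O)
    (N : ℕ) (hN : ∀ v : ι → Ω, (∀ i, v i ∈ O) → (fun i => (ℓ : Ω) ^ N * v i) ∈ L)
    {w : ι → Ω} (hw : w ∈ L) (hwφ : latAct φ w = w) :
    ∃ w' ∈ L, (∀ i, ∃ r : ℤ, (ℓ : Ω) ^ a * w' i = r) ∧
      ∃ u ∈ L, w = w' + ((ℓ : ℕ) : O) • u := by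
  have hx : ∀ i, φ ((ℓ : Ω) ^ a * w i) = (ℓ : Ω) ^ a * w i := by
    intro i
    rw [map_mul, map_pow, map_natCast]
    congr 1
    exact congrFun hwφ i
  choose r y hy hxy using fun i => h.approx (a + N + 1) (ha w hw i) (hx i)
  set u : ι → Ω := fun i => (ℓ : Ω) ^ N * y i with hu
  have huL : u ∈ L := hN y hy
  have hℓu : ∀ i, (((ℓ : ℕ) : O) • u) i = (ℓ : Ω) * u i := by
    intro i
    simp [Subring.smul_def]
  have hw' : w - ((ℓ : ℕ) : O) • u ∈ L := L.sub_mem hw (L.smul_mem _ huL)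
  refine ⟨w - ((ℓ : ℕ) : O) • u, hw', fun i => ⟨r i, ?_⟩, u, huL, by abel⟩
  rw [Pi.sub_apply, hℓu, mul_sub, hxy i, hu]
  ring

/-- **Descent of Frobenius-stable lattices**: a finitely generated, bounded and open `O`-lattice
in `Ω ^ ι` which is stable under the coordinatewise action of `φ` is generated over `O` by its
vectors with coordinates in `ℓ ^ (-a) ℤ`. -/
theorem lat_descent (h : IsFrobSetup O φ ℓ) [Finite ι] (L : Submodule O (ι → Ω)) (hfg : L.FG)
    (hφ : ∀ v ∈ L, latAct φ v ∈ L)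
    (a : ℕ) (ha : ∀ v ∈ L, ∀ i, (ℓ : Ω) ^ a * v i ∈ O)
    (N : ℕ) (hN : ∀ v : ι → Ω, (∀ i, v i ∈ O) → (fun i => (ℓ : Ω) ^ N * v i) ∈ L) :
    L = Submodule.span O {v | v ∈ L ∧ ∀ i, ∃ r : ℤ, (ℓ : Ω) ^ a * v i = r} := by
  refine le_antisymm ?_ (Submodule.span_le.mpr fun v hv => hv.1)
  set S : Set (ι → Ω) := {v | v ∈ L ∧ ∀ i, ∃ r : ℤ, (ℓ : Ω) ^ a * v i = r} with hS
  have hjac : Ideal.span {((ℓ : ℕ) : O)} ≤ Ideal.jacobson (⊥ : Ideal O) := by
    rw [Ideal.span_le]
    intro x hx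
    rw [Set.mem_singleton_iff.mp hx]
    exact h.jac
  refine Submodule.le_of_le_smul_of_le_jacobson_bot hfg hjac ?_
  intro v hv
  have h1 := lat_trace_step h L hφ hv
  have h2 : {w | w ∈ L ∧ latAct φ w = w} ⊆
      ((Submodule.span O S ⊔ Ideal.span {((ℓ : ℕ) : O)} • L : Submodule O (ι → Ω)) :
        Set (ι → Ω)) := by
    rintro w ⟨hw, hwφ⟩
    obtain ⟨w', hw'L, hw'r, u, hu, hwu⟩ := lat_approx_step h L a ha N hN hw hwφ
    rw [hwu]
    refine Submodule.add_mem _ (Submodule.mem_sup_left (Submodule.subset_span ⟨hw'L, hw'r⟩))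
      (Submodule.mem_sup_right ?_)
    exact Submodule.smul_mem_smul (Ideal.subset_span rfl) hu
  exact (Submodule.span_le.mpr h2) h1

end Descent

end Fermat.Agent.T6.helper40
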