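import Mathlib
import Fermat.Agent.T3.helper84_K0Ring
import Fermat.Agent.T6.helper40_LatticeDesc

/-!
# T6, [O0-DESCENT], part C (helper40): the unramified Frobenius setup `(O0, φ, ℓ)`

`A` a valuation subring of `ℚ̄` over the prime `ℓ`, `O0 = k0Ring A = A ∩ ℚ̄^I`, `φ` a Frobenius
element at `A`.

* `k0f_isFrobSetup` : `IsFrobSetup (k0Ring A) φ ℓ` (the hypotheses of the lattice descent);
* `k0f_ratCast_mem_iff` : `O0 ∩ ℚ = ℤ_(ℓ)`;
* `k0f_exists_pow_mul_mem` : an inertia-fixed element of `ℚ̄` is `ℓ ^ (-a)` times an element of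
  `O0`.
-/

set_option autoImplicit false
set_option linter.unusedSectionVars false
set_option linter.unusedVariables false
set_option linter.style.haveILetI false

open scoped BigOperators

namespace Fermat.Agent.T6.helper40

open Fermat.Agent.T3.helper84 Fermat.Agent.S54.helper91 Fermat.Agent.S14.helper91

section Frob

variable {ℓ : ℕ} (hℓ : ℓ.Prime) (A : ValuationSubring (AlgebraicClosure ℚ))
  (hA : A.LiesOverPrime ℓ)

theorem k0f_toRingEquiv_pow (φ : AlgebraicClosure ℚ ≃ₐ[ℚ] AlgebraicClosure ℚ) (n : ℕ)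
    (x : AlgebraicClosure ℚ) : ((φ.toRingEquiv) ^ n) x = (φ ^ n) x := by
  induction n generalizing x with
  | zero => rfl
  | succ n ih =>
    rw [pow_succ, pow_succ]
    show ((φ.toRingEquiv) ^ n) (φ x) = (φ ^ n) (φ x)
    exact ih (φ x)

/-- conjugates of inertia elements by elements of the decomposition group are inertia elements -/
theorem k0f_conj_mem_inertia {φ σ : AlgebraicClosure ℚ ≃ₐ[ℚ] AlgebraicClosure ℚ}
    (hφ : φ ∈ A.decompositionSubgroup ℚ) (hσ : σ ∈ A.inertiaSubgroupIn ℚ) :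
    φ⁻¹ * σ * φ ∈ A.inertiaSubgroupIn ℚ := by
  obtain ⟨hσD, hσI⟩ := (mem_inertiaSubgroupIn_iff_valuation A σ).mp hσ
  have hφi : φ⁻¹ ∈ A.decompositionSubgroup ℚ := (A.decompositionSubgroup ℚ).inv_mem hφ
  rw [mem_inertiaSubgroupIn_iff_valuation]
  refine ⟨(A.decompositionSubgroup ℚ).mul_mem ((A.decompositionSubgroup ℚ).mul_mem hφi hσD) hφ,
    fun a ha => ?_⟩
  have h1 : (φ⁻¹ * σ * φ) a - a = φ⁻¹ (σ (φ a) - φ a) := by
    rw [map_sub]
    have h2 : φ⁻¹ (φ a) = a := AlgEquiv.symm_apply_apply φ a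
    rw [h2]
    rfl
  rw [h1, valuation_apply_lt_one_iff_of_mem_dec A hφi]
  exact hσI (φ a) ((apply_mem_iff_of_mem_dec A hφ a).mpr ha)

/-- the decomposition group preserves `O0` -/
theorem k0f_map_mem {φ : AlgebraicClosure ℚ ≃ₐ[ℚ] AlgebraicClosure ℚ}
    (hφ : φ ∈ A.decompositionSubgroup ℚ) {x : AlgebraicClosure ℚ} (hx : x ∈ k0Ring A) :
    φ x ∈ k0Ring A := by
  refine ⟨(apply_mem_iff_of_mem_dec A hφ x).mpr hx.1, fun σ hσ => ?_⟩
  have h1 := hx.2 _ (k0f_conj_mem_inertia A hφ hσ)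
  have h2 : (φ⁻¹ * σ * φ) x = φ⁻¹ (σ (φ x)) := rfl
  rw [h2] at h1
  have h3 := congrArg φ h1
  have h4 : φ (φ⁻¹ (σ (φ x))) = σ (φ x) := AlgEquiv.apply_symm_apply φ _
  rw [h4] at h3
  exact h3

include hℓ hA in
/-- `ℓ` is not a unit of `O0` -/
theorem k0f_ell_mem_jacobson :
    ((ℓ : ℕ) : k0Ring A) ∈ Ideal.jacobson (⊥ : Ideal (k0Ring A)) := by
  haveI := k0Ring_isDiscreteValuationRing hℓ A hA
  rw [IsLocalRing.jacobson_eq_maximalIdeal ⊥ bot_ne_top, IsLocalRing.mem_maximalIdeal,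
    mem_nonunits_iff, k0Ring_isUnit_iff]
  have hv : A.valuation ((ℓ : ℕ) : AlgebraicClosure ℚ) < 1 := A.mem_nonunits_iff.mp hA
  have hc : ((((ℓ : ℕ) : k0Ring A)) : AlgebraicClosure ℚ) = ((ℓ : ℕ) : AlgebraicClosure ℚ) := by
    simp
  rw [hc]
  exact hv.ne

include hℓ hA in
/-- elements of `O0` which are not units are divisible by `ℓ` -/
theorem k0f_exists_eq_mul {x : AlgebraicClosure ℚ} (hx : x ∈ k0Ring A) (hv : A.valuation x < 1) :
    ∃ y ∈ k0Ring A, x = (ℓ : AlgebraicClosure ℚ) * y := by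
  obtain ⟨b, hb⟩ := (k0Unif_dvd_iff hℓ A hA ⟨x, hx⟩).mpr hv
  refine ⟨b, b.2, ?_⟩
  have := congrArg (Subtype.val : k0Ring A → AlgebraicClosure ℚ) hb
  simpa using this

include hℓ hA in
/-- **Teichmüller elements**: a primitive root of unity of order `ℓ ^ m - 1` lies in `O0`, is
fixed by `φ ^ m`, and the differences of its `φ`-conjugates are units of `O0`. -/
theorem k0f_tei {φ : AlgebraicClosure ℚ ≃ₐ[ℚ] AlgebraicClosure ℚ} (hφ : A.IsFrobeniusAt φ ℓ)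
    (m : ℕ) (hm : 0 < m) :
    ∃ ζ ∈ k0Ring A, (φ ^ m) ζ = ζ ∧ ∀ i j : ℕ, i < j → j < m →
      ∃ u ∈ k0Ring A, u * ((φ ^ j) ζ - (φ ^ i) ζ) = 1 := by
  have hℓm : 2 ≤ ℓ ^ m := by
    calc 2 ≤ ℓ := hℓ.two_le
      _ = ℓ ^ 1 := (pow_one ℓ).symm
      _ ≤ ℓ ^ m := Nat.pow_le_pow_right hℓ.pos hm
  set n : ℕ := ℓ ^ m - 1 with hn
  have hn0 : n ≠ 0 := by omega
  have hnℓ : ¬ ℓ ∣ n := by
    intro hdvd
    have h2 : ℓ ∣ ℓ ^ m := dvd_pow_self ℓ hm.ne'
    have h3 : ℓ ∣ ℓ ^ m - n := Nat.dvd_sub h2 hdvd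
    have h4 : ℓ ^ m - n = 1 := by omega
    rw [h4] at h3
    exact hℓ.one_lt.ne' (Nat.dvd_one.mp h3)
  haveI : NeZero n := ⟨hn0⟩
  haveI : NeZero ((n : ℕ) : AlgebraicClosure ℚ) := ⟨Nat.cast_ne_zero.mpr hn0⟩
  obtain ⟨ζ, hζ⟩ := HasEnoughRootsOfUnity.exists_primitiveRoot (AlgebraicClosure ℚ) n
  have hζn : ζ ^ n = 1 := hζ.pow_eq_one
  have hvζ : A.valuation ζ = 1 := k0_valuation_eq_one_of_pow A hn0 (by rw [hζn, map_one])
  have hζA : ζ ∈ A := (A.valuation_le_one_iff ζ).mp hvζ.le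
  have hζI : ∀ σ ∈ A.inertiaSubgroupIn ℚ, σ ζ = ζ :=
    k0_root hℓ A hA hnℓ (u := 1) (map_one _) (fun σ _ => map_one σ) hζn
  have hζ0 : ζ ≠ 0 := by
    rintro rfl
    rw [map_zero] at hvζ
    exact zero_ne_one hvζ
  -- `φ ζ = ζ ^ ℓ`
  have hφζ : φ ζ = ζ ^ ℓ := by
    have h1 : A.valuation (φ ζ - ζ ^ ℓ) < 1 := IsFrobeniusAt_valuation_lt_one A hφ hζA
    have h2 : (φ ζ / ζ ^ ℓ) ^ n = 1 := by
      rw [div_pow, ← map_pow, hζn, map_one, ← pow_mul, mul_comm, pow_mul, hζn, one_pow, div_one]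
    have h3 : A.valuation (φ ζ / ζ ^ ℓ - 1) < 1 := by
      have : φ ζ / ζ ^ ℓ - 1 = (φ ζ - ζ ^ ℓ) / ζ ^ ℓ := by field_simp
      rw [this, map_div₀, map_pow, hvζ, one_pow, div_one]
      exact h1
    have h4 := k0_root_of_unity_eq_one hℓ A hA hnℓ h2 h3
    rwa [div_eq_one_iff_eq (pow_ne_zero _ hζ0)] at h4
  have hpow : ∀ i : ℕ, (φ ^ i) ζ = ζ ^ (ℓ ^ i) := by
    intro i
    induction i with
    | zero => simp
    | succ i ih =>
      rw [pow_succ' φ i, AlgEquiv.mul_apply, ih, map_pow, hφζ, ← pow_mul, pow_succ' ℓ i]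
  refine ⟨ζ, ⟨hζA, hζI⟩, ?_, ?_⟩
  · rw [hpow]
    have : ℓ ^ m = n + 1 := by omega
    rw [this, pow_succ, hζn, one_mul]
  · intro i j hij hjm
    rw [hpow, hpow]
    have hlt : ℓ ^ i < ℓ ^ j := Nat.pow_lt_pow_right hℓ.one_lt hij
    set d : ℕ := ℓ ^ j - ℓ ^ i with hd
    have hd0 : d ≠ 0 := by omega
    have hdn : d < n := by
      have h1 : ℓ ^ j ≤ ℓ ^ (m - 1) := Nat.pow_le_pow_right hℓ.pos (by omega)
      have h2 : ℓ ^ (m - 1) < ℓ ^ m := Nat.pow_lt_pow_right hℓ.one_lt (by omega)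
      have h3 : 1 ≤ ℓ ^ i := Nat.one_le_pow _ _ hℓ.pos
      omega
    have hξ1 : ζ ^ d ≠ 1 := hζ.pow_ne_one_of_pos_of_lt hd0 hdn
    have hξn : (ζ ^ d) ^ n = 1 := by rw [← pow_mul, mul_comm, pow_mul, hζn, one_pow]
    have hvξ : A.valuation (ζ ^ d - 1) = 1 := by
      refine le_antisymm ?_ ?_
      · exact (A.valuation_le_one_iff _).mpr (A.sub_mem (pow_mem hζA d) A.one_mem)
      · by_contra hlt'
        push Not at hlt'
        exact hξ1 (k0_root_of_unity_eq_one hℓ A hA hnℓ hξn hlt')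
    have hdiff : ζ ^ (ℓ ^ j) - ζ ^ (ℓ ^ i) = ζ ^ (ℓ ^ i) * (ζ ^ d - 1) := by
      rw [mul_sub, mul_one, ← pow_add]
      congr 2
      omega
    have hv : A.valuation (ζ ^ (ℓ ^ j) - ζ ^ (ℓ ^ i)) = 1 := by
      rw [hdiff, map_mul, map_pow, hvζ, one_pow, one_mul, hvξ]
    have hne : ζ ^ (ℓ ^ j) - ζ ^ (ℓ ^ i) ≠ 0 := by
      intro h
      rw [h, map_zero] at hv
      exact zero_ne_one hv
    refine ⟨(ζ ^ (ℓ ^ j) - ζ ^ (ℓ ^ i))⁻¹, ⟨?_, ?_⟩, inv_mul_cancel₀ hne⟩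
    · rw [← A.valuation_le_one_iff, map_inv₀, hv, inv_one]
    · intro σ hσ
      rw [map_inv₀, map_sub, map_pow, map_pow, hζI σ hσ]

include hℓ hA in
/-- **residue step**: a Frobenius-fixed element of `O0` is congruent to an integer modulo `ℓ` -/
theorem k0f_res {φ : AlgebraicClosure ℚ ≃ₐ[ℚ] AlgebraicClosure ℚ} (hφ : A.IsFrobeniusAt φ ℓ)
    {x : AlgebraicClosure ℚ} (hx : x ∈ k0Ring A) (hφx : φ x = x) :
    ∃ r : ℤ, ∃ y ∈ k0Ring A, x = (r : AlgebraicClosure ℚ) + (ℓ : AlgebraicClosure ℚ) * y := by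
  classical
  haveI : Fact ℓ.Prime := ⟨hℓ⟩
  have hℓA : ((ℓ : ℕ) : AlgebraicClosure ℚ) ∈ A := natCast_mem _ ℓ
  have hchar : CharP (IsLocalRing.ResidueField A) ℓ := by
    rw [CharP.charP_iff_prime_eq_zero hℓ]
    have h1 : ((ℓ : ℕ) : IsLocalRing.ResidueField A) =
        IsLocalRing.residue A ⟨((ℓ : ℕ) : AlgebraicClosure ℚ), hℓA⟩ := by
      rw [← map_natCast (IsLocalRing.residue A) ℓ]
      rfl
    rw [h1, IsLocalRing.residue_eq_zero_iff, A.valuation_lt_one_iff]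
    exact A.mem_nonunits_iff.mp hA
  letI := ZMod.algebra (IsLocalRing.ResidueField A) ℓ
  set xbar : IsLocalRing.ResidueField A := IsLocalRing.residue A ⟨x, hx.1⟩ with hxbar
  have hxℓ : xbar ^ ℓ = xbar := by
    have h1 := IsFrobeniusAt_valuation_lt_one A hφ hx.1
    rw [hφx] at h1
    have h2 : IsLocalRing.residue A (⟨x, hx.1⟩ - ⟨x, hx.1⟩ ^ ℓ) = 0 := by
      rw [IsLocalRing.residue_eq_zero_iff, A.valuation_lt_one_iff]
      exact h1
    rw [map_sub, map_pow, sub_eq_zero] at h2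
    exact h2.symm
  have hP : (Polynomial.X ^ ℓ - Polynomial.X : Polynomial (IsLocalRing.ResidueField A)) ≠ 0 :=
    FiniteField.X_pow_card_sub_X_ne_zero _ hℓ.one_lt
  have hdeg : (Polynomial.X ^ ℓ - Polynomial.X :
      Polynomial (IsLocalRing.ResidueField A)).natDegree = ℓ :=
    FiniteField.X_pow_card_sub_X_natDegree_eq _ hℓ.one_lt
  set S : Finset (IsLocalRing.ResidueField A) :=
    Finset.univ.image (algebraMap (ZMod ℓ) (IsLocalRing.ResidueField A)) with hS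
  have hScard : S.card = ℓ := by
    rw [hS, Finset.card_image_of_injective _
      (algebraMap (ZMod ℓ) (IsLocalRing.ResidueField A)).injective, Finset.card_univ, ZMod.card]
  have hSsub : S ⊆ (Polynomial.X ^ ℓ - Polynomial.X :
      Polynomial (IsLocalRing.ResidueField A)).roots.toFinset := by
    intro a ha
    obtain ⟨r, -, rfl⟩ := Finset.mem_image.mp ha
    rw [Multiset.mem_toFinset, Polynomial.mem_roots hP, Polynomial.IsRoot.def]
    simp only [Polynomial.eval_sub, Polynomial.eval_pow, Polynomial.eval_X]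
    rw [← map_pow, ZMod.pow_card, sub_self]
  have hle : (Polynomial.X ^ ℓ - Polynomial.X :
      Polynomial (IsLocalRing.ResidueField A)).roots.toFinset.card ≤ S.card := by
    rw [hScard]
    calc _ ≤ Multiset.card (Polynomial.X ^ ℓ - Polynomial.X :
          Polynomial (IsLocalRing.ResidueField A)).roots := Multiset.toFinset_card_le _
      _ ≤ _ := Polynomial.card_roots' _
      _ = ℓ := hdeg
  have hEq := Finset.eq_of_subset_of_card_le hSsub hle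
  have hmem : xbar ∈ (Polynomial.X ^ ℓ - Polynomial.X :
      Polynomial (IsLocalRing.ResidueField A)).roots.toFinset := by
    rw [Multiset.mem_toFinset, Polynomial.mem_roots hP, Polynomial.IsRoot.def]
    simp only [Polynomial.eval_sub, Polynomial.eval_pow, Polynomial.eval_X]
    rw [hxℓ, sub_self]
  rw [← hEq] at hmem
  obtain ⟨r, -, hr⟩ := Finset.mem_image.mp hmem
  have hr' : ((r.val : ℕ) : IsLocalRing.ResidueField A) = xbar := by
    rw [← hr, ← map_natCast (algebraMap (ZMod ℓ) (IsLocalRing.ResidueField A)),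
      ZMod.natCast_zmod_val]
  have hrA : ((r.val : ℕ) : AlgebraicClosure ℚ) ∈ A := natCast_mem _ _
  have hv : A.valuation (x - ((r.val : ℕ) : AlgebraicClosure ℚ)) < 1 := by
    have h1 : IsLocalRing.residue A (⟨x, hx.1⟩ - ⟨((r.val : ℕ) : AlgebraicClosure ℚ), hrA⟩) = 0 := by
      rw [map_sub, sub_eq_zero]
      rw [← hxbar, ← hr', ← map_natCast (IsLocalRing.residue A) r.val]
      rfl
    rw [IsLocalRing.residue_eq_zero_iff, A.valuation_lt_one_iff] at h1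
    exact h1
  have hmemO : x - ((r.val : ℕ) : AlgebraicClosure ℚ) ∈ k0Ring A :=
    (k0Ring A).sub_mem hx (natCast_mem _ _)
  obtain ⟨y, hy, hxy⟩ := k0f_exists_eq_mul hℓ A hA hmemO hv
  refine ⟨(r.val : ℤ), y, hy, ?_⟩
  rw [← hxy]
  push_cast
  ring

include hℓ hA in
/-- **the unramified Frobenius setup** `(O0, φ, ℓ)` -/
theorem k0f_isFrobSetup {φ : AlgebraicClosure ℚ ≃ₐ[ℚ] AlgebraicClosure ℚ}
    (hφ : A.IsFrobeniusAt φ ℓ) : IsFrobSetup (k0Ring A) φ.toRingEquiv ℓ where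
  ell_ne := Nat.cast_ne_zero.mpr hℓ.ne_zero
  map_mem := fun x hx => k0f_map_mem A hφ.mem_decompositionSubgroup hx
  jac := k0f_ell_mem_jacobson hℓ A hA
  fin := fun x => by
    obtain ⟨f, hf, hfx⟩ := k0_exists_pow_fix φ x
    exact ⟨f, hf, by rw [k0f_toRingEquiv_pow]; exact hfx⟩
  tei := fun m hm => by
    obtain ⟨ζ, hζ, hζm, hu⟩ := k0f_tei hℓ A hA hφ m hm
    refine ⟨ζ, hζ, by rw [k0f_toRingEquiv_pow]; exact hζm, fun i j hij hjm => ?_⟩
    rw [k0f_toRingEquiv_pow, k0f_toRingEquiv_pow]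
    exact hu i j hij hjm
  res := fun x hx hφx => k0f_res hℓ A hA hφ hx hφx

include hℓ hA in
/-- `O0 ∩ ℚ = ℤ_(ℓ)` -/
theorem k0f_ratCast_mem_iff (q : ℚ) :
    ((q : ℚ) : AlgebraicClosure ℚ) ∈ k0Ring A ↔ ¬ ℓ ∣ q.den := by
  have hfix : ∀ σ ∈ A.inertiaSubgroupIn ℚ, σ ((q : ℚ) : AlgebraicClosure ℚ) = q :=
    fun σ _ => map_ratCast σ q
  have hvℓ : A.valuation ((ℓ : ℕ) : AlgebraicClosure ℚ) < 1 := A.mem_nonunits_iff.mp hA
  have hq : ((q : ℚ) : AlgebraicClosure ℚ) =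
      ((q.num : ℤ) : AlgebraicClosure ℚ) / ((q.den : ℕ) : AlgebraicClosure ℚ) := by
    rw [Rat.cast_def]
  constructor
  · intro hmem hdvd
    have hnum : ¬ (ℓ : ℤ) ∣ q.num := by
      intro h
      have h1 : ℓ ∣ q.num.natAbs := Int.natCast_dvd.mp h
      have h2 := Nat.dvd_gcd h1 hdvd
      rw [q.reduced] at h2
      exact hℓ.one_lt.ne' (Nat.dvd_one.mp h2)
    have hvnum : A.valuation ((q.num : ℤ) : AlgebraicClosure ℚ) = 1 :=
      valuation_intCast_eq_one A hℓ hA hnum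
    have hvden : A.valuation ((q.den : ℕ) : AlgebraicClosure ℚ) < 1 := by
      obtain ⟨c, hc⟩ := hdvd
      rw [hc, Nat.cast_mul, map_mul]
      calc A.valuation ((ℓ : ℕ) : AlgebraicClosure ℚ) * A.valuation ((c : ℕ) : AlgebraicClosure ℚ)
          ≤ A.valuation ((ℓ : ℕ) : AlgebraicClosure ℚ) * 1 := by
            gcongr
            exact (A.valuation_le_one_iff _).mpr (natCast_mem _ c)
        _ = A.valuation ((ℓ : ℕ) : AlgebraicClosure ℚ) := mul_one _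
        _ < 1 := hvℓ
    have hden0 : A.valuation ((q.den : ℕ) : AlgebraicClosure ℚ) ≠ 0 :=
      (Valuation.ne_zero_iff _).mpr (Nat.cast_ne_zero.mpr q.den_ne_zero)
    have h1 := (A.valuation_le_one_iff _).mpr hmem.1
    rw [hq, map_div₀, hvnum, div_le_iff₀ (zero_lt_iff.mpr hden0), one_mul] at h1
    exact absurd hvden (not_lt.mpr h1)
  · intro hndvd
    refine ⟨?_, hfix⟩
    have hvden : A.valuation ((q.den : ℕ) : AlgebraicClosure ℚ) = 1 :=
      k0_natCast_unit hℓ A hA hndvd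
    rw [← A.valuation_le_one_iff, hq, map_div₀, hvden, div_one]
    exact valuation_intCast_le_one A _

include hℓ hA in
/-- an inertia-fixed element of `ℚ̄` is `ℓ ^ (-a)` times an element of `O0` -/
theorem k0f_exists_pow_mul_mem {x : AlgebraicClosure ℚ}
    (hx : ∀ σ ∈ A.inertiaSubgroupIn ℚ, σ x = x) :
    ∃ a : ℕ, ∀ b : ℕ, a ≤ b → ((ℓ : ℕ) : AlgebraicClosure ℚ) ^ b * x ∈ k0Ring A := by
  rcases eq_or_ne x 0 with rfl | hx0
  · exact ⟨0, fun b _ => by simp⟩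
  obtain ⟨m, u, hu1, huI, hxu⟩ := k0_disc_unit hℓ A hA hx0 hx
  have hℓ0 : ((ℓ : ℕ) : AlgebraicClosure ℚ) ≠ 0 := Nat.cast_ne_zero.mpr hℓ.ne_zero
  have huO : u ∈ k0Ring A := ⟨(A.valuation_le_one_iff u).mp hu1.le, huI⟩
  have hℓO : ((ℓ : ℕ) : AlgebraicClosure ℚ) ∈ k0Ring A := natCast_mem _ ℓ
  refine ⟨(-m).toNat, fun b hb => ?_⟩
  have hbm : 0 ≤ (b : ℤ) + m := by
    have := Int.self_le_toNat (-m)
    omega
  have h1 : ((ℓ : ℕ) : AlgebraicClosure ℚ) ^ b * x =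
      ((ℓ : ℕ) : AlgebraicClosure ℚ) ^ ((b : ℤ) + m).toNat * u := by
    rw [hxu, ← mul_assoc, ← zpow_natCast, ← zpow_add₀ hℓ0, ← zpow_natCast (n := ((b : ℤ) + m).toNat),
      Int.toNat_of_nonneg hbm]
  rw [h1]
  exact (k0Ring A).mul_mem ((k0Ring A).pow_mem hℓO _) huO

end Frob

end Fermat.Agent.T6.helper40
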