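import Mathlib
import Fermat.Agent.T6.helper40_EquivBasis
import Fermat.Agent.T6.helper40_K0Frob

/-!
# T6, [DESC] (helper40): from inertia-equivariance to Galois-equivariance

`A` a valuation subring of `ℚ̄` over the prime `ℓ`, `I` its inertia group, `O0 = k0Ring A`,
`M` a finite set with a continuous action of `G_ℚ`.

* `desc_TI` : every `A`-valued function `f : M → ℚ̄` which is equivariant under the inertia group
  `I` is an `O0`-linear combination of `A`-valued functions which are equivariant under the whole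
  Galois group `G_ℚ`.

Proof: in the coordinates of a `G_ℚ`-equivariant basis of `M → ℚ̄` the `A`-valued `I`-equivariant
functions form a bounded open `O0`-lattice stable under the coordinatewise Frobenius, and such a
lattice is spanned by its rational vectors (`lat_descent`).
-/

set_option autoImplicit false
set_option linter.unusedSectionVars false
set_option linter.unusedVariables false
set_option linter.style.haveILetI false

open scoped BigOperators

namespace Fermat.Agent.T6.helper40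

open Fermat.Agent.T3.helper84 Fermat.Agent.S54.helper91 Fermat.Agent.S14.helper91

section DescTI

variable {ℓ : ℕ} (hℓ : ℓ.Prime) (A : ValuationSubring (AlgebraicClosure ℚ))
  (hA : A.LiesOverPrime ℓ)

include hℓ hA in
/-- every element of `ℚ̄` is `ℓ ^ (-a)` times an element of `A` -/
theorem dti_exists_pow_mul_mem (x : AlgebraicClosure ℚ) :
    ∃ a : ℕ, ∀ b : ℕ, a ≤ b → ((ℓ : ℕ) : AlgebraicClosure ℚ) ^ b * x ∈ A := by
  have hx : IsAlgebraic ℤ x :=
    (IsFractionRing.isAlgebraic_iff ℤ ℚ (AlgebraicClosure ℚ)).mpr (isAlgebraic_Qbar.isAlgebraic x)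
  obtain ⟨y, hy0, hint⟩ := hx.exists_integral_multiple
  have hyx : A.valuation ((y : ℤ) • x) ≤ 1 := valuation_le_one_of_isIntegral A hint
  have hn0 : y.natAbs ≠ 0 := Int.natAbs_ne_zero.mpr hy0
  obtain ⟨e, he⟩ := k0_valuation_natCast hℓ A hA hn0
  have hvy : A.valuation ((y : ℤ) : AlgebraicClosure ℚ) =
      A.valuation ((ℓ : ℕ) : AlgebraicClosure ℚ) ^ e := by
    rw [← he]
    rcases Int.natAbs_eq y with h | h
    · conv_lhs => rw [h]
      simp
    · conv_lhs => rw [h]
      simp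
  have h1 : A.valuation (((ℓ : ℕ) : AlgebraicClosure ℚ) ^ e * x) ≤ 1 := by
    rw [map_mul, map_pow, ← hvy, ← map_mul]
    have : ((y : ℤ) : AlgebraicClosure ℚ) * x = (y : ℤ) • x := by
      rw [zsmul_eq_mul]
    rw [this]
    exact hyx
  refine ⟨e, fun b hb => ?_⟩
  have h2 : ((ℓ : ℕ) : AlgebraicClosure ℚ) ^ b * x =
      ((ℓ : ℕ) : AlgebraicClosure ℚ) ^ (b - e) * (((ℓ : ℕ) : AlgebraicClosure ℚ) ^ e * x) := by
    rw [← mul_assoc, ← pow_add, Nat.sub_add_cancel hb]
  rw [h2]
  exact A.mul_mem _ _ (pow_mem (natCast_mem _ ℓ) _) ((A.valuation_le_one_iff _).mp h1)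

include hℓ hA in
/-- a uniform exponent for a finite family -/
theorem dti_exists_pow_mul_mem_family {κ : Type*} [Finite κ] (x : κ → AlgebraicClosure ℚ) :
    ∃ a : ℕ, ∀ k, ((ℓ : ℕ) : AlgebraicClosure ℚ) ^ a * x k ∈ A := by
  classical
  cases nonempty_fintype κ
  choose a ha using fun k => dti_exists_pow_mul_mem hℓ A hA (x k)
  exact ⟨∑ k, a k, fun k => ha k _ (Finset.single_le_sum (fun _ _ => Nat.zero_le _)
    (Finset.mem_univ k))⟩

variable {M : Type*} (act : (AlgebraicClosure ℚ ≃ₐ[ℚ] AlgebraicClosure ℚ) → M → M)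

/-- `A`-valued functions which are equivariant under the inertia group -/
def IsIntI (f : M → AlgebraicClosure ℚ) : Prop :=
  (∀ u, f u ∈ A) ∧ ∀ σ ∈ A.inertiaSubgroupIn ℚ, ∀ u, f (act σ u) = σ (f u)

variable (hone : ∀ x, act 1 x = x) (hmul : ∀ σ τ x, act (σ * τ) x = act σ (act τ x))

include hone hmul in
theorem dti_act_surjective (σ : AlgebraicClosure ℚ ≃ₐ[ℚ] AlgebraicClosure ℚ) :
    Function.Surjective (act σ) := fun y =>
  ⟨act σ⁻¹ y, by rw [← hmul, mul_inv_cancel, hone]⟩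

include hone hmul in
/-- the Frobenius twist of an `A`-valued inertia-equivariant function -/
theorem dti_frob {φ : AlgebraicClosure ℚ ≃ₐ[ℚ] AlgebraicClosure ℚ}
    (hφ : φ ∈ A.decompositionSubgroup ℚ) {f : M → AlgebraicClosure ℚ} (hf : IsIntI A act f) :
    IsIntI A act (fun u => φ (f (act φ⁻¹ u))) := by
  refine ⟨fun u => (apply_mem_iff_of_mem_dec A hφ _).mpr (hf.1 _), fun σ hσ u => ?_⟩
  have hτ := k0f_conj_mem_inertia A hφ hσ
  have h1 : act φ⁻¹ (act σ u) = act (φ⁻¹ * σ * φ) (act φ⁻¹ u) := by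
    rw [← hmul, ← hmul]
    congr 1
    group
  show φ (f (act φ⁻¹ (act σ u))) = σ (φ (f (act φ⁻¹ u)))
  rw [h1, hf.2 _ hτ]
  show φ (φ⁻¹ (σ (φ (f (act φ⁻¹ u))))) = σ (φ (f (act φ⁻¹ u)))
  exact AlgEquiv.apply_symm_apply φ _

variable {n : ℕ}
  (b : Module.Basis (Fin n) (AlgebraicClosure ℚ) (M → AlgebraicClosure ℚ))

/-- the lattice of the coordinate vectors of the `A`-valued inertia-equivariant functions -/
def dtiLat : Submodule (k0Ring A) (Fin n → AlgebraicClosure ℚ) where
  carrier := {v | IsIntI A act (∑ i, v i • b i)}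
  add_mem' := by
    intro v w hv hw
    have h : (∑ i, (v + w) i • b i) = (∑ i, v i • b i) + ∑ i, w i • b i := by
      simp only [Pi.add_apply, add_smul, Finset.sum_add_distrib]
    show IsIntI A act (∑ i, (v + w) i • b i)
    rw [h]
    refine ⟨fun u => A.add_mem _ _ (hv.1 u) (hw.1 u), fun σ hσ u => ?_⟩
    simp only [Pi.add_apply, map_add, hv.2 σ hσ u, hw.2 σ hσ u]
  zero_mem' := by
    show IsIntI A act (∑ i, (0 : Fin n → AlgebraicClosure ℚ) i • b i)
    simp only [Pi.zero_apply, zero_smul, Finset.sum_const_zero]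
    exact ⟨fun u => A.zero_mem, fun σ _ u => by simp⟩
  smul_mem' := by
    intro c v hv
    have h : (∑ i, (c • v) i • b i) = (c : AlgebraicClosure ℚ) • ∑ i, v i • b i := by
      rw [Finset.smul_sum]
      refine Finset.sum_congr rfl fun i _ => ?_
      rw [smul_smul]
      rfl
    show IsIntI A act (∑ i, (c • v) i • b i)
    rw [h]
    refine ⟨fun u => A.mul_mem _ _ c.2.1 (hv.1 u), fun σ hσ u => ?_⟩
    simp only [Pi.smul_apply, smul_eq_mul, map_mul, hv.2 σ hσ u, c.2.2 σ hσ]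

theorem mem_dtiLat_iff (v : Fin n → AlgebraicClosure ℚ) :
    v ∈ dtiLat A act b ↔ IsIntI A act (∑ i, v i • b i) := Iff.rfl

variable (hb : ∀ i (σ : AlgebraicClosure ℚ ≃ₐ[ℚ] AlgebraicClosure ℚ) x, b i (act σ x) = σ (b i x))

include hone hmul hb in
/-- the lattice is stable under Frobenius -/
theorem dtiLat_frob {φ : AlgebraicClosure ℚ ≃ₐ[ℚ] AlgebraicClosure ℚ}
    (hφ : φ ∈ A.decompositionSubgroup ℚ) {v : Fin n → AlgebraicClosure ℚ}
    (hv : v ∈ dtiLat A act b) : latAct φ.toRingEquiv v ∈ dtiLat A act b := by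
  have h1 := dti_frob A act hone hmul hφ hv
  have h2 : (∑ i, latAct φ.toRingEquiv v i • b i) =
      fun u => φ ((∑ i, v i • b i) (act φ⁻¹ u)) := by
    funext u
    simp only [Finset.sum_apply, Pi.smul_apply, smul_eq_mul, map_sum, map_mul]
    refine Finset.sum_congr rfl fun i _ => ?_
    have h3 : φ (b i (act φ⁻¹ u)) = b i u := by
      rw [← hb i φ, ← hmul, mul_inv_cancel, hone]
    rw [h3]
    rfl
  show IsIntI A act (∑ i, latAct φ.toRingEquiv v i • b i)
  rw [h2]
  exact h1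

include hone hmul hb in
/-- coordinates of inertia-equivariant functions are fixed by inertia -/
theorem dtiLat_coord_fixed [Finite M] {v : Fin n → AlgebraicClosure ℚ}
    (hv : v ∈ dtiLat A act b)
    (i : Fin n) : ∀ σ ∈ A.inertiaSubgroupIn ℚ, σ (v i) = v i := by
  intro σ hσ
  have h1 := fn_repr_semilinear b σ.toRingEquiv (act σ) (dti_act_surjective act hone hmul σ)
    (fun i x => hb i σ x) (∑ i, v i • b i) (∑ i, v i • b i) (fun x => hv.2 σ hσ x) i
  have h2 : ⇑(b.repr (∑ j, v j • b j)) = v := b.repr_sum_self v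
  rw [h2] at h1
  exact h1.symm

include hℓ hA hone hmul hb in
/-- the lattice is bounded -/
theorem dtiLat_bounded [Finite M] :
    ∃ a : ℕ, ∀ v ∈ dtiLat A act b, ∀ i, ((ℓ : ℕ) : AlgebraicClosure ℚ) ^ a * v i ∈ k0Ring A := by
  classical
  cases nonempty_fintype M
  -- coordinates of the indicator functions
  set d : M × Fin n → AlgebraicClosure ℚ :=
    fun p => b.repr (fun y => if y = p.1 then (1 : AlgebraicClosure ℚ) else 0) p.2 with hd
  obtain ⟨a, ha⟩ := dti_exists_pow_mul_mem_family hℓ A hA d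
  refine ⟨a, fun v hv i => ⟨?_, fun σ hσ => ?_⟩⟩
  · set f : M → AlgebraicClosure ℚ := ∑ j, v j • b j with hf
    have hfsum : f = ∑ u, f u • (fun y => if y = u then (1 : AlgebraicClosure ℚ) else 0) := by
      funext z
      simp [Finset.sum_apply]
    have h2 : ⇑(b.repr f) = v := b.repr_sum_self v
    have h3 : v i = ∑ u, f u * d (u, i) := by
      rw [← h2]
      conv_lhs => rw [hfsum]
      rw [map_sum, Finsupp.coe_finsetSum, Finset.sum_apply]
      refine Finset.sum_congr rfl fun u _ => ?_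
      rw [map_smul, Finsupp.coe_smul, Pi.smul_apply, smul_eq_mul]
    rw [h3, Finset.mul_sum]
    refine A.toSubring.sum_mem fun u _ => ?_
    have h4 : ((ℓ : ℕ) : AlgebraicClosure ℚ) ^ a * (f u * d (u, i)) =
        f u * (((ℓ : ℕ) : AlgebraicClosure ℚ) ^ a * d (u, i)) := by ring
    rw [h4]
    exact A.mul_mem _ _ (hv.1 u) (ha (u, i))
  · rw [map_mul, map_pow, map_natCast, dtiLat_coord_fixed A act hone hmul b hb hv i σ hσ]

include hℓ hA hone hmul hb in
/-- the lattice is open -/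
theorem dtiLat_open [Finite M] :
    ∃ N : ℕ, ∀ v : Fin n → AlgebraicClosure ℚ, (∀ i, v i ∈ k0Ring A) →
      (fun i => ((ℓ : ℕ) : AlgebraicClosure ℚ) ^ N * v i) ∈ dtiLat A act b := by
  classical
  obtain ⟨N, hN⟩ := dti_exists_pow_mul_mem_family hℓ A hA
    (fun p : Fin n × M => b p.1 p.2)
  refine ⟨N, fun v hv => ⟨fun u => ?_, fun σ hσ u => ?_⟩⟩
  · simp only [Finset.sum_apply, Pi.smul_apply, smul_eq_mul]
    refine A.toSubring.sum_mem fun i _ => ?_
    have h1 : ((ℓ : ℕ) : AlgebraicClosure ℚ) ^ N * v i * b i u =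
        v i * (((ℓ : ℕ) : AlgebraicClosure ℚ) ^ N * b i u) := by ring
    rw [h1]
    exact A.mul_mem _ _ (hv i).1 (hN (i, u))
  · simp only [Finset.sum_apply, Pi.smul_apply, smul_eq_mul, map_sum, map_mul, map_pow,
      map_natCast]
    refine Finset.sum_congr rfl fun i _ => ?_
    rw [hb i σ u, (hv i).2 σ hσ]

include hℓ hA in
/-- a bounded lattice is finitely generated -/
theorem dtiLat_fg (L : Submodule (k0Ring A) (Fin n → AlgebraicClosure ℚ)) (a : ℕ)
    (ha : ∀ v ∈ L, ∀ i, ((ℓ : ℕ) : AlgebraicClosure ℚ) ^ a * v i ∈ k0Ring A) : L.FG := by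
  classical
  haveI := k0Ring_isDiscreteValuationRing hℓ A hA
  have hℓ0 : ((ℓ : ℕ) : AlgebraicClosure ℚ) ^ a ≠ 0 :=
    pow_ne_zero _ (Nat.cast_ne_zero.mpr hℓ.ne_zero)
  set e : Fin n → Fin n → AlgebraicClosure ℚ :=
    fun i => Pi.single i ((((ℓ : ℕ) : AlgebraicClosure ℚ) ^ a)⁻¹) with he
  set M0 : Submodule (k0Ring A) (Fin n → AlgebraicClosure ℚ) :=
    Submodule.span (k0Ring A) (Set.range e) with hM0
  have hM0fg : M0.FG := Submodule.fg_span (Set.finite_range e)
  have hle : L ≤ M0 := by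
    intro v hv
    have h1 : v = ∑ i, (⟨((ℓ : ℕ) : AlgebraicClosure ℚ) ^ a * v i, ha v hv i⟩ : k0Ring A) • e i := by
      funext j
      simp only [Finset.sum_apply, Pi.smul_apply, he, Subring.smul_def, smul_eq_mul, Pi.single_apply,
        mul_ite, mul_zero, Finset.sum_ite_eq, Finset.mem_univ, if_true]
      field_simp
    rw [h1]
    exact Submodule.sum_mem _ fun i _ =>
      Submodule.smul_mem _ _ (Submodule.subset_span (Set.mem_range_self i))
  haveI : IsNoetherian (k0Ring A) M0 := isNoetherian_of_fg_of_noetherian M0 hM0fg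
  exact isNoetherian_submodule.mp inferInstance L hle

include hℓ hA hone hmul in
/-- **[DESC]**: every `A`-valued function on `M` which is equivariant under the inertia group is
an `O0`-linear combination of `A`-valued functions which are equivariant under `G_ℚ`. -/
theorem desc_TI [Finite M]
    (hcont : ∀ x : M, ∃ E : IntermediateField ℚ (AlgebraicClosure ℚ), FiniteDimensional ℚ E ∧
      ∀ σ : AlgebraicClosure ℚ ≃ₐ[ℚ] AlgebraicClosure ℚ, (∀ e ∈ E, σ e = e) → act σ x = x)
    (f : M → AlgebraicClosure ℚ) (hfA : ∀ u, f u ∈ A)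
    (hfI : ∀ σ ∈ A.inertiaSubgroupIn ℚ, ∀ u, f (act σ u) = σ (f u)) :
    ∃ (m : ℕ) (c : Fin m → AlgebraicClosure ℚ) (g : Fin m → M → AlgebraicClosure ℚ),
      (∀ k, c k ∈ k0Ring A) ∧ (∀ k u, g k u ∈ A) ∧
      (∀ k (σ : AlgebraicClosure ℚ ≃ₐ[ℚ] AlgebraicClosure ℚ) u, g k (act σ u) = σ (g k u)) ∧
      ∀ u, f u = ∑ k, c k * g k u := by
  classical
  obtain ⟨n, b, hb⟩ := eq_exists_basis act hone hmul hcont
  obtain ⟨φ, hφ⟩ := exists_isFrobeniusAt_of_liesOver A hℓ hA
  obtain ⟨a, ha⟩ := dtiLat_bounded hℓ A hA act hone hmul b hb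
  obtain ⟨N, hN⟩ := dtiLat_open hℓ A hA act hone hmul b hb
  have hfg := dtiLat_fg hℓ A hA (dtiLat A act b) a ha
  have hdesc := lat_descent (k0f_isFrobSetup hℓ A hA hφ) (dtiLat A act b) hfg
    (fun v hv => dtiLat_frob A act hone hmul b hb hφ.mem_decompositionSubgroup hv) a ha N hN
  -- the coordinate vector of `f`
  set v : Fin n → AlgebraicClosure ℚ := fun i => b.repr f i with hv
  have hvf : ∑ i, v i • b i = f := b.sum_repr f
  have hvL : v ∈ dtiLat A act b := by
    show IsIntI A act (∑ i, v i • b i)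
    rw [hvf]
    exact ⟨hfA, hfI⟩
  rw [hdesc] at hvL
  obtain ⟨m, c, w, hcw⟩ := Submodule.mem_span_set'.mp hvL
  have hℓ0 : ((ℓ : ℕ) : AlgebraicClosure ℚ) ^ a ≠ 0 :=
    pow_ne_zero _ (Nat.cast_ne_zero.mpr hℓ.ne_zero)
  refine ⟨m, fun k => ((c k : k0Ring A) : AlgebraicClosure ℚ),
    fun k => ∑ i, (w k : Fin n → AlgebraicClosure ℚ) i • b i, fun k => (c k).2,
    fun k u => ((w k).2.1).1 u, fun k σ u => ?_, fun u => ?_⟩
  · have hr : ∀ i, σ ((w k : Fin n → AlgebraicClosure ℚ) i) =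
        (w k : Fin n → AlgebraicClosure ℚ) i := by
      intro i
      obtain ⟨r, hr⟩ := (w k).2.2 i
      have h1 : (w k : Fin n → AlgebraicClosure ℚ) i =
          (r : AlgebraicClosure ℚ) / ((ℓ : ℕ) : AlgebraicClosure ℚ) ^ a := by
        rw [eq_div_iff hℓ0, mul_comm]
        exact hr
      rw [h1, map_div₀, map_intCast, map_pow, map_natCast]
    simp only [Finset.sum_apply, Pi.smul_apply, smul_eq_mul, map_sum, map_mul, hb, hr]
  · have h1 : f u = ∑ i, v i * b i u := by
      conv_lhs => rw [← hvf]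
      simp only [Finset.sum_apply, Pi.smul_apply, smul_eq_mul]
    have h2 : ∀ i, v i = ∑ k, ((c k : k0Ring A) : AlgebraicClosure ℚ) *
        (w k : Fin n → AlgebraicClosure ℚ) i := by
      intro i
      have := congrFun hcw i
      simp only [Finset.sum_apply, Pi.smul_apply, Subring.smul_def, smul_eq_mul] at this
      exact this.symm
    rw [h1]
    simp only [h2, Finset.sum_apply, Pi.smul_apply, smul_eq_mul, Finset.sum_mul, Finset.mul_sum]
    rw [Finset.sum_comm]
    refine Finset.sum_congr rfl fun k _ => Finset.sum_congr rfl fun i _ => ?_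
    ring

include hℓ hA hone hmul in
/-- **(TI)_I ⇒ (TI)**: an `A`-linear combination of `A`-valued inertia-equivariant functions is an
`A`-linear combination of `A`-valued `G_ℚ`-equivariant functions. -/
theorem desc_combination [Finite M]
    (hcont : ∀ x : M, ∃ E : IntermediateField ℚ (AlgebraicClosure ℚ), FiniteDimensional ℚ E ∧
      ∀ σ : AlgebraicClosure ℚ ≃ₐ[ℚ] AlgebraicClosure ℚ, (∀ e ∈ E, σ e = e) → act σ x = x)
    (χ : M → AlgebraicClosure ℚ)
    (h : ∃ (n : ℕ) (a : Fin n → AlgebraicClosure ℚ) (f : Fin n → M → AlgebraicClosure ℚ),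
      (∀ i, a i ∈ A) ∧ (∀ i u, f i u ∈ A) ∧
      (∀ i, ∀ σ ∈ A.inertiaSubgroupIn ℚ, ∀ u, f i (act σ u) = σ (f i u)) ∧
      ∀ u, χ u = ∑ i, a i * f i u) :
    ∃ (n : ℕ) (a : Fin n → AlgebraicClosure ℚ) (f : Fin n → M → AlgebraicClosure ℚ),
      (∀ i, a i ∈ A) ∧ (∀ i u, f i u ∈ A) ∧
      (∀ i (σ : AlgebraicClosure ℚ ≃ₐ[ℚ] AlgebraicClosure ℚ) u, f i (act σ u) = σ (f i u)) ∧
      ∀ u, χ u = ∑ i, a i * f i u := by
  classical
  obtain ⟨n, a, f, haA, hfA, hfI, hχ⟩ := h
  choose m c g hc hgA hgG hfg using fun i =>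
    desc_TI hℓ A hA act hone hmul hcont (f i) (hfA i) (hfI i)
  let e := Fintype.equivFin (Σ i : Fin n, Fin (m i))
  refine ⟨Fintype.card (Σ i : Fin n, Fin (m i)),
    fun j => a (e.symm j).1 * c (e.symm j).1 (e.symm j).2,
    fun j => g (e.symm j).1 (e.symm j).2,
    fun j => A.mul_mem _ _ (haA _) (hc _ _).1, fun j u => hgA _ _ u,
    fun j σ u => hgG _ _ σ u, fun u => ?_⟩
  rw [hχ u]
  set F : (Σ i : Fin n, Fin (m i)) → AlgebraicClosure ℚ :=
    fun p => a p.1 * c p.1 p.2 * g p.1 p.2 u with hF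
  have h1 : (∑ j, a (e.symm j).1 * c (e.symm j).1 (e.symm j).2 * g (e.symm j).1 (e.symm j).2 u) =
      ∑ j, F (e.symm j) := rfl
  rw [h1, Equiv.sum_comp e.symm F, Fintype.sum_sigma]
  refine Finset.sum_congr rfl fun i _ => ?_
  rw [hfg i u, Finset.mul_sum]
  refine Finset.sum_congr rfl fun k _ => ?_
  simp only [hF]
  ring

end DescTI

end Fermat.Agent.T6.helper40
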