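/-
T6 (S19 / S32), algebraic END WIRING, part 1 (helper83): the Hopf algebra structure on an
algebra of functions on a finite commutative group.

Setting: `R` a commutative ring, `Ω` a commutative `R`-algebra, `Γ` a commutative group
(written additively), `H` a commutative `R`-algebra with an `R`-algebra homomorphism
`ev : H → (Γ → Ω)` ("elements of `H` are functions on `Γ`").  `IsOrder ev` says:

* `R → Ω`, `ev`, `ev₂ : H ⊗ H → (Γ × Γ → Ω)` and `ev₃ : H ⊗ (H ⊗ H) → (Γ × Γ × Γ → Ω)` are
  injective;
* for every `h` the function `(x, y) ↦ h (x + y)` is the image of a tensor (`comul`);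
* for every `h` the function `x ↦ h (- x)` is in `H` (`anti`), and `h 0 ∈ R` (`counit`).

Then `H` is a cocommutative Hopf algebra over `R` (`hopfAlgebra`, `isCocomm`), the evaluations
`evAt ev x : H →ₐ[R] Ω` multiply by convolution as the points add (`evPt_mul`).

Mathlib only.
-/
import Mathlib

set_option autoImplicit false
set_option linter.unusedSectionVars false
set_option linter.style.haveILetI false

open TensorProduct

namespace Fermat.Agent.T6.helper83

noncomputable section

section Core

variable {R Ω H Γ : Type*} [CommRing R] [CommRing Ω] [Algebra R Ω] [CommRing H] [Algebra R H]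
  [AddCommGroup Γ]

variable (ev : H →ₐ[R] (Γ → Ω))

/-- evaluation at a point -/
def evAt (x : Γ) : H →ₐ[R] Ω := (Pi.evalAlgHom R (fun _ : Γ => Ω) x).comp ev

@[simp] theorem evAt_apply (x : Γ) (h : H) : evAt ev x h = ev h x := rfl

/-- evaluation of a tensor at a pair of points -/
abbrev evAt₂ (x y : Γ) : H ⊗[R] H →ₐ[R] Ω :=
  Algebra.TensorProduct.lift (evAt ev x) (evAt ev y) (fun _ _ => Commute.all _ _)

@[simp] theorem evAt₂_tmul (x y : Γ) (a b : H) :
    evAt₂ ev x y (a ⊗ₜ[R] b) = ev a x * ev b y := by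
  simp [evAt₂]

/-- evaluation of a triple tensor at a triple of points -/
abbrev evAt₃ (x y z : Γ) : H ⊗[R] (H ⊗[R] H) →ₐ[R] Ω :=
  Algebra.TensorProduct.lift (evAt ev x) (evAt₂ ev y z) (fun _ _ => Commute.all _ _)

/-- the function on `Γ × Γ` of a tensor -/
def ev₂ : H ⊗[R] H →ₐ[R] (Γ × Γ → Ω) :=
  AlgHom.pi (fun p : Γ × Γ => evAt₂ ev p.1 p.2)

@[simp] theorem ev₂_apply (t : H ⊗[R] H) (p : Γ × Γ) : ev₂ ev t p = evAt₂ ev p.1 p.2 t := rfl

/-- the function on `Γ × Γ × Γ` of a triple tensor -/
def ev₃ : H ⊗[R] (H ⊗[R] H) →ₐ[R] (Γ × Γ × Γ → Ω) :=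
  AlgHom.pi (fun p : Γ × Γ × Γ => evAt₃ ev p.1 p.2.1 p.2.2)

@[simp] theorem ev₃_apply (t : H ⊗[R] (H ⊗[R] H)) (p : Γ × Γ × Γ) :
    ev₃ ev t p = evAt₃ ev p.1 p.2.1 p.2.2 t := rfl

/-- **Orders of functions closed under the group law.** -/
structure IsOrder : Prop where
  injR : Function.Injective (algebraMap R Ω)
  inj₁ : Function.Injective ev
  inj₂ : Function.Injective (ev₂ ev)
  inj₃ : Function.Injective (ev₃ ev)
  comul : ∀ h : H, ∃ t : H ⊗[R] H, ∀ x y, evAt₂ ev x y t = ev h (x + y)
  anti : ∀ h : H, ∃ h' : H, ∀ x, ev h' x = ev h (-x)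
  counit : ∀ h : H, ∃ r : R, algebraMap R Ω r = ev h 0

/-! ### General lemmas on `lift` -/

section Lift

variable {A B C D A' B' : Type*} [CommRing A] [Algebra R A] [CommRing B] [Algebra R B]
  [CommRing C] [Algebra R C] [CommRing D] [Algebra R D] [CommRing A'] [Algebra R A']
  [CommRing B'] [Algebra R B']

theorem lift_comp_map' (F : A →ₐ[R] D) (k : B →ₐ[R] D) (a : A' →ₐ[R] A) (b : B' →ₐ[R] B) :
    (Algebra.TensorProduct.lift F k (fun _ _ => Commute.all _ _)).comp
        (Algebra.TensorProduct.map a b) =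
      Algebra.TensorProduct.lift (F.comp a) (k.comp b) (fun _ _ => Commute.all _ _) := by
  apply Algebra.TensorProduct.ext'
  intro x y
  simp

theorem lift_lift_comp_assoc (f : A →ₐ[R] D) (g : B →ₐ[R] D) (k : C →ₐ[R] D) :
    (Algebra.TensorProduct.lift f
        (Algebra.TensorProduct.lift g k (fun _ _ => Commute.all _ _))
        (fun _ _ => Commute.all _ _)).comp
        (Algebra.TensorProduct.assoc R R R A B C).toAlgHom =
      Algebra.TensorProduct.lift
        (Algebra.TensorProduct.lift f g (fun _ _ => Commute.all _ _)) k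
        (fun _ _ => Commute.all _ _) := by
  apply Algebra.TensorProduct.ext
  · apply Algebra.TensorProduct.ext'
    intro x y
    simp
  · ext z
    simp [Algebra.TensorProduct.one_def]

end Lift

variable {ev}

/-! ### The structure maps -/

/-- `h ↦ ((x, y) ↦ h (x + y))` -/
def transl (ev : H →ₐ[R] (Γ → Ω)) : H →ₐ[R] (Γ × Γ → Ω) :=
  AlgHom.pi (fun p : Γ × Γ => evAt ev (p.1 + p.2))

theorem transl_mem_range (hO : IsOrder ev) (h : H) : transl ev h ∈ (ev₂ ev).range := by
  obtain ⟨t, ht⟩ := hO.comul h
  exact ⟨t, funext fun p => ht p.1 p.2⟩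

/-- the comultiplication -/
def comulHom (hO : IsOrder ev) : H →ₐ[R] H ⊗[R] H :=
  ((AlgEquiv.ofInjective (ev₂ ev) hO.inj₂).symm : (ev₂ ev).range →ₐ[R] H ⊗[R] H).comp
    ((transl ev).codRestrict (ev₂ ev).range (transl_mem_range hO))

theorem ev₂_comulHom (hO : IsOrder ev) (h : H) : ev₂ ev (comulHom hO h) = transl ev h := by
  have := (AlgEquiv.ofInjective (ev₂ ev) hO.inj₂).apply_symm_apply
    ((transl ev).codRestrict (ev₂ ev).range (transl_mem_range hO) h)
  exact congrArg Subtype.val this

theorem evAt₂_comp_comulHom (hO : IsOrder ev) (x y : Γ) :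
    (evAt₂ ev x y).comp (comulHom hO) = evAt ev (x + y) := by
  ext h
  exact congrFun (ev₂_comulHom hO h) (x, y)

theorem evAt_zero_mem_range (hO : IsOrder ev) (h : H) :
    evAt ev 0 h ∈ (Algebra.ofId R Ω).range := by
  obtain ⟨r, hr⟩ := hO.counit h
  exact ⟨r, hr⟩

/-- the counit -/
def counitHom (hO : IsOrder ev) : H →ₐ[R] R :=
  ((AlgEquiv.ofInjective (Algebra.ofId R Ω) hO.injR).symm :
      (Algebra.ofId R Ω).range →ₐ[R] R).comp
    ((evAt ev 0).codRestrict (Algebra.ofId R Ω).range (evAt_zero_mem_range hO))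

theorem ofId_comp_counitHom (hO : IsOrder ev) :
    (Algebra.ofId R Ω).comp (counitHom hO) = evAt ev 0 := by
  ext h
  have := (AlgEquiv.ofInjective (Algebra.ofId R Ω) hO.injR).apply_symm_apply
    ((evAt ev 0).codRestrict (Algebra.ofId R Ω).range (evAt_zero_mem_range hO) h)
  exact congrArg Subtype.val this

theorem algebraMap_counitHom (hO : IsOrder ev) (h : H) :
    algebraMap R Ω (counitHom hO h) = ev h 0 :=
  DFunLike.congr_fun (ofId_comp_counitHom hO) h

/-- `f ↦ (x ↦ f (-x))` -/
def negMap (R Ω Γ : Type*) [CommRing R] [CommRing Ω] [Algebra R Ω] [AddCommGroup Γ] :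
    (Γ → Ω) →ₐ[R] (Γ → Ω) :=
  AlgHom.pi (fun x : Γ => Pi.evalAlgHom R (fun _ : Γ => Ω) (-x))

theorem negMap_mem_range (hO : IsOrder ev) (h : H) :
    ((negMap R Ω Γ).comp ev) h ∈ ev.range := by
  obtain ⟨h', hh'⟩ := hO.anti h
  exact ⟨h', funext hh'⟩

/-- the antipode -/
def antipodeHom (hO : IsOrder ev) : H →ₐ[R] H :=
  ((AlgEquiv.ofInjective ev hO.inj₁).symm : ev.range →ₐ[R] H).comp
    (((negMap R Ω Γ).comp ev).codRestrict ev.range (negMap_mem_range hO))

theorem ev_antipodeHom (hO : IsOrder ev) (h : H) (x : Γ) :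
    ev (antipodeHom hO h) x = ev h (-x) := by
  have := (AlgEquiv.ofInjective ev hO.inj₁).apply_symm_apply
    (((negMap R Ω Γ).comp ev).codRestrict ev.range (negMap_mem_range hO) h)
  exact congrFun (congrArg Subtype.val this) x

theorem evAt_comp_antipodeHom (hO : IsOrder ev) (x : Γ) :
    (evAt ev x).comp (antipodeHom hO) = evAt ev (-x) := by
  ext h
  exact ev_antipodeHom hO h x

/-! ### The axioms -/

theorem coassoc_aux (hO : IsOrder ev) :
    (Algebra.TensorProduct.assoc R R R H H H).toAlgHom.comp
        ((Algebra.TensorProduct.map (comulHom hO) (.id R H)).comp (comulHom hO)) =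
      (Algebra.TensorProduct.map (.id R H) (comulHom hO)).comp (comulHom hO) := by
  apply AlgHom.ext
  intro h
  apply hO.inj₃
  funext p
  obtain ⟨x, y, z⟩ := p
  have e1 : (evAt₃ ev x y z).comp ((Algebra.TensorProduct.assoc R R R H H H).toAlgHom.comp
      ((Algebra.TensorProduct.map (comulHom hO) (.id R H)).comp (comulHom hO))) =
      evAt ev (x + y + z) := by
    rw [← AlgHom.comp_assoc, lift_lift_comp_assoc, ← AlgHom.comp_assoc,
      lift_comp_map', evAt₂_comp_comulHom hO x y, AlgHom.comp_id]
    exact evAt₂_comp_comulHom hO (x + y) z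
  have e2 : (evAt₃ ev x y z).comp
      ((Algebra.TensorProduct.map (.id R H) (comulHom hO)).comp (comulHom hO)) =
      evAt ev (x + (y + z)) := by
    rw [← AlgHom.comp_assoc, lift_comp_map', evAt₂_comp_comulHom hO y z, AlgHom.comp_id]
    exact evAt₂_comp_comulHom hO x (y + z)
  have h1 := DFunLike.congr_fun e1 h
  have h2 := DFunLike.congr_fun e2 h
  rw [add_assoc] at h1
  exact h1.trans h2.symm

theorem rTensor_aux (hO : IsOrder ev) :
    (Algebra.TensorProduct.map (counitHom hO) (.id R H)).comp (comulHom hO) =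
      (Algebra.TensorProduct.lid R H).symm := by
  apply AlgHom.ext
  intro h
  apply (Algebra.TensorProduct.lid R H).injective
  refine Eq.trans ?_ ((Algebra.TensorProduct.lid R H).apply_symm_apply h).symm
  apply hO.inj₁
  funext x
  have e : ((evAt ev x).comp (Algebra.TensorProduct.lid R H).toAlgHom).comp
      ((Algebra.TensorProduct.map (counitHom hO) (.id R H)).comp (comulHom hO)) =
      evAt ev x := by
    have e0 : (evAt ev x).comp (Algebra.TensorProduct.lid R H).toAlgHom =
        Algebra.TensorProduct.lift (Algebra.ofId R Ω) (evAt ev x)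
          (fun _ _ => Commute.all _ _) := by
      apply Algebra.TensorProduct.ext'
      intro r a
      simp [Algebra.smul_def, Algebra.ofId_apply]
    rw [e0, ← AlgHom.comp_assoc, lift_comp_map', ofId_comp_counitHom, AlgHom.comp_id]
    have := evAt₂_comp_comulHom hO 0 x
    rw [zero_add] at this
    exact this
  exact DFunLike.congr_fun e h

theorem lTensor_aux (hO : IsOrder ev) :
    (Algebra.TensorProduct.map (.id R H) (counitHom hO)).comp (comulHom hO) =
      (Algebra.TensorProduct.rid R R H).symm := by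
  apply AlgHom.ext
  intro h
  apply (Algebra.TensorProduct.rid R R H).injective
  refine Eq.trans ?_ ((Algebra.TensorProduct.rid R R H).apply_symm_apply h).symm
  apply hO.inj₁
  funext x
  have e : ((evAt ev x).comp (Algebra.TensorProduct.rid R R H).toAlgHom).comp
      ((Algebra.TensorProduct.map (.id R H) (counitHom hO)).comp (comulHom hO)) =
      evAt ev x := by
    have e0 : (evAt ev x).comp (Algebra.TensorProduct.rid R R H).toAlgHom =
        Algebra.TensorProduct.lift (evAt ev x) (Algebra.ofId R Ω)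
          (fun _ _ => Commute.all _ _) := by
      apply Algebra.TensorProduct.ext'
      intro a r
      simp [Algebra.smul_def, Algebra.ofId_apply, mul_comm]
    rw [e0, ← AlgHom.comp_assoc, lift_comp_map', ofId_comp_counitHom, AlgHom.comp_id]
    have := evAt₂_comp_comulHom hO x 0
    rw [add_zero] at this
    exact this
  exact DFunLike.congr_fun e h

/-- the bialgebra structure -/
@[reducible] def bialgebra (hO : IsOrder ev) : Bialgebra R H :=
  Bialgebra.ofAlgHom (comulHom hO) (counitHom hO) (coassoc_aux hO) (rTensor_aux hO)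
    (lTensor_aux hO)

theorem comulAlgHom_eq (hO : IsOrder ev) :
    letI := bialgebra hO
    Bialgebra.comulAlgHom R H = comulHom hO :=
  AlgHom.ext fun _ => rfl

theorem counitAlgHom_eq (hO : IsOrder ev) :
    letI := bialgebra hO
    Bialgebra.counitAlgHom R H = counitHom hO :=
  AlgHom.ext fun _ => rfl

theorem comp_lift' {A B D E : Type*} [CommRing A] [Algebra R A] [CommRing B] [Algebra R B]
    [CommRing D] [Algebra R D] [CommRing E] [Algebra R E]
    (F : D →ₐ[R] E) (a : A →ₐ[R] D) (b : B →ₐ[R] D) :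
    F.comp (Algebra.TensorProduct.lift a b (fun _ _ => Commute.all _ _)) =
      Algebra.TensorProduct.lift (F.comp a) (F.comp b) (fun _ _ => Commute.all _ _) := by
  apply Algebra.TensorProduct.ext'
  intro x y
  simp

theorem antipode_aux₁ (hO : IsOrder ev) :
    (Algebra.TensorProduct.lift (antipodeHom hO) (.id R H) fun _ _ => Commute.all _ _).comp
        (comulHom hO) = (Algebra.ofId R H).comp (counitHom hO) := by
  apply AlgHom.ext
  intro h
  apply hO.inj₁
  funext x
  have e1 : (evAt ev x).comp
      ((Algebra.TensorProduct.lift (antipodeHom hO) (.id R H) fun _ _ => Commute.all _ _).comp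
        (comulHom hO)) = evAt ev 0 := by
    rw [← AlgHom.comp_assoc, comp_lift', evAt_comp_antipodeHom, AlgHom.comp_id]
    have := evAt₂_comp_comulHom hO (-x) x
    rw [neg_add_cancel] at this
    exact this
  have e2 : (evAt ev x).comp ((Algebra.ofId R H).comp (counitHom hO)) = evAt ev 0 := by
    rw [← AlgHom.comp_assoc, ← ofId_comp_counitHom hO]
    congr 1
    ext
  exact (DFunLike.congr_fun e1 h).trans (DFunLike.congr_fun e2 h).symm

theorem antipode_aux₂ (hO : IsOrder ev) :
    (Algebra.TensorProduct.lift (.id R H) (antipodeHom hO) fun _ _ => Commute.all _ _).comp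
        (comulHom hO) = (Algebra.ofId R H).comp (counitHom hO) := by
  apply AlgHom.ext
  intro h
  apply hO.inj₁
  funext x
  have e1 : (evAt ev x).comp
      ((Algebra.TensorProduct.lift (.id R H) (antipodeHom hO) fun _ _ => Commute.all _ _).comp
        (comulHom hO)) = evAt ev 0 := by
    rw [← AlgHom.comp_assoc, comp_lift', evAt_comp_antipodeHom, AlgHom.comp_id]
    have := evAt₂_comp_comulHom hO x (-x)
    rw [add_neg_cancel] at this
    exact this
  have e2 : (evAt ev x).comp ((Algebra.ofId R H).comp (counitHom hO)) = evAt ev 0 := by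
    rw [← AlgHom.comp_assoc, ← ofId_comp_counitHom hO]
    congr 1
    ext
  exact (DFunLike.congr_fun e1 h).trans (DFunLike.congr_fun e2 h).symm

/-- **the Hopf algebra structure** -/
@[reducible] def hopfAlgebra (hO : IsOrder ev) : HopfAlgebra R H :=
  letI := bialgebra hO
  HopfAlgebra.ofAlgHom (antipodeHom hO)
    (by rw [comulAlgHom_eq, counitAlgHom_eq]; exact antipode_aux₁ hO)
    (by rw [comulAlgHom_eq, counitAlgHom_eq]; exact antipode_aux₂ hO)

theorem comul_eq (hO : IsOrder ev) (h : H) :
    letI := hopfAlgebra hO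
    Coalgebra.comul (R := R) h = comulHom hO h := rfl

theorem counit_eq (hO : IsOrder ev) (h : H) :
    letI := hopfAlgebra hO
    Coalgebra.counit (R := R) h = counitHom hO h := rfl

theorem evAt₂_comm (x y : Γ) (t : H ⊗[R] H) :
    evAt₂ ev x y (TensorProduct.comm R H H t) = evAt₂ ev y x t := by
  induction t using TensorProduct.induction_on with
  | zero => simp
  | tmul a b => simp [mul_comm]
  | add a b ha hb => rw [map_add, map_add, map_add, ha, hb]

/-- the Hopf algebra is cocommutative -/
theorem isCocomm (hO : IsOrder ev) :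
    letI := hopfAlgebra hO
    Coalgebra.IsCocomm R H := by
  letI := hopfAlgebra hO
  refine ⟨?_⟩
  apply LinearMap.ext
  intro h
  apply hO.inj₂
  funext p
  obtain ⟨x, y⟩ := p
  show evAt₂ ev x y (TensorProduct.comm R H H (comulHom hO h)) = evAt₂ ev x y (comulHom hO h)
  rw [evAt₂_comm]
  have h1 := DFunLike.congr_fun (evAt₂_comp_comulHom hO y x) h
  have h2 := DFunLike.congr_fun (evAt₂_comp_comulHom hO x y) h
  rw [add_comm] at h1
  exact h1.trans h2.symm

/-- the point of `H` with values in `Ω` defined by `x : Γ` -/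
def evPt (ev : H →ₐ[R] (Γ → Ω)) (x : Γ) : WithConv (H →ₐ[R] Ω) := WithConv.toConv (evAt ev x)

@[simp] theorem evPt_apply (x : Γ) (h : H) : (evPt ev x) h = ev h x := rfl

/-- convolution of points is addition in `Γ` -/
theorem evPt_mul (hO : IsOrder ev) (x y : Γ) :
    letI := hopfAlgebra hO
    evPt ev x * evPt ev y = evPt ev (x + y) := by
  letI := hopfAlgebra hO
  apply WithConv.ofConv_injective
  apply AlgHom.ext
  intro h
  have := AlgHom.convMul_apply (evPt ev x) (evPt ev y) h
  refine this.trans ?_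
  exact DFunLike.congr_fun (evAt₂_comp_comulHom hO x y) h

theorem evPt_one (hO : IsOrder ev) :
    letI := hopfAlgebra hO
    (1 : WithConv (H →ₐ[R] Ω)) = evPt ev 0 := by
  letI := hopfAlgebra hO
  apply WithConv.ofConv_injective
  apply AlgHom.ext
  intro h
  exact algebraMap_counitHom hO h

end Core

end

end Fermat.Agent.T6.helper83
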