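/-
T6 (S19 / S32), algebraic END WIRING, part 2 (helper83): Hopf orders of functions from a basis.

`H` a commutative `R`-algebra, free with a finite basis `b`, `ev : H →ₐ[R] (Γ → Ω)` with `Ω` a
field, `Γ` a finite commutative group.  If

* the functions `ev (b i)` are linearly independent over `Ω` and their number is `#Γ`,
* for every `h` the function `(x, y) ↦ h (x + y)` is a finite sum `∑ aᵢ(x) cᵢ(y)` with
  `aᵢ, cᵢ ∈ H`, `x ↦ h (-x)` is in `H`, and `h 0 ∈ R`,

then `H` is a finite flat cocommutative Hopf algebra over `R` whose `Ω`-points are the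
evaluations at the points of `Γ`, convolution being the addition of `Γ`
(`exists_hopfAlgebra_of_basis`); `exists_flat_model` is the conclusion in the exact shape of
`GaloisRepAdic.IsFlatAt` / S19, for any action of a group `G` on `Ω` and `Γ` for which the
elements of `H` are equivariant functions.

Mathlib only.
-/
import Mathlib
import Fermat.Agent.T6.helper83_HopfCore

set_option autoImplicit false
set_option linter.unusedSectionVars false
set_option linter.style.haveILetI false

open TensorProduct

namespace Fermat.Agent.T6.helper83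

noncomputable section

/-! ### Linear independence of products -/

/-- products of linearly independent families of functions are linearly independent -/
theorem linearIndependent_prod_fun {Ω ι κ X Y : Type*} [CommRing Ω] [Fintype ι] [Fintype κ]
    (f : ι → X → Ω) (g : κ → Y → Ω) (hf : LinearIndependent Ω f) (hg : LinearIndependent Ω g) :
    LinearIndependent Ω (fun p : ι × κ => fun q : X × Y => f p.1 q.1 * g p.2 q.2) := by
  rw [Fintype.linearIndependent_iff] at hf hg ⊢
  intro c hc p
  obtain ⟨i, j⟩ := p
  have h1 : ∀ y : Y, ∀ i, ∑ j, c (i, j) * g j y = 0 := by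
    intro y
    apply hf (fun i => ∑ j, c (i, j) * g j y)
    funext x
    have := congrFun hc (x, y)
    simp only [Finset.sum_apply, Pi.smul_apply, smul_eq_mul, Pi.zero_apply] at this ⊢
    rw [← this, Fintype.sum_prod_type]
    refine Finset.sum_congr rfl fun i _ => ?_
    rw [Finset.sum_mul]
    refine Finset.sum_congr rfl fun j _ => ?_
    ring
  have h2 : ∀ i, ∀ j, c (i, j) = 0 := by
    intro i
    apply hg (fun j => c (i, j))
    funext y
    simpa using h1 y i
  exact h2 i j

/-- an `R`-linear map which sends a basis to an `Ω`-linearly independent family is injective -/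
theorem injective_of_basis_li {R Ω M V ι : Type*} [CommRing R] [CommRing Ω] [Algebra R Ω]
    [AddCommGroup M] [Module R M] [AddCommGroup V] [Module Ω V] [Module R V]
    [IsScalarTower R Ω V] [Fintype ι]
    (hinj : Function.Injective (algebraMap R Ω)) (b : Module.Basis ι R M) (φ : M →ₗ[R] V)
    (hli : LinearIndependent Ω (fun i => φ (b i))) : Function.Injective φ := by
  rw [injective_iff_map_eq_zero]
  intro m hm
  rw [Fintype.linearIndependent_iff] at hli
  have h1 : φ m = ∑ i, algebraMap R Ω (b.repr m i) • φ (b i) := by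
    conv_lhs => rw [← b.sum_repr m]
    rw [map_sum]
    refine Finset.sum_congr rfl fun i _ => ?_
    rw [map_smul, algebraMap_smul]
  rw [hm] at h1
  have h2 := hli (fun i => algebraMap R Ω (b.repr m i)) h1.symm
  have h3 : ∀ i, b.repr m i = 0 := fun i => hinj (by rw [h2 i, map_zero])
  apply b.repr.injective
  ext i
  rw [h3 i, map_zero]
  rfl

section Basis

variable {R Ω H Γ ι : Type*} [CommRing R] [Field Ω] [Algebra R Ω] [CommRing H] [Algebra R H]
  [AddCommGroup Γ] [Fintype ι]

variable (ev : H →ₐ[R] (Γ → Ω)) (b : Module.Basis ι R H)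

theorem ev_injective_of_basis (hinj : Function.Injective (algebraMap R Ω))
    (hli : LinearIndependent Ω (fun i => ev (b i))) : Function.Injective ev :=
  injective_of_basis_li hinj b ev.toLinearMap hli

theorem li₂ (hli : LinearIndependent Ω (fun i => ev (b i))) :
    LinearIndependent Ω (fun p : ι × ι => ev₂ ev (b.tensorProduct b p)) := by
  have hfun : (fun p : ι × ι => ev₂ ev (b.tensorProduct b p)) =
      (fun p : ι × ι => fun q : Γ × Γ => ev (b p.1) q.1 * ev (b p.2) q.2) := by
    funext p q
    rw [Module.Basis.tensorProduct_apply']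
    simp
  rw [hfun]
  exact linearIndependent_prod_fun (fun i => ev (b i)) (fun i => ev (b i)) hli hli

theorem ev₂_injective_of_basis (hinj : Function.Injective (algebraMap R Ω))
    (hli : LinearIndependent Ω (fun i => ev (b i))) : Function.Injective (ev₂ ev) :=
  injective_of_basis_li hinj (b.tensorProduct b) (ev₂ ev).toLinearMap (li₂ ev b hli)

theorem li₃ (hli : LinearIndependent Ω (fun i => ev (b i))) :
    LinearIndependent Ω
      (fun p : ι × (ι × ι) => ev₃ ev (b.tensorProduct (b.tensorProduct b) p)) := by
  have hfun : (fun p : ι × (ι × ι) => ev₃ ev (b.tensorProduct (b.tensorProduct b) p)) =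
      (fun p : ι × (ι × ι) => fun q : Γ × (Γ × Γ) =>
        ev (b p.1) q.1 * ev₂ ev (b.tensorProduct b p.2) q.2) := by
    funext p q
    rw [Module.Basis.tensorProduct_apply']
    simp
  rw [hfun]
  exact linearIndependent_prod_fun (fun i => ev (b i))
    (fun p : ι × ι => ev₂ ev (b.tensorProduct b p)) hli (li₂ ev b hli)

theorem ev₃_injective_of_basis (hinj : Function.Injective (algebraMap R Ω))
    (hli : LinearIndependent Ω (fun i => ev (b i))) : Function.Injective (ev₃ ev) :=
  injective_of_basis_li hinj (b.tensorProduct (b.tensorProduct b)) (ev₃ ev).toLinearMap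
    (li₃ ev b hli)

/-- **`IsOrder` from a basis.** -/
theorem isOrder_of_basis (hinj : Function.Injective (algebraMap R Ω))
    (hli : LinearIndependent Ω (fun i => ev (b i)))
    (hcomul : ∀ h : H, ∃ (n : ℕ) (a c : Fin n → H),
      ∀ x y, ev h (x + y) = ∑ i, ev (a i) x * ev (c i) y)
    (hanti : ∀ h : H, ∃ h' : H, ∀ x, ev h' x = ev h (-x))
    (hcounit : ∀ h : H, ∃ r : R, algebraMap R Ω r = ev h 0) : IsOrder ev where
  injR := hinj
  inj₁ := ev_injective_of_basis ev b hinj hli
  inj₂ := ev₂_injective_of_basis ev b hinj hli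
  inj₃ := ev₃_injective_of_basis ev b hinj hli
  comul := fun h => by
    obtain ⟨n, a, c, hac⟩ := hcomul h
    refine ⟨∑ i, a i ⊗ₜ[R] c i, fun x y => ?_⟩
    rw [map_sum, hac x y]
    refine Finset.sum_congr rfl fun i _ => ?_
    simp
  anti := hanti
  counit := hcounit

end Basis

/-! ### The points -/

section Points

variable {R Ω H Γ ι : Type*} [CommRing R] [Field Ω] [Algebra R Ω] [CommRing H] [Algebra R H]
  [AddCommGroup Γ] [Fintype ι] [Finite Γ]

variable (ev : H →ₐ[R] (Γ → Ω)) (b : Module.Basis ι R H)

theorem span_eq_top_of_card (hli : LinearIndependent Ω (fun i => ev (b i)))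
    (hcard : Fintype.card ι = Nat.card Γ) :
    Submodule.span Ω (Set.range fun i => ev (b i)) = ⊤ := by
  haveI : Fintype Γ := Fintype.ofFinite Γ
  apply hli.span_eq_top_of_card_eq_finrank'
  rw [hcard, Module.finrank_fintype_fun_eq_card, Nat.card_eq_fintype_card]

/-- the elements of `H` separate the points of `Γ` -/
theorem exists_ev_ne (hli : LinearIndependent Ω (fun i => ev (b i)))
    (hcard : Fintype.card ι = Nat.card Γ) {x y : Γ} (hxy : x ≠ y) :
    ∃ h : H, ev h x ≠ ev h y := by
  classical
  by_contra hcon
  have hcon' : ∀ h : H, ev h x = ev h y := fun h => by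
    by_contra hne
    exact hcon ⟨h, hne⟩
  let S : Submodule Ω (Γ → Ω) :=
    { carrier := {f | f x = f y}
      add_mem' := fun {f g} hf hg => by
        show f x + g x = f y + g y
        rw [show f x = f y from hf, show g x = g y from hg]
      zero_mem' := rfl
      smul_mem' := fun c f hf => by
        show c * f x = c * f y
        rw [show f x = f y from hf] }
  have hle : Submodule.span Ω (Set.range fun i => ev (b i)) ≤ S := by
    rw [Submodule.span_le]
    rintro _ ⟨i, rfl⟩
    exact hcon' (b i)
  rw [span_eq_top_of_card ev b hli hcard] at hle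
  have h1 : (Pi.single x (1 : Ω) : Γ → Ω) ∈ S := hle Submodule.mem_top
  have h2 : (Pi.single x (1 : Ω) : Γ → Ω) x = (Pi.single x (1 : Ω) : Γ → Ω) y := h1
  rw [Pi.single_eq_same, Pi.single_eq_of_ne (Ne.symm hxy)] at h2
  exact one_ne_zero h2

theorem evAt_injective (hli : LinearIndependent Ω (fun i => ev (b i)))
    (hcard : Fintype.card ι = Nat.card Γ) : Function.Injective (evAt ev) := by
  intro x y hxy
  by_contra hne
  obtain ⟨h, hh⟩ := exists_ev_ne ev b hli hcard hne
  exact hh (DFunLike.congr_fun hxy h)

include b in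
theorem finite_algHom : Finite (H →ₐ[R] Ω) := by
  haveI : Module.Finite Ω (H →ₗ[R] Ω) := Module.Finite.equiv (b.constr Ω)
  exact (linearIndependent_toLinearMap R H Ω).finite

include b in
theorem card_algHom_le : Nat.card (H →ₐ[R] Ω) ≤ Fintype.card ι := by
  haveI : Module.Finite Ω (H →ₗ[R] Ω) := Module.Finite.equiv (b.constr Ω)
  haveI := finite_algHom (Ω := Ω) b
  haveI : Fintype (H →ₐ[R] Ω) := Fintype.ofFinite _
  have h1 := (linearIndependent_toLinearMap R H Ω).fintype_card_le_finrank
  rw [← (b.constr Ω).finrank_eq, Module.finrank_fintype_fun_eq_card] at h1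
  rw [Nat.card_eq_fintype_card]
  exact h1

theorem evAt_bijective (hli : LinearIndependent Ω (fun i => ev (b i)))
    (hcard : Fintype.card ι = Nat.card Γ) : Function.Bijective (evAt ev) := by
  haveI := finite_algHom (Ω := Ω) b
  apply (evAt_injective ev b hli hcard).bijective_of_nat_card_le
  rw [← hcard]
  exact card_algHom_le b

theorem evPt_bijective (hli : LinearIndependent Ω (fun i => ev (b i)))
    (hcard : Fintype.card ι = Nat.card Γ) : Function.Bijective (evPt ev) :=
  WithConv.toConv_bijective.comp (evAt_bijective ev b hli hcard)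

/-- the points of `H` are the points of `Γ` -/
def pointEquiv (hli : LinearIndependent Ω (fun i => ev (b i)))
    (hcard : Fintype.card ι = Nat.card Γ) : WithConv (H →ₐ[R] Ω) ≃ Γ :=
  (Equiv.ofBijective (evPt ev) (evPt_bijective ev b hli hcard)).symm

theorem evPt_pointEquiv (hli : LinearIndependent Ω (fun i => ev (b i)))
    (hcard : Fintype.card ι = Nat.card Γ) (f : WithConv (H →ₐ[R] Ω)) :
    evPt ev (pointEquiv ev b hli hcard f) = f :=
  (Equiv.ofBijective (evPt ev) (evPt_bijective ev b hli hcard)).apply_symm_apply f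

theorem pointEquiv_evPt (hli : LinearIndependent Ω (fun i => ev (b i)))
    (hcard : Fintype.card ι = Nat.card Γ) (x : Γ) :
    pointEquiv ev b hli hcard (evPt ev x) = x :=
  (Equiv.ofBijective (evPt ev) (evPt_bijective ev b hli hcard)).symm_apply_apply x

theorem apply_eq_ev_pointEquiv (hli : LinearIndependent Ω (fun i => ev (b i)))
    (hcard : Fintype.card ι = Nat.card Γ) (f : WithConv (H →ₐ[R] Ω)) (h : H) :
    f h = ev h (pointEquiv ev b hli hcard f) := by
  conv_lhs => rw [← evPt_pointEquiv ev b hli hcard f]
  rfl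

/-- the convolution of points is the addition of `Γ` -/
theorem pointEquiv_mul (hO : IsOrder ev) (hli : LinearIndependent Ω (fun i => ev (b i)))
    (hcard : Fintype.card ι = Nat.card Γ) :
    letI := hopfAlgebra hO
    ∀ f g : WithConv (H →ₐ[R] Ω),
      pointEquiv ev b hli hcard (f * g) =
        pointEquiv ev b hli hcard f + pointEquiv ev b hli hcard g := by
  letI := hopfAlgebra hO
  intro f g
  have hf := evPt_pointEquiv ev b hli hcard f
  have hg := evPt_pointEquiv ev b hli hcard g
  have h1 : f * g = evPt ev (pointEquiv ev b hli hcard f + pointEquiv ev b hli hcard g) := by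
    rw [← evPt_mul hO, hf, hg]
  rw [h1, pointEquiv_evPt]

/-- equivariance of the points -/
theorem pointEquiv_equivariant (hli : LinearIndependent Ω (fun i => ev (b i)))
    (hcard : Fintype.card ι = Nat.card Γ) (σΩ : Ω → Ω) (σΓ : Γ → Γ)
    (hequiv : ∀ (h : H) (x : Γ), ev h (σΓ x) = σΩ (ev h x))
    (f f' : WithConv (H →ₐ[R] Ω)) (hff' : ∀ h : H, f' h = σΩ (f h)) :
    pointEquiv ev b hli hcard f' = σΓ (pointEquiv ev b hli hcard f) := by
  apply evAt_injective ev b hli hcard
  apply AlgHom.ext
  intro h
  show ev h (pointEquiv ev b hli hcard f') = ev h (σΓ (pointEquiv ev b hli hcard f))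
  rw [← apply_eq_ev_pointEquiv ev b hli hcard f' h, hequiv,
    ← apply_eq_ev_pointEquiv ev b hli hcard f h, hff']

end Points

/-! ### The main theorem -/

section Main

universe u

variable {R Ω Γ : Type*} {H : Type u} {ι G : Type*} [CommRing R] [Field Ω] [Algebra R Ω]
  [CommRing H] [Algebra R H] [AddCommGroup Γ] [Fintype ι] [Finite Γ]

/-- **Hopf orders of functions: the conclusion in the shape of `GaloisRepAdic.IsFlatAt` and of
S19.**  `σΩ g`, `σΓ g` are the actions of a group (or just a set) `G` on `Ω` and on `Γ`; the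
elements of `H` are equivariant functions. -/
theorem exists_flat_model (ev : H →ₐ[R] (Γ → Ω)) (b : Module.Basis ι R H)
    (hinj : Function.Injective (algebraMap R Ω))
    (hli : LinearIndependent Ω (fun i => ev (b i)))
    (hcard : Fintype.card ι = Nat.card Γ)
    (hcomul : ∀ h : H, ∃ (n : ℕ) (a c : Fin n → H),
      ∀ x y, ev h (x + y) = ∑ i, ev (a i) x * ev (c i) y)
    (hanti : ∀ h : H, ∃ h' : H, ∀ x, ev h' x = ev h (-x))
    (hcounit : ∀ h : H, ∃ r : R, algebraMap R Ω r = ev h 0)
    (σΩ : G → Ω → Ω) (σΓ : G → Γ → Γ)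
    (hequiv : ∀ (g : G) (h : H) (x : Γ), ev h (σΓ g x) = σΩ g (ev h x)) :
    ∃ (H' : Type u) (_ : CommRing H') (_ : HopfAlgebra R H'),
      Module.Finite R H' ∧ Module.Flat R H' ∧ Coalgebra.IsCocomm R H' ∧
      ∃ e : WithConv (H' →ₐ[R] Ω) ≃ Γ,
        (∀ f g, e (f * g) = e f + e g) ∧
        ∀ (g : G) (f f' : WithConv (H' →ₐ[R] Ω)),
          (∀ h : H', f' h = σΩ g (f h)) → e f' = σΓ g (e f) := by
  have hO := isOrder_of_basis ev b hinj hli hcomul hanti hcounit
  refine ⟨H, inferInstance, hopfAlgebra hO, Module.Finite.of_basis b, ?_, isCocomm hO,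
    pointEquiv ev b hli hcard, pointEquiv_mul ev b hO hli hcard, ?_⟩
  · haveI : Module.Free R H := Module.Free.of_basis b
    exact Module.Flat.of_free
  · intro g f f' hff'
    exact pointEquiv_equivariant ev b hli hcard (σΩ g) (σΓ g) (hequiv g) f f' hff'

end Main

end

end Fermat.Agent.T6.helper83
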