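/-
T6 (S19), END WIRING (helper83): the frozen conclusion of S19 from ONE order of functions on
`J₀(p)[ℓ^k]`.

`S19Package p ℓ k` : a commutative `ℤ_(ℓ)`-algebra `H`, free of rank `#J₀(p)[ℓ^k]`, with an
algebra homomorphism `ev : H → (J₀(p)[ℓ^k] → ℚ̄)` whose basis functions are linearly
independent over `ℚ̄`, consisting of Galois-equivariant functions, closed under
`h ↦ ((x, y) ↦ h (x + y))` (as finite sums `∑ aᵢ(x) cᵢ(y)`), `h ↦ (x ↦ h (-x))`, and with
`h 0 ∈ ℤ_(ℓ)`.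

`s19_of_package` : `S19Package p ℓ k → (frozen conclusion of S19 at (p, ℓ, k))`.
-/
import Mathlib
import Fermat.Prelude.Def_ModularCurve_ArithmeticGalois
import Fermat.Prelude.Def_GaloisRep_Flat
import Fermat.Agent.T6.helper83_HopfOrder

set_option autoImplicit false

open ModularCurve

namespace Fermat.Agent.T6.helper83

/-- the Galois action on the torsion points -/
noncomputable def torsSmul (p : ℕ) [NeZero p] (n : ℤ) (σ : AlgebraicClosure ℚ ≃ₐ[ℚ] AlgebraicClosure ℚ)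
    (x : ↥(Submodule.torsionBy ℤ (JZero p) n)) : ↥(Submodule.torsionBy ℤ (JZero p) n) :=
  ⟨σ • (x : JZero p), by
    rw [Submodule.mem_torsionBy_iff]
    have hx := (Submodule.mem_torsionBy_iff _ _).mp x.2
    have h1 := map_zsmul (DistribSMul.toAddMonoidHom (JZero p) σ) n (x : JZero p)
    have h2 : n • (σ • (x : JZero p)) = σ • (n • (x : JZero p)) := h1.symm
    rw [h2, hx, smul_zero]⟩

@[simp] theorem coe_torsSmul (p : ℕ) [NeZero p] (n : ℤ)
    (σ : AlgebraicClosure ℚ ≃ₐ[ℚ] AlgebraicClosure ℚ)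
    (x : ↥(Submodule.torsionBy ℤ (JZero p) n)) :
    ((torsSmul p n σ x : ↥(Submodule.torsionBy ℤ (JZero p) n)) : JZero p) = σ • (x : JZero p) :=
  rfl

/-- **The package for S19**: an order of Galois-equivariant functions on `J₀(p)[ℓ^k]`, closed
under the group law. -/
def S19Package (p : ℕ) [NeZero p] (ℓ : ℕ) (k : ℕ) : Prop :=
  ∃ (H : Type) (_ : CommRing H) (_ : Algebra (GaloisRep.ratLocalizedAt ℓ) H)
    (ev : H →ₐ[GaloisRep.ratLocalizedAt ℓ]
      (↥(Submodule.torsionBy ℤ (JZero p) ((ℓ : ℤ) ^ k)) → AlgebraicClosure ℚ))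
    (ι : Type) (_ : Fintype ι) (b : Module.Basis ι (GaloisRep.ratLocalizedAt ℓ) H),
    Finite ↥(Submodule.torsionBy ℤ (JZero p) ((ℓ : ℤ) ^ k)) ∧
    LinearIndependent (AlgebraicClosure ℚ) (fun i => ev (b i)) ∧
    Fintype.card ι = Nat.card ↥(Submodule.torsionBy ℤ (JZero p) ((ℓ : ℤ) ^ k)) ∧
    (∀ h : H, ∃ (n : ℕ) (a c : Fin n → H),
      ∀ x y, ev h (x + y) = ∑ i, ev (a i) x * ev (c i) y) ∧
    (∀ h : H, ∃ h' : H, ∀ x, ev h' x = ev h (-x)) ∧
    (∀ h : H, ∃ r : GaloisRep.ratLocalizedAt ℓ,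
      algebraMap (GaloisRep.ratLocalizedAt ℓ) (AlgebraicClosure ℚ) r = ev h 0) ∧
    ∀ (σ : AlgebraicClosure ℚ ≃ₐ[ℚ] AlgebraicClosure ℚ) (h : H)
      (x : ↥(Submodule.torsionBy ℤ (JZero p) ((ℓ : ℤ) ^ k))),
      ev h (torsSmul p _ σ x) = σ (ev h x)

theorem algebraMap_ratLocalizedAt_injective (ℓ : ℕ) :
    Function.Injective
      (algebraMap (GaloisRep.ratLocalizedAt ℓ) (AlgebraicClosure ℚ)) := by
  intro a b hab
  have h1 : algebraMap ℚ (AlgebraicClosure ℚ) (a : ℚ) = algebraMap ℚ (AlgebraicClosure ℚ) (b : ℚ) :=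
    hab
  exact Subtype.ext ((algebraMap ℚ (AlgebraicClosure ℚ)).injective h1)

/-- **S19 from the package** (the conclusion is the frozen statement of S19, verbatim). -/
theorem s19_of_package (p : ℕ) [NeZero p] (ℓ : ℕ) (k : ℕ) (hP : S19Package p ℓ k) :
    ∃ (H : Type) (_ : CommRing H) (_ : HopfAlgebra (GaloisRep.ratLocalizedAt ℓ) H),
      Module.Finite (GaloisRep.ratLocalizedAt ℓ) H ∧ Module.Flat (GaloisRep.ratLocalizedAt ℓ) H ∧
      Coalgebra.IsCocomm (GaloisRep.ratLocalizedAt ℓ) H ∧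
      ∃ e : WithConv (H →ₐ[GaloisRep.ratLocalizedAt ℓ] AlgebraicClosure ℚ) ≃
          ↥(Submodule.torsionBy ℤ (JZero p) ((ℓ : ℤ) ^ k)),
        (∀ f g, e (f * g) = e f + e g) ∧
        ∀ (σ : AlgebraicClosure ℚ ≃ₐ[ℚ] AlgebraicClosure ℚ)
          (f g : WithConv (H →ₐ[GaloisRep.ratLocalizedAt ℓ] AlgebraicClosure ℚ)),
          (∀ h : H, g h = σ (f h)) → ((e g : JZero p)) = σ • (e f : JZero p) := by
  obtain ⟨H, _, _, ev, ι, _, b, hfin, hli, hcard, hcomul, hanti, hcounit, hequiv⟩ := hP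
  obtain ⟨H', i1, i2, h1, h2, h3, e, he, heq⟩ :=
    exists_flat_model ev b (algebraMap_ratLocalizedAt_injective ℓ) hli hcard hcomul hanti hcounit
      (fun σ : AlgebraicClosure ℚ ≃ₐ[ℚ] AlgebraicClosure ℚ => fun z => σ z)
      (fun σ => torsSmul p _ σ) hequiv
  refine ⟨H', i1, i2, h1, h2, h3, e, he, ?_⟩
  intro σ f g hfg
  have := heq σ f g hfg
  rw [this]
  rfl

end Fermat.Agent.T6.helper83
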