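import Mathlib
import Fermat.Agent.P3.helper85_Cont
import Fermat.Agent.T6.helper83_S19Wire

/-!
# T6 block [CONT] (helper85): the Galois action on `J₀(M)` has open stabilisers

The core is `Fermat.Agent.P3.helper85.torsionContinuity` (every point of `J₀(M)` is fixed by
all `g` fixing a suitable number field, for EVERY level `M`).  This file puts it into the shapes
used by the Fourier criterion:

* `cont_point`            : the number-field form, for one point;
* `isOpen_stabilizer`, `isClosed_stabilizer`, `isOpen_setOf_smul_eq`,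
  `isClosed_setOf_smul_eq` : stabilisers are open and closed for the Krull topology;
* `exists_galois_fixing`  : ONE finite Galois number field `E`, containing a given finite set
  `S ⊂ ℚ̄`, such that every `g` fixing `E` fixes every point of a given finite set `T ⊂ J₀(M)`;
* `exists_galois_fixing_torsion`, `cont_tors`, `torsSmul_eq_of_restrict_eq` : the same for
  the points of `J₀(p)[n]` (a `Finite` type) with `helper83.torsSmul`; the action on
  `J₀(p)[n]` and on `S` depends only on the restriction of `g` to `E`;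
* `exists_galois_fixing_fun` : every function `h : J₀(p)[n] → ℚ̄` has finitely many conjugates
  (it is fixed, for the semilinear action, by all `g` fixing a finite Galois number field).
-/

set_option autoImplicit false
set_option linter.style.haveILetI false
set_option linter.style.longLine false

namespace Fermat.Agent.T6.helper85

open ModularCurve IntermediateField


/-- **[CONT]** for one point, every level. -/
theorem cont_point (M : ℕ) [NeZero M] (x : JZero M) :
    ∃ K : IntermediateField ℚ (AlgebraicClosure ℚ), FiniteDimensional ℚ K ∧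
      ∀ g : (AlgebraicClosure ℚ ≃ₐ[ℚ] AlgebraicClosure ℚ), (∀ y ∈ K, g y = y) → g • x = x :=
  Fermat.Agent.P3.helper85.torsionContinuity M x

/-- the stabiliser of a point of `J₀(M)` is open. -/
theorem isOpen_stabilizer (M : ℕ) [NeZero M] (x : JZero M) :
    IsOpen ((MulAction.stabilizer (AlgebraicClosure ℚ ≃ₐ[ℚ] AlgebraicClosure ℚ) x : Subgroup (AlgebraicClosure ℚ ≃ₐ[ℚ] AlgebraicClosure ℚ)) : Set (AlgebraicClosure ℚ ≃ₐ[ℚ] AlgebraicClosure ℚ)) := by
  obtain ⟨K, hK, h⟩ := cont_point M x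
  haveI := hK
  refine Subgroup.isOpen_mono (H₁ := K.fixingSubgroup) ?_
    (IntermediateField.fixingSubgroup_isOpen K)
  intro g hg
  rw [MulAction.mem_stabilizer_iff]
  refine h g fun y hy => ?_
  exact (IntermediateField.mem_fixingSubgroup_iff K g).mp hg y hy

/-- the stabiliser of a point of `J₀(M)` is closed. -/
theorem isClosed_stabilizer (M : ℕ) [NeZero M] (x : JZero M) :
    IsClosed ((MulAction.stabilizer (AlgebraicClosure ℚ ≃ₐ[ℚ] AlgebraicClosure ℚ) x : Subgroup (AlgebraicClosure ℚ ≃ₐ[ℚ] AlgebraicClosure ℚ)) : Set (AlgebraicClosure ℚ ≃ₐ[ℚ] AlgebraicClosure ℚ)) :=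
  Subgroup.isClosed_of_isOpen _ (isOpen_stabilizer M x)

theorem isOpen_setOf_smul_eq (M : ℕ) [NeZero M] (x : JZero M) :
    IsOpen {g : (AlgebraicClosure ℚ ≃ₐ[ℚ] AlgebraicClosure ℚ) | g • x = x} :=
  isOpen_stabilizer M x

theorem isClosed_setOf_smul_eq (M : ℕ) [NeZero M] (x : JZero M) :
    IsClosed {g : (AlgebraicClosure ℚ ≃ₐ[ℚ] AlgebraicClosure ℚ) | g • x = x} :=
  isClosed_stabilizer M x

/-- ONE finite Galois number field for finitely many points and finitely many numbers. -/
theorem exists_galois_fixing (M : ℕ) [NeZero M] (T : Set (JZero M)) (hT : T.Finite)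
    (S : Set (AlgebraicClosure ℚ)) (hS : S.Finite) :
    ∃ E : IntermediateField ℚ (AlgebraicClosure ℚ), FiniteDimensional ℚ E ∧ IsGalois ℚ E ∧ S ⊆ E ∧
      ∀ g : (AlgebraicClosure ℚ ≃ₐ[ℚ] AlgebraicClosure ℚ), (∀ y ∈ E, g y = y) → ∀ x ∈ T, g • x = x := by
  classical
  haveI halg : Algebra.IsAlgebraic ℚ (AlgebraicClosure ℚ) := AlgebraicClosure.isAlgebraic ℚ
  haveI hcl : IsAlgClosure ℚ (AlgebraicClosure ℚ) :=
    (isAlgClosure_iff (k := ℚ) (AlgebraicClosure ℚ)).mpr ⟨inferInstance, inferInstance⟩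
  haveI hnor : Normal ℚ (AlgebraicClosure ℚ) := IsAlgClosure.normal ℚ (AlgebraicClosure ℚ)
  choose K hK hfix using cont_point M
  haveI : ∀ x : JZero M, FiniteDimensional ℚ (K x) := hK
  haveI : Finite T := hT.to_subtype
  haveI : Finite S := hS.to_subtype
  let K₀ : IntermediateField ℚ (AlgebraicClosure ℚ) := (⨆ x : T, K x) ⊔ IntermediateField.adjoin ℚ S
  haveI h1 : FiniteDimensional ℚ (⨆ x : T, K x : IntermediateField ℚ (AlgebraicClosure ℚ)) :=
    IntermediateField.finiteDimensional_iSup_of_finite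
  haveI h2 : FiniteDimensional ℚ (IntermediateField.adjoin ℚ S) :=
    IntermediateField.finiteDimensional_adjoin fun s _ =>
      (Algebra.IsIntegral.isIntegral (R := ℚ) s)
  haveI h3 : FiniteDimensional ℚ K₀ := IntermediateField.finiteDimensional_sup _ _
  let E : IntermediateField ℚ (AlgebraicClosure ℚ) := IntermediateField.normalClosure ℚ K₀ (AlgebraicClosure ℚ)
  have hle : K₀ ≤ E := IntermediateField.le_normalClosure K₀
  haveI hEfin : FiniteDimensional ℚ E := normalClosure.is_finiteDimensional ℚ K₀ (AlgebraicClosure ℚ)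
  haveI hEn : Normal ℚ E := normalClosure.normal ℚ K₀ (AlgebraicClosure ℚ)
  refine ⟨E, hEfin, ⟨⟩, ?_, ?_⟩
  · intro s hs
    exact hle ((le_sup_right : IntermediateField.adjoin ℚ S ≤ K₀)
      (IntermediateField.subset_adjoin ℚ S hs))
  · intro g hg x hx
    refine hfix x g fun y hy => hg y (hle ?_)
    have : K x ≤ (⨆ x : T, K x : IntermediateField ℚ (AlgebraicClosure ℚ)) := le_iSup (fun x : T => K x) ⟨x, hx⟩
    exact (le_sup_left : (⨆ x : T, K x : IntermediateField ℚ (AlgebraicClosure ℚ)) ≤ K₀) (this hy)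

section Torsion

variable (p : ℕ) [NeZero p] (n : ℤ)

/-- **[CONT]** on the torsion points, with `helper83.torsSmul`. -/
theorem cont_tors (x : ↥(Submodule.torsionBy ℤ (JZero p) n)) :
    ∃ K : IntermediateField ℚ (AlgebraicClosure ℚ), FiniteDimensional ℚ K ∧
      ∀ g : (AlgebraicClosure ℚ ≃ₐ[ℚ] AlgebraicClosure ℚ), (∀ y ∈ K, g y = y) → helper83.torsSmul p n g x = x := by
  obtain ⟨K, hK, h⟩ := cont_point p (x : JZero p)
  exact ⟨K, hK, fun g hg => Subtype.ext (h g hg)⟩

/-- ONE finite Galois number field `E ⊇ S` such that every `g` fixing `E` fixes every torsion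
point. -/
theorem exists_galois_fixing_torsion [Finite (↥(Submodule.torsionBy ℤ (JZero p) n))] (S : Set (AlgebraicClosure ℚ)) (hS : S.Finite) :
    ∃ E : IntermediateField ℚ (AlgebraicClosure ℚ), FiniteDimensional ℚ E ∧ IsGalois ℚ E ∧ S ⊆ E ∧
      ∀ g : (AlgebraicClosure ℚ ≃ₐ[ℚ] AlgebraicClosure ℚ), (∀ y ∈ E, g y = y) → ∀ x : ↥(Submodule.torsionBy ℤ (JZero p) n), helper83.torsSmul p n g x = x := by
  obtain ⟨E, h1, h2, h3, h4⟩ := exists_galois_fixing p
    (Set.range fun x : ↥(Submodule.torsionBy ℤ (JZero p) n) => (x : JZero p)) (Set.finite_range _) S hS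
  exact ⟨E, h1, h2, h3, fun g hg x => Subtype.ext (h4 g hg _ ⟨x, rfl⟩)⟩

theorem torsSmul_one (x : ↥(Submodule.torsionBy ℤ (JZero p) n)) : helper83.torsSmul p n 1 x = x :=
  Subtype.ext (one_smul _ _)

theorem torsSmul_mul (g g' : (AlgebraicClosure ℚ ≃ₐ[ℚ] AlgebraicClosure ℚ)) (x : ↥(Submodule.torsionBy ℤ (JZero p) n)) :
    helper83.torsSmul p n (g * g') x = helper83.torsSmul p n g (helper83.torsSmul p n g' x) :=
  Subtype.ext (mul_smul _ _ _)

theorem torsSmul_add (g : (AlgebraicClosure ℚ ≃ₐ[ℚ] AlgebraicClosure ℚ)) (x y : ↥(Submodule.torsionBy ℤ (JZero p) n)) :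
    helper83.torsSmul p n g (x + y) = helper83.torsSmul p n g x + helper83.torsSmul p n g y :=
  Subtype.ext (smul_add _ _ _)

theorem torsSmul_zero (g : (AlgebraicClosure ℚ ≃ₐ[ℚ] AlgebraicClosure ℚ)) : helper83.torsSmul p n g (0 : ↥(Submodule.torsionBy ℤ (JZero p) n)) = 0 :=
  Subtype.ext (smul_zero _)

theorem torsSmul_neg (g : (AlgebraicClosure ℚ ≃ₐ[ℚ] AlgebraicClosure ℚ)) (x : ↥(Submodule.torsionBy ℤ (JZero p) n)) :
    helper83.torsSmul p n g (-x) = -helper83.torsSmul p n g x :=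
  Subtype.ext (smul_neg _ _)

theorem torsSmul_inv_cancel (g : (AlgebraicClosure ℚ ≃ₐ[ℚ] AlgebraicClosure ℚ)) (x : ↥(Submodule.torsionBy ℤ (JZero p) n)) :
    helper83.torsSmul p n g⁻¹ (helper83.torsSmul p n g x) = x := by
  rw [← torsSmul_mul, inv_mul_cancel, torsSmul_one]

theorem torsSmul_cancel_inv (g : (AlgebraicClosure ℚ ≃ₐ[ℚ] AlgebraicClosure ℚ)) (x : ↥(Submodule.torsionBy ℤ (JZero p) n)) :
    helper83.torsSmul p n g (helper83.torsSmul p n g⁻¹ x) = x := by
  rw [← torsSmul_mul, mul_inv_cancel, torsSmul_one]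

/-- If `E` is as in `exists_galois_fixing_torsion`, the action on the torsion points depends only
on the restriction to `E`. -/
theorem torsSmul_eq_of_restrict_eq {E : IntermediateField ℚ (AlgebraicClosure ℚ)}
    (hE : ∀ g : (AlgebraicClosure ℚ ≃ₐ[ℚ] AlgebraicClosure ℚ), (∀ y ∈ E, g y = y) → ∀ x : ↥(Submodule.torsionBy ℤ (JZero p) n), helper83.torsSmul p n g x = x)
    {g g' : (AlgebraicClosure ℚ ≃ₐ[ℚ] AlgebraicClosure ℚ)} (h : ∀ y ∈ E, g y = g' y) (x : ↥(Submodule.torsionBy ℤ (JZero p) n)) :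
    helper83.torsSmul p n g x = helper83.torsSmul p n g' x := by
  have h1 : ∀ y ∈ E, (g'⁻¹ * g) y = y := by
    intro y hy
    rw [AlgEquiv.mul_apply, h y hy]
    exact g'.symm_apply_apply y
  have h2 := hE (g'⁻¹ * g) h1 x
  rw [torsSmul_mul] at h2
  have h3 := congrArg (helper83.torsSmul p n g') h2
  rwa [torsSmul_cancel_inv] at h3

/-- Every function on the torsion points has finitely many conjugates: it is fixed (for the
semilinear action `h ↦ g ∘ h ∘ g⁻¹`) by every `g` fixing a suitable finite Galois number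
field. -/
theorem exists_galois_fixing_fun [Finite (↥(Submodule.torsionBy ℤ (JZero p) n))] (h : ↥(Submodule.torsionBy ℤ (JZero p) n) → (AlgebraicClosure ℚ)) :
    ∃ E : IntermediateField ℚ (AlgebraicClosure ℚ), FiniteDimensional ℚ E ∧ IsGalois ℚ E ∧
      (∀ g : (AlgebraicClosure ℚ ≃ₐ[ℚ] AlgebraicClosure ℚ), (∀ y ∈ E, g y = y) → ∀ x : ↥(Submodule.torsionBy ℤ (JZero p) n), helper83.torsSmul p n g x = x) ∧
      ∀ g : (AlgebraicClosure ℚ ≃ₐ[ℚ] AlgebraicClosure ℚ), (∀ y ∈ E, g y = y) → ∀ x : ↥(Submodule.torsionBy ℤ (JZero p) n), g (h (helper83.torsSmul p n g⁻¹ x)) = h x := by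
  obtain ⟨E, h1, h2, h3, h4⟩ := exists_galois_fixing_torsion p n (Set.range h) (Set.finite_range h)
  refine ⟨E, h1, h2, h4, fun g hg x => ?_⟩
  have hginv : ∀ y ∈ E, g⁻¹ y = y := by
    intro y hy
    have := hg y hy
    calc g⁻¹ y = g⁻¹ (g y) := by rw [this]
      _ = y := g.symm_apply_apply y
  rw [h4 g⁻¹ hginv x]
  exact hg _ (h3 ⟨x, rfl⟩)

end Torsion

end Fermat.Agent.T6.helper85
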