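import Mathlib
import Fermat.Agent.T6.helper73_T6Iface
import Fermat.Agent.T6.helper85_ContT6
import Fermat.Agent.T6.helper40_DescTI

/-!
# T6, [DESC] adapters to the interface of helper73 (helper40)

* `TII A act`          : the criterion (TI) of `helper73_T6Iface` with functions `f i` which are
                         equivariant under the INERTIA group of `A` only;
* `ti_of_tii`          : `TII A act → TI A act` for every finite Galois module with a continuous
                         action;
* `ti_actTors_of_tii`  : the same for `J₀(M)[l ^ k]` (continuity from `helper85_ContT6`).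
-/

set_option autoImplicit false
set_option linter.unusedSectionVars false
set_option linter.unusedVariables false
set_option linter.style.haveILetI false

open scoped BigOperators

namespace Fermat.Agent.T6.helper40

open Fermat.Agent.T6.helper73 ModularCurve

/-- **(TI) for the inertia group**: every character of `M` is an `A`-linear combination of
`A`-valued functions which are equivariant under the inertia group of `A`. -/
def TII (A : ValuationSubring Kq) {M : Type} [AddCommGroup M] (act : Gq → M → M) : Prop :=
  ∀ χ : M → Kq, χ 0 = 1 → (∀ x y, χ (x + y) = χ x * χ y) →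
    ∃ (n : ℕ) (a : Fin n → Kq) (f : Fin n → M → Kq),
      (∀ i, a i ∈ A) ∧ (∀ i x, f i x ∈ A) ∧
      (∀ i, ∀ σ ∈ A.inertiaSubgroupIn ℚ, ∀ x, f i (act σ x) = σ (f i x)) ∧
      ∀ x, χ x = ∑ i, a i * f i x

theorem tii_of_ti (A : ValuationSubring Kq) {M : Type} [AddCommGroup M] (act : Gq → M → M)
    (h : TI A act) : TII A act := by
  intro χ h0 hadd
  obtain ⟨n, a, f, ha, hf, hfG, hχ⟩ := h χ h0 hadd
  exact ⟨n, a, f, ha, hf, fun i σ _ x => hfG i σ x, hχ⟩

/-- **(TI)_I ⇒ (TI)** for a finite Galois module with a continuous action. -/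
theorem ti_of_tii {l : ℕ} (hl : l.Prime) (A : ValuationSubring Kq) (hA : A.LiesOverPrime l)
    {M : Type} [AddCommGroup M] [Finite M] (act : Gq → M → M) (hact : IsGalAct act)
    (hcont : ∀ x : M, ∃ E : IntermediateField ℚ Kq, FiniteDimensional ℚ E ∧
      ∀ σ : Gq, (∀ e ∈ E, σ e = e) → act σ x = x)
    (h : TII A act) : TI A act := fun χ h0 hadd =>
  desc_combination hl A hA act hact.one hact.mul hcont χ (h χ h0 hadd)

/-- **(TI)_I ⇒ (TI)** for the torsion of `J₀(M)`. -/
theorem ti_actTors_of_tii {l : ℕ} (hl : l.Prime) (A : ValuationSubring Kq)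
    (hA : A.LiesOverPrime l) (M : ℕ) [NeZero M] (k : ℕ) [Finite (Tors M l k)]
    (h : TII A (actTors M l k)) : TI A (actTors M l k) :=
  ti_of_tii hl A hA (actTors M l k) (isGalAct_actTors M l k)
    (fun x => by
      obtain ⟨K, hK, hx⟩ := Fermat.Agent.T6.helper85.cont_point M (x : JZero M)
      exact ⟨K, hK, fun g hg => Subtype.ext (hx g hg)⟩) h

end Fermat.Agent.T6.helper40
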