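/-
T6 (S19 / S32), helper33: **Hopf orders in function form**.

`T` a finite commutative group with an action `act` of `G_ℚ`, `R = ℤ_(ℓ)`.  A *Hopf order* is an
`R`-subalgebra `H` of `Map(T, ℚ̄)` consisting of equivariant functions, finitely generated as a
module, separating the points of `T`, closed under the comultiplication
`φ ↦ ((x, y) ↦ φ (x + y))` (finite sums of products `a(x) b(y)`, `a, b ∈ H`) and under
`φ ↦ φ ∘ neg`.

`IsHopfOrder.exists_hopf`: a Hopf order gives a finite flat cocommutative Hopf algebra over `R`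
whose `ℚ̄`-points are `T`, Galois-equivariantly: the body of the frozen statement S19 and of
`GaloisRepAdic.IsFlatAt`.
-/
import Mathlib
import Fermat.Prelude.Def_GaloisRep_Flat
import Fermat.Agent.S28.helper94_Zl

set_option autoImplicit false
set_option linter.unusedSectionVars false
set_option linter.unusedVariables false
set_option linter.style.longLine false
set_option linter.style.haveILetI false

noncomputable section

open scoped TensorProduct

namespace Fermat.Agent.T6.helper33

open Fermat.Agent.S28.helper94 (Zl isPrincipalIdealRing_Zl isFractionRing_Zl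
  isIntegrallyClosed_Zl)

/-- `ℚ̄` -/
abbrev Qb : Type := AlgebraicClosure ℚ

/-- the absolute Galois group of `ℚ` -/
abbrev GQ : Type := AlgebraicClosure ℚ ≃ₐ[ℚ] AlgebraicClosure ℚ

/-- An element of `ℚ̄` fixed by the whole Galois group is rational. -/
theorem exists_rat_of_fixed (x : Qb) (hx : ∀ σ : GQ, σ x = x) :
    ∃ q : ℚ, algebraMap ℚ Qb q = x := by
  have hcl : IsAlgClosure ℚ Qb := by
    have h : (DivisionRing.toRatAlgebra : Algebra ℚ Qb) = AlgebraicClosure.instAlgebra ℚ :=
      Subsingleton.elim _ _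
    rw [h]
    infer_instance
  have hgal : IsGalois ℚ Qb := inferInstance
  exact (InfiniteGalois.mem_range_algebraMap_iff_fixed (k := ℚ) (K := Qb) x).mpr hx

/-! ### Galois descent of linear independence -/

section Descent

variable {X ι : Type*}

/-- **Galois descent of linear independence**: equivariant functions `X → ℚ̄` which are linearly
independent over `ℚ` are linearly independent over `ℚ̄`. -/
theorem linearIndependent_of_equivariant (act : GQ → X → X)
    (hact : ∀ σ, Function.Surjective (act σ))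
    (φ : ι → X → Qb) (heq : ∀ i (σ : GQ) x, φ i (act σ x) = σ (φ i x))
    (hQ : LinearIndependent ℚ φ) : LinearIndependent Qb φ := by
  classical
  rw [linearIndependent_iff']
  intro s
  induction s using Finset.strongInduction with
  | H s ih =>
    intro g hg
    by_contra hne
    push Not at hne
    obtain ⟨i0, hi0, hgi0⟩ := hne
    by_cases hz : ∃ j ∈ s, g j = 0
    · obtain ⟨j, hj, hgj⟩ := hz
      have h1 : ∑ i ∈ s.erase j, g i • φ i = 0 := by
        rw [← Finset.add_sum_erase s _ hj, hgj, zero_smul, zero_add] at hg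
        exact hg
      have := ih (s.erase j) (Finset.erase_ssubset hj) g h1
      exact hgi0 (this i0 (Finset.mem_erase.mpr ⟨by rintro rfl; exact hgi0 hgj, hi0⟩))
    · push Not at hz
      set g' : ι → Qb := fun i => g i / g i0 with hg'def
      have hg' : ∑ i ∈ s, g' i • φ i = 0 := by
        have : ∑ i ∈ s, g' i • φ i = (g i0)⁻¹ • ∑ i ∈ s, g i • φ i := by
          rw [Finset.smul_sum]
          refine Finset.sum_congr rfl fun i _ => ?_
          rw [smul_smul, hg'def]
          congr 1
          field_simp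
        rw [this, hg, smul_zero]
      have h1 : g' i0 = 1 := div_self hgi0
      have hfix : ∀ σ : GQ, ∀ i ∈ s, σ (g' i) = g' i := by
        intro σ
        have hσ : ∑ i ∈ s, σ (g' i) • φ i = 0 := by
          funext y
          obtain ⟨x, rfl⟩ := hact σ y
          have h2 := congrFun hg' x
          simp only [Finset.sum_apply, Pi.smul_apply, smul_eq_mul, Pi.zero_apply] at h2 ⊢
          have h3 := congrArg σ h2
          rw [map_sum, map_zero] at h3
          rw [← h3]
          refine Finset.sum_congr rfl fun i _ => ?_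
          rw [map_mul, heq]
        have hd : ∑ i ∈ s.erase i0, (σ (g' i) - g' i) • φ i = 0 := by
          have h4 : ∑ i ∈ s, (σ (g' i) - g' i) • φ i = 0 := by
            simp only [sub_smul, Finset.sum_sub_distrib, hσ, hg', sub_zero]
          rw [← Finset.add_sum_erase s _ hi0, h1, map_one, sub_self, zero_smul, zero_add] at h4
          exact h4
        have h5 := ih (s.erase i0) (Finset.erase_ssubset hi0) _ hd
        intro i hi
        by_cases h : i = i0
        · subst h
          rw [h1, map_one]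
        · exact sub_eq_zero.mp (h5 i (Finset.mem_erase.mpr ⟨h, hi⟩))
      have hr : ∀ i, ∃ r : ℚ, i ∈ s → algebraMap ℚ Qb r = g' i := by
        intro i
        by_cases hi : i ∈ s
        · obtain ⟨r, hr⟩ := exists_rat_of_fixed (g' i) (fun σ => hfix σ i hi)
          exact ⟨r, fun _ => hr⟩
        · exact ⟨0, fun h => absurd h hi⟩
      choose r hr using hr
      have hrel : ∑ i ∈ s, r i • φ i = 0 := by
        rw [← hg']
        refine Finset.sum_congr rfl fun i hi => ?_
        rw [← hr i hi, algebraMap_smul]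
      have h6 := linearIndependent_iff'.mp hQ s r hrel i0 hi0
      have h7 := hr i0 hi0
      rw [h6, map_zero, h1] at h7
      exact zero_ne_one h7

/-- products of linearly independent families of functions are linearly independent. -/
theorem linearIndependent_mulProd {K X Y ι κ : Type*} [Field K] [Fintype ι] [Fintype κ]
    (F : ι → X → K) (G : κ → Y → K) (hF : LinearIndependent K F) (hG : LinearIndependent K G) :
    LinearIndependent K (fun p : ι × κ => fun q : X × Y => F p.1 q.1 * G p.2 q.2) := by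
  classical
  rw [Fintype.linearIndependent_iff]
  intro g hg
  have key : ∀ y : Y, ∀ i, ∑ j, g (i, j) * G j y = 0 := by
    intro y
    have h1 : ∑ i, (∑ j, g (i, j) * G j y) • F i = 0 := by
      funext x
      have h2 := congrFun hg (x, y)
      simp only [Finset.sum_apply, Pi.smul_apply, smul_eq_mul, Pi.zero_apply,
        Fintype.sum_prod_type] at h2 ⊢
      rw [← h2]
      refine Finset.sum_congr rfl fun i _ => ?_
      rw [Finset.sum_mul]
      refine Finset.sum_congr rfl fun j _ => ?_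
      ring
    exact Fintype.linearIndependent_iff.mp hF _ h1
  rintro ⟨i, j⟩
  have h3 : ∑ j, g (i, j) • G j = 0 := by
    funext y
    simpa only [Finset.sum_apply, Pi.smul_apply, smul_eq_mul, Pi.zero_apply] using key y i
  exact Fintype.linearIndependent_iff.mp hG _ h3 j

end Descent


/-! ### Generalities -/

section Gen

/-- a linear map which sends a basis to a family linearly independent over a bigger ring is
injective. -/
theorem injective_of_basis_indep {R K M V ι : Type*} [CommSemiring R] [Field K] [Algebra R K]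
    [AddCommMonoid M] [Module R M] [AddCommMonoid V] [Module R V] [Module K V]
    [IsScalarTower R K V] (hRK : Function.Injective (algebraMap R K))
    (f : M →ₗ[R] V) (b : Module.Basis ι R M)
    (hb : LinearIndependent K (fun i => f (b i))) : Function.Injective f := by
  have h1 : LinearIndependent R (fun i => f (b i)) := by
    refine LinearIndependent.restrict_scalars (K := K) ?_ hb
    intro r s hrs
    apply hRK
    simpa [Algebra.smul_def] using hrs
  have h2 := linearIndependent_iff_injective_finsuppLinearCombination.mp h1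
  have h3 : (f : M → V) = (Finsupp.linearCombination R (fun i => f (b i))) ∘ b.repr := by
    funext x
    have h4 : f x = f (Finsupp.linearCombination R b (b.repr x)) := by
      rw [b.linearCombination_repr]
    rw [h4, Finsupp.apply_linearCombination]
    rfl
  rw [h3]
  exact h2.comp b.repr.injective

variable (ℓ : ℕ)

/-- precomposition with a map, as an algebra homomorphism. -/
def pre {X Y : Type*} (u : X → Y) : (Y → Qb) →ₐ[Zl ℓ] (X → Qb) where
  toFun φ := φ ∘ u
  map_one' := rfl
  map_mul' _ _ := rfl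
  map_zero' := rfl
  map_add' _ _ := rfl
  commutes' _ := rfl

@[simp]
theorem pre_apply {X Y : Type*} (u : X → Y) (φ : Y → Qb) (x : X) : pre ℓ u φ x = φ (u x) := rfl

theorem coe_algebraMap_Zl (r : Zl ℓ) : algebraMap (Zl ℓ) Qb r = algebraMap ℚ Qb (r : ℚ) := rfl

theorem algebraMap_Zl_injective : Function.Injective (algebraMap (Zl ℓ) Qb) := by
  intro r s hrs
  rw [coe_algebraMap_Zl, coe_algebraMap_Zl] at hrs
  exact Subtype.ext ((algebraMap ℚ Qb).injective hrs)

end Gen

/-! ### Hopf orders -/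

section Order

variable (ℓ : ℕ) [hℓ : Fact ℓ.Prime] {T : Type} [AddCommGroup T] [Finite T]

/-- **Hopf orders** in the algebra of functions on a finite commutative group `T` with an
action of `G_ℚ`. -/
structure IsHopfOrder (act : GQ → T → T) (H : Subalgebra (Zl ℓ) (T → Qb)) : Prop where
  /-- the action is by surjective maps -/
  act_surj : ∀ σ, Function.Surjective (act σ)
  /-- the action fixes the origin -/
  act_zero : ∀ σ, act σ 0 = 0
  /-- `H` is a finitely generated module -/
  fg : H.toSubmodule.FG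
  /-- the elements of `H` are equivariant -/
  equivariant : ∀ φ ∈ H, ∀ (σ : GQ) (x : T), φ (act σ x) = σ (φ x)
  /-- `H` separates the points -/
  sep : ∀ x y : T, x ≠ y → ∃ φ ∈ H, φ x ≠ φ y
  /-- `H` is closed under the comultiplication -/
  comul : ∀ φ ∈ H, ∃ (n : ℕ) (a b : Fin n → T → Qb), (∀ i, a i ∈ H) ∧ (∀ i, b i ∈ H) ∧
    ∀ x y, φ (x + y) = ∑ i, a i x * b i y
  /-- `H` is closed under the antipode -/
  neg : ∀ φ ∈ H, (fun x => φ (-x)) ∈ H

namespace IsHopfOrder

variable {ℓ} {act : GQ → T → T} {H : Subalgebra (Zl ℓ) (T → Qb)}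

theorem finite (h : IsHopfOrder ℓ act H) : Module.Finite (Zl ℓ) H :=
  Module.Finite.iff_fg.mpr h.fg

omit hℓ [Finite T] in
theorem torsionFree (H : Subalgebra (Zl ℓ) (T → Qb)) : Module.IsTorsionFree (Zl ℓ) H := by
  refine Module.IsTorsionFree.of_smul_eq_zero fun r φ hr => ?_
  by_cases h0 : r = 0
  · exact Or.inl h0
  · right
    apply Subtype.ext
    funext x
    have h1 : algebraMap (Zl ℓ) Qb r * (φ : T → Qb) x = 0 := by
      have h1 := congrFun (congrArg Subtype.val hr) x
      rw [← Algebra.smul_def]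
      exact h1
    rcases mul_eq_zero.mp h1 with h2 | h2
    · exact absurd ((algebraMap_Zl_injective ℓ) (by rw [h2, map_zero])) h0
    · exact h2

theorem free (h : IsHopfOrder ℓ act H) : Module.Free (Zl ℓ) H := by
  haveI := isPrincipalIdealRing_Zl ℓ
  haveI := h.finite
  haveI := torsionFree H
  exact Module.free_of_finite_type_torsion_free'


/-- a basis of a Hopf order -/
def basis (h : IsHopfOrder ℓ act H) : Module.Basis (Fin (Module.finrank (Zl ℓ) H)) (Zl ℓ) H :=
  haveI := h.finite
  haveI := h.free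
  Module.finBasis (Zl ℓ) H

/-- the basis of a Hopf order is linearly independent over `ℚ̄` (Galois descent). -/
theorem basis_indep (h : IsHopfOrder ℓ act H) :
    LinearIndependent Qb (fun i => ((h.basis i : H) : T → Qb)) := by
  have h1 : LinearIndependent (Zl ℓ) (fun i => ((h.basis i : H) : T → Qb)) :=
    h.basis.linearIndependent.map' H.val.toLinearMap
      (LinearMap.ker_eq_bot.mpr Subtype.val_injective)
  haveI := isFractionRing_Zl ℓ
  have h2 : LinearIndependent ℚ (fun i => ((h.basis i : H) : T → Qb)) :=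
    (LinearIndependent.iff_fractionRing (Zl ℓ) ℚ).mp h1
  exact linearIndependent_of_equivariant act h.act_surj _
    (fun i σ x => h.equivariant _ (h.basis i).2 σ x) h2

variable (H) in
/-- evaluation of tensors on pairs -/
def E₂ : H ⊗[Zl ℓ] H →ₐ[Zl ℓ] (T × T → Qb) :=
  Algebra.TensorProduct.productMap ((pre ℓ Prod.fst).comp H.val) ((pre ℓ Prod.snd).comp H.val)

omit hℓ [Finite T] in
theorem E₂_tmul (a b : H) (q : T × T) :
    E₂ H (a ⊗ₜ b) q = (a : T → Qb) q.1 * (b : T → Qb) q.2 := rfl

variable (H) in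
/-- evaluation of tensors on triples -/
def E₃ : H ⊗[Zl ℓ] (H ⊗[Zl ℓ] H) →ₐ[Zl ℓ] (T × (T × T) → Qb) :=
  Algebra.TensorProduct.productMap ((pre ℓ Prod.fst).comp H.val) ((pre ℓ Prod.snd).comp (E₂ H))

omit hℓ [Finite T] in
theorem E₃_tmul (a : H) (w : H ⊗[Zl ℓ] H) (q : T × (T × T)) :
    E₃ H (a ⊗ₜ w) q = (a : T → Qb) q.1 * E₂ H w q.2 := rfl

theorem E₂_injective (h : IsHopfOrder ℓ act H) : Function.Injective (E₂ H) := by
  refine injective_of_basis_indep (K := Qb) (algebraMap_Zl_injective ℓ) (E₂ H).toLinearMap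
    (h.basis.tensorProduct h.basis) ?_
  have := linearIndependent_mulProd _ _ h.basis_indep h.basis_indep
  convert this using 1
  · funext p
    obtain ⟨i, j⟩ := p
    rw [Module.Basis.tensorProduct_apply]
    rfl
  · rfl

theorem E₃_injective (h : IsHopfOrder ℓ act H) : Function.Injective (E₃ H) := by
  refine injective_of_basis_indep (K := Qb) (algebraMap_Zl_injective ℓ) (E₃ H).toLinearMap
    (h.basis.tensorProduct (h.basis.tensorProduct h.basis)) ?_
  have := linearIndependent_mulProd _ _ h.basis_indep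
    (linearIndependent_mulProd _ _ h.basis_indep h.basis_indep)
  convert this using 1
  · funext p
    obtain ⟨i, j, k⟩ := p
    rw [Module.Basis.tensorProduct_apply, Module.Basis.tensorProduct_apply]
    rfl
  · rfl


/-! ### The structure maps -/

variable (H) in
/-- the comultiplication, with values in the functions on `T × T` -/
def Δ₀ : H →ₐ[Zl ℓ] (T × T → Qb) := (pre ℓ (fun q : T × T => q.1 + q.2)).comp H.val

theorem Δ₀_mem_range (h : IsHopfOrder ℓ act H) (φ : H) : Δ₀ H φ ∈ (E₂ H).range := by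
  obtain ⟨n, a, b, ha, hb, hab⟩ := h.comul φ φ.2
  refine ⟨∑ i, (⟨a i, ha i⟩ : H) ⊗ₜ[Zl ℓ] (⟨b i, hb i⟩ : H), ?_⟩
  funext q
  rw [map_sum, Finset.sum_apply]
  refine (Finset.sum_congr rfl fun i _ => E₂_tmul _ _ q).trans ?_
  exact (hab q.1 q.2).symm

/-- the comultiplication of a Hopf order -/
def comulHom (h : IsHopfOrder ℓ act H) : H →ₐ[Zl ℓ] H ⊗[Zl ℓ] H :=
  ((AlgEquiv.ofInjective (E₂ H) h.E₂_injective).symm :
      (E₂ H).range →ₐ[Zl ℓ] H ⊗[Zl ℓ] H).comp
    ((Δ₀ H).codRestrict (E₂ H).range h.Δ₀_mem_range)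

theorem E₂_comulHom (h : IsHopfOrder ℓ act H) (φ : H) (q : T × T) :
    E₂ H (h.comulHom φ) q = (φ : T → Qb) (q.1 + q.2) := by
  have h1 := (AlgEquiv.ofInjective (E₂ H) h.E₂_injective).apply_symm_apply
    ⟨Δ₀ H φ, h.Δ₀_mem_range φ⟩
  have h2 := congrArg Subtype.val h1
  rw [AlgEquiv.ofInjective_apply] at h2
  exact congrFun h2 q

theorem eval_zero_mem (h : IsHopfOrder ℓ act H) (φ : H) :
    ((Pi.evalAlgHom (Zl ℓ) (fun _ : T => Qb) 0).comp H.val) φ ∈
      (Algebra.ofId (Zl ℓ) Qb).range := by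
  obtain ⟨q, hq⟩ := exists_rat_of_fixed ((φ : T → Qb) 0)
    (fun σ => by rw [← h.equivariant φ φ.2 σ 0, h.act_zero])
  haveI := h.finite
  have hint : IsIntegral (Zl ℓ) φ := Algebra.IsIntegral.isIntegral φ
  have h1 : IsIntegral (Zl ℓ) ((φ : T → Qb) 0) :=
    hint.map ((Pi.evalAlgHom (Zl ℓ) (fun _ : T => Qb) 0).comp H.val)
  rw [← hq] at h1
  have h2 : IsIntegral (Zl ℓ) q := (isIntegral_algebraMap_iff (algebraMap ℚ Qb).injective).mp h1
  haveI := isFractionRing_Zl ℓ
  haveI := isIntegrallyClosed_Zl ℓ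
  obtain ⟨r, hr⟩ := IsIntegrallyClosed.isIntegral_iff.mp h2
  refine ⟨r, ?_⟩
  show algebraMap (Zl ℓ) Qb r = (φ : T → Qb) 0
  rw [← hq, ← hr]
  rfl

/-- the counit of a Hopf order -/
def counitHom (h : IsHopfOrder ℓ act H) : H →ₐ[Zl ℓ] Zl ℓ :=
  ((AlgEquiv.ofInjective (Algebra.ofId (Zl ℓ) Qb) (algebraMap_Zl_injective ℓ)).symm :
      (Algebra.ofId (Zl ℓ) Qb).range →ₐ[Zl ℓ] Zl ℓ).comp
    (((Pi.evalAlgHom (Zl ℓ) (fun _ : T => Qb) 0).comp H.val).codRestrict _ h.eval_zero_mem)

theorem algebraMap_counitHom (h : IsHopfOrder ℓ act H) (φ : H) :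
    algebraMap (Zl ℓ) Qb (h.counitHom φ) = (φ : T → Qb) 0 := by
  have h1 := (AlgEquiv.ofInjective (Algebra.ofId (Zl ℓ) Qb)
    (algebraMap_Zl_injective ℓ)).apply_symm_apply
      ⟨((Pi.evalAlgHom (Zl ℓ) (fun _ : T => Qb) 0).comp H.val) φ, h.eval_zero_mem φ⟩
  have h2 := congrArg Subtype.val h1
  rw [AlgEquiv.ofInjective_apply] at h2
  exact h2

/-- the antipode of a Hopf order -/
def antipodeHom (h : IsHopfOrder ℓ act H) : H →ₐ[Zl ℓ] H :=
  ((pre ℓ (Neg.neg : T → T)).comp H.val).codRestrict H (fun φ => h.neg φ φ.2)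

theorem antipodeHom_apply (h : IsHopfOrder ℓ act H) (φ : H) (x : T) :
    ((h.antipodeHom φ : H) : T → Qb) x = (φ : T → Qb) (-x) := rfl


/-! ### The axioms, checked on functions -/

omit hℓ [Finite T] in
theorem E₃_assoc_tmul (w : H ⊗[Zl ℓ] H) (b : H) (q : T × (T × T)) :
    E₃ H (Algebra.TensorProduct.assoc (Zl ℓ) (Zl ℓ) (Zl ℓ) H H H (w ⊗ₜ b)) q
      = E₂ H w (q.1, q.2.1) * (b : T → Qb) q.2.2 := by
  induction w using TensorProduct.induction_on with
  | zero => simp
  | tmul a₁ a₂ =>
    rw [Algebra.TensorProduct.assoc_tmul, E₃_tmul, E₂_tmul, E₂_tmul, mul_assoc]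
  | add w₁ w₂ h₁ h₂ =>
    rw [TensorProduct.add_tmul, map_add, map_add, map_add, Pi.add_apply, Pi.add_apply, h₁, h₂,
      add_mul]

theorem E₃_assoc_map (h : IsHopfOrder ℓ act H) (z : H ⊗[Zl ℓ] H) (q : T × (T × T)) :
    E₃ H (Algebra.TensorProduct.assoc (Zl ℓ) (Zl ℓ) (Zl ℓ) H H H
      (Algebra.TensorProduct.map h.comulHom (AlgHom.id (Zl ℓ) H) z)) q
      = E₂ H z (q.1 + q.2.1, q.2.2) := by
  induction z using TensorProduct.induction_on with
  | zero => simp
  | tmul a b =>
    rw [Algebra.TensorProduct.map_tmul, E₃_assoc_tmul, E₂_comulHom, E₂_tmul]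
    rfl
  | add w₁ w₂ h₁ h₂ =>
    rw [map_add, map_add, map_add, map_add, Pi.add_apply, Pi.add_apply, h₁, h₂]

theorem E₃_map (h : IsHopfOrder ℓ act H) (z : H ⊗[Zl ℓ] H) (q : T × (T × T)) :
    E₃ H (Algebra.TensorProduct.map (AlgHom.id (Zl ℓ) H) h.comulHom z) q
      = E₂ H z (q.1, q.2.1 + q.2.2) := by
  induction z using TensorProduct.induction_on with
  | zero => simp
  | tmul a b =>
    rw [Algebra.TensorProduct.map_tmul, E₃_tmul, E₂_comulHom, E₂_tmul]
    rfl
  | add w₁ w₂ h₁ h₂ =>
    rw [map_add, map_add, map_add, Pi.add_apply, Pi.add_apply, h₁, h₂]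

theorem lid_map (h : IsHopfOrder ℓ act H) (z : H ⊗[Zl ℓ] H) (x : T) :
    ((Algebra.TensorProduct.lid (Zl ℓ) H
      (Algebra.TensorProduct.map h.counitHom (AlgHom.id (Zl ℓ) H) z) : H) : T → Qb) x
      = E₂ H z (0, x) := by
  induction z using TensorProduct.induction_on with
  | zero => simp
  | tmul a b =>
    rw [Algebra.TensorProduct.map_tmul, Algebra.TensorProduct.lid_tmul, E₂_tmul,
      ← h.algebraMap_counitHom]
    show (h.counitHom a • ((AlgHom.id (Zl ℓ) H b : H) : T → Qb)) x = _
    rw [Pi.smul_apply, Algebra.smul_def]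
    rfl
  | add w₁ w₂ h₁ h₂ =>
    rw [map_add, map_add, map_add]
    show ((_ : H) : T → Qb) x + ((_ : H) : T → Qb) x = _
    rw [h₁, h₂, Pi.add_apply]

theorem rid_map (h : IsHopfOrder ℓ act H) (z : H ⊗[Zl ℓ] H) (x : T) :
    ((Algebra.TensorProduct.rid (Zl ℓ) (Zl ℓ) H
      (Algebra.TensorProduct.map (AlgHom.id (Zl ℓ) H) h.counitHom z) : H) : T → Qb) x
      = E₂ H z (x, 0) := by
  induction z using TensorProduct.induction_on with
  | zero => simp
  | tmul a b =>
    rw [Algebra.TensorProduct.map_tmul, Algebra.TensorProduct.rid_tmul, E₂_tmul,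
      ← h.algebraMap_counitHom]
    show (h.counitHom b • ((AlgHom.id (Zl ℓ) H a : H) : T → Qb)) x = _
    rw [Pi.smul_apply, Algebra.smul_def, mul_comm]
    rfl
  | add w₁ w₂ h₁ h₂ =>
    rw [map_add, map_add, map_add]
    show ((_ : H) : T → Qb) x + ((_ : H) : T → Qb) x = _
    rw [h₁, h₂, Pi.add_apply]

theorem comulHom_coassoc (h : IsHopfOrder ℓ act H) :
    (Algebra.TensorProduct.assoc (Zl ℓ) (Zl ℓ) (Zl ℓ) H H H).toAlgHom.comp
      ((Algebra.TensorProduct.map h.comulHom (AlgHom.id (Zl ℓ) H)).comp h.comulHom)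
      = (Algebra.TensorProduct.map (AlgHom.id (Zl ℓ) H) h.comulHom).comp h.comulHom := by
  refine AlgHom.ext fun φ => h.E₃_injective (funext fun q => ?_)
  rw [AlgHom.comp_apply, AlgHom.comp_apply, AlgHom.comp_apply]
  show E₃ H (Algebra.TensorProduct.assoc (Zl ℓ) (Zl ℓ) (Zl ℓ) H H H _) q = _
  rw [h.E₃_assoc_map, h.E₃_map, h.E₂_comulHom, h.E₂_comulHom, add_assoc]

theorem comulHom_rTensor (h : IsHopfOrder ℓ act H) :
    (Algebra.TensorProduct.map h.counitHom (AlgHom.id (Zl ℓ) H)).comp h.comulHom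
      = (Algebra.TensorProduct.lid (Zl ℓ) H).symm := by
  refine AlgHom.ext fun φ => (Algebra.TensorProduct.lid (Zl ℓ) H).injective ?_
  rw [AlgHom.comp_apply]
  show _ = (Algebra.TensorProduct.lid (Zl ℓ) H) ((Algebra.TensorProduct.lid (Zl ℓ) H).symm φ)
  rw [AlgEquiv.apply_symm_apply]
  refine Subtype.ext (funext fun x => ?_)
  rw [h.lid_map, h.E₂_comulHom, zero_add]

theorem comulHom_lTensor (h : IsHopfOrder ℓ act H) :
    (Algebra.TensorProduct.map (AlgHom.id (Zl ℓ) H) h.counitHom).comp h.comulHom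
      = (Algebra.TensorProduct.rid (Zl ℓ) (Zl ℓ) H).symm := by
  refine AlgHom.ext fun φ => (Algebra.TensorProduct.rid (Zl ℓ) (Zl ℓ) H).injective ?_
  rw [AlgHom.comp_apply]
  show _ = (Algebra.TensorProduct.rid (Zl ℓ) (Zl ℓ) H)
    ((Algebra.TensorProduct.rid (Zl ℓ) (Zl ℓ) H).symm φ)
  rw [AlgEquiv.apply_symm_apply]
  refine Subtype.ext (funext fun x => ?_)
  rw [h.rid_map, h.E₂_comulHom, add_zero]

/-- the bialgebra structure of a Hopf order -/
abbrev bialgebra (h : IsHopfOrder ℓ act H) : Bialgebra (Zl ℓ) H :=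
  Bialgebra.ofAlgHom h.comulHom h.counitHom h.comulHom_coassoc h.comulHom_rTensor
    h.comulHom_lTensor

theorem lift_antipode_id (h : IsHopfOrder ℓ act H) (z : H ⊗[Zl ℓ] H) (x : T) :
    ((Algebra.TensorProduct.lift h.antipodeHom (AlgHom.id (Zl ℓ) H)
      (fun _ _ => Commute.all _ _) z : H) : T → Qb) x = E₂ H z (-x, x) := by
  induction z using TensorProduct.induction_on with
  | zero => simp
  | tmul a b =>
    rw [Algebra.TensorProduct.lift_tmul, E₂_tmul]
    rfl
  | add w₁ w₂ h₁ h₂ =>
    rw [map_add, map_add]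
    show ((_ : H) : T → Qb) x + ((_ : H) : T → Qb) x = _
    rw [h₁, h₂, Pi.add_apply]

theorem lift_id_antipode (h : IsHopfOrder ℓ act H) (z : H ⊗[Zl ℓ] H) (x : T) :
    ((Algebra.TensorProduct.lift (AlgHom.id (Zl ℓ) H) h.antipodeHom
      (fun _ _ => Commute.all _ _) z : H) : T → Qb) x = E₂ H z (x, -x) := by
  induction z using TensorProduct.induction_on with
  | zero => simp
  | tmul a b =>
    rw [Algebra.TensorProduct.lift_tmul, E₂_tmul]
    rfl
  | add w₁ w₂ h₁ h₂ =>
    rw [map_add, map_add]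
    show ((_ : H) : T → Qb) x + ((_ : H) : T → Qb) x = _
    rw [h₁, h₂, Pi.add_apply]

/-- the Hopf algebra structure of a Hopf order -/
abbrev hopfAlgebra (h : IsHopfOrder ℓ act H) : HopfAlgebra (Zl ℓ) H :=
  letI := h.bialgebra
  HopfAlgebra.ofAlgHom h.antipodeHom
    (by
      refine AlgHom.ext fun φ => Subtype.ext (funext fun x => ?_)
      rw [AlgHom.comp_apply, AlgHom.comp_apply]
      show ((Algebra.TensorProduct.lift h.antipodeHom (AlgHom.id (Zl ℓ) H)
        (fun _ _ => Commute.all _ _) (h.comulHom φ) : H) : T → Qb) x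
          = algebraMap (Zl ℓ) Qb (h.counitHom φ)
      rw [h.lift_antipode_id, h.E₂_comulHom, h.algebraMap_counitHom, neg_add_cancel])
    (by
      refine AlgHom.ext fun φ => Subtype.ext (funext fun x => ?_)
      rw [AlgHom.comp_apply, AlgHom.comp_apply]
      show ((Algebra.TensorProduct.lift (AlgHom.id (Zl ℓ) H) h.antipodeHom
        (fun _ _ => Commute.all _ _) (h.comulHom φ) : H) : T → Qb) x
          = algebraMap (Zl ℓ) Qb (h.counitHom φ)
      rw [h.lift_id_antipode, h.E₂_comulHom, h.algebraMap_counitHom, add_neg_cancel])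

omit hℓ [Finite T] in
theorem E₂_comm (z : H ⊗[Zl ℓ] H) (q : T × T) :
    E₂ H (TensorProduct.comm (Zl ℓ) H H z) q = E₂ H z (q.2, q.1) := by
  induction z using TensorProduct.induction_on with
  | zero => simp
  | tmul a b =>
    rw [TensorProduct.comm_tmul, E₂_tmul, E₂_tmul, mul_comm]
  | add w₁ w₂ h₁ h₂ =>
    rw [map_add, map_add, map_add, Pi.add_apply, Pi.add_apply, h₁, h₂]

theorem isCocomm (h : IsHopfOrder ℓ act H) :
    letI := h.hopfAlgebra
    Coalgebra.IsCocomm (Zl ℓ) H := by
  letI := h.hopfAlgebra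
  refine ⟨LinearMap.ext fun φ => h.E₂_injective (funext fun q => ?_)⟩
  rw [LinearMap.comp_apply]
  show E₂ H (TensorProduct.comm (Zl ℓ) H H (h.comulHom φ)) q = E₂ H (h.comulHom φ) q
  rw [E₂_comm, h.E₂_comulHom, h.E₂_comulHom, add_comm]


/-! ### The points -/

variable (H) in
/-- evaluation at a point of `T` -/
def ev (x : T) : H →ₐ[Zl ℓ] Qb := (Pi.evalAlgHom (Zl ℓ) (fun _ : T => Qb) x).comp H.val

omit hℓ [Finite T] in
@[simp]
theorem ev_apply (x : T) (φ : H) : ev H x φ = (φ : T → Qb) x := rfl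

theorem ev_injective (h : IsHopfOrder ℓ act H) : Function.Injective (ev H) := by
  intro x y hxy
  by_contra hne
  obtain ⟨φ, hφ, hne'⟩ := h.sep x y hne
  exact hne' (DFunLike.congr_fun hxy ⟨φ, hφ⟩)

/-- the points of a Hopf order, restricted to a basis, are linearly independent (Dedekind). -/
theorem points_indep (h : IsHopfOrder ℓ act H) :
    LinearIndependent Qb (fun ψ : H →ₐ[Zl ℓ] Qb => fun i => ψ (h.basis i)) := by
  classical
  rw [linearIndependent_iff']
  intro s g hg ψ₀ hψ₀
  have hD : LinearIndependent Qb (fun ψ : H →ₐ[Zl ℓ] Qb => ((ψ : H →* Qb) : H → Qb)) :=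
    (linearIndependent_monoidHom H Qb).comp (fun ψ : H →ₐ[Zl ℓ] Qb => (ψ : H →* Qb))
      (fun ψ₁ ψ₂ h12 => AlgHom.ext fun φ => DFunLike.congr_fun h12 φ)
  refine linearIndependent_iff'.mp hD s g ?_ ψ₀ hψ₀
  funext φ
  have hi : ∀ i, ∑ ψ ∈ s, g ψ * ψ (h.basis i) = 0 := by
    intro i
    have := congrFun hg i
    simpa only [Finset.sum_apply, Pi.smul_apply, smul_eq_mul, Pi.zero_apply] using this
  have hφ : ∀ ψ : H →ₐ[Zl ℓ] Qb, ψ φ = ∑ i, h.basis.repr φ i • ψ (h.basis i) := by
    intro ψ
    conv_lhs => rw [← h.basis.sum_repr φ]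
    rw [map_sum]
    refine Finset.sum_congr rfl fun i _ => ?_
    rw [map_smul]
  simp only [Finset.sum_apply, Pi.smul_apply, smul_eq_mul, Pi.zero_apply]
  show ∑ ψ ∈ s, g ψ * ψ φ = 0
  calc ∑ ψ ∈ s, g ψ * ψ φ
      = ∑ ψ ∈ s, ∑ i, h.basis.repr φ i • (g ψ * ψ (h.basis i)) := by
        refine Finset.sum_congr rfl fun ψ _ => ?_
        rw [hφ ψ, Finset.mul_sum]
        refine Finset.sum_congr rfl fun i _ => ?_
        rw [mul_smul_comm]
    _ = ∑ i, h.basis.repr φ i • ∑ ψ ∈ s, g ψ * ψ (h.basis i) := by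
        rw [Finset.sum_comm]
        refine Finset.sum_congr rfl fun i _ => ?_
        rw [Finset.smul_sum]
    _ = 0 := by
        refine Finset.sum_eq_zero fun i _ => ?_
        rw [hi i, smul_zero]

theorem finite_points (h : IsHopfOrder ℓ act H) : Finite (H →ₐ[Zl ℓ] Qb) :=
  h.points_indep.finite_of_isNoetherian

theorem card_points_le (h : IsHopfOrder ℓ act H) : Nat.card (H →ₐ[Zl ℓ] Qb) ≤ Nat.card T := by
  classical
  haveI := h.finite_points
  letI := Fintype.ofFinite (H →ₐ[Zl ℓ] Qb)
  letI := Fintype.ofFinite T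
  have h1 := h.points_indep.fintype_card_le_finrank
  have h2 := h.basis_indep.fintype_card_le_finrank
  rw [Module.finrank_fintype_fun_eq_card] at h1 h2
  rw [Nat.card_eq_fintype_card, Nat.card_eq_fintype_card]
  exact h1.trans h2

theorem ev_bijective (h : IsHopfOrder ℓ act H) : Function.Bijective (ev H) := by
  haveI := h.finite_points
  exact h.ev_injective.bijective_of_nat_card_le h.card_points_le

omit hℓ [Finite T] in
theorem lift_ev (x y : T) (z : H ⊗[Zl ℓ] H) :
    Algebra.TensorProduct.lift (ev H x) (ev H y) (fun _ _ => Commute.all _ _) z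
      = E₂ H z (x, y) := by
  induction z using TensorProduct.induction_on with
  | zero => simp
  | tmul a b =>
    rw [Algebra.TensorProduct.lift_tmul, E₂_tmul]
    rfl
  | add w₁ w₂ h₁ h₂ =>
    rw [map_add, map_add, Pi.add_apply, h₁, h₂]

/-- **A Hopf order gives a finite flat cocommutative Hopf algebra over `ℤ_(ℓ)` whose
`ℚ̄`-points are `T`, Galois-equivariantly** (the body of the frozen statement S19 and of
`GaloisRepAdic.IsFlatAt`). -/
theorem exists_hopf (h : IsHopfOrder ℓ act H) :
    ∃ (H' : Type) (_ : CommRing H') (_ : HopfAlgebra (GaloisRep.ratLocalizedAt ℓ) H'),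
      Module.Finite (GaloisRep.ratLocalizedAt ℓ) H' ∧
      Module.Flat (GaloisRep.ratLocalizedAt ℓ) H' ∧
      Coalgebra.IsCocomm (GaloisRep.ratLocalizedAt ℓ) H' ∧
      ∃ e : WithConv (H' →ₐ[GaloisRep.ratLocalizedAt ℓ] AlgebraicClosure ℚ) ≃ T,
        (∀ f g, e (f * g) = e f + e g) ∧
        ∀ (σ : AlgebraicClosure ℚ ≃ₐ[ℚ] AlgebraicClosure ℚ)
          (f g : WithConv (H' →ₐ[GaloisRep.ratLocalizedAt ℓ] AlgebraicClosure ℚ)),
          (∀ a : H', g a = σ (f a)) → e g = act σ (e f) := by
  letI := h.hopfAlgebra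
  have hmul : ∀ x y : T, (WithConv.toConv (ev H x) * WithConv.toConv (ev H y) :
      WithConv (H →ₐ[Zl ℓ] Qb)) = WithConv.toConv (ev H (x + y)) := by
    intro x y
    refine WithConv.ext (AlgHom.ext fun φ => ?_)
    have h1 := AlgHom.convMul_apply (WithConv.toConv (ev H x)) (WithConv.toConv (ev H y)) φ
    refine h1.trans ?_
    show Algebra.TensorProduct.lift (ev H x) (ev H y) (fun _ _ => Commute.all _ _)
      (h.comulHom φ) = _
    rw [lift_ev, h.E₂_comulHom]
    rfl
  let e₀ : T ≃ (H →ₐ[Zl ℓ] Qb) := Equiv.ofBijective (ev H) h.ev_bijective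
  let e : WithConv (H →ₐ[Zl ℓ] Qb) ≃ T := (WithConv.equiv _).trans e₀.symm
  have he : ∀ f : WithConv (H →ₐ[Zl ℓ] Qb), f = WithConv.toConv (ev H (e f)) := by
    intro f
    have h1 : e₀ (e f) = f.ofConv := e₀.apply_symm_apply _
    exact WithConv.ext h1.symm
  have he' : ∀ x : T, e (WithConv.toConv (ev H x)) = x := fun x => e₀.symm_apply_apply x
  refine ⟨H, inferInstance, h.hopfAlgebra, h.finite, ?_, h.isCocomm, e, ?_, ?_⟩
  · haveI := h.free
    exact Module.Flat.of_free
  · intro f g
    conv_lhs => rw [he f, he g, hmul, he']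
  · intro σ f g hfg
    have h1 : g = WithConv.toConv (ev H (act σ (e f))) := by
      refine WithConv.ext (AlgHom.ext fun φ => ?_)
      have h2 := hfg φ
      rw [he f] at h2
      refine h2.trans ?_
      show σ ((φ : T → Qb) (e f)) = (φ : T → Qb) (act σ (e f))
      rw [h.equivariant φ φ.2]
    rw [h1, he']

end IsHopfOrder

end Order

end Fermat.Agent.T6.helper33

end
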