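/-
T6 (S19), block [LEVEL] (helper66): the frozen statement S19 at an ARBITRARY level `N`
(`ℓ ∤ N`) from ONE Hopf order (helper33 `IsHopfOrder`) on `J₀(N r)[ℓ^k]` at the good auxiliary
level `N r` (`r = 4` for `ℓ` odd, `r = 9` for `ℓ = 2`).

* `pullPic_smul` : the pull-back `β_r^* : J₀(N) → J₀(N r)` (S37 `pullPic`) commutes with the
  Galois action (P3 helper10 `pullbackAlong_smul`, `intertwines_heckeBetaBar`);
* `pullTors`, `pullTors_injective` : `β_r^*` on `n`-torsion points; injective by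
  S37 [PINJ] (helper39: `pullInj_four`, `pullInj_nine`, valid for ALL torsion orders);
* `isHopfOrder_restrict` : the restriction of a Hopf order along an injective equivariant
  homomorphism of finite groups is a Hopf order ([SUB], in the form needed here);
* `OrderStatement M ℓ k` : `J₀(M)[ℓ^k]` is finite and carries a Hopf order;
* `s19_of_order` : `OrderStatement (N r) ℓ k` + [PINJ] at `(N, r)` ⟹ frozen S19 at `(N, ℓ, k)`;
* `s19_of_good` : `OrderStatement M ℓ k` at all good pairs (`4 ∣ M` or `9 ∣ M`, `ℓ ∤ M`)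
  ⟹ the frozen statement S19, verbatim, for all `(p, ℓ, k)`.
-/
import Mathlib
import Fermat.Prelude.Def_ModularCurve_ArithmeticGalois
import Fermat.Prelude.Def_GaloisRep_Flat
import Fermat.Agent.S37.helper39_PullInj
import Fermat.Agent.P3.helper10_GalHecke
import Fermat.Agent.T6.helper33_HopfOrder

set_option autoImplicit false
set_option linter.unusedSectionVars false
set_option linter.unusedVariables false
set_option linter.style.longLine false
set_option linter.style.haveILetI false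

noncomputable section

open AlgebraicCurve ModularCurve

namespace Fermat.Agent.T6.helper66

open Fermat.Agent.S28.helper94 (Zl)
open Fermat.Agent.T6.helper33 (Qb GQ IsHopfOrder pre pre_apply)
open Fermat.Agent.S37.helper16 (pullPic pullPic_mk pullDegZero coe_pullDegZero pullDiv betaR
  betaR_integral hasPD_mul PullInjStatement)

/-! ### Galois equivariance of the pull-back -/

section Pull

variable (N r : ℕ) [NeZero N] [NeZero r]

/-- The pull-back `β_r^* : J₀(N) → J₀(N r)` commutes with the Galois action. -/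
theorem pullPic_smul (σ : GQ) (x : JZero N) :
    pullPic N r (σ • x) = σ • pullPic N r x := by
  obtain ⟨D, rfl⟩ := Pic0.mk_surjective x
  rw [galois_smul_pic0_def, SemilinearAut.pic0_smul_mk, pullPic_mk, pullPic_mk,
    galois_smul_pic0_def, SemilinearAut.pic0_smul_mk]
  refine congrArg Pic0.mk (Subtype.ext ?_)
  rw [coe_pullDegZero, SemilinearAut.coe_degZeroSMulHom, SemilinearAut.coe_degZeroSMulHom,
    coe_pullDegZero]
  haveI := hasPD_mul N r
  exact Fermat.Agent.P3.helper10.pullbackAlong_smul (betaR N r) (betaR_integral N r)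
    (Fermat.Agent.P3.helper10.intertwines_heckeBetaBar N r σ) _

end Pull

/-! ### Torsion points -/

section Tors

/-- the `n`-torsion points of `J₀(M)` -/
abbrev Tors (M : ℕ) (n : ℤ) : Type := ↥(Submodule.torsionBy ℤ (JZero M) n)

theorem smul_mem_torsionBy (M : ℕ) (n : ℤ) (σ : GQ) {x : JZero M}
    (hx : x ∈ Submodule.torsionBy ℤ (JZero M) n) :
    σ • x ∈ Submodule.torsionBy ℤ (JZero M) n := by
  rw [Submodule.mem_torsionBy_iff] at hx ⊢
  have h1 := map_zsmul (DistribSMul.toAddMonoidHom (JZero M) σ) n x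
  have h2 : n • (σ • x) = σ • (n • x) := h1.symm
  rw [h2, hx, smul_zero]

/-- the Galois action on the torsion points -/
def torsAct (M : ℕ) (n : ℤ) (σ : GQ) (x : Tors M n) : Tors M n :=
  ⟨σ • (x : JZero M), smul_mem_torsionBy M n σ x.2⟩

@[simp] theorem coe_torsAct (M : ℕ) (n : ℤ) (σ : GQ) (x : Tors M n) :
    ((torsAct M n σ x : Tors M n) : JZero M) = σ • (x : JZero M) := rfl

theorem torsAct_surjective (M : ℕ) (n : ℤ) (σ : GQ) : Function.Surjective (torsAct M n σ) := by
  intro y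
  refine ⟨torsAct M n σ⁻¹ y, Subtype.ext ?_⟩
  rw [coe_torsAct, coe_torsAct, smul_inv_smul]

theorem torsAct_zero (M : ℕ) (n : ℤ) (σ : GQ) : torsAct M n σ 0 = 0 :=
  Subtype.ext (smul_zero σ)

variable (N r : ℕ) [NeZero N] [NeZero r]

/-- the pull-back on the torsion points -/
def pullTors (n : ℤ) : Tors N n →+ Tors (N * r) n where
  toFun x := ⟨pullPic N r (x : JZero N), by
    have hx := (Submodule.mem_torsionBy_iff _ _).mp x.2
    rw [Submodule.mem_torsionBy_iff, ← map_zsmul, hx, map_zero]⟩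
  map_zero' := Subtype.ext (map_zero _)
  map_add' x y := Subtype.ext (map_add _ _ _)

@[simp] theorem coe_pullTors (n : ℤ) (x : Tors N n) :
    ((pullTors N r n x : Tors (N * r) n) : JZero (N * r)) = pullPic N r (x : JZero N) := rfl

theorem pullTors_torsAct (n : ℤ) (σ : GQ) (x : Tors N n) :
    pullTors N r n (torsAct N n σ x) = torsAct (N * r) n σ (pullTors N r n x) :=
  Subtype.ext (pullPic_smul N r σ _)

theorem pullTors_injective (hP : PullInjStatement N r) {n : ℤ} (hn : n ≠ 0) :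
    Function.Injective (pullTors N r n) := by
  rw [injective_iff_map_eq_zero]
  intro x hx
  have h0 : pullPic N r (x : JZero N) = 0 := congrArg Subtype.val hx
  have hx' := (Submodule.mem_torsionBy_iff _ _).mp x.2
  have hm : n.natAbs • (x : JZero N) = 0 := by
    rcases Int.natAbs_eq n with h | h
    · rw [← natCast_zsmul, ← h]; exact hx'
    · have : ((n.natAbs : ℤ)) = -n := by omega
      rw [← natCast_zsmul, this, neg_smul, hx', neg_zero]
  exact Subtype.ext (hP n.natAbs (Int.natAbs_ne_zero.mpr hn) _ hm h0)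

end Tors

/-! ### Restriction of Hopf orders -/

section Restrict

variable {ℓ : ℕ} [Fact ℓ.Prime] {T T' : Type} [AddCommGroup T] [Finite T]
  [AddCommGroup T'] [Finite T']

/-- **[SUB]** The restriction of a Hopf order along an injective equivariant homomorphism is a
Hopf order. -/
theorem isHopfOrder_restrict (u : T →+ T') (hu : Function.Injective u)
    (act : GQ → T → T) (act' : GQ → T' → T')
    (hsurj : ∀ σ, Function.Surjective (act σ)) (hzero : ∀ σ, act σ 0 = 0)
    (hequ : ∀ σ x, u (act σ x) = act' σ (u x))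
    {H : Subalgebra (Zl ℓ) (T' → Qb)} (h : IsHopfOrder ℓ act' H) :
    IsHopfOrder ℓ act (H.map (pre ℓ (u : T → T'))) where
  act_surj := hsurj
  act_zero := hzero
  fg := by
    have h1 : (H.map (pre ℓ (u : T → T'))).toSubmodule
        = H.toSubmodule.map (pre ℓ (u : T → T')).toLinearMap := by
      ext φ
      simp [Subalgebra.mem_map]
    rw [h1]
    exact h.fg.map _
  equivariant := by
    rintro _ ⟨φ, hφ, rfl⟩ σ x
    show φ (u (act σ x)) = σ (φ (u x))
    rw [hequ, h.equivariant φ hφ]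
  sep := by
    intro x y hxy
    obtain ⟨φ, hφ, hne⟩ := h.sep (u x) (u y) (fun e => hxy (hu e))
    exact ⟨pre ℓ (u : T → T') φ, ⟨φ, hφ, rfl⟩, by rwa [pre_apply, pre_apply]⟩
  comul := by
    rintro _ ⟨φ, hφ, rfl⟩
    obtain ⟨n, a, b, ha, hb, hab⟩ := h.comul φ hφ
    refine ⟨n, fun i => pre ℓ (u : T → T') (a i), fun i => pre ℓ (u : T → T') (b i),
      fun i => ⟨a i, ha i, rfl⟩, fun i => ⟨b i, hb i, rfl⟩, fun x y => ?_⟩
    show φ (u (x + y)) = ∑ i, a i (u x) * b i (u y)
    rw [map_add, hab]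
  neg := by
    rintro _ ⟨φ, hφ, rfl⟩
    refine ⟨fun z => φ (-z), h.neg φ hφ, ?_⟩
    funext x
    show φ (-(u x)) = φ (u (-x))
    rw [map_neg]

end Restrict

/-! ### The statement at good levels and the frozen statement -/

section Final

/-- **The order statement**: `J₀(M)[ℓ^k]` is finite and carries a Hopf order (an order of
Galois-equivariant functions closed under the group law). -/
def OrderStatement (M : ℕ) (ℓ : ℕ) [Fact ℓ.Prime] (k : ℕ) : Prop :=
  ∃ (_ : Finite (Tors M ((ℓ : ℤ) ^ k))) (H : Subalgebra (Zl ℓ) (Tors M ((ℓ : ℤ) ^ k) → Qb)),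
    IsHopfOrder ℓ (torsAct M ((ℓ : ℤ) ^ k)) H

/-- The conclusion of the frozen statement S19 at `(p, ℓ, k)`. -/
def S19Shape (p : ℕ) (ℓ : ℕ) (k : ℕ) : Prop :=
  ∃ (H : Type) (_ : CommRing H) (_ : HopfAlgebra (GaloisRep.ratLocalizedAt ℓ) H),
    Module.Finite (GaloisRep.ratLocalizedAt ℓ) H ∧ Module.Flat (GaloisRep.ratLocalizedAt ℓ) H ∧
    Coalgebra.IsCocomm (GaloisRep.ratLocalizedAt ℓ) H ∧
    ∃ e : WithConv (H →ₐ[GaloisRep.ratLocalizedAt ℓ] AlgebraicClosure ℚ) ≃
        ↥(Submodule.torsionBy ℤ (JZero p) ((ℓ : ℤ) ^ k)),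
      (∀ f g, e (f * g) = e f + e g) ∧
      ∀ (σ : AlgebraicClosure ℚ ≃ₐ[ℚ] AlgebraicClosure ℚ)
        (f g : WithConv (H →ₐ[GaloisRep.ratLocalizedAt ℓ] AlgebraicClosure ℚ)),
        (∀ h : H, g h = σ (f h)) → ((e g : JZero p)) = σ • (e f : JZero p)

/-- S19 at level `M` from a Hopf order at level `M`. -/
theorem s19Shape_of_order (M : ℕ) (ℓ : ℕ) [Fact ℓ.Prime] (k : ℕ)
    (h : OrderStatement M ℓ k) : S19Shape M ℓ k := by
  obtain ⟨hfin, H, hH⟩ := h
  haveI := hfin
  obtain ⟨H', i1, i2, h1, h2, h3, e, he, heq⟩ := hH.exists_hopf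
  refine ⟨H', i1, i2, h1, h2, h3, e, he, fun σ f g hfg => ?_⟩
  rw [heq σ f g hfg]
  rfl

variable (N r : ℕ) [NeZero N] [NeZero r]

/-- **[LEVEL]** the order statement descends along `β_r^*`. -/
theorem order_of_pull (ℓ : ℕ) [Fact ℓ.Prime] (k : ℕ) (hP : PullInjStatement N r)
    (h : OrderStatement (N * r) ℓ k) : OrderStatement N ℓ k := by
  obtain ⟨hfin, H, hH⟩ := h
  haveI := hfin
  have hn : ((ℓ : ℤ) ^ k) ≠ 0 := pow_ne_zero _ (by exact_mod_cast (Fact.out : ℓ.Prime).ne_zero)
  have hinj := pullTors_injective N r hP hn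
  haveI : Finite (Tors N ((ℓ : ℤ) ^ k)) := Finite.of_injective _ hinj
  exact ⟨inferInstance, _, isHopfOrder_restrict (pullTors N r _) hinj _ _
    (torsAct_surjective N _) (torsAct_zero N _) (pullTors_torsAct N r _) hH⟩

/-- **S19 at level `N` from a Hopf order at the auxiliary level `N r`.** -/
theorem s19_of_order (ℓ : ℕ) [Fact ℓ.Prime] (k : ℕ) (hP : PullInjStatement N r)
    (h : OrderStatement (N * r) ℓ k) : S19Shape N ℓ k :=
  s19Shape_of_order N ℓ k (order_of_pull N r ℓ k hP h)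

end Final

/-- **The frozen statement S19 (verbatim) from the order statement at the good pairs.** -/
theorem s19_of_good
    (h : ∀ (M : ℕ) [NeZero M] (ℓ : ℕ) [Fact ℓ.Prime] (k : ℕ), (4 ∣ M ∨ 9 ∣ M) → ¬ ℓ ∣ M →
      OrderStatement M ℓ k)
    (p : ℕ) [NeZero p] (ℓ : ℕ) [Fact ℓ.Prime] (hℓp : ¬ ℓ ∣ p) (k : ℕ) :
    ∃ (H : Type) (_ : CommRing H) (_ : HopfAlgebra (GaloisRep.ratLocalizedAt ℓ) H),
      Module.Finite (GaloisRep.ratLocalizedAt ℓ) H ∧ Module.Flat (GaloisRep.ratLocalizedAt ℓ) H ∧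
      Coalgebra.IsCocomm (GaloisRep.ratLocalizedAt ℓ) H ∧
      ∃ e : WithConv (H →ₐ[GaloisRep.ratLocalizedAt ℓ] AlgebraicClosure ℚ) ≃
          ↥(Submodule.torsionBy ℤ (JZero p) ((ℓ : ℤ) ^ k)),
        (∀ f g, e (f * g) = e f + e g) ∧
        ∀ (σ : AlgebraicClosure ℚ ≃ₐ[ℚ] AlgebraicClosure ℚ)
          (f g : WithConv (H →ₐ[GaloisRep.ratLocalizedAt ℓ] AlgebraicClosure ℚ)),
          (∀ h : H, g h = σ (f h)) → ((e g : JZero p)) = σ • (e f : JZero p) := by
  have hℓ : ℓ.Prime := Fact.out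
  by_cases h2 : ℓ = 2
  · -- `ℓ = 2`: auxiliary level `9 p`
    have hM : ¬ ℓ ∣ p * 9 := by
      rw [hℓ.dvd_mul]
      rintro (h' | h')
      · exact hℓp h'
      · subst h2
        omega
    exact s19_of_order p 9 ℓ k (Fermat.Agent.S37.helper39.pullInj_nine p)
      (h (p * 9) ℓ k (Or.inr (Dvd.intro_left p rfl)) hM)
  · -- `ℓ` odd: auxiliary level `4 p`
    have hM : ¬ ℓ ∣ p * 4 := by
      rw [hℓ.dvd_mul]
      rintro (h' | h')
      · exact hℓp h'
      · have h4 : ℓ ∣ 2 ^ 2 := by simpa using h'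
        have := (Nat.prime_dvd_prime_iff_eq hℓ Nat.prime_two).mp (hℓ.dvd_of_dvd_pow h4)
        exact h2 this
    exact s19_of_order p 4 ℓ k (Fermat.Agent.S37.helper39.pullInj_four p)
      (h (p * 4) ℓ k (Or.inl (Dvd.intro_left p rfl)) hM)

end Fermat.Agent.T6.helper66

end
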