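/-
T6 (S19 / S32), helper82: **[A3] CRIT - the Fourier criterion for Hopf orders**.

`T` a finite commutative group with an action `act` of `G_ℚ` by automorphisms, `A` a valuation
ring of `ℚ̄` over `ℓ`.  Hypothesis `(TI)`: every character `χ : T → ℚ̄ˣ` is an `A`-linear
combination of `G_ℚ`-equivariant `A`-valued functions.  Conclusion (`crit`, `crit_liesOver`):
there is a Hopf order `H ⊂ Map(T, ℚ̄)` in the sense of `helper33.IsHopfOrder`; hence
(`crit_hopf`) the body of the frozen statement S19 / of `GaloisRepAdic.IsFlatAt`.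

Proof (finite linear algebra with the trace pairing `⟨f, c⟩ = ∑ f(u) c(u)`):
* `O'` := equivariant `A`-valued functions (`Setup.maxOrder`), a finitely generated
  `ℤ_(ℓ)`-algebra spanning all functions (by `(TI)`; `fg_of_bounded`);
* `L0` := dual lattice of `O'`; `Lam` := the algebra generated by `L0` under CONVOLUTION
  (`InLam`); its elements are equivariant with Fourier values in `A` (by `(TI)`), so `Lam` is
  finitely generated (`LamSub_fg`);
* `Δ Lam ⊂ Lam ⊗ Lam` because `O'` is a ring (`hasDelta_of_inLam`);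
* `H` := dual lattice of `Lam` (`Setup.Hord`): a ring since `Δ Lam ⊂ Lam ⊗ Lam`, closed under
  the comultiplication since `Lam` is a ring.
-/
import Mathlib
import Fermat.Agent.T6.helper33_HopfOrder

set_option autoImplicit false
set_option linter.unusedSectionVars false
set_option linter.unusedVariables false
set_option linter.style.longLine false

noncomputable section

namespace Fermat.Agent.T6.helper82

open Fermat.Agent.T6.helper33 (Qb GQ)
open Fermat.Agent.S28.helper94 (Zl isPrincipalIdealRing_Zl isFractionRing_Zl)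

section Pairing

variable {T : Type} [Fintype T]

/-- the trace pairing `⟨f, c⟩ = ∑ f(u) c(u)` on functions. -/
def pairB (T : Type) [Fintype T] : LinearMap.BilinForm Qb (T → Qb) :=
  LinearMap.mk₂ Qb (fun f c => ∑ u, f u * c u)
    (by intro a b c; simp [add_mul, Finset.sum_add_distrib])
    (by intro r a b; simp [Finset.mul_sum, mul_assoc])
    (by intro a b c; simp [mul_add, Finset.sum_add_distrib])
    (by intro r a b; simp [Finset.mul_sum, mul_left_comm])

theorem pairB_apply (f c : T → Qb) : pairB T f c = ∑ u, f u * c u := rfl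

theorem pairB_comm (f c : T → Qb) : pairB T f c = pairB T c f := by
  simp only [pairB_apply, mul_comm]

theorem pairB_single [DecidableEq T] (f : T → Qb) (u : T) :
    pairB T f (Pi.single u 1) = f u := by
  simp [pairB_apply, Pi.single_apply]

theorem pairB_nondegenerate : (pairB T).Nondegenerate := by
  classical
  constructor
  · intro f hf
    funext u
    have := hf (Pi.single u 1)
    rwa [pairB_single] at this
  · intro c hc
    funext u
    have := hc (Pi.single u 1)
    rwa [pairB_comm, pairB_single] at this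

theorem pairB_isSymm : (pairB T).IsSymm := ⟨fun f c => pairB_comm f c⟩

end Pairing

section Characters

variable {T : Type} [AddCommGroup T] [Finite T]

/-- the characters of `T` with values in `ℚ̄`. -/
abbrev Chars (T : Type) [AddCommGroup T] : Type := Multiplicative T →* Qbˣ

/-- a character as a function. -/
def chFn (φ : Chars T) : T → Qb := fun u => ((φ (Multiplicative.ofAdd u) : Qbˣ) : Qb)

theorem chFn_zero (φ : Chars T) : chFn φ 0 = 1 := by
  simp [chFn]

theorem chFn_add (φ : Chars T) (u v : T) : chFn φ (u + v) = chFn φ u * chFn φ v := by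
  simp [chFn]

theorem neZero_exponent (T : Type) [AddCommGroup T] [Finite T] :
    NeZero ((Monoid.exponent (Multiplicative T) : ℕ) : ℚ) :=
  ⟨by exact_mod_cast Monoid.exponent_ne_zero_of_finite⟩

theorem finite_chars (T : Type) [AddCommGroup T] [Finite T] : Finite (Chars T) := by
  haveI := neZero_exponent T
  obtain ⟨e⟩ := CommGroup.monoidHom_mulEquiv_of_hasEnoughRootsOfUnity (Multiplicative T) Qb
  exact Finite.of_equiv _ e.symm.toEquiv

theorem card_chars : Nat.card (Chars T) = Nat.card T := by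
  haveI := neZero_exponent T
  rw [CommGroup.card_monoidHom_of_hasEnoughRootsOfUnity (Multiplicative T) Qb]
  rfl

theorem chFn_linearIndependent : LinearIndependent Qb (chFn : Chars T → T → Qb) := by
  have h1 := linearIndependent_monoidHom (Multiplicative T) Qb
  have h2 : Function.Injective
      (fun φ : Chars T => (Units.coeHom Qb).comp φ) := by
    intro φ ψ h
    ext x
    exact congrArg (fun g : Multiplicative T →* Qb => g x) h
  exact h1.comp _ h2

theorem chFn_span_eq_top : Submodule.span Qb (Set.range (chFn : Chars T → T → Qb)) = ⊤ := by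
  classical
  cases nonempty_fintype T
  haveI := finite_chars T
  haveI : Fintype (Chars T) := Fintype.ofFinite _
  apply chFn_linearIndependent.span_eq_top_of_card_eq_finrank'
  rw [Module.finrank_fintype_fun_eq_card, ← Nat.card_eq_fintype_card, card_chars,
    Nat.card_eq_fintype_card]

end Characters


section Setup

variable (ℓ : ℕ) [hℓ : Fact ℓ.Prime] {T : Type} [AddCommGroup T] [Fintype T]
  (act : GQ → T → T) (A : ValuationSubring Qb)

/-- equivariant functions -/
def IsEqv (f : T → Qb) : Prop := ∀ (σ : GQ) (u : T), f (act σ u) = σ (f u)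

/-- the image of `ℤ_(ℓ)` in `ℚ̄`. -/
def RR : Subring Qb := (algebraMap (Zl ℓ) Qb).range

/-- the hypotheses of the Fourier criterion. -/
structure Setup : Prop where
  surj : ∀ σ, Function.Surjective (act σ)
  add : ∀ σ u v, act σ (u + v) = act σ u + act σ v
  hA : ∀ q : ℚ, algebraMap ℚ Qb q ∈ A ↔ q ∈ GaloisRep.ratLocalizedAt ℓ
  TI : ∀ χ : T → Qb, χ 0 = 1 → (∀ u v, χ (u + v) = χ u * χ v) →
    ∃ (n : ℕ) (a : Fin n → Qb) (f : Fin n → T → Qb), (∀ i, a i ∈ A) ∧
      (∀ i, IsEqv act (f i)) ∧ (∀ i u, f i u ∈ A) ∧ ∀ u, χ u = ∑ i, a i * f i u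

variable {ℓ act A}

theorem mem_RR_iff (x : Qb) : x ∈ RR ℓ ↔ ∃ r : Zl ℓ, algebraMap (Zl ℓ) Qb r = x := Iff.rfl

theorem algebraMap_mem_RR (r : Zl ℓ) : algebraMap (Zl ℓ) Qb r ∈ RR ℓ := ⟨r, rfl⟩

namespace Setup

variable (hS : Setup ℓ act A)
include hS

theorem bij (σ : GQ) : Function.Bijective (act σ) :=
  ⟨Finite.injective_iff_surjective.mpr (hS.surj σ), hS.surj σ⟩

theorem act_zero (σ : GQ) : act σ 0 = 0 := by
  have h := hS.add σ 0 0
  rw [add_zero] at h
  exact left_eq_add.mp h

theorem act_neg (σ : GQ) (u : T) : act σ (-u) = -act σ u := by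
  have h := hS.add σ u (-u)
  rw [add_neg_cancel, hS.act_zero] at h
  exact eq_neg_of_add_eq_zero_right h.symm

theorem act_sub (σ : GQ) (u v : T) : act σ (u - v) = act σ u - act σ v := by
  rw [sub_eq_add_neg, hS.add, hS.act_neg, ← sub_eq_add_neg]

theorem RR_le (x : Qb) (hx : x ∈ RR ℓ) : x ∈ A := by
  obtain ⟨r, rfl⟩ := hx
  exact (hS.hA (r : ℚ)).mpr r.2

theorem mem_RR_of_fixed {x : Qb} (hx : x ∈ A) (hfix : ∀ σ : GQ, σ x = x) : x ∈ RR ℓ := by
  obtain ⟨q, rfl⟩ := Fermat.Agent.T6.helper33.exists_rat_of_fixed x hfix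
  exact ⟨⟨q, (hS.hA q).mp hx⟩, rfl⟩

theorem sum_act (σ : GQ) (F : T → Qb) : ∑ u, F (act σ u) = ∑ u, F u :=
  Function.Bijective.sum_comp (hS.bij σ) F

theorem pair_fixed {f c : T → Qb} (hf : IsEqv act f) (hc : IsEqv act c) (σ : GQ) :
    σ (pairB T f c) = pairB T f c := by
  rw [pairB_apply, map_sum, ← hS.sum_act σ (fun u => f u * c u)]
  refine Finset.sum_congr rfl fun u _ => ?_
  rw [map_mul, hf σ u, hc σ u]

theorem pair_mem_RR {f c : T → Qb} (hf : IsEqv act f) (hc : IsEqv act c)
    (h : pairB T f c ∈ A) : pairB T f c ∈ RR ℓ :=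
  hS.mem_RR_of_fixed h (hS.pair_fixed hf hc)

/-- the dual basis of an equivariant basis is equivariant. -/
theorem dualBasis_eqv {ι : Type} [Fintype ι] [DecidableEq ι] (b : Module.Basis ι Qb (T → Qb))
    (hb : ∀ i, IsEqv act (b i)) (i : ι) :
    IsEqv act ((pairB T).dualBasis pairB_nondegenerate b i) := by
  intro σ u
  set c := (pairB T).dualBasis pairB_nondegenerate b with hc
  have key : c = fun i => (fun u => σ.symm (c i (act σ u))) := by
    rw [hc, LinearMap.BilinForm.dualBasis_eq_iff]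
    intro i j
    have h1 : pairB T (fun u => σ.symm (c i (act σ u))) (b j)
        = σ.symm (pairB T (c i) (b j)) := by
      rw [pairB_apply, pairB_apply, map_sum,
        ← hS.sum_act σ (fun x => σ.symm (c i x * b j x))]
      refine Finset.sum_congr rfl fun u _ => ?_
      rw [map_mul, hb j σ u, AlgEquiv.symm_apply_apply]
    rw [h1, hc, LinearMap.BilinForm.apply_dualBasis_left]
    split_ifs <;> simp
  have h2 := congrFun (congrFun key i) u
  have h3 : σ (c i u) = σ (σ.symm (c i (act σ u))) := congrArg σ h2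
  rw [AlgEquiv.apply_symm_apply] at h3
  exact h3.symm

omit hS in
/-- algebraic integers lie in every valuation subring. -/
theorem mem_of_isIntegral (A : ValuationSubring Qb) {z : Qb} (hz : IsIntegral ℤ z) : z ∈ A := by
  have h1 : IsIntegral A z := hz.tower_top
  obtain ⟨y, hy⟩ := (IsIntegrallyClosed.isIntegral_iff (R := A) (K := Qb)).1 h1
  rw [← hy]
  exact y.2

omit hS in
/-- common denominators. -/
theorem exists_denominator (A : ValuationSubring Qb) (s : Finset Qb) :
    ∃ d : ℕ, d ≠ 0 ∧ ∀ x ∈ s, (d : Qb) * x ∈ A := by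
  haveI : Algebra.IsAlgebraic ℤ ℚ := IsLocalization.isAlgebraic ℚ (nonZeroDivisors ℤ)
  haveI : Algebra.IsAlgebraic ℚ Qb := by
    have h : (DivisionRing.toRatAlgebra : Algebra ℚ Qb) = AlgebraicClosure.instAlgebra ℚ :=
      Subsingleton.elim _ _
    rw [h]
    infer_instance
  haveI : Algebra.IsAlgebraic ℤ Qb := Algebra.IsAlgebraic.trans ℤ ℚ Qb
  obtain ⟨y, hy0, hy⟩ := Algebra.IsAlgebraic.exists_integral_multiples ℤ s
  refine ⟨y.natAbs, Int.natAbs_ne_zero.mpr hy0, fun x hx => ?_⟩
  have h1 : (y : Qb) * x ∈ A := by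
    have := mem_of_isIntegral A (hy x hx)
    rwa [zsmul_eq_mul] at this
  rcases Int.natAbs_eq y with h | h
  · have : ((y.natAbs : ℕ) : Qb) = (y : Qb) := by
      conv_rhs => rw [h]
      simp
    rwa [this]
  · have : ((y.natAbs : ℕ) : Qb) = -(y : Qb) := by
      conv_rhs => rw [h]
      simp
    rw [this, neg_mul]
    exact neg_mem h1


/-- **finiteness by bounded denominators**: an `ℤ_(ℓ)`-module of equivariant functions whose
pairings with a spanning family are in `A` is finitely generated. -/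
theorem fg_of_bounded {ι : Type} [Fintype ι] [DecidableEq ι] (b : Module.Basis ι Qb (T → Qb))
    (hb : ∀ i, IsEqv act (b i)) {κ : Type} [Fintype κ] (g : κ → T → Qb)
    (hg : Submodule.span Qb (Set.range g) = ⊤) (S : Submodule (Zl ℓ) (T → Qb))
    (hSe : ∀ c ∈ S, IsEqv act c) (hSg : ∀ c ∈ S, ∀ k, pairB T (g k) c ∈ A) : S.FG := by
  classical
  set bd := (pairB T).dualBasis pairB_nondegenerate b with hbd
  have hbde := hS.dualBasis_eqv b hb
  have hy : ∀ i, ∃ y : κ → Qb, bd i = ∑ k, y k • g k := by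
    intro i
    have : bd i ∈ Submodule.span Qb (Set.range g) := by rw [hg]; trivial
    obtain ⟨y, hy⟩ := (Submodule.mem_span_range_iff_exists_fun Qb).mp this
    exact ⟨y, hy.symm⟩
  choose y hy using hy
  obtain ⟨d, hd0, hd⟩ :=
    exists_denominator A (Finset.univ.image (fun p : ι × κ => y p.1 p.2))
  have hdQ : (d : Qb) ≠ 0 := by exact_mod_cast hd0
  have key : ∀ c ∈ S, ∀ i, (d : Qb) * pairB T c (bd i) ∈ RR ℓ := by
    intro c hc i
    have h1 : (d : Qb) * pairB T c (bd i) ∈ A := by
      rw [hy i, map_sum, Finset.mul_sum]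
      refine sum_mem fun k _ => ?_
      rw [map_smul, smul_eq_mul, ← mul_assoc, pairB_comm c (g k)]
      exact mul_mem (hd _ (Finset.mem_image.mpr ⟨(i, k), Finset.mem_univ _, rfl⟩)) (hSg c hc k)
    have h2 : ∀ σ : GQ, σ ((d : Qb) * pairB T c (bd i)) = (d : Qb) * pairB T c (bd i) := by
      intro σ
      rw [map_mul, map_natCast, hS.pair_fixed (hSe c hc) (hbde i)]
    exact hS.mem_RR_of_fixed h1 h2
  have hle : S ≤ Submodule.span (Zl ℓ) (Set.range (fun i => ((d : Qb))⁻¹ • b i)) := by
    intro c hc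
    have hrepr : c = ∑ i, pairB T c (bd i) • b i := by
      have h1 : (pairB T).dualBasis pairB_nondegenerate bd = b :=
        LinearMap.BilinForm.dualBasis_dualBasis pairB_nondegenerate pairB_isSymm b
      have h2 : ∀ i, b.repr c i = pairB T c (bd i) := by
        intro i
        conv_lhs => rw [← h1]
        rw [LinearMap.BilinForm.dualBasis_repr_apply]
      conv_lhs => rw [← b.sum_repr c]
      exact Finset.sum_congr rfl fun i _ => by rw [h2 i]
    rw [hrepr]
    refine sum_mem fun i _ => ?_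
    obtain ⟨r, hr⟩ := key c hc i
    have : pairB T c (bd i) • b i = r • ((d : Qb)⁻¹ • b i) := by
      rw [← IsScalarTower.algebraMap_smul Qb r, hr, smul_smul]
      congr 1
      field_simp
    rw [this]
    exact Submodule.smul_mem _ _ (Submodule.subset_span ⟨i, rfl⟩)
  haveI := isPrincipalIdealRing_Zl ℓ
  exact Submodule.FG.of_le (Submodule.fg_span (Set.finite_range _)) hle

/-- a finitely generated lattice of equivariant functions which spans has a `ℤ_(ℓ)`-basis which
is a `ℚ̄`-basis of all functions. -/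
theorem exists_basis_of_lattice (S : Submodule (Zl ℓ) (T → Qb)) (hfg : S.FG)
    (hSe : ∀ c ∈ S, IsEqv act c) (hspan : Submodule.span Qb (S : Set (T → Qb)) = ⊤) :
    ∃ (n : ℕ) (b : Module.Basis (Fin n) Qb (T → Qb)), (∀ i, b i ∈ S) ∧
      (∀ c ∈ S, ∀ i, b.repr c i ∈ RR ℓ) := by
  classical
  haveI := isPrincipalIdealRing_Zl ℓ
  haveI : Module.Finite (Zl ℓ) S := Module.Finite.iff_fg.mpr hfg
  haveI : Module.IsTorsionFree (Zl ℓ) S := by
    refine Module.IsTorsionFree.of_smul_eq_zero fun r φ hr => ?_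
    by_cases h0 : r = 0
    · exact Or.inl h0
    · right
      apply Subtype.ext
      funext x
      have h1 : algebraMap (Zl ℓ) Qb r * (φ : T → Qb) x = 0 := by
        have h1 := congrFun (congrArg Subtype.val hr) x
        rw [← Algebra.smul_def]
        exact h1
      rcases mul_eq_zero.mp h1 with h2 | h2
      · exact absurd ((Fermat.Agent.T6.helper33.algebraMap_Zl_injective ℓ)
          (by rw [h2, map_zero])) h0
      · exact h2
  haveI : Module.Free (Zl ℓ) S := Module.free_of_finite_type_torsion_free'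
  set β := Module.finBasis (Zl ℓ) S with hβ
  set v : Fin (Module.finrank (Zl ℓ) S) → T → Qb := fun i => ((β i : S) : T → Qb) with hv
  have h1 : LinearIndependent (Zl ℓ) v :=
    β.linearIndependent.map' S.subtype (LinearMap.ker_eq_bot.mpr Subtype.val_injective)
  haveI := isFractionRing_Zl ℓ
  have h2 : LinearIndependent ℚ v := (LinearIndependent.iff_fractionRing (Zl ℓ) ℚ).mp h1
  have h3 : LinearIndependent Qb v :=
    Fermat.Agent.T6.helper33.linearIndependent_of_equivariant act hS.surj v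
      (fun i σ x => hSe _ (β i).2 σ x) h2
  have hmem : ∀ (c : T → Qb) (hc : c ∈ S),
      c = ∑ i, algebraMap (Zl ℓ) Qb (β.repr ⟨c, hc⟩ i) • v i := by
    intro c hc
    have h4 := β.sum_repr ⟨c, hc⟩
    have h5 := congrArg (Subtype.val : S → (T → Qb)) h4
    simp only [Submodule.coe_sum, Submodule.coe_smul] at h5
    refine h5.symm.trans (Finset.sum_congr rfl fun i _ => ?_)
    rw [IsScalarTower.algebraMap_smul]
  have h4 : ⊤ ≤ Submodule.span Qb (Set.range v) := by
    rw [← hspan, Submodule.span_le]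
    intro c hc
    rw [hmem c hc]
    exact sum_mem fun i _ => Submodule.smul_mem _ _ (Submodule.subset_span ⟨i, rfl⟩)
  refine ⟨_, Module.Basis.mk h3 h4, fun i => ?_, fun c hc i => ?_⟩
  · rw [Module.Basis.mk_apply]
    exact (β i).2
  · have h5 : (Module.Basis.mk h3 h4).repr c
        = (Module.Basis.mk h3 h4).repr
          (∑ i, algebraMap (Zl ℓ) Qb (β.repr ⟨c, hc⟩ i) • (Module.Basis.mk h3 h4) i) := by
      congr 1
      conv_lhs => rw [hmem c hc]
      exact Finset.sum_congr rfl fun i _ => by rw [Module.Basis.mk_apply]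
    rw [h5, Module.Basis.repr_sum_self]
    exact algebraMap_mem_RR _


/-! ### The maximal equivariant order -/

/-- the equivariant `A`-valued functions. -/
def maxOrder : Subalgebra (Zl ℓ) (T → Qb) where
  carrier := {f | IsEqv act f ∧ ∀ u, f u ∈ A}
  mul_mem' := by
    rintro f g ⟨hf, hfA⟩ ⟨hg, hgA⟩
    refine ⟨fun σ u => ?_, fun u => mul_mem (hfA u) (hgA u)⟩
    simp only [Pi.mul_apply, map_mul, hf σ u, hg σ u]
  add_mem' := by
    rintro f g ⟨hf, hfA⟩ ⟨hg, hgA⟩
    refine ⟨fun σ u => ?_, fun u => add_mem (hfA u) (hgA u)⟩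
    simp only [Pi.add_apply, map_add, hf σ u, hg σ u]
  algebraMap_mem' := by
    intro r
    refine ⟨fun σ u => ?_, fun u => hS.RR_le _ (algebraMap_mem_RR r)⟩
    simp only [Pi.algebraMap_apply]
    rw [Fermat.Agent.T6.helper33.coe_algebraMap_Zl]
    exact (σ.commutes _).symm

theorem mem_maxOrder (f : T → Qb) : f ∈ hS.maxOrder ↔ IsEqv act f ∧ ∀ u, f u ∈ A := Iff.rfl

theorem maxOrder_span : Submodule.span Qb ((hS.maxOrder : Set (T → Qb))) = ⊤ := by
  rw [eq_top_iff, ← chFn_span_eq_top, Submodule.span_le]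
  rintro _ ⟨φ, rfl⟩
  obtain ⟨n, a, f, ha, hfe, hfA, hχ⟩ := hS.TI (chFn φ) (chFn_zero φ) (chFn_add φ)
  have : chFn φ = ∑ i, a i • f i := by
    funext u
    rw [hχ u, Finset.sum_apply]
    rfl
  rw [this]
  exact sum_mem fun i _ => Submodule.smul_mem _ _ (Submodule.subset_span ⟨hfe i, hfA i⟩)

theorem maxOrder_fg : (Subalgebra.toSubmodule hS.maxOrder).FG := by
  classical
  obtain ⟨s, hsub, hspan, hli⟩ := exists_linearIndependent Qb (hS.maxOrder : Set (T → Qb))
  have htop : ⊤ ≤ Submodule.span Qb (Set.range (Subtype.val : s → T → Qb)) := by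
    rw [Subtype.range_coe, hspan, hS.maxOrder_span]
  set b := Module.Basis.mk hli htop with hb
  haveI : Finite s := Module.Finite.finite_basis b
  haveI : Fintype s := Fintype.ofFinite s
  have hbe : ∀ i, IsEqv act (b i) := by
    intro i
    rw [hb, Module.Basis.mk_apply]
    exact (hsub i.2).1
  have hg : Submodule.span Qb (Set.range (fun u : T => (Pi.single u (1 : Qb) : T → Qb))) = ⊤ := by
    rw [eq_top_iff]
    intro f _
    have : f = ∑ u, f u • (Pi.single u (1 : Qb) : T → Qb) := by
      funext w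
      simp [Finset.sum_apply, Pi.single_apply]
    rw [this]
    exact sum_mem fun u _ => Submodule.smul_mem _ _ (Submodule.subset_span ⟨u, rfl⟩)
  refine hS.fg_of_bounded b hbe _ hg _ (fun c hc => hc.1) (fun c hc u => ?_)
  rw [pairB_comm, pairB_single]
  exact hc.2 u

/-! ### Convolution -/

omit hS in
/-- convolution of functions on `T`. -/
def conv (c c' : T → Qb) : T → Qb := fun w => ∑ u, c u * c' (w - u)

omit hS in
/-- correlation: `corr p f v = ⟨f(· + v), p⟩`. -/
def corr (p f : T → Qb) : T → Qb := fun v => ∑ u, p u * f (u + v)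

omit hS in
theorem pairB_conv (f c c' : T → Qb) :
    pairB T f (conv c c') = ∑ u, ∑ v, c u * c' v * f (u + v) := by
  simp only [pairB_apply, conv, Finset.mul_sum]
  rw [Finset.sum_comm]
  refine Finset.sum_congr rfl fun u _ => ?_
  rw [← Equiv.sum_comp (Equiv.addLeft u)]
  refine Finset.sum_congr rfl fun v _ => ?_
  simp only [Equiv.coe_addLeft, add_sub_cancel_left]
  ring

omit hS in
theorem pairB_corr (f p p' : T → Qb) : pairB T (corr p f) p' = pairB T f (conv p p') := by
  rw [pairB_conv]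
  simp only [pairB_apply, corr, Finset.sum_mul]
  rw [Finset.sum_comm]
  refine Finset.sum_congr rfl fun u _ => Finset.sum_congr rfl fun v _ => ?_
  ring

omit hS in
theorem pairB_conv_char (χ c c' : T → Qb) (hχ : ∀ u v, χ (u + v) = χ u * χ v) :
    pairB T χ (conv c c') = pairB T χ c * pairB T χ c' := by
  rw [pairB_conv, pairB_apply, pairB_apply, Finset.sum_mul_sum]
  refine Finset.sum_congr rfl fun u _ => Finset.sum_congr rfl fun v _ => ?_
  rw [hχ]
  ring

theorem conv_eqv {c c' : T → Qb} (hc : IsEqv act c) (hc' : IsEqv act c') :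
    IsEqv act (conv c c') := by
  intro σ w
  simp only [conv, map_sum, map_mul]
  rw [← hS.sum_act σ (fun u => c u * c' (act σ w - u))]
  refine Finset.sum_congr rfl fun u _ => ?_
  rw [← hS.act_sub, hc σ u, hc' σ]

omit hS in
theorem conv_neg (c c' : T → Qb) :
    conv (fun u => c (-u)) (fun u => c' (-u)) = fun w => conv c c' (-w) := by
  funext w
  simp only [conv]
  rw [← Equiv.sum_comp (Equiv.neg T)]
  refine Finset.sum_congr rfl fun u _ => ?_
  simp only [Equiv.neg_apply, neg_neg, sub_neg_eq_add]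
  congr 2
  abel


/-! ### The dual lattice and the convolution algebra it generates -/

omit hS in
/-- the unit of the convolution product. -/
def delta0 [DecidableEq T] : T → Qb := Pi.single 0 1

omit hS in
theorem pairB_delta0 [DecidableEq T] (f : T → Qb) : pairB T f delta0 = f 0 :=
  pairB_single f 0

omit hS in
theorem pairB_neg (f c : T → Qb) :
    pairB T f (fun u => c (-u)) = pairB T (fun u => f (-u)) c := by
  rw [pairB_apply, pairB_apply, ← Equiv.sum_comp (Equiv.neg T)]
  refine Finset.sum_congr rfl fun u _ => ?_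
  simp only [Equiv.neg_apply, neg_neg]

omit hS in
theorem pairB_smul_right (r : Zl ℓ) (f c : T → Qb) :
    pairB T f (r • c) = algebraMap (Zl ℓ) Qb r * pairB T f c := by
  rw [← IsScalarTower.algebraMap_smul Qb r c, map_smul, smul_eq_mul]

omit hS in
theorem pairB_smul_left (r : Zl ℓ) (f c : T → Qb) :
    pairB T (r • f) c = algebraMap (Zl ℓ) Qb r * pairB T f c := by
  rw [pairB_comm, pairB_smul_right, pairB_comm]

/-- the dual lattice of the maximal order. -/
def L0 : Set (T → Qb) := {c | ∀ f ∈ hS.maxOrder, pairB T f c ∈ RR ℓ}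

theorem neg_mem_maxOrder {f : T → Qb} (hf : f ∈ hS.maxOrder) :
    (fun u => f (-u)) ∈ hS.maxOrder := by
  refine ⟨fun σ u => ?_, fun u => hf.2 _⟩
  show f (-act σ u) = σ (f (-u))
  rw [← hS.act_neg, hf.1 σ]

theorem L0_eqv {c : T → Qb} (hc : c ∈ hS.L0) : IsEqv act c := by
  intro σ u
  -- `c' = σ⁻¹ ∘ c ∘ act σ` has the same pairings with the maximal order
  set c' : T → Qb := fun u => σ.symm (c (act σ u)) with hc'
  have h1 : ∀ f ∈ hS.maxOrder, pairB T f c' = pairB T f c := by
    intro f hf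
    have h2 : pairB T f c' = σ.symm (pairB T f c) := by
      rw [pairB_apply, pairB_apply, map_sum, ← hS.sum_act σ (fun x => σ.symm (f x * c x))]
      refine Finset.sum_congr rfl fun u _ => ?_
      rw [map_mul, hf.1 σ u, AlgEquiv.symm_apply_apply]
    obtain ⟨r, hr⟩ := hc f hf
    rw [h2, ← hr, Fermat.Agent.T6.helper33.coe_algebraMap_Zl]
    exact σ.symm.commutes _
  have h3 : c' = c := by
    have h4 : ∀ f : T → Qb, pairB T f (c' - c) = 0 := by
      intro f
      have hf : f ∈ Submodule.span Qb ((hS.maxOrder : Set (T → Qb))) := by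
        rw [hS.maxOrder_span]; trivial
      induction hf using Submodule.span_induction with
      | mem x hx => rw [map_sub, h1 x hx, sub_self]
      | zero => simp
      | add x y _ _ hx hy => rw [map_add, LinearMap.add_apply, hx, hy, add_zero]
      | smul a x _ hx => rw [map_smul, LinearMap.smul_apply, hx, smul_zero]
    exact sub_eq_zero.mp (pairB_nondegenerate.2 _ h4)
  have h5 := congrFun h3 u
  have h6 : σ (c' u) = c (act σ u) := by rw [hc']; exact AlgEquiv.apply_symm_apply _ _
  rw [← h6, h5]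

theorem L0_char {c : T → Qb} (hc : c ∈ hS.L0) (φ : Chars T) : pairB T (chFn φ) c ∈ A := by
  obtain ⟨n, a, f, ha, hfe, hfA, hχ⟩ := hS.TI (chFn φ) (chFn_zero φ) (chFn_add φ)
  have : chFn φ = ∑ i, a i • f i := by
    funext u
    rw [hχ u, Finset.sum_apply]
    rfl
  rw [this, map_sum, LinearMap.sum_apply]
  refine sum_mem fun i _ => ?_
  rw [map_smul, LinearMap.smul_apply, smul_eq_mul]
  exact mul_mem (ha i) (hS.RR_le _ (hc (f i) ⟨hfe i, hfA i⟩))

theorem L0_neg {c : T → Qb} (hc : c ∈ hS.L0) : (fun u => c (-u)) ∈ hS.L0 := by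
  intro f hf
  rw [pairB_neg]
  exact hc _ (hS.neg_mem_maxOrder hf)

end Setup

/-- the convolution algebra generated by a set `L`. -/
inductive InLam (ℓ' : ℕ) {T' : Type} [AddCommGroup T'] [Fintype T'] [DecidableEq T']
    (L : Set (T' → Qb)) : (T' → Qb) → Prop
  | gen (c : T' → Qb) (hc : c ∈ L) : InLam ℓ' L c
  | one : InLam ℓ' L Setup.delta0
  | add (c c' : T' → Qb) : InLam ℓ' L c → InLam ℓ' L c' → InLam ℓ' L (c + c')
  | smul (r : Zl ℓ') (c : T' → Qb) : InLam ℓ' L c → InLam ℓ' L (r • c)
  | conv (c c' : T' → Qb) : InLam ℓ' L c → InLam ℓ' L c' → InLam ℓ' L (Setup.conv c c')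

namespace Setup

variable [DecidableEq T] (hS : Setup ℓ act A)
include hS

theorem delta0_eqv : IsEqv act (delta0 : T → Qb) := by
  intro σ u
  simp only [delta0, Pi.single_apply]
  have h : act σ u = 0 ↔ u = 0 := by
    constructor
    · intro h
      exact (hS.bij σ).1 (h.trans (hS.act_zero σ).symm)
    · rintro rfl
      exact hS.act_zero σ
  by_cases hu : u = 0
  · rw [if_pos hu, if_pos (h.mpr hu), map_one]
  · rw [if_neg hu, if_neg (fun h' => hu (h.mp h')), map_zero]

theorem smul_eqv (r : Zl ℓ) {c : T → Qb} (hc : IsEqv act c) : IsEqv act (r • c) := by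
  intro σ u
  rw [Pi.smul_apply, Pi.smul_apply, Algebra.smul_def, Algebra.smul_def, map_mul, hc σ u,
    Fermat.Agent.T6.helper33.coe_algebraMap_Zl, σ.commutes]

theorem inLam_eqv {c : T → Qb} (hc : InLam ℓ hS.L0 c) : IsEqv act c := by
  induction hc with
  | gen c hc => exact hS.L0_eqv hc
  | one => exact hS.delta0_eqv
  | add c c' _ _ h h' =>
    intro σ u
    rw [Pi.add_apply, Pi.add_apply, map_add, h σ u, h' σ u]
  | smul r c _ h => exact hS.smul_eqv r h
  | conv c c' _ _ h h' => exact hS.conv_eqv h h'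

theorem inLam_char {c : T → Qb} (hc : InLam ℓ hS.L0 c) (φ : Chars T) :
    pairB T (chFn φ) c ∈ A := by
  induction hc with
  | gen c hc => exact hS.L0_char hc φ
  | one => rw [pairB_delta0, chFn_zero]; exact one_mem _
  | add c c' _ _ h h' => rw [map_add]; exact add_mem h h'
  | smul r c _ h =>
    rw [pairB_smul_right]
    exact mul_mem (hS.RR_le _ (algebraMap_mem_RR r)) h
  | conv c c' _ _ h h' =>
    rw [pairB_conv_char _ _ _ (chFn_add φ)]
    exact mul_mem h h'

theorem inLam_neg {c : T → Qb} (hc : InLam ℓ hS.L0 c) : InLam ℓ hS.L0 (fun u => c (-u)) := by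
  induction hc with
  | gen c hc => exact InLam.gen _ (hS.L0_neg hc)
  | one =>
    have : (fun u => (delta0 : T → Qb) (-u)) = delta0 := by
      funext u
      simp [delta0, Pi.single_apply]
    rw [this]
    exact InLam.one
  | add c c' _ _ h h' => exact InLam.add _ _ h h'
  | smul r c _ h => exact InLam.smul r _ h
  | conv c c' _ _ h h' =>
    rw [← conv_neg]
    exact InLam.conv _ _ h h'

theorem inLam_one_pair {c : T → Qb} (hc : InLam ℓ hS.L0 c) :
    pairB T (1 : T → Qb) c ∈ RR ℓ := by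
  induction hc with
  | gen c hc => exact hc 1 (one_mem _)
  | one => rw [pairB_delta0]; exact one_mem _
  | add c c' _ _ h h' => rw [map_add]; exact add_mem h h'
  | smul r c _ h =>
    rw [pairB_smul_right]
    exact mul_mem (algebraMap_mem_RR r) h
  | conv c c' _ _ h h' =>
    rw [pairB_conv_char _ _ _ (fun u v => by simp)]
    exact mul_mem h h'

/-- the convolution algebra as a submodule. -/
def LamSub : Submodule (Zl ℓ) (T → Qb) where
  carrier := {c | InLam ℓ hS.L0 c}
  add_mem' := fun h h' => InLam.add _ _ h h'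
  zero_mem' := by
    have := InLam.smul (0 : Zl ℓ) _ (InLam.one (ℓ' := ℓ) (L := hS.L0))
    have h0 : ((0 : Zl ℓ) • (delta0 : T → Qb)) = 0 := by
      funext u
      rw [Pi.smul_apply, Algebra.smul_def, map_zero, zero_mul]
      rfl
    rw [h0] at this
    exact this
  smul_mem' := fun r _ h => InLam.smul r _ h

theorem mem_LamSub (c : T → Qb) : c ∈ hS.LamSub ↔ InLam ℓ hS.L0 c := Iff.rfl


/-! ### Bases and dual bases -/

omit hS in
/-- coordinates in a basis are pairings with the dual basis. -/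
theorem repr_eq_pair {ι : Type} [Fintype ι] [DecidableEq ι] (b : Module.Basis ι Qb (T → Qb))
    (f : T → Qb) (i : ι) :
    b.repr f i = pairB T f ((pairB T).dualBasis pairB_nondegenerate b i) := by
  have h1 : (pairB T).dualBasis pairB_nondegenerate
      ((pairB T).dualBasis pairB_nondegenerate b) = b :=
    LinearMap.BilinForm.dualBasis_dualBasis pairB_nondegenerate pairB_isSymm b
  conv_lhs => rw [← h1]
  rw [LinearMap.BilinForm.dualBasis_repr_apply]

omit hS in
theorem expand_basis {ι : Type} [Fintype ι] [DecidableEq ι] (b : Module.Basis ι Qb (T → Qb))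
    (f : T → Qb) :
    f = ∑ i, pairB T f ((pairB T).dualBasis pairB_nondegenerate b i) • b i := by
  conv_lhs => rw [← b.sum_repr f]
  exact Finset.sum_congr rfl fun i _ => by rw [repr_eq_pair]

omit hS in
theorem expand_dual {ι : Type} [Fintype ι] [DecidableEq ι] (b : Module.Basis ι Qb (T → Qb))
    (f : T → Qb) :
    f = ∑ i, pairB T f (b i) • (pairB T).dualBasis pairB_nondegenerate b i := by
  conv_lhs => rw [← ((pairB T).dualBasis pairB_nondegenerate b).sum_repr f]
  exact Finset.sum_congr rfl fun i _ => by rw [LinearMap.BilinForm.dualBasis_repr_apply]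

/-! ### The comultiplication of the convolution algebra -/

/-- `Δ c` is an integral combination of tensors of elements of the convolution algebra. -/
def HasDelta (c : T → Qb) : Prop :=
  ∃ (ι : Type) (_ : Fintype ι) (r : ι → Qb) (p q : ι → T → Qb), (∀ m, r m ∈ RR ℓ) ∧
    (∀ m, InLam ℓ hS.L0 (p m)) ∧ (∀ m, InLam ℓ hS.L0 (q m)) ∧
    ∀ f g : T → Qb, pairB T (f * g) c = ∑ m, r m * pairB T f (p m) * pairB T g (q m)

theorem dual_mem_L0 {n : ℕ} (bO : Module.Basis (Fin n) Qb (T → Qb))
    (hrepr : ∀ c ∈ Subalgebra.toSubmodule hS.maxOrder, ∀ i, bO.repr c i ∈ RR ℓ) (i : Fin n) :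
    (pairB T).dualBasis pairB_nondegenerate bO i ∈ hS.L0 := by
  intro f hf
  rw [← repr_eq_pair]
  exact hrepr f hf i

theorem hasDelta_gen {n : ℕ} (bO : Module.Basis (Fin n) Qb (T → Qb))
    (hmem : ∀ i, bO i ∈ Subalgebra.toSubmodule hS.maxOrder)
    (hrepr : ∀ c ∈ Subalgebra.toSubmodule hS.maxOrder, ∀ i, bO.repr c i ∈ RR ℓ)
    {c : T → Qb} (hc : c ∈ hS.L0) : hS.HasDelta c := by
  set bd := (pairB T).dualBasis pairB_nondegenerate bO with hbd
  refine ⟨Fin n × Fin n, inferInstance, fun m => pairB T (bO m.1 * bO m.2) c,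
    fun m => bd m.1, fun m => bd m.2, fun m => hc _ (mul_mem (hmem m.1) (hmem m.2)),
    fun m => InLam.gen _ (hS.dual_mem_L0 bO hrepr m.1),
    fun m => InLam.gen _ (hS.dual_mem_L0 bO hrepr m.2), fun f g => ?_⟩
  have hf := expand_basis bO f
  have hg := expand_basis bO g
  have h1 : f * g = ∑ i, ∑ k, (pairB T f (bd i) * pairB T g (bd k)) • (bO i * bO k) := by
    conv_lhs => rw [hf, hg]
    rw [Finset.sum_mul_sum]
    refine Finset.sum_congr rfl fun i _ => Finset.sum_congr rfl fun k _ => ?_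
    rw [smul_mul_smul_comm]
  rw [h1, Fintype.sum_prod_type]
  simp only [map_sum, LinearMap.sum_apply, map_smul, LinearMap.smul_apply, smul_eq_mul]
  refine Finset.sum_congr rfl fun i _ => Finset.sum_congr rfl fun k _ => ?_
  ring

omit hS in
theorem pairB_mul_conv (f g c c' : T → Qb) :
    pairB T (f * g) (conv c c')
      = ∑ v, c' v * pairB T ((fun u => f (u + v)) * (fun u => g (u + v))) c := by
  rw [pairB_conv, Finset.sum_comm]
  refine Finset.sum_congr rfl fun v _ => ?_
  rw [pairB_apply, Finset.mul_sum]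
  refine Finset.sum_congr rfl fun u _ => ?_
  simp only [Pi.mul_apply]
  ring

omit hS in
theorem pairB_shift (f p : T → Qb) (v : T) :
    pairB T (fun u => f (u + v)) p = corr p f v := by
  rw [pairB_apply, corr]
  exact Finset.sum_congr rfl fun u _ => mul_comm _ _

theorem hasDelta_conv {c c' : T → Qb} (h : hS.HasDelta c) (h' : hS.HasDelta c') :
    hS.HasDelta (conv c c') := by
  obtain ⟨ι, _, r, p, q, hr, hp, hq, hd⟩ := h
  obtain ⟨ι', _, r', p', q', hr', hp', hq', hd'⟩ := h'
  refine ⟨ι × ι', inferInstance, fun m => r m.1 * r' m.2, fun m => conv (p m.1) (p' m.2),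
    fun m => conv (q m.1) (q' m.2), fun m => mul_mem (hr m.1) (hr' m.2),
    fun m => InLam.conv _ _ (hp m.1) (hp' m.2), fun m => InLam.conv _ _ (hq m.1) (hq' m.2),
    fun f g => ?_⟩
  rw [pairB_mul_conv]
  have h1 : ∀ v, pairB T ((fun u => f (u + v)) * (fun u => g (u + v))) c
      = ∑ m, r m * corr (p m) f v * corr (q m) g v := by
    intro v
    rw [hd]
    exact Finset.sum_congr rfl fun m _ => by rw [pairB_shift, pairB_shift]
  have h2 : ∑ v, c' v * pairB T ((fun u => f (u + v)) * (fun u => g (u + v))) c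
      = ∑ m, r m * pairB T (corr (p m) f * corr (q m) g) c' := by
    simp only [h1, Finset.mul_sum, pairB_apply, Pi.mul_apply]
    rw [Finset.sum_comm]
    refine Finset.sum_congr rfl fun m _ => Finset.sum_congr rfl fun v _ => ?_
    ring
  rw [h2, Fintype.sum_prod_type]
  refine Finset.sum_congr rfl fun m _ => ?_
  rw [hd', Finset.mul_sum]
  refine Finset.sum_congr rfl fun m' _ => ?_
  rw [pairB_corr, pairB_corr]
  ring

theorem hasDelta_of_inLam {n : ℕ} (bO : Module.Basis (Fin n) Qb (T → Qb))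
    (hmem : ∀ i, bO i ∈ Subalgebra.toSubmodule hS.maxOrder)
    (hrepr : ∀ c ∈ Subalgebra.toSubmodule hS.maxOrder, ∀ i, bO.repr c i ∈ RR ℓ)
    {c : T → Qb} (hc : InLam ℓ hS.L0 c) : hS.HasDelta c := by
  induction hc with
  | gen c hc => exact hS.hasDelta_gen bO hmem hrepr hc
  | one =>
    refine ⟨Unit, inferInstance, fun _ => 1, fun _ => delta0, fun _ => delta0,
      fun _ => one_mem _, fun _ => InLam.one, fun _ => InLam.one, fun f g => ?_⟩
    simp only [pairB_delta0, Pi.mul_apply, Finset.univ_unique, Finset.sum_singleton, one_mul]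
  | add c c' _ _ h h' =>
    obtain ⟨ι, _, r, p, q, hr, hp, hq, hd⟩ := h
    obtain ⟨ι', _, r', p', q', hr', hp', hq', hd'⟩ := h'
    refine ⟨ι ⊕ ι', inferInstance, Sum.elim r r', Sum.elim p p', Sum.elim q q', ?_, ?_, ?_,
      fun f g => ?_⟩
    · rintro (m | m)
      · exact hr m
      · exact hr' m
    · rintro (m | m)
      · exact hp m
      · exact hp' m
    · rintro (m | m)
      · exact hq m
      · exact hq' m
    · rw [map_add, hd, hd', Fintype.sum_sum_type]
      simp only [Sum.elim_inl, Sum.elim_inr]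
  | smul r₀ c _ h =>
    obtain ⟨ι, _, r, p, q, hr, hp, hq, hd⟩ := h
    refine ⟨ι, inferInstance, fun m => algebraMap (Zl ℓ) Qb r₀ * r m, p, q,
      fun m => mul_mem (algebraMap_mem_RR r₀) (hr m), hp, hq, fun f g => ?_⟩
    rw [pairB_smul_right, hd, Finset.mul_sum]
    refine Finset.sum_congr rfl fun m _ => ?_
    ring
  | conv c c' _ _ h h' => exact hS.hasDelta_conv h h'


/-! ### The Hopf order -/

theorem exists_basis_maxOrder :
    ∃ (n : ℕ) (bO : Module.Basis (Fin n) Qb (T → Qb)),
      (∀ i, bO i ∈ Subalgebra.toSubmodule hS.maxOrder) ∧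
      (∀ c ∈ Subalgebra.toSubmodule hS.maxOrder, ∀ i, bO.repr c i ∈ RR ℓ) :=
  hS.exists_basis_of_lattice _ hS.maxOrder_fg (fun c hc => hc.1)
    (by rw [Subalgebra.coe_toSubmodule]; exact hS.maxOrder_span)

/-- the Hopf order: the dual lattice of the convolution algebra. -/
def Hord : Subalgebra (Zl ℓ) (T → Qb) where
  carrier := {f | ∀ c, InLam ℓ hS.L0 c → pairB T f c ∈ RR ℓ}
  mul_mem' := by
    intro f g hf hg c hc
    obtain ⟨n, bO, hmem, hrepr⟩ := hS.exists_basis_maxOrder
    obtain ⟨ι, _, r, p, q, hr, hp, hq, hd⟩ := hS.hasDelta_of_inLam bO hmem hrepr hc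
    rw [hd]
    exact sum_mem fun m _ => mul_mem (mul_mem (hr m) (hf _ (hp m))) (hg _ (hq m))
  add_mem' := by
    intro f g hf hg c hc
    rw [map_add, LinearMap.add_apply]
    exact add_mem (hf c hc) (hg c hc)
  algebraMap_mem' := by
    intro r c hc
    have : (algebraMap (Zl ℓ) (T → Qb) r) = r • (1 : T → Qb) := by
      rw [Algebra.smul_def, mul_one]
    rw [this, pairB_smul_left]
    exact mul_mem (algebraMap_mem_RR r) (hS.inLam_one_pair hc)

theorem mem_Hord (f : T → Qb) :
    f ∈ hS.Hord ↔ ∀ c, InLam ℓ hS.L0 c → pairB T f c ∈ RR ℓ := Iff.rfl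

theorem Hord_le_maxOrder {f : T → Qb} (hf : f ∈ hS.Hord) : f ∈ hS.maxOrder := by
  obtain ⟨n, bO, hmem, hrepr⟩ := hS.exists_basis_maxOrder
  rw [expand_basis bO f]
  refine sum_mem fun i _ => ?_
  obtain ⟨r, hr⟩ := hf _ (InLam.gen _ (hS.dual_mem_L0 bO hrepr i))
  rw [← hr, IsScalarTower.algebraMap_smul]
  exact Subalgebra.smul_mem _ (hmem i) r

theorem LamSub_fg : hS.LamSub.FG := by
  classical
  obtain ⟨n, bO, hmem, hrepr⟩ := hS.exists_basis_maxOrder
  haveI := finite_chars T
  haveI : Fintype (Chars T) := Fintype.ofFinite _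
  exact hS.fg_of_bounded bO (fun i => (hmem i).1) (chFn : Chars T → T → Qb) chFn_span_eq_top
    hS.LamSub (fun c hc => hS.inLam_eqv hc) (fun c hc φ => hS.inLam_char hc φ)

theorem LamSub_span : Submodule.span Qb ((hS.LamSub : Set (T → Qb))) = ⊤ := by
  obtain ⟨n, bO, hmem, hrepr⟩ := hS.exists_basis_maxOrder
  rw [eq_top_iff, ← ((pairB T).dualBasis pairB_nondegenerate bO).span_eq, Submodule.span_le]
  rintro _ ⟨i, rfl⟩
  exact Submodule.subset_span (InLam.gen _ (hS.dual_mem_L0 bO hrepr i))

/-- **Fourier criterion**: under `(TI)` there is a Hopf order. -/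
theorem exists_isHopfOrder :
    ∃ H : Subalgebra (Zl ℓ) (T → Qb), Fermat.Agent.T6.helper33.IsHopfOrder ℓ act H := by
  classical
  obtain ⟨m, bL, hLmem, hLrepr⟩ := hS.exists_basis_of_lattice hS.LamSub hS.LamSub_fg
    (fun c hc => hS.inLam_eqv hc) hS.LamSub_span
  set hL := (pairB T).dualBasis pairB_nondegenerate bL with hhL
  have hLH : ∀ i, hL i ∈ hS.Hord := by
    intro i c hc
    have h1 : pairB T (hL i) c = bL.repr c i := by
      conv_lhs => rw [← bL.sum_repr c]
      rw [map_sum]
      simp only [map_smul, smul_eq_mul, hhL, LinearMap.BilinForm.apply_dualBasis_left, mul_ite,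
        mul_one, mul_zero, Finset.sum_ite_eq', Finset.mem_univ, if_true]
    rw [h1]
    exact hLrepr c hc i
  refine ⟨hS.Hord, ⟨hS.surj, hS.act_zero, ?_, ?_, ?_, ?_, ?_⟩⟩
  · haveI := isPrincipalIdealRing_Zl ℓ
    exact Submodule.FG.of_le hS.maxOrder_fg (fun f hf => hS.Hord_le_maxOrder hf)
  · exact fun φ hφ => (hS.Hord_le_maxOrder hφ).1
  · intro x y hxy
    by_contra hcon
    push Not at hcon
    have h1 : ∀ f : T → Qb, f x = f y := by
      intro f
      rw [← hL.sum_repr f]
      simp only [Finset.sum_apply, Pi.smul_apply]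
      exact Finset.sum_congr rfl fun i _ => by rw [hcon _ (hLH i)]
    have h2 := h1 (Pi.single x 1)
    rw [Pi.single_eq_same, Pi.single_eq_of_ne' hxy] at h2
    exact one_ne_zero h2
  · intro φ hφ
    refine ⟨m, fun i => hL i, fun i => corr (bL i) φ, hLH, fun i c hc => ?_, fun x y => ?_⟩
    · rw [pairB_corr]
      exact hφ _ (InLam.conv _ _ (hLmem i) hc)
    · have h1 := congrFun (expand_dual bL (fun u => φ (u + y))) x
      simp only [Finset.sum_apply, Pi.smul_apply, smul_eq_mul, pairB_shift] at h1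
      rw [h1]
      exact Finset.sum_congr rfl fun i _ => mul_comm _ _
  · intro φ hφ c hc
    rw [← pairB_neg]
    exact hφ _ (hS.inLam_neg hc)

end Setup

end Setup

/-- **[A3] CRIT, the Fourier criterion.**  Let `T` be a finite commutative group with an action
of `G_ℚ` by automorphisms and `A` a valuation ring of `ℚ̄` with `A ∩ ℚ = ℤ_(ℓ)`.  If every
character of `T` is an `A`-linear combination of equivariant `A`-valued functions, then there is
a Hopf order in `Map(T, ℚ̄)` (hence, by `helper33.IsHopfOrder.exists_hopf`, a finite flat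
cocommutative Hopf algebra over `ℤ_(ℓ)` with points `T`). -/
theorem crit (ℓ : ℕ) [Fact ℓ.Prime] {T : Type} [AddCommGroup T] [Finite T] (act : GQ → T → T)
    (A : ValuationSubring Qb)
    (hsurj : ∀ σ, Function.Surjective (act σ))
    (hadd : ∀ σ u v, act σ (u + v) = act σ u + act σ v)
    (hA : ∀ q : ℚ, algebraMap ℚ Qb q ∈ A ↔ q ∈ GaloisRep.ratLocalizedAt ℓ)
    (hTI : ∀ χ : T → Qb, χ 0 = 1 → (∀ u v, χ (u + v) = χ u * χ v) →
      ∃ (n : ℕ) (a : Fin n → Qb) (f : Fin n → T → Qb), (∀ i, a i ∈ A) ∧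
        (∀ i (σ : GQ) (u : T), f i (act σ u) = σ (f i u)) ∧ (∀ i u, f i u ∈ A) ∧
        ∀ u, χ u = ∑ i, a i * f i u) :
    ∃ H : Subalgebra (Zl ℓ) (T → Qb), Fermat.Agent.T6.helper33.IsHopfOrder ℓ act H := by
  classical
  cases nonempty_fintype T
  exact Setup.exists_isHopfOrder ⟨hsurj, hadd, hA, hTI⟩


/-! ### Adapters -/

section Adapters

variable (ℓ : ℕ) [hℓ : Fact ℓ.Prime] (A : ValuationSubring Qb)

/-- integers prime to `ℓ` are units of a valuation ring over `ℓ`. -/
theorem valuation_intCast_eq_one (hA : A.LiesOverPrime ℓ) (n : ℤ) (hn : ¬ (ℓ : ℤ) ∣ n) :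
    A.valuation (n : Qb) = 1 := by
  have hle : ∀ m : ℤ, A.valuation (m : Qb) ≤ 1 := fun m =>
    (A.valuation_le_one_iff _).mpr (intCast_mem A m)
  have hl : A.valuation (ℓ : Qb) < 1 := hA
  rcases lt_or_eq_of_le (hle n) with h | h
  · exfalso
    have hcop : IsCoprime n (ℓ : ℤ) := by
      have hp : Prime (ℓ : ℤ) := Nat.prime_iff_prime_int.mp hℓ.out
      exact ((hp.coprime_iff_not_dvd).mpr hn).symm
    obtain ⟨a, b, hab⟩ := hcop
    have h1 : (a : Qb) * (n : Qb) + (b : Qb) * (ℓ : Qb) = 1 := by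
      have := congrArg (fun z : ℤ => (z : Qb)) hab
      simpa using this
    have h2 : A.valuation ((a : Qb) * (n : Qb)) < 1 := by
      rw [map_mul]
      exact mul_lt_one_of_nonneg_of_lt_one_right (hle a) zero_le h
    have h3 : A.valuation ((b : Qb) * (ℓ : Qb)) < 1 := by
      rw [map_mul]
      exact mul_lt_one_of_nonneg_of_lt_one_right (hle b) zero_le hl
    have h4 := A.valuation.map_add_lt h2 h3
    rw [h1, map_one] at h4
    exact lt_irrefl _ h4
  · exact h

/-- a valuation ring of `ℚ̄` over `ℓ` meets `ℚ` in `ℤ_(ℓ)`. -/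
theorem mem_iff_of_liesOverPrime (hA : A.LiesOverPrime ℓ) (q : ℚ) :
    algebraMap ℚ Qb q ∈ A ↔ q ∈ GaloisRep.ratLocalizedAt ℓ := by
  have hq : algebraMap ℚ Qb q = (q.num : Qb) / (q.den : Qb) := by
    rw [eq_ratCast, Rat.cast_def]
  have hden0 : ((q.den : ℕ) : Qb) ≠ 0 := by exact_mod_cast q.den_nz
  rw [Fermat.Agent.S28.helper94.mem_ratLocalizedAt_iff,
    Fermat.Agent.S28.helper94.coprime_iff_not_dvd, ← A.valuation_le_one_iff, hq, map_div₀]
  constructor
  · intro h hdvd
    have hnum : ¬ (ℓ : ℤ) ∣ q.num := by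
      intro hnum
      have h1 : ℓ ∣ q.num.natAbs := Int.natCast_dvd.mp hnum
      have h2 := Nat.dvd_gcd h1 hdvd
      rw [q.reduced] at h2
      exact hℓ.out.one_lt.ne' (Nat.dvd_one.mp h2)
    have h1 := valuation_intCast_eq_one ℓ A hA q.num hnum
    have h2 : A.valuation ((q.den : ℕ) : Qb) < 1 := by
      obtain ⟨k, hk⟩ := hdvd
      rw [hk, Nat.cast_mul, map_mul]
      exact mul_lt_one_of_nonneg_of_lt_one_left zero_le hA
        ((A.valuation_le_one_iff _).mpr (natCast_mem A k))
    have h3 : A.valuation ((q.den : ℕ) : Qb) ≠ 0 := by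
      rwa [Ne, map_eq_zero]
    rw [h1, div_le_iff₀ (zero_lt_iff.mpr h3), one_mul] at h
    exact absurd h2 (not_lt.mpr h)
  · intro hndvd
    have h1 := valuation_intCast_eq_one ℓ A hA (q.den : ℤ) (by exact_mod_cast hndvd)
    rw [Int.cast_natCast] at h1
    rw [h1, div_one]
    exact (A.valuation_le_one_iff _).mpr (intCast_mem A _)

/-- **[A3] CRIT** for a valuation ring over `ℓ` (Prelude form `A.LiesOverPrime ℓ`). -/
theorem crit_liesOver {T : Type} [AddCommGroup T] [Finite T] (act : GQ → T → T)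
    (hA : A.LiesOverPrime ℓ)
    (hsurj : ∀ σ, Function.Surjective (act σ))
    (hadd : ∀ σ u v, act σ (u + v) = act σ u + act σ v)
    (hTI : ∀ χ : T → Qb, χ 0 = 1 → (∀ u v, χ (u + v) = χ u * χ v) →
      ∃ (n : ℕ) (a : Fin n → Qb) (f : Fin n → T → Qb), (∀ i, a i ∈ A) ∧
        (∀ i (σ : GQ) (u : T), f i (act σ u) = σ (f i u)) ∧ (∀ i u, f i u ∈ A) ∧
        ∀ u, χ u = ∑ i, a i * f i u) :
    ∃ H : Subalgebra (Zl ℓ) (T → Qb), Fermat.Agent.T6.helper33.IsHopfOrder ℓ act H :=
  crit ℓ act A hsurj hadd (mem_iff_of_liesOverPrime ℓ A hA) hTI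

/-- **[A3] CRIT, frozen shape**: under `(TI)` there is a finite flat cocommutative Hopf algebra
over `ℤ_(ℓ)` whose `ℚ̄`-points are `T`, additively and Galois-equivariantly (the body of the
frozen statement S19 and of `GaloisRepAdic.IsFlatAt`). -/
theorem crit_hopf {T : Type} [AddCommGroup T] [Finite T] (act : GQ → T → T)
    (hA : A.LiesOverPrime ℓ)
    (hsurj : ∀ σ, Function.Surjective (act σ))
    (hadd : ∀ σ u v, act σ (u + v) = act σ u + act σ v)
    (hTI : ∀ χ : T → Qb, χ 0 = 1 → (∀ u v, χ (u + v) = χ u * χ v) →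
      ∃ (n : ℕ) (a : Fin n → Qb) (f : Fin n → T → Qb), (∀ i, a i ∈ A) ∧
        (∀ i (σ : GQ) (u : T), f i (act σ u) = σ (f i u)) ∧ (∀ i u, f i u ∈ A) ∧
        ∀ u, χ u = ∑ i, a i * f i u) :
    ∃ (H' : Type) (_ : CommRing H') (_ : HopfAlgebra (GaloisRep.ratLocalizedAt ℓ) H'),
      Module.Finite (GaloisRep.ratLocalizedAt ℓ) H' ∧
      Module.Flat (GaloisRep.ratLocalizedAt ℓ) H' ∧
      Coalgebra.IsCocomm (GaloisRep.ratLocalizedAt ℓ) H' ∧
      ∃ e : WithConv (H' →ₐ[GaloisRep.ratLocalizedAt ℓ] AlgebraicClosure ℚ) ≃ T,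
        (∀ f g, e (f * g) = e f + e g) ∧
        ∀ (σ : AlgebraicClosure ℚ ≃ₐ[ℚ] AlgebraicClosure ℚ)
          (f g : WithConv (H' →ₐ[GaloisRep.ratLocalizedAt ℓ] AlgebraicClosure ℚ)),
          (∀ a : H', g a = σ (f a)) → e g = act σ (e f) := by
  obtain ⟨H, hH⟩ := crit_liesOver ℓ A act hA hsurj hadd hTI
  exact hH.exists_hopf

end Adapters

end Fermat.Agent.T6.helper82
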