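/-
T6 (S19), helper36: **[ASM] frontier chain, top layer** (second prover next to helper30).

Everything below is kernel-checked against what is ON MAIN; the open blocks enter as explicit
hypotheses (`Prop`s of `helper73_T6Iface` / `helper40_DescIface`).

* `finite_tors`        : `J₀(M)[l^k]` is finite (S27 count);
* `order_of_ti`        : `TI A (actTors M l k)` ⟹ `helper66.OrderStatement M l k` ([A3] CRIT);
* `order_of_tii`       : the same from the inertia form `TII` ([DESC]);
* `s19_of_tiGood` / `s19_of_tiiGood` : the frozen statement S19 (verbatim) from `(TI)` / `(TI)_I`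
                         at the good triples ([LEVEL]);
* `s19_of_weil_int`    : S19 from `helper73.WeilStatement` + `helper73.IntStatement`;
* `s19_of_weil_intI`   : S19 from `helper73.WeilStatement` + `IntIStatement` (inertia form).
-/
import Mathlib
import Fermat.Agent.T6.helper73_T6Iface
import Fermat.Agent.T6.helper66_Level
import Fermat.Agent.T6.helper82_Crit
import Fermat.Agent.T6.helper40_DescIface
import Fermat.Agent.T6.helper23_Curve
import Fermat.Agent.P5.helper25_S27Wire
import Fermat.Agent.S54.helper91_Frobenius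

set_option autoImplicit false
set_option linter.unusedSectionVars false
set_option linter.unusedVariables false
set_option linter.style.longLine false
set_option linter.style.haveILetI false

noncomputable section

open AlgebraicCurve ModularCurve

namespace Fermat.Agent.T6.helper36

open Fermat.Agent.T6.helper73 (Kq Gq TI Tors actTors GoodAt WeilAt WeilStatement IntStatement
  isGalAct_actTors)
open Fermat.Agent.T6.helper40 (TII)

/-! ### Finiteness of the torsion (S27) -/

/-- `J₀(M)[l^k]` is finite, by the count of S27. -/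
theorem finite_tors (M : ℕ) [NeZero M] (l : ℕ) [Fact l.Prime] (k : ℕ) : Finite (Tors M l k) := by
  haveI := Fermat.Agent.T6.helper23.isCurveOver_FF M
  haveI := Fermat.Agent.T6.helper23.essFiniteType_FF M
  have h := Fermat.Agent.P5.helper25.s27_final Kq (modularFunctionFieldBar M) l k
  have hpos : Nat.card (Pic0.torsion Kq (modularFunctionFieldBar M) (l ^ k)) ≠ 0 := by
    rw [h]
    exact pow_ne_zero _ (Fact.out : l.Prime).ne_zero
  haveI hfin : Finite (Pic0.torsion Kq (modularFunctionFieldBar M) (l ^ k)) :=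
    Nat.finite_of_card_ne_zero hpos
  let φ : Tors M l k → Pic0.torsion Kq (modularFunctionFieldBar M) (l ^ k) := fun x =>
    ⟨(x : JZero M), by
      have hx := x.2
      rw [Submodule.mem_torsionBy_iff] at hx
      rw [Pic0.mem_torsion]
      have e : (((l ^ k : ℕ) : ℤ)) = (l : ℤ) ^ k := by push_cast; rfl
      rw [e]
      exact hx⟩
  refine Finite.of_injective φ ?_
  intro x y hxy
  have h1 : ((φ x : Pic0.torsion Kq (modularFunctionFieldBar M) (l ^ k)) :
      Pic0 Kq (modularFunctionFieldBar M)) = (φ y : Pic0.torsion Kq (modularFunctionFieldBar M)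
        (l ^ k)) := congrArg Subtype.val hxy
  exact Subtype.ext h1

/-! ### From (TI) to the order statement -/

/-- **[A3]** `(TI)` at level `M` gives the order statement of `helper66_Level`. -/
theorem order_of_ti (M : ℕ) [NeZero M] (l : ℕ) [Fact l.Prime] (k : ℕ)
    (A : ValuationSubring Kq) (hA : A.LiesOverPrime l) (h : TI A (actTors M l k)) :
    Fermat.Agent.T6.helper66.OrderStatement M l k := by
  haveI hfin : Finite (Tors M l k) := finite_tors M l k
  refine ⟨hfin, ?_⟩
  refine Fermat.Agent.T6.helper82.crit_liesOver l A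
    (Fermat.Agent.T6.helper66.torsAct M ((l : ℤ) ^ k)) hA
    (Fermat.Agent.T6.helper66.torsAct_surjective M _)
    (fun σ u v => Subtype.ext (smul_add σ (u : JZero M) (v : JZero M))) ?_
  intro χ h0 hadd
  obtain ⟨n, a, f, ha, hf, hfG, hχ⟩ := h χ h0 hadd
  exact ⟨n, a, f, ha, fun i σ u => hfG i σ u, hf, hχ⟩

/-- **[A3] + [DESC]** `(TI)_I` at level `M` gives the order statement. -/
theorem order_of_tii (M : ℕ) [NeZero M] (l : ℕ) [Fact l.Prime] (k : ℕ)
    (A : ValuationSubring Kq) (hA : A.LiesOverPrime l) (h : TII A (actTors M l k)) :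
    Fermat.Agent.T6.helper66.OrderStatement M l k := by
  haveI hfin : Finite (Tors M l k) := finite_tors M l k
  exact order_of_ti M l k A hA
    (Fermat.Agent.T6.helper40.ti_actTors_of_tii (Fact.out : l.Prime) A hA M k h)

/-! ### The frontier statements -/

/-- **frontier, Galois form**: `(TI)` at all good triples. -/
def TIGood : Prop :=
  ∀ (M : ℕ) [NeZero M] (l : ℕ) [Fact l.Prime] (A : ValuationSubring Kq), GoodAt M l A →
    ∀ k : ℕ, TI A (actTors M l k)

/-- **frontier, inertia form**: `(TI)_I` at all good triples. -/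
def TIIGood : Prop :=
  ∀ (M : ℕ) [NeZero M] (l : ℕ) [Fact l.Prime] (A : ValuationSubring Kq), GoodAt M l A →
    ∀ k : ℕ, TII A (actTors M l k)

/-- **[INT], inertia form**: at a good level the Weil characters satisfy `(TI)_I`. -/
def IntIStatement : Prop :=
  ∀ (M : ℕ) [NeZero M] (l : ℕ) [Fact l.Prime] (A : ValuationSubring Kq), GoodAt M l A →
    ∀ k : ℕ, WeilAt Kq (modularFunctionFieldBar M) l k → TII A (actTors M l k)

theorem tiiGood_of_tiGood (h : TIGood) : TIIGood := fun M _ l _ A hG k =>
  Fermat.Agent.T6.helper40.tii_of_ti A _ (h M l A hG k)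

theorem intI_of_int (h : IntStatement) : IntIStatement := fun M _ l _ A hG k hW =>
  Fermat.Agent.T6.helper40.tii_of_ti A _ (h M l A hG k hW)

/-- The frozen statement S19, verbatim. -/
def S19Statement : Prop :=
  ∀ (p : ℕ) [NeZero p] (ℓ : ℕ) [Fact ℓ.Prime] (_ : ¬ ℓ ∣ p) (k : ℕ),
    ∃ (H : Type) (_ : CommRing H) (_ : HopfAlgebra (GaloisRep.ratLocalizedAt ℓ) H),
      Module.Finite (GaloisRep.ratLocalizedAt ℓ) H ∧ Module.Flat (GaloisRep.ratLocalizedAt ℓ) H ∧
      Coalgebra.IsCocomm (GaloisRep.ratLocalizedAt ℓ) H ∧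
      ∃ e : WithConv (H →ₐ[GaloisRep.ratLocalizedAt ℓ] AlgebraicClosure ℚ) ≃
          ↥(Submodule.torsionBy ℤ (JZero p) ((ℓ : ℤ) ^ k)),
        (∀ f g, e (f * g) = e f + e g) ∧
        ∀ (σ : AlgebraicClosure ℚ ≃ₐ[ℚ] AlgebraicClosure ℚ)
          (f g : WithConv (H →ₐ[GaloisRep.ratLocalizedAt ℓ] AlgebraicClosure ℚ)),
          (∀ h : H, g h = σ (f h)) → ((e g : JZero p)) = σ • (e f : JZero p)

/-- **S19 from `(TI)_I` at the good triples.** -/
theorem s19_of_tiiGood (h : TIIGood) : S19Statement := by
  intro p _ ℓ _ hℓp k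
  refine Fermat.Agent.T6.helper66.s19_of_good ?_ p ℓ hℓp k
  intro M _ ℓ' _ k' hM hℓM
  obtain ⟨A, hA⟩ := Fermat.Agent.S54.helper91.exists_valuationSubring_liesOver
    (Fact.out : ℓ'.Prime)
  exact order_of_tii M ℓ' k' A hA (h M ℓ' A ⟨hM, Fact.out, hℓM, hA⟩ k')

/-- **S19 from `(TI)` at the good triples.** -/
theorem s19_of_tiGood (h : TIGood) : S19Statement :=
  s19_of_tiiGood (tiiGood_of_tiGood h)

/-- **S19 from [WEIL] + [INT] (inertia form).** -/
theorem s19_of_weil_intI (hW : WeilStatement) (hI : IntIStatement) : S19Statement :=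
  s19_of_tiiGood fun M _ l _ A hG k =>
    hI M l A hG k (Fermat.Agent.T6.helper23.weilAt_FF M hW l k)

/-- **S19 from [WEIL] + [INT] (interface form).** -/
theorem s19_of_weil_int (hW : WeilStatement) (hI : IntStatement) : S19Statement :=
  s19_of_weil_intI hW (intI_of_int hI)

end Fermat.Agent.T6.helper36

end
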