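/-
T6 (S19 / S32), helper3: **[I5] algebra core — the ring of `(TI)` functions and the norm-form
expansion** (Mathlib only).

Setting: a set `Γ` of operators acting on a finite set `G` (`act`) and on a commutative ring `K`
by ring homomorphisms (`s`), and a subring `A` of `K`.  A function `f : G → K` is *equivariant
`A`-valued* if `f u ∈ A` and `f (act σ u) = s σ (f u)`.  `IsTI χ` says that `χ` is an
`A`-combination of equivariant `A`-valued functions: this is the shape of the hypothesis `(TI)` of
the Fourier criterion.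

* `tiAlg` : the `A`-subalgebra of `G → K` of the `(TI)` functions; `isTI_iff_mem_tiAlg`;
* `inv_mem_tiAlg` : the pointwise inverse of a `(TI)` function with unit values is `(TI)`
  (integrality of `G → A` over `A`);
* `mem_tiAlg_of_invariant` : functions of an invariant are `(TI)`;
* `normForm_mem_tiAlg` : the **norm-form expansion**: if `V u` is an equivariant family of
  multisets of vectors with entries in `A`, then `u ↦ ∏_{v ∈ V u} ∑_j a_j v_j` is `(TI)` for all
  `a_j ∈ A` (the coefficients of `∏_v ∑_j t_j v_j ∈ A[t]` are equivariant);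
* `prodMultiset_mem_tiAlg`, `prodFinsupp_mem_tiAlg` : the same for the values of
  `h = ∑ a_j φ_j` on an equivariant family of effective divisors.
-/
import Mathlib

set_option autoImplicit false
set_option linter.unusedSectionVars false
set_option linter.unusedVariables false
set_option linter.style.longLine false
set_option linter.style.haveILetI false

noncomputable section

namespace Fermat.Agent.T6.helper3

open scoped BigOperators

section TI

variable {Γ G K : Type*} [CommRing K] (act : Γ → G → G) (s : Γ → K →+* K) (A : Subring K)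

/-- the multiplicative monoid of equivariant `A`-valued functions -/
def eqvMonoid : Submonoid (G → K) where
  carrier := {f | (∀ u, f u ∈ A) ∧ ∀ σ u, f (act σ u) = s σ (f u)}
  one_mem' := ⟨fun _ => A.one_mem, fun σ _ => (map_one (s σ)).symm⟩
  mul_mem' := by
    rintro f g ⟨hf, hf'⟩ ⟨hg, hg'⟩
    refine ⟨fun u => A.mul_mem (hf u) (hg u), fun σ u => ?_⟩
    show f (act σ u) * g (act σ u) = s σ (f u * g u)
    rw [hf', hg', map_mul]

theorem mem_eqvMonoid {f : G → K} :
    f ∈ eqvMonoid act s A ↔ (∀ u, f u ∈ A) ∧ ∀ σ u, f (act σ u) = s σ (f u) := Iff.rfl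

/-- the `A`-algebra of `(TI)` functions: `A`-combinations of equivariant `A`-valued functions -/
def tiAlg : Subalgebra A (G → K) := Algebra.adjoin A (eqvMonoid act s A : Set (G → K))

/-- `χ` is an `A`-combination of equivariant `A`-valued functions (the shape of `(TI)`). -/
def IsTI (χ : G → K) : Prop :=
  ∃ (n : ℕ) (a : Fin n → K) (f : Fin n → G → K), (∀ i, a i ∈ A) ∧ (∀ i u, f i u ∈ A) ∧
    (∀ i σ u, f i (act σ u) = s σ (f i u)) ∧ ∀ u, χ u = ∑ i, a i * f i u

theorem tiAlg_toSubmodule :
    Subalgebra.toSubmodule (tiAlg act s A) =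
      Submodule.span A (eqvMonoid act s A : Set (G → K)) := by
  rw [tiAlg, Algebra.adjoin_eq_span, Submonoid.closure_eq]

theorem mem_tiAlg_iff_mem_span {χ : G → K} :
    χ ∈ tiAlg act s A ↔ χ ∈ Submodule.span A (eqvMonoid act s A : Set (G → K)) := by
  rw [← tiAlg_toSubmodule]
  rfl

theorem isTI_iff_mem_tiAlg {χ : G → K} : IsTI act s A χ ↔ χ ∈ tiAlg act s A := by
  rw [mem_tiAlg_iff_mem_span, Submodule.mem_span_set']
  constructor
  · rintro ⟨n, a, f, ha, hfA, hfeq, hχ⟩
    refine ⟨n, fun i => ⟨a i, ha i⟩, fun i => ⟨f i, fun u => hfA i u, fun σ u => hfeq i σ u⟩, ?_⟩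
    funext u
    rw [hχ u, Finset.sum_apply]
    rfl
  · rintro ⟨n, c, g, rfl⟩
    refine ⟨n, fun i => (c i : K), fun i => (g i : G → K), fun i => (c i).2,
      fun i u => (g i).2.1 u, fun i σ u => (g i).2.2 σ u, fun u => ?_⟩
    rw [Finset.sum_apply]
    rfl

theorem mem_tiAlg_of_eqv {f : G → K} (hfA : ∀ u, f u ∈ A)
    (hfeq : ∀ σ u, f (act σ u) = s σ (f u)) : f ∈ tiAlg act s A :=
  Algebra.subset_adjoin ⟨hfA, hfeq⟩

theorem const_mem_tiAlg {a : K} (ha : a ∈ A) : (fun _ : G => a) ∈ tiAlg act s A :=
  (tiAlg act s A).algebraMap_mem ⟨a, ha⟩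

theorem const_mul_mem_tiAlg {a : K} (ha : a ∈ A) {f : G → K} (hf : f ∈ tiAlg act s A) :
    (fun u => a * f u) ∈ tiAlg act s A :=
  (tiAlg act s A).mul_mem (const_mem_tiAlg act s A ha) hf

/-- the values of a `(TI)` function lie in `A` -/
theorem apply_mem_of_mem_tiAlg {f : G → K} (hf : f ∈ tiAlg act s A) (u : G) : f u ∈ A := by
  rw [mem_tiAlg_iff_mem_span] at hf
  induction hf using Submodule.span_induction with
  | mem x hx => exact hx.1 u
  | zero => exact A.zero_mem
  | add x y _ _ hx hy => exact A.add_mem hx hy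
  | smul a x _ hx => exact A.mul_mem a.2 hx

/-- **Inverses.**  A `(TI)` function whose values are units of `A` has a `(TI)` inverse. -/
theorem inv_mem_tiAlg [Finite G] {f g : G → K} (hf : f ∈ tiAlg act s A) (hg : ∀ u, g u ∈ A)
    (hfg : ∀ u, f u * g u = 1) : g ∈ tiAlg act s A := by
  classical
  haveI : Fintype G := Fintype.ofFinite G
  have hfA := apply_mem_of_mem_tiAlg act s A hf
  -- the characteristic polynomial of `f`
  set p : Polynomial A := ∏ u : G, (Polynomial.X - Polynomial.C ⟨f u, hfA u⟩) with hp
  have hpf : Polynomial.aeval f p = 0 := by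
    funext v
    have h1 : (Polynomial.aeval f p) v = Polynomial.aeval (f v) p := by
      have := Polynomial.aeval_algHom_apply (Pi.evalAlgHom A (fun _ : G => K) v) f p
      exact this.symm
    rw [h1, hp, map_prod, Pi.zero_apply]
    refine Finset.prod_eq_zero (Finset.mem_univ v) ?_
    rw [map_sub, Polynomial.aeval_X, Polynomial.aeval_C]
    exact sub_self _
  have hc0 : (p.coeff 0 : K) = ∏ u : G, (- f u) := by
    rw [Polynomial.coeff_zero_eq_eval_zero, hp, Polynomial.eval_prod]
    simp only [Polynomial.eval_sub, Polynomial.eval_X, Polynomial.eval_C, zero_sub]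
    rw [← Subring.coe_subtype, map_prod]
    rfl
  -- `f * q(f) = - c₀`
  have hdiv : Polynomial.aeval f p.divX * f + algebraMap A (G → K) (p.coeff 0) = 0 := by
    have h2 := congrArg (Polynomial.aeval f) (Polynomial.divX_mul_X_add p)
    rw [map_add, map_mul, Polynomial.aeval_X, Polynomial.aeval_C, hpf] at h2
    exact h2
  have hq : Polynomial.aeval f p.divX ∈ tiAlg act s A := by
    have h3 : Polynomial.aeval f p.divX ∈ Algebra.adjoin A ({f} : Set (G → K)) :=
      Polynomial.aeval_mem_adjoin_singleton A f
    exact Algebra.adjoin_le (Set.singleton_subset_iff.mpr hf) h3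
  -- the inverse of `c₀`
  have hd : (∏ u : G, (- g u)) ∈ A := Subring.prod_mem _ fun u _ => A.neg_mem (hg u)
  have hcd : (p.coeff 0 : K) * ∏ u : G, (- g u) = 1 := by
    rw [hc0, ← Finset.prod_mul_distrib]
    refine Finset.prod_eq_one fun u _ => ?_
    rw [neg_mul_neg, hfg]
  -- the candidate
  have hg' : (fun u => - (∏ v : G, (- g v)) * Polynomial.aeval f p.divX u) ∈ tiAlg act s A :=
    const_mul_mem_tiAlg act s A (A.neg_mem hd) hq
  have hfg' : ∀ u, f u * (- (∏ v : G, (- g v)) * Polynomial.aeval f p.divX u) = 1 := by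
    intro u
    have h4 := congrFun hdiv u
    have h5 : Polynomial.aeval f p.divX u * f u = - (p.coeff 0 : K) := by
      have h6 : Polynomial.aeval f p.divX u * f u + (p.coeff 0 : K) = 0 := h4
      exact eq_neg_of_add_eq_zero_left h6
    calc f u * (- (∏ v : G, (- g v)) * Polynomial.aeval f p.divX u)
        = - ((Polynomial.aeval f p.divX u * f u) * ∏ v : G, (- g v)) := by ring
      _ = (p.coeff 0 : K) * ∏ v : G, (- g v) := by rw [h5]; ring
      _ = 1 := hcd
  have hgeq : g = fun u => - (∏ v : G, (- g v)) * Polynomial.aeval f p.divX u := by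
    funext u
    calc g u = g u * (f u * (- (∏ v : G, (- g v)) * Polynomial.aeval f p.divX u)) := by
          rw [hfg' u, mul_one]
      _ = (f u * g u) * (- (∏ v : G, (- g v)) * Polynomial.aeval f p.divX u) := by ring
      _ = _ := by rw [hfg u, one_mul]
  rw [hgeq]
  exact hg'

/-- **Functions of an invariant.** -/
theorem mem_tiAlg_of_invariant [Finite G] {S : Type*} (m : G → S)
    (hm : ∀ σ u, m (act σ u) = m u) (F : S → K) (hF : ∀ k, F k ∈ A) :
    (fun u => F (m u)) ∈ tiAlg act s A := by
  classical
  haveI : Fintype G := Fintype.ofFinite G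
  have h1 : (fun u => F (m u)) =
      ∑ k ∈ Finset.univ.image m, fun u => F k * (if m u = k then (1 : K) else 0) := by
    funext u
    rw [Finset.sum_apply, Finset.sum_eq_single (m u)]
    · rw [if_pos rfl, mul_one]
    · intro k _ hk
      rw [if_neg (fun h => hk h.symm), mul_zero]
    · intro h
      exact absurd (Finset.mem_image_of_mem m (Finset.mem_univ u)) h
  rw [h1]
  refine Subalgebra.sum_mem _ fun k _ => ?_
  refine const_mul_mem_tiAlg act s A (hF k) (mem_tiAlg_of_eqv act s A (fun u => ?_) fun σ u => ?_)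
  · split_ifs
    · exact A.one_mem
    · exact A.zero_mem
  · rw [hm]
    split_ifs
    · exact (map_one _).symm
    · exact (map_zero _).symm

end TI

/-! ### The norm-form expansion -/

section NormForm

variable {Γ G K : Type*} [CommRing K] (act : Γ → G → G) (s : Γ → K →+* K) (A : Subring K)
variable {J : Type*}

/-- the linear form `∑_j v_j t_j` of a vector `v` -/
def linForm [Fintype J] (v : J → K) : MvPolynomial J K :=
  ∑ j, MvPolynomial.C (v j) * MvPolynomial.X j

/-- the norm form `∏_{v ∈ V} ∑_j v_j t_j` of a multiset of vectors -/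
def normPoly [Fintype J] (V : Multiset (J → K)) : MvPolynomial J K :=
  (V.map linForm).prod

theorem eval_linForm [Fintype J] (a v : J → K) :
    MvPolynomial.eval a (linForm v) = ∑ j, a j * v j := by
  rw [linForm, map_sum]
  refine Finset.sum_congr rfl fun j _ => ?_
  rw [map_mul, MvPolynomial.eval_C, MvPolynomial.eval_X, mul_comm]

theorem eval_normPoly [Fintype J] (a : J → K) (V : Multiset (J → K)) :
    MvPolynomial.eval a (normPoly V) = (V.map fun v => ∑ j, a j * v j).prod := by
  rw [normPoly, map_multiset_prod, Multiset.map_map]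
  congr 1
  refine Multiset.map_congr rfl fun v _ => ?_
  exact eval_linForm a v

theorem map_linForm [Fintype J] (f : K →+* K) (v : J → K) :
    MvPolynomial.map f (linForm v) = linForm (fun j => f (v j)) := by
  rw [linForm, map_sum]
  refine Finset.sum_congr rfl fun j _ => ?_
  rw [map_mul, MvPolynomial.map_C, MvPolynomial.map_X]

theorem map_normPoly [Fintype J] (f : K →+* K) (V : Multiset (J → K)) :
    MvPolynomial.map f (normPoly V) = normPoly (V.map fun v j => f (v j)) := by
  rw [normPoly, normPoly, map_multiset_prod, Multiset.map_map, Multiset.map_map]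
  congr 1
  refine Multiset.map_congr rfl fun v _ => ?_
  exact map_linForm f v

theorem coeff_normPoly_mem [Fintype J] (V : Multiset (J → K)) (hV : ∀ v ∈ V, ∀ j, v j ∈ A)
    (α : J →₀ ℕ) : MvPolynomial.coeff α (normPoly V) ∈ A := by
  have h1 : normPoly V ∈ (MvPolynomial.map (σ := J) A.subtype).range := by
    refine Subring.multiset_prod_mem _ _ fun p hp => ?_
    obtain ⟨v, hv, rfl⟩ := Multiset.mem_map.mp hp
    refine ⟨∑ j, MvPolynomial.C ⟨v j, hV v hv j⟩ * MvPolynomial.X j, ?_⟩
    rw [map_sum, linForm]
    refine Finset.sum_congr rfl fun j _ => ?_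
    rw [map_mul, MvPolynomial.map_C, MvPolynomial.map_X]
    rfl
  obtain ⟨q, hq⟩ := h1
  rw [← hq, MvPolynomial.coeff_map]
  exact (MvPolynomial.coeff α q).2

/-- **Norm-form expansion.**  For an equivariant family `V u` of multisets of vectors with entries
in `A` and coefficients `a_j ∈ A`, the function `u ↦ ∏_{v ∈ V u} ∑_j a_j v_j` is an
`A`-combination of equivariant `A`-valued functions. -/
theorem normForm_mem_tiAlg [Finite G] [Fintype J] (V : G → Multiset (J → K))
    (hVA : ∀ u, ∀ v ∈ V u, ∀ j, v j ∈ A)
    (hVeq : ∀ σ u, V (act σ u) = (V u).map fun v j => s σ (v j))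
    (a : J → K) (ha : ∀ j, a j ∈ A) :
    (fun u => ((V u).map fun v => ∑ j, a j * v j).prod) ∈ tiAlg act s A := by
  classical
  haveI : Fintype G := Fintype.ofFinite G
  set S : Finset (J →₀ ℕ) := Finset.univ.biUnion fun u : G => (normPoly (V u)).support with hS
  have h1 : (fun u => ((V u).map fun v => ∑ j, a j * v j).prod) =
      ∑ α ∈ S, fun u => (∏ j, a j ^ α j) * MvPolynomial.coeff α (normPoly (V u)) := by
    funext u
    rw [Finset.sum_apply, ← eval_normPoly, MvPolynomial.eval_eq']
    have hsub : (normPoly (V u)).support ⊆ S := by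
      intro α hα
      exact Finset.mem_biUnion.mpr ⟨u, Finset.mem_univ u, hα⟩
    rw [Finset.sum_subset hsub]
    · refine Finset.sum_congr rfl fun α _ => ?_
      rw [mul_comm]
    · intro α _ hα
      rw [MvPolynomial.notMem_support_iff.mp hα, zero_mul]
  rw [h1]
  refine Subalgebra.sum_mem _ fun α _ => ?_
  refine const_mul_mem_tiAlg act s A (Subring.prod_mem _ fun j _ => A.pow_mem (ha j) _)
    (mem_tiAlg_of_eqv act s A (fun u => coeff_normPoly_mem A (V u) (hVA u) α) fun σ u => ?_)
  rw [hVeq, ← map_normPoly, MvPolynomial.coeff_map]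

/-- **Norm-form expansion, multiset of points.**  `D u` an equivariant family of multisets of
points of a set `X` with operators, `φ_j` equivariant functions with values in `A` at the points
of the `D u`, `a_j ∈ A`: then `u ↦ ∏_{P ∈ D u} ∑_j a_j φ_j(P)` is `(TI)`. -/
theorem prodMultiset_mem_tiAlg [Finite G] [Fintype J] {X : Type*} (actX : Γ → X → X)
    (D : G → Multiset X) (hD : ∀ σ u, D (act σ u) = (D u).map (actX σ))
    (φ : J → X → K) (hφA : ∀ u, ∀ P ∈ D u, ∀ j, φ j P ∈ A)
    (hφeq : ∀ σ u, ∀ P ∈ D u, ∀ j, φ j (actX σ P) = s σ (φ j P))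
    (a : J → K) (ha : ∀ j, a j ∈ A) :
    (fun u => ((D u).map fun P => ∑ j, a j * φ j P).prod) ∈ tiAlg act s A := by
  have h := normForm_mem_tiAlg act s A (fun u => (D u).map fun P j => φ j P)
    (fun u v hv j => by
      obtain ⟨P, hP, rfl⟩ := Multiset.mem_map.mp hv
      exact hφA u P hP j)
    (fun σ u => by
      rw [hD, Multiset.map_map, Multiset.map_map]
      refine Multiset.map_congr rfl fun P hP => ?_
      funext j
      exact hφeq σ u P hP j)
    a ha
  have h2 : (fun u => ((D u).map fun P => ∑ j, a j * φ j P).prod) =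
      fun u => (((D u).map fun P j => φ j P).map fun v => ∑ j, a j * v j).prod := by
    funext u
    rw [Multiset.map_map]
    rfl
  rw [h2]
  exact h

/-- **Norm-form expansion, effective divisors.** -/
theorem prodFinsupp_mem_tiAlg [Finite G] [Fintype J] {X : Type*} (actX : Γ → X → X)
    (D : G → X →₀ ℕ) (hD : ∀ σ u, D (act σ u) = (D u).mapDomain (actX σ))
    (φ : J → X → K) (hφA : ∀ u, ∀ P ∈ (D u).support, ∀ j, φ j P ∈ A)
    (hφeq : ∀ σ u, ∀ P ∈ (D u).support, ∀ j, φ j (actX σ P) = s σ (φ j P))
    (a : J → K) (ha : ∀ j, a j ∈ A) :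
    (fun u => (D u).prod fun P n => (∑ j, a j * φ j P) ^ n) ∈ tiAlg act s A := by
  classical
  have h := prodMultiset_mem_tiAlg act s A actX (fun u => Finsupp.toMultiset (D u))
    (fun σ u => by rw [hD, Finsupp.toMultiset_map])
    φ (fun u P hP j => hφA u P (by simpa using hP) j)
    (fun σ u P hP j => hφeq σ u P (by simpa using hP) j) a ha
  have h2 : (fun u => (D u).prod fun P n => (∑ j, a j * φ j P) ^ n) =
      fun u => ((Finsupp.toMultiset (D u)).map fun P => ∑ j, a j * φ j P).prod := by
    funext u
    rw [Finsupp.toMultiset_map, Finsupp.prod_toMultiset, Finsupp.prod_mapDomain_index]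
    · intro b
      exact pow_zero b
    · intro b m n
      exact pow_add b m n
  rw [h2]
  exact h

end NormForm

end Fermat.Agent.T6.helper3

end
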