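/-
T6 (S19 / S32), helper3: **[I5] generic assembly — the Weil characters are `(TI)`**.

Any function field `F / K` with a `RiemannSetting`, any set `Γ` of semilinear automorphisms
(`γ : Γ → SemilinearAut K F`) acting on a finite set `G` (`act`), any subring `A` of `K`.
Values at places and at divisors are those of block [W0] (`helper26`: `pval`, `dval`, `Disj`).

* `pval_sum_smul`        : the value of a `K`-combination of regular functions;
* `coord_equivariant`    : the coordinates of an equivariant family of functions in a `Γ`-fixed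
                           linearly independent family are equivariant;
* `dvalFix_mem_tiAlg`    : `u ↦ (∑_i c_i(u) v_i)(R)` is `(TI)` (`R ≥ 0` fixed, `c_i` equivariant);
* `dvalVar_mem_tiAlg`    : `u ↦ (∑_j b_j v'_j)(D_u)` is `(TI)` (`D_u ≥ 0` equivariant, `v'_j` fixed
                           by `Γ`): the norm-form expansion;
* `weil_formula`         : `(h_u(D_y) / h_y(D_u)) ^ d` in terms of the scale-free function
                           `h_u^♮ = h_u ^ d / h_u(E)` and of `h_y⁻¹`, `D_y = c E - R_y`,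
                           `D_u = D_u⁺ - m ∞`;
* `weilChar_mem_tiAlg`   : the assembly: `u ↦ (h_u(D_y) / h_y(D_u)) ^ d` is `(TI)`.
-/
import Mathlib
import Fermat.Agent.T6.helper26_PVal
import Fermat.Agent.T6.helper3_NormForm

set_option autoImplicit false
set_option linter.unusedSectionVars false
set_option linter.unusedVariables false
set_option linter.style.longLine false
set_option linter.style.haveILetI false

noncomputable section

namespace Fermat.Agent.T6.helper3

open AlgebraicCurve
open Fermat.Agent.P2.helper74 Fermat.Agent.T6.helper26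

variable {K F : Type*} [Field K] [Field F] [Algebra K F]

/-! ### Values of linear combinations -/

section Lin

variable (hS : RiemannSetting K F)
include hS

theorem ord_sum_smul_nonneg {I : Type*} (P : Place K F) (c : I → K) (v : I → F) (s : Finset I)
    (hv : ∀ i ∈ s, 0 ≤ P.ord (v i)) : 0 ≤ P.ord (∑ i ∈ s, c i • v i) := by
  classical
  induction s using Finset.induction_on with
  | empty => simp
  | insert a s ha ih =>
    rw [Finset.sum_insert ha]
    refine ord_add_nonneg P ?_ (ih fun i hi => hv i (Finset.mem_insert_of_mem hi))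
    rw [Algebra.smul_def]
    exact ord_mul_nonneg P (le_of_eq (ord_const P _).symm) (hv a (Finset.mem_insert_self a s))

theorem pval_smul_const (P : Place K F) (a : K) {f : F} (hf : 0 ≤ P.ord f) :
    pval P (a • f) = a * pval P f := by
  rw [Algebra.smul_def, pval_mul hS (le_of_eq (ord_const P _).symm) hf, pval_algebraMap]

theorem pval_sum_smul {I : Type*} (P : Place K F) (c : I → K) (v : I → F) (s : Finset I)
    (hv : ∀ i ∈ s, 0 ≤ P.ord (v i)) :
    pval P (∑ i ∈ s, c i • v i) = ∑ i ∈ s, c i * pval P (v i) := by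
  classical
  induction s using Finset.induction_on with
  | empty => simp
  | insert a s ha ih =>
    have hs : ∀ i ∈ s, 0 ≤ P.ord (v i) := fun i hi => hv i (Finset.mem_insert_of_mem hi)
    have h1 : 0 ≤ P.ord (c a • v a) := by
      rw [Algebra.smul_def]
      exact ord_mul_nonneg P (le_of_eq (ord_const P _).symm) (hv a (Finset.mem_insert_self a s))
    rw [Finset.sum_insert ha, Finset.sum_insert ha,
      pval_add hS h1 (ord_sum_smul_nonneg hS P c v s hs), ih hs,
      pval_smul_const hS P _ (hv a (Finset.mem_insert_self a s))]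

end Lin

/-! ### Semilinearity -/

section Semi

theorem semilinear_smul (g : SemilinearAut K F) (a : K) (f : F) :
    g • (a • f) = SemilinearAut.baseAut g a • (g • f) := by
  rw [Algebra.smul_def, Algebra.smul_def, smul_mul', SemilinearAut.smul_algebraMap]

theorem semilinear_sum_smul {I : Type*} (g : SemilinearAut K F) (c : I → K) (v : I → F)
    (s : Finset I) :
    g • (∑ i ∈ s, c i • v i) = ∑ i ∈ s, SemilinearAut.baseAut g (c i) • (g • v i) := by
  rw [Finset.smul_sum]
  exact Finset.sum_congr rfl fun i _ => semilinear_smul g (c i) (v i)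

variable {Γ G : Type*} (γ : Γ → SemilinearAut K F) (act : Γ → G → G)

/-- the ring homomorphisms of the base field attached to the operators -/
def baseHom (σ : Γ) : K →+* K := (SemilinearAut.baseAut (γ σ) : K →+* K)

@[simp]
theorem baseHom_apply (σ : Γ) (a : K) : baseHom γ σ a = SemilinearAut.baseAut (γ σ) a := rfl

/-- **Equivariance of the coordinates.**  If `u ↦ f_u = ∑_i c_i(u) v_i` is equivariant and the
`v_i` are linearly independent and fixed by the operators, the `c_i` are equivariant. -/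
theorem coord_equivariant {I : Type*} [Fintype I] (v : I → F) (hv : LinearIndependent K v)
    (hfix : ∀ σ i, γ σ • v i = v i) (c : I → G → K) (f : G → F)
    (hf : ∀ u, f u = ∑ i, c i u • v i) (heq : ∀ σ u, γ σ • f u = f (act σ u))
    (i : I) (σ : Γ) (u : G) : c i (act σ u) = baseHom γ σ (c i u) := by
  have h1 : ∑ j, (c j (act σ u) - SemilinearAut.baseAut (γ σ) (c j u)) • v j = 0 := by
    simp only [sub_smul, Finset.sum_sub_distrib]
    rw [← hf, ← heq, hf u, semilinear_sum_smul, sub_eq_zero]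
    refine Finset.sum_congr rfl fun j _ => ?_
    rw [hfix]
  have h2 := Fintype.linearIndependent_iff.mp hv _ h1 i
  exact sub_eq_zero.mp h2

end Semi

/-! ### The two factors -/

section Factors

variable (hS : RiemannSetting K F)
variable {Γ G : Type*} [Finite G] (γ : Γ → SemilinearAut K F) (act : Γ → G → G) (A : Subring K)

include hS

/-- **First factor**: a fixed effective divisor `R`, functions `∑_i c_i(u) v_i` with equivariant
coordinates in `A`. -/
theorem dvalFix_mem_tiAlg {I : Type*} [Fintype I] (v : I → F) (c : I → G → K)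
    (hcA : ∀ i u, c i u ∈ A) (hceq : ∀ i σ u, c i (act σ u) = baseHom γ σ (c i u))
    (R : Divisor K F) (hR : ∀ P, 0 ≤ R P) (hv : ∀ P ∈ R.support, ∀ i, 0 ≤ P.ord (v i))
    (hvA : ∀ P ∈ R.support, ∀ i, pval P (v i) ∈ A) :
    (fun u => dval (∑ i, c i u • v i) R) ∈ tiAlg act (baseHom γ) A := by
  classical
  have h1 : (fun u => dval (∑ i, c i u • v i) R) =
      ∏ P ∈ R.support, (∑ i, fun u => pval P (v i) * c i u) ^ (R P).toNat := by
    funext u
    rw [dval_eq_prod, Finset.prod_apply]
    refine Finset.prod_congr rfl fun P hP => ?_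
    rw [Pi.pow_apply, Finset.sum_apply, pval_sum_smul hS P _ v _ (fun i _ => hv P hP i),
      ← zpow_natCast, Int.toNat_of_nonneg (hR P)]
    congr 1
    exact Finset.sum_congr rfl fun i _ => mul_comm _ _
  rw [h1]
  refine Subalgebra.prod_mem _ fun P hP => Subalgebra.pow_mem _ ?_ _
  refine Subalgebra.sum_mem _ fun i _ => ?_
  exact const_mul_mem_tiAlg act _ A (hvA P hP i)
    (mem_tiAlg_of_eqv act _ A (fun u => hcA i u) fun σ u => hceq i σ u)

/-- **Second factor**: the norm-form expansion.  A fixed function `∑_j b_j v'_j` (`b_j ∈ A`, the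
`v'_j` fixed by the operators) evaluated at an equivariant family of effective divisors. -/
theorem dvalVar_mem_tiAlg {J : Type*} [Fintype J] (v' : J → F)
    (hfix : ∀ σ j, γ σ • v' j = v' j) (b : J → K) (hb : ∀ j, b j ∈ A)
    (Dp : G → Divisor K F) (hDp : ∀ u P, 0 ≤ Dp u P)
    (hDeq : ∀ σ u, Dp (act σ u) = γ σ • Dp u)
    (hreg : ∀ u, ∀ P ∈ (Dp u).support, ∀ j, 0 ≤ P.ord (v' j))
    (hA : ∀ u, ∀ P ∈ (Dp u).support, ∀ j, pval P (v' j) ∈ A) :
    (fun u => dval (∑ j, b j • v' j) (Dp u)) ∈ tiAlg act (baseHom γ) A := by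
  classical
  set Dn : G → Place K F →₀ ℕ := fun u => (Dp u).mapRange Int.toNat rfl with hDn
  have hsupp : ∀ u, (Dn u).support = (Dp u).support := by
    intro u
    ext P
    simp only [hDn, Finsupp.mem_support_iff, Finsupp.mapRange_apply, ne_eq]
    have := hDp u P
    omega
  have h := prodFinsupp_mem_tiAlg act (baseHom γ) A (fun σ (P : Place K F) => γ σ • P) Dn
    (fun σ u => by
      ext Q
      have hQ : Q = γ σ • ((γ σ)⁻¹ • Q) := (smul_inv_smul _ _).symm
      rw [hQ, Finsupp.mapDomain_apply (MulAction.injective (γ σ))]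
      simp only [hDn, Finsupp.mapRange_apply]
      rw [hDeq, SemilinearAut.divisor_smul_apply_smul])
    (fun j P => pval P (v' j))
    (fun u P hP j => hA u P (by rwa [hsupp] at hP) j)
    (fun σ u P hP j => by
      have := pval_smul (γ σ) P (v' j)
      rw [hfix] at this
      exact this)
    b hb
  have h2 : (fun u => dval (∑ j, b j • v' j) (Dp u)) =
      fun u => (Dn u).prod fun P n => (∑ j, b j * pval P (v' j)) ^ n := by
    funext u
    rw [dval_eq_prod, Finsupp.prod, hsupp]
    refine Finset.prod_congr rfl fun P hP => ?_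
    rw [pval_sum_smul hS P _ v' _ (fun j _ => hreg u P hP j)]
    simp only [hDn, Finsupp.mapRange_apply]
    rw [← zpow_natCast, Int.toNat_of_nonneg (hDp u P)]
  rw [h2]
  exact h

end Factors

/-! ### The formula -/

theorem weil_formula_aux {K : Type*} [Field K] (x r p t : K) (hx : x ≠ 0) (hr : r ≠ 0)
    (hp : p ≠ 0) (ht : t ≠ 0) (cc d m : ℕ) :
    (x ^ cc / r / (p / t ^ m)) ^ d =
      ((x ^ (cc * d))⁻¹ * r ^ d)⁻¹ * (p⁻¹) ^ d * t ^ (d * m) := by
  have h1 : (x ^ cc) ^ d = x ^ (cc * d) := (pow_mul x cc d).symm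
  have h2 : (t ^ m) ^ d = t ^ (d * m) := by rw [← pow_mul, mul_comm]
  rw [div_pow, div_pow, div_pow, h1, h2, mul_inv, inv_inv, inv_pow]
  field_simp

section Formula

variable (hS : RiemannSetting K F)
include hS

/-- **The Weil formula in scale-free form.**  `D_y = c E - R_y`, `D_u = D_u⁺ - m ∞`,
`deg E = d`, `deg R_y = c d`, `h_u^♮ = h_u ^ d / h_u(E)`:
`(h_u(D_y) / h_y(D_u)) ^ d = h_u^♮(R_y)⁻¹ * (h_y⁻¹)(D_u⁺) ^ d * h_y(∞) ^ (d m)`. -/
theorem weil_formula (hu hy : F) (oo : Place K F) (Dp E Ry : Divisor K F) (m d cc : ℕ)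
    (hdegR : Divisor.degree Ry = (cc : ℤ) * d)
    (huE : Disj hu E) (huR : Disj hu Ry) (hyD : Disj hy Dp) (hyoo : oo.ord hy = 0) :
    (dval hu (cc • E - Ry) / dval hy (Dp - m • Finsupp.single oo (1 : ℤ))) ^ d =
      (dval ((dval hu E)⁻¹ • hu ^ d) Ry)⁻¹ * (dval hy⁻¹ Dp) ^ d * pval oo hy ^ (d * m) := by
  have hy0 : hy ≠ 0 := hyD.ne_zero
  have hx : dval hu E ≠ 0 := dval_ne_zero hS huE
  have hr : dval hu Ry ≠ 0 := dval_ne_zero hS huR
  have hp : dval hy Dp ≠ 0 := dval_ne_zero hS hyD
  have ht : pval oo hy ≠ 0 := pval_ne_zero hS hy0 hyoo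
  have hoo : Disj hy (Finsupp.single oo (1 : ℤ)) := Disj.single hy0 hyoo 1
  have h1 : dval hu (cc • E - Ry) = dval hu E ^ cc / dval hu Ry := by
    rw [dval_sub hS (huE.nsmul cc) huR, dval_nsmul hS huE]
  have h2 : dval hy (Dp - m • Finsupp.single oo (1 : ℤ)) = dval hy Dp / pval oo hy ^ m := by
    rw [dval_sub hS hyD (hoo.nsmul m), dval_nsmul hS hoo, dval_single, zpow_one]
  have h3 : dval ((dval hu E)⁻¹ • hu ^ d) Ry = ((dval hu E) ^ (cc * d))⁻¹ * dval hu Ry ^ d := by
    rw [Algebra.smul_def, dval_mul hS (Disj.const (inv_ne_zero hx) Ry) (huR.pow d),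
      dval_algebraMap hS (inv_ne_zero hx), dval_pow hS huR, hdegR, inv_zpow']
    congr 1
    rw [← zpow_natCast, zpow_neg]
    push_cast
    rfl
  have h4 : dval hy⁻¹ Dp = (dval hy Dp)⁻¹ := dval_inv hS hyD
  rw [h1, h2, h3, h4]
  exact weil_formula_aux _ _ _ _ hx hr hp ht cc d m

end Formula

/-! ### The assembly -/

section Assembly

variable (hS : RiemannSetting K F)
variable {Γ G : Type*} [Finite G] (γ : Γ → SemilinearAut K F) (act : Γ → G → G) (A : Subring K)

include hS

/-- **[I5], generic assembly.**  The function `u ↦ (h_u(D_y) / h_y(D_u)) ^ d` is an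
`A`-combination of equivariant `A`-valued functions, for
`D_y = c E - R_y`, `D_u = D_u⁺ - m(u) ∞`, provided

* the scale-free functions `h_u^♮ = h_u ^ d / h_u(E)` have equivariant coordinates `c_i(u) ∈ A`
  in a family `v_i` of functions which are regular with values in `A` at the points of `R_y`,
  and `h_u^♮(R_y)` is a unit of `A`;
* `h_y⁻¹ = ∑_j b_j v'_j`, `b_j ∈ A`, the `v'_j` fixed by the operators, regular with values in
  `A` at the points of the `D_u⁺`; the family `D_u⁺` is equivariant and `m` is invariant;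
* `h_y(∞) ∈ A`. -/
theorem weilChar_mem_tiAlg (oo : Place K F) (E Ry : Divisor K F) (d cc : ℕ)
    (hdegR : Divisor.degree Ry = (cc : ℤ) * d) (hRy : ∀ P, 0 ≤ Ry P)
    (h : G → F) (hy : F) (Dp : G → Divisor K F) (m : G → ℕ)
    -- disjointness
    (huE : ∀ u, Disj (h u) E) (huR : ∀ u, Disj (h u) Ry) (hyD : ∀ u, Disj hy (Dp u))
    (hyoo : oo.ord hy = 0)
    -- the first factor
    {I : Type*} [Fintype I] (v : I → F) (c : I → G → K)
    (hnat : ∀ u, (dval (h u) E)⁻¹ • h u ^ d = ∑ i, c i u • v i)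
    (hcA : ∀ i u, c i u ∈ A) (hceq : ∀ i σ u, c i (act σ u) = baseHom γ σ (c i u))
    (hv : ∀ P ∈ Ry.support, ∀ i, 0 ≤ P.ord (v i))
    (hvA : ∀ P ∈ Ry.support, ∀ i, pval P (v i) ∈ A)
    (hunit : ∀ u, ∃ x ∈ A, dval ((dval (h u) E)⁻¹ • h u ^ d) Ry * x = 1)
    -- the second factor
    {J : Type*} [Fintype J] (v' : J → F) (hfix : ∀ σ j, γ σ • v' j = v' j)
    (b : J → K) (hb : ∀ j, b j ∈ A) (hyinv : hy⁻¹ = ∑ j, b j • v' j)
    (hDp : ∀ u P, 0 ≤ Dp u P) (hDeq : ∀ σ u, Dp (act σ u) = γ σ • Dp u)
    (hreg : ∀ u, ∀ P ∈ (Dp u).support, ∀ j, 0 ≤ P.ord (v' j))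
    (hA : ∀ u, ∀ P ∈ (Dp u).support, ∀ j, pval P (v' j) ∈ A)
    -- the third factor
    (hm : ∀ σ u, m (act σ u) = m u) (hoo : pval oo hy ∈ A) :
    (fun u => (dval (h u) (cc • E - Ry) /
      dval hy (Dp u - m u • Finsupp.single oo (1 : ℤ))) ^ d) ∈ tiAlg act (baseHom γ) A := by
  classical
  have hform : (fun u => (dval (h u) (cc • E - Ry) /
      dval hy (Dp u - m u • Finsupp.single oo (1 : ℤ))) ^ d) =
      (fun u => (dval (∑ i, c i u • v i) Ry)⁻¹) * (fun u => dval (∑ j, b j • v' j) (Dp u)) ^ d *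
        fun u => pval oo hy ^ (d * m u) := by
    funext u
    rw [weil_formula hS (h u) hy oo (Dp u) E Ry (m u) d cc hdegR (huE u) (huR u) (hyD u) hyoo,
      hnat u, hyinv]
    rfl
  rw [hform]
  have hf1 := dvalFix_mem_tiAlg hS γ act A v c hcA hceq Ry hRy hv hvA
  have hf1' : (fun u => (dval (∑ i, c i u • v i) Ry)⁻¹) ∈ tiAlg act (baseHom γ) A := by
    refine inv_mem_tiAlg act _ A hf1 (fun u => ?_) (fun u => ?_)
    · obtain ⟨x, hx, hx1⟩ := hunit u
      rw [hnat u] at hx1
      rw [← eq_inv_of_mul_eq_one_right hx1]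
      exact hx
    · obtain ⟨x, hx, hx1⟩ := hunit u
      rw [hnat u] at hx1
      exact mul_inv_cancel₀ (left_ne_zero_of_mul_eq_one hx1)
  have hf2 := dvalVar_mem_tiAlg hS γ act A v' hfix b hb Dp hDp hDeq hreg hA
  have hf3 : (fun u => pval oo hy ^ (d * m u)) ∈ tiAlg act (baseHom γ) A :=
    mem_tiAlg_of_invariant act _ A m hm (fun k => pval oo hy ^ (d * k))
      (fun k => A.pow_mem hoo _)
  exact Subalgebra.mul_mem _ (Subalgebra.mul_mem _ hf1' (Subalgebra.pow_mem _ hf2 d)) hf3

end Assembly

end Fermat.Agent.T6.helper3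

end
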