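/-
T6 (S19 / S32), helper3: **[INT] = [I5] from the geometric contract `WeilGeo`**.

* `valueAt_eq_pval`, `evalDiv_eq_dval` : the values of the interface (`helper73.valueAt`,
  `helper73.evalDiv`) are those of block [W0] (`helper26.pval`, `helper26.dval`);
* `WeilGeo` : the geometric contract of [I5] for a function field `F / K` with operators
  `γ : Γ → SemilinearAut K F`, a subring `A` of `K` and the torsion `Pic0[l^k]`
  (fields = outputs of [I1], [I2], [I3], [I4], [HNAT]);
* `isTI_of_weilGeo` : `WeilAt K F l k` + `WeilGeo` + finiteness ⟹ every character of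
  `Pic0[l^k]` is an `A`-combination of equivariant `A`-valued functions.
-/
import Mathlib
import Fermat.Agent.T6.helper73_T6Iface
import Fermat.Agent.T6.helper3_TIWeil

set_option autoImplicit false
set_option linter.unusedSectionVars false
set_option linter.unusedVariables false
set_option linter.style.longLine false
set_option linter.style.haveILetI false

noncomputable section

namespace Fermat.Agent.T6.helper3

open AlgebraicCurve
open Fermat.Agent.P2.helper74 Fermat.Agent.T6.helper26 Fermat.Agent.T6.helper73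

variable {K F : Type*} [Field K] [Field F] [Algebra K F]

/-! ### The values of the interface -/

section Bridge

theorem ord_pos_iff_valuation_lt_one (P : Place K F) {x : F} (hx : x ≠ 0) :
    0 < P.ord x ↔ P.toValuationSubring.valuation x < 1 := by
  constructor
  · intro h
    obtain ⟨y, hy, hmax⟩ := Fermat.Agent.S24.helper82.mem_maximalIdeal_of_ord_pos P h
    have h1 := (ValuationSubring.valuation_lt_one_iff P.toValuationSubring y).mp hmax
    rw [hy] at h1
    exact h1
  · intro h
    have hmem : x ∈ P.toValuationSubring :=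
      (ValuationSubring.valuation_le_one_iff P.toValuationSubring x).mp (le_of_lt h)
    have hmax := (ValuationSubring.valuation_lt_one_iff P.toValuationSubring ⟨x, hmem⟩).mpr h
    have h1 := Fermat.Agent.S24.helper82.ord_pos_of_mem_maximalIdeal P hmax
      (fun h1 => hx (congrArg Subtype.val h1))
    exact h1

theorem isValueAt_iff_isVal (P : Place K F) (f : F) (a : K) :
    IsValueAt P f a ↔ IsVal P f a := by
  rcases eq_or_ne (f - algebraMap K F a) 0 with h0 | h0
  · have h1 : IsValueAt P f a := by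
      show P.toValuationSubring.valuation (f - algebraMap K F a) < 1
      rw [h0, map_zero]
      exact zero_lt_one
    exact ⟨fun _ => Or.inl (sub_eq_zero.mp h0), fun _ => h1⟩
  · constructor
    · intro h
      exact Or.inr ((ord_pos_iff_valuation_lt_one P h0).mpr h)
    · rintro (h | h)
      · exact absurd (sub_eq_zero.mpr h) h0
      · exact (ord_pos_iff_valuation_lt_one P h0).mp h

theorem valueAt_eq_pval (P : Place K F) (f : F) : valueAt P f = pval P f := by
  classical
  by_cases h : ∃ a, IsValueAt P f a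
  · have h1 : valueAt P f = h.choose := by
      unfold valueAt
      exact dif_pos h
    rw [h1]
    exact (pval_eq_of_isVal ((isValueAt_iff_isVal P f _).mp h.choose_spec)).symm
  · have h1 : valueAt P f = 0 := by
      unfold valueAt
      exact dif_neg h
    rw [h1]
    refine (pval_of_not_exists fun ⟨a, ha⟩ => h ⟨a, (isValueAt_iff_isVal P f a).mpr ha⟩).symm

theorem evalDiv_eq_dval (f : F) (D : Divisor K F) : evalDiv f D = dval f D := by
  unfold evalDiv dval
  exact Finsupp.prod_congr fun P _ => by rw [valueAt_eq_pval]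

theorem isDivOf_iff {f : F} {D : Divisor K F} :
    IsDivOf f D ↔ f ≠ 0 ∧ ∀ P : Place K F, D P = P.ord f := Iff.rfl

end Bridge

/-! ### The geometric contract -/

section Geo

variable (hS : RiemannSetting K F) {Γ : Type*} (γ : Γ → SemilinearAut K F) (A : Subring K)
  (l k : ℕ)

/-- **The geometric contract of [I5].**  `G = Pic0[l^k]`. -/
structure WeilGeo where
  /-- the base point -/
  oo : Place K F
  /-- the degree of the auxiliary divisor `E` -/
  d : ℕ
  hd : Nat.Coprime d l
  /-- the auxiliary effective divisor (zeros of `φ_E`) -/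
  E : Divisor K F
  /-- [I1] the reduced divisor of a class -/
  Dp : Pic0.torsion K F (l ^ k) → Divisor K F
  /-- [I1] its degree -/
  m : Pic0.torsion K F (l ^ k) → ℕ
  /-- functions with divisor `l^k (D_u⁺ - m_u ∞)` -/
  h : Pic0.torsion K F (l ^ k) → F
  Dp_nonneg : ∀ u P, 0 ≤ Dp u P
  D_deg : ∀ u, Divisor.degree (Dp u - m u • Finsupp.single oo (1 : ℤ)) = 0
  D_mk : ∀ u, Pic0.mk ⟨Dp u - m u • Finsupp.single oo (1 : ℤ), D_deg u⟩ = (u : Pic0 K F)
  h_div : ∀ u, IsDivOf (h u) ((l ^ k : ℕ) • (Dp u - m u • Finsupp.single oo (1 : ℤ)))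
  Dp_eq : ∀ σ u, Dp (γ σ • u) = γ σ • Dp u
  m_eq : ∀ σ u, m (γ σ • u) = m u
  h_E : ∀ u, Disj (h u) E
  /-- [I4] the number of basis elements for the first factor -/
  r : ℕ
  /-- [I4] the basis for the first factor -/
  v : Fin r → F
  /-- [HNAT] the coordinates of the scale-free functions `h_u^♮ = h_u ^ d / h_u(E)` -/
  c : Fin r → Pic0.torsion K F (l ^ k) → K
  hnat : ∀ u, (dval (h u) E)⁻¹ • h u ^ d = ∑ i, c i u • v i
  c_mem : ∀ i u, c i u ∈ A
  c_eq : ∀ i σ u, c i (γ σ • u) = SemilinearAut.baseAut (γ σ) (c i u)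
  /-- [I3-b] + [I2] + [I4] : for every class `y` a representative `c E - R_y` off the `D_u` -/
  move : ∀ y : Pic0.torsion K F (l ^ k), ∃ (cc : ℕ) (Ry : Divisor K F) (hy : F)
    (hdeg : Divisor.degree (cc • E - Ry) = 0) (r' : ℕ) (v' : Fin r' → F) (b : Fin r' → K),
    (∀ P, 0 ≤ Ry P) ∧ Divisor.degree Ry = (cc : ℤ) * d ∧
    Pic0.mk ⟨cc • E - Ry, hdeg⟩ = (y : Pic0 K F) ∧
    IsDivOf hy ((l ^ k : ℕ) • (cc • E - Ry)) ∧
    (∀ u, Disjoint (Dp u - m u • Finsupp.single oo (1 : ℤ)).support (cc • E - Ry).support) ∧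
    (∀ u, Disj (h u) Ry) ∧ (∀ u, Disj hy (Dp u)) ∧ oo.ord hy = 0 ∧
    (∀ P ∈ Ry.support, ∀ i, 0 ≤ P.ord (v i)) ∧
    (∀ P ∈ Ry.support, ∀ i, pval P (v i) ∈ A) ∧
    (∀ u, ∃ x ∈ A, dval ((dval (h u) E)⁻¹ • h u ^ d) Ry * x = 1) ∧
    (∀ σ j, γ σ • v' j = v' j) ∧ (∀ j, b j ∈ A) ∧ hy⁻¹ = ∑ j, b j • v' j ∧
    (∀ u, ∀ P ∈ (Dp u).support, ∀ j, 0 ≤ P.ord (v' j)) ∧
    (∀ u, ∀ P ∈ (Dp u).support, ∀ j, pval P (v' j) ∈ A) ∧
    pval oo hy ∈ A

variable {hS γ A l k}

/-- the characters of an `n`-torsion group have values in the `n`-th roots of unity -/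
theorem char_pow_eq_one {n : ℕ} (χ : Pic0.torsion K F n → K) (h0 : χ 0 = 1)
    (hmul : ∀ x y, χ (x + y) = χ x * χ y) (u : Pic0.torsion K F n) : χ u ^ n = 1 := by
  have h1 : ∀ j : ℕ, χ (j • u) = χ u ^ j := by
    intro j
    induction j with
    | zero => rw [zero_smul, pow_zero, h0]
    | succ j ih => rw [succ_nsmul, hmul, ih, pow_succ]
  rw [← h1]
  have h2 : n • u = 0 := by
    apply Subtype.ext
    have := Pic0.mem_torsion.mp u.2
    rw [AddSubgroup.coe_nsmul, AddSubgroup.coe_zero, ← natCast_zsmul]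
    exact this
  rw [h2, h0]

include hS in
/-- **[I5] / [INT], generic form.**  If every character of `Pic0[l^k]` is a Weil character and
the geometric contract holds, every character of `Pic0[l^k]` is an `A`-combination of equivariant
`A`-valued functions. -/
theorem isTI_of_weilGeo [Finite (Pic0.torsion K F (l ^ k))] (hl : 1 < l)
    (hW : WeilAt K F l k) (W : WeilGeo γ A l k)
    (χ : Pic0.torsion K F (l ^ k) → K) (h0 : χ 0 = 1) (hmul : ∀ x y, χ (x + y) = χ x * χ y) :
    IsTI (fun σ u => γ σ • u) (baseHom γ) A χ := by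
  classical
  rw [isTI_iff_mem_tiAlg]
  rcases Nat.eq_zero_or_pos k with hk | hk
  · -- the trivial group
    subst hk
    have h1 : χ = 1 := by
      funext u
      have := char_pow_eq_one χ h0 hmul u
      rw [pow_zero, pow_one] at this
      exact this
    rw [h1]
    exact Subalgebra.one_mem _
  · have hn1 : 1 < l ^ k := Nat.one_lt_pow hk.ne' hl
    have hcop : Nat.Coprime W.d (l ^ k) := Nat.Coprime.pow_right k W.hd
    obtain ⟨d', -, hd'⟩ := Nat.exists_mul_mod_eq_one_of_coprime hcop hn1
    -- the `d'`-th power of `χ`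
    obtain ⟨y, hy⟩ := hW (fun u => χ u ^ d') (by simp only [h0, one_pow])
      (fun x y => by simp only [hmul, mul_pow])
    obtain ⟨cc, Ry, hyF, hdeg, r', v', b, hRy, hdegR, hmk, hdiv, hdisj, huR, hyD, hyoo, hv, hvA,
      hunit, hfix, hb, hyinv, hreg, hA, hoo⟩ := W.move y
    have hkey : ∀ u, χ u = (dval (W.h u) (cc • W.E - Ry) /
        dval hyF (W.Dp u - W.m u • Finsupp.single W.oo (1 : ℤ))) ^ W.d := by
      intro u
      have h1 := hy u ⟨W.Dp u - W.m u • Finsupp.single W.oo (1 : ℤ), W.D_deg u⟩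
        ⟨cc • W.E - Ry, hdeg⟩ (W.h u) hyF (W.D_mk u) hmk (hdisj u) (W.h_div u) hdiv
      rw [evalDiv_eq_dval, evalDiv_eq_dval] at h1
      have hne : dval hyF (W.Dp u - W.m u • Finsupp.single W.oo (1 : ℤ)) ≠ 0 := by
        refine dval_ne_zero hS (Disj.sub (hyD u) (Disj.nsmul ?_ _))
        exact Disj.single (hyD u).ne_zero hyoo 1
      have h2 : χ u ^ d' = dval (W.h u) (cc • W.E - Ry) /
          dval hyF (W.Dp u - W.m u • Finsupp.single W.oo (1 : ℤ)) := by
        rw [eq_div_iff hne]
        exact h1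
      rw [← h2, ← pow_mul, mul_comm]
      have h3 : W.d * d' = l ^ k * (W.d * d' / l ^ k) + 1 := by
        have := Nat.div_add_mod (W.d * d') (l ^ k)
        rw [hd'] at this
        exact this.symm
      rw [h3, pow_add, pow_mul, char_pow_eq_one χ h0 hmul u, one_pow, one_mul, pow_one]
    have hχ : χ = fun u => (dval (W.h u) (cc • W.E - Ry) /
        dval hyF (W.Dp u - W.m u • Finsupp.single W.oo (1 : ℤ))) ^ W.d := funext hkey
    rw [hχ]
    exact weilChar_mem_tiAlg hS γ (fun σ u => γ σ • u) A W.oo W.E Ry W.d cc hdegR hRy W.h hyF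
      W.Dp W.m W.h_E huR hyD hyoo W.v W.c W.hnat W.c_mem (fun i σ u => W.c_eq i σ u) hv hvA hunit
      v' hfix b hb hyinv W.Dp_nonneg W.Dp_eq hreg hA W.m_eq hoo

end Geo

end Fermat.Agent.T6.helper3

end
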