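/-
T6 (S19 / S32), helper3: **[INT] `helper73.IntStatement` from the geometric contract**.

* `GeoStatement` : at every good pair `(M, A)` and every `k`, the torsion `J_0(M)[l^k]` is finite
  and the geometric contract `WeilGeo` holds for the arithmetic Galois action;
* `int_of_geo` : `GeoStatement → helper73.IntStatement`.
-/
import Mathlib
import Fermat.Agent.T6.helper3_IntOfGeo
import Fermat.Agent.P2.helper74_RieInst

set_option autoImplicit false
set_option linter.unusedSectionVars false
set_option linter.unusedVariables false
set_option linter.style.longLine false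
set_option linter.style.haveILetI false

noncomputable section

namespace Fermat.Agent.T6.helper3

open AlgebraicCurve ModularCurve
open Fermat.Agent.P2.helper74 Fermat.Agent.T6.helper26 Fermat.Agent.T6.helper73

/-- **The geometric contract of [INT]** at all good pairs. -/
def GeoStatement : Prop :=
  ∀ (M : ℕ) [NeZero M] (l : ℕ) [Fact l.Prime] (A : ValuationSubring Kq), GoodAt M l A →
    ∀ k : ℕ, Finite (Pic0.torsion Kq (modularFunctionFieldBar M) (l ^ k)) ∧
      Nonempty (WeilGeo (arithmeticGalois (L := Kq) (modularFunctionFieldFull M))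
        A.toSubring l k)

section

variable (M l k : ℕ)

/-- the torsion in the shape of S19 and in the shape of `Pic0.torsion` -/
def torsEquiv : Pic0.torsion Kq (modularFunctionFieldBar M) (l ^ k) ≃ Tors M l k where
  toFun u := ⟨(u : JZero M), by
    have h := Pic0.mem_torsion.mp u.2
    rw [Submodule.mem_torsionBy_iff]
    rw [Nat.cast_pow] at h
    exact h⟩
  invFun x := ⟨(x : JZero M), by
    have h := (Submodule.mem_torsionBy_iff _ _).mp x.2
    rw [Pic0.mem_torsion, Nat.cast_pow]
    exact h⟩
  left_inv u := rfl
  right_inv x := rfl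

@[simp]
theorem coe_torsEquiv (u : Pic0.torsion Kq (modularFunctionFieldBar M) (l ^ k)) :
    ((torsEquiv M l k u : Tors M l k) : JZero M) = (u : JZero M) := rfl

@[simp]
theorem coe_torsEquiv_symm (x : Tors M l k) :
    (((torsEquiv M l k).symm x : Pic0.torsion Kq (modularFunctionFieldBar M) (l ^ k)) :
      JZero M) = (x : JZero M) := rfl

theorem torsEquiv_symm_act (σ : Gq) (x : Tors M l k) :
    (torsEquiv M l k).symm (actTors M l k σ x) =
      arithmeticGalois (L := Kq) (modularFunctionFieldFull M) σ • (torsEquiv M l k).symm x :=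
  rfl

end

/-- **[INT]** from the geometric contract. -/
theorem int_of_geo (hG : GeoStatement) : IntStatement := by
  intro M _ l _ A hgood k hW χ h0 hmul
  obtain ⟨hfin, ⟨W⟩⟩ := hG M l A hgood k
  haveI := hfin
  have hl : 1 < l := (Fact.out : l.Prime).one_lt
  have hS : RiemannSetting Kq (modularFunctionFieldBar M) :=
    Fermat.Agent.P2.helper74.riemannSetting_FF (M := M)
  have h := isTI_of_weilGeo (hS := hS) hl hW W (fun u => χ (torsEquiv M l k u))
    (by
      have : torsEquiv M l k 0 = 0 := rfl
      rw [this, h0])
    (fun x y => by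
      have : torsEquiv M l k (x + y) = torsEquiv M l k x + torsEquiv M l k y := rfl
      rw [this, hmul])
  obtain ⟨n, a, f, ha, hfA, hfeq, hχ⟩ := h
  refine ⟨n, a, fun i x => f i ((torsEquiv M l k).symm x), fun i => ha i,
    fun i x => hfA i _, fun i σ x => ?_, fun x => ?_⟩
  · show f i ((torsEquiv M l k).symm (actTors M l k σ x)) = σ (f i ((torsEquiv M l k).symm x))
    rw [torsEquiv_symm_act]
    exact hfeq i σ _
  · have h1 : χ (torsEquiv M l k ((torsEquiv M l k).symm x)) =
        ∑ i, a i * f i ((torsEquiv M l k).symm x) := hχ ((torsEquiv M l k).symm x)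
    rw [Equiv.apply_symm_apply] at h1
    exact h1

end Fermat.Agent.T6.helper3

end
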