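/-
T6 (S19), helper36: **[ASM] frontier chain, second layer**: the frozen statement S19 from the
geometric contract `helper3.GeoStatement` ALONE.

[WEIL] is closed on main (`helper17.weilStatement`), [INT] is `helper3.int_of_geo`.
-/
import Mathlib
import Fermat.Agent.T6.helper36_AsmTop
import Fermat.Agent.T6.helper17_W1Glue
import Fermat.Agent.T6.helper3_IntStatement

set_option autoImplicit false
set_option linter.unusedSectionVars false
set_option linter.unusedVariables false
set_option linter.style.longLine false

noncomputable section

open AlgebraicCurve ModularCurve

namespace Fermat.Agent.T6.helper36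

/-- **S19 from the geometric contract of [INT] alone.** -/
theorem s19_of_geo (hG : Fermat.Agent.T6.helper3.GeoStatement) : S19Statement :=
  s19_of_weil_int Fermat.Agent.T6.helper17.weilStatement
    (Fermat.Agent.T6.helper3.int_of_geo hG)

end Fermat.Agent.T6.helper36

end
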