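import Mathlib
import Fermat.Agent.S37.helper16_RedLat

/-!
# T6 [KM-LAT] part 1 (helper16): reduced families of integral Laurent series

`A` a valuation ring of `ℚ̄` (ANY value group), `incl A : A((q)) → ℚ̄((q))`, `red A : A((q)) → k((q))`.
A finite family `Y i` of integral series is **reduced** if the reductions `red A (Y i)` are
linearly independent over the residue field.  Then

* `coeff_mem_of_incl_eq_sum`        : the coefficients of an integral series in the `ℚ̄`-span of
  the family lie in `A`;
* `exists_eq_sum_of_incl_eq_sum`    : ... and the series is the `A`-combination;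
* `red_eq_sum_of_incl_eq_sum`       : ... whose reduction is the reduced combination;
* `linearIndependent_incl_of_red`   : the family is linearly independent over `ℚ̄`.

No discreteness and no freeness is used (trap T2 of the T6 audit).
-/

set_option autoImplicit false
set_option synthInstance.maxHeartbeats 400000
set_option linter.style.haveILetI false
set_option linter.unusedSectionVars false
set_option linter.unusedVariables false
set_option linter.style.longLine false

noncomputable section

open HahnSeries
open Fermat.Agent.S18.helper19 Fermat.Agent.P2.helper29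

namespace Fermat.Agent.T6.helper16

open Fermat.Agent.S37.helper16 (red_smul incl_smul)

variable {A : ValuationSubring Kb}

/-- `incl` of an `A`-linear combination -/
theorem incl_sum_smul {ι : Type*} (s : Finset ι) (b : ι → A) (Y : ι → LaurentSeries A) :
    incl A (∑ i ∈ s, b i • Y i) = ∑ i ∈ s, ((b i : A) : Kb) • incl A (Y i) := by
  rw [map_sum]
  exact Finset.sum_congr rfl fun i _ => incl_smul (b i) (Y i)

/-- `red` of an `A`-linear combination -/
theorem red_sum_smul {ι : Type*} (s : Finset ι) (b : ι → A) (Y : ι → LaurentSeries A) :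
    red A (∑ i ∈ s, b i • Y i) = ∑ i ∈ s, IsLocalRing.residue A (b i) • red A (Y i) := by
  rw [map_sum]
  exact Finset.sum_congr rfl fun i _ => red_smul (b i) (Y i)

/-- an element of `A` of valuation `< 1` has residue `0` -/
theorem residue_eq_zero_of_valuation_lt_one {c : A} (hc : A.valuation (c : Kb) < 1) :
    IsLocalRing.residue A c = 0 := by
  rw [IsLocalRing.residue_eq_zero_iff]
  exact (A.valuation_lt_one_iff c).mpr hc

/-- **reduced basis property**: the coefficients of an integral series in the span of a
reduced family are integral. -/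
theorem coeff_mem_of_incl_eq_sum {ι : Type*} [Fintype ι] (Y : ι → LaurentSeries A)
    (hli : LinearIndependent (kA A) (fun i => red A (Y i))) (a : ι → Kb)
    (Z : LaurentSeries A) (h : incl A Z = ∑ i, a i • incl A (Y i)) : ∀ i, a i ∈ A := by
  classical
  by_contra hcon
  push Not at hcon
  obtain ⟨j, hj⟩ := hcon
  -- an index of maximal valuation
  obtain ⟨i₀, -, hmax⟩ := Finset.exists_max_image Finset.univ (fun i => A.valuation (a i))
    ⟨j, Finset.mem_univ j⟩
  have hi₀ : ¬ A.valuation (a i₀) ≤ 1 := by
    intro hle
    exact hj ((A.valuation_le_one_iff _).mp ((hmax j (Finset.mem_univ j)).trans hle))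
  rw [not_le] at hi₀
  have ha0 : a i₀ ≠ 0 := by
    rintro h0
    rw [h0, map_zero] at hi₀
    exact not_lt.mpr zero_le hi₀
  -- the scaled coefficients
  have hb : ∀ i, a i / a i₀ ∈ A := by
    intro i
    rw [← A.valuation_le_one_iff, map_div₀]
    exact div_le_one_of_le₀ (hmax i (Finset.mem_univ i)) zero_le
  have hcA : (a i₀)⁻¹ ∈ A := by
    rw [← A.valuation_le_one_iff, map_inv₀]
    exact inv_le_one_of_one_le₀ hi₀.le
  set c : A := ⟨(a i₀)⁻¹, hcA⟩ with hc
  set b : ι → A := fun i => ⟨a i / a i₀, hb i⟩ with hbdef
  have hcv : A.valuation ((c : A) : Kb) < 1 := by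
    show A.valuation (a i₀)⁻¹ < 1
    rw [map_inv₀]
    exact inv_lt_one_of_one_lt₀ hi₀
  have e1 : incl A (c • Z) = incl A (∑ i, b i • Y i) := by
    rw [incl_smul, incl_sum_smul, h, Finset.smul_sum]
    refine Finset.sum_congr rfl fun i _ => ?_
    rw [smul_smul]
    congr 1
    show (a i₀)⁻¹ * a i = a i / a i₀
    rw [div_eq_mul_inv, mul_comm]
  have e2 : c • Z = ∑ i, b i • Y i := (Fermat.Agent.P2.helper74.coeffMap_subtype_injective A) e1
  have e3 : ∑ i, IsLocalRing.residue A (b i) • red A (Y i) = 0 := by
    rw [← red_sum_smul, ← e2, red_smul, residue_eq_zero_of_valuation_lt_one hcv, zero_smul]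
  have e4 := Fintype.linearIndependent_iff.mp hli _ e3 i₀
  have e5 : b i₀ = 1 := by
    apply Subtype.ext
    show a i₀ / a i₀ = 1
    exact div_self ha0
  rw [e5, map_one] at e4
  exact one_ne_zero e4

/-- the series is the `A`-linear combination -/
theorem exists_eq_sum_of_incl_eq_sum {ι : Type*} [Fintype ι] (Y : ι → LaurentSeries A)
    (hli : LinearIndependent (kA A) (fun i => red A (Y i))) (a : ι → Kb)
    (Z : LaurentSeries A) (h : incl A Z = ∑ i, a i • incl A (Y i)) :
    ∃ b : ι → A, (∀ i, ((b i : A) : Kb) = a i) ∧ Z = ∑ i, b i • Y i := by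
  have hmem := coeff_mem_of_incl_eq_sum Y hli a Z h
  refine ⟨fun i => ⟨a i, hmem i⟩, fun i => rfl, ?_⟩
  apply (Fermat.Agent.P2.helper74.coeffMap_subtype_injective A)
  rw [incl_sum_smul, h]

/-- the reduction is the reduced combination -/
theorem red_eq_sum_of_incl_eq_sum {ι : Type*} [Fintype ι] (Y : ι → LaurentSeries A)
    (hli : LinearIndependent (kA A) (fun i => red A (Y i))) (a : ι → Kb)
    (Z : LaurentSeries A) (h : incl A Z = ∑ i, a i • incl A (Y i)) :
    ∃ b : ι → A, (∀ i, ((b i : A) : Kb) = a i) ∧
      red A Z = ∑ i, IsLocalRing.residue A (b i) • red A (Y i) := by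
  obtain ⟨b, hb, e⟩ := exists_eq_sum_of_incl_eq_sum Y hli a Z h
  exact ⟨b, hb, by rw [e, red_sum_smul]⟩

/-- a reduced family is linearly independent over `ℚ̄` -/
theorem linearIndependent_incl_of_red {ι : Type*} [Fintype ι] (Y : ι → LaurentSeries A)
    (hli : LinearIndependent (kA A) (fun i => red A (Y i))) :
    LinearIndependent Kb (fun i => incl A (Y i)) := by
  classical
  rw [Fintype.linearIndependent_iff]
  intro a ha i
  by_contra hi
  -- scale the relation: `a i = 1`
  have h0 : incl A (0 : LaurentSeries A) = ∑ j, (a j / a i) • incl A (Y j) := by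
    rw [map_zero]
    have : ∑ j, (a j / a i) • incl A (Y j) = (a i)⁻¹ • ∑ j, a j • incl A (Y j) := by
      rw [Finset.smul_sum]
      refine Finset.sum_congr rfl fun j _ => ?_
      rw [smul_smul, div_eq_mul_inv, mul_comm]
    rw [this, ha, smul_zero]
  obtain ⟨b, hb, e⟩ := red_eq_sum_of_incl_eq_sum Y hli _ 0 h0
  rw [map_zero] at e
  have e4 := Fintype.linearIndependent_iff.mp hli _ e.symm i
  have e5 : b i = 1 := by
    apply Subtype.ext
    rw [hb i]
    exact div_self hi
  rw [e5, map_one] at e4
  exact one_ne_zero e4

end Fermat.Agent.T6.helper16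

end
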