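import Mathlib
import Fermat.Agent.S37.helper16_EffRed
import Fermat.Agent.T6.helper16_KmLatAbs

/-!
# T6 [KM-LAT] part 2 (helper16): the lattice of `L(m ∞ - D)` and its reduction

Setting: `S : S37.helper16.RedSetting M A` (a good level `M`, a place `A` of `ℚ̄` over `ℓ ∤ M`;
exists at every good pair: `S37.helper16.nonempty_redSetting`).  `D ≥ 0` a divisor of `F_M`,
`D̄ = S.Eplus D = mapDomain S.rP D` its reduction, `m ≥ deg D + S.n₀`.

* `W_eq`                 : the reductions of the `A`-integral elements of `L(m ∞ - D)` are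
                           EXACTLY `L̄(m ∞̄ - D̄)`;
* `LS D m`               : `L(m ∞ - D)` as a subspace of `ℚ̄((q))`; `LS_mono`, `LS_le`;
* `exists_lattice_basis` : the lattice of integral elements of `L(m ∞ - D)` is FREE over `A`
                           with a basis reducing to a basis of `L̄(m ∞̄ - D̄)` (no discreteness);
* `IsFrame m Y`          : an integral frame of `V_m = L(m ∞)` (`exists_isFrame`);
* `IsPivot D m Y P`      : `P` is a pivot set: `V̄_m = W̄ ⊕ span (v̄_p, p ∈ P)`;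
* `exists_decomp`, `decomp_unique` : every integral element of `V_m` is UNIQUELY
  `w + ∑_{p ∈ P} a_p v_p`, `w` an integral element of `L(m ∞ - D)`, `a_p ∈ A`;
* `exists_echelon`       : the ECHELON COORDINATES `c i p ∈ A` of `L(m ∞ - D)`:
  `v_i - ∑_p c i p • v_p ∈ L(m ∞ - D)`, and their reductions are the echelon coordinates of
  `L̄(m ∞̄ - D̄)`.
-/

set_option autoImplicit false
set_option synthInstance.maxHeartbeats 400000
set_option linter.style.haveILetI false
set_option linter.unusedSectionVars false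
set_option linter.unusedVariables false
set_option linter.style.longLine false

noncomputable section

namespace Fermat.Agent.T6.helper16

open HahnSeries IntermediateField AlgebraicCurve ModularCurve
open Fermat.Agent.S18.helper19 Fermat.Agent.P2.helper29 Fermat.Agent.P2.helper22
open Fermat.Agent.S24
open Fermat.Agent.S37.helper16

variable {M : ℕ} [NeZero M] {A : ValuationSubring Kb}

/-- shortcut instance (slow to find by synthesis) -/
local instance algebraFFbKm : Algebra (kA A) (FFb A M) := SubalgebraClass.toAlgebra (FFb A M)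

variable (S : RedSetting M A)

/-! ### (L1) the reduction of `L(n ∞ - D)` -/

/-- **(L1)**: the reductions of the integral elements of `L(n ∞ - D)` are `L̄(n ∞̄ - D̄)`. -/
theorem W_eq {D : Divisor Kb (FF M)} (hD : ∀ v, 0 ≤ D v) {n : ℤ}
    (hn : Divisor.degree D + S.n₀ ≤ n) :
    S.W D n = riemannRochSpace (Finsupp.single S.Qinf n - S.Eplus D) := by
  have hle : S.W D n ≤ riemannRochSpace (Finsupp.single S.Qinf n - S.Eplus D) := by
    rw [S.Eplus_eq hD hn]
    exact le_L_sub_baseDiv S.hSb (S.W_le hD n) (S.W_ne_bot hD hn)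
  haveI := Fermat.Agent.P2.helper74.finiteDimensional_L S.hSb
    (Finsupp.single S.Qinf n - S.Eplus D)
  refine Submodule.eq_of_le_of_finrank_eq hle ?_
  have h1 := S.finrank_W hD hn
  have h2 := S.hcb (Finsupp.single S.Qinf n - S.Eplus D) (by
    rw [map_sub, degree_single_of S.hSb, S.degree_Eplus hD]
    have := S.cb_lt_n₀
    omega)
  rw [map_sub, degree_single_of S.hSb, S.degree_Eplus hD] at h2
  have h3 : (Module.finrank (kA A) (S.W D n) : ℤ)
      = Fermat.Agent.P2.helper74.ell (Finsupp.single S.Qinf n - S.Eplus D) := by omega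
  exact_mod_cast h3

/-- `D̄ = mapDomain rP D` -/
theorem W_eq_mapDomain {D : Divisor Kb (FF M)} (hD : ∀ v, 0 ≤ D v) {n : ℤ}
    (hn : Divisor.degree D + S.n₀ ≤ n) :
    S.W D n = riemannRochSpace (Finsupp.single S.Qinf n - Finsupp.mapDomain S.rP D) := by
  rw [← S.Eplus_eq_mapDomain hD]
  exact W_eq S hD hn

/-! ### `L(n ∞ - D)` inside `ℚ̄((q))` -/

/-- `L(n ∞ - D)` as a subspace of `ℚ̄((q))` -/
def LS (D : Divisor Kb (FF M)) (n : ℤ) : Submodule Kb (LaurentSeries Kb) :=
  (riemannRochSpace (S.XD D n)).map (valLin (FF M))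

theorem mem_LS {D : Divisor Kb (FF M)} {n : ℤ} {u : LaurentSeries Kb} :
    u ∈ LS S D n ↔ ∃ f ∈ riemannRochSpace (S.XD D n), (f : LaurentSeries Kb) = u := Iff.rfl

theorem finrank_LS (D : Divisor Kb (FF M)) (n : ℤ) :
    Module.finrank Kb (LS S D n) = Fermat.Agent.P2.helper74.ell (S.XD D n) :=
  finrank_map_valLin _

instance finiteDimensional_LS (D : Divisor Kb (FF M)) (n : ℤ) :
    FiniteDimensional Kb (LS S D n) := by
  haveI := Fermat.Agent.P2.helper74.finiteDimensional_L (riemannSetting_FF M) (S.XD D n)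
  exact Module.Finite.map _ _

theorem inL_of_mem_LS {D : Divisor Kb (FF M)} (hD : ∀ v, 0 ≤ D v) {n : ℤ}
    {u : LaurentSeries Kb} (hu : u ∈ LS S D n) : InL (FF M) n u := by
  obtain ⟨f, hf, rfl⟩ := hu
  exact inL_of_mem_L S.hPinf (S.XD_le hD n) hf

/-- `L(n ∞ - D) ≤ L(n ∞)` -/
theorem LS_le {D : Divisor Kb (FF M)} (hD : ∀ v, 0 ≤ D v) (n : ℤ) :
    LS S D n ≤ LS S 0 n := by
  rintro _ ⟨f, hf, rfl⟩
  refine ⟨f, Fermat.Agent.P2.helper74.L_mono (fun v => ?_) hf, rfl⟩
  unfold RedSetting.XD
  rw [Finsupp.sub_apply, Finsupp.sub_apply, Finsupp.zero_apply]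
  linarith [hD v]

/-- the dimension of `L(n ∞ - D)` -/
theorem ell_XD {D : Divisor Kb (FF M)} {n : ℤ} (hn : Divisor.degree D + S.n₀ ≤ n) :
    (Fermat.Agent.P2.helper74.ell (S.XD D n) : ℤ) + S.g = n - Divisor.degree D + 1 := by
  have := S.hc (S.XD D n) (by rw [S.degree_XD]; have := S.c_lt_n₀; omega)
  rw [S.degree_XD] at this
  exact this

/-! ### the lattice of `L(n ∞ - D)` is free -/

/-- the reduction of an integral element of `L(n ∞ - D)` lies in the special fibre field -/
theorem red_mem_FFb {D : Divisor Kb (FF M)} (hD : ∀ v, 0 ≤ D v) {n : ℤ} {Z : LaurentSeries A}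
    (hZ : incl A Z ∈ LS S D n) : red A Z ∈ FFb A M :=
  (S.hReg n Z (inL_of_mem_LS S hD hZ)).1

/-- the reduction of an integral element of `L(n ∞ - D)` lies in `W D n` -/
theorem red_mem_W {D : Divisor Kb (FF M)} (hD : ∀ v, 0 ≤ D v) {n : ℤ} {Z : LaurentSeries A}
    (hZ : incl A Z ∈ LS S D n) :
    (⟨red A Z, red_mem_FFb S hD hZ⟩ : FFb A M) ∈ S.W D n := by
  obtain ⟨f, hf, hfZ⟩ := hZ
  exact ⟨Z, ⟨f, hf, hfZ⟩, rfl⟩

/-- **the lattice of integral elements of `L(n ∞ - D)` is free** with a basis reducing to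
linearly independent elements. -/
theorem exists_lattice_basis {D : Divisor Kb (FF M)} (hD : ∀ v, 0 ≤ D v) (n : ℤ) :
    ∃ (r : ℕ) (Y : Fin r → LaurentSeries A),
      r = Fermat.Agent.P2.helper74.ell (S.XD D n) ∧
      (∀ j, incl A (Y j) ∈ LS S D n) ∧
      LinearIndependent (kA A) (fun j => red A (Y j)) ∧
      (∀ Z : LaurentSeries A, incl A Z ∈ LS S D n → ∃ a : Fin r → A, Z = ∑ j, a j • Y j) := by
  classical
  have hVn : ∀ u ∈ LS S D n, ∃ n' : ℤ, InL (FF M) n' u := fun u hu =>
    ⟨n, inL_of_mem_LS S hD hu⟩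
  have H := scaled_of_regular S.hPinf S.hSc S.hInt S.hReg (LS S D n) hVn
  obtain ⟨Y, hYV, -, hspan, hred⟩ := Fermat.Agent.P2.helper74.exists_integral_basis A
    (IsLocalRing.residue A) isUnit_of_residue_ne_zero (LS S D n) H
  have hli := Fermat.Agent.P2.helper74.linearIndependent_coeffMap_of_forall A
    (IsLocalRing.residue A) IsLocalRing.residue_surjective Y hred
  exact ⟨_, Y, finrank_LS S D n, hYV, hli, hspan⟩

end Fermat.Agent.T6.helper16

end
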