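import Mathlib

/-!
# T6 [KM-LAT] (helper16): pivot sets (Mathlib only)

`v : Fin d → E` linearly independent, `W ≤ span (range v)` a finite-dimensional subspace.
Then there is a **pivot set** `P ⊆ Fin d` with `#P + dim W = d` and
`span (v_p, p ∈ P) ∩ W = 0` (`exists_pivot`, greedy choice).
-/

set_option autoImplicit false
set_option linter.unusedSectionVars false
set_option linter.style.haveILetI false
set_option linter.unusedVariables false
set_option linter.style.longLine false

noncomputable section

namespace Fermat.Agent.T6.helper16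

variable {k E : Type*} [Field k] [AddCommGroup E] [Module k E]

/-- `P` is independent of `W`: no nonzero combination of the `v_p`, `p ∈ P`, lies in `W` -/
def IndepOf {d : ℕ} (v : Fin d → E) (W : Submodule k E) (P : Finset (Fin d)) : Prop :=
  ∀ a : Fin d → k, (∀ i, i ∉ P → a i = 0) → ∑ i, a i • v i ∈ W → ∀ i, a i = 0

theorem indepOf_empty {d : ℕ} (v : Fin d → E) (W : Submodule k E) :
    IndepOf v W (∅ : Finset (Fin d)) :=
  fun a ha _ i => ha i (Finset.notMem_empty i)

/-- a sum supported on `P` lies in the span of the `v_p` -/
theorem sum_mem_span_of_support {d : ℕ} (v : Fin d → E) (P : Finset (Fin d)) (a : Fin d → k)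
    (ha : ∀ i, i ∉ P → a i = 0) :
    ∑ i, a i • v i ∈ Submodule.span k (v '' (P : Set (Fin d))) := by
  refine Submodule.sum_mem _ fun i _ => ?_
  by_cases hi : i ∈ P
  · exact Submodule.smul_mem _ _ (Submodule.subset_span ⟨i, hi, rfl⟩)
  · rw [ha i hi, zero_smul]
    exact Submodule.zero_mem _

/-- every element of the span of the `v_p` is a sum supported on `P` -/
theorem exists_sum_of_mem_span {d : ℕ} (v : Fin d → E) (P : Finset (Fin d)) {x : E}
    (hx : x ∈ Submodule.span k (v '' (P : Set (Fin d)))) :
    ∃ a : Fin d → k, (∀ i, i ∉ P → a i = 0) ∧ x = ∑ i, a i • v i := by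
  classical
  induction hx using Submodule.span_induction with
  | mem x hx =>
    obtain ⟨p, hp, rfl⟩ := hx
    refine ⟨fun i => if i = p then 1 else 0, fun i hi => ?_, ?_⟩
    · show (if i = p then (1 : k) else 0) = 0
      rw [if_neg]
      rintro rfl
      exact hi hp
    · rw [Finset.sum_eq_single p]
      · simp
      · intro i _ hi
        simp [hi]
      · intro h
        exact absurd (Finset.mem_univ p) h
  | zero => exact ⟨0, fun _ _ => rfl, by simp⟩
  | add x y _ _ hx hy =>
    obtain ⟨a, ha, rfl⟩ := hx
    obtain ⟨b, hb, rfl⟩ := hy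
    refine ⟨a + b, fun i hi => by rw [Pi.add_apply, ha i hi, hb i hi, add_zero], ?_⟩
    rw [← Finset.sum_add_distrib]
    exact Finset.sum_congr rfl fun i _ => by rw [Pi.add_apply, add_smul]
  | smul c x _ hx =>
    obtain ⟨a, ha, rfl⟩ := hx
    refine ⟨c • a, fun i hi => by rw [Pi.smul_apply, ha i hi, smul_zero], ?_⟩
    rw [Finset.smul_sum]
    exact Finset.sum_congr rfl fun i _ => by rw [Pi.smul_apply, smul_eq_mul, mul_smul]

/-- the greedy step -/
theorem indepOf_insert {d : ℕ} {v : Fin d → E} {W : Submodule k E} {P : Finset (Fin d)}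
    (hP : IndepOf v W P) {j : Fin d}
    (hj : v j ∉ Submodule.span k (v '' (P : Set (Fin d))) ⊔ W) :
    IndepOf v W (insert j P) := by
  classical
  intro a ha hW
  have hjP : j ∉ P := by
    intro h
    exact hj (Submodule.mem_sup_left (Submodule.subset_span ⟨j, h, rfl⟩))
  -- split off the term `j`
  set b : Fin d → k := fun i => if i = j then 0 else a i with hb
  have hbP : ∀ i, i ∉ P → b i = 0 := by
    intro i hi
    by_cases hij : i = j
    · simp [hb, hij]
    · simp only [hb, if_neg hij]
      exact ha i (by rw [Finset.mem_insert, not_or]; exact ⟨hij, hi⟩)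
  have hsum : ∑ i, a i • v i = a j • v j + ∑ i, b i • v i := by
    have h1 : ∀ i, a i • v i = (if i = j then a j • v j else 0) + b i • v i := by
      intro i
      by_cases hij : i = j
      · subst hij
        simp [hb]
      · simp [hb, hij]
    rw [Finset.sum_congr rfl fun i _ => h1 i, Finset.sum_add_distrib,
      Finset.sum_ite_eq' Finset.univ j, if_pos (Finset.mem_univ j)]
  have haj : a j = 0 := by
    by_contra h0
    apply hj
    have h2 : a j • v j = ∑ i, a i • v i - ∑ i, b i • v i := by rw [hsum]; abel
    have h3 : v j = (a j)⁻¹ • (∑ i, a i • v i) - (a j)⁻¹ • ∑ i, b i • v i := by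
      rw [← smul_sub, ← h2, smul_smul, inv_mul_cancel₀ h0, one_smul]
    rw [h3, sub_eq_add_neg, add_comm]
    exact Submodule.add_mem_sup
      (Submodule.neg_mem _ (Submodule.smul_mem _ _ (sum_mem_span_of_support v P b hbP)))
      (Submodule.smul_mem _ _ hW)
  have hbW : ∑ i, b i • v i ∈ W := by
    rw [hsum, haj, zero_smul, zero_add] at hW
    exact hW
  have hb0 := hP b hbP hbW
  intro i
  by_cases hij : i = j
  · rw [hij, haj]
  · have := hb0 i
    simpa [hb, hij] using this

/-- **pivot sets exist**. -/
theorem exists_pivot {d : ℕ} (v : Fin d → E) (hv : LinearIndependent k v) (W : Submodule k E)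
    [FiniteDimensional k W] (hW : W ≤ Submodule.span k (Set.range v)) :
    ∃ P : Finset (Fin d), P.card + Module.finrank k W = d ∧ IndepOf v W P := by
  classical
  haveI : FiniteDimensional k (Submodule.span k (Set.range v)) :=
    FiniteDimensional.span_of_finite k (Set.finite_range v)
  have hdimV : Module.finrank k (Submodule.span k (Set.range v)) = d := by
    rw [finrank_span_eq_card hv, Fintype.card_fin]
  have hWd : Module.finrank k W ≤ d := by
    rw [← hdimV]
    exact Submodule.finrank_mono hW
  -- greedy induction on the number of pivots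
  have key : ∀ n : ℕ, n + Module.finrank k W ≤ d →
      ∃ P : Finset (Fin d), P.card = n ∧ IndepOf v W P := by
    intro n
    induction n with
    | zero => exact fun _ => ⟨∅, rfl, indepOf_empty v W⟩
    | succ n ih =>
      intro hn
      obtain ⟨P, hPc, hP⟩ := ih (by omega)
      -- some `v j` is outside `span (v_P) ⊔ W`
      have hex : ∃ j, v j ∉ Submodule.span k (v '' (P : Set (Fin d))) ⊔ W := by
        by_contra hall
        push Not at hall
        have hle : Submodule.span k (Set.range v) ≤
            Submodule.span k (v '' (P : Set (Fin d))) ⊔ W :=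
          Submodule.span_le.mpr (by rintro _ ⟨j, rfl⟩; exact hall j)
        haveI : FiniteDimensional k (Submodule.span k (v '' (P : Set (Fin d)))) :=
          FiniteDimensional.span_of_finite k ((Finset.finite_toSet P).image v)
        have h1 := Submodule.finrank_mono hle
        have h2 := Submodule.finrank_add_le_finrank_add_finrank
          (Submodule.span k (v '' (P : Set (Fin d)))) W
        have h3 : Module.finrank k (Submodule.span k (v '' (P : Set (Fin d)))) ≤ P.card := by
          have := finrank_span_le_card (R := k) (v '' (P : Set (Fin d)))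
          refine this.trans ?_
          rw [Set.toFinset_card]
          have : Fintype.card (v '' (P : Set (Fin d))) ≤ Fintype.card (P : Set (Fin d)) :=
            Fintype.card_le_of_surjective (fun x => ⟨v x.1, x.1, x.2, rfl⟩)
              (by rintro ⟨_, x, hx, rfl⟩; exact ⟨⟨x, hx⟩, rfl⟩)
          refine this.trans ?_
          simp
        rw [hdimV] at h1
        omega
      obtain ⟨j, hj⟩ := hex
      have hjP : j ∉ P := by
        intro h
        exact hj (Submodule.mem_sup_left (Submodule.subset_span ⟨j, h, rfl⟩))
      exact ⟨insert j P, by rw [Finset.card_insert_of_notMem hjP, hPc],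
        indepOf_insert hP hj⟩
  obtain ⟨P, hPc, hP⟩ := key (d - Module.finrank k W) (by omega)
  exact ⟨P, by rw [hPc]; omega, hP⟩

end Fermat.Agent.T6.helper16

end
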