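import Mathlib
import Fermat.Agent.T6.helper16_KmLat
import Fermat.Agent.T6.helper16_Pivot

/-!
# T6 [KM-LAT] part 3 (helper16): frames, pivot sets, echelon coordinates

Setting of `helper16_KmLat`: `S : RedSetting M A`, `D ≥ 0`, `m ≥ deg D + S.n₀`,
`V_m = L(m ∞) ⊇ W_D = L(m ∞ - D)`, both inside `ℚ̄((q))` (`LS S 0 m ⊇ LS S D m`).

* `IsFrame S m Y`      : `Y : Fin d → A((q))` integral elements of `V_m`, reductions linearly
                         independent, `d = dim V_m`  (`exists_isFrame`);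
* `RS S D m`           : the reductions of the integral elements of `W_D`, a subspace of
                         `k((q))` (`= L̄(m ∞̄ - D̄)` by `W_eq`), `finrank_RS`;
* `IsPivot S D m Y P`  : `#P = deg D` and `span (v̄_p, p ∈ P) ∩ W̄_D = 0` (`exists_isPivot`);
* `exists_decomp`      : every INTEGRAL element of `V_m` is `w + ∑_{p ∈ P} a_p v_p` with `w` an
                         integral element of `W_D` and `a_p ∈ A`;
* `decomp_unique`      : uniqueness of the decomposition (coefficients in `ℚ̄`);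
* `exists_echelon`, `echelon_unique` : the **echelon coordinates** `c i p ∈ A`
  (`v_i - ∑_{p ∈ P} c i p v_p ∈ W_D`), unique even with coefficients in `ℚ̄`;
* `mem_LS_iff_echelon` : `W_D` is spanned by the `v_i - ∑_p c i p v_p`.
-/

set_option autoImplicit false
set_option synthInstance.maxHeartbeats 400000
set_option linter.style.haveILetI false
set_option linter.unusedSectionVars false
set_option linter.unusedVariables false
set_option linter.style.longLine false

noncomputable section

namespace Fermat.Agent.T6.helper16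

open HahnSeries IntermediateField AlgebraicCurve ModularCurve
open Fermat.Agent.S18.helper19 Fermat.Agent.P2.helper29 Fermat.Agent.P2.helper22
open Fermat.Agent.S24
open Fermat.Agent.S37.helper16

variable {M : ℕ} [NeZero M] {A : ValuationSubring Kb}

/-- shortcut instance (slow to find by synthesis) -/
local instance algebraFFbKd : Algebra (kA A) (FFb A M) := SubalgebraClass.toAlgebra (FFb A M)

/-- a sum of a function supported on `P` is the sum over the subtype -/
theorem sum_dite_subtype {d : ℕ} (P : Finset (Fin d)) {N : Type*} [AddCommMonoid N]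
    (g : {p // p ∈ P} → N) :
    ∑ i : Fin d, (if h : i ∈ P then g ⟨i, h⟩ else 0) = ∑ p : {p // p ∈ P}, g p := by
  classical
  rw [← Finset.sum_subset (Finset.subset_univ P) (fun i _ hi => dif_neg hi),
    ← Finset.sum_attach, Finset.univ_eq_attach]
  exact Finset.sum_congr rfl fun p _ => dif_pos p.2

variable (S : RedSetting M A)

/-! ### frames -/

/-- **an integral frame of `V_m = L(m ∞)`** -/
structure IsFrame (m : ℤ) {d : ℕ} (Y : Fin d → LaurentSeries A) : Prop where
  mem : ∀ i, incl A (Y i) ∈ LS S 0 m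
  li : LinearIndependent (kA A) (fun i => red A (Y i))
  card : d = Fermat.Agent.P2.helper74.ell (S.XD 0 m)

theorem exists_isFrame (m : ℤ) : ∃ (d : ℕ) (Y : Fin d → LaurentSeries A), IsFrame S m Y := by
  obtain ⟨r, Y, hr, hY, hli, -⟩ := exists_lattice_basis S (D := 0) (fun v => le_rfl) m
  exact ⟨r, Y, ⟨hY, hli, hr⟩⟩

namespace IsFrame

variable {S} {m : ℤ} {d : ℕ} {Y : Fin d → LaurentSeries A} (hF : IsFrame S m Y)
include hF

theorem liK : LinearIndependent Kb (fun i => incl A (Y i)) :=
  linearIndependent_incl_of_red Y hF.li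

theorem span_eq : Submodule.span Kb (Set.range fun i => incl A (Y i)) = LS S 0 m := by
  refine Submodule.eq_of_le_of_finrank_eq (Submodule.span_le.mpr ?_) ?_
  · rintro _ ⟨i, rfl⟩
    exact hF.mem i
  · rw [finrank_span_eq_card hF.liK, Fintype.card_fin, finrank_LS, hF.card]

/-- the coordinates of an integral element of `V_m` are integral -/
theorem exists_coord (Z : LaurentSeries A) (hZ : incl A Z ∈ LS S 0 m) :
    ∃ a : Fin d → A, Z = ∑ i, a i • Y i := by
  have h1 : incl A Z ∈ Submodule.span Kb (Set.range fun i => incl A (Y i)) := by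
    rw [hF.span_eq]
    exact hZ
  obtain ⟨a, ha⟩ := (Submodule.mem_span_range_iff_exists_fun Kb).mp h1
  obtain ⟨b, -, e⟩ := exists_eq_sum_of_incl_eq_sum Y hF.li a Z ha.symm
  exact ⟨b, e⟩

end IsFrame

/-! ### the reductions of the lattice of `W_D` -/

/-- the reductions of the integral elements of `L(m ∞ - D)`, inside `k((q))` -/
def RS (D : Divisor Kb (FF M)) (m : ℤ) : Submodule (kA A) (LaurentSeries (kA A)) :=
  (S.W D m).map (valLin (FFb A M))

theorem mem_RS {D : Divisor Kb (FF M)} (hD : ∀ v, 0 ≤ D v) {m : ℤ}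
    {x : LaurentSeries (kA A)} :
    x ∈ RS S D m ↔ ∃ Z : LaurentSeries A, incl A Z ∈ LS S D m ∧ red A Z = x := by
  constructor
  · rintro ⟨y, ⟨Z, ⟨f, hf, hfZ⟩, hZ⟩, rfl⟩
    exact ⟨Z, ⟨f, hf, hfZ⟩, hZ⟩
  · rintro ⟨Z, hZ, rfl⟩
    exact ⟨⟨red A Z, red_mem_FFb S hD hZ⟩, red_mem_W S hD hZ, rfl⟩

theorem finrank_RS {D : Divisor Kb (FF M)} (hD : ∀ v, 0 ≤ D v) (m : ℤ) :
    Module.finrank (kA A) (RS S D m) = Fermat.Agent.P2.helper74.ell (S.XD D m) := by
  unfold RS
  rw [finrank_map_valLin]
  exact finrank_redSub S.hPinf S.hSc S.hInt S.hReg (S.XD_le hD m)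

theorem finiteDimensional_RS {D : Divisor Kb (FF M)} (hD : ∀ v, 0 ≤ D v) (m : ℤ) :
    FiniteDimensional (kA A) (RS S D m) := by
  haveI := Fermat.Agent.P2.helper74.finiteDimensional_L S.hSb (Finsupp.single S.Qinf m)
  haveI : FiniteDimensional (kA A) (S.W D m) :=
    Submodule.finiteDimensional_of_le (S.W_le hD m)
  exact Module.Finite.map _ _

/-- `W̄_D` is `L̄(m ∞̄ - D̄)` -/
theorem RS_eq {D : Divisor Kb (FF M)} (hD : ∀ v, 0 ≤ D v) {m : ℤ}
    (hm : Divisor.degree D + S.n₀ ≤ m) :
    RS S D m = (riemannRochSpace (Finsupp.single S.Qinf m - Finsupp.mapDomain S.rP D)).map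
      (valLin (FFb A M)) := by
  unfold RS
  rw [W_eq_mapDomain S hD hm]

/-! ### pivot sets -/

/-- **pivot sets**: `#P = deg D` and `span (v̄_p, p ∈ P) ∩ W̄_D = 0` -/
def IsPivot (D : Divisor Kb (FF M)) (m : ℤ) {d : ℕ} (Y : Fin d → LaurentSeries A)
    (P : Finset (Fin d)) : Prop :=
  (P.card : ℤ) = Divisor.degree D ∧ IndepOf (fun i => red A (Y i)) (RS S D m) P

variable {S}

theorem exists_isPivot {D : Divisor Kb (FF M)} (hD : ∀ v, 0 ≤ D v) {m : ℤ}
    (hm : Divisor.degree D + S.n₀ ≤ m) {d : ℕ} {Y : Fin d → LaurentSeries A}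
    (hF : IsFrame S m Y) : ∃ P : Finset (Fin d), IsPivot S D m Y P := by
  classical
  haveI := finiteDimensional_RS S hD m
  have hd0 : 0 ≤ Divisor.degree D := Fermat.Agent.P2.helper74.degree_nonneg hD
  have hW : RS S D m ≤ Submodule.span (kA A) (Set.range fun i => red A (Y i)) := by
    intro x hx
    obtain ⟨Z, hZ, rfl⟩ := (mem_RS S hD).mp hx
    obtain ⟨a, rfl⟩ := hF.exists_coord Z (LS_le S hD m hZ)
    rw [red_sum_smul]
    exact Submodule.sum_mem _ fun i _ =>
      Submodule.smul_mem _ _ (Submodule.subset_span ⟨i, rfl⟩)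
  obtain ⟨P, hPc, hP⟩ := exists_pivot (fun i => red A (Y i)) hF.li (RS S D m) hW
  refine ⟨P, ?_, hP⟩
  rw [finrank_RS S hD m] at hPc
  have hcard := hF.card
  have h1 := ell_XD S (D := D) hm
  have h2 := ell_XD S (D := 0) (n := m) (by rw [map_zero]; omega)
  rw [map_zero] at h2
  have h3 : (P.card : ℤ) + Fermat.Agent.P2.helper74.ell (S.XD D m)
      = Fermat.Agent.P2.helper74.ell (S.XD 0 m) := by
    rw [← hcard]
    exact_mod_cast hPc
  omega

/-! ### the combined basis and the decomposition -/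

/-- **the combined reduced basis** of `V_m`: a lattice basis of `W_D` and the pivot vectors. -/
theorem exists_combined {D : Divisor Kb (FF M)} (hD : ∀ v, 0 ≤ D v) {m : ℤ}
    (hm : Divisor.degree D + S.n₀ ≤ m) {d : ℕ} {Y : Fin d → LaurentSeries A}
    (hF : IsFrame S m Y) {P : Finset (Fin d)} (hP : IsPivot S D m Y P) :
    ∃ (r : ℕ) (Yw : Fin r → LaurentSeries A),
      (∀ j, incl A (Yw j) ∈ LS S D m) ∧
      Submodule.span Kb (Set.range fun j => incl A (Yw j)) = LS S D m ∧
      LinearIndependent (kA A)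
        (fun x : Fin r ⊕ {p // p ∈ P} => red A (Sum.elim Yw (fun p => Y p.1) x)) ∧
      Submodule.span Kb (Set.range
        fun x : Fin r ⊕ {p // p ∈ P} => incl A (Sum.elim Yw (fun p => Y p.1) x)) = LS S 0 m := by
  classical
  obtain ⟨r, Yw, hr, hYw, hliw, hspanw⟩ := exists_lattice_basis S hD m
  have hd0 : 0 ≤ Divisor.degree D := Fermat.Agent.P2.helper74.degree_nonneg hD
  -- the lattice basis spans `W_D`
  have hspanK : Submodule.span Kb (Set.range fun j => incl A (Yw j)) = LS S D m := by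
    refine Submodule.eq_of_le_of_finrank_eq (Submodule.span_le.mpr ?_) ?_
    · rintro _ ⟨j, rfl⟩
      exact hYw j
    · rw [finrank_span_eq_card (linearIndependent_incl_of_red Yw hliw), Fintype.card_fin,
        finrank_LS, hr]
  -- linear independence of the combined reductions
  have hlic : LinearIndependent (kA A)
      (fun x : Fin r ⊕ {p // p ∈ P} => red A (Sum.elim Yw (fun p => Y p.1) x)) := by
    rw [Fintype.linearIndependent_iff]
    intro c hc
    rw [Fintype.sum_sum_type] at hc
    simp only [Sum.elim_inl, Sum.elim_inr] at hc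
    -- lift the coefficients of the `W`-part
    choose b hb using fun j => IsLocalRing.residue_surjective (c (Sum.inl j))
    set Zw : LaurentSeries A := -∑ j, b j • Yw j with hZw
    have hZwmem : incl A Zw ∈ LS S D m := by
      rw [hZw, map_neg, incl_sum_smul]
      exact Submodule.neg_mem _ (Submodule.sum_mem _ fun j _ =>
        Submodule.smul_mem _ _ (hYw j))
    have hZwred : red A Zw = ∑ p : {p // p ∈ P}, c (Sum.inr p) • red A (Y p.1) := by
      rw [hZw, map_neg, red_sum_smul]
      simp only [hb]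
      rw [neg_eq_iff_add_eq_zero]
      exact hc
    set a : Fin d → kA A := fun i => if h : i ∈ P then c (Sum.inr ⟨i, h⟩) else 0 with ha
    have haP : ∀ i, i ∉ P → a i = 0 := fun i hi => dif_neg hi
    have hasum : ∑ i, a i • red A (Y i) = red A Zw := by
      rw [hZwred, ← sum_dite_subtype P (fun p => c (Sum.inr p) • red A (Y p.1))]
      refine Finset.sum_congr rfl fun i _ => ?_
      by_cases hi : i ∈ P
      · simp only [ha, dif_pos hi]
      · simp only [ha, dif_neg hi, zero_smul]
    have hmemRS : ∑ i, a i • red A (Y i) ∈ RS S D m := by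
      rw [hasum]
      exact (mem_RS S hD).mpr ⟨Zw, hZwmem, rfl⟩
    have ha0 := hP.2 a haP hmemRS
    have hcr : ∀ p : {p // p ∈ P}, c (Sum.inr p) = 0 := by
      intro p
      have := ha0 p.1
      simpa only [ha, dif_pos p.2] using this
    have hc' : ∑ j, c (Sum.inl j) • red A (Yw j) = 0 := by
      simpa only [hcr, zero_smul, Finset.sum_const_zero, add_zero] using hc
    have hcl := Fintype.linearIndependent_iff.mp hliw _ hc'
    rintro (j | p)
    · exact hcl j
    · exact hcr p
  refine ⟨r, Yw, hYw, hspanK, hlic, ?_⟩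
  -- the span
  refine Submodule.eq_of_le_of_finrank_eq (Submodule.span_le.mpr ?_) ?_
  · rintro _ ⟨x, rfl⟩
    rcases x with j | p
    · exact LS_le S hD m (hYw j)
    · exact hF.mem p.1
  · rw [finrank_span_eq_card (linearIndependent_incl_of_red _ hlic), Fintype.card_sum,
      Fintype.card_fin, Fintype.card_coe, finrank_LS, hr]
    have h1 := ell_XD S (D := D) hm
    have h2 := ell_XD S (D := 0) (n := m) (by rw [map_zero]; omega)
    rw [map_zero] at h2
    have h3 := hP.1
    have : ((Fermat.Agent.P2.helper74.ell (S.XD D m) + P.card : ℕ) : ℤ)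
        = (Fermat.Agent.P2.helper74.ell (S.XD 0 m) : ℕ) := by
      push_cast
      omega
    exact_mod_cast this

/-- **the decomposition** `V_m = W_D ⊕ span (v_p, p ∈ P)`, integrally. -/
theorem exists_decomp {D : Divisor Kb (FF M)} (hD : ∀ v, 0 ≤ D v) {m : ℤ}
    (hm : Divisor.degree D + S.n₀ ≤ m) {d : ℕ} {Y : Fin d → LaurentSeries A}
    (hF : IsFrame S m Y) {P : Finset (Fin d)} (hP : IsPivot S D m Y P)
    (Z : LaurentSeries A) (hZ : incl A Z ∈ LS S 0 m) :
    ∃ (Zw : LaurentSeries A) (a : Fin d → A), incl A Zw ∈ LS S D m ∧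
      (∀ i, i ∉ P → a i = 0) ∧ Z = Zw + ∑ i, a i • Y i := by
  classical
  obtain ⟨r, Yw, hYw, -, hlic, hspan⟩ := exists_combined hD hm hF hP
  have h1 : incl A Z ∈ Submodule.span Kb (Set.range
      fun x : Fin r ⊕ {p // p ∈ P} => incl A (Sum.elim Yw (fun p => Y p.1) x)) := by
    rw [hspan]
    exact hZ
  obtain ⟨a, ha⟩ := (Submodule.mem_span_range_iff_exists_fun Kb).mp h1
  obtain ⟨b, -, e⟩ := exists_eq_sum_of_incl_eq_sum _ hlic a Z ha.symm
  rw [Fintype.sum_sum_type] at e
  simp only [Sum.elim_inl, Sum.elim_inr] at e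
  refine ⟨∑ j, b (Sum.inl j) • Yw j, fun i => if h : i ∈ P then b (Sum.inr ⟨i, h⟩) else 0,
    ?_, fun i hi => dif_neg hi, ?_⟩
  · rw [incl_sum_smul]
    exact Submodule.sum_mem _ fun j _ => Submodule.smul_mem _ _ (hYw j)
  · rw [e]
    congr 1
    rw [← sum_dite_subtype P (fun p => b (Sum.inr p) • Y p.1)]
    refine Finset.sum_congr rfl fun i _ => ?_
    by_cases hi : i ∈ P
    · simp only [dif_pos hi]
    · show (if h : i ∈ P then b (Sum.inr ⟨i, h⟩) • Y i else 0)
        = (if h : i ∈ P then b (Sum.inr ⟨i, h⟩) else 0) • Y i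
      rw [dif_neg hi, dif_neg hi]
      exact (zero_smul A (Y i)).symm

/-- **uniqueness of the decomposition** (coefficients in `ℚ̄`): `W_D ∩ span (v_p) = 0`. -/
theorem eq_zero_of_mem_LS {D : Divisor Kb (FF M)} (hD : ∀ v, 0 ≤ D v) {m : ℤ}
    (hm : Divisor.degree D + S.n₀ ≤ m) {d : ℕ} {Y : Fin d → LaurentSeries A}
    (hF : IsFrame S m Y) {P : Finset (Fin d)} (hP : IsPivot S D m Y P)
    (a : Fin d → Kb) (haP : ∀ i, i ∉ P → a i = 0)
    (h : ∑ i, a i • incl A (Y i) ∈ LS S D m) : ∀ i, a i = 0 := by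
  classical
  obtain ⟨r, Yw, hYw, hspanK, hlic, -⟩ := exists_combined hD hm hF hP
  have hliK := linearIndependent_incl_of_red _ hlic
  rw [← hspanK] at h
  obtain ⟨e, he⟩ := (Submodule.mem_span_range_iff_exists_fun Kb).mp h
  -- a relation in the combined family
  set c : Fin r ⊕ {p // p ∈ P} → Kb := Sum.elim e (fun p => - a p.1) with hc
  have hrel : ∑ x, c x • incl A (Sum.elim Yw (fun p => Y p.1) x) = 0 := by
    rw [Fintype.sum_sum_type]
    simp only [hc, Sum.elim_inl, Sum.elim_inr]
    rw [he, ← sum_dite_subtype P (fun p => (- a p.1) • incl A (Y p.1)), ← Finset.sum_add_distrib]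
    refine Finset.sum_eq_zero fun i _ => ?_
    by_cases hi : i ∈ P
    · simp only [dif_pos hi, neg_smul, add_neg_cancel]
    · simp only [dif_neg hi, haP i hi, zero_smul, add_zero]
  have h0 := Fintype.linearIndependent_iff.mp hliK c hrel
  intro i
  by_cases hi : i ∈ P
  · have := h0 (Sum.inr ⟨i, hi⟩)
    simpa only [hc, Sum.elim_inr, neg_eq_zero] using this
  · exact haP i hi

/-- **the echelon coordinates of `W_D = L(m ∞ - D)`**: integral, supported on the pivots. -/
theorem exists_echelon {D : Divisor Kb (FF M)} (hD : ∀ v, 0 ≤ D v) {m : ℤ}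
    (hm : Divisor.degree D + S.n₀ ≤ m) {d : ℕ} {Y : Fin d → LaurentSeries A}
    (hF : IsFrame S m Y) {P : Finset (Fin d)} (hP : IsPivot S D m Y P) :
    ∃ c : Fin d → Fin d → A, (∀ i p, p ∉ P → c i p = 0) ∧
      ∀ i, incl A (Y i - ∑ p, c i p • Y p) ∈ LS S D m := by
  choose Zw a hZw haP he using fun i => exists_decomp hD hm hF hP (Y i) (hF.mem i)
  refine ⟨a, haP, fun i => ?_⟩
  have : Y i - ∑ p, a i p • Y p = Zw i := by
    conv_lhs => rw [he i]
    abel
  rw [this]
  exact hZw i

/-- the echelon coordinates are unique, even with coefficients in `ℚ̄` -/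
theorem echelon_unique {D : Divisor Kb (FF M)} (hD : ∀ v, 0 ≤ D v) {m : ℤ}
    (hm : Divisor.degree D + S.n₀ ≤ m) {d : ℕ} {Y : Fin d → LaurentSeries A}
    (hF : IsFrame S m Y) {P : Finset (Fin d)} (hP : IsPivot S D m Y P) (i : Fin d)
    (c c' : Fin d → Kb) (hc : ∀ p, p ∉ P → c p = 0) (hc' : ∀ p, p ∉ P → c' p = 0)
    (h : incl A (Y i) - ∑ p, c p • incl A (Y p) ∈ LS S D m)
    (h' : incl A (Y i) - ∑ p, c' p • incl A (Y p) ∈ LS S D m) : c = c' := by
  have hsub := Submodule.sub_mem _ h' h
  have e : (incl A (Y i) - ∑ p, c' p • incl A (Y p)) - (incl A (Y i) - ∑ p, c p • incl A (Y p))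
      = ∑ p, (c p - c' p) • incl A (Y p) := by
    simp only [sub_smul, Finset.sum_sub_distrib]
    abel
  rw [e] at hsub
  have h0 := eq_zero_of_mem_LS hD hm hF hP (fun p => c p - c' p)
    (fun p hp => by rw [hc p hp, hc' p hp, sub_zero]) hsub
  funext p
  exact sub_eq_zero.mp (h0 p)

end Fermat.Agent.T6.helper16

end
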