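import Mathlib
import Fermat.Agent.S37.helper61_RedDivP
import Fermat.Agent.S37.helper16_EffRedFinal
import Fermat.Agent.T6.helper16_KmLatDecomp

/-!
# T6 [KM-LAT] part 4 (helper16): the place reduction `S.rP` of a `RedSetting` IS a place
reduction in the sense of the Prelude

The Prelude's `ReductionInputsModL A M` only gives SOME place reduction `r` (`Exists.choose`).
The lattice statements of `helper16_KmLat*` (`W_eq_mapDomain`, `RS_eq`, pivots, echelon
coordinates) are in terms of `S.rP`; the consumers of [I2] VAL (generic in a place reduction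
`r` with `IsPlaceReductionAlong`) need THE SAME `r`.  Here:

* `isPlaceReductionAlong_of_rouche` : a map `r` on places with Rouché's property for the integral
  functions REGULAR OFF INFINITY is a place reduction of the Prelude (conservation of number for
  ALL integral functions with nonzero reduction) - helper61's proof of `redDiv_of_effRed` with
  the witness exposed;
* `isPlaceReductionModL_rP`         : `IsPlaceReductionModL A M S.rP`;
* `exists_redSetting`               : a `RedSetting` at every good pair;
* `exists_redSetting_placeReduction`: at a good pair there are `S` with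
  `IsPlaceReductionModL A M S.rP` (one-stop shop for the consumers).
-/

set_option autoImplicit false
set_option synthInstance.maxHeartbeats 400000
set_option linter.style.haveILetI false
set_option linter.unusedSectionVars false
set_option linter.unusedVariables false
set_option linter.style.longLine false

noncomputable section

open HahnSeries IntermediateField AlgebraicCurve ModularCurve
open Fermat.Agent.S18.helper19 Fermat.Agent.P2.helper29

namespace Fermat.Agent.T6.helper16

open Fermat.Agent.S37.helper16 Fermat.Agent.P2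
open Fermat.Agent.S37.helper61 (exists_scaled_integral)

variable {M : ℕ} [NeZero M] {A : ValuationSubring Kb}

/-- **Rouché for the functions regular off infinity gives a place reduction of the Prelude**
(helper61's `redDiv_of_effRed`, witness exposed). -/
theorem isPlaceReductionAlong_of_rouche (hP : PrimeToLevel M A)
    (r : Place Kb (FF M) → Place (kA A) (FFb A M))
    (hr : ∀ (n : ℤ) (Y : LaurentSeries A)
      (hL : Fermat.Agent.P2.helper29.InL (FF M) n (Fermat.Agent.P2.helper29.incl A Y))
      (hb : Fermat.Agent.P2.helper29.red A Y ∈ FFb A M),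
      Fermat.Agent.P2.helper29.red A Y ≠ 0 →
      ∀ D : Divisor Kb (FF M),
        (∀ P, D P = P.ord (⟨Fermat.Agent.P2.helper29.incl A Y, hL.1⟩ : FF M)) →
        ∀ Q, Finsupp.mapDomain r D Q
          = Q.ord (⟨Fermat.Agent.P2.helper29.red A Y, hb⟩ : FFb A M)) :
    IsPlaceReductionModL A M r := by
  classical
  have hS : helper74.RiemannSetting Kb (FF M) := helper74.riemannSetting_FF M
  have hSb : helper74.RiemannSetting (kA A) (FFb A M) := helper95.riemannSetting_FFb M A
  obtain ⟨g, hg⟩ := helper74.riemannStatement M
  obtain ⟨⟨Pinf, hPinf⟩, -⟩ := inftyStatement M A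
  have hSc : ScaleStatement M A := helper81.scaleStatement M A hP
  have hInt : IntegralityStatement M A := helper81.integralityStatement M A hP
  refine ⟨fun P => ?_, ?_⟩
  · rw [hSb.deg_one, hS.deg_one]
  · intro y hy hyk hne D hD Q
    -- the function `f = incl y`
    have hy0 : y ≠ 0 := by
      rintro rfl
      exact hne (map_zero _)
    have hf0L : incl A y ≠ 0 := fun h0 =>
      hy0 (helper22.incl_injective (by rw [h0, map_zero]))
    set f : FF M := ⟨incl A y, hy⟩ with hf
    have hf0 : f ≠ 0 := fun h0 => hf0L (congrArg Subtype.val h0)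
    -- the multiplier
    obtain ⟨q, hq0, hq⟩ := helper22.exists_multiplier hS hg.1 Pinf D
    have hq0L : (q : LaurentSeries Kb) ≠ 0 := fun h0 => hq0 (Subtype.ext h0)
    have hne_inf : ∀ P : Place Kb (FF M), ¬ IsInfty P → P ≠ Pinf := by
      rintro P hP rfl
      exact hP hPinf
    have hqL : InL (FF M) (-(q : LaurentSeries Kb).order) (q : LaurentSeries Kb) :=
      helper22.exists_inL_of_regular q.2 (fun P hP => (hq P (hne_inf P hP)).1)
    -- scaling
    obtain ⟨c, Y₂, hc, hY₂, hgood⟩ := exists_scaled_integral hPinf hSc hInt hqL hq0L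
    have hL₂ : InL (FF M) (-(q : LaurentSeries Kb).order) (incl A Y₂) := by
      rw [hY₂]
      exact helper22.inL_smul hPinf hqL c
    set q₂ : FF M := ⟨incl A Y₂, hL₂.1⟩ with hq₂
    have hq₂eq : q₂ = c • q := by
      apply Subtype.ext
      rw [helper22.coe_smul_eq]
      exact hY₂
    have hq₂0 : q₂ ≠ 0 := by
      rw [hq₂eq]
      exact smul_ne_zero hc hq0
    have hordq₂ : ∀ v : Place Kb (FF M), v.ord q₂ = v.ord q := by
      intro v
      rw [hq₂eq, helper22.ord_smul_eq v hc]
    -- the product
    have hmem₃ : incl A (y * Y₂) ∈ FF M := by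
      rw [map_mul]
      exact mul_mem hy hL₂.1
    have hprod : (⟨incl A (y * Y₂), hmem₃⟩ : FF M) = f * q₂ :=
      Subtype.ext (map_mul (incl A) y Y₂)
    have hreg₃ : ∀ P : Place Kb (FF M), ¬ IsInfty P →
        0 ≤ P.ord (⟨incl A (y * Y₂), hmem₃⟩ : FF M) := by
      intro P hP
      rw [hprod, P.ord_mul hf0 hq₂0, hordq₂, ← hD P]
      have := (hq P (hne_inf P hP)).2
      omega
    have hL₃ : InL (FF M) (-(incl A (y * Y₂)).order) (incl A (y * Y₂)) :=
      helper22.exists_inL_of_regular hmem₃ hreg₃
    have hb₃ : red A (y * Y₂) ∈ FFb A M := by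
      rw [map_mul]
      exact mul_mem hyk hgood.2.1
    have hne₃ : red A (y * Y₂) ≠ 0 := by
      rw [map_mul]
      exact mul_ne_zero hne hgood.2.2
    -- the divisors
    obtain ⟨D₂, hD₂, -⟩ := hS.principal.exists_divisor q₂ hq₂0
    have h2 := hr _ Y₂ hL₂ hgood.2.1 hgood.2.2 D₂ hD₂ Q
    have hD₃ : ∀ P : Place Kb (FF M),
        (D + D₂) P = P.ord (⟨incl A (y * Y₂), hL₃.1⟩ : FF M) := by
      intro P
      rw [Finsupp.add_apply, hD P, hD₂ P]
      have : (⟨incl A (y * Y₂), hL₃.1⟩ : FF M) = f * q₂ := hprod
      rw [this, P.ord_mul hf0 hq₂0]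
    have h3 := hr _ (y * Y₂) hL₃ hb₃ hne₃ (D + D₂) hD₃ Q
    rw [Finsupp.mapDomain_add, Finsupp.add_apply, h2] at h3
    have hprodb : (⟨red A (y * Y₂), hb₃⟩ : FFb A M) =
        (⟨red A y, hyk⟩ : FFb A M) * (⟨red A Y₂, hgood.2.1⟩ : FFb A M) :=
      Subtype.ext (map_mul (red A) y Y₂)
    have hyb0 : (⟨red A y, hyk⟩ : FFb A M) ≠ 0 := fun h0 => hne (congrArg Subtype.val h0)
    have hY₂b0 : (⟨red A Y₂, hgood.2.1⟩ : FFb A M) ≠ 0 :=
      fun h0 => hgood.2.2 (congrArg Subtype.val h0)
    rw [hprodb, Q.ord_mul hyb0 hY₂b0] at h3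
    exact add_right_cancel h3

/-- the place reduction of a `RedSetting` is a place reduction of the Prelude -/
theorem isPlaceReductionModL_rP (S : RedSetting M A) (hP : PrimeToLevel M A) :
    IsPlaceReductionModL A M S.rP :=
  isPlaceReductionAlong_of_rouche hP S.rP
    (fun _ _ hL hb hY0 D hD Q => S.rouche hL hb hY0 D hD Q)

/-- a `RedSetting` at every good pair -/
theorem exists_redSetting (h : GoodPair M A) : Nonempty (RedSetting M A) :=
  nonempty_redSetting h.2 (Fermat.Agent.P2.helper81.regRedStatement M A h.2) (genusEq_goodPair h)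

/-- **one-stop shop**: at a good pair there is a `RedSetting` whose place reduction is a place
reduction of the Prelude and sends infinity to infinity. -/
theorem exists_redSetting_placeReduction (h : GoodPair M A) :
    ∃ S : RedSetting M A, IsPlaceReductionModL A M S.rP ∧ S.rP S.Pinf = S.Qinf := by
  obtain ⟨S⟩ := exists_redSetting h
  exact ⟨S, isPlaceReductionModL_rP S h.2, S.rP_Pinf⟩

end Fermat.Agent.T6.helper16

end
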