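/-
T6 [I1] (helper74): **the reduced divisor of a divisor class**, generic part.

Setting: a `RiemannSetting K F` (P2 helper74) with Riemann's inequality
`deg D + 1 ≤ ℓ(D) + g`, and a place `O` ("infinity").

For a divisor `D`:
* `redDeg O D`  : the least `m` with `L(D + m O) ≠ 0`;
* `redFun O D`  : a non-zero element of `L(D + (redDeg O D) O)`;
* `redPlus O D` : the effective divisor `D + (redDeg O D) O + div (redFun O D)`;
* `redDiv O D`  : `redPlus O D - (redDeg O D) O = D + div (redFun O D)`.

For `deg D ≤ 0`: `ℓ(D + (redDeg O D) O) = 1`, so `redPlus O D` is THE effective divisor in the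
class of `D + (redDeg O D) O` (`redPlus_unique`); it depends only on the class of `D`
(`redPlus_add_principal`), `O` is not in its support if `redDeg O D ≠ 0`, and it is
equivariant for every semilinear automorphism fixing `O` (`redPlus_smul`).
The same on `Pic0 K F`: `redDeg0`, `redPlus0`, `redDiv0` with `Pic0.mk (redDiv0 O x) = x`.
-/
import Mathlib
import Fermat.Prelude.Def_AlgebraicCurve_BaseChangeGalois
import Fermat.Agent.P2.helper74_NonSpecial

set_option autoImplicit false
set_option linter.unusedSectionVars false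
set_option linter.unusedVariables false
set_option linter.style.longLine false

noncomputable section

namespace Fermat.Agent.T6.helper74

open AlgebraicCurve Fermat.Agent.P2.helper74

variable {K F : Type*} [Field K] [Field F] [Algebra K F]

/-! ### the divisor of a function -/

open Classical in
/-- the divisor of a function (`0` if there is none) -/
def divF (f : F) : Divisor K F :=
  if h : ∃ D : Divisor K F, ∀ v : Place K F, D v = v.ord f then Classical.choose h else 0

theorem divF_apply (hP : HasPrincipalDivisors K F) {f : F} (hf : f ≠ 0) (v : Place K F) :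
    (divF f : Divisor K F) v = v.ord f := by
  have h : ∃ D : Divisor K F, ∀ v : Place K F, D v = v.ord f := by
    obtain ⟨D, hD, -⟩ := hP.exists_divisor f hf
    exact ⟨D, hD⟩
  unfold divF
  rw [dif_pos h]
  exact Classical.choose_spec h v

theorem divF_eq (hP : HasPrincipalDivisors K F) {f : F} (hf : f ≠ 0) {Z : Divisor K F}
    (hZ : ∀ v : Place K F, Z v = v.ord f) : (divF f : Divisor K F) = Z := by
  ext v
  rw [divF_apply hP hf, hZ]

theorem degree_divF (hP : HasPrincipalDivisors K F) {f : F} (hf : f ≠ 0) :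
    Divisor.degree (divF f : Divisor K F) = 0 := by
  obtain ⟨D, hD, hdeg⟩ := hP.exists_divisor f hf
  rw [divF_eq hP hf hD, hdeg]

theorem divF_mul (hP : HasPrincipalDivisors K F) {f h : F} (hf : f ≠ 0) (hh : h ≠ 0) :
    (divF (f * h) : Divisor K F) = divF f + divF h := by
  ext v
  rw [Finsupp.add_apply, divF_apply hP (mul_ne_zero hf hh), divF_apply hP hf, divF_apply hP hh,
    v.ord_mul hf hh]

theorem divF_algebraMap_mul (hP : HasPrincipalDivisors K F) {a : K} (ha : a ≠ 0) {f : F}
    (hf : f ≠ 0) : (divF (algebraMap K F a * f) : Divisor K F) = divF f := by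
  have ha' : algebraMap K F a ≠ 0 := by
    rwa [Ne, map_eq_zero]
  ext v
  rw [divF_apply hP (mul_ne_zero ha' hf), divF_apply hP hf, v.ord_mul ha' hf,
    Fermat.Agent.S24.helper82.ord_algebraMap]
  simp

theorem divF_mem_principal (hP : HasPrincipalDivisors K F) {f : F} (hf : f ≠ 0) :
    (divF f : Divisor K F) ∈ Divisor.principal (K := K) (F := F) :=
  ⟨f, hf, fun v => divF_apply hP hf v⟩

theorem divF_smul (hP : HasPrincipalDivisors K F) (σ : SemilinearAut K F) {f : F}
    (hf : f ≠ 0) : (divF (σ • f) : Divisor K F) = σ • divF f := by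
  have hσf : σ • f ≠ 0 := by simpa using hf
  ext w
  rw [divF_apply hP hσf, SemilinearAut.divisor_smul_apply, divF_apply hP hf]
  have h := SemilinearAut.ord_smul σ (σ⁻¹ • w) f
  rw [smul_inv_smul] at h
  exact h

/-! ### `D + m O` -/

/-- `D + m O` -/
def addPt (O : Place K F) (D : Divisor K F) (m : ℕ) : Divisor K F :=
  D + Finsupp.single O (m : ℤ)

theorem addPt_zero (O : Place K F) (D : Divisor K F) : addPt O D 0 = D := by
  simp [addPt]

theorem addPt_succ (O : Place K F) (D : Divisor K F) (m : ℕ) :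
    addPt O D (m + 1) = addPt O D m + Finsupp.single O 1 := by
  unfold addPt
  rw [add_assoc, ← Finsupp.single_add]
  push_cast
  rfl

theorem addPt_add (O : Place K F) (D Z : Divisor K F) (m : ℕ) :
    addPt O (D + Z) m = addPt O D m + Z := by
  unfold addPt
  abel

theorem addPt_smul (σ : SemilinearAut K F) {O : Place K F} (hO : σ • O = O) (D : Divisor K F)
    (m : ℕ) : addPt O (σ • D) m = σ • addPt O D m := by
  unfold addPt
  rw [smul_add, SemilinearAut.smul_single, hO]

theorem degree_addPt (hS : RiemannSetting K F) (O : Place K F) (D : Divisor K F) (m : ℕ) :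
    Divisor.degree (addPt O D m) = Divisor.degree D + m := by
  unfold addPt
  rw [map_add, Divisor.degree_single, hS.deg_one]
  simp

/-! ### sections -/

/-- the set of `m` with `L(D + m O) ≠ 0` -/
def secSet (O : Place K F) (D : Divisor K F) : Set ℕ :=
  {m | ∃ f : F, f ≠ 0 ∧ f ∈ riemannRochSpace (addPt O D m)}

/-- the least `m` with `L(D + m O) ≠ 0` -/
def redDeg (O : Place K F) (D : Divisor K F) : ℕ := sInf (secSet O D)

theorem secSet_nonempty (hS : RiemannSetting K F) {g : ℕ}
    (hR : ∀ D : Divisor K F, Divisor.degree D + 1 ≤ (ell D : ℤ) + g) (O : Place K F)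
    (D : Divisor K F) : ((g : ℤ) - Divisor.degree D).toNat ∈ secSet O D := by
  have h1 := hR (addPt O D ((g : ℤ) - Divisor.degree D).toNat)
  rw [degree_addPt hS] at h1
  have h2 : (g : ℤ) - Divisor.degree D ≤ (((g : ℤ) - Divisor.degree D).toNat : ℤ) :=
    Int.self_le_toNat _
  have h3 : 0 < ell (addPt O D ((g : ℤ) - Divisor.degree D).toNat) := by
    have : (0 : ℤ) < ell (addPt O D ((g : ℤ) - Divisor.degree D).toNat) := by linarith
    exact_mod_cast this
  exact exists_ne_zero_of_ell_pos h3

theorem redDeg_mem (hS : RiemannSetting K F) {g : ℕ}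
    (hR : ∀ D : Divisor K F, Divisor.degree D + 1 ≤ (ell D : ℤ) + g) (O : Place K F)
    (D : Divisor K F) : redDeg O D ∈ secSet O D :=
  Nat.sInf_mem ⟨_, secSet_nonempty hS hR O D⟩

theorem redDeg_le (hS : RiemannSetting K F) {g : ℕ}
    (hR : ∀ D : Divisor K F, Divisor.degree D + 1 ≤ (ell D : ℤ) + g) (O : Place K F)
    (D : Divisor K F) : redDeg O D ≤ ((g : ℤ) - Divisor.degree D).toNat :=
  Nat.sInf_le (secSet_nonempty hS hR O D)

theorem redDeg_le_of_mem {O : Place K F} {D : Divisor K F} {m : ℕ} (hm : m ∈ secSet O D) :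
    redDeg O D ≤ m :=
  Nat.sInf_le hm

theorem not_mem_of_lt_redDeg {O : Place K F} {D : Divisor K F} {m : ℕ}
    (hm : m < redDeg O D) : m ∉ secSet O D :=
  Nat.notMem_of_lt_sInf hm

theorem L_eq_bot_of_lt_redDeg {O : Place K F} {D : Divisor K F} {m : ℕ}
    (hm : m < redDeg O D) : riemannRochSpace (addPt O D m) = ⊥ := by
  rw [eq_bot_iff]
  intro f hf
  rw [Submodule.mem_bot]
  by_contra hf0
  exact not_mem_of_lt_redDeg hm ⟨f, hf0, hf⟩

open Classical in
/-- a generator of `L(D + (redDeg O D) O)` -/
def redFun (O : Place K F) (D : Divisor K F) : F :=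
  if h : ∃ f : F, f ≠ 0 ∧ f ∈ riemannRochSpace (addPt O D (redDeg O D)) then
    Classical.choose h else 1

theorem redFun_ne_zero (O : Place K F) (D : Divisor K F) : redFun O D ≠ 0 := by
  unfold redFun
  split_ifs with h
  · exact (Classical.choose_spec h).1
  · exact one_ne_zero

theorem redFun_mem (hS : RiemannSetting K F) {g : ℕ}
    (hR : ∀ D : Divisor K F, Divisor.degree D + 1 ≤ (ell D : ℤ) + g) (O : Place K F)
    (D : Divisor K F) : redFun O D ∈ riemannRochSpace (addPt O D (redDeg O D)) := by
  have h : ∃ f : F, f ≠ 0 ∧ f ∈ riemannRochSpace (addPt O D (redDeg O D)) :=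
    redDeg_mem hS hR O D
  unfold redFun
  rw [dif_pos h]
  exact (Classical.choose_spec h).2

/-- the reduced effective divisor `D + (redDeg O D) O + div (redFun O D)` -/
def redPlus (O : Place K F) (D : Divisor K F) : Divisor K F :=
  addPt O D (redDeg O D) + divF (redFun O D)

/-- the reduced divisor `D + div (redFun O D) = redPlus O D - (redDeg O D) O` -/
def redDiv (O : Place K F) (D : Divisor K F) : Divisor K F :=
  D + divF (redFun O D)

theorem redPlus_eq (O : Place K F) (D : Divisor K F) :
    redPlus O D = redDiv O D + Finsupp.single O (redDeg O D : ℤ) := by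
  unfold redPlus redDiv addPt
  abel

theorem redDiv_eq (O : Place K F) (D : Divisor K F) :
    redDiv O D = redPlus O D - Finsupp.single O (redDeg O D : ℤ) := by
  rw [redPlus_eq, add_sub_cancel_right]

section Setting

variable (hS : RiemannSetting K F) {g : ℕ}
  (hR : ∀ D : Divisor K F, Divisor.degree D + 1 ≤ (ell D : ℤ) + g) (O : Place K F)

include hS hR

/-- the reduced divisor is effective -/
theorem redPlus_nonneg (D : Divisor K F) (v : Place K F) : 0 ≤ redPlus O D v := by
  have h := (mem_L_iff' (redFun_ne_zero O D)).mp (redFun_mem hS hR O D) v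
  unfold redPlus
  rw [Finsupp.add_apply, divF_apply hS.principal (redFun_ne_zero O D)]
  linarith

theorem degree_redPlus (D : Divisor K F) :
    Divisor.degree (redPlus O D) = Divisor.degree D + redDeg O D := by
  unfold redPlus
  rw [map_add, degree_addPt hS, degree_divF hS.principal (redFun_ne_zero O D), add_zero]

omit hR in
theorem degree_redDiv (D : Divisor K F) :
    Divisor.degree (redDiv O D) = Divisor.degree D := by
  unfold redDiv
  rw [map_add, degree_divF hS.principal (redFun_ne_zero O D), add_zero]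

omit hR in
theorem redDiv_sub_mem_principal (D : Divisor K F) :
    redDiv O D - D ∈ Divisor.principal (K := K) (F := F) := by
  unfold redDiv
  rw [add_sub_cancel_left]
  exact divF_mem_principal hS.principal (redFun_ne_zero O D)

/-- `O` is not in the support of the reduced divisor (if `redDeg ≠ 0`) -/
theorem redPlus_apply_O (D : Divisor K F) (hm : redDeg O D ≠ 0) : redPlus O D O = 0 := by
  classical
  by_contra hne
  have hpos : 1 ≤ redPlus O D O := by
    have := redPlus_nonneg hS hR O D O
    omega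
  obtain ⟨m, hm'⟩ := Nat.exists_eq_succ_of_ne_zero hm
  have hlt : m < redDeg O D := by omega
  apply not_mem_of_lt_redDeg hlt
  refine ⟨redFun O D, redFun_ne_zero O D, ?_⟩
  rw [mem_L_iff' (redFun_ne_zero O D)]
  intro v
  have h := (mem_L_iff' (redFun_ne_zero O D)).mp (redFun_mem hS hR O D) v
  rw [hm', Nat.succ_eq_add_one, addPt_succ, Finsupp.add_apply, Finsupp.single_apply] at h
  split_ifs at h with hv
  · subst hv
    unfold redPlus at hpos
    rw [Finsupp.add_apply, divF_apply hS.principal (redFun_ne_zero O D), hm',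
      Nat.succ_eq_add_one, addPt_succ, Finsupp.add_apply, Finsupp.single_eq_same] at hpos
    linarith
  · linarith

/-- `ℓ(D + (redDeg O D) O) = 1` for `deg D ≤ 0` -/
theorem ell_redDeg {D : Divisor K F} (hD : Divisor.degree D ≤ 0) :
    ell (addPt O D (redDeg O D)) = 1 := by
  have hpos : 0 < ell (addPt O D (redDeg O D)) := by
    obtain ⟨f, hf0, hf⟩ := redDeg_mem hS hR O D
    unfold ell
    have := finiteDimensional_L hS (addPt O D (redDeg O D))
    apply Module.finrank_pos_iff_exists_ne_zero.mpr
    exact ⟨⟨f, hf⟩, fun h => hf0 (congrArg Subtype.val h)⟩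
  rcases Nat.eq_zero_or_pos (redDeg O D) with h0 | h0
  · have h1 := ell_le_degree_add_one hS _ hpos
    rw [degree_addPt hS, h0] at h1
    rw [h0] at hpos ⊢
    have : (ell (addPt O D 0) : ℤ) ≤ 1 := by
      push_cast at h1
      linarith
    have h2 : ell (addPt O D 0) ≤ 1 := by exact_mod_cast this
    omega
  · obtain ⟨m, hm'⟩ := Nat.exists_eq_succ_of_ne_zero h0.ne'
    have hlt : m < redDeg O D := by omega
    have hbot := L_eq_bot_of_lt_redDeg hlt
    have h1 := (step hS (addPt O D m) O (finiteDimensional_L hS _)).2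
    have h2 : ell (addPt O D m) = 0 := by
      unfold ell
      rw [hbot, finrank_bot]
    rw [← addPt_succ, h2, ← Nat.succ_eq_add_one, ← hm'] at h1
    omega

/-- two non-zero sections of `L(D + (redDeg O D) O)` are proportional -/
theorem exists_smul_eq {D : Divisor K F} (hD : Divisor.degree D ≤ 0) {f : F} (hf0 : f ≠ 0)
    (hf : f ∈ riemannRochSpace (addPt O D (redDeg O D))) :
    ∃ a : K, a ≠ 0 ∧ f = algebraMap K F a * redFun O D := by
  have h1 := ell_redDeg hS hR O hD
  unfold ell at h1
  have hne : (⟨redFun O D, redFun_mem hS hR O D⟩ :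
      riemannRochSpace (addPt O D (redDeg O D))) ≠ 0 :=
    fun h => redFun_ne_zero O D (congrArg Subtype.val h)
  obtain ⟨a, ha⟩ := (finrank_eq_one_iff_of_nonzero' _ hne).mp h1 ⟨f, hf⟩
  have ha' : a • redFun O D = f := congrArg Subtype.val ha
  refine ⟨a, ?_, ?_⟩
  · rintro rfl
    rw [zero_smul] at ha'
    exact hf0 ha'.symm
  · rw [← ha', Algebra.smul_def]

/-- **uniqueness**: the reduced divisor is THE effective divisor in the class of
`D + (redDeg O D) O` -/
theorem redPlus_unique {D : Divisor K F} (hD : Divisor.degree D ≤ 0) {f : F} (hf0 : f ≠ 0)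
    (hf : f ∈ riemannRochSpace (addPt O D (redDeg O D))) :
    addPt O D (redDeg O D) + divF f = redPlus O D := by
  obtain ⟨a, ha, rfl⟩ := exists_smul_eq hS hR O hD hf0 hf
  rw [divF_algebraMap_mul hS.principal ha (redFun_ne_zero O D)]
  rfl

omit hR in
/-- the set of degrees depends only on the class -/
theorem secSet_add_principal (D : Divisor K F) {z : F} (hz : z ≠ 0) {Z : Divisor K F}
    (hZ : ∀ v : Place K F, Z v = v.ord z) : secSet O (D + Z) = secSet O D := by
  ext m
  constructor
  · rintro ⟨f, hf0, hf⟩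
    refine ⟨z * f, mul_ne_zero hz hf0, ?_⟩
    rw [mem_L_iff' (mul_ne_zero hz hf0)]
    intro v
    have h := (mem_L_iff' hf0).mp hf v
    rw [addPt_add, Finsupp.add_apply, hZ] at h
    rw [v.ord_mul hz hf0]
    linarith
  · rintro ⟨f, hf0, hf⟩
    refine ⟨z⁻¹ * f, mul_ne_zero (inv_ne_zero hz) hf0, ?_⟩
    rw [mem_L_iff' (mul_ne_zero (inv_ne_zero hz) hf0)]
    intro v
    have h := (mem_L_iff' hf0).mp hf v
    rw [addPt_add, Finsupp.add_apply, hZ, v.ord_mul (inv_ne_zero hz) hf0, v.ord_inv]
    linarith

omit hR in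
theorem redDeg_add_principal (D : Divisor K F) {z : F} (hz : z ≠ 0) {Z : Divisor K F}
    (hZ : ∀ v : Place K F, Z v = v.ord z) : redDeg O (D + Z) = redDeg O D := by
  unfold redDeg
  rw [secSet_add_principal hS O D hz hZ]

/-- **the reduced divisor depends only on the class** -/
theorem redPlus_add_principal {D : Divisor K F} (hD : Divisor.degree D ≤ 0) {z : F}
    (hz : z ≠ 0) {Z : Divisor K F} (hZ : ∀ v : Place K F, Z v = v.ord z) :
    redPlus O (D + Z) = redPlus O D := by
  have hm := redDeg_add_principal hS O D hz hZ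
  have hf0 := redFun_ne_zero O (D + Z)
  have hf := redFun_mem hS hR O (D + Z)
  have hmem : z * redFun O (D + Z) ∈ riemannRochSpace (addPt O D (redDeg O D)) := by
    rw [mem_L_iff' (mul_ne_zero hz hf0)]
    intro v
    have h := (mem_L_iff' hf0).mp hf v
    rw [hm, addPt_add, Finsupp.add_apply, hZ] at h
    rw [v.ord_mul hz hf0]
    linarith
  have h1 := redPlus_unique hS hR O hD (mul_ne_zero hz hf0) hmem
  rw [← h1, divF_mul hS.principal hz hf0, divF_eq hS.principal hz hZ]
  unfold redPlus
  rw [hm, addPt_add]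
  abel

theorem redDiv_add_principal {D : Divisor K F} (hD : Divisor.degree D ≤ 0) {z : F}
    (hz : z ≠ 0) {Z : Divisor K F} (hZ : ∀ v : Place K F, Z v = v.ord z) :
    redDiv O (D + Z) = redDiv O D := by
  rw [redDiv_eq, redDiv_eq, redPlus_add_principal hS hR O hD hz hZ,
    redDeg_add_principal hS O D hz hZ]

omit hR in
/-- the set of degrees is equivariant -/
theorem secSet_smul (σ : SemilinearAut K F) (hO : σ • O = O) (D : Divisor K F) :
    secSet O (σ • D) = secSet O D := by
  have key : ∀ (τ : SemilinearAut K F), τ • O = O → ∀ E : Divisor K F,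
      secSet O E ⊆ secSet O (τ • E) := by
    intro τ hτ E m hm
    obtain ⟨f, hf0, hf⟩ := hm
    have hτf : τ • f ≠ 0 := by simpa using hf0
    refine ⟨τ • f, hτf, ?_⟩
    rw [mem_L_iff' hτf]
    intro w
    have h := (mem_L_iff' hf0).mp hf (τ⁻¹ • w)
    rw [addPt_smul τ hτ, SemilinearAut.divisor_smul_apply]
    have h2 := SemilinearAut.ord_smul τ (τ⁻¹ • w) f
    rw [smul_inv_smul] at h2
    rw [h2]
    exact h
  apply Set.Subset.antisymm
  · have hO' : σ⁻¹ • O = O := by
      rw [inv_smul_eq_iff, hO]
    have := key σ⁻¹ hO' (σ • D)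
    rwa [inv_smul_smul] at this
  · exact key σ hO D

omit hR in
theorem redDeg_smul (σ : SemilinearAut K F) (hO : σ • O = O) (D : Divisor K F) :
    redDeg O (σ • D) = redDeg O D := by
  unfold redDeg
  rw [secSet_smul hS O σ hO D]

/-- **the reduced divisor is equivariant** -/
theorem redPlus_smul (σ : SemilinearAut K F) (hO : σ • O = O) {D : Divisor K F}
    (hD : Divisor.degree D ≤ 0) : redPlus O (σ • D) = σ • redPlus O D := by
  have hm := redDeg_smul hS O σ hO D
  have hf0 := redFun_ne_zero O D
  have hf := redFun_mem hS hR O D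
  have hσf : σ • redFun O D ≠ 0 := by simpa using hf0
  have hmem : σ • redFun O D ∈ riemannRochSpace (addPt O (σ • D) (redDeg O (σ • D))) := by
    rw [mem_L_iff' hσf]
    intro w
    have h := (mem_L_iff' hf0).mp hf (σ⁻¹ • w)
    rw [hm, addPt_smul σ hO, SemilinearAut.divisor_smul_apply]
    have h2 := SemilinearAut.ord_smul σ (σ⁻¹ • w) (redFun O D)
    rw [smul_inv_smul] at h2
    rw [h2]
    exact h
  have hD' : Divisor.degree (σ • D) ≤ 0 := by
    rw [SemilinearAut.degree_smul]
    exact hD
  have h1 := redPlus_unique hS hR O hD' hσf hmem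
  rw [← h1, divF_smul hS.principal σ hf0, hm, addPt_smul σ hO, ← smul_add]
  rfl

theorem redDiv_smul (σ : SemilinearAut K F) (hO : σ • O = O) {D : Divisor K F}
    (hD : Divisor.degree D ≤ 0) : redDiv O (σ • D) = σ • redDiv O D := by
  rw [redDiv_eq, redDiv_eq, redPlus_smul hS hR O σ hO hD, redDeg_smul hS O σ hO D, smul_sub,
    SemilinearAut.smul_single, hO]

/-- `redDeg O D = 0` iff `L(D) ≠ 0` -/
theorem redDeg_eq_zero_iff (D : Divisor K F) :
    redDeg O D = 0 ↔ ∃ f : F, f ≠ 0 ∧ f ∈ riemannRochSpace D := by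
  constructor
  · intro h
    have h0 := redDeg_mem hS hR O D
    rw [h] at h0
    obtain ⟨f, hf0, hf⟩ := h0
    rw [addPt_zero] at hf
    exact ⟨f, hf0, hf⟩
  · intro h
    have : 0 ∈ secSet O D := by
      obtain ⟨f, hf0, hf⟩ := h
      refine ⟨f, hf0, ?_⟩
      rw [addPt_zero]
      exact hf
    exact Nat.le_zero.mp (redDeg_le_of_mem this)

end Setting

/-! ### the reduced divisor of a class in `Pic0` -/

/-- a representative of a class -/
def repD (x : Pic0 K F) : Divisor K F :=
  ((Quotient.out x : Divisor.degZero (K := K) (F := F)) : Divisor K F)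

theorem degree_repD (x : Pic0 K F) : Divisor.degree (repD x) = 0 :=
  (Quotient.out x : Divisor.degZero (K := K) (F := F)).2

theorem mk_repD (x : Pic0 K F) : Pic0.mk ⟨repD x, degree_repD x⟩ = x :=
  Quotient.out_eq' x

/-- two representatives of a class differ by a principal divisor -/
theorem exists_principal_of_mk_eq {D E : Divisor.degZero (K := K) (F := F)}
    (h : Pic0.mk D = Pic0.mk E) :
    ∃ (z : F), z ≠ 0 ∧ ∃ Z : Divisor K F, (∀ v : Place K F, Z v = v.ord z) ∧
      (E : Divisor K F) = (D : Divisor K F) + Z := by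
  have h1 : -D + E ∈ (Divisor.principal (K := K) (F := F)).addSubgroupOf
      (Divisor.degZero (K := K) (F := F)) := QuotientAddGroup.eq.mp h
  rw [AddSubgroup.mem_addSubgroupOf] at h1
  obtain ⟨z, hz, hZ⟩ := h1
  refine ⟨z, hz, ((-D + E : Divisor.degZero (K := K) (F := F)) : Divisor K F), hZ, ?_⟩
  push_cast
  abel

/-- the degree of the reduced divisor of a class -/
def redDeg0 (O : Place K F) (x : Pic0 K F) : ℕ := redDeg O (repD x)

/-- the reduced effective divisor of a class -/
def redPlus0 (O : Place K F) (x : Pic0 K F) : Divisor K F := redPlus O (repD x)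

/-- the reduced divisor of a class: `redPlus0 O x - (redDeg0 O x) O` -/
def redDiv0 (O : Place K F) (x : Pic0 K F) : Divisor K F := redDiv O (repD x)

theorem redDiv0_eq (O : Place K F) (x : Pic0 K F) :
    redDiv0 O x = redPlus0 O x - Finsupp.single O (redDeg0 O x : ℤ) :=
  redDiv_eq O (repD x)

theorem redPlus0_eq (O : Place K F) (x : Pic0 K F) :
    redPlus0 O x = redDiv0 O x + Finsupp.single O (redDeg0 O x : ℤ) :=
  redPlus_eq O (repD x)

section SettingPic

variable (hS : RiemannSetting K F) {g : ℕ}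
  (hR : ∀ D : Divisor K F, Divisor.degree D + 1 ≤ (ell D : ℤ) + g) (O : Place K F)

include hS hR

omit hR in
theorem redDeg0_mk (D : Divisor.degZero (K := K) (F := F)) :
    redDeg0 O (Pic0.mk D) = redDeg O (D : Divisor K F) := by
  obtain ⟨z, hz, Z, hZ, hE⟩ := exists_principal_of_mk_eq
    (D := ⟨repD (Pic0.mk D), degree_repD _⟩) (E := D) (mk_repD (Pic0.mk D))
  unfold redDeg0
  rw [hE]
  exact (redDeg_add_principal hS O _ hz hZ).symm

theorem redPlus0_mk (D : Divisor.degZero (K := K) (F := F)) :
    redPlus0 O (Pic0.mk D) = redPlus O (D : Divisor K F) := by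
  obtain ⟨z, hz, Z, hZ, hE⟩ := exists_principal_of_mk_eq
    (D := ⟨repD (Pic0.mk D), degree_repD _⟩) (E := D) (mk_repD (Pic0.mk D))
  unfold redPlus0
  rw [hE]
  exact (redPlus_add_principal hS hR O (le_of_eq (degree_repD _)) hz hZ).symm

theorem redDiv0_mk (D : Divisor.degZero (K := K) (F := F)) :
    redDiv0 O (Pic0.mk D) = redDiv O (D : Divisor K F) := by
  rw [redDiv0_eq, redDiv_eq, redPlus0_mk hS hR, redDeg0_mk hS]

theorem redDeg0_le (x : Pic0 K F) : redDeg0 O x ≤ g := by
  have h := redDeg_le hS hR O (repD x)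
  rw [degree_repD, sub_zero, Int.toNat_natCast] at h
  exact h

theorem redPlus0_nonneg (x : Pic0 K F) (v : Place K F) : 0 ≤ redPlus0 O x v :=
  redPlus_nonneg hS hR O (repD x) v

theorem degree_redPlus0 (x : Pic0 K F) : Divisor.degree (redPlus0 O x) = redDeg0 O x := by
  unfold redPlus0 redDeg0
  rw [degree_redPlus hS hR, degree_repD, zero_add]

omit hR in
theorem degree_redDiv0 (x : Pic0 K F) : Divisor.degree (redDiv0 O x) = 0 := by
  unfold redDiv0
  rw [degree_redDiv hS, degree_repD]

theorem redPlus0_apply_O (x : Pic0 K F) (hm : redDeg0 O x ≠ 0) : redPlus0 O x O = 0 :=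
  redPlus_apply_O hS hR O (repD x) hm

omit hR in
/-- **the reduced divisor represents its class** -/
theorem mk_redDiv0 (x : Pic0 K F) : Pic0.mk ⟨redDiv0 O x, degree_redDiv0 hS O x⟩ = x := by
  conv_rhs => rw [← mk_repD x]
  apply QuotientAddGroup.eq.mpr
  rw [AddSubgroup.mem_addSubgroupOf]
  have h := redDiv_sub_mem_principal hS O (repD x)
  have h2 : ((-(⟨redDiv0 O x, degree_redDiv0 hS O x⟩ : Divisor.degZero (K := K) (F := F)) +
      ⟨repD x, degree_repD x⟩ : Divisor.degZero (K := K) (F := F)) : Divisor K F) =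
      -(redDiv O (repD x) - repD x) := by
    push_cast
    unfold redDiv0
    abel
  rw [h2]
  exact neg_mem h

/-- **uniqueness on classes**: an effective divisor `E` with `E - m O` in the class `x`,
`m = redDeg0 O x`, is the reduced divisor. -/
theorem redPlus0_unique (x : Pic0 K F) {E : Divisor K F} (hE : ∀ v, 0 ≤ E v)
    (hdeg : Divisor.degree (E - Finsupp.single O (redDeg0 O x : ℤ)) = 0)
    (hx : Pic0.mk ⟨E - Finsupp.single O (redDeg0 O x : ℤ), hdeg⟩ = x) :
    E = redPlus0 O x := by
  obtain ⟨z, hz, Z, hZ, hEq⟩ := exists_principal_of_mk_eq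
    (D := ⟨repD x, degree_repD _⟩) (E := ⟨E - Finsupp.single O (redDeg0 O x : ℤ), hdeg⟩)
    ((mk_repD x).trans hx.symm)
  have hEq' : E = addPt O (repD x) (redDeg O (repD x)) + Z := by
    have : E - Finsupp.single O (redDeg0 O x : ℤ) = repD x + Z := hEq
    unfold addPt
    unfold redDeg0 at this
    rw [sub_eq_iff_eq_add] at this
    rw [this]
    abel
  have hmem : z ∈ riemannRochSpace (addPt O (repD x) (redDeg O (repD x))) := by
    rw [mem_L_iff' hz]
    intro v
    have h := hE v
    rw [hEq', Finsupp.add_apply, hZ] at h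
    linarith
  have h1 := redPlus_unique hS hR O (le_of_eq (degree_repD x)) hz hmem
  rw [divF_eq hS.principal hz hZ] at h1
  rw [hEq', h1]
  rfl

theorem redDeg0_eq_zero_iff (x : Pic0 K F) : redDeg0 O x = 0 ↔ x = 0 := by
  unfold redDeg0
  rw [redDeg_eq_zero_iff hS hR]
  constructor
  · rintro ⟨f, hf0, hf⟩
    obtain ⟨Z, hZ, hZdeg⟩ := hS.principal.exists_divisor f hf0
    have hnn : ∀ v, 0 ≤ (repD x + Z) v := fun v => by
      have := (mem_L_iff' hf0).mp hf v
      rw [Finsupp.add_apply, hZ]
      linarith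
    have hdeg0 : Divisor.degree (repD x + Z) = 0 := by
      rw [map_add, degree_repD, hZdeg, add_zero]
    have hzero : repD x + Z = 0 := by
      classical
      by_contra hne
      obtain ⟨v, hv⟩ := Finsupp.ne_iff.mp hne
      have hpos : 0 < (repD x + Z) v := lt_of_le_of_ne (hnn v) (Ne.symm hv)
      have := degree_pos_of_pos hS.deg_one hnn hpos
      omega
    rw [← mk_repD x]
    apply (QuotientAddGroup.eq_zero_iff _).mpr
    rw [AddSubgroup.mem_addSubgroupOf]
    have : repD x = -Z := eq_neg_of_add_eq_zero_left hzero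
    show repD x ∈ Divisor.principal (K := K) (F := F)
    rw [this]
    exact neg_mem ⟨f, hf0, hZ⟩
  · intro hx
    have h0 : Pic0.mk ⟨repD x, degree_repD x⟩ = 0 := (mk_repD x).trans hx
    have h1 := (QuotientAddGroup.eq_zero_iff _).mp h0
    rw [AddSubgroup.mem_addSubgroupOf] at h1
    obtain ⟨f, hf0, hf⟩ := h1
    refine ⟨f⁻¹, inv_ne_zero hf0, ?_⟩
    rw [mem_L_iff' (inv_ne_zero hf0)]
    intro v
    have := hf v
    rw [v.ord_inv]
    change repD x v = v.ord f at this
    omega

theorem redPlus0_zero : redPlus0 O (0 : Pic0 K F) = 0 := by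
  classical
  have hm := (redDeg0_eq_zero_iff hS hR O (0 : Pic0 K F)).mpr rfl
  have hdeg := degree_redPlus0 hS hR O (0 : Pic0 K F)
  rw [hm] at hdeg
  by_contra hne
  obtain ⟨v, hv⟩ := Finsupp.ne_iff.mp hne
  have hpos : 0 < redPlus0 O (0 : Pic0 K F) v :=
    lt_of_le_of_ne (redPlus0_nonneg hS hR O 0 v) (Ne.symm hv)
  have := degree_pos_of_pos hS.deg_one (redPlus0_nonneg hS hR O 0) hpos
  rw [hdeg] at this
  simp at this

omit hR in
/-- **equivariance of the degree** -/
theorem redDeg0_smul (σ : SemilinearAut K F) (hO : σ • O = O) (x : Pic0 K F) :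
    redDeg0 O (σ • x) = redDeg0 O x := by
  obtain ⟨D, rfl⟩ := Pic0.mk_surjective x
  rw [SemilinearAut.pic0_smul_mk, redDeg0_mk hS, redDeg0_mk hS, SemilinearAut.coe_degZeroSMulHom,
    redDeg_smul hS O σ hO]

/-- **equivariance of the reduced effective divisor** -/
theorem redPlus0_smul (σ : SemilinearAut K F) (hO : σ • O = O) (x : Pic0 K F) :
    redPlus0 O (σ • x) = σ • redPlus0 O x := by
  obtain ⟨D, rfl⟩ := Pic0.mk_surjective x
  rw [SemilinearAut.pic0_smul_mk, redPlus0_mk hS hR, redPlus0_mk hS hR,
    SemilinearAut.coe_degZeroSMulHom, redPlus_smul hS hR O σ hO (le_of_eq D.2)]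

/-- **equivariance of the reduced divisor** -/
theorem redDiv0_smul (σ : SemilinearAut K F) (hO : σ • O = O) (x : Pic0 K F) :
    redDiv0 O (σ • x) = σ • redDiv0 O x := by
  rw [redDiv0_eq, redDiv0_eq, redPlus0_smul hS hR O σ hO, redDeg0_smul hS O σ hO, smul_sub,
    SemilinearAut.smul_single, hO]

end SettingPic

end Fermat.Agent.T6.helper74

end
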