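/-
T6 [I1] (helper74): **the reduced divisor of a class of `JZero M`**, instance.

`O = ∞` (the cusp at infinity, `P2.helper29.inftyBar M`), genus `genusFF M` (the Riemann genus of
`FF M`), Galois action = the Prelude action of `Gal(ℚ̄/ℚ)` on `JZero M`.

* `redDegJ M x ≤ genusFF M`, `redPlusJ M x` effective of degree `redDegJ M x`, without `∞` in
  its support if `redDegJ M x ≠ 0`, `redDivJ M x = redPlusJ M x - (redDegJ M x) ∞` of degree `0`
  and in the class `x`;
* uniqueness `redPlusJ_unique`;
* **equivariance** `redDegJ_smul`, `redPlusJ_smul`, `redDivJ_smul` for `σ ∈ Gal(ℚ̄/ℚ)`.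
-/
import Mathlib
import Fermat.Agent.T6.helper74_RedDiv
import Fermat.Agent.P2.helper74_RieInst
import Fermat.Agent.P2.helper29_Infty
import Fermat.Prelude.Def_ModularCurve_ArithmeticGalois

set_option autoImplicit false
set_option linter.unusedSectionVars false
set_option linter.unusedVariables false
set_option linter.style.longLine false

open HahnSeries ModularCurve IntermediateField AlgebraicCurve
open Fermat.Agent.S18.helper19 Fermat.Agent.P2.helper29 Fermat.Agent.P2.helper74

noncomputable section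

namespace Fermat.Agent.T6.helper74

section FFM

variable (M : ℕ) [NeZero M]

/-- the Riemann genus of `FF M` -/
def genusFF : ℕ := Classical.choose (riemannStatement M)

theorem hasRiemannGenus_FF : Fermat.Agent.P2.helper29.HasRiemannGenus Kb (FF M) (genusFF M) :=
  Classical.choose_spec (riemannStatement M)

theorem riemann_ineq_FF (D : Divisor Kb (FF M)) :
    Divisor.degree D + 1 ≤ (ell D : ℤ) + genusFF M :=
  (hasRiemannGenus_FF M).1 D

/-- the semilinear automorphism of `FF M` attached to `σ` -/
abbrev galAut (σ : Kb ≃ₐ[ℚ] Kb) : SemilinearAut Kb (FF M) :=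
  arithmeticGalois (modularFunctionFieldFull M) σ

theorem order_coeffMap_gal (σ : Kb ≃ₐ[ℚ] Kb) (x : LaurentSeries Kb) :
    (coeffMap (σ : Kb →+* Kb) x).order = x.order := by
  have hinj : Function.Injective ((σ : Kb →+* Kb)) := σ.injective
  by_cases hx : x = 0
  · rw [hx, map_zero]
  have hx' : coeffMap (σ : Kb →+* Kb) x ≠ 0 := by
    intro h0
    apply hx
    ext k
    have := congrArg (fun z => HahnSeries.coeff z k) h0
    simp only [coeffMap_coeff, HahnSeries.coeff_zero] at this
    exact hinj (this.trans (map_zero _).symm)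
  apply le_antisymm
  · apply HahnSeries.order_le_of_coeff_ne_zero
    rw [coeffMap_coeff]
    intro h0
    exact hx (HahnSeries.coeff_order_eq_zero.mp (hinj (h0.trans (map_zero _).symm)))
  · have h1 : (coeffMap (σ : Kb →+* Kb) x).coeff (coeffMap (σ : Kb →+* Kb) x).order ≠ 0 :=
      fun h0 => hx' (HahnSeries.coeff_order_eq_zero.mp h0)
    rw [coeffMap_coeff] at h1
    have h2 : x.coeff (coeffMap (σ : Kb →+* Kb) x).order ≠ 0 := fun h0 => h1 (by rw [h0, map_zero])
    exact HahnSeries.order_le_of_coeff_ne_zero h2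

/-- **the place at infinity is fixed by the Galois action** -/
theorem galAut_smul_inftyBar (σ : Kb ≃ₐ[ℚ] Kb) : galAut M σ • inftyBar M = inftyBar M := by
  refine IsInfty.unique (FF M) ?_ (isInfty_inftyBar M)
  intro f hf
  have h := SemilinearAut.ord_smul (galAut M σ) (inftyBar M) ((galAut M σ)⁻¹ • f)
  rw [smul_inv_smul] at h
  rw [h]
  have hf' : (galAut M σ)⁻¹ • f ≠ 0 := by simpa using hf
  rw [isInfty_inftyBar M _ hf']
  have h2 : (galAut M σ)⁻¹ = galAut M σ⁻¹ :=
    (map_inv (arithmeticGalois (modularFunctionFieldFull M)) σ).symm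
  rw [h2, coe_arithmeticGalois_smul, order_coeffMap_gal]

/-- the degree of the reduced divisor of a class of `JZero M` -/
def redDegJ (x : JZero M) : ℕ := redDeg0 (inftyBar M) x

/-- the reduced effective divisor of a class of `JZero M` -/
def redPlusJ (x : JZero M) : Divisor Kb (FF M) := redPlus0 (inftyBar M) x

/-- the reduced divisor of a class of `JZero M` -/
def redDivJ (x : JZero M) : Divisor Kb (FF M) := redDiv0 (inftyBar M) x

theorem redDivJ_eq (x : JZero M) :
    redDivJ M x = redPlusJ M x - Finsupp.single (inftyBar M) (redDegJ M x : ℤ) :=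
  redDiv0_eq _ x

theorem redDegJ_le (x : JZero M) : redDegJ M x ≤ genusFF M :=
  redDeg0_le (riemannSetting_FF M) (riemann_ineq_FF M) _ x

theorem redPlusJ_nonneg (x : JZero M) (v : Place Kb (FF M)) : 0 ≤ redPlusJ M x v :=
  redPlus0_nonneg (riemannSetting_FF M) (riemann_ineq_FF M) _ x v

theorem degree_redPlusJ (x : JZero M) : Divisor.degree (redPlusJ M x) = redDegJ M x :=
  degree_redPlus0 (riemannSetting_FF M) (riemann_ineq_FF M) _ x

theorem degree_redDivJ (x : JZero M) : Divisor.degree (redDivJ M x) = 0 :=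
  degree_redDiv0 (riemannSetting_FF M) _ x

theorem redPlusJ_apply_infty (x : JZero M) (hm : redDegJ M x ≠ 0) :
    redPlusJ M x (inftyBar M) = 0 :=
  redPlus0_apply_O (riemannSetting_FF M) (riemann_ineq_FF M) _ x hm

/-- the reduced divisor represents its class -/
theorem mk_redDivJ (x : JZero M) : Pic0.mk ⟨redDivJ M x, degree_redDivJ M x⟩ = x :=
  mk_redDiv0 (riemannSetting_FF M) _ x

theorem redPlusJ_unique (x : JZero M) {E : Divisor Kb (FF M)} (hE : ∀ v, 0 ≤ E v)
    (hdeg : Divisor.degree (E - Finsupp.single (inftyBar M) (redDegJ M x : ℤ)) = 0)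
    (hx : Pic0.mk ⟨E - Finsupp.single (inftyBar M) (redDegJ M x : ℤ), hdeg⟩ = x) :
    E = redPlusJ M x :=
  redPlus0_unique (riemannSetting_FF M) (riemann_ineq_FF M) _ x hE hdeg hx

theorem redDegJ_eq_zero_iff (x : JZero M) : redDegJ M x = 0 ↔ x = 0 :=
  redDeg0_eq_zero_iff (riemannSetting_FF M) (riemann_ineq_FF M) _ x

theorem redPlusJ_zero : redPlusJ M (0 : JZero M) = 0 :=
  redPlus0_zero (riemannSetting_FF M) (riemann_ineq_FF M) _

/-- **Galois equivariance of the degree** -/
theorem redDegJ_smul (σ : Kb ≃ₐ[ℚ] Kb) (x : JZero M) : redDegJ M (σ • x) = redDegJ M x :=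
  redDeg0_smul (riemannSetting_FF M) _ (galAut M σ) (galAut_smul_inftyBar M σ) x

/-- **Galois equivariance of the reduced effective divisor** -/
theorem redPlusJ_smul (σ : Kb ≃ₐ[ℚ] Kb) (x : JZero M) :
    redPlusJ M (σ • x) = galAut M σ • redPlusJ M x :=
  redPlus0_smul (riemannSetting_FF M) (riemann_ineq_FF M) _ (galAut M σ)
    (galAut_smul_inftyBar M σ) x

/-- **Galois equivariance of the reduced divisor** -/
theorem redDivJ_smul (σ : Kb ≃ₐ[ℚ] Kb) (x : JZero M) :
    redDivJ M (σ • x) = galAut M σ • redDivJ M x :=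
  redDiv0_smul (riemannSetting_FF M) (riemann_ineq_FF M) _ (galAut M σ)
    (galAut_smul_inftyBar M σ) x

/-- pointwise form of the equivariance -/
theorem redPlusJ_smul_apply (σ : Kb ≃ₐ[ℚ] Kb) (x : JZero M) (v : Place Kb (FF M)) :
    redPlusJ M (σ • x) (galAut M σ • v) = redPlusJ M x v := by
  rw [redPlusJ_smul, SemilinearAut.divisor_smul_apply_smul]

end FFM

end Fermat.Agent.T6.helper74

end
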