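import Mathlib
import Fermat.Prelude.Def_ModularCurve_LaurentCoeff
import Fermat.Agent.T3.helper84_HorAbs

/-!
# T6 [I4] RATBASIS (helper23), ABSTRACT part: integral echelon bases fixed by Galois

`K` a field, `A` a valuation subring, `G` a set of ring endomorphisms of `K` (acting
coefficientwise on `K((t))`), `V ⊆ K((t))` a finite-dimensional `K`-subspace which is stable under
`G` and on which the Gauss norm is attained (`NormAttained`: every nonzero `v ∈ V` has a
coefficient `v_k ≠ 0` with `v_j / v_k ∈ A` for all `j`).

* `exists_echelon` : there are `ψ₁, …, ψ_r ∈ V` and exponents `m₁, …, m_r` with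
  - every coefficient of `ψ_i` lies in `A`                         (integral),
  - `coeffMap σ ψ_i = ψ_i` for all `σ ∈ G`                          (rational),
  - `coeff (m_j) ψ_i = δ_ij`                                        (reduced echelon form),
  - `v = ∑ i, coeff (m_i) v • ψ_i` for all `v ∈ V`                   (basis).
  So the coordinates of `v ∈ V` in this basis are the COEFFICIENTS of `v` at the pivots `m_i` :
  they lie in `A` when `v` is `A`-integral and they are `G`-equivariant in `v`.
* `EchelonData` (the four properties), and its consequences `EchelonData.linearIndependent`,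
  `EchelonData.eq_zero_of_coeff`, `EchelonData.red_linearIndependent` (the reductions of the
  `ψ_i` are linearly independent over the residue field), `EchelonData.finrank_eq`.
Mathlib + Prelude `coeffMap` + `helper84_HorAbs` (descent without traces) only.
-/

set_option autoImplicit false
set_option linter.unusedSectionVars false
set_option linter.unusedVariables false
set_option linter.style.longLine false

open HahnSeries ModularCurve

noncomputable section

namespace Fermat.Agent.T6.helper23

open Fermat.Agent.T3.helper84

section Echelon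

variable {K : Type*} [Field K]

/-- the Gauss norm of `v` is attained: some coefficient `v_k ≠ 0` divides all the others in `A` -/
def NormAttained (A : ValuationSubring K) (v : LaurentSeries K) : Prop :=
  ∃ k : ℤ, v.coeff k ≠ 0 ∧ ∀ j : ℤ, v.coeff j * (v.coeff k)⁻¹ ∈ A

/-- **the properties of an integral rational reduced echelon basis** of `V` -/
structure EchelonData (A : ValuationSubring K) (G : Set (K →+* K))
    (V : Submodule K (LaurentSeries K)) {r : ℕ} (ψ : Fin r → LaurentSeries K)
    (m : Fin r → ℤ) : Prop where
  /-- the basis elements lie in `V` -/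
  mem : ∀ i, ψ i ∈ V
  /-- the basis elements are `A`-integral -/
  int : ∀ i (k : ℤ), (ψ i).coeff k ∈ A
  /-- the basis elements are fixed by `G` -/
  fix : ∀ i, ∀ σ ∈ G, coeffMap σ (ψ i) = ψ i
  /-- reduced echelon form -/
  pivot : ∀ i j, (ψ i).coeff (m j) = if i = j then 1 else 0
  /-- the coordinates are the coefficients at the pivots -/
  expand : ∀ v ∈ V, v = ∑ i, v.coeff (m i) • ψ i

variable (A : ValuationSubring K) (G : Set (K →+* K))

/-- **existence of an integral rational reduced echelon basis** -/
theorem exists_echelon :
    ∀ (d : ℕ) (V : Submodule K (LaurentSeries K)) [FiniteDimensional K V],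
      Module.finrank K V = d → (∀ σ ∈ G, ∀ v ∈ V, coeffMap σ v ∈ V) →
      (∀ v ∈ V, v ≠ 0 → (∀ σ ∈ G, coeffMap σ v = v) → NormAttained A v) →
      ∃ (r : ℕ) (ψ : Fin r → LaurentSeries K) (m : Fin r → ℤ), EchelonData A G V ψ m := by
  intro d
  induction d using Nat.strong_induction_on with
  | _ d ih =>
    intro V _ hd hV hatt
    by_cases hV0 : ∀ v ∈ V, v = 0
    · refine ⟨0, Fin.elim0, Fin.elim0, ⟨fun i => i.elim0, fun i => i.elim0, fun i => i.elim0,
        fun i => i.elim0, fun v hv => ?_⟩⟩
      rw [hV0 v hv]
      simp
    · push_neg at hV0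
      obtain ⟨v₀, hv₀, hv₀0⟩ := hV0
      -- a nonzero fixed element
      obtain ⟨w, hw, hwfix, hw0⟩ : ∃ w ∈ V, (∀ σ ∈ G, coeffMap σ w = w) ∧ w ≠ 0 := by
        obtain ⟨w, hw, hwfix, hwn⟩ := hor_exists_fixed_notMem G V hV ⊥ hv₀
          (by rw [Submodule.mem_bot]; exact hv₀0)
        exact ⟨w, hw, hwfix, fun h => hwn (by rw [h]; exact Submodule.zero_mem _)⟩
      obtain ⟨k, hk, hint⟩ := hatt w hw hw0 hwfix
      -- the normalised element
      set b : LaurentSeries K := (w.coeff k)⁻¹ • w with hbdef
      have hbV : b ∈ V := V.smul_mem _ hw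
      have hbk : b.coeff k = 1 := by
        rw [hbdef, HahnSeries.coeff_smul, smul_eq_mul, inv_mul_cancel₀ hk]
      have hbint : ∀ j : ℤ, b.coeff j ∈ A := by
        intro j
        rw [hbdef, HahnSeries.coeff_smul, smul_eq_mul, mul_comm]
        exact hint j
      have hbfix : ∀ σ ∈ G, coeffMap σ b = b := by
        intro σ hσ
        have h1 : σ (w.coeff k) = w.coeff k := by
          have := congrArg (fun x : LaurentSeries K => x.coeff k) (hwfix σ hσ)
          simpa using this
        ext j
        rw [coeffMap_coeff, hbdef, HahnSeries.coeff_smul, smul_eq_mul, map_mul, map_inv₀, h1]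
        have h2 : σ (w.coeff j) = w.coeff j := by
          have := congrArg (fun x : LaurentSeries K => x.coeff j) (hwfix σ hσ)
          simpa using this
        rw [h2]
      have hbcoe : ∀ σ ∈ G, ∀ j : ℤ, σ (b.coeff j) = b.coeff j := by
        intro σ hσ j
        have := congrArg (fun x : LaurentSeries K => x.coeff j) (hbfix σ hσ)
        simpa using this
      -- the induction hypothesis for the cut
      have hlt := horCut_finrank_lt V hbV (by rw [hbk]; exact one_ne_zero)
      have hV₁ : ∀ σ ∈ G, ∀ v ∈ horCut V k, coeffMap σ v ∈ horCut V k := by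
        intro σ hσ v hv
        obtain ⟨h1, h2⟩ := mem_horCut.mp hv
        exact mem_horCut.mpr ⟨hV σ hσ v h1, by rw [coeffMap_coeff, h2, map_zero]⟩
      have hatt₁ : ∀ v ∈ horCut V k, v ≠ 0 → (∀ σ ∈ G, coeffMap σ v = v) → NormAttained A v :=
        fun v hv hv0 hvfix => hatt v (horCut_le V k hv) hv0 hvfix
      obtain ⟨r, ψ, m, hE⟩ := ih _ (hd ▸ hlt) (horCut V k) rfl hV₁ hatt₁
      have hψk : ∀ i, (ψ i).coeff k = 0 := fun i => (mem_horCut.mp (hE.mem i)).2
      -- the reduced first vector
      set b' : LaurentSeries K := b - ∑ j, b.coeff (m j) • ψ j with hb'def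
      have hb'coeff : ∀ l : ℤ, b'.coeff l = b.coeff l - ∑ j, b.coeff (m j) * (ψ j).coeff l := by
        intro l
        rw [hb'def, HahnSeries.coeff_sub, HahnSeries.coeff_sum]
        simp only [HahnSeries.coeff_smul, smul_eq_mul]
      have hb'k : b'.coeff k = 1 := by
        rw [hb'coeff, hbk]
        simp [hψk]
      have hb'm : ∀ i, b'.coeff (m i) = 0 := by
        intro i
        rw [hb'coeff]
        have : ∑ j, b.coeff (m j) * (ψ j).coeff (m i) = b.coeff (m i) := by
          rw [Finset.sum_eq_single i]
          · rw [hE.pivot i i, if_pos rfl, mul_one]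
          · intro j _ hji
            rw [hE.pivot j i, if_neg hji, mul_zero]
          · intro h
            exact absurd (Finset.mem_univ i) h
        rw [this, sub_self]
      refine ⟨r + 1, Fin.cons b' ψ, Fin.cons k m, ⟨?_, ?_, ?_, ?_, ?_⟩⟩
      · -- mem
        intro i
        refine Fin.cases ?_ (fun i => ?_) i
        · rw [Fin.cons_zero]
          exact V.sub_mem hbV (V.sum_mem fun j _ => V.smul_mem _ (horCut_le V k (hE.mem j)))
        · rw [Fin.cons_succ]
          exact horCut_le V k (hE.mem i)
      · -- int
        intro i l
        refine Fin.cases ?_ (fun i => ?_) i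
        · rw [Fin.cons_zero, hb'coeff]
          exact sub_mem (hbint l)
            (sum_mem fun j _ => mul_mem (hbint _) (hE.int j l))
        · rw [Fin.cons_succ]
          exact hE.int i l
      · -- fix
        intro i σ hσ
        refine Fin.cases ?_ (fun i => ?_) i
        · rw [Fin.cons_zero]
          ext l
          rw [coeffMap_coeff, hb'coeff, map_sub, map_sum, hbcoe σ hσ]
          congr 1
          refine Finset.sum_congr rfl fun j _ => ?_
          rw [map_mul, hbcoe σ hσ]
          have := congrArg (fun x : LaurentSeries K => x.coeff l) (hE.fix j σ hσ)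
          simp only [coeffMap_coeff] at this
          rw [this]
        · rw [Fin.cons_succ]
          exact hE.fix i σ hσ
      · -- pivot
        intro i j
        refine Fin.cases ?_ (fun i => ?_) i
        · refine Fin.cases ?_ (fun j => ?_) j
          · rw [Fin.cons_zero, Fin.cons_zero, hb'k, if_pos rfl]
          · rw [Fin.cons_zero, Fin.cons_succ, hb'm, if_neg (Fin.succ_ne_zero j).symm]
        · refine Fin.cases ?_ (fun j => ?_) j
          · rw [Fin.cons_succ, Fin.cons_zero, hψk, if_neg (Fin.succ_ne_zero i)]
          · rw [Fin.cons_succ, Fin.cons_succ, hE.pivot i j]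
            by_cases hij : i = j
            · rw [if_pos hij, if_pos (by rw [hij])]
            · rw [if_neg hij, if_neg (fun h => hij (Fin.succ_injective _ h))]
      · -- expand
        intro v hv
        have hv' : v - v.coeff k • b' ∈ horCut V k := by
          refine mem_horCut.mpr ⟨V.sub_mem hv (V.smul_mem _ ?_), ?_⟩
          · exact V.sub_mem hbV (V.sum_mem fun j _ => V.smul_mem _ (horCut_le V k (hE.mem j)))
          · rw [HahnSeries.coeff_sub, HahnSeries.coeff_smul, hb'k, smul_eq_mul, mul_one, sub_self]
        have h1 := hE.expand _ hv'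
        have h2 : ∀ i, (v - v.coeff k • b').coeff (m i) = v.coeff (m i) := by
          intro i
          rw [HahnSeries.coeff_sub, HahnSeries.coeff_smul, hb'm, smul_zero, sub_zero]
        simp only [h2] at h1
        rw [Fin.sum_univ_succ]
        simp only [Fin.cons_zero, Fin.cons_succ]
        rw [← h1]
        abel

end Echelon

/-! ### Consequences -/

section Consequences

variable {K : Type*} [Field K] {A : ValuationSubring K} {G : Set (K →+* K)}
  {V : Submodule K (LaurentSeries K)} {r : ℕ} {ψ : Fin r → LaurentSeries K} {m : Fin r → ℤ}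

/-- the coefficient at the pivot `m_j` of a linear combination is its `j`-th coordinate -/
theorem EchelonData.coeff_sum (hE : EchelonData A G V ψ m) (c : Fin r → K) (j : Fin r) :
    (∑ i, c i • ψ i).coeff (m j) = c j := by
  rw [HahnSeries.coeff_sum]
  simp only [HahnSeries.coeff_smul, smul_eq_mul]
  rw [Finset.sum_eq_single j]
  · rw [hE.pivot j j, if_pos rfl, mul_one]
  · intro i _ hij
    rw [hE.pivot i j, if_neg hij, mul_zero]
  · intro h
    exact absurd (Finset.mem_univ j) h

/-- the basis is linearly independent -/
theorem EchelonData.linearIndependent (hE : EchelonData A G V ψ m) :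
    LinearIndependent K ψ := by
  rw [Fintype.linearIndependent_iff]
  intro c hc j
  have := hE.coeff_sum c j
  rw [hc, HahnSeries.coeff_zero] at this
  exact this.symm

/-- an element of `V` whose coefficients at the pivots vanish is zero -/
theorem EchelonData.eq_zero_of_coeff (hE : EchelonData A G V ψ m) {v : LaurentSeries K}
    (hv : v ∈ V) (h : ∀ i, v.coeff (m i) = 0) : v = 0 := by
  rw [hE.expand v hv]
  simp [h]

/-- the coordinates are unique -/
theorem EchelonData.coord_unique (hE : EchelonData A G V ψ m) {v : LaurentSeries K}
    (c : Fin r → K) (h : v = ∑ i, c i • ψ i) (j : Fin r) : c j = v.coeff (m j) := by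
  rw [h, hE.coeff_sum]

/-- the span of the basis is `V` -/
theorem EchelonData.span_eq (hE : EchelonData A G V ψ m) :
    Submodule.span K (Set.range ψ) = V := by
  apply le_antisymm
  · rw [Submodule.span_le]
    rintro _ ⟨i, rfl⟩
    exact hE.mem i
  · intro v hv
    rw [hE.expand v hv]
    exact Submodule.sum_mem _ fun i _ =>
      Submodule.smul_mem _ _ (Submodule.subset_span ⟨i, rfl⟩)

/-- the number of basis elements is the dimension -/
theorem EchelonData.finrank_eq (hE : EchelonData A G V ψ m) : Module.finrank K V = r := by
  rw [← hE.span_eq, finrank_span_eq_card hE.linearIndependent, Fintype.card_fin]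

/-- the coordinates of a `G`-translate are the `G`-translates of the coordinates -/
theorem EchelonData.coeff_coeffMap (hE : EchelonData A G V ψ m) (σ : K →+* K)
    (v : LaurentSeries K) (i : Fin r) : (coeffMap σ v).coeff (m i) = σ (v.coeff (m i)) :=
  coeffMap_coeff σ v (m i)

/-- the coefficients of a linear combination with coefficients in `A` are in `A` -/
theorem EchelonData.sum_int (hE : EchelonData A G V ψ m) (c : Fin r → K)
    (hc : ∀ i, c i ∈ A) (k : ℤ) : (∑ i, c i • ψ i).coeff k ∈ A := by
  rw [HahnSeries.coeff_sum]
  exact sum_mem fun i _ => by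
    rw [HahnSeries.coeff_smul, smul_eq_mul]
    exact mul_mem (hc i) (hE.int i k)

/-- **the integral elements of `V` are the `A`-combinations of the basis** -/
theorem EchelonData.int_iff (hE : EchelonData A G V ψ m) {v : LaurentSeries K} (hv : v ∈ V) :
    (∀ k : ℤ, v.coeff k ∈ A) ↔ ∀ i, v.coeff (m i) ∈ A := by
  constructor
  · intro h i
    exact h (m i)
  · intro h k
    rw [hE.expand v hv]
    exact hE.sum_int _ h k

end Consequences

/-! ### Reductions -/

section Red

variable {K : Type*} [Field K] {A : ValuationSubring K} {G : Set (K →+* K)}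
  {V : Submodule K (LaurentSeries K)} {r : ℕ} {ψ : Fin r → LaurentSeries K} {m : Fin r → ℤ}

/-- integral lifts of the basis elements -/
theorem EchelonData.exists_lift (hE : EchelonData A G V ψ m) :
    ∃ Y : Fin r → LaurentSeries A, (∀ i, coeffMap A.subtype (Y i) = ψ i) ∧
      ∀ i j, (Y i).coeff (m j) = if i = j then 1 else 0 := by
  have h : ∀ i, ∃ Y : LaurentSeries A, coeffMap A.subtype Y = ψ i := by
    intro i
    refine ⟨HahnSeries.ofSuppBddBelow (fun k => (⟨(ψ i).coeff k, hE.int i k⟩ : A)) ?_, ?_⟩
    · by_cases h0 : ψ i = 0
      · refine ⟨0, fun k hk => ?_⟩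
        simp only [Function.mem_support, ne_eq] at hk
        exfalso
        apply hk
        apply Subtype.ext
        show (ψ i).coeff k = 0
        rw [h0, HahnSeries.coeff_zero]
      · refine ⟨(ψ i).order, fun k hk => ?_⟩
        simp only [Function.mem_support, ne_eq] at hk
        by_contra hlt
        rw [not_le] at hlt
        apply hk
        apply Subtype.ext
        show (ψ i).coeff k = 0
        exact HahnSeries.coeff_eq_zero_of_lt_order hlt
    · ext k
      rfl
  choose Y hY using h
  refine ⟨Y, hY, fun i j => ?_⟩
  apply Subtype.ext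
  have h := congrArg (fun x : LaurentSeries K => x.coeff (m j)) (hY i)
  simp only [coeffMap_coeff] at h
  have h' : (((Y i).coeff (m j) : A) : K) = (ψ i).coeff (m j) := h
  rw [h', hE.pivot i j]
  split_ifs <;> rfl

/-- **the reductions of the basis elements are linearly independent** over the residue field -/
theorem EchelonData.red_linearIndependent (hE : EchelonData A G V ψ m)
    (Y : Fin r → LaurentSeries A) (hY : ∀ i, coeffMap A.subtype (Y i) = ψ i) :
    LinearIndependent (IsLocalRing.ResidueField A)
      (fun i => coeffMap (IsLocalRing.residue A) (Y i)) := by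
  rw [Fintype.linearIndependent_iff]
  intro c hc j
  have hYp : ∀ i, (Y i).coeff (m j) = if i = j then 1 else 0 := by
    intro i
    apply Subtype.ext
    have h := congrArg (fun x : LaurentSeries K => x.coeff (m j)) (hY i)
    simp only [coeffMap_coeff] at h
    have h' : (((Y i).coeff (m j) : A) : K) = (ψ i).coeff (m j) := h
    rw [h', hE.pivot i j]
    split_ifs <;> rfl
  have h1 := congrArg (fun x : LaurentSeries (IsLocalRing.ResidueField A) => x.coeff (m j)) hc
  simp only [HahnSeries.coeff_sum, HahnSeries.coeff_smul, coeffMap_coeff, HahnSeries.coeff_zero,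
    smul_eq_mul] at h1
  rw [Finset.sum_eq_single j] at h1
  · rw [hYp j, if_pos rfl, map_one, mul_one] at h1
    exact h1
  · intro i _ hij
    rw [hYp i, if_neg hij, map_zero, mul_zero]
  · intro h
    exact absurd (Finset.mem_univ j) h

end Red

end Fermat.Agent.T6.helper23

end
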