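import Mathlib
import Fermat.Agent.T6.helper23_EchelonBasis
import Fermat.Agent.T3.helper84_HorExact
import Fermat.Agent.P2.helper74_PivotInst
import Fermat.Agent.P2.helper81_ValInt
import Fermat.Agent.P2.helper81_ValScale

/-!
# T6 [I4] RATBASIS (helper23): `L(n ∞)` has an `A`-integral RATIONAL reduced echelon basis

`M` a level, `A` a valuation ring of `ℚ̄` over a prime `ℓ ∤ M`, `L(n ∞) = inLSub (FF M) n` the
functions of `X₀(M)` regular off `∞` with pole order `≤ n` at `∞` (as `q`-expansions).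

* `galSet` : the coefficientwise action of `Gal(ℚ̄/ℚ)`;
* `inL_coeffMap` : `L(n ∞)` is stable under `Gal(ℚ̄/ℚ)`;
* `normAttained_of_inL` : the Gauss norm is attained on `L(n ∞)` (P2 [VAL-SC] + [VAL-INT]);
* `exists_ratBasis` : **[I4]** there are `ψ₁ … ψ_r ∈ L(n ∞)` and exponents `m₁ … m_r` with
  `ψ_i` `A`-integral, fixed by `Gal(ℚ̄/ℚ)` (rational coefficients: `coeff_mem_rat`),
  `coeff (m_j) ψ_i = δ_ij`, and `f = ∑ i, coeff (m_i) f • ψ_i` for all `f ∈ L(n ∞)`;
  hence `r = dim L(n ∞)`, the coordinates of an `A`-integral `f` lie in `A`, the coordinates of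
  `σ f` are the `σ`-conjugates of the coordinates of `f`, and the reductions of the `ψ_i` are
  linearly independent over the residue field.
* `exists_ratBasis_FF` : the same with the `ψ_i` as elements of `FF M` fixed by
  `arithmeticRingAut`.
-/

set_option autoImplicit false
set_option synthInstance.maxHeartbeats 400000
set_option linter.unusedSectionVars false
set_option linter.unusedVariables false
set_option linter.style.longLine false

open HahnSeries ModularCurve IntermediateField AlgebraicCurve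
open Fermat.Agent.S18.helper19 Fermat.Agent.P2.helper29 Fermat.Agent.S24

noncomputable section

namespace Fermat.Agent.T6.helper23

open Fermat.Agent.T3.helper84 Fermat.Agent.P2.helper74

/-- the coefficientwise action of `Gal(ℚ̄/ℚ)` -/
def galSet : Set (Kb →+* Kb) := Set.range fun σ : Kb ≃ₐ[ℚ] Kb => (σ : Kb →+* Kb)

theorem mem_galSet (σ : Kb ≃ₐ[ℚ] Kb) : ((σ : Kb →+* Kb)) ∈ galSet := ⟨σ, rfl⟩

/-- an element of `ℚ̄` fixed by `Gal(ℚ̄/ℚ)` is rational -/
theorem mem_range_of_fixed (x : Kb) (h : ∀ σ : Kb ≃ₐ[ℚ] Kb, σ x = x) :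
    x ∈ Set.range (algebraMap ℚ Kb) := by
  have hcl : IsAlgClosure ℚ Kb := by
    have e : (DivisionRing.toRatAlgebra : Algebra ℚ Kb) = AlgebraicClosure.instAlgebra ℚ :=
      Subsingleton.elim _ _
    rw [e]
    infer_instance
  have hgal : IsGalois ℚ Kb := inferInstance
  exact (InfiniteGalois.mem_range_algebraMap_iff_fixed (k := ℚ) (K := Kb) x).mpr h

section Level

variable {M : ℕ} [NeZero M]

/-- **`L(n ∞)` is stable under `Gal(ℚ̄/ℚ)`** -/
theorem inL_coeffMap (σ : Kb ≃ₐ[ℚ] Kb) {n : ℤ} {f : LaurentSeries Kb}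
    (hf : InL (FF M) n f) : InL (FF M) n (coeffMap (σ : Kb →+* Kb) f) := by
  obtain ⟨hfm, hreg, hpole⟩ := hf
  set g : FF M := arithmeticRingAut (modularFunctionFieldFull M) σ ⟨f, hfm⟩ with hg
  have hgc : (g : LaurentSeries Kb) = coeffMap (σ : Kb →+* Kb) f := by
    rw [hg, coe_arithmeticRingAut_apply]
  have hmem : coeffMap (σ : Kb →+* Kb) f ∈ FF M := by
    rw [← hgc]
    exact g.2
  have hge : (⟨coeffMap (σ : Kb →+* Kb) f, hmem⟩ : FF M) = g := Subtype.ext hgc.symm
  refine ⟨hmem, fun P hP => ?_, fun k hk => ?_⟩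
  · rw [hge, hg, hor_ord_smul]
    apply hreg
    intro hinf
    apply hP
    have h1 : (horAut M σ)⁻¹ • P = inftyBar M := IsInfty.unique (FF M) hinf (isInfty_inftyBar M)
    rw [(hor_smul_eq_infty_iff σ P).mp h1]
    exact isInfty_inftyBar M
  · rw [coeffMap_coeff, hpole k hk, map_zero]

variable (M) in
theorem inLSub_stable (n : ℤ) :
    ∀ σ ∈ galSet, ∀ v ∈ inLSub (FF M) n, coeffMap σ v ∈ inLSub (FF M) n := by
  rintro _ ⟨σ, rfl⟩ v hv
  exact inL_coeffMap σ hv

/-- **the Gauss norm is attained on `L(n ∞)`** -/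
theorem normAttained_of_inL {A : ValuationSubring Kb} (hA : PrimeToLevel M A) {n : ℤ}
    {f : LaurentSeries Kb} (hf : InL (FF M) n f) (hf0 : f ≠ 0) : NormAttained A f := by
  obtain ⟨c, hc, Y, hY, hYr⟩ := contentAttained_of_inL
    (Fermat.Agent.P2.helper81.scaleStatement M A hA)
    (Fermat.Agent.P2.helper81.integralityStatement M A hA) hf hf0
  -- a unit coefficient
  obtain ⟨k, hk⟩ : ∃ k : ℤ, IsLocalRing.residue A (Y.coeff k) ≠ 0 := by
    by_contra hcon
    push Not at hcon
    apply hYr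
    ext k
    rw [coeffMap_coeff, hcon k, HahnSeries.coeff_zero]
  have hu : IsUnit (Y.coeff k) := isUnit_of_residue_ne_zero A _ hk
  have hcoe : ∀ j : ℤ, ((Y.coeff j : A) : Kb) = c * f.coeff j := by
    intro j
    have := congrArg (fun x : LaurentSeries Kb => x.coeff j) hY
    simpa [HahnSeries.coeff_smul] using this
  have hYk0 : ((Y.coeff k : A) : Kb) ≠ 0 := by
    intro h0
    have : Y.coeff k = 0 := Subtype.ext h0
    rw [this] at hu
    exact not_isUnit_zero hu
  have hfk : f.coeff k ≠ 0 := by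
    intro h0
    apply hYk0
    rw [hcoe, h0, mul_zero]
  refine ⟨k, hfk, fun j => ?_⟩
  obtain ⟨u, hu'⟩ := hu
  have hinv : (((u⁻¹ : Aˣ) : A) : Kb) = ((Y.coeff k : A) : Kb)⁻¹ := by
    have h1 : (((u⁻¹ : Aˣ) : A) : Kb) * ((Y.coeff k : A) : Kb) = 1 := by
      rw [← hu']
      have : ((u⁻¹ : Aˣ) : A) * (u : A) = 1 := Units.inv_mul u
      exact_mod_cast congrArg (fun x : A => (x : Kb)) this
    exact eq_inv_of_mul_eq_one_left h1
  have e : f.coeff j * (f.coeff k)⁻¹ = ((Y.coeff j * ((u⁻¹ : Aˣ) : A) : A) : Kb) := by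
    push_cast
    rw [hinv, hcoe j, hcoe k]
    field_simp
  rw [e]
  exact (Y.coeff j * ((u⁻¹ : Aˣ) : A)).2

variable (M) in
/-- **[I4] RATBASIS** : `L(n ∞)` has an `A`-integral rational reduced echelon basis. -/
theorem exists_ratBasis (A : ValuationSubring Kb) (hA : PrimeToLevel M A) (n : ℤ) :
    ∃ (r : ℕ) (ψ : Fin r → LaurentSeries Kb) (m : Fin r → ℤ),
      EchelonData A galSet (inLSub (FF M) n) ψ m := by
  have : FiniteDimensional Kb (inLSub (FF M) n) :=
    finiteDimensional_inLSub (riemannSetting_FF M) (isInfty_inftyBar M) n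
  exact exists_echelon A galSet _ (inLSub (FF M) n) rfl (inLSub_stable M n)
    (fun v hv hv0 _ => normAttained_of_inL hA hv hv0)

end Level

/-! ### Consequences in the vocabulary of `L(n ∞)` -/

section Use

variable {M : ℕ} [NeZero M] {A : ValuationSubring Kb} {n : ℤ} {r : ℕ}
  {ψ : Fin r → LaurentSeries Kb} {m : Fin r → ℤ}

/-- the basis elements have rational coefficients -/
theorem coeff_mem_rat (hE : EchelonData A galSet (inLSub (FF M) n) ψ m) (i : Fin r) (k : ℤ) :
    (ψ i).coeff k ∈ Set.range (algebraMap ℚ Kb) := by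
  apply mem_range_of_fixed
  intro σ
  have := congrArg (fun x : LaurentSeries Kb => x.coeff k) (hE.fix i _ (mem_galSet σ))
  simpa using this

/-- the basis elements lie in `L(n ∞)` -/
theorem inL_basis (hE : EchelonData A galSet (inLSub (FF M) n) ψ m) (i : Fin r) :
    InL (FF M) n (ψ i) := hE.mem i

/-- the expansion of an element of `L(n ∞)` -/
theorem inL_expand (hE : EchelonData A galSet (inLSub (FF M) n) ψ m) {f : LaurentSeries Kb}
    (hf : InL (FF M) n f) : f = ∑ i, f.coeff (m i) • ψ i := hE.expand f hf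

/-- the coordinates of an `A`-integral function lie in `A` -/
theorem coord_mem (hE : EchelonData A galSet (inLSub (FF M) n) ψ m) (Y : LaurentSeries A)
    (i : Fin r) : (incl A Y).coeff (m i) ∈ A := by
  rw [coeffMap_coeff]
  exact (Y.coeff (m i)).2

/-- the coordinates are Galois-equivariant -/
theorem coord_gal (hE : EchelonData A galSet (inLSub (FF M) n) ψ m) (σ : Kb ≃ₐ[ℚ] Kb)
    (f : LaurentSeries Kb) (i : Fin r) :
    (coeffMap (σ : Kb →+* Kb) f).coeff (m i) = σ (f.coeff (m i)) := rfl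

/-- the number of basis elements is `dim L(n ∞)` -/
theorem card_eq_finrank (hE : EchelonData A galSet (inLSub (FF M) n) ψ m) :
    Module.finrank Kb (inLSub (FF M) n) = r := hE.finrank_eq

variable (M) in
/-- **[I4]** with the basis in `FF M` : `A`-integral, fixed by the arithmetic Galois action,
reduced echelon form, coordinates = coefficients at the pivots. -/
theorem exists_ratBasis_FF (A : ValuationSubring Kb) (hA : PrimeToLevel M A) (n : ℤ) :
    ∃ (r : ℕ) (ψ : Fin r → FF M) (Y : Fin r → LaurentSeries A) (m : Fin r → ℤ),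
      (∀ i, InL (FF M) n (ψ i : LaurentSeries Kb)) ∧
      (∀ i, incl A (Y i) = (ψ i : LaurentSeries Kb)) ∧
      (∀ i (σ : Kb ≃ₐ[ℚ] Kb), arithmeticRingAut (modularFunctionFieldFull M) σ (ψ i) = ψ i) ∧
      (∀ i k, ((ψ i : FF M) : LaurentSeries Kb).coeff k ∈ Set.range (algebraMap ℚ Kb)) ∧
      (∀ i j, (Y i).coeff (m j) = if i = j then 1 else 0) ∧
      LinearIndependent (kA A) (fun i => red A (Y i)) ∧
      (∀ f : FF M, InL (FF M) n (f : LaurentSeries Kb) →
        f = ∑ i, algebraMap Kb (FF M) ((f : LaurentSeries Kb).coeff (m i)) * ψ i) := by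
  obtain ⟨r, ψ, m, hE⟩ := exists_ratBasis M A hA n
  obtain ⟨Y, hY, hYp⟩ := hE.exists_lift
  have hmem : ∀ i, ψ i ∈ FF M := fun i => (hE.mem i).1
  refine ⟨r, fun i => ⟨ψ i, hmem i⟩, Y, m, fun i => hE.mem i, fun i => hY i, fun i σ => ?_,
    fun i k => coeff_mem_rat hE i k, hYp, hE.red_linearIndependent Y hY, fun f hf => ?_⟩
  · apply Subtype.ext
    rw [coe_arithmeticRingAut_apply]
    exact hE.fix i _ (mem_galSet σ)
  · apply Subtype.ext
    have h1 := hE.expand (f : LaurentSeries Kb) hf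
    have h2 : ((∑ i, algebraMap Kb (FF M) ((f : LaurentSeries Kb).coeff (m i)) *
        (⟨ψ i, hmem i⟩ : FF M) : FF M) : LaurentSeries Kb)
        = ∑ i, (f : LaurentSeries Kb).coeff (m i) • ψ i := by
      rw [← valLin_apply (FF M), map_sum]
      refine Finset.sum_congr rfl fun i _ => ?_
      rw [valLin_apply, ← Algebra.smul_def, ← valLin_apply (FF M), map_smul, valLin_apply]
    rw [h2]
    exact h1

end Use

end Fermat.Agent.T6.helper23

end
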