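/-
T6 [I3] MOVE, finite-field core (helper80).  Mathlib only.

The residue field `k` of a valuation ring of `ℚ̄` over `ℓ` is algebraic over `𝔽_ℓ`.  Hence for
finitely many values `x₁, …, x_m ∈ k` there is ONE `r ≥ 1` with `x_i ^ (ℓ ^ r) = x_i` for all `i`,
and the function `φ = 1 + ψ' * (ψ ^ (ℓ ^ r) - ψ)` takes the value `1` at every point where `ψ`
takes one of these values.  This replaces hyperplane avoidance over the finite field `𝔽_ℓ`.

* `exists_frob_pow_fix`        : one element;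
* `exists_frob_pow_fix_finset` : a finite set of elements, one exponent;
* `exists_move_eval_eq_one`    : a finite family of ring homomorphisms `ev t : B →+* k`;
* `exists_move_eval_eq_one'`   : the same with the exponent bounded below and two functions;
* `natDegree`-free degree bookkeeping: `move_degree_coprime`.
-/
import Mathlib

set_option autoImplicit false
set_option linter.style.haveILetI false

namespace Fermat.Agent.T6.helper80

section FrobFix

variable {k : Type*} [Field k] (ℓ : ℕ) [Fact ℓ.Prime] [Algebra (ZMod ℓ) k]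

/-- An element algebraic over `𝔽_ℓ` is fixed by a positive power of Frobenius. -/
theorem exists_frob_pow_fix {x : k} (hx : IsAlgebraic (ZMod ℓ) x) :
    ∃ r : ℕ, 0 < r ∧ x ^ (ℓ ^ r) = x := by
  classical
  have hint : IsIntegral (ZMod ℓ) x := hx.isIntegral
  let E : IntermediateField (ZMod ℓ) k := IntermediateField.adjoin (ZMod ℓ) {x}
  haveI : FiniteDimensional (ZMod ℓ) E := IntermediateField.adjoin.finiteDimensional hint
  haveI : Finite E := Module.finite_of_finite (ZMod ℓ)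
  haveI : Fintype E := Fintype.ofFinite E
  have hxE : x ∈ E := IntermediateField.mem_adjoin_simple_self (ZMod ℓ) x
  have hcard : Fintype.card E = ℓ ^ Module.finrank (ZMod ℓ) E := by
    have h := Module.card_eq_pow_finrank (K := ZMod ℓ) (V := E)
    rw [h, ZMod.card]
  have hpos : 0 < Module.finrank (ZMod ℓ) E := Module.finrank_pos
  refine ⟨Module.finrank (ZMod ℓ) E, hpos, ?_⟩
  have h := FiniteField.pow_card (⟨x, hxE⟩ : E)
  rw [hcard] at h
  exact congrArg (fun y : E => (y : k)) h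

omit [Fact ℓ.Prime] [Algebra (ZMod ℓ) k] in
/-- If `x ^ (ℓ ^ r) = x` then `x ^ (ℓ ^ (r * m)) = x`. -/
theorem frob_pow_fix_mul {x : k} {r : ℕ} (h : x ^ (ℓ ^ r) = x) (m : ℕ) (hm : 0 < m) :
    x ^ (ℓ ^ (r * m)) = x := by
  induction m with
  | zero => exact absurd hm (lt_irrefl 0)
  | succ m ih =>
    rcases Nat.eq_zero_or_pos m with h0 | hpos
    · subst h0
      simpa using h
    · have : ℓ ^ (r * (m + 1)) = ℓ ^ (r * m) * ℓ ^ r := by
        rw [← pow_add]; ring_nf
      rw [this, pow_mul, ih hpos, h]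

/-- Finitely many elements of a field algebraic over `𝔽_ℓ` are fixed by ONE positive power of
Frobenius. -/
theorem exists_frob_pow_fix_finset [Algebra.IsAlgebraic (ZMod ℓ) k] (S : Finset k) :
    ∃ r : ℕ, 0 < r ∧ ∀ x ∈ S, x ^ (ℓ ^ r) = x := by
  classical
  induction S using Finset.induction_on with
  | empty => exact ⟨1, one_pos, fun x hx => absurd hx (Finset.notMem_empty x)⟩
  | insert a S _ ih =>
    obtain ⟨r, hr, hS⟩ := ih
    obtain ⟨s, hs, ha⟩ := exists_frob_pow_fix ℓ (Algebra.IsAlgebraic.isAlgebraic (R := ZMod ℓ) a)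
    refine ⟨r * s, Nat.mul_pos hr hs, fun x hx => ?_⟩
    rcases Finset.mem_insert.mp hx with rfl | hx
    · rw [mul_comm]
      exact frob_pow_fix_mul ℓ ha r hr
    · exact frob_pow_fix_mul ℓ (hS x hx) s hs

/-- The exponent can be taken above any bound. -/
theorem exists_frob_pow_fix_finset_ge [Algebra.IsAlgebraic (ZMod ℓ) k] (S : Finset k) (N : ℕ) :
    ∃ r : ℕ, N ≤ r ∧ 0 < r ∧ ∀ x ∈ S, x ^ (ℓ ^ r) = x := by
  obtain ⟨r, hr, hS⟩ := exists_frob_pow_fix_finset ℓ S
  refine ⟨r * (N + 1), ?_, Nat.mul_pos hr (Nat.succ_pos N), fun x hx =>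
    frob_pow_fix_mul ℓ (hS x hx) (N + 1) (Nat.succ_pos N)⟩
  calc N ≤ N + 1 := Nat.le_succ N
    _ = 1 * (N + 1) := (one_mul _).symm
    _ ≤ r * (N + 1) := Nat.mul_le_mul_right _ hr

end FrobFix

section Move

variable {k : Type*} [Field k] (ℓ : ℕ) [Fact ℓ.Prime] [Algebra (ZMod ℓ) k]
  [Algebra.IsAlgebraic (ZMod ℓ) k]

/-- **MOVE, finite-field core.**  `B` is any commutative ring (the functions integral at the
points of `T`), `ev t : B →+* k` finitely many evaluations with values in a field algebraic over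
`𝔽_ℓ`.  For every `ψ` there is `r ≥ 1` (as large as we like) such that for EVERY `ψ'` the
function `1 + ψ' * (ψ ^ (ℓ ^ r) - ψ)` takes the value `1` at all points of `T`. -/
theorem exists_move_eval_eq_one {B : Type*} [CommRing B] {T : Type*} [Finite T]
    (ev : T → B →+* k) (ψ : B) (N : ℕ) :
    ∃ r : ℕ, N ≤ r ∧ 0 < r ∧ ∀ (ψ' : B) (t : T), ev t (1 + ψ' * (ψ ^ (ℓ ^ r) - ψ)) = 1 := by
  classical
  haveI := Fintype.ofFinite T
  obtain ⟨r, hN, hr, h⟩ :=
    exists_frob_pow_fix_finset_ge ℓ ((Finset.univ : Finset T).image fun t => ev t ψ) N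
  refine ⟨r, hN, hr, fun ψ' t => ?_⟩
  have ht : ev t ψ ^ (ℓ ^ r) = ev t ψ :=
    h _ (Finset.mem_image.mpr ⟨t, Finset.mem_univ t, rfl⟩)
  rw [map_add, map_one, map_mul, map_sub, map_pow, ht, sub_self, mul_zero, add_zero]

/-- The same for values that are only known to be congruent: in a local setting with a subring
`A` of integers, residue map `res : A →+* k`, and points given by ring homomorphisms
`val t : B →+* A`, the value of `1 + ψ' * (ψ ^ (ℓ ^ r) - ψ)` at every point is a unit of `A`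
(it reduces to `1`). -/
theorem exists_move_isUnit {A : Type*} [CommRing A] [IsLocalRing A] (res : A →+* k)
    [IsLocalHom res] {B : Type*} [CommRing B] {T : Type*} [Finite T]
    (val : T → B →+* A) (ψ : B) (N : ℕ) :
    ∃ r : ℕ, N ≤ r ∧ 0 < r ∧ ∀ (ψ' : B) (t : T),
      res (val t (1 + ψ' * (ψ ^ (ℓ ^ r) - ψ))) = 1 ∧
        IsUnit (val t (1 + ψ' * (ψ ^ (ℓ ^ r) - ψ))) := by
  obtain ⟨r, hN, hr, h⟩ := exists_move_eval_eq_one ℓ (fun t => res.comp (val t)) ψ N
  refine ⟨r, hN, hr, fun ψ' t => ?_⟩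
  have h1 : res (val t (1 + ψ' * (ψ ^ (ℓ ^ r) - ψ))) = 1 := h ψ' t
  refine ⟨h1, ?_⟩
  apply isUnit_of_map_unit res
  rw [h1]
  exact isUnit_one

end Move

section Degree

/-- Degree bookkeeping: `d = ℓ ^ r * a + b` is prime to `ℓ` as soon as `ℓ ∤ b` and `r ≥ 1`. -/
theorem move_degree_coprime (ℓ : ℕ) [Fact ℓ.Prime] {r : ℕ} (hr : 0 < r) (a : ℕ) {b : ℕ}
    (hb : ¬ ℓ ∣ b) : ¬ ℓ ∣ ℓ ^ r * a + b := by
  intro h
  apply hb
  have h1 : ℓ ∣ ℓ ^ r * a := Dvd.dvd.mul_right (dvd_pow_self ℓ hr.ne') a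
  exact (Nat.dvd_add_right h1).mp h

/-- The same with integers (orders at a place): if `ord ψ = -a`, `ord ψ' = -b` with `a ≥ 1` then
`ℓ ^ r * a + b` is the pole order of `ψ' * ψ ^ (ℓ ^ r)`. -/
theorem move_degree_coprime_int (ℓ : ℕ) [Fact ℓ.Prime] {r : ℕ} (hr : 0 < r) (a : ℤ) {b : ℤ}
    (hb : ¬ (ℓ : ℤ) ∣ b) : ¬ (ℓ : ℤ) ∣ (ℓ : ℤ) ^ r * a + b := by
  intro h
  apply hb
  have h1 : (ℓ : ℤ) ∣ (ℓ : ℤ) ^ r * a := Dvd.dvd.mul_right (dvd_pow_self (ℓ : ℤ) hr.ne') a
  exact (dvd_add_right h1).mp h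

end Degree

end Fermat.Agent.T6.helper80
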