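/-
T6 [I3-a] MOVE, geometric instance (helper80).

Setting: `S : S37.helper16.RedSetting M A`, `A` a valuation ring of `ℚ̄` over `ℓ ∤ M`.

* `residue_frob_fix`    : every element `x` of the residue field of `A` satisfies
                          `x ^ (ℓ ^ r) = x` for some `r ≥ 1`;
* `exists_unitLead`     : for every `b ≥ S.n₀` there is a `Gal(ℚ̄/ℚ)`-fixed `A`-integral
                          function in `L(b ∞)` whose reduction has pole order EXACTLY `b`
                          (unit leading coefficient);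
* `exists_phiE`         : **[I3-a]** for every finite set `T` of places of the special fibre
                          there is a `Gal(ℚ̄/ℚ)`-fixed `A`-integral `φ ∈ L(d ∞)`, `ℓ ∤ d`,
                          `ord_∞ φ = -d`, such that NO zero of `φ` reduces into `T ∪ {∞̄}`.
-/
import Mathlib
import Fermat.Agent.S37.helper16_EffRed
import Fermat.Agent.T6.helper23_RatBasis
import Fermat.Agent.T6.helper26_PVal
import Fermat.Agent.T6.helper80_MoveFin

set_option autoImplicit false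
set_option synthInstance.maxHeartbeats 400000
set_option linter.style.haveILetI false
set_option linter.unusedSectionVars false
set_option linter.unusedVariables false
set_option linter.style.longLine false

noncomputable section

open HahnSeries IntermediateField AlgebraicCurve ModularCurve
open Fermat.Agent.S18.helper19 Fermat.Agent.P2.helper29 Fermat.Agent.P2.helper22
open Fermat.Agent.S24
open Fermat.Agent.S37.helper16

namespace Fermat.Agent.T6.helper80

/-! ### The residue field is algebraic over `𝔽_ℓ` -/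

section Residue

variable (A : ValuationSubring Kb) {ℓ : ℕ}

/-- every element of `A` is a root of a polynomial over `ℤ` which is nonzero mod `ℓ` -/
theorem exists_prim_poly (hℓ : ℓ.Prime) (a : A) :
    ∃ p : Polynomial ℤ, p.map (Int.castRingHom (ZMod ℓ)) ≠ 0 ∧
      Polynomial.eval₂ (Int.castRingHom A) a p = 0 := by
  have halg : IsAlgebraic ℤ (a : Kb) :=
    (IsFractionRing.isAlgebraic_iff ℤ ℚ Kb).mpr
      ((AlgebraicClosure.isAlgebraic ℚ).isAlgebraic (a : Kb))
  obtain ⟨p, hp0, hp⟩ := halg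
  refine ⟨p.primPart, ?_, ?_⟩
  · intro h0
    have hdvd : Polynomial.C (ℓ : ℤ) ∣ p.primPart := by
      rw [Polynomial.C_dvd_iff_dvd_coeff]
      intro n
      have h1 := congrArg (fun q : Polynomial (ZMod ℓ) => q.coeff n) h0
      simp only [Polynomial.coeff_map, Polynomial.coeff_zero] at h1
      have h2 : ((p.primPart.coeff n : ℤ) : ZMod ℓ) = 0 := h1
      exact (ZMod.intCast_zmod_eq_zero_iff_dvd _ ℓ).mp h2
    have hu := (Polynomial.isPrimitive_primPart p) (ℓ : ℤ) hdvd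
    rw [Int.isUnit_iff] at hu
    rcases hu with h | h
    · have : ℓ = 1 := by exact_mod_cast h
      exact hℓ.one_lt.ne' this
    · have h3 : (0 : ℤ) ≤ (ℓ : ℤ) := Int.natCast_nonneg ℓ
      omega
  · have hc : (p.content : Kb) ≠ 0 := by
      have := (Polynomial.content_eq_zero_iff (p := p)).not.mpr hp0
      exact_mod_cast this
    have h1 : Polynomial.aeval (a : Kb) p
        = (p.content : Kb) * Polynomial.aeval (a : Kb) p.primPart := by
      conv_lhs => rw [p.eq_C_content_mul_primPart]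
      rw [map_mul, Polynomial.aeval_C]
      simp
    rw [hp] at h1
    have h2 : Polynomial.aeval (a : Kb) p.primPart = 0 := by
      rcases mul_eq_zero.mp h1.symm with h | h
      · exact absurd h hc
      · exact h
    have h3 : A.subtype.comp (Int.castRingHom A) = algebraMap ℤ Kb := RingHom.ext_int _ _
    have h4 : A.subtype (Polynomial.eval₂ (Int.castRingHom A) a p.primPart) = 0 := by
      rw [Polynomial.hom_eval₂, h3]
      exact h2
    exact Subtype.ext h4

/-- every element of the residue field of `A` is fixed by a positive power of the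
`ℓ`-Frobenius -/
theorem residue_frob_fix (hℓ : ℓ.Prime) (hA : A.LiesOverPrime ℓ) (x : kA A) :
    ∃ r : ℕ, 0 < r ∧ x ^ (ℓ ^ r) = x := by
  haveI : Fact ℓ.Prime := ⟨hℓ⟩
  haveI : CharP (kA A) ℓ := Fermat.Agent.P2.helper93.charP_residueField hℓ hA
  letI : Algebra (ZMod ℓ) (kA A) := ZMod.algebra (kA A) ℓ
  obtain ⟨a, rfl⟩ := IsLocalRing.residue_surjective x
  obtain ⟨p, hp0, hp⟩ := exists_prim_poly A hℓ a
  refine exists_frob_pow_fix ℓ ⟨p.map (Int.castRingHom (ZMod ℓ)), hp0, ?_⟩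
  rw [Polynomial.aeval_def, Polynomial.eval₂_map]
  have h1 : (algebraMap (ZMod ℓ) (kA A)).comp (Int.castRingHom (ZMod ℓ))
      = (IsLocalRing.residue A).comp (Int.castRingHom A) := RingHom.ext_int _ _
  rw [h1, ← Polynomial.hom_eval₂, hp, map_zero]

/-- finitely many elements of the residue field are fixed by ONE positive power of Frobenius,
as large as we like -/
theorem residue_frob_fix_finset (hℓ : ℓ.Prime) (hA : A.LiesOverPrime ℓ) (X : Finset (kA A))
    (N : ℕ) : ∃ r : ℕ, N ≤ r ∧ 0 < r ∧ ∀ x ∈ X, x ^ (ℓ ^ r) = x := by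
  classical
  haveI : Fact ℓ.Prime := ⟨hℓ⟩
  induction X using Finset.induction_on with
  | empty => exact ⟨N + 1, Nat.le_succ N, Nat.succ_pos N, fun x hx => absurd hx (Finset.notMem_empty x)⟩
  | insert a X _ ih =>
    obtain ⟨r, hN, hr, hX⟩ := ih
    obtain ⟨s, hs, ha⟩ := residue_frob_fix A hℓ hA a
    refine ⟨r * s, ?_, Nat.mul_pos hr hs, fun x hx => ?_⟩
    · calc N ≤ r := hN
        _ = r * 1 := (mul_one r).symm
        _ ≤ r * s := Nat.mul_le_mul_left r hs
    · rcases Finset.mem_insert.mp hx with rfl | hx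
      · rw [mul_comm]
        exact frob_pow_fix_mul ℓ ha r hr
      · exact frob_pow_fix_mul ℓ (hX x hx) s hs

end Residue

/-! ### Rational integral functions with unit leading coefficient -/

section Lead

variable {M : ℕ} [NeZero M] {A : ValuationSubring Kb}

/-- shortcut instance (slow to find by synthesis) -/
local instance algebraFFbMv : Algebra (kA A) (FFb A M) := SubalgebraClass.toAlgebra (FFb A M)

/-- `Y` is a `Gal(ℚ̄/ℚ)`-fixed integral function in `L(b ∞)` whose reduction has pole order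
exactly `b` at infinity (unit leading coefficient). -/
structure IsUnitLead (M : ℕ) [NeZero M] (b : ℤ) (Y : LaurentSeries A) : Prop where
  inL : InL (FF M) b (incl A Y)
  fix : ∀ σ : Kb ≃ₐ[ℚ] Kb, coeffMap (σ : Kb →+* Kb) (incl A Y) = incl A Y
  coeff_ne : (red A Y).coeff (-b) ≠ 0

variable (S : RedSetting M A)

theorem IsUnitLead.red_ne_zero {b : ℤ} {Y : LaurentSeries A} (h : IsUnitLead M b Y) :
    red A Y ≠ 0 := by
  intro h0
  apply h.coeff_ne
  rw [h0, HahnSeries.coeff_zero]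

theorem IsUnitLead.incl_coeff_ne {b : ℤ} {Y : LaurentSeries A} (h : IsUnitLead M b Y) :
    (incl A Y).coeff (-b) ≠ 0 := by
  intro h0
  apply h.coeff_ne
  have h1 : ((Y.coeff (-b) : A) : Kb) = 0 := h0
  have h2 : Y.coeff (-b) = 0 := Subtype.ext h1
  show IsLocalRing.residue A (Y.coeff (-b)) = 0
  rw [h2, map_zero]

theorem IsUnitLead.incl_ne_zero {b : ℤ} {Y : LaurentSeries A} (h : IsUnitLead M b Y) :
    incl A Y ≠ 0 := by
  intro h0
  apply h.incl_coeff_ne
  rw [h0, HahnSeries.coeff_zero]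

include S in
theorem IsUnitLead.red_inL {b : ℤ} {Y : LaurentSeries A} (h : IsUnitLead M b Y) :
    InL (FFb A M) b (red A Y) := S.hReg b Y h.inL

include S in
theorem IsUnitLead.red_order {b : ℤ} {Y : LaurentSeries A} (h : IsUnitLead M b Y) :
    (red A Y).order = -b := by
  apply le_antisymm
  · exact HahnSeries.order_le_of_coeff_ne_zero h.coeff_ne
  · exact (forall_coeff_eq_zero_iff h.red_ne_zero b).1 (h.red_inL S).2.2

theorem IsUnitLead.incl_order {b : ℤ} {Y : LaurentSeries A} (h : IsUnitLead M b Y) :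
    (incl A Y).order = -b := by
  apply le_antisymm
  · exact HahnSeries.order_le_of_coeff_ne_zero h.incl_coeff_ne
  · exact (forall_coeff_eq_zero_iff h.incl_ne_zero b).1 h.inL.2.2

/-- **unit leading coefficients**: for every `b ≥ n₀` there is a rational integral function in
`L(b ∞)` whose reduction has pole order exactly `b`. -/
theorem exists_unitLead (hPL : PrimeToLevel M A) {b : ℤ} (hb : S.n₀ ≤ b) :
    ∃ Y : LaurentSeries A, IsUnitLead M b Y := by
  classical
  obtain ⟨r, ψ, m, hE⟩ := Fermat.Agent.T6.helper23.exists_ratBasis M A hPL b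
  obtain ⟨Y, hY, -⟩ := hE.exists_lift
  by_contra hcon
  have hall : ∀ i, (red A (Y i)).coeff (-b) = 0 := by
    intro i
    by_contra hi
    apply hcon
    refine ⟨Y i, ?_, ?_, hi⟩
    · have := hE.mem i
      rw [← hY i] at this
      exact this
    · intro σ
      have h1 := hE.fix i _ (Fermat.Agent.T6.helper23.mem_galSet σ)
      rw [← hY i] at h1
      exact h1
  -- a function on the special fibre with exact pole order `b`
  have hdeg : S.cb + 1 ≤ Divisor.degree (Finsupp.single S.Qinf b : Divisor (kA A) (FFb A M)) := by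
    rw [degree_single_of S.hSb]
    have := S.cb_lt_n₀
    omega
  obtain ⟨f, hf0, hfL, hford⟩ :=
    Fermat.Agent.P2.helper74.exists_mem_L_ord_eq S.hSb S.hcb hdeg S.Qinf
  rw [Finsupp.single_eq_same] at hford
  rw [← S.redSub_single hb, mem_redSub] at hfL
  obtain ⟨Z, ⟨g, hgL, hgZ⟩, hZ⟩ := hfL
  have hInL : InL (FF M) b (incl A Z) := by
    rw [← hgZ]
    exact inL_of_mem_L S.hPinf (fun v => le_rfl) hgL
  have hexp := hE.expand (incl A Z) hInL
  have hco := congrArg (fun x : LaurentSeries Kb => x.coeff (-b)) hexp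
  simp only [HahnSeries.coeff_sum, HahnSeries.coeff_smul, smul_eq_mul] at hco
  -- the same identity in `A`
  have hcoA : Z.coeff (-b) = ∑ i, Z.coeff (m i) * (Y i).coeff (-b) := by
    apply Subtype.ext
    rw [AddSubmonoidClass.coe_finsetSum]
    have h1 : ((Z.coeff (-b) : A) : Kb) = (incl A Z).coeff (-b) := rfl
    rw [h1, hco]
    refine Finset.sum_congr rfl fun i _ => ?_
    rw [← hY i]
    rfl
  have hres : (red A Z).coeff (-b) = 0 := by
    show IsLocalRing.residue A (Z.coeff (-b)) = 0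
    rw [hcoA, map_sum]
    refine Finset.sum_eq_zero fun i _ => ?_
    rw [map_mul]
    have := hall i
    have h2 : IsLocalRing.residue A ((Y i).coeff (-b)) = 0 := this
    rw [h2, mul_zero]
  -- contradiction with the exact order of `f`
  have hfo : (f : LaurentSeries (kA A)).order = -b := by
    rw [← S.hQinf f hf0]
    exact hford
  have hf0' : (f : LaurentSeries (kA A)) ≠ 0 := fun h => hf0 (Subtype.ext h)
  have h9 : (f : LaurentSeries (kA A)).coeff (f : LaurentSeries (kA A)).order ≠ 0 :=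
    fun h => hf0' (HahnSeries.coeff_order_eq_zero.mp h)
  rw [hfo, ← hZ] at h9
  exact h9 hres

end Lead

/-! ### A lemma on `Finsupp.mapDomain` -/

section MapDomain

variable {α β : Type*}

/-- if `D ≥ 0` on the fibre of `f` over `q` and `(mapDomain f D) q = 0`, then `D = 0` on the
fibre -/
theorem eq_zero_of_mapDomain_eq_zero (f : α → β) (D : α →₀ ℤ) (q : β)
    (hD : ∀ p, f p = q → 0 ≤ D p) (h : Finsupp.mapDomain f D q = 0) :
    ∀ p, f p = q → D p = 0 := by
  classical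
  intro p hp
  have h1 : Finsupp.mapDomain f D q = ∑ a ∈ D.support, if f a = q then D a else 0 := by
    rw [Finsupp.mapDomain, Finsupp.sum, Finsupp.finsetSum_apply]
    refine Finset.sum_congr rfl fun a _ => ?_
    rw [Finsupp.single_apply]
  rw [h1] at h
  by_cases hps : p ∈ D.support
  · have h2 := (Finset.sum_eq_zero_iff_of_nonneg (fun a _ => by
      split_ifs with ha
      · exact hD a ha
      · exact le_rfl)).mp h p hps
    rwa [if_pos hp] at h2
  · exact Finsupp.notMem_support_iff.mp hps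

end MapDomain

/-! ### The function `φ_E` -/

section Phi

variable {M : ℕ} [NeZero M] {A : ValuationSubring Kb}

/-- shortcut instance (slow to find by synthesis) -/
local instance algebraFFbMv' : Algebra (kA A) (FFb A M) := SubalgebraClass.toAlgebra (FFb A M)

variable (S : RedSetting M A)

/-- the series `1 + Y₁ (Y₂ ^ N - Y₂)` -/
def moveSer (Y₁ Y₂ : LaurentSeries A) (N : ℕ) : LaurentSeries A := 1 + Y₁ * (Y₂ ^ N - Y₂)

theorem incl_moveSer (Y₁ Y₂ : LaurentSeries A) (N : ℕ) :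
    incl A (moveSer Y₁ Y₂ N) = 1 + incl A Y₁ * (incl A Y₂ ^ N - incl A Y₂) := by
  unfold moveSer
  rw [map_add, map_one, map_mul, map_sub, map_pow]

theorem red_moveSer (Y₁ Y₂ : LaurentSeries A) (N : ℕ) :
    red A (moveSer Y₁ Y₂ N) = 1 + red A Y₁ * (red A Y₂ ^ N - red A Y₂) := by
  unfold moveSer
  rw [map_add, map_one, map_mul, map_sub, map_pow]

theorem inL_moveSer {a b : ℤ} {Y₁ Y₂ : LaurentSeries A} (h₁ : IsUnitLead M b Y₁)
    (h₂ : IsUnitLead M a Y₂) (ha : 0 ≤ a) (hb : 0 ≤ b) {N : ℕ} (hN : 1 ≤ N) :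
    InL (FF M) (N * a + b) (incl A (moveSer Y₁ Y₂ N)) := by
  rw [incl_moveSer]
  have hNa : a ≤ N * a := by
    have : (1 : ℤ) ≤ N := by exact_mod_cast hN
    nlinarith
  have hd : 0 ≤ (N : ℤ) * a + b := by
    have : (0 : ℤ) ≤ N := Int.natCast_nonneg N
    positivity
  have h1 : InL (FF M) ((N : ℤ) * a + b) (1 : LaurentSeries Kb) := (inL_one (E := FF M)).mono hd
  have h2 : InL (FF M) ((N : ℤ) * a) (incl A Y₂ ^ N - incl A Y₂) :=
    (h₂.inL.pow N).sub (h₂.inL.mono hNa)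
  have h3 := h₁.inL.mul h2
  rw [add_comm b] at h3
  exact h1.add h3

theorem fix_moveSer {a b : ℤ} {Y₁ Y₂ : LaurentSeries A} (h₁ : IsUnitLead M b Y₁)
    (h₂ : IsUnitLead M a Y₂) (N : ℕ) (σ : Kb ≃ₐ[ℚ] Kb) :
    coeffMap (σ : Kb →+* Kb) (incl A (moveSer Y₁ Y₂ N)) = incl A (moveSer Y₁ Y₂ N) := by
  rw [incl_moveSer, map_add, map_one, map_mul, map_sub, map_pow, h₁.fix σ, h₂.fix σ]

include S in
/-- the leading coefficient of the reduction of `1 + Y₁ (Y₂ ^ N - Y₂)` -/
theorem coeff_red_moveSer {a b : ℤ} {Y₁ Y₂ : LaurentSeries A} (h₁ : IsUnitLead M b Y₁)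
    (h₂ : IsUnitLead M a Y₂) (ha : 1 ≤ a) (hb : 0 ≤ b) {N : ℕ} (hN : 2 ≤ N) :
    (red A (moveSer Y₁ Y₂ N)).coeff (-(N * a + b)) ≠ 0 := by
  rw [red_moveSer]
  have hY1 := h₁.red_ne_zero
  have hY2 := h₂.red_ne_zero
  have ho1 := h₁.red_order S
  have ho2 := h₂.red_order S
  have hN' : (2 : ℤ) ≤ N := by exact_mod_cast hN
  have hNa : a < N * a := by nlinarith
  -- the three terms
  have e : (1 : LaurentSeries (kA A)) + red A Y₁ * (red A Y₂ ^ N - red A Y₂)
      = 1 + red A Y₁ * red A Y₂ ^ N - red A Y₁ * red A Y₂ := by ring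
  rw [e, HahnSeries.coeff_sub, HahnSeries.coeff_add]
  have hc1 : (1 : LaurentSeries (kA A)).coeff (-(N * a + b)) = 0 := by
    rw [HahnSeries.coeff_one, if_neg]
    intro h0
    nlinarith
  have hc3 : (red A Y₁ * red A Y₂).coeff (-(N * a + b)) = 0 := by
    apply HahnSeries.coeff_eq_zero_of_lt_order
    rw [order_mul_field hY1 hY2, ho1, ho2]
    omega
  have hc2 : (red A Y₁ * red A Y₂ ^ N).coeff (-(N * a + b)) ≠ 0 := by
    have hne : red A Y₁ * red A Y₂ ^ N ≠ 0 := mul_ne_zero hY1 (pow_ne_zero N hY2)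
    have ho : (red A Y₁ * red A Y₂ ^ N).order = -(N * a + b) := by
      rw [order_mul_field hY1 (pow_ne_zero N hY2),
        Fermat.Agent.P2.helper74.order_pow_field _ hY2, ho1, ho2]
      ring
    rw [← ho]
    exact fun h => hne (HahnSeries.coeff_order_eq_zero.mp h)
  rw [hc1, hc3, zero_add, sub_zero]
  exact hc2

include S in
/-- `1 + Y₁ (Y₂ ^ N - Y₂)` has a unit leading coefficient of order `-(N a + b)` -/
theorem isUnitLead_moveSer {a b : ℤ} {Y₁ Y₂ : LaurentSeries A} (h₁ : IsUnitLead M b Y₁)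
    (h₂ : IsUnitLead M a Y₂) (ha : 1 ≤ a) (hb : 0 ≤ b) {N : ℕ} (hN : 2 ≤ N) :
    IsUnitLead M (N * a + b) (moveSer Y₁ Y₂ N) :=
  ⟨inL_moveSer h₁ h₂ (by omega) hb (by omega), fun σ => fix_moveSer h₁ h₂ N σ,
    coeff_red_moveSer S h₁ h₂ ha hb hN⟩

/-! ### Values on the special fibre -/

include S in
/-- the reduction of a function regular off infinity is regular off infinity -/
theorem IsUnitLead.ord_red_nonneg {b : ℤ} {Y : LaurentSeries A} (h : IsUnitLead M b Y)
    (Q : Place (kA A) (FFb A M)) (hQ : Q ≠ S.Qinf) :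
    0 ≤ Q.ord (⟨red A Y, (h.red_inL S).1⟩ : FFb A M) :=
  (h.red_inL S).2.1 Q (fun hI => hQ ((isInfty_iff_eq S.hQinf Q).mp hI))

/-- a function regular off infinity is regular off infinity -/
theorem IsUnitLead.ord_incl_nonneg {b : ℤ} {Y : LaurentSeries A} (h : IsUnitLead M b Y)
    (P : Place Kb (FF M)) (hP : P ≠ S.Pinf) :
    0 ≤ P.ord (⟨incl A Y, h.inL.1⟩ : FF M) :=
  h.inL.2.1 P (fun hI => hP ((isInfty_iff_eq S.hPinf P).mp hI))

include S in
theorem IsUnitLead.ord_Qinf {b : ℤ} {Y : LaurentSeries A} (h : IsUnitLead M b Y) :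
    S.Qinf.ord (⟨red A Y, (h.red_inL S).1⟩ : FFb A M) = -b := by
  rw [S.hQinf _ (fun h0 => h.red_ne_zero (congrArg Subtype.val h0))]
  exact h.red_order S

theorem IsUnitLead.ord_Pinf {b : ℤ} {Y : LaurentSeries A} (h : IsUnitLead M b Y) :
    S.Pinf.ord (⟨incl A Y, h.inL.1⟩ : FF M) = -b := by
  rw [S.hPinf _ (fun h0 => h.incl_ne_zero (congrArg Subtype.val h0))]
  exact h.incl_order

include S in
/-- **the value `1`**: at a place `Q ≠ ∞̄` where the value `x` of `Ȳ₂` satisfies `x ^ N = x`, the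
reduction of `1 + Y₁ (Y₂ ^ N - Y₂)` takes the value `1`. -/
theorem pval_red_moveSer {a b : ℤ} {Y₁ Y₂ : LaurentSeries A} (h₁ : IsUnitLead M b Y₁)
    (h₂ : IsUnitLead M a Y₂) (ha : 1 ≤ a) (hb : 0 ≤ b) {N : ℕ} (hN : 2 ≤ N)
    (Q : Place (kA A) (FFb A M)) (hQ : Q ≠ S.Qinf)
    (hfix : Fermat.Agent.T6.helper26.pval Q (⟨red A Y₂, (h₂.red_inL S).1⟩ : FFb A M) ^ N
      = Fermat.Agent.T6.helper26.pval Q (⟨red A Y₂, (h₂.red_inL S).1⟩ : FFb A M)) :
    Fermat.Agent.T6.helper26.pval Q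
      (⟨red A (moveSer Y₁ Y₂ N), ((isUnitLead_moveSer S h₁ h₂ ha hb hN).red_inL S).1⟩ : FFb A M)
      = 1 := by
  set y₁ : FFb A M := ⟨red A Y₁, (h₁.red_inL S).1⟩ with hy₁
  set y₂ : FFb A M := ⟨red A Y₂, (h₂.red_inL S).1⟩ with hy₂
  have e : (⟨red A (moveSer Y₁ Y₂ N),
      ((isUnitLead_moveSer S h₁ h₂ ha hb hN).red_inL S).1⟩ : FFb A M)
      = 1 + y₁ * (y₂ ^ N - y₂) := by
    apply Subtype.ext
    show red A (moveSer Y₁ Y₂ N) = _
    rw [red_moveSer]
    rfl
  rw [e]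
  have hS := S.hSb
  have o1 : 0 ≤ Q.ord y₁ := h₁.ord_red_nonneg S Q hQ
  have o2 : 0 ≤ Q.ord y₂ := h₂.ord_red_nonneg S Q hQ
  have o2N : 0 ≤ Q.ord (y₂ ^ N) := by
    have := Q.ord_zpow y₂ N
    rw [zpow_natCast] at this
    rw [this]
    positivity
  have o3 : 0 ≤ Q.ord (y₂ ^ N - y₂) := by
    rw [sub_eq_add_neg]
    exact Fermat.Agent.T6.helper26.ord_add_nonneg Q o2N
      (by rw [Fermat.Agent.T6.helper26.ord_neg_eq]; exact o2)
  have o4 : 0 ≤ Q.ord (y₁ * (y₂ ^ N - y₂)) := Fermat.Agent.T6.helper26.ord_mul_nonneg Q o1 o3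
  have o0 : 0 ≤ Q.ord (1 : FFb A M) := by rw [Place.ord_one]
  rw [Fermat.Agent.T6.helper26.pval_add hS o0 o4, Fermat.Agent.T6.helper26.pval_one,
    Fermat.Agent.T6.helper26.pval_mul hS o1 o3, Fermat.Agent.T6.helper26.pval_sub hS o2N o2,
    Fermat.Agent.T6.helper26.pval_pow hS o2, hfix, sub_self, mul_zero, add_zero]

include S in
/-- at such a place the reduction has order `0` -/
theorem ord_red_moveSer {a b : ℤ} {Y₁ Y₂ : LaurentSeries A} (h₁ : IsUnitLead M b Y₁)
    (h₂ : IsUnitLead M a Y₂) (ha : 1 ≤ a) (hb : 0 ≤ b) {N : ℕ} (hN : 2 ≤ N)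
    (Q : Place (kA A) (FFb A M)) (hQ : Q ≠ S.Qinf)
    (hfix : Fermat.Agent.T6.helper26.pval Q (⟨red A Y₂, (h₂.red_inL S).1⟩ : FFb A M) ^ N
      = Fermat.Agent.T6.helper26.pval Q (⟨red A Y₂, (h₂.red_inL S).1⟩ : FFb A M)) :
    Q.ord (⟨red A (moveSer Y₁ Y₂ N),
      ((isUnitLead_moveSer S h₁ h₂ ha hb hN).red_inL S).1⟩ : FFb A M) = 0 := by
  have hU := isUnitLead_moveSer S h₁ h₂ ha hb hN
  have h1 := pval_red_moveSer S h₁ h₂ ha hb hN Q hQ hfix
  have h0 := hU.ord_red_nonneg S Q hQ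
  have hne : (⟨red A (moveSer Y₁ Y₂ N), (hU.red_inL S).1⟩ : FFb A M) ≠ 0 :=
    fun h => hU.red_ne_zero (congrArg Subtype.val h)
  by_contra hcon
  have hpos : 0 < Q.ord (⟨red A (moveSer Y₁ Y₂ N), (hU.red_inL S).1⟩ : FFb A M) :=
    lt_of_le_of_ne h0 (Ne.symm hcon)
  have := (Fermat.Agent.T6.helper26.pval_eq_zero_iff S.hSb hne h0).mpr hpos
  rw [h1] at this
  exact one_ne_zero this

/-! ### Rouché: where the zeros reduce -/

/-- **no zero reduces to a place where the reduction is a unit** -/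
theorem IsUnitLead.ord_eq_zero_of_ord_red {b : ℤ} {Y : LaurentSeries A} (h : IsUnitLead M b Y)
    (Q : Place (kA A) (FFb A M)) (hQ : Q ≠ S.Qinf)
    (h0 : Q.ord (⟨red A Y, (h.red_inL S).1⟩ : FFb A M) = 0)
    (P : Place Kb (FF M)) (hr : S.rP P = Q) :
    P.ord (⟨incl A Y, h.inL.1⟩ : FF M) = 0 := by
  classical
  have hS := riemannSetting_FF M
  set φ : FF M := ⟨incl A Y, h.inL.1⟩ with hφ
  have hD : ∀ P', (Fermat.Agent.T6.helper26.divOf Kb φ) P' = P'.ord φ :=
    fun P' => Fermat.Agent.T6.helper26.divOf_apply hS φ P'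
  have hR := S.rouche h.inL (h.red_inL S).1 h.red_ne_zero _ hD Q
  rw [h0] at hR
  have key := eq_zero_of_mapDomain_eq_zero S.rP (Fermat.Agent.T6.helper26.divOf Kb φ) Q
    (fun p hp => by
      rw [hD]
      refine h.ord_incl_nonneg S p (fun hp' => hQ ?_)
      rw [← hp, hp', S.rP_Pinf]) hR P hr
  rw [hD] at key
  exact key

/-- **no zero reduces to `∞̄`** -/
theorem IsUnitLead.ord_eq_zero_of_rP_eq_Qinf {b : ℤ} {Y : LaurentSeries A}
    (h : IsUnitLead M b Y) (P : Place Kb (FF M)) (hP : P ≠ S.Pinf) (hr : S.rP P = S.Qinf) :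
    P.ord (⟨incl A Y, h.inL.1⟩ : FF M) = 0 := by
  classical
  have hS := riemannSetting_FF M
  set φ : FF M := ⟨incl A Y, h.inL.1⟩ with hφ
  have hD : ∀ P', (Fermat.Agent.T6.helper26.divOf Kb φ) P' = P'.ord φ :=
    fun P' => Fermat.Agent.T6.helper26.divOf_apply hS φ P'
  have hR := S.rouche h.inL (h.red_inL S).1 h.red_ne_zero _ hD S.Qinf
  rw [h.ord_Qinf S] at hR
  set D' : Divisor Kb (FF M) := Fermat.Agent.T6.helper26.divOf Kb φ + Finsupp.single S.Pinf b
    with hD'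
  have hR' : Finsupp.mapDomain S.rP D' S.Qinf = 0 := by
    rw [hD', Finsupp.mapDomain_add, Finsupp.add_apply, hR, Finsupp.mapDomain_single, S.rP_Pinf,
      Finsupp.single_eq_same]
    ring
  have key := eq_zero_of_mapDomain_eq_zero S.rP D' S.Qinf
    (fun p _ => by
      rw [hD', Finsupp.add_apply, hD]
      by_cases hp : p = S.Pinf
      · subst hp
        rw [Finsupp.single_eq_same, h.ord_Pinf S]
        omega
      · rw [Finsupp.single_eq_of_ne hp, add_zero]
        exact h.ord_incl_nonneg S p hp) hR' P hr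
  rw [hD', Finsupp.add_apply, hD, Finsupp.single_eq_of_ne hP, add_zero] at key
  exact key

/-! ### The moving lemma -/

/-- **[I3-a]** the output of the moving lemma: `Y` is a `Gal(ℚ̄/ℚ)`-fixed integral function in
`L(d ∞)` with unit leading coefficient, its reduction takes the value `1` at all places of
`T \ {∞̄}`, and no zero of `Y` reduces into `T ∪ {∞̄}`. -/
structure IsMoved (T : Finset (Place (kA A) (FFb A M))) (d : ℤ) (Y : LaurentSeries A) : Prop where
  lead : IsUnitLead M d Y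
  red_val : ∀ Q ∈ T, Q ≠ S.Qinf →
    Fermat.Agent.T6.helper26.pval Q (⟨red A Y, (lead.red_inL S).1⟩ : FFb A M) = 1
  red_ord : ∀ Q ∈ T, Q ≠ S.Qinf → Q.ord (⟨red A Y, (lead.red_inL S).1⟩ : FFb A M) = 0
  ord : ∀ P : Place Kb (FF M), P ≠ S.Pinf → (S.rP P ∈ T ∨ S.rP P = S.Qinf) →
    P.ord (⟨incl A Y, lead.inL.1⟩ : FF M) = 0

/-- **[I3-a] MOVE**: for every finite set `T` of places of the special fibre there is a
`Gal(ℚ̄/ℚ)`-fixed `A`-integral function `φ ∈ L(d ∞)`, `ℓ ∤ d`, `ord_∞ φ = -d`, none of whose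
zeros reduces into `T ∪ {∞̄}`. -/
theorem exists_phiE {ℓ : ℕ} (hℓ : ℓ.Prime) (hℓM : ¬ ℓ ∣ M) (hA : A.LiesOverPrime ℓ)
    (T : Finset (Place (kA A) (FFb A M))) :
    ∃ (d : ℕ) (Y : LaurentSeries A), 0 < d ∧ ¬ ℓ ∣ d ∧ IsMoved S T (d : ℤ) Y := by
  classical
  haveI : Fact ℓ.Prime := ⟨hℓ⟩
  have hPL : PrimeToLevel M A := ⟨ℓ, hℓ, hℓM, hA⟩
  have hn0 := S.n₀_pos
  -- the pole orders `a` and `b`
  obtain ⟨a, ha⟩ : ∃ a : ℕ, (a : ℤ) = S.n₀ := ⟨S.n₀.toNat, Int.toNat_of_nonneg hn0.le⟩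
  have ha1 : 1 ≤ a := by omega
  obtain ⟨b, hab, hb⟩ : ∃ b : ℕ, a ≤ b ∧ ¬ ℓ ∣ b := by
    by_cases h : ℓ ∣ a
    · refine ⟨a + 1, Nat.le_succ a, fun h' => ?_⟩
      have := (Nat.dvd_add_right h).mp h'
      exact hℓ.one_lt.ne' (Nat.dvd_one.mp this)
    · exact ⟨a, le_rfl, h⟩
  obtain ⟨Y₂, h₂⟩ := exists_unitLead S hPL (b := (a : ℤ)) (by omega)
  obtain ⟨Y₁, h₁⟩ := exists_unitLead S hPL (b := (b : ℤ)) (by omega)
  -- the exponent
  obtain ⟨r, -, hr, hfix⟩ := residue_frob_fix_finset A hℓ hA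
    (T.image fun Q => Fermat.Agent.T6.helper26.pval Q
      (⟨red A Y₂, (h₂.red_inL S).1⟩ : FFb A M)) 1
  have hN : 2 ≤ ℓ ^ r := by
    calc 2 ≤ ℓ := hℓ.two_le
      _ = ℓ ^ 1 := (pow_one ℓ).symm
      _ ≤ ℓ ^ r := Nat.pow_le_pow_right hℓ.pos hr
  have ha' : (1 : ℤ) ≤ (a : ℤ) := by exact_mod_cast ha1
  have hb' : (0 : ℤ) ≤ (b : ℤ) := Int.natCast_nonneg b
  have hU := isUnitLead_moveSer S h₁ h₂ ha' hb' hN
  have hcast : (((ℓ ^ r : ℕ) : ℤ) * (a : ℤ) + (b : ℤ)) = ((ℓ ^ r * a + b : ℕ) : ℤ) := by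
    push_cast; ring
  refine ⟨ℓ ^ r * a + b, moveSer Y₁ Y₂ (ℓ ^ r), ?_, move_degree_coprime ℓ hr a hb, ?_⟩
  · have : 0 < ℓ ^ r * a := Nat.mul_pos (by omega) ha1
    omega
  · rw [← hcast]
    have hval : ∀ Q ∈ T, Q ≠ S.Qinf →
        Fermat.Agent.T6.helper26.pval Q (⟨red A (moveSer Y₁ Y₂ (ℓ ^ r)), (hU.red_inL S).1⟩ :
          FFb A M) = 1 := fun Q hQT hQ =>
      pval_red_moveSer S h₁ h₂ ha' hb' hN Q hQ
        (hfix _ (Finset.mem_image.mpr ⟨Q, hQT, rfl⟩))
    have hord : ∀ Q ∈ T, Q ≠ S.Qinf →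
        Q.ord (⟨red A (moveSer Y₁ Y₂ (ℓ ^ r)), (hU.red_inL S).1⟩ : FFb A M) = 0 :=
      fun Q hQT hQ => ord_red_moveSer S h₁ h₂ ha' hb' hN Q hQ
        (hfix _ (Finset.mem_image.mpr ⟨Q, hQT, rfl⟩))
    refine ⟨hU, hval, hord, fun P hP hr' => ?_⟩
    by_cases hQ : S.rP P = S.Qinf
    · exact hU.ord_eq_zero_of_rP_eq_Qinf S P hP hQ
    · rcases hr' with hT | hT
      · exact hU.ord_eq_zero_of_ord_red S (S.rP P) hQ (hord _ hT hQ) P rfl
      · exact absurd hT hQ

/-- **[I3-a] MOVE**, in the vocabulary of `FF M`: a function `φ ∈ L(d ∞)` fixed by the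
arithmetic Galois action, `A`-integral, `ℓ ∤ d`, `ord_∞ φ = -d`, regular off `∞`, none of whose
zeros reduces into `T ∪ {∞̄}`. -/
theorem exists_phiE_FF {ℓ : ℕ} (hℓ : ℓ.Prime) (hℓM : ¬ ℓ ∣ M) (hA : A.LiesOverPrime ℓ)
    (T : Finset (Place (kA A) (FFb A M))) :
    ∃ (d : ℕ) (φ : FF M) (Y : LaurentSeries A), 0 < d ∧ ¬ ℓ ∣ d ∧
      incl A Y = (φ : LaurentSeries Kb) ∧
      (∀ σ : Kb ≃ₐ[ℚ] Kb, arithmeticRingAut (modularFunctionFieldFull M) σ φ = φ) ∧
      φ ≠ 0 ∧ φ ∈ riemannRochSpace (Finsupp.single S.Pinf (d : ℤ)) ∧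
      S.Pinf.ord φ = -(d : ℤ) ∧
      (∀ P : Place Kb (FF M), P ≠ S.Pinf → 0 ≤ P.ord φ) ∧
      (∀ P : Place Kb (FF M), P ≠ S.Pinf → (S.rP P ∈ T ∨ S.rP P = S.Qinf) → P.ord φ = 0) ∧
      IsMoved S T (d : ℤ) Y := by
  obtain ⟨d, Y, hd, hℓd, hM⟩ := exists_phiE S hℓ hℓM hA T
  have hL := hM.lead.inL
  refine ⟨d, ⟨incl A Y, hL.1⟩, Y, hd, hℓd, rfl, fun σ => ?_, ?_, ?_, hM.lead.ord_Pinf S,
    fun P hP => hM.lead.ord_incl_nonneg S P hP, hM.ord, hM⟩
  · apply Subtype.ext
    rw [coe_arithmeticRingAut_apply]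
    exact hM.lead.fix σ
  · exact fun h0 => hM.lead.incl_ne_zero (congrArg Subtype.val h0)
  · exact ((inL_iff_mem S.hPinf (d : ℤ) (incl A Y)).mp hL).2

/-- the zero divisor `E = div φ + d ∞` of the moved function: effective, of degree `d`, and
its reduction avoids `T ∪ {∞̄}` -/
theorem IsMoved.zeroDiv {T : Finset (Place (kA A) (FFb A M))} {d : ℤ} {Y : LaurentSeries A}
    (h : IsMoved S T d Y) :
    ∃ E : Divisor Kb (FF M), (∀ P, 0 ≤ E P) ∧ Divisor.degree E = d ∧
      (∀ P, E P = P.ord (⟨incl A Y, h.lead.inL.1⟩ : FF M) + Finsupp.single S.Pinf d P) ∧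
      E S.Pinf = 0 ∧ (∀ P, (S.rP P ∈ T ∨ S.rP P = S.Qinf) → E P = 0) ∧
      ∀ Q, (Q ∈ T ∨ Q = S.Qinf) → Finsupp.mapDomain S.rP E Q = 0 := by
  classical
  have hS := riemannSetting_FF M
  set φ : FF M := ⟨incl A Y, h.lead.inL.1⟩ with hφ
  have hD : ∀ P', (Fermat.Agent.T6.helper26.divOf Kb φ) P' = P'.ord φ :=
    fun P' => Fermat.Agent.T6.helper26.divOf_apply hS φ P'
  have hE : ∀ P, (Fermat.Agent.T6.helper26.divOf Kb φ + Finsupp.single S.Pinf d) P
      = P.ord φ + Finsupp.single S.Pinf d P := fun P => by rw [Finsupp.add_apply, hD]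
  have hPinf : (Fermat.Agent.T6.helper26.divOf Kb φ + Finsupp.single S.Pinf d) S.Pinf = 0 := by
    rw [hE, Finsupp.single_eq_same, h.lead.ord_Pinf S]
    ring
  have hzero : ∀ P, (S.rP P ∈ T ∨ S.rP P = S.Qinf) →
      (Fermat.Agent.T6.helper26.divOf Kb φ + Finsupp.single S.Pinf d) P = 0 := by
    intro P hP
    by_cases hPi : P = S.Pinf
    · rw [hPi]; exact hPinf
    · rw [hE, Finsupp.single_eq_of_ne hPi, add_zero]
      exact h.ord P hPi hP
  refine ⟨Fermat.Agent.T6.helper26.divOf Kb φ + Finsupp.single S.Pinf d, fun P => ?_, ?_, hE,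
    hPinf, hzero, fun Q hQ => ?_⟩
  · by_cases hPi : P = S.Pinf
    · rw [hPi, hPinf]
    · rw [hE, Finsupp.single_eq_of_ne hPi, add_zero]
      exact h.lead.ord_incl_nonneg S P hPi
  · rw [map_add, Fermat.Agent.T6.helper26.degree_divOf hS, degree_single_of hS, zero_add]
  · rw [Finsupp.mapDomain, Finsupp.sum, Finsupp.finsetSum_apply]
    refine Finset.sum_eq_zero fun P _ => ?_
    rw [Finsupp.single_apply]
    split_ifs with hPQ
    · exact hzero P (by rw [hPQ]; exact hQ)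
    · rfl

end Phi

end Fermat.Agent.T6.helper80

end
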