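import Mathlib
import Fermat.Prelude.Def_ModularCurve_ReductionModL
import Fermat.Agent.P2.helper74_Riemann

/-!
# T6 [I2] VAL, spec-based core (helper81)

Values of `w`-integral functions at places, in ORD-FORM (no definition of `f(P)`): `f(P) = c`
is expressed as `0 < P.ord (f - c)`.

Generic setting: `A` a valuation subring of a field `L`, `π : A →+* k` a ring homomorphism to a
field, `E ⊆ L((q))`, `Eb ⊆ k((q))` intermediate fields, `r : Place L E → Place k Eb` a map of
places with the ROUCHE property `RoucheAlong A π E Eb r` (= the second clause of the Prelude's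
`IsPlaceReductionAlong`).

* `RedOf A π E Eb f fb` : `fb ∈ Eb` is the reduction of `f ∈ E` (`f = Y₁ / Y₂` with integral
  series, `red Y₂ ≠ 0`, `fb = red Y₁ / red Y₂`); closed under constants of `A`, `+`, `*`, `-`,
  inverses of functions with nonzero reduction;
* `RedOf.mapDomain_apply` : `r_* (div f) = div fb` for `fb ≠ 0`;
* `RedOf.mem_of_value`    : **(VAL-1)** `f(P) = c`, no pole of `f` in the fibre of `r P` ⟹ `c ∈ A`;
* `RedOf.value_red`       : **(VAL-2)** … ⟹ `fb (r P) = π c`;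
* `RedOf.value_isUnit`    : **(VAL-3)** `fb ≠ 0`, no zero and no pole of `f` in the fibre of `r P`
                            ⟹ `c ∈ Aˣ`.
-/

set_option autoImplicit false
set_option linter.unusedSectionVars false
set_option linter.unusedVariables false
set_option linter.style.longLine false

noncomputable section

namespace Fermat.Agent.T6.helper81

open HahnSeries IntermediateField AlgebraicCurve ModularCurve

section Generic

variable {L : Type*} [Field L] (A : ValuationSubring L)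
variable {k : Type*} [Field k] (π : A →+* k)
variable (E : IntermediateField L (LaurentSeries L)) (Eb : IntermediateField k (LaurentSeries k))

/-- the Rouché property of a map of places (second clause of `IsPlaceReductionAlong`) -/
def RoucheAlong (r : Place L E → Place k Eb) : Prop :=
  ∀ (y : LaurentSeries A) (hy : coeffMap A.subtype y ∈ E) (hyk : coeffMap π y ∈ Eb),
    coeffMap π y ≠ 0 →
      ∀ D : Divisor L E, (∀ P, D P = P.ord (⟨coeffMap A.subtype y, hy⟩ : E)) →
        ∀ Q, Finsupp.mapDomain r D Q = Q.ord (⟨coeffMap π y, hyk⟩ : Eb)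

/-- `fb` is the reduction of `f`: `f = Y₁ / Y₂`, `fb = red Y₁ / red Y₂` with integral series
`Y₁`, `Y₂`, `red Y₂ ≠ 0`. -/
def RedOf (f : E) (fb : Eb) : Prop :=
  ∃ Y₁ Y₂ : LaurentSeries A, coeffMap A.subtype Y₂ ∈ E ∧ coeffMap π Y₂ ∈ Eb ∧
    coeffMap π Y₂ ≠ 0 ∧
    coeffMap A.subtype Y₁ = (f : LaurentSeries L) * coeffMap A.subtype Y₂ ∧
    coeffMap π Y₁ = (fb : LaurentSeries k) * coeffMap π Y₂

variable {A π E Eb}

theorem coeffMap_subtype_injective : Function.Injective (coeffMap A.subtype) := by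
  intro x y h
  apply HahnSeries.ext
  funext n
  have := congrArg (fun z => z.coeff n) h
  simp only [coeffMap_coeff] at this
  exact A.subtype_injective this

theorem coeffMap_subtype_ne_zero {Y : LaurentSeries A} (h : coeffMap π Y ≠ 0) :
    coeffMap A.subtype Y ≠ 0 := by
  intro h0
  have : Y = 0 := coeffMap_subtype_injective (by rw [h0, map_zero])
  exact h (by rw [this, map_zero])

/-- an integral series is its own representative -/
theorem redOf_incl (Y : LaurentSeries A) (hy : coeffMap A.subtype Y ∈ E)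
    (hyk : coeffMap π Y ∈ Eb) :
    RedOf A π E Eb ⟨coeffMap A.subtype Y, hy⟩ ⟨coeffMap π Y, hyk⟩ :=
  ⟨Y, 1, by rw [map_one]; exact one_mem _, by rw [map_one]; exact one_mem _,
    by rw [map_one]; exact one_ne_zero, by rw [map_one, mul_one], by rw [map_one, mul_one]⟩

theorem coe_algebraMap_E (c : L) :
    ((algebraMap L E c : E) : LaurentSeries L) = HahnSeries.single 0 c := by
  rw [← algebraMap_laurentSeries_eq_single]
  rfl

theorem coe_algebraMap_Eb (c : k) :
    ((algebraMap k Eb c : Eb) : LaurentSeries k) = HahnSeries.single 0 c := by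
  rw [← algebraMap_laurentSeries_eq_single]
  rfl

/-- constants of `A` -/
theorem redOf_const (a : A) :
    RedOf A π E Eb (algebraMap L E (a : L)) (algebraMap k Eb (π a)) := by
  refine ⟨HahnSeries.single 0 a, 1, by rw [map_one]; exact one_mem _,
    by rw [map_one]; exact one_mem _, by rw [map_one]; exact one_ne_zero, ?_, ?_⟩
  · rw [map_one, mul_one, coeffMap_single, coe_algebraMap_E]
    rfl
  · rw [map_one, mul_one, coeffMap_single, coe_algebraMap_Eb]

theorem redOf_zero : RedOf A π E Eb 0 0 := by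
  have := redOf_const (π := π) (E := E) (Eb := Eb) (0 : A)
  simpa using this

theorem redOf_one : RedOf A π E Eb 1 1 := by
  have := redOf_const (π := π) (E := E) (Eb := Eb) (1 : A)
  simpa using this

theorem RedOf.mul {f g : E} {fb gb : Eb} (hf : RedOf A π E Eb f fb) (hg : RedOf A π E Eb g gb) :
    RedOf A π E Eb (f * g) (fb * gb) := by
  obtain ⟨Y₁, Y₂, h1, h2, h3, h4, h5⟩ := hf
  obtain ⟨Z₁, Z₂, k1, k2, k3, k4, k5⟩ := hg
  refine ⟨Y₁ * Z₁, Y₂ * Z₂, by rw [map_mul]; exact mul_mem h1 k1,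
    by rw [map_mul]; exact mul_mem h2 k2, by rw [map_mul]; exact mul_ne_zero h3 k3, ?_, ?_⟩
  · rw [map_mul, map_mul, h4, k4]
    push_cast
    ring
  · rw [map_mul, map_mul, h5, k5]
    push_cast
    ring

theorem RedOf.add {f g : E} {fb gb : Eb} (hf : RedOf A π E Eb f fb) (hg : RedOf A π E Eb g gb) :
    RedOf A π E Eb (f + g) (fb + gb) := by
  obtain ⟨Y₁, Y₂, h1, h2, h3, h4, h5⟩ := hf
  obtain ⟨Z₁, Z₂, k1, k2, k3, k4, k5⟩ := hg
  refine ⟨Y₁ * Z₂ + Z₁ * Y₂, Y₂ * Z₂, by rw [map_mul]; exact mul_mem h1 k1,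
    by rw [map_mul]; exact mul_mem h2 k2, by rw [map_mul]; exact mul_ne_zero h3 k3, ?_, ?_⟩
  · rw [map_add, map_mul, map_mul, map_mul, h4, k4]
    push_cast
    ring
  · rw [map_add, map_mul, map_mul, map_mul, h5, k5]
    push_cast
    ring

theorem RedOf.neg {f : E} {fb : Eb} (hf : RedOf A π E Eb f fb) :
    RedOf A π E Eb (-f) (-fb) := by
  obtain ⟨Y₁, Y₂, h1, h2, h3, h4, h5⟩ := hf
  refine ⟨-Y₁, Y₂, h1, h2, h3, ?_, ?_⟩
  · rw [map_neg, h4]
    push_cast
    ring
  · rw [map_neg, h5]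
    push_cast
    ring

theorem RedOf.sub {f g : E} {fb gb : Eb} (hf : RedOf A π E Eb f fb) (hg : RedOf A π E Eb g gb) :
    RedOf A π E Eb (f - g) (fb - gb) := by
  rw [sub_eq_add_neg, sub_eq_add_neg]
  exact hf.add hg.neg

theorem RedOf.ne_zero {f : E} {fb : Eb} (hf : RedOf A π E Eb f fb) (hfb : fb ≠ 0) : f ≠ 0 := by
  obtain ⟨Y₁, Y₂, h1, h2, h3, h4, h5⟩ := hf
  rintro rfl
  have h0 : coeffMap A.subtype Y₁ = 0 := by rw [h4]; simp
  have : Y₁ = 0 := coeffMap_subtype_injective (by rw [h0, map_zero])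
  rw [this, map_zero] at h5
  rcases mul_eq_zero.mp h5.symm with h | h
  · exact hfb (Subtype.ext h)
  · exact h3 h

theorem RedOf.inv {f : E} {fb : Eb} (hf : RedOf A π E Eb f fb) (hfb : fb ≠ 0) :
    RedOf A π E Eb f⁻¹ fb⁻¹ := by
  have hf0 := hf.ne_zero hfb
  obtain ⟨Y₁, Y₂, h1, h2, h3, h4, h5⟩ := hf
  have hfL : (f : LaurentSeries L) ≠ 0 := fun h => hf0 (Subtype.ext h)
  have hfbL : (fb : LaurentSeries k) ≠ 0 := fun h => hfb (Subtype.ext h)
  refine ⟨Y₂, Y₁, by rw [h4]; exact mul_mem f.2 h1, by rw [h5]; exact mul_mem fb.2 h2,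
    by rw [h5]; exact mul_ne_zero hfbL h3, ?_, ?_⟩
  · rw [h4]
    push_cast
    field_simp
  · rw [h5]
    push_cast
    field_simp

theorem RedOf.div {f g : E} {fb gb : Eb} (hf : RedOf A π E Eb f fb) (hg : RedOf A π E Eb g gb)
    (hgb : gb ≠ 0) : RedOf A π E Eb (f / g) (fb / gb) := by
  rw [div_eq_mul_inv, div_eq_mul_inv]
  exact hf.mul (hg.inv hgb)


/-! ### Push-forward of principal divisors -/

open Classical in
theorem mapDomain_apply_eq_sum {α β : Type*} (r : α → β) (D : α →₀ ℤ) (Q : β) :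
    Finsupp.mapDomain r D Q = ∑ P ∈ D.support with r P = Q, D P := by
  rw [Finsupp.mapDomain, Finsupp.sum, Finsupp.finsetSum_apply, Finset.sum_filter]
  refine Finset.sum_congr rfl fun P _ => ?_
  rw [Finsupp.single_apply]

/-- a divisor which is effective on the fibre of `r P` and positive at `P` has positive
push-forward at `r P` -/
theorem mapDomain_pos {α β : Type*} (r : α → β) (D : α →₀ ℤ) (P : α)
    (h0 : ∀ P', r P' = r P → 0 ≤ D P') (hP : 0 < D P) :
    0 < Finsupp.mapDomain r D (r P) := by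
  classical
  rw [mapDomain_apply_eq_sum]
  refine Finset.sum_pos' (fun P' hP' => h0 P' (Finset.mem_filter.mp hP').2) ⟨P, ?_, hP⟩
  rw [Finset.mem_filter, Finsupp.mem_support_iff]
  exact ⟨hP.ne', rfl⟩

/-- a divisor which vanishes on the fibre of `Q` has push-forward `0` at `Q` -/
theorem mapDomain_eq_zero {α β : Type*} (r : α → β) (D : α →₀ ℤ) (Q : β)
    (h0 : ∀ P', r P' = Q → D P' = 0) :
    Finsupp.mapDomain r D Q = 0 := by
  classical
  rw [mapDomain_apply_eq_sum]
  exact Finset.sum_eq_zero fun P' hP' => h0 P' (Finset.mem_filter.mp hP').2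

variable {r : Place L E → Place k Eb}

/-- **push-forward**: `r_* (div f) = div fb` for a function `f` with nonzero reduction `fb`. -/
theorem RedOf.mapDomain_apply (hr : RoucheAlong A π E Eb r) (hPD : HasPrincipalDivisors L E)
    {f : E} {fb : Eb} (hf : RedOf A π E Eb f fb) (hfb : fb ≠ 0)
    (D : Divisor L E) (hD : ∀ P, D P = P.ord f) (Q : Place k Eb) :
    Finsupp.mapDomain r D Q = Q.ord fb := by
  have hf0 := hf.ne_zero hfb
  obtain ⟨Y₁, Y₂, h1, h2, h3, h4, h5⟩ := hf
  have hfbL : (fb : LaurentSeries k) ≠ 0 := fun h => hfb (Subtype.ext h)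
  have hY₂0 : (⟨coeffMap A.subtype Y₂, h1⟩ : E) ≠ 0 := fun h =>
    coeffMap_subtype_ne_zero h3 (congrArg Subtype.val h)
  have hY₂b0 : (⟨coeffMap π Y₂, h2⟩ : Eb) ≠ 0 := fun h => h3 (congrArg Subtype.val h)
  obtain ⟨D₂, hD₂, -⟩ := hPD.exists_divisor _ hY₂0
  have e2 := hr Y₂ h1 h2 h3 D₂ hD₂ Q
  have m1 : coeffMap A.subtype Y₁ ∈ E := by rw [h4]; exact mul_mem f.2 h1
  have m1b : coeffMap π Y₁ ∈ Eb := by rw [h5]; exact mul_mem fb.2 h2
  have n1b : coeffMap π Y₁ ≠ 0 := by rw [h5]; exact mul_ne_zero hfbL h3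
  have p1 : (⟨coeffMap A.subtype Y₁, m1⟩ : E) = f * ⟨coeffMap A.subtype Y₂, h1⟩ :=
    Subtype.ext h4
  have p1b : (⟨coeffMap π Y₁, m1b⟩ : Eb) = fb * ⟨coeffMap π Y₂, h2⟩ := Subtype.ext h5
  have hD₁ : ∀ P, (D + D₂) P = P.ord (⟨coeffMap A.subtype Y₁, m1⟩ : E) := fun P => by
    rw [Finsupp.add_apply, hD P, hD₂ P, p1, P.ord_mul hf0 hY₂0]
  have e1 := hr Y₁ m1 m1b n1b (D + D₂) hD₁ Q
  rw [Finsupp.mapDomain_add, Finsupp.add_apply, e2, p1b, Q.ord_mul hfb hY₂b0] at e1
  exact add_right_cancel e1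

/-! ### Values -/

theorem ord_sub_const_nonneg (P : Place L E) {f : E} (hf : 0 ≤ P.ord f) (c : L) :
    0 ≤ P.ord (f - algebraMap L E c) :=
  Fermat.Agent.P2.helper74.ord_sub_algebraMap_nonneg P hf c

/-- **(VAL-1)** the value of a function with a reduction, at a place `P` such that no pole of
`f` reduces to `r P`, lies in `A`. -/
theorem RedOf.mem_of_value (hr : RoucheAlong A π E Eb r) (hPD : HasPrincipalDivisors L E)
    (hker : ∀ a : A, ¬ IsUnit a → π a = 0)
    {f : E} {fb : Eb} (hf : RedOf A π E Eb f fb) (P : Place L E) (c : L)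
    (hc : 0 < P.ord (f - algebraMap L E c))
    (hpole : ∀ P', r P' = r P → 0 ≤ P'.ord f) : c ∈ A := by
  by_contra hcA
  have hc0 : c ≠ 0 := fun h => hcA (h ▸ A.zero_mem)
  have hci : c⁻¹ ∈ A := (A.mem_or_inv_mem c).resolve_left hcA
  have hnu : ¬ IsUnit (⟨c⁻¹, hci⟩ : A) := by
    intro hu
    obtain ⟨u, hu⟩ := hu
    apply hcA
    have h1 : ((u⁻¹ : Aˣ) : A) * ⟨c⁻¹, hci⟩ = 1 := by rw [← hu]; exact u.inv_mul
    have h2 : (((u⁻¹ : Aˣ) : A) : L) * c⁻¹ = 1 := congrArg Subtype.val h1
    have h3 : (((u⁻¹ : Aˣ) : A) : L) = c := by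
      field_simp at h2
      exact h2
    rw [← h3]
    exact ((u⁻¹ : Aˣ) : A).2
  have hπ := hker _ hnu
  -- the function `g = c⁻¹ f - 1`
  have hg : RedOf A π E Eb (algebraMap L E c⁻¹ * f - algebraMap L E (1 : L))
      (algebraMap k Eb (-1)) := by
    have h1 := ((redOf_const (π := π) (E := E) (Eb := Eb) (⟨c⁻¹, hci⟩ : A)).mul hf).sub
      (redOf_const (π := π) (E := E) (Eb := Eb) (1 : A))
    rw [hπ, map_zero, zero_mul, zero_sub, map_one, ← map_neg] at h1
    exact h1
  have hgb : (algebraMap k Eb (-1) : Eb) ≠ 0 := by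
    rw [map_neg, map_one]
    exact neg_ne_zero.mpr one_ne_zero
  have hfc : f - algebraMap L E c ≠ 0 := by
    intro h
    rw [h, Place.ord_zero] at hc
    exact lt_irrefl _ hc
  have hci0 : (algebraMap L E c⁻¹ : E) ≠ 0 := by
    rw [Ne, map_eq_zero]
    exact inv_ne_zero hc0
  have hgeq : algebraMap L E c⁻¹ * f - algebraMap L E (1 : L)
      = algebraMap L E c⁻¹ * (f - algebraMap L E c) := by
    rw [mul_sub, ← map_mul, inv_mul_cancel₀ hc0]
  have hg0 := hg.ne_zero hgb
  obtain ⟨D, hD, -⟩ := hPD.exists_divisor _ hg0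
  have key := hg.mapDomain_apply hr hPD hgb D hD (r P)
  rw [Fermat.Agent.S24.helper82.ord_algebraMap] at key
  have hpos : 0 < Finsupp.mapDomain r D (r P) := by
    refine mapDomain_pos r D P (fun P' hP' => ?_) ?_
    · rw [hD P']
      have h1 : 0 ≤ P'.ord (algebraMap L E c⁻¹ * f) := by
        rcases eq_or_ne f 0 with rfl | hf0
        · rw [mul_zero, Place.ord_zero]
        · rw [P'.ord_mul hci0 hf0, Fermat.Agent.S24.helper82.ord_algebraMap, zero_add]
          exact hpole P' hP'
      exact ord_sub_const_nonneg P' h1 1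
    · rw [hD P, hgeq, P.ord_mul hci0 hfc, Fermat.Agent.S24.helper82.ord_algebraMap, zero_add]
      exact hc
  rw [key] at hpos
  exact lt_irrefl _ hpos

/-- **(VAL-2)** the value of the reduction at `r P` is the reduction of the value:
`f(P) = c` ⟹ `fb (r P) = π c`. -/
theorem RedOf.value_red (hr : RoucheAlong A π E Eb r) (hPD : HasPrincipalDivisors L E)
    {f : E} {fb : Eb} (hf : RedOf A π E Eb f fb) (P : Place L E) (a : A)
    (hc : 0 < P.ord (f - algebraMap L E (a : L)))
    (hpole : ∀ P', r P' = r P → 0 ≤ P'.ord f) :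
    fb = algebraMap k Eb (π a) ∨ 0 < (r P).ord (fb - algebraMap k Eb (π a)) := by
  by_cases hfb : fb = algebraMap k Eb (π a)
  · exact Or.inl hfb
  right
  have hg : RedOf A π E Eb (f - algebraMap L E (a : L)) (fb - algebraMap k Eb (π a)) :=
    hf.sub (redOf_const a)
  have hgb : fb - algebraMap k Eb (π a) ≠ 0 := sub_ne_zero.mpr hfb
  have hg0 := hg.ne_zero hgb
  obtain ⟨D, hD, -⟩ := hPD.exists_divisor _ hg0
  have key := hg.mapDomain_apply hr hPD hgb D hD (r P)
  rw [← key]
  refine mapDomain_pos r D P (fun P' hP' => ?_) ?_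
  · rw [hD P']
    exact ord_sub_const_nonneg P' (hpole P' hP') _
  · rw [hD P]
    exact hc

/-- **(VAL-1+2)** combined, with `c : L`. -/
theorem RedOf.value_mem_red (hr : RoucheAlong A π E Eb r) (hPD : HasPrincipalDivisors L E)
    (hker : ∀ a : A, ¬ IsUnit a → π a = 0)
    {f : E} {fb : Eb} (hf : RedOf A π E Eb f fb) (P : Place L E) (c : L)
    (hc : 0 < P.ord (f - algebraMap L E c))
    (hpole : ∀ P', r P' = r P → 0 ≤ P'.ord f) :
    ∃ hcA : c ∈ A, fb = algebraMap k Eb (π ⟨c, hcA⟩) ∨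
      0 < (r P).ord (fb - algebraMap k Eb (π ⟨c, hcA⟩)) :=
  ⟨hf.mem_of_value hr hPD hker P c hc hpole,
    hf.value_red hr hPD P ⟨c, hf.mem_of_value hr hPD hker P c hc hpole⟩ hc hpole⟩

/-- **(VAL-3)** a function with nonzero reduction, without zeros and poles in the fibre of
`r P`, has a unit value at `P`. -/
theorem RedOf.value_isUnit (hr : RoucheAlong A π E Eb r) (hPD : HasPrincipalDivisors L E)
    (hker : ∀ a : A, ¬ IsUnit a → π a = 0)
    {f : E} {fb : Eb} (hf : RedOf A π E Eb f fb) (hfb : fb ≠ 0) (P : Place L E) (c : L)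
    (hc : 0 < P.ord (f - algebraMap L E c))
    (hzp : ∀ P', r P' = r P → P'.ord f = 0) :
    ∃ hcA : c ∈ A, IsUnit (⟨c, hcA⟩ : A) ∧ π ⟨c, hcA⟩ ≠ 0 ∧ (r P).ord fb = 0 := by
  have hpole : ∀ P', r P' = r P → 0 ≤ P'.ord f := fun P' hP' => (hzp P' hP').ge
  obtain ⟨hcA, hred⟩ := hf.value_mem_red hr hPD hker P c hc hpole
  have hf0 := hf.ne_zero hfb
  obtain ⟨D, hD, -⟩ := hPD.exists_divisor _ hf0
  have key := hf.mapDomain_apply hr hPD hfb D hD (r P)
  rw [mapDomain_eq_zero r D (r P) (fun P' hP' => by rw [hD P', hzp P' hP'])] at key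
  have hπ : π ⟨c, hcA⟩ ≠ 0 := by
    intro h0
    rw [h0, map_zero, sub_zero] at hred
    rcases hred with h | h
    · exact hfb h
    · rw [← key] at h
      exact lt_irrefl _ h
  refine ⟨hcA, ?_, hπ, key.symm⟩
  by_contra hu
  exact hπ (hker _ hu)

/-! ### The constant case and the disjunctive form `ValAt` -/

/-- a constant function with a reduction is a constant of `A`, and its reduction is the
reduced constant -/
theorem RedOf.const_mem (hker : ∀ a : A, ¬ IsUnit a → π a = 0) {c : L} {fb : Eb}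
    (hf : RedOf A π E Eb (algebraMap L E c) fb) :
    ∃ hcA : c ∈ A, fb = algebraMap k Eb (π ⟨c, hcA⟩) := by
  obtain ⟨Y₁, Y₂, h1, h2, h3, h4, h5⟩ := hf
  rw [coe_algebraMap_E] at h4
  have hcA : c ∈ A := by
    by_contra hcA
    have hc0 : c ≠ 0 := fun h => hcA (h ▸ A.zero_mem)
    have hci : c⁻¹ ∈ A := (A.mem_or_inv_mem c).resolve_left hcA
    have hnu : ¬ IsUnit (⟨c⁻¹, hci⟩ : A) := by
      intro hu
      obtain ⟨u, hu⟩ := hu
      apply hcA
      have e1 : ((u⁻¹ : Aˣ) : A) * ⟨c⁻¹, hci⟩ = 1 := by rw [← hu]; exact u.inv_mul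
      have e2 : (((u⁻¹ : Aˣ) : A) : L) * c⁻¹ = 1 := congrArg Subtype.val e1
      have e3 : (((u⁻¹ : Aˣ) : A) : L) = c := by
        field_simp at e2
        exact e2
      rw [← e3]
      exact ((u⁻¹ : Aˣ) : A).2
    have hπ := hker _ hnu
    have e : coeffMap A.subtype Y₂
        = coeffMap A.subtype (HahnSeries.single 0 (⟨c⁻¹, hci⟩ : A) * Y₁) := by
      rw [map_mul, coeffMap_single, h4, ← mul_assoc]
      change _ = HahnSeries.single 0 c⁻¹ * HahnSeries.single 0 c * _
      rw [HahnSeries.single_mul_single, inv_mul_cancel₀ hc0, zero_add]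
      change _ = (1 : LaurentSeries L) * _
      rw [one_mul]
    have e' := coeffMap_subtype_injective e
    apply h3
    rw [e', map_mul, coeffMap_single, hπ, HahnSeries.single_eq_zero, zero_mul]
  refine ⟨hcA, ?_⟩
  have e : coeffMap A.subtype Y₁
      = coeffMap A.subtype (HahnSeries.single 0 (⟨c, hcA⟩ : A) * Y₂) := by
    rw [map_mul, coeffMap_single, h4]
    rfl
  have e' := coeffMap_subtype_injective e
  rw [e', map_mul, coeffMap_single] at h5
  have := mul_right_cancel₀ h3 h5
  apply Subtype.ext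
  rw [coe_algebraMap_Eb]
  exact this.symm

/-- **`f(P) = c`** in ord-form: `f - c` lies in the maximal ideal of `P`. -/
def ValAt {K F : Type*} [Field K] [Field F] [Algebra K F] (P : Place K F) (f : F) (c : K) :
    Prop :=
  f = algebraMap K F c ∨ 0 < P.ord (f - algebraMap K F c)

theorem valAt_const {K F : Type*} [Field K] [Field F] [Algebra K F] (P : Place K F) (c : K) :
    ValAt P (algebraMap K F c) c := Or.inl rfl

theorem ValAt.ord_nonneg {K F : Type*} [Field K] [Field F] [Algebra K F] {P : Place K F}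
    {f : F} {c : K} (h : ValAt P f c) : 0 ≤ P.ord f := by
  rcases h with h | h
  · rw [h, Fermat.Agent.S24.helper82.ord_algebraMap]
  · have h1 := (Fermat.Agent.S24.helper82.mem_iff_ord_nonneg P).mpr h.le
    have h2 : f = (f - algebraMap K F c) + algebraMap K F c := by ring
    rw [h2]
    exact (Fermat.Agent.S24.helper82.mem_iff_ord_nonneg P).mp
      (add_mem h1 (P.algebraMap_mem' c))

theorem valAt_iff_mem {K F : Type*} [Field K] [Field F] [Algebra K F] (P : Place K F)
    (f : F) (c : K) :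
    ValAt P f c ↔ ∃ y : P.toValuationSubring, (y : F) = f - algebraMap K F c ∧
      y ∈ IsLocalRing.maximalIdeal P.toValuationSubring := by
  constructor
  · rintro (h | h)
    · exact ⟨0, by rw [h, sub_self]; rfl, zero_mem _⟩
    · exact Fermat.Agent.S24.helper82.mem_maximalIdeal_of_ord_pos P h
  · rintro ⟨y, hy, hm⟩
    by_cases h0 : f - algebraMap K F c = 0
    · exact Or.inl (sub_eq_zero.mp h0)
    · right
      rw [← hy]
      refine Fermat.Agent.S24.helper82.ord_pos_of_mem_maximalIdeal P hm ?_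
      intro hy0
      apply h0
      rw [← hy, hy0]
      rfl

theorem ValAt.add {K F : Type*} [Field K] [Field F] [Algebra K F] {P : Place K F}
    {f g : F} {c d : K} (hf : ValAt P f c) (hg : ValAt P g d) : ValAt P (f + g) (c + d) := by
  rw [valAt_iff_mem] at hf hg ⊢
  obtain ⟨y, hy, hym⟩ := hf
  obtain ⟨z, hz, hzm⟩ := hg
  refine ⟨y + z, ?_, Ideal.add_mem _ hym hzm⟩
  change (y : F) + (z : F) = _
  rw [hy, hz, map_add]
  ring

theorem ValAt.neg {K F : Type*} [Field K] [Field F] [Algebra K F] {P : Place K F}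
    {f : F} {c : K} (hf : ValAt P f c) : ValAt P (-f) (-c) := by
  rw [valAt_iff_mem] at hf ⊢
  obtain ⟨y, hy, hym⟩ := hf
  refine ⟨-y, ?_, Ideal.neg_mem_iff _ |>.mpr hym⟩
  change -(y : F) = _
  rw [hy, map_neg]
  ring

theorem ValAt.sub {K F : Type*} [Field K] [Field F] [Algebra K F] {P : Place K F}
    {f g : F} {c d : K} (hf : ValAt P f c) (hg : ValAt P g d) : ValAt P (f - g) (c - d) := by
  rw [sub_eq_add_neg, sub_eq_add_neg]
  exact hf.add hg.neg

theorem ValAt.mul {K F : Type*} [Field K] [Field F] [Algebra K F] {P : Place K F}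
    {f g : F} {c d : K} (hf : ValAt P f c) (hg : ValAt P g d) : ValAt P (f * g) (c * d) := by
  have hg0 := hg.ord_nonneg
  rw [valAt_iff_mem] at hf hg ⊢
  obtain ⟨y, hy, hym⟩ := hf
  obtain ⟨z, hz, hzm⟩ := hg
  have hgm : g ∈ P.toValuationSubring := (Fermat.Agent.S24.helper82.mem_iff_ord_nonneg P).mpr hg0
  refine ⟨y * ⟨g, hgm⟩ + algebraMap K P.toValuationSubring c * z, ?_,
    Ideal.add_mem _ (Ideal.mul_mem_right _ _ hym) (Ideal.mul_mem_left _ _ hzm)⟩
  change (y : F) * g + algebraMap K F c * (z : F) = _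
  rw [hy, hz, map_mul]
  ring

theorem ValAt.unique {K F : Type*} [Field K] [Field F] [Algebra K F] {P : Place K F}
    {f : F} {c d : K} (hf : ValAt P f c) (hg : ValAt P f d) : c = d := by
  have h := hf.sub hg
  rw [sub_self] at h
  rcases h with h | h
  · have : algebraMap K F (c - d) = algebraMap K F 0 := by rw [← h, map_zero]
    exact sub_eq_zero.mp ((algebraMap K F).injective this)
  · rw [zero_sub, ← map_neg, Fermat.Agent.S24.helper82.ord_algebraMap] at h
    exact absurd h (lt_irrefl _)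

theorem ValAt.eq_zero_iff {K F : Type*} [Field K] [Field F] [Algebra K F] {P : Place K F}
    {f : F} {c : K} (hf : ValAt P f c) : c = 0 ↔ (f = 0 ∨ 0 < P.ord f) := by
  constructor
  · rintro rfl
    rcases hf with h | h
    · exact Or.inl (by rw [h, map_zero])
    · exact Or.inr (by rwa [map_zero, sub_zero] at h)
  · intro h
    have h0 : ValAt P f 0 := by
      rcases h with h | h
      · exact Or.inl (by rw [h, map_zero])
      · exact Or.inr (by rwa [map_zero, sub_zero])
    exact hf.unique h0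

/-- **(VAL-1), disjunctive form**. -/
theorem RedOf.valAt_mem (hr : RoucheAlong A π E Eb r) (hPD : HasPrincipalDivisors L E)
    (hker : ∀ a : A, ¬ IsUnit a → π a = 0)
    {f : E} {fb : Eb} (hf : RedOf A π E Eb f fb) {P : Place L E} {c : L}
    (hc : ValAt P f c) (hpole : ∀ P', r P' = r P → 0 ≤ P'.ord f) : c ∈ A := by
  rcases hc with h | h
  · subst h
    exact (hf.const_mem hker).1
  · exact hf.mem_of_value hr hPD hker P c h hpole

/-- **(VAL-2), disjunctive form**: `f(P) = a` ⟹ `fb (r P) = π a`. -/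
theorem RedOf.valAt_red (hr : RoucheAlong A π E Eb r) (hPD : HasPrincipalDivisors L E)
    (hker : ∀ a : A, ¬ IsUnit a → π a = 0)
    {f : E} {fb : Eb} (hf : RedOf A π E Eb f fb) {P : Place L E} {a : A}
    (hc : ValAt P f (a : L)) (hpole : ∀ P', r P' = r P → 0 ≤ P'.ord f) :
    ValAt (r P) fb (π a) := by
  rcases hc with h | h
  · subst h
    obtain ⟨hcA, h2⟩ := hf.const_mem hker
    exact Or.inl h2
  · exact hf.value_red hr hPD P a h hpole

/-- **(VAL-3), disjunctive form**: a function with nonzero reduction, without zeros and poles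
in the fibre of `r P`, has a unit value at `P`. -/
theorem RedOf.valAt_isUnit (hr : RoucheAlong A π E Eb r) (hPD : HasPrincipalDivisors L E)
    (hker : ∀ a : A, ¬ IsUnit a → π a = 0)
    {f : E} {fb : Eb} (hf : RedOf A π E Eb f fb) (hfb : fb ≠ 0) {P : Place L E} {c : L}
    (hc : ValAt P f c) (hzp : ∀ P', r P' = r P → P'.ord f = 0) :
    ∃ hcA : c ∈ A, IsUnit (⟨c, hcA⟩ : A) ∧ π ⟨c, hcA⟩ ≠ 0 := by
  rcases hc with h | h
  · subst h
    obtain ⟨hcA, h2⟩ := hf.const_mem hker
    have hπ : π ⟨c, hcA⟩ ≠ 0 := by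
      intro h0
      rw [h0, map_zero] at h2
      exact hfb h2
    refine ⟨hcA, ?_, hπ⟩
    by_contra hu
    exact hπ (hker _ hu)
  · obtain ⟨hcA, hu, hπ, -⟩ := hf.value_isUnit hr hPD hker hfb P c h hzp
    exact ⟨hcA, hu, hπ⟩

end Generic

section Prelude

variable {L : Type*} [Field L] [Algebra ℚ L] {A : ValuationSubring L}
variable {k : Type*} [Field k] {π : A →+* k} {N : ℕ}
variable {r : Place L (laurentBaseChange L (modularFunctionFieldFull N)) →
  Place k (modularFunctionFieldFullC k N)}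

/-- the Prelude's place reductions have the Rouché property -/
theorem rouche_of_isPlaceReductionAlong (hr : IsPlaceReductionAlong A π N r) :
    RoucheAlong A π (laurentBaseChange L (modularFunctionFieldFull N))
      (modularFunctionFieldFullC k N) r :=
  hr.2

end Prelude

/-- the residue map kills the non-units -/
theorem residue_eq_zero_of_not_isUnit {L : Type*} [Field L] (A : ValuationSubring L) (a : A)
    (ha : ¬ IsUnit a) : IsLocalRing.residue A a = 0 := by
  rw [IsLocalRing.residue_eq_zero_iff]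
  exact ha

end Fermat.Agent.T6.helper81

end
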