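import Mathlib
import Fermat.Agent.S37.helper16_EffRed
import Fermat.Agent.S37.helper61_RedDivP
import Fermat.Agent.T6.helper81_PlaceRedVal

/-!
# T6 [I2] VAL at a reduction setting (helper81)

Instances of `T6/helper81_PlaceRedVal.lean` for the modular function fields `FF M`, `FFb A M`
and the reduction of places `S.rP` of a `S37.helper16.RedSetting M A` (exists at every good pair:
`S37.helper16.nonempty_redSetting`).

* `rouche_of_inL`  : Rouché for the integral functions regular off infinity ⟹ Rouché for ALL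
                     integral functions (helper61's `redDiv_of_effRed` with the map `r` EXPLICIT);
* `rouche_rP`, `isPlaceReductionModL_rP` : `S.rP` is a place reduction in the Prelude's sense;
* `val_mem`, `val_red`, `val_isUnit` : **[I2]** for `S.rP` (`RedOf`-form);
* `val_mem_of_inL`, `val_red_of_inL` : **[I2]** for `f ∈ L(n ∞)` with integral `q`-expansion at a
  place `P` which does not reduce to the place at infinity.
-/

set_option autoImplicit false
set_option synthInstance.maxHeartbeats 400000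
set_option linter.unusedSectionVars false
set_option linter.unusedVariables false
set_option linter.style.longLine false

noncomputable section

open HahnSeries IntermediateField AlgebraicCurve ModularCurve
open Fermat.Agent.S18.helper19 Fermat.Agent.P2.helper29

namespace Fermat.Agent.T6.helper81

open Fermat.Agent.S37.helper16 Fermat.Agent.P2

variable {M : ℕ} [NeZero M] {A : ValuationSubring Kb}

/-- shortcut instance (slow to find by synthesis) -/
local instance algebraFFbVal : Algebra (kA A) (FFb A M) := SubalgebraClass.toAlgebra (FFb A M)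

/-- **Rouché for all integral functions** from Rouché for the integral functions regular off
infinity, for an EXPLICIT map of places `r`. -/
theorem rouche_of_inL (hSc : ScaleStatement M A) (hInt : IntegralityStatement M A)
    (r : Place Kb (FF M) → Place (kA A) (FFb A M))
    (hr : ∀ (n : ℤ) (Y : LaurentSeries A) (hL : InL (FF M) n (incl A Y))
      (hb : red A Y ∈ FFb A M), red A Y ≠ 0 →
      ∀ D : Divisor Kb (FF M), (∀ P, D P = P.ord (⟨incl A Y, hL.1⟩ : FF M)) →
        ∀ Q, Finsupp.mapDomain r D Q = Q.ord (⟨red A Y, hb⟩ : FFb A M)) :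
    RoucheAlong A (IsLocalRing.residue A) (FF M) (FFb A M) r := by
  classical
  have hS : helper74.RiemannSetting Kb (FF M) := helper74.riemannSetting_FF M
  obtain ⟨g, hg⟩ := helper74.riemannStatement M
  obtain ⟨⟨Pinf, hPinf⟩, -⟩ := inftyStatement M A
  intro y hy hyk hne D hD Q
  -- the function `f = incl y`
  have hy0 : y ≠ 0 := by
    rintro rfl
    exact hne (map_zero _)
  have hf0L : incl A y ≠ 0 := fun h0 =>
    hy0 (helper22.incl_injective (by rw [h0, map_zero]))
  set f : FF M := ⟨incl A y, hy⟩ with hf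
  have hf0 : f ≠ 0 := fun h0 => hf0L (congrArg Subtype.val h0)
  -- the multiplier
  obtain ⟨q, hq0, hq⟩ := helper22.exists_multiplier hS hg.1 Pinf D
  have hq0L : (q : LaurentSeries Kb) ≠ 0 := fun h0 => hq0 (Subtype.ext h0)
  have hne_inf : ∀ P : Place Kb (FF M), ¬ IsInfty P → P ≠ Pinf := by
    rintro P hP rfl
    exact hP hPinf
  have hqL : InL (FF M) (-(q : LaurentSeries Kb).order) (q : LaurentSeries Kb) :=
    helper22.exists_inL_of_regular q.2 (fun P hP => (hq P (hne_inf P hP)).1)
  -- scaling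
  obtain ⟨c, Y₂, hc, hY₂, hgood⟩ :=
    Fermat.Agent.S37.helper61.exists_scaled_integral hPinf hSc hInt hqL hq0L
  have hL₂ : InL (FF M) (-(q : LaurentSeries Kb).order) (incl A Y₂) := by
    rw [hY₂]
    exact helper22.inL_smul hPinf hqL c
  set q₂ : FF M := ⟨incl A Y₂, hL₂.1⟩ with hq₂
  have hq₂eq : q₂ = c • q := by
    apply Subtype.ext
    rw [helper22.coe_smul_eq]
    exact hY₂
  have hq₂0 : q₂ ≠ 0 := by
    rw [hq₂eq]
    exact smul_ne_zero hc hq0
  have hordq₂ : ∀ v : Place Kb (FF M), v.ord q₂ = v.ord q := by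
    intro v
    rw [hq₂eq, helper22.ord_smul_eq v hc]
  -- the product
  have hmem₃ : incl A (y * Y₂) ∈ FF M := by
    rw [map_mul]
    exact mul_mem hy hL₂.1
  have hprod : (⟨incl A (y * Y₂), hmem₃⟩ : FF M) = f * q₂ :=
    Subtype.ext (map_mul (incl A) y Y₂)
  have hreg₃ : ∀ P : Place Kb (FF M), ¬ IsInfty P →
      0 ≤ P.ord (⟨incl A (y * Y₂), hmem₃⟩ : FF M) := by
    intro P hP
    rw [hprod, P.ord_mul hf0 hq₂0, hordq₂, ← hD P]
    have := (hq P (hne_inf P hP)).2
    omega
  have hL₃ : InL (FF M) (-(incl A (y * Y₂)).order) (incl A (y * Y₂)) :=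
    helper22.exists_inL_of_regular hmem₃ hreg₃
  have hb₃ : red A (y * Y₂) ∈ FFb A M := by
    rw [map_mul]
    exact mul_mem hyk hgood.2.1
  have hne₃ : red A (y * Y₂) ≠ 0 := by
    rw [map_mul]
    exact mul_ne_zero hne hgood.2.2
  -- the divisors
  obtain ⟨D₂, hD₂, -⟩ := hS.principal.exists_divisor q₂ hq₂0
  have h2 := hr _ Y₂ hL₂ hgood.2.1 hgood.2.2 D₂ hD₂ Q
  have hD₃ : ∀ P : Place Kb (FF M),
      (D + D₂) P = P.ord (⟨incl A (y * Y₂), hL₃.1⟩ : FF M) := by
    intro P
    rw [Finsupp.add_apply, hD P, hD₂ P]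
    have : (⟨incl A (y * Y₂), hL₃.1⟩ : FF M) = f * q₂ := hprod
    rw [this, P.ord_mul hf0 hq₂0]
  have h3 := hr _ (y * Y₂) hL₃ hb₃ hne₃ (D + D₂) hD₃ Q
  rw [Finsupp.mapDomain_add, Finsupp.add_apply, h2] at h3
  have hprodb : (⟨red A (y * Y₂), hb₃⟩ : FFb A M) =
      (⟨red A y, hyk⟩ : FFb A M) * (⟨red A Y₂, hgood.2.1⟩ : FFb A M) :=
    Subtype.ext (map_mul (red A) y Y₂)
  have hyb0 : (⟨red A y, hyk⟩ : FFb A M) ≠ 0 := fun h0 => hne (congrArg Subtype.val h0)
  have hY₂b0 : (⟨red A Y₂, hgood.2.1⟩ : FFb A M) ≠ 0 :=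
    fun h0 => hgood.2.2 (congrArg Subtype.val h0)
  rw [hprodb, Q.ord_mul hyb0 hY₂b0] at h3
  exact add_right_cancel h3

/-- the reduction of places of a reduction setting has the Rouché property for ALL integral
functions with nonzero reduction -/
theorem rouche_rP (S : RedSetting M A) :
    RoucheAlong A (IsLocalRing.residue A) (FF M) (FFb A M) S.rP :=
  rouche_of_inL S.hSc S.hInt S.rP (fun _ _ hL hb hY0 D hD Q => S.rouche hL hb hY0 D hD Q)

/-- `S.rP` is a place reduction in the sense of the Prelude -/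
theorem isPlaceReductionModL_rP (S : RedSetting M A) : IsPlaceReductionModL A M S.rP :=
  ⟨fun P => by rw [S.hSb.deg_one, (helper74.riemannSetting_FF M).deg_one], rouche_rP S⟩

/-- the reduction relation between `FF M` and `FFb A M` -/
abbrev RedOfM (A : ValuationSubring Kb) (M : ℕ) (f : FF M) (fb : FFb A M) : Prop :=
  RedOf A (IsLocalRing.residue A) (FF M) (FFb A M) f fb

theorem redOfM_of_isGood {Y : LaurentSeries A} (h : IsGood A M Y) :
    RedOfM A M (toF h) (toFb h) :=
  redOf_incl Y h.1 h.2.1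

/-- an integral function regular off infinity and its reduction -/
theorem redOfM_of_inL (S : RedSetting M A) {n : ℤ} {Y : LaurentSeries A}
    (hL : InL (FF M) n (incl A Y)) :
    RedOfM A M ⟨incl A Y, hL.1⟩ ⟨red A Y, (S.hReg n Y hL).1⟩ :=
  redOf_incl Y hL.1 (S.hReg n Y hL).1

/-- a quotient of two good series (a `w`-unit) and its (nonzero) reduction -/
theorem redOfM_of_quot {Y₁ Y₂ : LaurentSeries A} (h₁ : IsGood A M Y₁) (h₂ : IsGood A M Y₂)
    (f : FF M) (h : incl A Y₁ = (f : LaurentSeries Kb) * incl A Y₂) :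
    RedOfM A M f (toFb h₁ / toFb h₂) ∧ toFb h₁ / toFb h₂ ≠ 0 := by
  refine ⟨⟨Y₁, Y₂, h₂.1, h₂.2.1, h₂.2.2, h, ?_⟩, div_ne_zero (toFb_ne_zero h₁) (toFb_ne_zero h₂)⟩
  have h0 : (toFb h₂ : LaurentSeries (kA A)) ≠ 0 := h₂.2.2
  have e : toFb h₁ = toFb h₁ / toFb h₂ * toFb h₂ := by
    rw [div_mul_cancel₀ _ (toFb_ne_zero h₂)]
  exact congrArg Subtype.val e

variable (S : RedSetting M A)

/-- **[I2] (VAL-1)** at a reduction setting: the value at `P` of a function with a reduction,
none of whose poles reduces to `S.rP P`, lies in `A`. -/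
theorem val_mem {f : FF M} {fb : FFb A M} (hf : RedOfM A M f fb) {P : Place Kb (FF M)} {c : Kb}
    (hc : ValAt P f c) (hpole : ∀ P', S.rP P' = S.rP P → 0 ≤ P'.ord f) : c ∈ A :=
  hf.valAt_mem (rouche_rP S) (helper74.riemannSetting_FF M).principal
    (residue_eq_zero_of_not_isUnit A) hc hpole

/-- **[I2] (VAL-2)** at a reduction setting: `f(P) = a` ⟹ `fb (S.rP P) = residue a`. -/
theorem val_red {f : FF M} {fb : FFb A M} (hf : RedOfM A M f fb) {P : Place Kb (FF M)} {a : A}
    (hc : ValAt P f (a : Kb)) (hpole : ∀ P', S.rP P' = S.rP P → 0 ≤ P'.ord f) :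
    ValAt (S.rP P) fb (IsLocalRing.residue A a) :=
  hf.valAt_red (rouche_rP S) (helper74.riemannSetting_FF M).principal
    (residue_eq_zero_of_not_isUnit A) hc hpole

/-- **[I2] (VAL-3)** at a reduction setting: a function with nonzero reduction, none of whose
zeros and poles reduces to `S.rP P`, has a unit value at `P`. -/
theorem val_isUnit {f : FF M} {fb : FFb A M} (hf : RedOfM A M f fb) (hfb : fb ≠ 0)
    {P : Place Kb (FF M)} {c : Kb} (hc : ValAt P f c)
    (hzp : ∀ P', S.rP P' = S.rP P → P'.ord f = 0) :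
    ∃ hcA : c ∈ A, IsUnit (⟨c, hcA⟩ : A) :=
  let ⟨hcA, hu, _⟩ := hf.valAt_isUnit (rouche_rP S)
    (helper74.riemannSetting_FF M).principal (residue_eq_zero_of_not_isUnit A) hfb hc hzp
  ⟨hcA, hu⟩

/-- a place which does not reduce to infinity is not a pole of a function of `L(n ∞)` -/
theorem ord_nonneg_of_inL {n : ℤ} {f : LaurentSeries Kb} (hL : InL (FF M) n f)
    {P : Place Kb (FF M)} (hP : S.rP P ≠ S.Qinf) (P' : Place Kb (FF M))
    (hP' : S.rP P' = S.rP P) : 0 ≤ P'.ord (⟨f, hL.1⟩ : FF M) := by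
  refine hL.2.1 P' fun hinf => hP ?_
  have : P' = S.Pinf := (helper22.isInfty_iff_eq S.hPinf P').mp hinf
  rw [← hP', this, S.rP_Pinf]

/-- **[I2]** for the integral functions of `L(n ∞)`: the value at a place which does not reduce
to infinity lies in `A`. -/
theorem val_mem_of_inL {n : ℤ} {Y : LaurentSeries A} (hL : InL (FF M) n (incl A Y))
    {P : Place Kb (FF M)} (hP : S.rP P ≠ S.Qinf) {c : Kb}
    (hc : ValAt P (⟨incl A Y, hL.1⟩ : FF M) c) : c ∈ A :=
  val_mem S (redOfM_of_inL S hL) hc (ord_nonneg_of_inL S hL hP)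

/-- **[I2]** for the integral functions of `L(n ∞)`: the value of the reduction at the reduced
place is the reduction of the value. -/
theorem val_red_of_inL {n : ℤ} {Y : LaurentSeries A} (hL : InL (FF M) n (incl A Y))
    {P : Place Kb (FF M)} (hP : S.rP P ≠ S.Qinf) {a : A}
    (hc : ValAt P (⟨incl A Y, hL.1⟩ : FF M) (a : Kb)) :
    ValAt (S.rP P) (⟨red A Y, (S.hReg n Y hL).1⟩ : FFb A M) (IsLocalRing.residue A a) :=
  val_red S (redOfM_of_inL S hL) hc (ord_nonneg_of_inL S hL hP)

/-- existence of the value (the residue field of every place of `FF M` is `ℚ̄`) -/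
theorem exists_valAt (P : Place Kb (FF M)) {f : FF M} (hf : 0 ≤ P.ord f) :
    ∃ c : Kb, ValAt P f c :=
  (helper74.riemannSetting_FF M).residue P f hf

/-- **[I2]**, existence form: an integral function of `L(n ∞)` has a value in `A` at every place
which does not reduce to infinity, and the reduction of this value is the value of the reduced
function at the reduced place. -/
theorem exists_val_of_inL {n : ℤ} {Y : LaurentSeries A} (hL : InL (FF M) n (incl A Y))
    {P : Place Kb (FF M)} (hP : S.rP P ≠ S.Qinf) :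
    ∃ a : A, ValAt P (⟨incl A Y, hL.1⟩ : FF M) (a : Kb) ∧
      ValAt (S.rP P) (⟨red A Y, (S.hReg n Y hL).1⟩ : FFb A M) (IsLocalRing.residue A a) := by
  obtain ⟨c, hc⟩ := exists_valAt P (ord_nonneg_of_inL S hL hP P rfl)
  have hcA := val_mem_of_inL S hL hP hc
  exact ⟨⟨c, hcA⟩, hc, val_red_of_inL S hL hP (a := ⟨c, hcA⟩) hc⟩

end Fermat.Agent.T6.helper81

end
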