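import Mathlib
import Fermat.Agent.T6.helper26_PVal
import Fermat.Agent.T6.helper81_PlaceRedValInst

/-!
# T6 [I2] VAL in the vocabulary of [W0] (helper81)

`helper26.pval` / `helper26.dval` forms of `T6/helper81_PlaceRedVal.lean`:

* generic (`RoucheAlong` + `RiemannSetting` of the generic fibre):
  `RedOf.pval_mem`, `RedOf.pval_red`, `RedOf.valuation_pval_eq_one`, `RedOf.dval_mem`,
  `RedOf.valuation_dval_eq_one`, `RedOf.exists_dval_mul_eq_one`;
* at a reduction setting `S : S37.helper16.RedSetting M A`: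
  `pval_mem_S`, `pval_red_S`, `pval_mem_of_inL`, `pval_red_of_inL`, `dval_mem_S`,
  `exists_dval_mul_eq_one_S`.
-/

set_option autoImplicit false
set_option synthInstance.maxHeartbeats 400000
set_option linter.unusedSectionVars false
set_option linter.unusedVariables false
set_option linter.style.longLine false

noncomputable section

open HahnSeries IntermediateField AlgebraicCurve ModularCurve

namespace Fermat.Agent.T6.helper81

open Fermat.Agent.T6.helper26 Fermat.Agent.P2.helper74

section GenericP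

variable {L : Type*} [Field L] {A : ValuationSubring L}
variable {k : Type*} [Field k] {π : A →+* k}
variable {E : IntermediateField L (LaurentSeries L)} {Eb : IntermediateField k (LaurentSeries k)}
variable {r : Place L E → Place k Eb}

theorem valAt_iff_isVal {K F : Type*} [Field K] [Field F] [Algebra K F] (P : Place K F) (f : F)
    (c : K) : ValAt P f c ↔ IsVal P f c := Iff.rfl

/-- **[I2]**: the value at `P` of a function with a reduction, none of whose poles reduces to
`r P`, lies in `A`. -/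
theorem RedOf.pval_mem (hr : RoucheAlong A π E Eb r) (hS : RiemannSetting L E)
    (hker : ∀ a : A, ¬ IsUnit a → π a = 0)
    {f : E} {fb : Eb} (hf : RedOf A π E Eb f fb) (P : Place L E)
    (hreg : ∀ P', r P' = r P → 0 ≤ P'.ord f) : pval P f ∈ A :=
  hf.valAt_mem hr hS.principal hker (isVal_pval hS (hreg P rfl)) hreg

/-- **[I2]**: the value of the reduction at the reduced place is the reduction of the value. -/
theorem RedOf.pval_red (hr : RoucheAlong A π E Eb r) (hS : RiemannSetting L E)
    (hker : ∀ a : A, ¬ IsUnit a → π a = 0)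
    {f : E} {fb : Eb} (hf : RedOf A π E Eb f fb) (P : Place L E)
    (hreg : ∀ P', r P' = r P → 0 ≤ P'.ord f) :
    pval (r P) fb = π ⟨pval P f, hf.pval_mem hr hS hker P hreg⟩ :=
  pval_eq_of_isVal (hf.valAt_red hr hS.principal hker
    (a := ⟨pval P f, hf.pval_mem hr hS hker P hreg⟩) (isVal_pval hS (hreg P rfl)) hreg)

/-- **[I2]**, unit form: a function with nonzero reduction, none of whose zeros and poles
reduces to `r P`, has a unit value at `P`. -/
theorem RedOf.valuation_pval_eq_one (hr : RoucheAlong A π E Eb r) (hS : RiemannSetting L E)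
    (hker : ∀ a : A, ¬ IsUnit a → π a = 0)
    {f : E} {fb : Eb} (hf : RedOf A π E Eb f fb) (hfb : fb ≠ 0) (P : Place L E)
    (hzp : ∀ P', r P' = r P → P'.ord f = 0) : A.valuation (pval P f) = 1 := by
  obtain ⟨hcA, hu, -⟩ := hf.valAt_isUnit hr hS.principal hker hfb
    (isVal_pval hS (hzp P rfl).ge) hzp
  exact (ValuationSubring.valuation_eq_one_iff A ⟨pval P f, hcA⟩).mp hu

/-- values at effective divisors -/
theorem RedOf.dval_mem (hr : RoucheAlong A π E Eb r) (hS : RiemannSetting L E)
    (hker : ∀ a : A, ¬ IsUnit a → π a = 0)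
    {f : E} {fb : Eb} (hf : RedOf A π E Eb f fb) (D : Divisor L E) (hD0 : ∀ P, 0 ≤ D P)
    (hreg : ∀ P ∈ D.support, ∀ P', r P' = r P → 0 ≤ P'.ord f) : dval f D ∈ A := by
  rw [dval_eq_prod]
  refine Subring.prod_mem A.toSubring fun P hP => ?_
  have h1 := hf.pval_mem hr hS hker P (hreg P hP)
  obtain ⟨n, hn⟩ := Int.eq_ofNat_of_zero_le (hD0 P)
  rw [hn, zpow_natCast]
  exact pow_mem h1 n

/-- values at divisors whose support avoids the fibres of the reduced zeros and poles -/
theorem RedOf.valuation_dval_eq_one (hr : RoucheAlong A π E Eb r) (hS : RiemannSetting L E)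
    (hker : ∀ a : A, ¬ IsUnit a → π a = 0)
    {f : E} {fb : Eb} (hf : RedOf A π E Eb f fb) (hfb : fb ≠ 0) (D : Divisor L E)
    (hzp : ∀ P ∈ D.support, ∀ P', r P' = r P → P'.ord f = 0) :
    A.valuation (dval f D) = 1 := by
  rw [dval_eq_prod, map_prod]
  refine Finset.prod_eq_one fun P hP => ?_
  rw [map_zpow₀, hf.valuation_pval_eq_one hr hS hker hfb P (hzp P hP), one_zpow]

theorem mem_of_valuation_eq_one {x : L} (h : A.valuation x = 1) : x ∈ A :=
  (ValuationSubring.valuation_le_one_iff A x).mp h.le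

theorem exists_mul_eq_one_of_valuation_eq_one {x : L} (h : A.valuation x = 1) :
    ∃ y ∈ A, x * y = 1 := by
  have hx0 : x ≠ 0 := by
    rintro rfl
    rw [map_zero] at h
    exact zero_ne_one h
  refine ⟨x⁻¹, ?_, mul_inv_cancel₀ hx0⟩
  apply mem_of_valuation_eq_one
  rw [map_inv₀, h, inv_one]

/-- the shape of helper3's `WeilGeo.move` -/
theorem RedOf.exists_dval_mul_eq_one (hr : RoucheAlong A π E Eb r) (hS : RiemannSetting L E)
    (hker : ∀ a : A, ¬ IsUnit a → π a = 0)
    {f : E} {fb : Eb} (hf : RedOf A π E Eb f fb) (hfb : fb ≠ 0) (D : Divisor L E)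
    (hzp : ∀ P ∈ D.support, ∀ P', r P' = r P → P'.ord f = 0) :
    ∃ x ∈ A, dval f D * x = 1 :=
  exists_mul_eq_one_of_valuation_eq_one (hf.valuation_dval_eq_one hr hS hker hfb D hzp)

end GenericP

section Inst

open Fermat.Agent.S18.helper19 Fermat.Agent.P2.helper29
open Fermat.Agent.S37.helper16 Fermat.Agent.P2

variable {M : ℕ} [NeZero M] {A : ValuationSubring Kb}

/-- shortcut instance (slow to find by synthesis) -/
local instance algebraFFbPVal : Algebra (kA A) (FFb A M) := SubalgebraClass.toAlgebra (FFb A M)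

variable (S : RedSetting M A)

theorem pval_mem_S {f : FF M} {fb : FFb A M} (hf : RedOfM A M f fb) (P : Place Kb (FF M))
    (hreg : ∀ P', S.rP P' = S.rP P → 0 ≤ P'.ord f) : pval P f ∈ A :=
  hf.pval_mem (rouche_rP S) (helper74.riemannSetting_FF M)
    (residue_eq_zero_of_not_isUnit A) P hreg

theorem pval_red_S {f : FF M} {fb : FFb A M} (hf : RedOfM A M f fb) (P : Place Kb (FF M))
    (hreg : ∀ P', S.rP P' = S.rP P → 0 ≤ P'.ord f) :
    pval (S.rP P) fb = IsLocalRing.residue A ⟨pval P f, pval_mem_S S hf P hreg⟩ :=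
  hf.pval_red (rouche_rP S) (helper74.riemannSetting_FF M)
    (residue_eq_zero_of_not_isUnit A) P hreg

theorem valuation_pval_eq_one_S {f : FF M} {fb : FFb A M} (hf : RedOfM A M f fb) (hfb : fb ≠ 0)
    (P : Place Kb (FF M)) (hzp : ∀ P', S.rP P' = S.rP P → P'.ord f = 0) :
    A.valuation (pval P f) = 1 :=
  hf.valuation_pval_eq_one (rouche_rP S) (helper74.riemannSetting_FF M)
    (residue_eq_zero_of_not_isUnit A) hfb P hzp

theorem dval_mem_S {f : FF M} {fb : FFb A M} (hf : RedOfM A M f fb) (D : Divisor Kb (FF M))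
    (hD0 : ∀ P, 0 ≤ D P) (hreg : ∀ P ∈ D.support, ∀ P', S.rP P' = S.rP P → 0 ≤ P'.ord f) :
    dval f D ∈ A :=
  hf.dval_mem (rouche_rP S) (helper74.riemannSetting_FF M)
    (residue_eq_zero_of_not_isUnit A) D hD0 hreg

theorem exists_dval_mul_eq_one_S {f : FF M} {fb : FFb A M} (hf : RedOfM A M f fb)
    (hfb : fb ≠ 0) (D : Divisor Kb (FF M))
    (hzp : ∀ P ∈ D.support, ∀ P', S.rP P' = S.rP P → P'.ord f = 0) :
    ∃ x ∈ A, dval f D * x = 1 :=
  hf.exists_dval_mul_eq_one (rouche_rP S) (helper74.riemannSetting_FF M)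
    (residue_eq_zero_of_not_isUnit A) hfb D hzp

/-- **[I2] for the [I4] basis**: the value of an integral function of `L(n ∞)` at a place which
does not reduce to infinity lies in `A`. -/
theorem pval_mem_of_inL {n : ℤ} {Y : LaurentSeries A} (hL : InL (FF M) n (incl A Y))
    {P : Place Kb (FF M)} (hP : S.rP P ≠ S.Qinf) :
    pval P (⟨incl A Y, hL.1⟩ : FF M) ∈ A :=
  pval_mem_S S (redOfM_of_inL S hL) P (ord_nonneg_of_inL S hL hP)

/-- **[I2] for the [I4] basis**: the reduction of the value is the value of the reduction. -/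
theorem pval_red_of_inL {n : ℤ} {Y : LaurentSeries A} (hL : InL (FF M) n (incl A Y))
    {P : Place Kb (FF M)} (hP : S.rP P ≠ S.Qinf) :
    pval (S.rP P) (⟨red A Y, (S.hReg n Y hL).1⟩ : FFb A M)
      = IsLocalRing.residue A ⟨pval P (⟨incl A Y, hL.1⟩ : FF M), pval_mem_of_inL S hL hP⟩ :=
  pval_red_S S (redOfM_of_inL S hL) P (ord_nonneg_of_inL S hL hP)

end Inst

end Fermat.Agent.T6.helper81

end
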