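/-
T6 [I3-a] MOVE, the divisor `E` (helper80): adapters of `helper80_MovePhi` for [HNAT] / [I5].

Setting: `S : S37.helper16.RedSetting M A`, `hM : IsMoved S T d Y` (output of `exists_phiE`),
`φ = phiOf hM.lead : FF M` the moved function.

* `phiOf`, `zeroDivE`        : the function `φ` and its zero divisor `E = div φ + d ∞`;
* `zeroDivE_nonneg`, `degree_zeroDivE`, `zeroDivE_Pinf`, `zeroDivE_eq_zero`,
  `mapDomain_zeroDivE`       : `E ≥ 0`, `deg E = d`, and no point of `E` reduces into `T ∪ {∞̄}`;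
* `galAut_smul_phiOf`, `galAut_smul_zeroDivE` : `φ` and `E` are fixed by `Gal(ℚ̄/ℚ)`;
* `Pinf_eq_inftyBar`         : `S.Pinf = inftyBar M`;
* `pval_phiOf_mem`, `residue_pval_phiOf`, `isUnit_pval_phiOf` : at a point `P` reducing into
  `T \ {∞̄}` the value `φ(P)` lies in `A`, is `≡ 1` mod the maximal ideal, hence a unit;
* `disj_phiOf`               : `Disj φ D` for every divisor `D` supported on points `≠ ∞`
                               reducing into `T ∪ {∞̄}`;
* `zeroDivE_eq_zero_of_mem`  : `E P = 0` on every finite set of places `Tn` with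
                               `rP (Tn) ⊆ T ∪ {∞̄}` (the hypothesis `hE` of `helper74.geo_h_E`).
-/
import Mathlib
import Fermat.Agent.T6.helper80_MovePhi
import Fermat.Agent.T6.helper81_PValRed
import Fermat.Agent.T6.helper74_RedDivFF

set_option autoImplicit false
set_option synthInstance.maxHeartbeats 400000
set_option linter.style.haveILetI false
set_option linter.unusedSectionVars false
set_option linter.unusedVariables false
set_option linter.style.longLine false

noncomputable section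

open HahnSeries IntermediateField AlgebraicCurve ModularCurve
open Fermat.Agent.S18.helper19 Fermat.Agent.P2.helper29 Fermat.Agent.P2.helper22
open Fermat.Agent.S24
open Fermat.Agent.S37.helper16

namespace Fermat.Agent.T6.helper80

variable {M : ℕ} [NeZero M] {A : ValuationSubring Kb}

/-- shortcut instance (slow to find by synthesis) -/
local instance algebraFFbMvE : Algebra (kA A) (FFb A M) := SubalgebraClass.toAlgebra (FFb A M)

variable (S : RedSetting M A)

/-- the function of `FF M` with `q`-expansion `incl A Y` -/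
def phiOf {d : ℤ} {Y : LaurentSeries A} (h : IsUnitLead M d Y) : FF M := ⟨incl A Y, h.inL.1⟩

@[simp]
theorem coe_phiOf {d : ℤ} {Y : LaurentSeries A} (h : IsUnitLead M d Y) :
    ((phiOf h : FF M) : LaurentSeries Kb) = incl A Y := rfl

theorem phiOf_ne_zero {d : ℤ} {Y : LaurentSeries A} (h : IsUnitLead M d Y) : phiOf h ≠ 0 :=
  fun h0 => h.incl_ne_zero (congrArg Subtype.val h0)

/-- `S.Pinf` is the cusp at infinity -/
theorem Pinf_eq_inftyBar : S.Pinf = inftyBar M :=
  (isInfty_iff_eq (isInfty_inftyBar M) S.Pinf).mp S.hPinf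

/-- the Galois action fixes `S.Pinf` -/
theorem galAut_smul_Pinf (σ : Kb ≃ₐ[ℚ] Kb) :
    Fermat.Agent.T6.helper74.galAut M σ • S.Pinf = S.Pinf := by
  rw [Pinf_eq_inftyBar S]
  exact Fermat.Agent.T6.helper74.galAut_smul_inftyBar M σ

/-- the Galois action fixes `φ` -/
theorem galAut_smul_phiOf {d : ℤ} {Y : LaurentSeries A} (h : IsUnitLead M d Y)
    (σ : Kb ≃ₐ[ℚ] Kb) : Fermat.Agent.T6.helper74.galAut M σ • phiOf h = phiOf h := by
  apply Subtype.ext
  rw [coe_arithmeticGalois_smul]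
  exact h.fix σ

/-- the zero divisor `E = div φ + d ∞` of `φ` -/
def zeroDivE {d : ℤ} {Y : LaurentSeries A} (h : IsUnitLead M d Y) : Divisor Kb (FF M) :=
  Fermat.Agent.T6.helper26.divOf Kb (phiOf h) + Finsupp.single S.Pinf d

theorem zeroDivE_apply {d : ℤ} {Y : LaurentSeries A} (h : IsUnitLead M d Y)
    (P : Place Kb (FF M)) :
    zeroDivE S h P = P.ord (phiOf h) + Finsupp.single S.Pinf d P := by
  unfold zeroDivE
  rw [Finsupp.add_apply, Fermat.Agent.T6.helper26.divOf_apply (riemannSetting_FF M)]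

theorem zeroDivE_Pinf {d : ℤ} {Y : LaurentSeries A} (h : IsUnitLead M d Y) :
    zeroDivE S h S.Pinf = 0 := by
  rw [zeroDivE_apply, Finsupp.single_eq_same]
  have := h.ord_Pinf S
  unfold phiOf
  rw [this]
  ring

theorem zeroDivE_of_ne {d : ℤ} {Y : LaurentSeries A} (h : IsUnitLead M d Y)
    {P : Place Kb (FF M)} (hP : P ≠ S.Pinf) : zeroDivE S h P = P.ord (phiOf h) := by
  rw [zeroDivE_apply, Finsupp.single_eq_of_ne hP, add_zero]

theorem zeroDivE_nonneg {d : ℤ} {Y : LaurentSeries A} (h : IsUnitLead M d Y)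
    (P : Place Kb (FF M)) : 0 ≤ zeroDivE S h P := by
  by_cases hP : P = S.Pinf
  · rw [hP, zeroDivE_Pinf]
  · rw [zeroDivE_of_ne S h hP]
    exact h.ord_incl_nonneg S P hP

theorem degree_zeroDivE {d : ℤ} {Y : LaurentSeries A} (h : IsUnitLead M d Y) :
    Divisor.degree (zeroDivE S h) = d := by
  have hS := riemannSetting_FF M
  unfold zeroDivE
  rw [map_add, Fermat.Agent.T6.helper26.degree_divOf hS, degree_single_of hS, zero_add]

/-- `E` is fixed by `Gal(ℚ̄/ℚ)` -/
theorem galAut_smul_zeroDivE {d : ℤ} {Y : LaurentSeries A} (h : IsUnitLead M d Y)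
    (σ : Kb ≃ₐ[ℚ] Kb) :
    Fermat.Agent.T6.helper74.galAut M σ • zeroDivE S h = zeroDivE S h := by
  unfold zeroDivE
  rw [smul_add, ← Fermat.Agent.T6.helper26.divOf_smul (riemannSetting_FF M),
    galAut_smul_phiOf h σ, SemilinearAut.smul_single, galAut_smul_Pinf S σ]

section Moved

variable {T : Finset (Place (kA A) (FFb A M))} {d : ℤ} {Y : LaurentSeries A}

/-- no point of `E` reduces into `T ∪ {∞̄}` -/
theorem zeroDivE_eq_zero (hM : IsMoved S T d Y) {P : Place Kb (FF M)}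
    (hP : S.rP P ∈ T ∨ S.rP P = S.Qinf) : zeroDivE S hM.lead P = 0 := by
  by_cases hPi : P = S.Pinf
  · rw [hPi, zeroDivE_Pinf]
  · rw [zeroDivE_of_ne S hM.lead hPi]
    exact hM.ord P hPi hP

/-- `E P = 0` on every set of places reducing into `T ∪ {∞̄}` -/
theorem zeroDivE_eq_zero_of_mem (hM : IsMoved S T d Y) {Tn : Finset (Place Kb (FF M))}
    (hT : ∀ P ∈ Tn, S.rP P ∈ T ∨ S.rP P = S.Qinf) :
    ∀ P ∈ Tn, zeroDivE S hM.lead P = 0 :=
  fun P hP => zeroDivE_eq_zero S hM (hT P hP)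

/-- the reduction of `E` avoids `T ∪ {∞̄}` -/
theorem mapDomain_zeroDivE (hM : IsMoved S T d Y) {Q : Place (kA A) (FFb A M)}
    (hQ : Q ∈ T ∨ Q = S.Qinf) : Finsupp.mapDomain S.rP (zeroDivE S hM.lead) Q = 0 := by
  classical
  rw [Finsupp.mapDomain, Finsupp.sum, Finsupp.finsetSum_apply]
  refine Finset.sum_eq_zero fun P _ => ?_
  rw [Finsupp.single_apply]
  split_ifs with hPQ
  · exact zeroDivE_eq_zero S hM (by rw [hPQ]; exact hQ)
  · rfl

/-- the points of `E` do not reduce into `T ∪ {∞̄}` -/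
theorem rP_notMem_of_zeroDivE_ne (hM : IsMoved S T d Y) {P : Place Kb (FF M)}
    (hP : zeroDivE S hM.lead P ≠ 0) : S.rP P ∉ T ∧ S.rP P ≠ S.Qinf :=
  ⟨fun h => hP (zeroDivE_eq_zero S hM (Or.inl h)),
    fun h => hP (zeroDivE_eq_zero S hM (Or.inr h))⟩

/-- `Disj φ D` for every divisor supported on points `≠ ∞` reducing into `T ∪ {∞̄}` -/
theorem disj_phiOf (hM : IsMoved S T d Y) {D : Divisor Kb (FF M)}
    (hD : ∀ P, D P ≠ 0 → P ≠ S.Pinf ∧ (S.rP P ∈ T ∨ S.rP P = S.Qinf)) :
    Fermat.Agent.T6.helper26.Disj (phiOf hM.lead) D :=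
  ⟨phiOf_ne_zero hM.lead, fun P hP => hM.ord P (hD P hP).1 (hD P hP).2⟩

/-- **the value of `φ`** at a point reducing into `T \ {∞̄}` lies in `A` -/
theorem pval_phiOf_mem (hM : IsMoved S T d Y) {P : Place Kb (FF M)} (hP : S.rP P ≠ S.Qinf) :
    Fermat.Agent.T6.helper26.pval P (phiOf hM.lead) ∈ A :=
  Fermat.Agent.T6.helper81.pval_mem_of_inL S hM.lead.inL hP

/-- **the value of `φ`** at a point reducing into `T \ {∞̄}` is `≡ 1` mod the maximal ideal -/
theorem residue_pval_phiOf (hM : IsMoved S T d Y) {P : Place Kb (FF M)} (hPT : S.rP P ∈ T)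
    (hP : S.rP P ≠ S.Qinf) :
    IsLocalRing.residue A ⟨Fermat.Agent.T6.helper26.pval P (phiOf hM.lead),
      pval_phiOf_mem S hM hP⟩ = 1 := by
  have h1 := Fermat.Agent.T6.helper81.pval_red_of_inL S hM.lead.inL hP
  have h2 := hM.red_val (S.rP P) hPT hP
  exact h1.symm.trans h2

/-- **the value of `φ`** at a point reducing into `T \ {∞̄}` is a unit of `A` -/
theorem isUnit_pval_phiOf (hM : IsMoved S T d Y) {P : Place Kb (FF M)} (hPT : S.rP P ∈ T)
    (hP : S.rP P ≠ S.Qinf) :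
    IsUnit (⟨Fermat.Agent.T6.helper26.pval P (phiOf hM.lead), pval_phiOf_mem S hM hP⟩ : A) := by
  apply isUnit_of_map_unit (IsLocalRing.residue A)
  rw [residue_pval_phiOf S hM hPT hP]
  exact isUnit_one

end Moved

/-! ### The final package -/

/-- **[I3-a], packaged for [I5]**: at every reduction setting over `ℓ ∤ M` and for every finite
set `Tn` of places of `FF M` there are `d > 0` prime to `ℓ`, a `Gal(ℚ̄/ℚ)`-fixed integral function
`φ` with unit leading coefficient of order `-d`, and its zero divisor `E ≥ 0` of degree `d`,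
`Gal(ℚ̄/ℚ)`-stable, such that no point of `E` reduces to the reduction of a point of `Tn` or to
`∞̄`; in particular `E P = 0` on `Tn ∪ {∞}`. -/
theorem exists_moved_E {ℓ : ℕ} (hℓ : ℓ.Prime) (hℓM : ¬ ℓ ∣ M) (hA : A.LiesOverPrime ℓ)
    (Tn : Finset (Place Kb (FF M))) :
    ∃ (T : Finset (Place (kA A) (FFb A M))) (d : ℕ) (Y : LaurentSeries A)
      (hM : IsMoved S T (d : ℤ) Y),
      (∀ P ∈ Tn, S.rP P ∈ T) ∧ 0 < d ∧ Nat.Coprime d ℓ ∧
      (∀ P, 0 ≤ zeroDivE S hM.lead P) ∧ Divisor.degree (zeroDivE S hM.lead) = (d : ℤ) ∧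
      (∀ σ : Kb ≃ₐ[ℚ] Kb,
        Fermat.Agent.T6.helper74.galAut M σ • zeroDivE S hM.lead = zeroDivE S hM.lead) ∧
      (∀ σ : Kb ≃ₐ[ℚ] Kb,
        Fermat.Agent.T6.helper74.galAut M σ • phiOf hM.lead = phiOf hM.lead) ∧
      (∀ P ∈ Tn, zeroDivE S hM.lead P = 0) ∧ zeroDivE S hM.lead S.Pinf = 0 ∧
      (∀ P, zeroDivE S hM.lead P ≠ 0 → S.rP P ∉ T ∧ S.rP P ≠ S.Qinf) := by
  classical
  obtain ⟨d, Y, hd, hℓd, hM⟩ := exists_phiE S hℓ hℓM hA (Tn.image S.rP)
  refine ⟨Tn.image S.rP, d, Y, hM, fun P hP => Finset.mem_image.mpr ⟨P, hP, rfl⟩, hd,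
    ((Nat.Prime.coprime_iff_not_dvd hℓ).mpr hℓd).symm,
    zeroDivE_nonneg S hM.lead, degree_zeroDivE S hM.lead,
    galAut_smul_zeroDivE S hM.lead, galAut_smul_phiOf hM.lead, ?_, zeroDivE_Pinf S hM.lead,
    fun P hP => rP_notMem_of_zeroDivE_ne S hM hP⟩
  exact zeroDivE_eq_zero_of_mem S hM
    (fun P hP => Or.inl (Finset.mem_image.mpr ⟨P, hP, rfl⟩))

end Fermat.Agent.T6.helper80

end
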