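/-
T6 [I1] (helper74), part 3: **the reduced divisor in the W0 / W2 vocabulary**
(`helper26.divOf`, `helper26.Disj`, `helper35.IsRep`) and **the torsion functions `h_u`**.

Generic (`hS : RiemannSetting K F`, Riemann inequality `hR` with genus `g`, a place `O`):
* `isRep_redDiv0`       : `IsRep (redDiv0 O x) x`;
* `redDiv0_eq_sub_nsmul`: `redDiv0 O x = redPlus0 O x - (redDeg0 O x) • single O 1`
                          (the shape `Dp u - m u • single oo 1` of `helper3.weilChar_mem_tiAlg`);
* `torFun O n x`        : a function with `div = n • redDiv0 O x` for `x ∈ Pic0[n]`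
                          (`divOf_torFun`), regular off `O` (`ord_torFun_nonneg`), pole order
                          `n * redDeg0 O x` at `O`, hence in `L(n g O)` (`torFun_mem_L`);
* `torFun_smul`         : `σ • torFun O n x = a • torFun O n (σ • x)` for a constant `a ≠ 0`;
* `disj_torFun`         : `Disj (torFun O n x) E` if the support of `E` avoids `O` and the
                          support of `redPlus0 O x`;
* `suppT O S`           : the finite set `{O} ∪ ⋃_{u ∈ S} supp (redPlus0 O u)`, stable under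
                          every `σ` fixing `O` and `S`.
-/
import Mathlib
import Fermat.Agent.T6.helper74_RedDiv
import Fermat.Agent.T6.helper35_WeilPair

set_option autoImplicit false
set_option linter.unusedSectionVars false
set_option linter.unusedVariables false
set_option linter.style.longLine false

noncomputable section

namespace Fermat.Agent.T6.helper74

open AlgebraicCurve Fermat.Agent.P2.helper74
open Fermat.Agent.T6.helper26 Fermat.Agent.T6.helper35

variable {K F : Type*} [Field K] [Field F] [Algebra K F]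

theorem divF_eq_divOf (f : F) : (divF f : Divisor K F) = divOf K f := rfl

theorem single_natCast_eq_nsmul (O : Place K F) (m : ℕ) :
    Finsupp.single O (m : ℤ) = m • Finsupp.single O (1 : ℤ) := by
  rw [Finsupp.smul_single, nsmul_eq_mul, mul_one]

theorem redDiv0_eq_sub_nsmul (O : Place K F) (x : Pic0 K F) :
    redDiv0 O x = redPlus0 O x - redDeg0 O x • Finsupp.single O (1 : ℤ) := by
  rw [redDiv0_eq, single_natCast_eq_nsmul]

section W

variable (hS : RiemannSetting K F) (O : Place K F)

include hS

/-- the reduced divisor is a representative of its class -/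
theorem isRep_redDiv0 (x : Pic0 K F) : IsRep (redDiv0 O x) x :=
  ⟨degree_redDiv0 hS O x, mk_redDiv0 hS O x⟩

theorem isRep_redPlus0_sub (x : Pic0 K F) :
    IsRep (redPlus0 O x - redDeg0 O x • Finsupp.single O (1 : ℤ)) x := by
  rw [← redDiv0_eq_sub_nsmul]
  exact isRep_redDiv0 hS O x

omit hS in
open Classical in
/-- **the torsion function** `h_x`, `div h_x = n • redDiv0 O x` -/
def torFun (O : Place K F) (n : ℕ) (x : Pic0 K F) : F :=
  if h : ∃ f : F, f ≠ 0 ∧ divOf K f = n • redDiv0 O x then Classical.choose h else 1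

omit hS in
theorem torFun_ne_zero (n : ℕ) (x : Pic0 K F) : torFun O n x ≠ 0 := by
  unfold torFun
  split_ifs with h
  · exact (Classical.choose_spec h).1
  · exact one_ne_zero

theorem divOf_torFun {n : ℕ} {x : Pic0 K F} (hx : x ∈ Pic0.torsion K F n) :
    divOf K (torFun O n x) = n • redDiv0 O x := by
  have h : ∃ f : F, f ≠ 0 ∧ divOf K f = n • redDiv0 O x :=
    (isRep_redDiv0 hS O x).exists_divOf_nsmul hS hx
  unfold torFun
  rw [dif_pos h]
  exact (Classical.choose_spec h).2

theorem divOf_torFun' {n : ℕ} {x : Pic0 K F} (hx : x ∈ Pic0.torsion K F n) :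
    divOf K (torFun O n x) =
      n • (redPlus0 O x - redDeg0 O x • Finsupp.single O (1 : ℤ)) := by
  rw [divOf_torFun hS O hx, redDiv0_eq_sub_nsmul]

theorem ord_torFun {n : ℕ} {x : Pic0 K F} (hx : x ∈ Pic0.torsion K F n) (P : Place K F) :
    P.ord (torFun O n x) = n * redDiv0 O x P := by
  rw [← divOf_apply hS, divOf_torFun hS O hx, Finsupp.smul_apply, nsmul_eq_mul]

/-- uniqueness up to a constant -/
theorem exists_const_torFun {n : ℕ} {x : Pic0 K F} (hx : x ∈ Pic0.torsion K F n) {f : F}
    (hf0 : f ≠ 0) (hf : divOf K f = n • redDiv0 O x) :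
    ∃ a : K, a ≠ 0 ∧ f = algebraMap K F a * torFun O n x :=
  exists_const_of_divOf_eq hS hf0 (torFun_ne_zero O n x) (hf.trans (divOf_torFun hS O hx).symm)

end W

section WR

variable (hS : RiemannSetting K F) {g : ℕ}
  (hR : ∀ D : Divisor K F, Divisor.degree D + 1 ≤ (ell D : ℤ) + g) (O : Place K F)

include hS hR

theorem redDiv0_apply_of_ne (x : Pic0 K F) {P : Place K F} (hP : P ≠ O) :
    redDiv0 O x P = redPlus0 O x P := by
  classical
  rw [redDiv0_eq, Finsupp.sub_apply, Finsupp.single_apply, if_neg (Ne.symm hP), sub_zero]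

theorem redDiv0_apply_O (x : Pic0 K F) : redDiv0 O x O = -(redDeg0 O x : ℤ) := by
  classical
  rw [redDiv0_eq, Finsupp.sub_apply, Finsupp.single_eq_same]
  rcases Nat.eq_zero_or_pos (redDeg0 O x) with h0 | h0
  · have hx := (redDeg0_eq_zero_iff hS hR O x).mp h0
    subst hx
    rw [redPlus0_zero hS hR, h0]
    simp
  · rw [redPlus0_apply_O hS hR O x h0.ne', zero_sub]

/-- the torsion function is regular off `O` -/
theorem ord_torFun_nonneg {n : ℕ} {x : Pic0 K F} (hx : x ∈ Pic0.torsion K F n)
    {P : Place K F} (hP : P ≠ O) : 0 ≤ P.ord (torFun O n x) := by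
  rw [ord_torFun hS O hx, redDiv0_apply_of_ne hS hR O x hP]
  exact mul_nonneg (Int.natCast_nonneg _) (redPlus0_nonneg hS hR O x P)

/-- the pole order of the torsion function at `O` -/
theorem ord_torFun_O {n : ℕ} {x : Pic0 K F} (hx : x ∈ Pic0.torsion K F n) :
    O.ord (torFun O n x) = -((n * redDeg0 O x : ℕ) : ℤ) := by
  rw [ord_torFun hS O hx, redDiv0_apply_O hS hR]
  push_cast
  ring

/-- the orders of the torsion function: zero off the support of the reduced divisor and `O` -/
theorem ord_torFun_eq_zero {n : ℕ} {x : Pic0 K F} (hx : x ∈ Pic0.torsion K F n)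
    {P : Place K F} (hP : P ≠ O) (hP' : redPlus0 O x P = 0) : P.ord (torFun O n x) = 0 := by
  rw [ord_torFun hS O hx, redDiv0_apply_of_ne hS hR O x hP, hP', mul_zero]

/-- the torsion function lies in `L(n g O)` -/
theorem torFun_mem_L {n : ℕ} {x : Pic0 K F} (hx : x ∈ Pic0.torsion K F n) :
    torFun O n x ∈ riemannRochSpace (Finsupp.single O ((n * g : ℕ) : ℤ)) := by
  classical
  rw [mem_L_iff' (torFun_ne_zero O n x)]
  intro P
  rw [Finsupp.single_apply]
  split_ifs with h
  · subst h
    rw [ord_torFun_O hS hR _ hx]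
    have := redDeg0_le hS hR O x
    have h2 : n * redDeg0 O x ≤ n * g := Nat.mul_le_mul_left n this
    have h3 : ((n * redDeg0 O x : ℕ) : ℤ) ≤ ((n * g : ℕ) : ℤ) := by exact_mod_cast h2
    linarith
  · have := ord_torFun_nonneg hS hR O hx (P := P) (fun e => h e.symm)
    linarith

/-- **`Disj (h_x) E`** if the support of `E` avoids `O` and the reduced divisor -/
theorem disj_torFun {n : ℕ} {x : Pic0 K F} (hx : x ∈ Pic0.torsion K F n) {E : Divisor K F}
    (hO : E O = 0) (hE : ∀ P, redPlus0 O x P ≠ 0 → E P = 0) :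
    Disj (torFun O n x) E := by
  refine ⟨torFun_ne_zero O n x, fun P hP => ?_⟩
  have hPO : P ≠ O := by
    rintro rfl
    exact hP hO
  apply ord_torFun_eq_zero hS hR O hx hPO
  by_contra hne
  exact hP (hE P hne)

/-- **equivariance of the torsion functions up to a constant** -/
theorem torFun_smul (σ : SemilinearAut K F) (hO : σ • O = O) {n : ℕ} {x : Pic0 K F}
    (hx : x ∈ Pic0.torsion K F n) :
    ∃ a : K, a ≠ 0 ∧ σ • torFun O n x = algebraMap K F a * torFun O n (σ • x) := by
  have hσx : σ • x ∈ Pic0.torsion K F n := SemilinearAut.smul_mem_torsion σ hx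
  have h0 : σ • torFun O n x ≠ 0 := by
    simpa using torFun_ne_zero O n x
  apply exists_const_torFun hS O hσx h0
  rw [divOf_smul hS, divOf_torFun hS O hx, smul_comm, redDiv0_smul hS hR O σ hO]

end WR

/-! ### the finite set `T` -/

open Classical in
/-- `{O} ∪ ⋃_{u ∈ S} supp (redPlus0 O u)` -/
def suppT (O : Place K F) (S : Finset (Pic0 K F)) : Finset (Place K F) :=
  insert O (S.biUnion fun u => (redPlus0 O u).support)

theorem mem_suppT {O : Place K F} {S : Finset (Pic0 K F)} {P : Place K F} :
    P ∈ suppT O S ↔ P = O ∨ ∃ u ∈ S, redPlus0 O u P ≠ 0 := by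
  classical
  unfold suppT
  rw [Finset.mem_insert, Finset.mem_biUnion]
  simp only [Finsupp.mem_support_iff]

theorem O_mem_suppT (O : Place K F) (S : Finset (Pic0 K F)) : O ∈ suppT O S :=
  mem_suppT.mpr (Or.inl rfl)

theorem mem_suppT_of_ne {O : Place K F} {S : Finset (Pic0 K F)} {u : Pic0 K F} (hu : u ∈ S)
    {P : Place K F} (hP : redPlus0 O u P ≠ 0) : P ∈ suppT O S :=
  mem_suppT.mpr (Or.inr ⟨u, hu, hP⟩)

/-- `T` is stable under the automorphisms fixing `O` and `S` -/
theorem smul_mem_suppT (hS : RiemannSetting K F) {g : ℕ}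
    (hR : ∀ D : Divisor K F, Divisor.degree D + 1 ≤ (ell D : ℤ) + g) {O : Place K F}
    {S : Finset (Pic0 K F)} (σ : SemilinearAut K F) (hO : σ • O = O)
    (hσ : ∀ u ∈ S, σ • u ∈ S) {P : Place K F} (hP : P ∈ suppT O S) : σ • P ∈ suppT O S := by
  rcases mem_suppT.mp hP with rfl | ⟨u, hu, hne⟩
  · rw [hO]
    exact O_mem_suppT _ S
  · refine mem_suppT_of_ne (hσ u hu) ?_
    rw [redPlus0_smul hS hR O σ hO, SemilinearAut.divisor_smul_apply_smul]
    exact hne

/-- a divisor with support off `T` is disjoint from all the torsion functions -/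
theorem disj_torFun_of_suppT (hS : RiemannSetting K F) {g : ℕ}
    (hR : ∀ D : Divisor K F, Divisor.degree D + 1 ≤ (ell D : ℤ) + g) {O : Place K F}
    {S : Finset (Pic0 K F)} {n : ℕ} {x : Pic0 K F} (hxS : x ∈ S)
    (hx : x ∈ Pic0.torsion K F n) {E : Divisor K F} (hE : ∀ P ∈ suppT O S, E P = 0) :
    Disj (torFun O n x) E :=
  disj_torFun hS hR O hx (hE O (O_mem_suppT O S))
    (fun P hP => hE P (mem_suppT_of_ne hxS hP))

end Fermat.Agent.T6.helper74

end
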