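/-
T6 [I1] (helper74), part 4: **the [I1] fields of `helper3.WeilGeo`, verbatim**, and the
disjointness pack.

Generic: `hS : RiemannSetting K F`, Riemann inequality `hR`, a place `O`, operators
`γ : Γ → SemilinearAut K F` fixing `O`, `n : ℕ`, `G = Pic0.torsion K F n`.

* `DpT O n u`, `mT O n u`, `hT O n u` : the fields `Dp`, `m`, `h`;
* `geo_Dp_nonneg`, `geo_D_deg`, `geo_D_mk`, `geo_h_div`, `geo_Dp_eq`, `geo_m_eq` : the fields
  `Dp_nonneg`, `D_deg`, `D_mk`, `h_div`, `Dp_eq`, `m_eq`;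
* `Tn O n` (for finite `G`) : the finite set `{O} ∪ ⋃_u supp (Dp u)`, stable under `γ`
  (`smul_mem_Tn`);
* for divisors `E`, `X` vanishing on `Tn O n`:
  `geo_h_E` (`Disj (h u) E`), `geo_disjoint` (supports of `Dp u - m u • O` and `X` disjoint),
  `geo_disj_hy` (`Disj hy (Dp u)` for `div hy = n • X`), `geo_ord_hy` (`O.ord hy = 0`).
-/
import Mathlib
import Fermat.Agent.T6.helper74_RedDivW
import Fermat.Agent.T6.helper73_T6Iface

set_option autoImplicit false
set_option linter.unusedSectionVars false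
set_option linter.unusedVariables false
set_option linter.style.longLine false

noncomputable section

namespace Fermat.Agent.T6.helper74

open AlgebraicCurve Fermat.Agent.P2.helper74
open Fermat.Agent.T6.helper26 Fermat.Agent.T6.helper35 Fermat.Agent.T6.helper73

variable {K F : Type*} [Field K] [Field F] [Algebra K F]

/-- the field `Dp` of `WeilGeo` -/
def DpT (O : Place K F) (n : ℕ) (u : Pic0.torsion K F n) : Divisor K F :=
  redPlus0 O (u : Pic0 K F)

/-- the field `m` of `WeilGeo` -/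
def mT (O : Place K F) (n : ℕ) (u : Pic0.torsion K F n) : ℕ := redDeg0 O (u : Pic0 K F)

/-- the field `h` of `WeilGeo` -/
def hT (O : Place K F) (n : ℕ) (u : Pic0.torsion K F n) : F := torFun O n (u : Pic0 K F)

section Fields

variable (hS : RiemannSetting K F) {g : ℕ}
  (hR : ∀ D : Divisor K F, Divisor.degree D + 1 ≤ (ell D : ℤ) + g) (O : Place K F) (n : ℕ)

include hS hR

theorem geo_Dp_nonneg (u : Pic0.torsion K F n) (P : Place K F) : 0 ≤ DpT O n u P :=
  redPlus0_nonneg hS hR O _ P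

omit hR in
theorem geo_D_deg (u : Pic0.torsion K F n) :
    Divisor.degree (DpT O n u - mT O n u • Finsupp.single O (1 : ℤ)) = 0 :=
  (isRep_redPlus0_sub hS O (u : Pic0 K F)).degree

omit hR in
theorem geo_D_mk (u : Pic0.torsion K F n) :
    Pic0.mk ⟨DpT O n u - mT O n u • Finsupp.single O (1 : ℤ), geo_D_deg hS O n u⟩ =
      (u : Pic0 K F) :=
  (isRep_redPlus0_sub hS O (u : Pic0 K F)).2

omit hR in
theorem geo_h_div (u : Pic0.torsion K F n) :
    IsDivOf (hT O n u) (n • (DpT O n u - mT O n u • Finsupp.single O (1 : ℤ))) := by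
  refine ⟨torFun_ne_zero O n _, fun P => ?_⟩
  have h := divOf_torFun' hS O (n := n) (x := (u : Pic0 K F)) u.2
  have h2 := divOf_apply hS (torFun O n (u : Pic0 K F)) P
  rw [h] at h2
  exact h2

theorem geo_Dp_eq {Γ : Type*} (γ : Γ → SemilinearAut K F) (hγ : ∀ σ, γ σ • O = O) (σ : Γ)
    (u : Pic0.torsion K F n) : DpT O n (γ σ • u) = γ σ • DpT O n u := by
  unfold DpT
  rw [SemilinearAut.coe_torsion_smul]
  exact redPlus0_smul hS hR O (γ σ) (hγ σ) _

omit hR in
theorem geo_m_eq {Γ : Type*} (γ : Γ → SemilinearAut K F) (hγ : ∀ σ, γ σ • O = O) (σ : Γ)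
    (u : Pic0.torsion K F n) : mT O n (γ σ • u) = mT O n u := by
  unfold mT
  rw [SemilinearAut.coe_torsion_smul]
  exact redDeg0_smul hS O (γ σ) (hγ σ) _

theorem geo_m_le (u : Pic0.torsion K F n) : mT O n u ≤ g :=
  redDeg0_le hS hR O _

theorem geo_degree_Dp (u : Pic0.torsion K F n) :
    Divisor.degree (DpT O n u) = mT O n u :=
  degree_redPlus0 hS hR O _

/-- the pole order of `h u` at `O` -/
theorem geo_ord_h_O (u : Pic0.torsion K F n) :
    O.ord (hT O n u) = -((n * mT O n u : ℕ) : ℤ) :=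
  ord_torFun_O hS hR O u.2

/-- `h u` is regular off `O` -/
theorem geo_ord_h_nonneg (u : Pic0.torsion K F n) {P : Place K F} (hP : P ≠ O) :
    0 ≤ P.ord (hT O n u) :=
  ord_torFun_nonneg hS hR O u.2 hP

/-- `h u ∈ L((n g) O)` -/
theorem geo_h_mem_L (u : Pic0.torsion K F n) :
    hT O n u ∈ riemannRochSpace (Finsupp.single O ((n * g : ℕ) : ℤ)) :=
  torFun_mem_L hS hR O u.2

/-- equivariance of `h` up to constants -/
theorem geo_h_smul {Γ : Type*} (γ : Γ → SemilinearAut K F) (hγ : ∀ σ, γ σ • O = O) (σ : Γ)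
    (u : Pic0.torsion K F n) :
    ∃ a : K, a ≠ 0 ∧ γ σ • hT O n u = algebraMap K F a * hT O n (γ σ • u) := by
  unfold hT
  rw [SemilinearAut.coe_torsion_smul]
  exact torFun_smul hS hR O (γ σ) (hγ σ) u.2

end Fields

/-! ### the finite set `T` and the disjointness pack -/

section Pack

variable (O : Place K F) (n : ℕ) [Finite (Pic0.torsion K F n)]

theorem finite_TnSet :
    {P : Place K F | P = O ∨ ∃ u : Pic0.torsion K F n, DpT O n u P ≠ 0}.Finite := by
  have h : {P : Place K F | P = O ∨ ∃ u : Pic0.torsion K F n, DpT O n u P ≠ 0} =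
      {O} ∪ ⋃ u : Pic0.torsion K F n, ((DpT O n u).support : Set (Place K F)) := by
    ext P
    simp only [Set.mem_ofPred_eq, Set.mem_union, Set.mem_singleton_iff, Set.mem_iUnion,
      Finset.mem_coe, Finsupp.mem_support_iff]
  rw [h]
  exact (Set.finite_singleton O).union (Set.finite_iUnion fun u => Finset.finite_toSet _)

/-- `{O} ∪ ⋃_{u ∈ Pic0[n]} supp (Dp u)` -/
def Tn : Finset (Place K F) := (finite_TnSet O n).toFinset

theorem mem_Tn_iff {P : Place K F} :
    P ∈ Tn O n ↔ P = O ∨ ∃ u : Pic0.torsion K F n, DpT O n u P ≠ 0 :=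
  Set.Finite.mem_toFinset _

theorem O_mem_Tn : O ∈ Tn O n := (mem_Tn_iff O n).mpr (Or.inl rfl)

theorem mem_Tn_of_Dp (u : Pic0.torsion K F n) {P : Place K F} (hP : DpT O n u P ≠ 0) :
    P ∈ Tn O n :=
  (mem_Tn_iff O n).mpr (Or.inr ⟨u, hP⟩)

variable (hS : RiemannSetting K F) {g : ℕ}
  (hR : ∀ D : Divisor K F, Divisor.degree D + 1 ≤ (ell D : ℤ) + g)

include hS hR

/-- `T` is stable under the operators -/
theorem smul_mem_Tn {Γ : Type*} (γ : Γ → SemilinearAut K F) (hγ : ∀ σ, γ σ • O = O) (σ : Γ)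
    {P : Place K F} (hP : P ∈ Tn O n) : γ σ • P ∈ Tn O n := by
  rcases (mem_Tn_iff O n).mp hP with rfl | ⟨u, hne⟩
  · rw [hγ σ]
    exact O_mem_Tn _ n
  · refine mem_Tn_of_Dp O n (γ σ • u) ?_
    rw [geo_Dp_eq hS hR O n γ hγ, SemilinearAut.divisor_smul_apply_smul]
    exact hne

/-- the field `h_E` of `WeilGeo` (and `Disj (h u) Ry` of `move`) -/
theorem geo_h_E {E : Divisor K F} (hE : ∀ P ∈ Tn O n, E P = 0) (u : Pic0.torsion K F n) :
    Disj (hT O n u) E :=
  disj_torFun hS hR O u.2 (hE O (O_mem_Tn O n))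
    (fun P hP => hE P (mem_Tn_of_Dp O n u hP))

omit hS hR in
/-- the supports of `Dp u - m u • O` and of a divisor off `T` are disjoint -/
theorem geo_disjoint {X : Divisor K F} (hX : ∀ P ∈ Tn O n, X P = 0)
    (u : Pic0.torsion K F n) :
    Disjoint (DpT O n u - mT O n u • Finsupp.single O (1 : ℤ)).support X.support := by
  classical
  rw [Finset.disjoint_left]
  intro P hP hPX
  have hPX' : X P ≠ 0 := Finsupp.mem_support_iff.mp hPX
  apply hPX'
  apply hX
  by_cases hPO : P = O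
  · rw [hPO]
    exact O_mem_Tn O n
  · apply mem_Tn_of_Dp O n u
    intro h0
    have hP' := Finsupp.mem_support_iff.mp hP
    apply hP'
    rw [Finsupp.sub_apply, Finsupp.smul_apply, Finsupp.single_apply, if_neg (Ne.symm hPO), h0]
    simp

omit hR in
/-- `Disj hy (Dp u)` for `div hy = n • X`, `X` off `T` -/
theorem geo_disj_hy {X : Divisor K F} (hX : ∀ P ∈ Tn O n, X P = 0) {hy : F}
    (hdiv : IsDivOf hy (n • X)) (u : Pic0.torsion K F n) : Disj hy (DpT O n u) := by
  refine ⟨hdiv.1, fun P hP => ?_⟩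
  rw [← hdiv.2 P, Finsupp.smul_apply, hX P (mem_Tn_of_Dp O n u hP), smul_zero]

omit hR in
/-- `O.ord hy = 0` for `div hy = n • X`, `X` off `T` -/
theorem geo_ord_hy {X : Divisor K F} (hX : ∀ P ∈ Tn O n, X P = 0) {hy : F}
    (hdiv : IsDivOf hy (n • X)) : O.ord hy = 0 := by
  rw [← hdiv.2 O, Finsupp.smul_apply, hX O (O_mem_Tn O n), smul_zero]

end Pack

end Fermat.Agent.T6.helper74

end
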