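/-
T6 (S19 / S32), helper97: **[I3b] MOVE** - representatives of a class off a finite set of the
special fibre.

Setting: `S : S37.helper16.RedSetting M A` (good level `M`, `A` a valuation ring of `ℚ̄` over
`ℓ ∤ M`), `S.rP` the reduction of places, `S.Pinf`, `S.Qinf` the places at infinity.

* `exists_residual_off` : for `D ≥ 0`, `n ≥ deg D + S.n₀` and a finite set `T` of places of the
  special fibre there is `f ∈ L(n ∞ - D)`, `f ≠ 0`, whose residual divisor
  `R = div f + n ∞ - D ≥ 0` has no point reducing into `T` or to `∞̄`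
  (exact orders on the special fibre: `helper98.exists_exact`; lifting: KM-LAT `W_eq`;
  conservation of the divisor: S37 `rouche`);
* `exists_move_Ry`      : **[I3b]**: if `div φ = E - d ∞` (`d > 0`), the class of
  `D - (deg D) ∞` is the class of `c E - R` with `c > 0` arbitrarily large, `R ≥ 0`,
  `deg R = c d`, no point of `R` reducing into `T` or to `∞̄`
  (`div (φ ^ c / f) = (c E - R) - (D - (deg D) ∞)`).
-/
import Mathlib
import Fermat.Agent.T6.helper16_KmLat
import Fermat.Agent.T6.helper98_KMRR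
import Fermat.Agent.T6.helper26_PVal
import Fermat.Agent.P2.helper95_FFlInst

set_option autoImplicit false
set_option synthInstance.maxHeartbeats 400000
set_option linter.style.haveILetI false
set_option linter.unusedSectionVars false
set_option linter.unusedVariables false
set_option linter.style.longLine false

noncomputable section

namespace Fermat.Agent.T6.helper97

open HahnSeries IntermediateField AlgebraicCurve ModularCurve
open Fermat.Agent.S18.helper19 Fermat.Agent.P2.helper29 Fermat.Agent.P2.helper22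
open Fermat.Agent.S24
open Fermat.Agent.S37.helper16

/-! ### push-forward of effective divisors -/

section MapDomain

variable {α β : Type*}

theorem mapDomain_apply_eq_sum [DecidableEq β] (g : α → β) (R : α →₀ ℤ) (b : β) :
    Finsupp.mapDomain g R b = ∑ a ∈ R.support, if g a = b then R a else 0 := by
  rw [Finsupp.mapDomain, Finsupp.sum, Finsupp.finsetSum_apply]
  refine Finset.sum_congr rfl fun a _ => ?_
  rw [Finsupp.single_apply]

/-- if the push-forward of an effective divisor vanishes at `b`, the divisor vanishes on the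
fibre of `b` -/
theorem eq_zero_of_mapDomain_eq_zero (g : α → β) (R : α →₀ ℤ) (hR : ∀ a, 0 ≤ R a) (b : β)
    (h : Finsupp.mapDomain g R b = 0) (a : α) (ha : g a = b) : R a = 0 := by
  classical
  by_contra hne
  have hmem : a ∈ R.support := Finsupp.mem_support_iff.mpr hne
  rw [mapDomain_apply_eq_sum] at h
  have h0 := (Finset.sum_eq_zero_iff_of_nonneg (fun x _ => by
    split_ifs
    · exact hR x
    · exact le_rfl)).mp h a hmem
  rw [if_pos ha] at h0
  exact hne h0

end MapDomain

variable {M : ℕ} [NeZero M] {A : ValuationSubring Kb}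

/-- shortcut instance (slow to find by synthesis) -/
local instance algebraFFbMv : Algebra (kA A) (FFb A M) := SubalgebraClass.toAlgebra (FFb A M)

variable (S : RedSetting M A)

/-- **[I3b] MOVE, residual form.**  For an effective divisor `D` and `n ≥ deg D + n₀` there is a
section `f ∈ L(n ∞ - D)` whose residual divisor `R = div f + n ∞ - D` has no point reducing into
a given finite set `T` of places of the special fibre, nor to `∞̄`. -/
theorem exists_residual_off {D : Divisor Kb (FF M)} (hD : ∀ v, 0 ≤ D v) {n : ℤ}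
    (hn : Divisor.degree D + S.n₀ ≤ n) (T : Finset (Place (kA A) (FFb A M))) :
    ∃ (f : FF M) (R : Divisor Kb (FF M)), f ≠ 0 ∧
      (∀ P, R P = P.ord f + Finsupp.single S.Pinf n P - D P) ∧ (∀ P, 0 ≤ R P) ∧
      Divisor.degree R = n - Divisor.degree D ∧
      ∀ P, R P ≠ 0 → S.rP P ∉ T ∧ S.rP P ≠ S.Qinf := by
  classical
  haveI : IsAlgClosed (kA A) := Fermat.Agent.P2.helper95.isAlgClosed_residueField A
  haveI : Infinite (kA A) := IsAlgClosed.instInfinite
  have hS := riemannSetting_FF M
  set Db : Divisor (kA A) (FFb A M) := Finsupp.mapDomain S.rP D with hDb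
  set Xb : Divisor (kA A) (FFb A M) := Finsupp.single S.Qinf n - Db with hXb
  have hdegDb : Divisor.degree Db = Divisor.degree D := by
    rw [hDb, ← S.Eplus_eq_mapDomain hD, S.degree_Eplus hD]
  have hdegXb : Divisor.degree Xb = n - Divisor.degree D := by
    rw [hXb, map_sub, degree_single_of S.hSb, hdegDb]
  obtain ⟨sb, hsb, hsb0, hord⟩ := Fermat.Agent.T6.helper98.exists_exact S.hSb S.hcb (D := Xb)
    (by rw [hdegXb]; have := S.cb_lt_n₀; omega) (insert S.Qinf T)
  rw [hXb, hDb, ← Fermat.Agent.T6.helper16.W_eq_mapDomain S hD hn] at hsb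
  obtain ⟨Z, ⟨f, hf, hfZ⟩, hZ⟩ := hsb
  have hZ0 : red A Z ≠ 0 := by
    rw [hZ]
    exact fun h => hsb0 (Subtype.ext h)
  have hf0 : f ≠ 0 := by
    rintro rfl
    apply hZ0
    have h0 : incl A Z = 0 := by rw [← hfZ]; rfl
    have hZz : Z = 0 := by
      have hinj : Function.Injective (incl A) := Fermat.Agent.P2.helper74.coeffMap_subtype_injective A
      exact hinj (by rw [h0, map_zero])
    rw [hZz, map_zero]
  obtain ⟨Df, hDf, hDfdeg⟩ := hS.principal.exists_divisor f hf0
  have hfL := (Fermat.Agent.P2.helper74.mem_L_iff' hf0).mp hf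
  refine ⟨f, Df + Finsupp.single S.Pinf n - D, hf0, fun P => ?_, fun P => ?_, ?_, ?_⟩
  · rw [Finsupp.sub_apply, Finsupp.add_apply, hDf]
  · have := hfL P
    unfold RedSetting.XD at this
    rw [Finsupp.sub_apply] at this
    rw [Finsupp.sub_apply, Finsupp.add_apply, hDf]
    omega
  · rw [map_sub, map_add, hDfdeg, degree_single_of hS, zero_add]
  · -- the reduction
    have hL : InL (FF M) n (incl A Z) := by
      rw [← hfZ]
      exact inL_of_mem_L S.hPinf (S.XD_le hD n) hf
    have hb : red A Z ∈ FFb A M := by rw [hZ]; exact sb.2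
    have hfeq : (⟨incl A Z, hL.1⟩ : FF M) = f := Subtype.ext hfZ.symm
    have hsbeq : (⟨red A Z, hb⟩ : FFb A M) = sb := Subtype.ext hZ
    have hrou : ∀ Q, Finsupp.mapDomain S.rP Df Q = Q.ord sb := by
      intro Q
      have := S.rouche hL hb hZ0 Df (fun P => by rw [hfeq, hDf]) Q
      rw [hsbeq] at this
      exact this
    have hR0 : ∀ P, 0 ≤ (Df + Finsupp.single S.Pinf n - D) P := by
      intro P
      have := hfL P
      unfold RedSetting.XD at this
      rw [Finsupp.sub_apply] at this
      rw [Finsupp.sub_apply, Finsupp.add_apply, hDf]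
      omega
    have hmap : ∀ Q ∈ insert S.Qinf T,
        Finsupp.mapDomain S.rP (Df + Finsupp.single S.Pinf n - D) Q = 0 := by
      intro Q hQ
      rw [Finsupp.mapDomain_sub, Finsupp.mapDomain_add, Finsupp.mapDomain_single, S.rP_Pinf,
        Finsupp.sub_apply, Finsupp.add_apply, hrou Q, hord Q hQ, hXb, Finsupp.sub_apply]
      ring
    intro P hP
    have key : ∀ Q ∈ insert S.Qinf T, S.rP P ≠ Q := by
      intro Q hQ hPQ
      exact hP (eq_zero_of_mapDomain_eq_zero S.rP _ hR0 Q (hmap Q hQ) P hPQ)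
    exact ⟨fun hT => key _ (Finset.mem_insert_of_mem hT) rfl,
      fun hq => key S.Qinf (Finset.mem_insert_self _ _) hq⟩

/-- **[I3b] MOVE.**  `E` the zero divisor of a function `φ` with poles only at `∞`
(`div φ = E - d ∞`, `d > 0`), `D ≥ 0` any effective divisor, `T` a finite set of places of the
special fibre.  Then the class of `D - (deg D) ∞` is represented by `c E - R` with `c > 0` and
`R ≥ 0` of degree `c d`, no point of `R` reducing into `T` or to `∞̄`. -/
theorem exists_move_Ry {E : Divisor Kb (FF M)} {φ : FF M} (hφ0 : φ ≠ 0) {d : ℕ} (hd : 0 < d)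
    (hφ : ∀ P, P.ord φ = E P - Finsupp.single S.Pinf (d : ℤ) P)
    {D : Divisor Kb (FF M)} (hD : ∀ v, 0 ≤ D v) (T : Finset (Place (kA A) (FFb A M)))
    (c₀ : ℕ) :
    ∃ (cc : ℕ) (Ry : Divisor Kb (FF M)) (g : FF M), c₀ ≤ cc ∧ 0 < cc ∧ g ≠ 0 ∧ (∀ P, 0 ≤ Ry P) ∧
      Divisor.degree Ry = (cc : ℤ) * d ∧
      (∀ P, P.ord g = (cc • E - Ry) P - (D - Finsupp.single S.Pinf (Divisor.degree D)) P) ∧
      ∀ P, Ry P ≠ 0 → S.rP P ∉ T ∧ S.rP P ≠ S.Qinf := by
  classical
  have hS := riemannSetting_FF M
  set cc : ℕ := max c₀ (S.n₀.toNat + 1) with hcc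
  have hccpos : 0 < cc := lt_of_lt_of_le (Nat.succ_pos _) (le_max_right _ _)
  have hccn : S.n₀ ≤ (cc : ℤ) * d := by
    have h1 : S.n₀ ≤ (S.n₀.toNat : ℤ) := Int.self_le_toNat _
    have h2 : (S.n₀.toNat : ℤ) + 1 ≤ (cc : ℤ) := by
      have := le_max_right c₀ (S.n₀.toNat + 1)
      exact_mod_cast this
    have h3 : (1 : ℤ) ≤ d := by exact_mod_cast hd
    have h4 : (0 : ℤ) ≤ cc := Int.natCast_nonneg _
    nlinarith
  obtain ⟨f, R, hf0, hR, hR0, hRdeg, hoff⟩ := exists_residual_off S hD
    (n := (cc : ℤ) * d + Divisor.degree D) (by omega) T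
  refine ⟨cc, R, φ ^ cc / f, le_max_left _ _, hccpos, div_ne_zero (pow_ne_zero _ hφ0) hf0, hR0,
    by rw [hRdeg]; ring, fun P => ?_, hoff⟩
  have h1 : P.ord (φ ^ cc / f) = cc * P.ord φ - P.ord f := by
    rw [div_eq_mul_inv, P.ord_mul (pow_ne_zero _ hφ0) (inv_ne_zero hf0), Place.ord_inv,
      ← zpow_natCast, P.ord_zpow]
    ring
  rw [h1, hφ P, Finsupp.sub_apply, Finsupp.sub_apply, Finsupp.smul_apply, hR P]
  simp only [Finsupp.single_apply, nsmul_eq_mul]
  split_ifs <;> ring

end Fermat.Agent.T6.helper97
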