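/-
T6 (S19 / S32), helper97: **[HNAT]** - the scale-free torsion functions
`h_u^♮ = h_u(E)⁻¹ • h_u ^ d` at a reduction setting, in the vocabulary of `helper3.WeilGeo`
(`h := helper74.hT (inftyBar M) n`, `Dp := DpT`, `T = helper74.Tn (inftyBar M) n`).

Generic (`RiemannSetting K F`):
* `natFun f E d = (dval f E)⁻¹ • f ^ d`; `natFun_const_mul` (independent of the scaling of `f`
  when `deg E = d`), `natFun_smul` (semilinear compatibility), `ord_natFun`.

At `S : S37.helper16.RedSetting M A`:
* `valuation_pval_eq_one`, `valuation_dval_eq_one` : unit values of a good function at places /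
  divisors whose fibres contain no zero and no pole;
* `exists_isGood_natFun` : `h ∈ L(n ∞)`, no point of `E` in the fibre of a zero or pole of `h`
  ⟹ `h^♮` has an `A`-integral `q`-expansion with nonzero reduction;
* `OffT S n X` : the points of `X` reduce outside the reductions of the points of `T`;
  `OffT.disj_hT`, `OffT.ord_hT_eq_zero`, `OffT.apply_eq_zero`, `OffT.rP_ne_Qinf`;
* `exists_dval_natFun_mul_eq_one` : **`hunit`** of `WeilGeo.move` for every divisor `R` off `T`;
* `natFun_hT_smul` : `h_(σ u)^♮ = σ • h_u^♮`;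
* `hnat_coords` : **[HNAT]** the fields `r`, `v`, `c`, `hnat`, `c_mem`, `c_eq` of `WeilGeo`
  (basis = `helper23.exists_ratBasis_FF` of `L(d n g ∞)`), the `v i` fixed by Galois, regular
  with values in `A` at every place which does not reduce to `∞̄`;
* `exists_Ry_offT` : **[I3b]** for a class `y`: `IsRep (c E - R_y) y`, `R_y ≥ 0`,
  `deg R_y = c d`, `OffT S n R_y`.
-/
import Mathlib
import Fermat.Agent.T6.helper74_RedDivW
import Fermat.Agent.T6.helper74_RedDivFF
import Fermat.Agent.T6.helper81_PlaceRedValInst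
import Fermat.Agent.T6.helper23_RatBasis
import Fermat.Agent.S37.helper61_RedDivP
import Fermat.Agent.T6.helper26_PVal
import Fermat.Agent.T6.helper74_GeoI1
import Fermat.Agent.T6.helper81_PValRed
import Fermat.Agent.T6.helper97_MoveR

set_option autoImplicit false
set_option synthInstance.maxHeartbeats 400000
set_option linter.style.haveILetI false
set_option linter.unusedSectionVars false
set_option linter.unusedVariables false
set_option linter.style.longLine false

noncomputable section

namespace Fermat.Agent.T6.helper97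

open AlgebraicCurve
open Fermat.Agent.P2.helper74 Fermat.Agent.T6.helper26

/-! ### The scale-free function `f ^ d / f(E)` (generic) -/

section Generic

variable {K F : Type*} [Field K] [Field F] [Algebra K F]

/-- the scale-free function `f^♮ = f(E)⁻¹ • f ^ d` -/
def natFun (f : F) (E : Divisor K F) (d : ℕ) : F := (dval f E)⁻¹ • f ^ d

variable (hS : RiemannSetting K F)

include hS

/-- `f^♮` does not depend on the scaling of `f` if `deg E = d`. -/
theorem natFun_const_mul {f : F} {E : Divisor K F} {d : ℕ} (hE : Divisor.degree E = d)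
    (hf : Disj f E) {a : K} (ha : a ≠ 0) :
    natFun (algebraMap K F a * f) E d = natFun f E d := by
  unfold natFun
  rw [dval_mul hS (Disj.const ha E) hf, dval_algebraMap hS ha, hE, zpow_natCast, mul_pow,
    Algebra.smul_def, Algebra.smul_def, ← mul_assoc, ← map_pow, ← map_mul]
  congr 2
  have h1 : dval f E ≠ 0 := dval_ne_zero hS hf
  have h2 : a ^ d ≠ 0 := pow_ne_zero _ ha
  field_simp

omit hS in
/-- semilinear compatibility of `f^♮` -/
theorem natFun_smul (σ : SemilinearAut K F) (f : F) (E : Divisor K F) (d : ℕ) :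
    σ • natFun f E d = natFun (σ • f) (σ • E) d := by
  unfold natFun
  rw [dval_smul, Algebra.smul_def, Algebra.smul_def, smul_mul', SemilinearAut.smul_algebraMap,
    smul_pow', map_inv₀]

theorem natFun_ne_zero {f : F} {E : Divisor K F} (d : ℕ) (hf : Disj f E) :
    natFun f E d ≠ 0 := by
  unfold natFun
  rw [Algebra.smul_def]
  refine mul_ne_zero (fun h => ?_) (pow_ne_zero _ hf.ne_zero)
  exact inv_ne_zero (dval_ne_zero hS hf) ((map_eq_zero _).mp h)

theorem ord_natFun {f : F} {E : Divisor K F} (d : ℕ) (hf : Disj f E) (P : Place K F) :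
    P.ord (natFun f E d) = d * P.ord f := by
  unfold natFun
  rw [Algebra.smul_def, P.ord_mul (fun h => inv_ne_zero (dval_ne_zero hS hf)
    ((map_eq_zero _).mp h)) (pow_ne_zero _ hf.ne_zero), ord_const, zero_add, ← zpow_natCast,
    P.ord_zpow]

end Generic

/-! ### Unit values and integrality at a reduction setting -/

section Modular

open HahnSeries IntermediateField ModularCurve
open Fermat.Agent.S18.helper19 Fermat.Agent.P2.helper29 Fermat.Agent.P2.helper22
open Fermat.Agent.S24 Fermat.Agent.S37.helper16 Fermat.Agent.T6.helper81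

variable {M : ℕ} [NeZero M] {A : ValuationSubring Kb}

/-- shortcut instance (slow to find by synthesis) -/
local instance algebraFFbHn : Algebra (kA A) (FFb A M) := SubalgebraClass.toAlgebra (FFb A M)

variable (S : RedSetting M A)

/-- **unit values**: a good function has a unit value at every place whose fibre (for the
reduction of places) contains no zero and no pole. -/
theorem valuation_pval_eq_one {Y : LaurentSeries A} (hY : IsGood A M Y) {P : Place Kb (FF M)}
    (hzp : ∀ P', S.rP P' = S.rP P → P'.ord (toF hY) = 0) :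
    A.valuation (pval P (toF hY)) = 1 := by
  have hS := Fermat.Agent.P2.helper74.riemannSetting_FF (M := M)
  have h0 : (0 : ℤ) ≤ P.ord (toF hY) := le_of_eq (hzp P rfl).symm
  have hc : ValAt P (toF hY) (pval P (toF hY)) := isVal_pval hS h0
  obtain ⟨hcA, hu⟩ := val_isUnit S (redOfM_of_isGood hY) (toFb_ne_zero hY) hc hzp
  exact (ValuationSubring.valuation_eq_one_iff A ⟨_, hcA⟩).mp hu

/-- the value of a good function on a divisor whose points have fibres without zeros and poles
of the function is a unit of `A`. -/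
theorem valuation_dval_eq_one {Y : LaurentSeries A} (hY : IsGood A M Y) (D : Divisor Kb (FF M))
    (hzp : ∀ P, D P ≠ 0 → ∀ P', S.rP P' = S.rP P → P'.ord (toF hY) = 0) :
    A.valuation (dval (toF hY) D) = 1 := by
  rw [dval_eq_prod, map_prod]
  refine Finset.prod_eq_one fun P hP => ?_
  rw [map_zpow₀, valuation_pval_eq_one S hY (hzp P (Finsupp.mem_support_iff.mp hP)), one_zpow]

/-- **integrality of the scale-free function**: if `h ∈ L(n ∞)` and no point of `E` lies in the
fibre of a zero or of a pole of `h`, then `h^♮ = h(E)⁻¹ • h ^ d` (`d = deg E`) has an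
`A`-integral `q`-expansion with nonzero reduction. -/
theorem exists_isGood_natFun {n : ℤ} {h : FF M} (hL : InL (FF M) n (h : LaurentSeries Kb))
    {E : Divisor Kb (FF M)} {d : ℕ} (hEdeg : Divisor.degree E = d) (hdisj : Disj h E)
    (hzp : ∀ P, E P ≠ 0 → ∀ P', S.rP P' = S.rP P → P'.ord h = 0) :
    ∃ (Y : LaurentSeries A) (hY : IsGood A M Y), toF hY = natFun h E d := by
  have hS := Fermat.Agent.P2.helper74.riemannSetting_FF (M := M)
  have h0 : h ≠ 0 := hdisj.ne_zero
  have h0' : (h : LaurentSeries Kb) ≠ 0 := fun e => h0 (Subtype.ext e)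
  obtain ⟨c, Y₀, hc, hY₀, hgood⟩ :=
    Fermat.Agent.S37.helper61.exists_scaled_integral S.hPinf S.hSc S.hInt hL h0'
  have hh' : toF hgood = algebraMap Kb (FF M) c * h := by
    apply Subtype.ext
    show incl A Y₀ = _
    rw [hY₀, ← Algebra.smul_def, coe_smul_eq]
  have hdisj' : Disj (toF hgood) E := by
    rw [hh']
    exact (Disj.const hc E).mul hdisj
  have hord : ∀ P : Place Kb (FF M), P.ord (toF hgood) = P.ord h := by
    intro P
    rw [hh', P.ord_mul ((map_ne_zero _).mpr hc) h0, ord_const, zero_add]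
  have hv : A.valuation (dval (toF hgood) E) = 1 :=
    valuation_dval_eq_one S hgood E (fun P hP P' hP' => by rw [hord]; exact hzp P hP P' hP')
  have hnat : natFun h E d = natFun (toF hgood) E d := by
    rw [hh', natFun_const_mul hS hEdeg hdisj hc]
  have hvi : A.valuation (dval (toF hgood) E)⁻¹ = 1 := by rw [map_inv₀, hv, inv_one]
  have heA : (dval (toF hgood) E)⁻¹ ∈ A := (A.valuation_le_one_iff _).mp (le_of_eq hvi)
  have heu : IsUnit (⟨_, heA⟩ : A) := (ValuationSubring.valuation_eq_one_iff A ⟨_, heA⟩).mpr hvi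
  have hincl : incl A ((⟨_, heA⟩ : A) • Y₀ ^ d) =
      ((natFun (toF hgood) E d : FF M) : LaurentSeries Kb) := by
    rw [incl_smul, map_pow]
    unfold natFun
    rw [coe_smul_eq]
    rfl
  have hred : red A ((⟨_, heA⟩ : A) • Y₀ ^ d) =
      IsLocalRing.residue A ⟨_, heA⟩ • (red A Y₀) ^ d := by
    rw [red_smul, map_pow]
  have hgood' : IsGood A M ((⟨_, heA⟩ : A) • Y₀ ^ d) := by
    refine ⟨?_, ?_, ?_⟩
    · show incl A _ ∈ FF M
      rw [hincl]
      exact (natFun (toF hgood) E d).2
    · show red A _ ∈ FFb A M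
      rw [hred]
      have h1 := (IsLocalRing.residue A ⟨_, heA⟩ • (toFb hgood) ^ d : FFb A M).2
      rw [coe_smul_eq] at h1
      exact h1
    · show red A _ ≠ 0
      rw [hred]
      refine smul_ne_zero ?_ (pow_ne_zero _ hgood.2.2)
      intro h0
      exact ((IsLocalRing.residue_ne_zero_iff_isUnit _).mpr heu) h0
  refine ⟨_, hgood', ?_⟩
  rw [hnat]
  exact Subtype.ext hincl

/-! ### The scale-free torsion functions: coordinates, integrality, equivariance, unit values -/

open Fermat.Agent.T6.helper74 in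
/-- the points of `X` reduce outside the reductions of the points of
`T = {∞} ∪ ⋃_u supp (D_u⁺)` -/
def OffT (n : ℕ) [Finite (Pic0.torsion Kb (FF M) n)] (X : Divisor Kb (FF M)) : Prop :=
  ∀ P, X P ≠ 0 → ∀ P' ∈ Tn (inftyBar M) n, S.rP P' ≠ S.rP P

section Tors

open Fermat.Agent.T6.helper74

variable (n : ℕ) [Finite (Pic0.torsion Kb (FF M) n)]

theorem Pinf_eq : S.Pinf = inftyBar M := IsInfty.unique (FF M) S.hPinf (isInfty_inftyBar M)

variable {S n}

theorem OffT.apply_eq_zero {X : Divisor Kb (FF M)} (hX : OffT S n X) :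
    ∀ P ∈ Tn (inftyBar M) n, X P = 0 := by
  intro P hP
  by_contra hne
  exact hX P hne P hP rfl

theorem OffT.rP_ne_Qinf {X : Divisor Kb (FF M)} (hX : OffT S n X) {P : Place Kb (FF M)}
    (hP : X P ≠ 0) : S.rP P ≠ S.Qinf := by
  intro h
  refine hX P hP (inftyBar M) (O_mem_Tn _ n) ?_
  rw [h, ← Pinf_eq S, S.rP_Pinf]

/-- no zero and no pole of `h_u` lies in the fibre of a point of a divisor off `T` -/
theorem OffT.ord_hT_eq_zero {X : Divisor Kb (FF M)} (hX : OffT S n X)
    (u : Pic0.torsion Kb (FF M) n) {P : Place Kb (FF M)} (hP : X P ≠ 0)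
    {P' : Place Kb (FF M)} (hP' : S.rP P' = S.rP P) : P'.ord (hT (inftyBar M) n u) = 0 := by
  have hS := Fermat.Agent.P2.helper74.riemannSetting_FF (M := M)
  have hnot : P' ∉ Tn (inftyBar M) n := fun hmem => hX P hP P' hmem hP'
  have hO : P' ≠ inftyBar M := fun h => hnot (h ▸ O_mem_Tn _ n)
  have hD : DpT (inftyBar M) n u P' = 0 := by
    by_contra hne
    exact hnot (mem_Tn_of_Dp _ n u hne)
  exact ord_torFun_eq_zero hS (riemann_ineq_FF M) (inftyBar M) u.2 hO hD

theorem OffT.disj_hT {X : Divisor Kb (FF M)} (hX : OffT S n X)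
    (u : Pic0.torsion Kb (FF M) n) : Disj (hT (inftyBar M) n u) X :=
  geo_h_E (inftyBar M) n (Fermat.Agent.P2.helper74.riemannSetting_FF (M := M))
    (riemann_ineq_FF M) hX.apply_eq_zero u

omit [Finite (Pic0.torsion Kb (FF M) n)] in
/-- `h_u ∈ L(n g ∞)` in the `InL` form -/
theorem inL_hT (u : Pic0.torsion Kb (FF M) n) :
    InL (FF M) ((n * genusFF M : ℕ) : ℤ) ((hT (inftyBar M) n u : FF M) : LaurentSeries Kb) := by
  rw [inL_iff_mem (isInfty_inftyBar M)]
  exact ⟨(hT (inftyBar M) n u).2,
    geo_h_mem_L (Fermat.Agent.P2.helper74.riemannSetting_FF (M := M)) (riemann_ineq_FF M)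
      (inftyBar M) n u⟩

omit [Finite (Pic0.torsion Kb (FF M) n)] in
theorem inL_pow {N : ℤ} {f : LaurentSeries Kb} (hf : InL (FF M) N f) (d : ℕ) :
    InL (FF M) (d * N) (f ^ d) := by
  induction d with
  | zero =>
    rw [pow_zero, Nat.cast_zero, zero_mul]
    exact Fermat.Agent.P2.helper29.inL_one
  | succ d ih =>
    rw [pow_succ]
    have := ih.mul hf
    have e : (d : ℤ) * N + N = ((d + 1 : ℕ) : ℤ) * N := by push_cast; ring
    rw [e] at this
    exact this

/-- `h_u^♮ ∈ L(d n g ∞)` -/
theorem inL_natFun (u : Pic0.torsion Kb (FF M) n) (E : Divisor Kb (FF M)) (d : ℕ) :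
    InL (FF M) ((d : ℤ) * ((n * genusFF M : ℕ) : ℤ))
      ((natFun (hT (inftyBar M) n u) E d : FF M) : LaurentSeries Kb) := by
  unfold natFun
  rw [coe_smul_eq]
  exact inL_smul (isInfty_inftyBar M) (inL_pow (inL_hT u) d) _

/-- **integrality of `h_u^♮`** -/
theorem exists_isGood_natFun_hT {E : Divisor Kb (FF M)} {d : ℕ} (hEdeg : Divisor.degree E = d)
    (hE : OffT S n E) (u : Pic0.torsion Kb (FF M) n) :
    ∃ (Y : LaurentSeries A) (hY : IsGood A M Y), toF hY = natFun (hT (inftyBar M) n u) E d :=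
  exists_isGood_natFun S (inL_hT u) hEdeg (hE.disj_hT u)
    (fun P hP P' hP' => hE.ord_hT_eq_zero u hP hP')

/-- **unit values of `h_u^♮`** on every divisor off `T` -/
theorem exists_dval_natFun_mul_eq_one {E : Divisor Kb (FF M)} {d : ℕ}
    (hEdeg : Divisor.degree E = d) (hE : OffT S n E) {R : Divisor Kb (FF M)} (hR : OffT S n R)
    (u : Pic0.torsion Kb (FF M) n) :
    ∃ x ∈ A, dval ((dval (hT (inftyBar M) n u) E)⁻¹ • hT (inftyBar M) n u ^ d) R * x = 1 := by
  have hS := Fermat.Agent.P2.helper74.riemannSetting_FF (M := M)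
  obtain ⟨Y, hY, hYe⟩ := exists_isGood_natFun_hT hEdeg hE u
  have hv : A.valuation (dval (toF hY) R) = 1 := by
    refine valuation_dval_eq_one S hY R (fun P hP P' hP' => ?_)
    rw [hYe, ord_natFun hS d (hE.disj_hT u), hR.ord_hT_eq_zero u hP hP', mul_zero]
  rw [hYe] at hv
  have hne : dval (natFun (hT (inftyBar M) n u) E d) R ≠ 0 := by
    intro h0
    rw [h0, map_zero] at hv
    exact zero_ne_one hv
  refine ⟨(dval (natFun (hT (inftyBar M) n u) E d) R)⁻¹, ?_, mul_inv_cancel₀ hne⟩
  exact (A.valuation_le_one_iff _).mp (le_of_eq (by rw [map_inv₀, hv, inv_one]))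

end Tors

section Coords

open Fermat.Agent.T6.helper74

variable {S} {n : ℕ} [Finite (Pic0.torsion Kb (FF M) n)]

/-- equivariance of the scale-free torsion functions -/
theorem natFun_hT_smul {E : Divisor Kb (FF M)} {d : ℕ} (hEdeg : Divisor.degree E = d)
    (hE : OffT S n E) (σ : Kb ≃ₐ[ℚ] Kb) (hEfix : galAut M σ • E = E)
    (u : Pic0.torsion Kb (FF M) n) :
    natFun (hT (inftyBar M) n (galAut M σ • u)) E d =
      galAut M σ • natFun (hT (inftyBar M) n u) E d := by
  have hS := Fermat.Agent.P2.helper74.riemannSetting_FF (M := M)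
  obtain ⟨a, ha, hsm⟩ := geo_h_smul hS (riemann_ineq_FF M) (inftyBar M) n (galAut M)
    (galAut_smul_inftyBar M) σ u
  rw [natFun_smul, hEfix, hsm, natFun_const_mul hS hEdeg (hE.disj_hT _) ha]

/-- **[HNAT]**: the scale-free torsion functions `h_u^♮ = h_u(E)⁻¹ • h_u ^ d` have coordinates
`c_i(u) ∈ A`, equivariant under `Gal(ℚ̄/ℚ)`, in an `A`-integral Galois-fixed basis `v_i` of
`L(d n g ∞)`; the `v_i` are regular with values in `A` at every place which does not reduce to
`∞̄`. -/
theorem hnat_coords (hA : PrimeToLevel M A) {E : Divisor Kb (FF M)} {d : ℕ}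
    (hEdeg : Divisor.degree E = d) (hE : OffT S n E)
    (hEfix : ∀ σ : Kb ≃ₐ[ℚ] Kb, galAut M σ • E = E) :
    ∃ (r : ℕ) (v : Fin r → FF M) (c : Fin r → Pic0.torsion Kb (FF M) n → Kb),
      (∀ u, (dval (hT (inftyBar M) n u) E)⁻¹ • hT (inftyBar M) n u ^ d = ∑ i, c i u • v i) ∧
      (∀ i u, c i u ∈ A) ∧
      (∀ i (σ : Kb ≃ₐ[ℚ] Kb) u,
        c i (galAut M σ • u) = SemilinearAut.baseAut (galAut M σ) (c i u)) ∧
      (∀ i (σ : Kb ≃ₐ[ℚ] Kb), galAut M σ • v i = v i) ∧
      (∀ i (P : Place Kb (FF M)), S.rP P ≠ S.Qinf → 0 ≤ P.ord (v i) ∧ pval P (v i) ∈ A) := by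
  classical
  obtain ⟨r, ψ, Yψ, m, hψL, hψY, hψfix, -, -, -, hexp⟩ :=
    Fermat.Agent.T6.helper23.exists_ratBasis_FF M A hA ((d : ℤ) * ((n * genusFF M : ℕ) : ℤ))
  refine ⟨r, ψ, fun i u =>
    ((natFun (hT (inftyBar M) n u) E d : FF M) : LaurentSeries Kb).coeff (m i), ?_, ?_, ?_, ?_, ?_⟩
  · intro u
    have h := hexp (natFun (hT (inftyBar M) n u) E d) (inL_natFun u E d)
    have e : (dval (hT (inftyBar M) n u) E)⁻¹ • hT (inftyBar M) n u ^ d =
        natFun (hT (inftyBar M) n u) E d := rfl
    rw [e]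
    conv_lhs => rw [h]
    exact Finset.sum_congr rfl fun i _ => (Algebra.smul_def _ _).symm
  · intro i u
    obtain ⟨Y, hY, hYe⟩ := exists_isGood_natFun_hT hEdeg hE u
    have h1 : ((natFun (hT (inftyBar M) n u) E d : FF M) : LaurentSeries Kb) = incl A Y := by
      rw [← hYe]; rfl
    show ((natFun (hT (inftyBar M) n u) E d : FF M) : LaurentSeries Kb).coeff (m i) ∈ A
    rw [h1, coeffMap_coeff]
    exact (Y.coeff (m i)).2
  · intro i σ u
    show ((natFun (hT (inftyBar M) n (galAut M σ • u)) E d : FF M) : LaurentSeries Kb).coeff (m i)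
      = σ (((natFun (hT (inftyBar M) n u) E d : FF M) : LaurentSeries Kb).coeff (m i))
    rw [natFun_hT_smul hEdeg hE σ (hEfix σ) u, coe_arithmeticGalois_smul, coeffMap_coeff]
    rfl
  · intro i σ
    apply Subtype.ext
    rw [coe_arithmeticGalois_smul, ← coe_arithmeticRingAut_apply, hψfix i σ]
  · intro i P hP
    have hL : InL (FF M) ((d : ℤ) * ((n * genusFF M : ℕ) : ℤ)) (incl A (Yψ i)) := by
      rw [hψY i]; exact hψL i
    have e : (⟨incl A (Yψ i), hL.1⟩ : FF M) = ψ i := Subtype.ext (hψY i)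
    refine ⟨?_, ?_⟩
    · have := Fermat.Agent.T6.helper81.ord_nonneg_of_inL S hL hP P rfl
      rw [e] at this
      exact this
    · have := Fermat.Agent.T6.helper81.pval_mem_of_inL S hL hP
      rw [e] at this
      exact this

end Coords

section Move

open Fermat.Agent.T6.helper74 Fermat.Agent.T6.helper35

variable {S} {n : ℕ} [Finite (Pic0.torsion Kb (FF M) n)]

theorem OffT.sub {X Y : Divisor Kb (FF M)} (hX : OffT S n X) (hY : OffT S n Y) :
    OffT S n (X - Y) := by
  intro P hP
  by_cases h : X P = 0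
  · have : Y P ≠ 0 := by
      intro h0
      apply hP
      rw [Finsupp.sub_apply, h, h0, sub_zero]
    exact hY P this
  · exact hX P h

theorem OffT.nsmul {X : Divisor Kb (FF M)} (hX : OffT S n X) (c : ℕ) : OffT S n (c • X) := by
  intro P hP
  refine hX P fun h0 => hP ?_
  rw [Finsupp.smul_apply, h0, smul_zero]

/-- **[I3b] for the torsion classes**: every class `y` is represented by `c E - R_y`,
`R_y ≥ 0` of degree `c d`, with `R_y` off `T` (in reduction). -/
theorem exists_Ry_offT {E : Divisor Kb (FF M)} {φ : FF M} (hφ0 : φ ≠ 0) {d : ℕ} (hd : 0 < d)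
    (hφ : ∀ P, P.ord φ = E P - Finsupp.single (inftyBar M) (d : ℤ) P)
    (y : Pic0 Kb (FF M)) (c₀ : ℕ) :
    ∃ (cc : ℕ) (Ry : Divisor Kb (FF M)), c₀ ≤ cc ∧ 0 < cc ∧ (∀ P, 0 ≤ Ry P) ∧
      Divisor.degree Ry = (cc : ℤ) * d ∧ IsRep (cc • E - Ry) y ∧ OffT S n Ry := by
  classical
  have hS := Fermat.Agent.P2.helper74.riemannSetting_FF (M := M)
  have hR := riemann_ineq_FF M
  have hrep := isRep_redDiv0 hS (inftyBar M) y
  rw [redDiv0_eq] at hrep
  have hdegD := degree_redPlus0 hS hR (inftyBar M) y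
  obtain ⟨cc, Ry, g, hc₀, hcc, hg0, hRy0, hRydeg, hg, hoff⟩ :=
    exists_move_Ry S hφ0 hd (by rw [Pinf_eq S]; exact hφ)
      (redPlus0_nonneg hS hR (inftyBar M) y) ((Tn (inftyBar M) n).image S.rP) c₀
  refine ⟨cc, Ry, hc₀, hcc, hRy0, hRydeg, ?_, ?_⟩
  · have h1 := hrep.add_divOf hS g
    have e : redPlus0 (inftyBar M) y - Finsupp.single (inftyBar M) (redDeg0 (inftyBar M) y : ℤ)
        + divOf Kb g = cc • E - Ry := by
      ext P
      rw [Finsupp.add_apply, divOf_apply hS, hg P, hdegD, Pinf_eq S]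
      ring
    rw [e] at h1
    exact h1
  · intro P hP P' hP' hne
    exact (hoff P hP).1 (Finset.mem_image.mpr ⟨P', hP', hne⟩)

end Move

end Modular

end Fermat.Agent.T6.helper97
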