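/-
T6 (S19 / S32), helper72: **[HY]** - the second factor of `helper3.WeilGeo.move` at a reduction
setting (second prover next to helper3).

Setting: `S : S37.helper16.RedSetting M A`, `n : ℕ` with `Pic0[n]` finite,
`hM : helper80.IsMoved S T d Y` (the moved function `φ = phiOf hM.lead`, `E = zeroDivE S hM.lead`),
`T ⊇ rP (Tn)`.

* `redOf_pow72`        : powers of reductions;
* `exists_hy72`        : for every class `y ∈ Pic0[n]` a representative `c E - R_y` (`R_y ≥ 0` off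
  `T` in reduction), a function `h_y` with divisor `n (c E - R_y)`, normalised such that
  `h_y⁻¹ = ∑ b_j v'_j` with `b_j ∈ A` and `v'_j = ψ_j / φ ^ (n c)` fixed by Galois, regular with
  values in `A` at the points of the `D_u⁺`, and `h_y(∞) ∈ A`.
-/
import Mathlib
import Fermat.Agent.T6.helper97_HNat
import Fermat.Agent.T6.helper80_MoveE

set_option autoImplicit false
set_option synthInstance.maxHeartbeats 400000
set_option linter.style.haveILetI false
set_option linter.unusedSectionVars false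
set_option linter.unusedVariables false
set_option linter.style.longLine false

noncomputable section

namespace Fermat.Agent.T6.helper72

open AlgebraicCurve
open Fermat.Agent.P2.helper74 Fermat.Agent.T6.helper26
open HahnSeries IntermediateField ModularCurve
open Fermat.Agent.S18.helper19 Fermat.Agent.P2.helper29 Fermat.Agent.P2.helper22
open Fermat.Agent.S24 Fermat.Agent.S37.helper16 Fermat.Agent.T6.helper81
open Fermat.Agent.T6.helper74 Fermat.Agent.T6.helper35 Fermat.Agent.T6.helper73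
open Fermat.Agent.T6.helper80 Fermat.Agent.T6.helper97

variable {M : ℕ} [NeZero M] {A : ValuationSubring Kb}

/-- shortcut instance (slow to find by synthesis) -/
local instance algebraFFbHY72 : Algebra (kA A) (FFb A M) := SubalgebraClass.toAlgebra (FFb A M)

/-- powers of reductions -/
theorem redOf_pow72 {f : FF M} {fb : FFb A M} (hf : RedOfM A M f fb) (k : ℕ) :
    RedOfM A M (f ^ k) (fb ^ k) := by
  induction k with
  | zero =>
    rw [pow_zero, pow_zero]
    exact redOf_one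
  | succ k ih =>
    rw [pow_succ, pow_succ]
    exact ih.mul hf

variable (S : RedSetting M A) {n : ℕ} [Finite (Pic0.torsion Kb (FF M) n)]

set_option maxHeartbeats 1600000 in
/-- **[HY]** -/
theorem exists_hy72 (hA : PrimeToLevel M A) {T : Finset (Place (kA A) (FFb A M))} {d : ℕ}
    {Y : LaurentSeries A} (hM : IsMoved S T (d : ℤ) Y) (hd : 0 < d)
    (hT : ∀ P ∈ Tn (inftyBar M) n, S.rP P ∈ T)
    (y : Pic0.torsion Kb (FF M) n) :
    ∃ (cc : ℕ) (Ry : Divisor Kb (FF M)) (hy : FF M)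
      (hdeg : Divisor.degree (cc • zeroDivE S hM.lead - Ry) = 0)
      (r' : ℕ) (v' : Fin r' → FF M) (b : Fin r' → Kb),
      (∀ P, 0 ≤ Ry P) ∧ Divisor.degree Ry = (cc : ℤ) * d ∧
      Pic0.mk ⟨cc • zeroDivE S hM.lead - Ry, hdeg⟩ = (y : Pic0 Kb (FF M)) ∧
      IsDivOf hy (n • (cc • zeroDivE S hM.lead - Ry)) ∧
      OffT S n Ry ∧
      (∀ (σ : Kb ≃ₐ[ℚ] Kb) j, galAut M σ • v' j = v' j) ∧ (∀ j, b j ∈ A) ∧
      hy⁻¹ = ∑ j, b j • v' j ∧
      (∀ u, ∀ P ∈ (DpT (inftyBar M) n u).support, ∀ j, 0 ≤ P.ord (v' j)) ∧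
      (∀ u, ∀ P ∈ (DpT (inftyBar M) n u).support, ∀ j, pval P (v' j) ∈ A) ∧
      pval (inftyBar M) hy ∈ A := by
  classical
  have hS := Fermat.Agent.P2.helper74.riemannSetting_FF (M := M)
  have hφ0 : phiOf hM.lead ≠ 0 := phiOf_ne_zero hM.lead
  have hPinf : S.Pinf = inftyBar M := Pinf_eq_inftyBar S
  have hφ : ∀ P : Place Kb (FF M), P.ord (phiOf hM.lead) =
      zeroDivE S hM.lead P - Finsupp.single (inftyBar M) (d : ℤ) P := by
    intro P
    rw [zeroDivE_apply, hPinf]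
    ring
  obtain ⟨cc, Ry, -, hcc, hRy0, hRydeg, hrep, hoff⟩ :=
    exists_Ry_offT (S := S) (n := n) hφ0 hd hφ (y : Pic0 Kb (FF M)) 1
  obtain ⟨h₀, hh₀, hdiv₀⟩ := hrep.exists_divOf_nsmul hS y.2
  have hord₀ : ∀ P : Place Kb (FF M),
      P.ord h₀ = (n : ℤ) * ((cc : ℤ) * zeroDivE S hM.lead P - Ry P) := by
    intro P
    have h1 := divOf_apply hS h₀ P
    rw [hdiv₀] at h1
    rw [← h1]
    simp only [Finsupp.smul_apply, Finsupp.sub_apply, nsmul_eq_mul]
  -- the function `w₀ = φ ^ (n c) / h₀ ∈ L(n c d ∞)`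
  have hφN0 : phiOf hM.lead ^ (n * cc) ≠ 0 := pow_ne_zero _ hφ0
  have hw₀0 : phiOf hM.lead ^ (n * cc) * h₀⁻¹ ≠ 0 := mul_ne_zero hφN0 (inv_ne_zero hh₀)
  have hordw : ∀ P : Place Kb (FF M), P.ord (phiOf hM.lead ^ (n * cc) * h₀⁻¹) =
      (n : ℤ) * Ry P - ((n * cc : ℕ) : ℤ) * Finsupp.single (inftyBar M) (d : ℤ) P := by
    intro P
    rw [P.ord_mul hφN0 (inv_ne_zero hh₀), Place.ord_inv, ← zpow_natCast, P.ord_zpow, hφ P, hord₀ P]
    push_cast
    ring
  have hL₀ : InL (FF M) (((n * cc * d : ℕ) : ℤ))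
      ((phiOf hM.lead ^ (n * cc) * h₀⁻¹ : FF M) : LaurentSeries Kb) := by
    rw [inL_iff_mem (isInfty_inftyBar M)]
    refine ⟨(phiOf hM.lead ^ (n * cc) * h₀⁻¹ : FF M).2, ?_⟩
    rw [mem_L_iff' hw₀0]
    intro P
    rw [hordw P]
    have h1 : (0 : ℤ) ≤ (n : ℤ) * Ry P := mul_nonneg (Nat.cast_nonneg n) (hRy0 P)
    rw [Finsupp.single_apply, Finsupp.single_apply]
    split_ifs with hP
    · push_cast
      linarith
    · simp only [mul_zero, sub_zero, neg_zero]
      exact h1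
  have hw₀L : ((phiOf hM.lead ^ (n * cc) * h₀⁻¹ : FF M) : LaurentSeries Kb) ≠ 0 :=
    fun e => hw₀0 (Subtype.ext e)
  obtain ⟨a, Z, ha, hZ, hZgood⟩ :=
    Fermat.Agent.S37.helper61.exists_scaled_integral S.hPinf S.hSc S.hInt hL₀ hw₀L
  have hw : toF hZgood = algebraMap Kb (FF M) a * (phiOf hM.lead ^ (n * cc) * h₀⁻¹) := by
    apply Subtype.ext
    show incl A Z = _
    rw [hZ, ← Algebra.smul_def, coe_smul_eq]
  have ha' : algebraMap Kb (FF M) a ≠ 0 := (map_ne_zero _).mpr ha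
  have hw0 : toF hZgood ≠ 0 := by
    rw [hw]
    exact mul_ne_zero ha' hw₀0
  have hLw : InL (FF M) (((n * cc * d : ℕ) : ℤ)) ((toF hZgood : FF M) : LaurentSeries Kb) := by
    show InL (FF M) _ (incl A Z)
    rw [hZ]
    exact inL_smul S.hPinf hL₀ a
  -- the function `h_y`
  have hyinv : ((algebraMap Kb (FF M) a)⁻¹ * h₀)⁻¹ =
      toF hZgood * (phiOf hM.lead ^ (n * cc))⁻¹ := by
    rw [hw]
    field_simp
  have hyeq : (algebraMap Kb (FF M) a)⁻¹ * h₀ =
      phiOf hM.lead ^ (n * cc) * (toF hZgood)⁻¹ := by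
    rw [hw]
    field_simp
  have hy0 : (algebraMap Kb (FF M) a)⁻¹ * h₀ ≠ 0 := mul_ne_zero (inv_ne_zero ha') hh₀
  have hordy : ∀ P : Place Kb (FF M), P.ord ((algebraMap Kb (FF M) a)⁻¹ * h₀) =
      (n : ℤ) * ((cc : ℤ) * zeroDivE S hM.lead P - Ry P) := by
    intro P
    rw [P.ord_mul (inv_ne_zero ha') hh₀, Place.ord_inv, ord_const, neg_zero, zero_add, hord₀ P]
  -- the basis
  obtain ⟨r', ψ, Yψ, m, hψL, hψY, hψfix, -, hpiv, -, hexp⟩ :=
    Fermat.Agent.T6.helper23.exists_ratBasis_FF M A hA (((n * cc * d : ℕ) : ℤ))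
  have hexpw := hexp (toF hZgood) hLw
  have hcoeff : ∀ j, ((toF hZgood : FF M) : LaurentSeries Kb).coeff (m j) =
      ((Z.coeff (m j) : A) : Kb) := by
    intro j
    show (incl A Z).coeff (m j) = _
    rw [coeffMap_coeff]
    rfl
  have hψ0 : ∀ j, ψ j ≠ 0 := by
    intro j h0
    have h1 : (incl A (Yψ j)).coeff (m j) = 0 := by
      rw [hψY j, h0]
      rfl
    rw [coeffMap_coeff, hpiv j j, if_pos rfl] at h1
    exact one_ne_zero h1
  -- reductions
  have hredφ : RedOfM A M (phiOf hM.lead) ⟨red A Y, (S.hReg _ Y hM.lead.inL).1⟩ :=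
    redOfM_of_inL S hM.lead.inL
  have hredφb : (⟨red A Y, (S.hReg _ Y hM.lead.inL).1⟩ : FFb A M) ≠ 0 :=
    fun h0 => hM.lead.red_ne_zero (congrArg Subtype.val h0)
  have hredφN := redOf_pow72 hredφ (n * cc)
  have hredφNb : (⟨red A Y, (S.hReg _ Y hM.lead.inL).1⟩ : FFb A M) ^ (n * cc) ≠ 0 :=
    pow_ne_zero _ hredφb
  have hLψ : ∀ j, InL (FF M) (((n * cc * d : ℕ) : ℤ)) (incl A (Yψ j)) := by
    intro j
    rw [hψY j]
    exact hψL j
  have hψe : ∀ j, (⟨incl A (Yψ j), (hLψ j).1⟩ : FF M) = ψ j := fun j => Subtype.ext (hψY j)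
  have hredψ : ∀ j, RedOfM A M (ψ j) ⟨red A (Yψ j), (S.hReg _ (Yψ j) (hLψ j)).1⟩ := by
    intro j
    have := redOfM_of_inL S (hLψ j)
    rw [hψe j] at this
    exact this
  -- orders of the `v'_j` on the fibres over `T ∪ {∞̄}`
  have hordv : ∀ j (P' : Place Kb (FF M)), (S.rP P' ∈ T ∨ S.rP P' = S.Qinf) →
      0 ≤ P'.ord (ψ j * (phiOf hM.lead ^ (n * cc))⁻¹) := by
    intro j P' hP'
    rw [P'.ord_mul (hψ0 j) (inv_ne_zero hφN0), Place.ord_inv, ← zpow_natCast, P'.ord_zpow]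
    by_cases hPi : P' = S.Pinf
    · have h1 : ψ j ∈ riemannRochSpace (Finsupp.single (inftyBar M) (((n * cc * d : ℕ) : ℤ))) := by
        have := (inL_iff_mem (isInfty_inftyBar M) _ _).mp (hψL j)
        obtain ⟨h2, h3⟩ := this
        exact h3
      rw [mem_L_iff' (hψ0 j)] at h1
      have h2 := h1 P'
      rw [hPi, hPinf, Finsupp.single_eq_same] at h2
      have h3 := hφ P'
      rw [hPi, zeroDivE_Pinf, hPinf, Finsupp.single_eq_same] at h3
      rw [hPi, hPinf, h3]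
      push_cast at h2 ⊢
      linarith
    · have h1 : 0 ≤ P'.ord (ψ j) := by
        have := (hψL j).2.1 P' (fun hinf => hPi ((isInfty_iff_eq S.hPinf P').mp hinf))
        exact this
      have h2 : P'.ord (phiOf hM.lead) = 0 := hM.ord P' hPi hP'
      rw [h2, mul_zero, neg_zero, add_zero]
      exact h1
  have hDpT : ∀ u (P : Place Kb (FF M)), P ∈ (DpT (inftyBar M) n u).support → S.rP P ∈ T :=
    fun u P hP => hT P (mem_Tn_of_Dp _ n u (Finsupp.mem_support_iff.mp hP))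
  refine ⟨cc, Ry, (algebraMap Kb (FF M) a)⁻¹ * h₀, hrep.degree, r',
    fun j => ψ j * (phiOf hM.lead ^ (n * cc))⁻¹, fun j => ((Z.coeff (m j) : A) : Kb),
    hRy0, hRydeg, hrep.2, ⟨hy0, fun P => ?_⟩, hoff, ?_, fun j => (Z.coeff (m j)).2, ?_, ?_, ?_, ?_⟩
  · rw [hordy P]
    simp only [Finsupp.smul_apply, Finsupp.sub_apply, nsmul_eq_mul]
  · intro σ j
    have h1 : galAut M σ • ψ j = ψ j := by
      apply Subtype.ext
      rw [coe_arithmeticGalois_smul, ← coe_arithmeticRingAut_apply, hψfix j σ]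
    have h2 : galAut M σ • phiOf hM.lead = phiOf hM.lead := galAut_smul_phiOf hM.lead σ
    show galAut M σ • (ψ j * (phiOf hM.lead ^ (n * cc))⁻¹) = ψ j * (phiOf hM.lead ^ (n * cc))⁻¹
    rw [smul_mul', smul_inv'', smul_pow', h1, h2]
  · rw [hyinv]
    calc toF hZgood * (phiOf hM.lead ^ (n * cc))⁻¹
        = (∑ i, algebraMap Kb (FF M) (((toF hZgood : FF M) : LaurentSeries Kb).coeff (m i)) * ψ i)
            * (phiOf hM.lead ^ (n * cc))⁻¹ := by rw [← hexpw]
      _ = ∑ j, ((Z.coeff (m j) : A) : Kb) • (ψ j * (phiOf hM.lead ^ (n * cc))⁻¹) := by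
          rw [Finset.sum_mul]
          refine Finset.sum_congr rfl fun j _ => ?_
          rw [hcoeff j, Algebra.smul_def, mul_assoc]
  · intro u P hP j
    exact hordv j P (Or.inl (hDpT u P hP))
  · intro u P hP j
    have hred : RedOfM A M (ψ j * (phiOf hM.lead ^ (n * cc))⁻¹) _ :=
      (hredψ j).mul (hredφN.inv hredφNb)
    refine pval_mem_S S hred P (fun P' hP' => hordv j P' (Or.inl ?_))
    rw [hP']
    exact hDpT u P hP
  · have hred : RedOfM A M (phiOf hM.lead ^ (n * cc) * (toF hZgood)⁻¹) _ :=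
      hredφN.mul ((redOfM_of_isGood hZgood).inv (toFb_ne_zero hZgood))
    rw [hyeq]
    refine pval_mem_S S hred (inftyBar M) (fun P' hP' => ?_)
    rw [← hyeq, hordy P']
    have hQ : S.rP P' = S.Qinf := by
      rw [hP', ← hPinf, S.rP_Pinf]
    have h1 : zeroDivE S hM.lead P' = 0 := zeroDivE_eq_zero S hM (Or.inr hQ)
    have h2 : Ry P' = 0 := by
      by_contra hne
      exact hoff.rP_ne_Qinf hne hQ
    rw [h1, h2]
    simp

end Fermat.Agent.T6.helper72

end
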