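import Mathlib
import Fermat.Agent.P5.helper25_S27Wire
import Fermat.Agent.LEF.helper67_Curve2
import Fermat.Agent.S24.helper77_Degree

/-!
# T6 adapter [FIN] (helper85): `J₀(M)[ℓ^k]` is finite, of cardinality `ℓ^(2 g k)`

Pure wiring of S27 (`Fermat.Agent.P5.helper25.s27_final`) for the function field of `X₀(M)`
over `ℚ̄`, in the shape `Submodule.torsionBy ℤ (JZero M) ((ℓ : ℤ) ^ k)` used by the frozen S19
and by the T6 contracts; every level `M`, every prime `ℓ`.
-/

set_option autoImplicit false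
set_option linter.style.haveILetI false

namespace Fermat.Agent.T6.helper85

open AlgebraicCurve ModularCurve IntermediateField

/-- the function field of `X₀(M)` over `ℚ̄` is a curve in the sense of the Prelude. -/
theorem isCurveOver_modularFunctionFieldBar (M : ℕ) [NeZero M] :
    IsCurveOver (AlgebraicClosure ℚ) ↥(modularFunctionFieldBar M) ∧
      Algebra.EssFiniteType (AlgebraicClosure ℚ) ↥(modularFunctionFieldBar M) := by
  haveI := Fermat.Agent.S24.helper77.an_finiteDimensional M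
  exact Fermat.Agent.LEF.helper67.isCurveOver_of_transcendental (AlgebraicClosure ℚ)
    ↥(modularFunctionFieldBar M) (Fermat.Agent.S24.xJ M) (Fermat.Agent.S24.helper77.an_transcendental M)

/-- **[FIN-CARD]** `#J₀(M)[ℓ^k] = ℓ^(2 g k)`. -/
theorem card_torsionBy_jZero (M : ℕ) [NeZero M] (ℓ : ℕ) [Fact ℓ.Prime] (k : ℕ) :
    Nat.card ↥(Submodule.torsionBy ℤ (JZero M) ((ℓ : ℤ) ^ k)) =
      ℓ ^ (2 * genusFF (AlgebraicClosure ℚ) ↥(modularFunctionFieldBar M) * k) := by
  obtain ⟨h1, h2⟩ := isCurveOver_modularFunctionFieldBar M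
  haveI := h1
  haveI := h2
  have h := Fermat.Agent.P5.helper25.s27_final (AlgebraicClosure ℚ)
    ↥(modularFunctionFieldBar M) ℓ k
  rw [← h]
  have hcast : ((ℓ ^ k : ℕ) : ℤ) = (ℓ : ℤ) ^ k := by push_cast; rfl
  unfold Pic0.torsion
  rw [hcast]
  rfl

/-- **[FIN]** `J₀(M)[ℓ^k]` is finite. -/
theorem finite_torsionBy_jZero (M : ℕ) [NeZero M] (ℓ : ℕ) [Fact ℓ.Prime] (k : ℕ) :
    Finite ↥(Submodule.torsionBy ℤ (JZero M) ((ℓ : ℤ) ^ k)) := by
  have h := card_torsionBy_jZero M ℓ k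
  have hpos : 0 < Nat.card ↥(Submodule.torsionBy ℤ (JZero M) ((ℓ : ℤ) ^ k)) := by
    rw [h]
    exact pow_pos (Fact.out : ℓ.Prime).pos _
  exact (Nat.card_pos_iff.mp hpos).2

end Fermat.Agent.T6.helper85
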