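/-
T6 (S19 / S32), helper72: **the instance of [I5]** - `helper3.WeilGeo` for the modular function
fields at every reduction setting, and `helper3.GeoStatement` (second prover next to helper3).

* `nonempty_weilGeo72` : `Nonempty (helper3.WeilGeo (arithmeticGalois ..) A.toSubring l k)` at
  every `S : S37.helper16.RedSetting M A` over a prime `l ∤ M` ([I1] helper74.GeoI1, [I3-a]
  helper80.exists_moved_E, [HNAT] + [I3-b] helper97, [HY] helper72.exists_hy72);
* `geoStatement72`     : `helper3.GeoStatement` (finiteness = helper85.finite_torsionBy_jZero,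
  the reduction setting = helper16.exists_redSetting);
* `intStatement72`     : `helper73.IntStatement`.
-/
import Mathlib
import Fermat.Agent.T6.helper72_HY
import Fermat.Agent.T6.helper3_IntStatement
import Fermat.Agent.T6.helper85_FinT6
import Fermat.Agent.T6.helper16_RedPlace

set_option autoImplicit false
set_option synthInstance.maxHeartbeats 400000
set_option linter.style.haveILetI false
set_option linter.unusedSectionVars false
set_option linter.unusedVariables false
set_option linter.style.longLine false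

noncomputable section

namespace Fermat.Agent.T6.helper72

open AlgebraicCurve
open Fermat.Agent.P2.helper74 Fermat.Agent.T6.helper26
open HahnSeries IntermediateField ModularCurve
open Fermat.Agent.S18.helper19 Fermat.Agent.P2.helper29 Fermat.Agent.P2.helper22
open Fermat.Agent.S24 Fermat.Agent.S37.helper16 Fermat.Agent.T6.helper81
open Fermat.Agent.T6.helper74 Fermat.Agent.T6.helper35 Fermat.Agent.T6.helper73
open Fermat.Agent.T6.helper80 Fermat.Agent.T6.helper97

variable {M : ℕ} [NeZero M] {A : ValuationSubring Kb}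

/-- shortcut instance (slow to find by synthesis) -/
local instance algebraFFbGI72 : Algebra (kA A) (FFb A M) := SubalgebraClass.toAlgebra (FFb A M)

set_option maxHeartbeats 1600000 in
/-- **the instance of [I5]** at a reduction setting -/
theorem nonempty_weilGeo72 (S : RedSetting M A) {l : ℕ} (hl : l.Prime) (hlM : ¬ l ∣ M)
    (hAl : A.LiesOverPrime l) (k : ℕ) [Finite (Pic0.torsion Kb (FF M) (l ^ k))] :
    Nonempty (Fermat.Agent.T6.helper3.WeilGeo
      (arithmeticGalois (L := Kb) (modularFunctionFieldFull M)) A.toSubring l k) := by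
  classical
  have hS := Fermat.Agent.P2.helper74.riemannSetting_FF (M := M)
  have hR := riemann_ineq_FF M
  have hA : PrimeToLevel M A := ⟨l, hl, hlM, hAl⟩
  obtain ⟨T, d, Y, hM, hTT, hd, hcop, hE0, hEdeg, hEfix, hφfix, hETn, hEinf, hEoff⟩ :=
    exists_moved_E S hl hlM hAl (Tn (inftyBar M) (l ^ k))
  have hE : OffT S (l ^ k) (zeroDivE S hM.lead) := by
    intro P hP P' hP' hne
    exact (hEoff P hP).1 (hne ▸ hTT P' hP')
  obtain ⟨r, v, c, hnat, hcmem, hceq, hvfix, hvreg⟩ :=
    hnat_coords (S := S) (n := l ^ k) hA hEdeg hE hEfix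
  refine ⟨{
    oo := inftyBar M
    d := d
    hd := hcop
    E := zeroDivE S hM.lead
    Dp := DpT (inftyBar M) (l ^ k)
    m := mT (inftyBar M) (l ^ k)
    h := Fermat.Agent.T6.helper74.hT (inftyBar M) (l ^ k)
    Dp_nonneg := geo_Dp_nonneg hS hR _ _
    D_deg := geo_D_deg hS _ _
    D_mk := geo_D_mk hS _ _
    h_div := geo_h_div hS _ _
    Dp_eq := fun σ u => geo_Dp_eq hS hR _ _ (galAut M) (galAut_smul_inftyBar M) σ u
    m_eq := fun σ u => geo_m_eq hS _ _ (galAut M) (galAut_smul_inftyBar M) σ u
    h_E := fun u => hE.disj_hT u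
    r := r
    v := v
    c := c
    hnat := hnat
    c_mem := hcmem
    c_eq := hceq
    move := fun y => ?_ }⟩
  obtain ⟨cc, Ry, hy, hdeg, r', v', b, h1, h2, h3, h4, hoff, h5, h6, h7, h8, h9, h10⟩ :=
    exists_hy72 S hA hM hd hTT y
  have hX : ∀ P ∈ Tn (inftyBar M) (l ^ k), (cc • zeroDivE S hM.lead - Ry) P = 0 :=
    ((hE.nsmul cc).sub hoff).apply_eq_zero
  refine ⟨cc, Ry, hy, hdeg, r', v', b, h1, h2, h3, h4,
    fun u => geo_disjoint (inftyBar M) (l ^ k) hX u,
    fun u => hoff.disj_hT u,
    fun u => geo_disj_hy (inftyBar M) (l ^ k) hS hX h4 u,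
    geo_ord_hy (inftyBar M) (l ^ k) hS hX h4,
    fun P hP i => (hvreg i P (hoff.rP_ne_Qinf (Finsupp.mem_support_iff.mp hP))).1,
    fun P hP i => (hvreg i P (hoff.rP_ne_Qinf (Finsupp.mem_support_iff.mp hP))).2,
    fun u => exists_dval_natFun_mul_eq_one hEdeg hE hoff u,
    fun σ j => h5 σ j, h6, h7, h8, h9, h10⟩

/-- **the geometric contract of [INT]** at all good pairs -/
theorem geoStatement72 : Fermat.Agent.T6.helper3.GeoStatement := by
  intro M _ l _ A hgood k
  obtain ⟨h49, hl, hlM, hAl⟩ := hgood
  haveI hfin : Finite (Pic0.torsion Kq (modularFunctionFieldBar M) (l ^ k)) :=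
    haveI := Fermat.Agent.T6.helper85.finite_torsionBy_jZero M l k
    Finite.of_equiv _ (Fermat.Agent.T6.helper3.torsEquiv M l k).symm
  obtain ⟨S⟩ := Fermat.Agent.T6.helper16.exists_redSetting (M := M) (A := A)
    ⟨h49, l, hl, hlM, hAl⟩
  exact ⟨hfin, nonempty_weilGeo72 S hl hlM hAl k⟩

/-- **[INT]** -/
theorem intStatement72 : Fermat.Agent.T6.helper73.IntStatement :=
  Fermat.Agent.T6.helper3.int_of_geo geoStatement72

end Fermat.Agent.T6.helper72

end
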