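import Mathlib
import Fermat.Agent.P3.helper22_QuadAlg

/-!
# T6 [CMP] (helper67), part 1: the abstract `2 × 2` calculus

`B` a commutative ring in which `2` is invertible, `G` a group, `L` and `V` two `B`-modules with
`B`-linear actions of `G` satisfying the SAME quadratic relations
`R σ ^ 2 - t σ • R σ + d σ = 0` (`helper22.QuadData`, same `t`, `d`, same involution `c`).
Let `x = x12 τ₀ σ₀` and suppose `x * x' ` acts as the identity on `V`
(`x` is "a unit on `V`") and `x21 σ₀ τ₀`, `x12 τ₀ σ₀` act in the same way on `V`.  If every `a : B` which kills the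
elements `w` of `L` with `C w = w`, `(x * x') • w = w` kills `V`, then `V` is a `G`-equivariant
quotient of a `G`-stable submodule of a power of `L`:

`exists_subquotient`.

Everything is explicit: on the `+1`-eigenspace of `C` the action is given by
`R s w = a s • w + γ s • C₀ w`, `R s (C₀ w) = b s • w + δ s • C₀ w` with scalars depending only
on `t`.
-/

set_option autoImplicit false
set_option linter.unusedSectionVars false
set_option linter.style.haveILetI false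

namespace Fermat.Agent.T6.helper67

open Fermat.Agent.P3.helper22

section Calc

variable {G : Type*} [Group G] {B : Type*} [CommRing B]
  {W : Type*} [AddCommGroup W] [Module B W] (Q : QuadData G B W)
  (i2 : B) (h2 : 2 * i2 = 1) (τ₀ σ₀ : G) (x' : B)

/-- the projection onto the `+1`-eigenspace of `C` -/
def pP (w : W) : W := i2 • Q.E1 w

/-- the projection onto the `-1`-eigenspace of `C` -/
def pM (w : W) : W := i2 • Q.E2 w

/-- the map `C₀ = P⁻ R(σ₀)` -/
def cZero (w : W) : W := pM Q i2 (Q.R σ₀ w)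

/-- the map `B₀ = P⁺ R(τ₀)` -/
def bZero (w : W) : W := pP Q i2 (Q.R τ₀ w)

theorem E1_apply (w : W) : Q.E1 w = w + Q.C w := rfl

theorem E2_apply (w : W) : Q.E2 w = w - Q.C w := rfl

theorem C_C_apply (w : W) : Q.C (Q.C w) = w := by
  have := congrArg (fun f : Module.End B W => f w) Q.C_mul_C
  simpa using this

include h2 in
theorem i2_two_smul (w : W) : i2 • ((2 : B) • w) = w := by
  rw [smul_smul, mul_comm, h2, one_smul]

include h2 in
theorem two_smul_i2 (w : W) : (2 : B) • (i2 • w) = w := by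
  rw [smul_smul, h2, one_smul]

include h2 in
theorem pP_add_pM (w : W) : pP Q i2 w + pM Q i2 w = w := by
  rw [pP, pM, ← smul_add, E1_apply, E2_apply]
  have : w + Q.C w + (w - Q.C w) = (2 : B) • w := by rw [two_smul]; abel
  rw [this, i2_two_smul i2 h2]

include h2 in
theorem pP_of_plus {w : W} (hw : Q.C w = w) : pP Q i2 w = w := by
  rw [pP, E1_apply, hw, ← two_smul B w, i2_two_smul i2 h2]

theorem pM_of_plus {w : W} (hw : Q.C w = w) : pM Q i2 w = 0 := by
  rw [pM, E2_apply, hw, sub_self, smul_zero]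

include h2 in
theorem pM_of_minus {w : W} (hw : Q.C w = -w) : pM Q i2 w = w := by
  rw [pM, E2_apply, hw, sub_neg_eq_add, ← two_smul B w, i2_two_smul i2 h2]

theorem pP_of_minus {w : W} (hw : Q.C w = -w) : pP Q i2 w = 0 := by
  rw [pP, E1_apply, hw, add_neg_cancel, smul_zero]

theorem C_pP (w : W) : Q.C (pP Q i2 w) = pP Q i2 w := by
  rw [pP, map_smul, E1_apply, map_add, C_C_apply, add_comm]

theorem C_pM (w : W) : Q.C (pM Q i2 w) = -pM Q i2 w := by
  rw [pM, map_smul, E2_apply, map_sub, C_C_apply, ← smul_neg, neg_sub]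

theorem C_cZero (w : W) : Q.C (cZero Q i2 σ₀ w) = -cZero Q i2 σ₀ w := C_pM Q i2 _

theorem C_bZero (w : W) : Q.C (bZero Q i2 τ₀ w) = bZero Q i2 τ₀ w := C_pP Q i2 _

theorem pP_smul (a : B) (w : W) : pP Q i2 (a • w) = a • pP Q i2 w := by
  rw [pP, pP, map_smul, smul_comm]

theorem pM_smul (a : B) (w : W) : pM Q i2 (a • w) = a • pM Q i2 w := by
  rw [pM, pM, map_smul, smul_comm]

theorem pP_add (v w : W) : pP Q i2 (v + w) = pP Q i2 v + pP Q i2 w := by
  rw [pP, pP, pP, map_add, smul_add]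

theorem pM_add (v w : W) : pM Q i2 (v + w) = pM Q i2 v + pM Q i2 w := by
  rw [pM, pM, pM, map_add, smul_add]

theorem cZero_smul (a : B) (w : W) : cZero Q i2 σ₀ (a • w) = a • cZero Q i2 σ₀ w := by
  rw [cZero, cZero, map_smul, pM_smul]

theorem cZero_add (v w : W) : cZero Q i2 σ₀ (v + w) = cZero Q i2 σ₀ v + cZero Q i2 σ₀ w := by
  rw [cZero, cZero, cZero, map_add, pM_add]

theorem bZero_smul (a : B) (w : W) : bZero Q i2 τ₀ (a • w) = a • bZero Q i2 τ₀ w := by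
  rw [bZero, bZero, map_smul, pP_smul]

include h2 in
/-- `E₁ R(s) w = (t s + t (c s)) w` on the `+1`-eigenspace -/
theorem E1_R_plus (s : G) {w : W} (hw : Q.C w = w) :
    Q.E1 (Q.R s w) = (Q.t s + Q.t (Q.c * s)) • w := by
  have h := congrArg (fun f : Module.End B W => f w) (Q.E1_mul_mul_E1 s)
  simp only [Module.End.mul_apply, LinearMap.smul_apply] at h
  have hE : Q.E1 w = (2 : B) • w := by rw [E1_apply, hw, two_smul]
  rw [hE, map_smul, map_smul] at h
  have h' : i2 • ((2 : B) • Q.E1 (Q.R s w)) = i2 • _ := congrArg (fun y => i2 • y) h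
  rw [i2_two_smul i2 h2, smul_comm, i2_two_smul i2 h2] at h'
  exact h'

include h2 in
/-- `E₂ R(s) u = (t s - t (c s)) u` on the `-1`-eigenspace -/
theorem E2_R_minus (s : G) {u : W} (hu : Q.C u = -u) :
    Q.E2 (Q.R s u) = (Q.t s - Q.t (Q.c * s)) • u := by
  have h := congrArg (fun f : Module.End B W => f u) (Q.E2_mul_mul_E2 s)
  simp only [Module.End.mul_apply, LinearMap.smul_apply] at h
  have hE : Q.E2 u = (2 : B) • u := by rw [E2_apply, hu, sub_neg_eq_add, two_smul]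
  rw [hE, map_smul, map_smul] at h
  have h' : i2 • ((2 : B) • Q.E2 (Q.R s u)) = i2 • _ := congrArg (fun y => i2 • y) h
  rw [i2_two_smul i2 h2, smul_comm, i2_two_smul i2 h2] at h'
  exact h'

include h2 in
/-- `E₁ R(τ) E₂ R(σ) w = x12 τ σ • w` on the `+1`-eigenspace -/
theorem E1_R_E2_R_plus (τ σ : G) {w : W} (hw : Q.C w = w) :
    Q.E1 (Q.R τ (Q.E2 (Q.R σ w))) = Q.x12 τ σ • w := by
  have h := congrArg (fun f : Module.End B W => f w) (Q.E1_mul_E2_mul_E1 τ σ)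
  simp only [Module.End.mul_apply, LinearMap.smul_apply] at h
  have hE : Q.E1 w = (2 : B) • w := by rw [E1_apply, hw, two_smul]
  rw [hE, map_smul, map_smul, map_smul, map_smul] at h
  have h' : i2 • ((2 : B) • Q.E1 (Q.R τ (Q.E2 (Q.R σ w)))) = i2 • _ :=
    congrArg (fun y => i2 • y) h
  rw [i2_two_smul i2 h2, smul_comm, i2_two_smul i2 h2] at h'
  exact h'

include h2 in
/-- `E₂ R(τ) E₁ R(σ) u = x21 τ σ • u` on the `-1`-eigenspace -/
theorem E2_R_E1_R_minus (τ σ : G) {u : W} (hu : Q.C u = -u) :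
    Q.E2 (Q.R τ (Q.E1 (Q.R σ u))) = Q.x21 τ σ • u := by
  have h := congrArg (fun f : Module.End B W => f u) (Q.E2_mul_E1_mul_E2 τ σ)
  simp only [Module.End.mul_apply, LinearMap.smul_apply] at h
  have hE : Q.E2 u = (2 : B) • u := by rw [E2_apply, hu, sub_neg_eq_add, two_smul]
  rw [hE, map_smul, map_smul, map_smul, map_smul] at h
  have h' : i2 • ((2 : B) • Q.E2 (Q.R τ (Q.E1 (Q.R σ u)))) = i2 • _ :=
    congrArg (fun y => i2 • y) h
  rw [i2_two_smul i2 h2, smul_comm, i2_two_smul i2 h2] at h'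
  exact h'

/-- the scalar `a s` -/
def sA (s : G) : B := i2 * (Q.t s + Q.t (Q.c * s))

/-- the scalar `δ s` -/
def sD (s : G) : B := i2 * (Q.t s - Q.t (Q.c * s))

/-- the scalar `b s` -/
def sB (s : G) : B := i2 * i2 * Q.x12 s σ₀

/-- the scalar `γ s` -/
def sC (s : G) : B := x' * Q.x21 s τ₀

include h2 in
theorem bZero_cZero {w : W} (hw : Q.C w = w) :
    bZero Q i2 τ₀ (cZero Q i2 σ₀ w) = (i2 * i2 * Q.x12 τ₀ σ₀) • w := by
  rw [bZero, cZero, pP, pM, map_smul, map_smul, E1_R_E2_R_plus Q i2 h2 τ₀ σ₀ hw, smul_smul,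
    smul_smul]

include h2 in
theorem cZero_bZero {u : W} (hu : Q.C u = -u) :
    cZero Q i2 σ₀ (bZero Q i2 τ₀ u) = (i2 * i2 * Q.x21 σ₀ τ₀) • u := by
  rw [bZero, cZero, pP, pM, map_smul, map_smul, E2_R_E1_R_minus Q i2 h2 σ₀ τ₀ hu, smul_smul,
    smul_smul]

include h2 in
/-- the action on `C₀ w`, `w` in the `+1`-eigenspace -/
theorem R_cZero (s : G) {w : W} (hw : Q.C w = w) :
    Q.R s (cZero Q i2 σ₀ w) = sB Q i2 σ₀ s • w + sD Q i2 s • cZero Q i2 σ₀ w := by
  have h1 : pP Q i2 (Q.R s (cZero Q i2 σ₀ w)) = sB Q i2 σ₀ s • w := by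
    rw [cZero, pM, pP, map_smul, map_smul, E1_R_E2_R_plus Q i2 h2 s σ₀ hw, smul_smul, smul_smul,
      sB]
  have h2' : pM Q i2 (Q.R s (cZero Q i2 σ₀ w)) = sD Q i2 s • cZero Q i2 σ₀ w := by
    rw [pM, E2_R_minus Q i2 h2 s (C_cZero Q i2 σ₀ w), smul_smul, sD]
  rw [← h1, ← h2', pP_add_pM Q i2 h2]

include h2 in
/-- the action on `w`, `w` in the `+1`-eigenspace and fixed by `x * x'` -/
theorem R_plus (s : G) {w : W} (hw : Q.C w = w) (hx : (Q.x12 τ₀ σ₀ * x') • w = w) :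
    Q.R s w = sA Q i2 s • w + sC Q τ₀ x' s • cZero Q i2 σ₀ w := by
  have h1 : pP Q i2 (Q.R s w) = sA Q i2 s • w := by
    rw [pP, E1_R_plus Q i2 h2 s hw, smul_smul, sA]
  have hu : Q.C (Q.E2 (Q.R σ₀ w)) = -Q.E2 (Q.R σ₀ w) := by
    have := C_pM Q (1 : B) (Q.R σ₀ w)
    rwa [pM, one_smul] at this
  have hc0 : Q.E2 (Q.R σ₀ w) = (2 : B) • cZero Q i2 σ₀ w := by
    rw [cZero, pM, two_smul_i2 i2 h2]
  have h3 : pM Q i2 (Q.R s w) = sC Q τ₀ x' s • cZero Q i2 σ₀ w := by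
    have e1 : w = x' • Q.E1 (Q.R τ₀ (Q.E2 (Q.R σ₀ w))) := by
      rw [E1_R_E2_R_plus Q i2 h2 τ₀ σ₀ hw, smul_smul, mul_comm]
      exact hx.symm
    conv_lhs => rw [e1]
    rw [pM, map_smul, map_smul, E2_R_E1_R_minus Q i2 h2 s τ₀ hu, hc0, smul_smul, smul_smul,
      smul_smul, sC]
    congr 1
    linear_combination (x' * Q.x21 s τ₀) * h2
  rw [← h1, ← h3, pP_add_pM Q i2 h2]

end Calc

section Main

variable {G : Type*} [Group G] {B : Type*} [CommRing B]
  {L : Type*} [AddCommGroup L] [Module B L] (QL : QuadData G B L)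
  {V : Type*} [AddCommGroup V] [Module B V] (QV : QuadData G B V)

/-- index set on the `L`-side: the `+1`-eigenvectors of `C` fixed by `e` -/
abbrev IL (e : B) : Type _ := {w : L // QL.C w = w ∧ e • w = w}

/-- index set on the `V`-side: the `+1`-eigenvectors of `C` -/
abbrev IV : Type _ := {v : V // QV.C v = v}

variable (i2 : B) (τ₀ σ₀ : G) (x' : B)

/-- the coefficient transformation `m_s` -/
def mS (s : G) (α : IV QV → B × B) : IV QV → B × B := fun y =>
  ((α y).1 * sA QL i2 s + (α y).2 * sB QL i2 σ₀ s,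
   (α y).1 * sC QL τ₀ x' s + (α y).2 * sD QL i2 s)

/-- the map `Ξ` into the power of `L` -/
def xiMap : (IV QV → B × B) →ₗ[B] (IV QV × IL QL (QL.x12 τ₀ σ₀ * x') → L) where
  toFun α := fun k => (α k.1).1 • (k.2 : L) + (α k.1).2 • cZero QL i2 σ₀ (k.2 : L)
  map_add' α β := by
    funext k
    simp only [Pi.add_apply, Prod.fst_add, Prod.snd_add, add_smul]
    abel
  map_smul' a α := by
    funext k
    simp only [Pi.smul_apply, Prod.smul_fst, Prod.smul_snd, smul_eq_mul, RingHom.id_apply,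
      smul_add, mul_smul]

theorem xiMap_apply (α : IV QV → B × B) (k : IV QV × IL QL (QL.x12 τ₀ σ₀ * x')) :
    xiMap QL QV i2 τ₀ σ₀ x' α k
      = (α k.1).1 • (k.2 : L) + (α k.1).2 • cZero QL i2 σ₀ (k.2 : L) := rfl

include τ₀ x' in
theorem R_xiMap (h2 : 2 * i2 = 1) (s : G) (α : IV QV → B × B) :
    (fun k => QL.R s (xiMap QL QV i2 τ₀ σ₀ x' α k))
      = xiMap QL QV i2 τ₀ σ₀ x' (mS QL QV i2 τ₀ σ₀ x' s α) := by
  funext k
  rw [xiMap_apply, map_add, map_smul, map_smul,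
    R_plus QL i2 h2 τ₀ σ₀ x' s k.2.2.1 k.2.2.2, R_cZero QL i2 h2 σ₀ s k.2.2.1, xiMap_apply, mS]
  simp only [smul_add, smul_smul, add_smul]
  abel

variable [Fintype (IV QV)]

/-- the map `Ψ` onto `V` -/
def psiMap : (IV QV → B × B) →ₗ[B] V where
  toFun α := ∑ y : IV QV, ((α y).1 • (y : V) + (α y).2 • cZero QV i2 σ₀ (y : V))
  map_add' α β := by
    rw [← Finset.sum_add_distrib]
    refine Finset.sum_congr rfl fun y _ => ?_
    simp only [Pi.add_apply, Prod.fst_add, Prod.snd_add, add_smul]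
    abel
  map_smul' a α := by
    rw [RingHom.id_apply, Finset.smul_sum]
    refine Finset.sum_congr rfl fun y _ => ?_
    simp only [Pi.smul_apply, Prod.smul_fst, Prod.smul_snd, smul_eq_mul, smul_add, mul_smul]

theorem psiMap_apply (α : IV QV → B × B) :
    psiMap QV i2 σ₀ α
      = ∑ y : IV QV, ((α y).1 • (y : V) + (α y).2 • cZero QV i2 σ₀ (y : V)) := rfl

theorem psiMap_single [DecidableEq (IV QV)] (y : IV QV) (c : B × B) :
    psiMap QV i2 σ₀ (Pi.single y c) = c.1 • (y : V) + c.2 • cZero QV i2 σ₀ (y : V) := by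
  rw [psiMap_apply, Finset.sum_eq_single y]
  · rw [Pi.single_eq_same]
  · intro z _ hz
    rw [Pi.single_eq_of_ne hz]
    simp
  · intro h
    exact absurd (Finset.mem_univ y) h

section Same

variable (ht : QV.t = QL.t) (hc : QV.c = QL.c)

include ht hc in
theorem x12_eq (τ σ : G) : QV.x12 τ σ = QL.x12 τ σ := by
  simp only [QuadData.x12, ht, hc]

include ht hc in
theorem x21_eq (τ σ : G) : QV.x21 τ σ = QL.x21 τ σ := by
  simp only [QuadData.x21, ht, hc]

include ht hc in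
theorem sA_eq (s : G) : sA QV i2 s = sA QL i2 s := by
  simp only [sA, ht, hc]

include ht hc in
theorem sD_eq (s : G) : sD QV i2 s = sD QL i2 s := by
  simp only [sD, ht, hc]

include ht hc in
theorem sB_eq (s : G) : sB QV i2 σ₀ s = sB QL i2 σ₀ s := by
  simp only [sB, x12_eq QL QV ht hc]

include ht hc in
theorem sC_eq (s : G) : sC QV τ₀ x' s = sC QL τ₀ x' s := by
  simp only [sC, x21_eq QL QV ht hc]

include ht hc in
theorem R_psiMap (h2 : 2 * i2 = 1) (hV : ∀ v : V, (QL.x12 τ₀ σ₀ * x') • v = v) (s : G)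
    (α : IV QV → B × B) :
    QV.R s (psiMap QV i2 σ₀ α) = psiMap QV i2 σ₀ (mS QL QV i2 τ₀ σ₀ x' s α) := by
  rw [psiMap_apply, psiMap_apply, map_sum]
  refine Finset.sum_congr rfl fun y _ => ?_
  have hx : (QV.x12 τ₀ σ₀ * x') • (y : V) = (y : V) := by
    rw [x12_eq QL QV ht hc]; exact hV _
  rw [map_add, map_smul, map_smul, R_plus QV i2 h2 τ₀ σ₀ x' s y.2 hx,
    R_cZero QV i2 h2 σ₀ s y.2, mS, sA_eq QL QV i2 ht hc, sB_eq QL QV i2 σ₀ ht hc,
    sC_eq QL QV τ₀ x' ht hc, sD_eq QL QV i2 ht hc]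
  simp only [smul_add, smul_smul, add_smul]
  abel

include ht hc in
theorem psiMap_surjective (h2 : 2 * i2 = 1)
    (hsym : ∀ v : V, QL.x21 σ₀ τ₀ • v = QL.x12 τ₀ σ₀ • v)
    (hV : ∀ v : V, (QL.x12 τ₀ σ₀ * x') • v = v) :
    Function.Surjective (psiMap QV i2 σ₀) := by
  classical
  intro v
  set u : V := pM QV i2 v with hu
  have huC : QV.C u = -u := C_pM QV i2 v
  set v' : V := ((4 : B) * x') • bZero QV i2 τ₀ u with hv'
  have hv'C : QV.C v' = v' := by
    rw [hv', map_smul, C_bZero]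
  have h4 : (4 : B) * (i2 * i2) = 1 := by linear_combination (2 * i2 + 1) * h2
  have hcv' : cZero QV i2 σ₀ v' = u := by
    rw [hv', cZero_smul, cZero_bZero QV i2 h2 τ₀ σ₀ huC, x21_eq QL QV ht hc,
      mul_smul (i2 * i2) (QL.x21 σ₀ τ₀) u, hsym, smul_smul, smul_smul]
    have e : (4 : B) * x' * (i2 * i2) * QL.x12 τ₀ σ₀ = QL.x12 τ₀ σ₀ * x' := by
      linear_combination (x' * QL.x12 τ₀ σ₀) * h4
    rw [e, hV]
  refine ⟨(Pi.single (⟨pP QV i2 v, C_pP QV i2 v⟩ : IV QV) ((1, 0) : B × B) : IV QV → B × B)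
    + (Pi.single (⟨v', hv'C⟩ : IV QV) ((0, 1) : B × B) : IV QV → B × B), ?_⟩
  rw [map_add, psiMap_single, psiMap_single]
  simp only [one_smul, zero_smul, add_zero, zero_add]
  rw [hcv', hu, pP_add_pM QV i2 h2]

include ht hc in
theorem psiMap_eq_zero_of_xiMap (h2 : 2 * i2 = 1)
    (hann : ∀ a : B, (∀ w : L, QL.C w = w → (QL.x12 τ₀ σ₀ * x') • w = w → a • w = 0) →
      ∀ v : V, a • v = 0)
    (α : IV QV → B × B) (hα : xiMap QL QV i2 τ₀ σ₀ x' α = 0) :
    psiMap QV i2 σ₀ α = 0 := by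
  have h4 : (4 : B) * (i2 * i2) = 1 := by linear_combination (2 * i2 + 1) * h2
  rw [psiMap_apply]
  refine Finset.sum_eq_zero fun y _ => ?_
  have key : ∀ w : L, QL.C w = w → (QL.x12 τ₀ σ₀ * x') • w = w →
      (α y).1 • w = 0 ∧ (α y).2 • w = 0 := by
    intro w hw hx
    have h0 := congrFun hα (y, ⟨w, hw, hx⟩)
    rw [xiMap_apply] at h0
    simp only [Pi.zero_apply] at h0
    have h1 : (α y).1 • w = 0 := by
      have := congrArg (pP QL i2) h0
      rw [pP_add, pP_smul, pP_smul, pP_of_plus QL i2 h2 hw,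
        pP_of_minus QL i2 (C_cZero QL i2 σ₀ w), smul_zero, add_zero] at this
      rw [this, pP, map_zero, smul_zero]
    refine ⟨h1, ?_⟩
    have h3 : (α y).2 • cZero QL i2 σ₀ w = 0 := by
      rw [h1, zero_add] at h0
      exact h0
    have h5 : ((4 : B) * x') • bZero QL i2 τ₀ ((α y).2 • cZero QL i2 σ₀ w)
        = ((4 : B) * x') • bZero QL i2 τ₀ 0 := by rw [h3]
    rw [bZero_smul, bZero_cZero QL i2 h2 τ₀ σ₀ hw, smul_smul, smul_smul] at h5
    have e : (4 : B) * x' * (α y).2 * (i2 * i2 * QL.x12 τ₀ σ₀)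
        = (α y).2 * (QL.x12 τ₀ σ₀ * x') := by
      linear_combination ((α y).2 * x' * QL.x12 τ₀ σ₀) * h4
    rw [e, mul_smul, hx] at h5
    rw [h5, bZero, pP, map_zero, map_zero, smul_zero, smul_zero]
  have hk1 := hann (α y).1 fun w hw hx => (key w hw hx).1
  have hk2 := hann (α y).2 fun w hw hx => (key w hw hx).2
  rw [hk1, hk2, add_zero]

end Same

end Main

section Final

variable {G : Type*} [Group G] {B : Type*} [CommRing B]
  {L : Type*} [AddCommGroup L] [Module B L] (QL : QuadData G B L)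
  {V : Type*} [AddCommGroup V] [Module B V] (QV : QuadData G B V)

/-- **[CMP], abstract core.**  `V` is a `G`-equivariant quotient of a `G`-stable submodule of a
power of `L`. -/
theorem exists_subquotient [Finite V] (ht : QV.t = QL.t) (hc : QV.c = QL.c)
    (i2 : B) (h2 : 2 * i2 = 1) (τ₀ σ₀ : G) (x' : B)
    (hsym : ∀ v : V, QL.x21 σ₀ τ₀ • v = QL.x12 τ₀ σ₀ • v)
    (hV : ∀ v : V, (QL.x12 τ₀ σ₀ * x') • v = v)
    (hann : ∀ a : B, (∀ w : L, QL.C w = w → (QL.x12 τ₀ σ₀ * x') • w = w → a • w = 0) →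
      ∀ v : V, a • v = 0) :
    ∃ (A₁ : Submodule B (IV QV × IL QL (QL.x12 τ₀ σ₀ * x') → L)) (f : A₁ →ₗ[B] V),
      (∀ (s : G) (z : IV QV × IL QL (QL.x12 τ₀ σ₀ * x') → L), z ∈ A₁ →
        (fun k => QL.R s (z k)) ∈ A₁) ∧
      Function.Surjective f ∧
      ∀ (s : G) (z : A₁)
        (hz : (fun k => QL.R s ((z : IV QV × IL QL (QL.x12 τ₀ σ₀ * x') → L) k)) ∈ A₁),
        f ⟨_, hz⟩ = QV.R s (f z) := by
  classical
  letI : Fintype (IV QV) := Fintype.ofFinite _
  have hker : LinearMap.ker (xiMap QL QV i2 τ₀ σ₀ x') ≤ LinearMap.ker (psiMap QV i2 σ₀) :=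
    fun α hα => LinearMap.mem_ker.mpr
      (psiMap_eq_zero_of_xiMap QL QV i2 τ₀ σ₀ x' ht hc h2 hann α (LinearMap.mem_ker.mp hα))
  let f : LinearMap.range (xiMap QL QV i2 τ₀ σ₀ x') →ₗ[B] V :=
    ((LinearMap.ker (xiMap QL QV i2 τ₀ σ₀ x')).liftQ (psiMap QV i2 σ₀) hker).comp
      (xiMap QL QV i2 τ₀ σ₀ x').quotKerEquivRange.symm.toLinearMap
  have hf : ∀ (α : IV QV → B × B)
      (h : xiMap QL QV i2 τ₀ σ₀ x' α ∈ LinearMap.range (xiMap QL QV i2 τ₀ σ₀ x')),
      f ⟨xiMap QL QV i2 τ₀ σ₀ x' α, h⟩ = psiMap QV i2 σ₀ α := by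
    intro α h
    show (LinearMap.ker (xiMap QL QV i2 τ₀ σ₀ x')).liftQ (psiMap QV i2 σ₀) hker
      ((xiMap QL QV i2 τ₀ σ₀ x').quotKerEquivRange.symm ⟨xiMap QL QV i2 τ₀ σ₀ x' α, h⟩) = _
    rw [LinearMap.quotKerEquivRange_symm_apply_image]
    exact Submodule.liftQ_apply _ _ _
  refine ⟨LinearMap.range (xiMap QL QV i2 τ₀ σ₀ x'), f, ?_, ?_, ?_⟩
  · rintro s z ⟨α, rfl⟩
    exact ⟨mS QL QV i2 τ₀ σ₀ x' s α, (R_xiMap QL QV i2 τ₀ σ₀ x' h2 s α).symm⟩
  · intro v
    obtain ⟨α, rfl⟩ := psiMap_surjective QL QV i2 τ₀ σ₀ x' ht hc h2 hsym hV v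
    exact ⟨⟨xiMap QL QV i2 τ₀ σ₀ x' α, LinearMap.mem_range_self _ α⟩, hf α _⟩
  · rintro s ⟨z, α, rfl⟩ hz
    have e := R_xiMap QL QV i2 τ₀ σ₀ x' h2 s α
    have e' : (⟨fun k => QL.R s (xiMap QL QV i2 τ₀ σ₀ x' α k), hz⟩ :
        LinearMap.range (xiMap QL QV i2 τ₀ σ₀ x'))
        = ⟨xiMap QL QV i2 τ₀ σ₀ x' (mS QL QV i2 τ₀ σ₀ x' s α),
            LinearMap.mem_range_self _ _⟩ := Subtype.ext e
    refine (congrArg f e').trans ?_
    refine (hf _ _).trans ?_
    rw [← R_psiMap QL QV i2 τ₀ σ₀ x' ht hc h2 hV]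
    exact congrArg (QV.R s) (hf α _).symm

end Final

end Fermat.Agent.T6.helper67
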