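/-
T6 (S32) block [CMP], part 2 (helper67): **the middle form of the comparison**.

* `exists_pow_idempotent` : in a finite monoid every element has an idempotent power;
* `quad_of_finrank_two`, `two_mul_det_eq`, `trace_identity` : Cayley-Hamilton and trace
  identities in rank two;
* `quadT` : the quadratic datum of a representation of rank two;
* `x21_eq_x12` : (symV) the two off-diagonal scalars agree;
* `exists_isUnit_x12` : (irr) if the image spans the endomorphism ring, some off-diagonal scalar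
  is a unit;
* `cmp_mid` : if `L` is a finite module with a quadratic datum over `B`, `ρ` is a representation
  of rank two over the local ring `T` with the same traces and determinants (via `Θ : B → T`)
  whose image spans `End_T(V)`, and every element of `B` killing `L` maps into `I`, then `V / I V`
  is an equivariant quotient of a stable subgroup of a finite power of `L`.
-/
import Mathlib
import Fermat.Agent.P3.helper22_QuadAlg
import Fermat.Agent.T6.helper67_CmpAbs

set_option autoImplicit false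
set_option linter.unusedSectionVars false
set_option linter.style.haveILetI false
set_option linter.unusedVariables false

namespace Fermat.Agent.T6.helper67

open Fermat.Agent.P3.helper22

section Pow

/-- in a finite monoid every element has an idempotent power with positive exponent -/
theorem exists_pow_idempotent {M : Type*} [Monoid M] [Finite M] (g : M) :
    ∃ k : ℕ, 0 < k ∧ g ^ k * g ^ k = g ^ k := by
  obtain ⟨i, j, hij, h⟩ := Finite.exists_ne_map_eq_of_infinite (fun n : ℕ => g ^ n)
  have key : ∀ i j : ℕ, i < j → g ^ i = g ^ j → ∃ k : ℕ, 0 < k ∧ g ^ k * g ^ k = g ^ k := by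
    intro i j hlt h
    obtain ⟨d, rfl⟩ : ∃ d, j = i + d := ⟨j - i, by omega⟩
    have hd : 0 < d := by omega
    have h1 : ∀ m, i ≤ m → g ^ (m + d) = g ^ m := by
      intro m hm
      obtain ⟨e, rfl⟩ : ∃ e, m = i + e := ⟨m - i, by omega⟩
      rw [add_right_comm, pow_add, ← h, ← pow_add]
    have h2 : ∀ q m, i ≤ m → g ^ (m + q * d) = g ^ m := by
      intro q
      induction q with
      | zero => intro m hm; rw [Nat.zero_mul, Nat.add_zero]
      | succ q ih =>
        intro m hm
        rw [Nat.succ_mul, ← add_assoc, h1 _ (by omega), ih m hm]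
    refine ⟨(i + 1) * d, Nat.mul_pos (Nat.succ_pos i) hd, ?_⟩
    rw [← pow_add]
    exact h2 (i + 1) ((i + 1) * d) (by nlinarith)
  rcases lt_or_gt_of_ne hij with hlt | hlt
  · exact key i j hlt h
  · exact key j i hlt h.symm

end Pow

section RankTwo

variable {T : Type*} [CommRing T] [Nontrivial T] {V : Type*} [AddCommGroup V] [Module T V]
  [Module.Free T V] [Module.Finite T V]

/-- Cayley-Hamilton in rank two -/
theorem quad_of_finrank_two (hrank : Module.finrank T V = 2) (f : Module.End T V) :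
    f * f - LinearMap.trace T V f • f + LinearMap.det f • (1 : Module.End T V) = 0 := by
  classical
  let b : Module.Basis (Fin 2) T V := Module.finBasisOfFinrankEq T V hrank
  have h := LinearMap.aeval_self_charpoly f
  have hc : f.charpoly = Polynomial.X ^ 2 - Polynomial.C (LinearMap.trace T V f) * Polynomial.X
      + Polynomial.C (LinearMap.det f) := by
    rw [← LinearMap.charpoly_toMatrix f b, Matrix.charpoly_fin_two,
      ← LinearMap.trace_eq_matrix_trace T b f, LinearMap.det_toMatrix b f]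
  rw [hc] at h
  simp only [map_add, map_sub, map_mul, map_pow, Polynomial.aeval_X, Polynomial.aeval_C] at h
  rw [← h, pow_two, Algebra.smul_def, Algebra.smul_def, mul_one]

/-- `2 det f = (tr f)² - tr f²` in rank two -/
theorem two_mul_det_eq (hrank : Module.finrank T V = 2) (f : Module.End T V) :
    2 * LinearMap.det f = LinearMap.trace T V f ^ 2 - LinearMap.trace T V (f * f) := by
  have h := congrArg (LinearMap.trace T V) (quad_of_finrank_two hrank f)
  rw [map_add, map_sub, map_smul, map_smul, map_zero, LinearMap.trace_one, hrank, smul_eq_mul,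
    smul_eq_mul] at h
  have h' : LinearMap.trace T V (f * f) - LinearMap.trace T V f * LinearMap.trace T V f
      + LinearMap.det f * 2 = 0 := by
    rw [← h]; push_cast; ring
  linear_combination h'

/-- a trace identity for `2 × 2` matrices -/
theorem matrix_trace_identity (C A B : Matrix (Fin 2) (Fin 2) T) (hC : C.trace = 0) :
    (C * A * B).trace + (C * B * A).trace = A.trace * (C * B).trace + (C * A).trace * B.trace := by
  have h : C 1 1 = -C 0 0 := by
    rw [Matrix.trace_fin_two] at hC
    exact eq_neg_of_add_eq_zero_right hC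
  simp only [Matrix.trace_fin_two, Matrix.mul_apply, Fin.sum_univ_two, h]
  ring

/-- a trace identity in rank two -/
theorem trace_identity (hrank : Module.finrank T V = 2) (C A B : Module.End T V)
    (hC : LinearMap.trace T V C = 0) :
    LinearMap.trace T V (C * A * B) + LinearMap.trace T V (C * B * A)
      = LinearMap.trace T V A * LinearMap.trace T V (C * B)
        + LinearMap.trace T V (C * A) * LinearMap.trace T V B := by
  classical
  let b : Module.Basis (Fin 2) T V := Module.finBasisOfFinrankEq T V hrank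
  simp only [LinearMap.trace_eq_matrix_trace T b, LinearMap.toMatrix_mul] at hC ⊢
  exact matrix_trace_identity _ _ _ hC

/-- the entries of `A * E_{ij} * B` -/
theorem mul_single_mul_apply (A B : Matrix (Fin 2) (Fin 2) T) (i j a b : Fin 2) :
    (A * Matrix.single i j (1 : T) * B) a b = A a i * B j b := by
  simp only [Matrix.mul_apply, Matrix.single_apply, Fin.sum_univ_two]
  fin_cases i <;> fin_cases j <;> simp

end RankTwo

section TSide

variable {G : Type*} [Group G] {T : Type*} [CommRing T] [IsLocalRing T] {V : Type*}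
  [AddCommGroup V] [Module T V] [Module.Free T V] [Module.Finite T V]
  (hrank : Module.finrank T V = 2) (ρ : G →* Module.End T V)
  (t d : G → T) (htr : ∀ s, LinearMap.trace T V (ρ s) = t s)
  (hdet : ∀ s, LinearMap.det (ρ s) = d s)
  (c : G) (hc : c * c = 1) (hdc : d c = -1) (htc : t c = 0)

/-- the quadratic datum of a representation of rank two -/
def quadT : QuadData G T V where
  R := ρ
  t := t
  d := d
  quad := fun σ => by
    rw [← htr, ← hdet]
    exact quad_of_finrank_two hrank (ρ σ)
  d_mul := fun σ τ => by rw [← hdet, ← hdet, ← hdet, map_mul, map_mul]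
  c := c
  c_sq := hc
  d_c := hdc
  t_c := htc

/-- **(symV)** the two off-diagonal scalars agree. -/
theorem x21_eq_x12 (τ σ : G) :
    (quadT hrank ρ t d htr hdet c hc hdc htc).x21 σ τ
      = (quadT hrank ρ t d htr hdet c hc hdc htc).x12 τ σ := by
  have e1 : t (τ * σ) = t (σ * τ) := by
    rw [← htr, ← htr, ρ.map_mul, ρ.map_mul]
    exact LinearMap.trace_mul_comm T _ _
  have hC : LinearMap.trace T V (ρ c) = 0 := by rw [htr, htc]
  have e2 : t (c * τ * σ) + t (c * σ * τ) = t τ * t (c * σ) + t (c * τ) * t σ := by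
    have h := trace_identity hrank (ρ c) (ρ τ) (ρ σ) hC
    rw [← htr (c * τ * σ), ← htr (c * σ * τ), ← htr τ, ← htr (c * σ), ← htr (c * τ), ← htr σ,
      ρ.map_mul, ρ.map_mul, ρ.map_mul, ρ.map_mul]
    exact h
  show 2 * (t (σ * τ) - t (c * (σ * τ))) - (t σ - t (c * σ)) * (t τ - t (c * τ))
    = 2 * (t (τ * σ) + t (c * (τ * σ))) - (t τ + t (c * τ)) * (t σ + t (c * σ))
  rw [← mul_assoc c σ τ, ← mul_assoc c τ σ, e1]
  linear_combination (-2 : T) * e2

/-- **(irr)** if the image of `ρ` spans the endomorphism ring, some off-diagonal scalar is a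
unit. -/
theorem exists_isUnit_x12 (h2 : IsUnit (2 : T)) (hspan : Submodule.span T (Set.range ρ) = ⊤) :
    ∃ τ₀ σ₀ : G, IsUnit ((quadT hrank ρ t d htr hdet c hc hdc htc).x12 τ₀ σ₀) := by
  classical
  by_contra hcon0
  have hcon : ∀ τ σ : G, ¬ IsUnit ((quadT hrank ρ t d htr hdet c hc hdc htc).x12 τ σ) :=
    fun τ σ h => hcon0 ⟨τ, σ, h⟩
  set Q := quadT hrank ρ t d htr hdet c hc hdc htc with hQ
  set 𝔪 := IsLocalRing.maximalIdeal T with h𝔪
  have hx : ∀ τ σ : G, Q.x12 τ σ ∈ 𝔪 := fun τ σ => (IsLocalRing.mem_maximalIdeal _).mpr (hcon τ σ)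
  set K : Submodule T (Module.End T V) := 𝔪 • (⊤ : Submodule T (Module.End T V)) with hK
  -- step 1
  have s1 : ∀ (X : Module.End T V) (σ : G), Q.E1 * X * Q.E2 * Q.R σ * Q.E1 ∈ K := by
    intro X σ
    have hX : X ∈ Submodule.span T (Set.range ρ) := hspan ▸ Submodule.mem_top
    induction hX using Submodule.span_induction with
    | mem X hX =>
      obtain ⟨τ, rfl⟩ := hX
      have := Q.E1_mul_E2_mul_E1 τ σ
      rw [show (ρ τ : Module.End T V) = Q.R τ from rfl, this]
      exact Submodule.smul_mem_smul (hx τ σ) Submodule.mem_top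
    | zero => simp only [mul_zero, zero_mul]; exact Submodule.zero_mem _
    | add X Y _ _ hX hY =>
      simp only [mul_add, add_mul]
      exact Submodule.add_mem _ hX hY
    | smul r X _ hX =>
      simp only [mul_smul_comm, smul_mul_assoc]
      exact Submodule.smul_mem _ _ hX
  have s2 : ∀ (X Y : Module.End T V), Q.E1 * X * Q.E2 * Y * Q.E1 ∈ K := by
    intro X Y
    have hY : Y ∈ Submodule.span T (Set.range ρ) := hspan ▸ Submodule.mem_top
    induction hY using Submodule.span_induction with
    | mem Y hY =>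
      obtain ⟨σ, rfl⟩ := hY
      exact s1 X σ
    | zero => simp only [mul_zero, zero_mul]; exact Submodule.zero_mem _
    | add Y Z _ _ hY hZ =>
      simp only [mul_add, add_mul]
      exact Submodule.add_mem _ hY hZ
    | smul r Y _ hY =>
      simp only [mul_smul_comm, smul_mul_assoc]
      exact Submodule.smul_mem _ _ hY
  -- matrices
  let b : Module.Basis (Fin 2) T V := Module.finBasisOfFinrankEq T V hrank
  have hent : ∀ f ∈ K, ∀ i j, LinearMap.toMatrix b b f i j ∈ 𝔪 := by
    intro f hf i j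
    refine Submodule.smul_induction_on hf ?_ ?_
    · intro r hr g _
      rw [map_smul, Matrix.smul_apply, smul_eq_mul]
      exact Ideal.mul_mem_right _ _ hr
    · intro x y hx hy
      rw [map_add, Matrix.add_apply]
      exact Ideal.add_mem _ hx hy
  set M1 := LinearMap.toMatrix b b Q.E1 with hM1
  set M2 := LinearMap.toMatrix b b Q.E2 with hM2
  have s3 : ∀ i j k l a b' : Fin 2, M1 a i * M2 j k * M1 l b' ∈ 𝔪 := by
    intro i j k l a b'
    have h := hent _ (s2 ((LinearMap.toMatrix b b).symm (Matrix.single i j 1))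
      ((LinearMap.toMatrix b b).symm (Matrix.single k l 1))) a b'
    rw [LinearMap.toMatrix_mul, LinearMap.toMatrix_mul, LinearMap.toMatrix_mul,
      LinearMap.toMatrix_mul, LinearEquiv.apply_symm_apply, LinearEquiv.apply_symm_apply,
      ← hM1, ← hM2, Matrix.mul_assoc (M1 * Matrix.single i j 1) M2, Matrix.mul_assoc
      (M1 * Matrix.single i j 1), mul_single_mul_apply, mul_single_mul_apply] at h
    rw [mul_assoc]
    exact h
  have h2m : (2 : T) ∉ 𝔪 := fun h => (IsLocalRing.mem_maximalIdeal _).mp h h2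
  have htC : (LinearMap.toMatrix b b Q.C).trace = 0 := by
    rw [← LinearMap.trace_eq_matrix_trace T b]
    show LinearMap.trace T V (ρ c) = 0
    rw [htr, htc]
  have ht1 : M1 0 0 + M1 1 1 = 2 := by
    have : M1.trace = 2 := by
      rw [hM1]
      show (LinearMap.toMatrix b b (1 + Q.C)).trace = 2
      rw [map_add, Matrix.trace_add, htC, add_zero, LinearMap.toMatrix_one, Matrix.trace_one,
        Fintype.card_fin]
      norm_num
    rw [← this, Matrix.trace_fin_two]
  have ht2 : M2 0 0 + M2 1 1 = 2 := by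
    have : M2.trace = 2 := by
      rw [hM2]
      show (LinearMap.toMatrix b b (1 - Q.C)).trace = 2
      rw [map_sub, Matrix.trace_sub, htC, sub_zero, LinearMap.toMatrix_one, Matrix.trace_one,
        Fintype.card_fin]
      norm_num
    rw [← this, Matrix.trace_fin_two]
  have hi : ∃ i, M1 i i ∉ 𝔪 := by
    by_contra h
    have h' : ∀ i, M1 i i ∈ 𝔪 := fun i => by_contra fun hn => h ⟨i, hn⟩
    exact h2m (ht1 ▸ Ideal.add_mem _ (h' 0) (h' 1))
  have hj : ∃ j, M2 j j ∉ 𝔪 := by
    by_contra h
    have h' : ∀ i, M2 i i ∈ 𝔪 := fun i => by_contra fun hn => h ⟨i, hn⟩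
    exact h2m (ht2 ▸ Ideal.add_mem _ (h' 0) (h' 1))
  obtain ⟨i, hi⟩ := hi
  obtain ⟨j, hj⟩ := hj
  have hprime : 𝔪.IsPrime := Ideal.IsMaximal.isPrime inferInstance
  rcases hprime.mem_or_mem (s3 i j j i i i) with h | h
  · rcases hprime.mem_or_mem h with h | h
    · exact hi h
    · exact hj h
  · exact hi h

end TSide

section Mid

variable {G : Type} [Group G] {B : Type} [CommRing B]
  {L : Type} [AddCommGroup L] [Module B L] [Finite L] (QL : QuadData G B L)
  (i2 : B) (h2 : 2 * i2 = 1)
  {T : Type} [CommRing T] [IsLocalRing T] (Θ : B →+* T)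
  {V : Type} [AddCommGroup V] [Module T V] [Module.Free T V] [Module.Finite T V]
  (hrank : Module.finrank T V = 2)
  (ρ : G →* Module.End T V)
  (htr : ∀ s, LinearMap.trace T V (ρ s) = Θ (QL.t s))
  (hdet : ∀ s, LinearMap.det (ρ s) = Θ (QL.d s))
  (hspan : Submodule.span T (Set.range ρ) = ⊤)
  (I : Ideal T) [Finite (T ⧸ I)]
  (hAR : ∀ a : B, (∀ w : L, a • w = 0) → Θ a ∈ I)

theorem le_comap_smul_top (f : Module.End T V) :
    I • (⊤ : Submodule T V) ≤ (I • (⊤ : Submodule T V)).comap f := by
  rw [← Submodule.map_le_iff_le_comap, Submodule.map_smul'']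
  exact Submodule.smul_mono le_rfl le_top

include hrank in
/-- the quotient `V / I V` is finite -/
theorem finite_quotient_smul_top : Finite (V ⧸ (I • (⊤ : Submodule T V))) := by
  classical
  let b : Module.Basis (Fin 2) T V := Module.finBasisOfFinrankEq T V hrank
  let φ : (Fin 2 → T ⧸ I) → V ⧸ (I • (⊤ : Submodule T V)) := fun c =>
    Submodule.Quotient.mk (∑ i, (Quotient.out (c i) : T) • b i)
  refine Finite.of_surjective φ ?_
  intro v
  obtain ⟨v, rfl⟩ := Submodule.Quotient.mk_surjective _ v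
  refine ⟨fun i => Ideal.Quotient.mk I (b.repr v i), ?_⟩
  show Submodule.Quotient.mk _ = Submodule.Quotient.mk _
  rw [Submodule.Quotient.eq]
  have hv : (∑ i, (Quotient.out (Ideal.Quotient.mk I (b.repr v i)) : T) • b i) - v
      = ∑ i, ((Quotient.out (Ideal.Quotient.mk I (b.repr v i)) : T) - b.repr v i) • b i := by
    have h0 : ∑ i, ((Quotient.out (Ideal.Quotient.mk I (b.repr v i)) : T) - b.repr v i) • b i
        = (∑ i, (Quotient.out (Ideal.Quotient.mk I (b.repr v i)) : T) • b i)
          - ∑ i, b.repr v i • b i := by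
      rw [← Finset.sum_sub_distrib]
      exact Finset.sum_congr rfl fun i _ => sub_smul _ _ _
    rw [h0, b.sum_repr v]
  rw [hv]
  refine Submodule.sum_mem _ fun i _ => ?_
  refine Submodule.smul_mem_smul ?_ Submodule.mem_top
  rw [← Ideal.Quotient.eq]
  exact Quotient.out_eq _

/-- the endomorphism of `V / I V` induced by an endomorphism of `V` -/
def quotMap (f : Module.End T V) : Module.End T (V ⧸ (I • (⊤ : Submodule T V))) :=
  Submodule.mapQ _ _ f (le_comap_smul_top I f)

theorem quotMap_mk (f : Module.End T V) (v : V) :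
    quotMap I f (Submodule.Quotient.mk v) = Submodule.Quotient.mk (f v) := rfl

include h2 hrank htr hdet hspan hAR in
/-- **[CMP], middle form.**  If `L` is a finite module with a quadratic datum over `B`, and `ρ` is
a representation of rank two over the local ring `T` with the same traces and determinants
(via `Θ : B → T`) whose image spans the endomorphism ring, and every element of `B` killing `L`
maps into `I`, then `V / I V` is an equivariant quotient of a stable subgroup of a finite power
of `L`. -/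
theorem cmp_mid :
    ∃ (ι : Type) (_ : Finite ι) (Y : AddSubgroup (ι → L))
      (f : Y →+ V ⧸ (I • (⊤ : Submodule T V))),
      (∀ (s : G) (z : ι → L), z ∈ Y → (fun k => QL.R s (z k)) ∈ Y) ∧
      Function.Surjective f ∧
      ∀ (s : G) (z : Y) (hz : (fun k => QL.R s ((z : ι → L) k)) ∈ Y) (v : V),
        f z = Submodule.Quotient.mk v → f ⟨_, hz⟩ = Submodule.Quotient.mk (ρ s v) := by
  classical
  -- the `T`-side
  have h2T : IsUnit (2 : T) := by
    refine IsUnit.of_mul_eq_one (Θ i2) ?_
    rw [← map_ofNat Θ 2, ← map_mul, h2, map_one]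
  have hdc : Θ (QL.d QL.c) = -1 := by rw [QL.d_c, map_neg, map_one]
  have htc : Θ (QL.t QL.c) = 0 := by rw [QL.t_c, map_zero]
  have hx12 : ∀ τ σ, (quadT hrank ρ (fun s => Θ (QL.t s)) (fun s => Θ (QL.d s)) htr hdet QL.c
      QL.c_sq hdc htc).x12 τ σ = Θ (QL.x12 τ σ) := by
    intro τ σ
    simp only [QuadData.x12, quadT, map_sub, map_mul, map_add, map_ofNat]
  have hx21 : ∀ τ σ, (quadT hrank ρ (fun s => Θ (QL.t s)) (fun s => Θ (QL.d s)) htr hdet QL.c
      QL.c_sq hdc htc).x21 τ σ = Θ (QL.x21 τ σ) := by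
    intro τ σ
    simp only [QuadData.x21, quadT, map_sub, map_mul, map_ofNat]
  obtain ⟨τ₀, σ₀, hu⟩ := exists_isUnit_x12 hrank ρ (fun s => Θ (QL.t s)) (fun s => Θ (QL.d s))
    htr hdet QL.c QL.c_sq hdc htc h2T hspan
  rw [hx12] at hu
  have hsymT : Θ (QL.x21 σ₀ τ₀) = Θ (QL.x12 τ₀ σ₀) := by
    rw [← hx21, ← hx12]
    exact x21_eq_x12 hrank ρ _ _ htr hdet QL.c QL.c_sq hdc htc τ₀ σ₀
  -- the idempotent power
  haveI : Finite (Module.End B L) :=
    Finite.of_injective (fun f : Module.End B L => (f : L → L)) DFunLike.coe_injective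
  obtain ⟨k, hk, hidem⟩ := exists_pow_idempotent (M := Module.End B L × (T ⧸ I))
    (QL.x12 τ₀ σ₀ • (1 : Module.End B L), Ideal.Quotient.mk I (Θ (QL.x12 τ₀ σ₀)))
  have hid1 : ∀ w : L, QL.x12 τ₀ σ₀ ^ k • QL.x12 τ₀ σ₀ ^ k • w = QL.x12 τ₀ σ₀ ^ k • w := by
    intro w
    have h := congrArg (fun g : Module.End B L × (T ⧸ I) => g.1 w) hidem
    simp only [Prod.pow_fst, Prod.fst_mul, smul_pow, one_pow, Module.End.mul_apply,
      LinearMap.smul_apply, Module.End.one_apply] at h
    exact h
  have hid2 : Θ (QL.x12 τ₀ σ₀) ^ k - 1 ∈ I := by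
    have h := congrArg Prod.snd hidem
    simp only [Prod.pow_snd, Prod.snd_mul] at h
    have hunit : IsUnit (Ideal.Quotient.mk I (Θ (QL.x12 τ₀ σ₀)) ^ k) := (hu.map _).pow k
    have h1 := hunit.mul_left_cancel (h.trans (mul_one _).symm)
    rw [← map_pow, ← map_one (Ideal.Quotient.mk I), Ideal.Quotient.eq] at h1
    exact h1
  obtain ⟨k', rfl⟩ : ∃ k', k = k' + 1 := ⟨k - 1, by omega⟩
  have he : QL.x12 τ₀ σ₀ * QL.x12 τ₀ σ₀ ^ k' = QL.x12 τ₀ σ₀ ^ (k' + 1) := (pow_succ' _ _).symm
  -- the module structure on the quotient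
  letI : Module B (V ⧸ (I • (⊤ : Submodule T V))) := Module.compHom _ Θ
  have hsm : ∀ (a : B) (v : V ⧸ (I • (⊤ : Submodule T V))), a • v = Θ a • v := fun _ _ => rfl
  haveI : Finite (V ⧸ (I • (⊤ : Submodule T V))) := finite_quotient_smul_top hrank I
  have hmk0 : ∀ (a : T) (v : V), a ∈ I →
      (Submodule.Quotient.mk (a • v) : V ⧸ (I • (⊤ : Submodule T V))) = 0 := by
    intro a v ha
    rw [Submodule.Quotient.mk_eq_zero]
    exact Submodule.smul_mem_smul ha Submodule.mem_top
  have hkill : ∀ (a : B) (v : V ⧸ (I • (⊤ : Submodule T V))), Θ a ∈ I → a • v = 0 := by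
    intro a v ha
    obtain ⟨v, rfl⟩ := Submodule.Quotient.mk_surjective _ v
    rw [hsm, ← Submodule.Quotient.mk_smul]
    exact hmk0 _ _ ha
  let RV : G →* Module.End B (V ⧸ (I • (⊤ : Submodule T V))) :=
    { toFun := fun s =>
        { toFun := quotMap I (ρ s)
          map_add' := fun v w => map_add _ v w
          map_smul' := fun a v => by
            rw [hsm, RingHom.id_apply, hsm]
            exact map_smul _ _ _ }
      map_one' := by
        refine LinearMap.ext fun v => ?_
        obtain ⟨v, rfl⟩ := Submodule.Quotient.mk_surjective _ v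
        show quotMap I (ρ 1) (Submodule.Quotient.mk v) = Submodule.Quotient.mk v
        rw [quotMap_mk, map_one, Module.End.one_apply]
      map_mul' := fun s s' => by
        refine LinearMap.ext fun v => ?_
        obtain ⟨v, rfl⟩ := Submodule.Quotient.mk_surjective _ v
        show quotMap I (ρ (s * s')) (Submodule.Quotient.mk v)
          = quotMap I (ρ s) (quotMap I (ρ s') (Submodule.Quotient.mk v))
        rw [quotMap_mk, quotMap_mk, quotMap_mk, map_mul, Module.End.mul_apply] }
  have hRV : ∀ (s : G) (v : V), RV s (Submodule.Quotient.mk v) = Submodule.Quotient.mk (ρ s v) :=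
    fun s v => rfl
  let QV : QuadData G B (V ⧸ (I • (⊤ : Submodule T V))) :=
    { R := RV
      t := QL.t
      d := QL.d
      quad := fun σ => by
        refine LinearMap.ext fun v => ?_
        obtain ⟨v, rfl⟩ := Submodule.Quotient.mk_surjective _ v
        have h := congrArg (fun f : Module.End T V => f v)
          (quad_of_finrank_two hrank (ρ σ))
        simp only [LinearMap.add_apply, LinearMap.sub_apply, Module.End.mul_apply,
          LinearMap.smul_apply, Module.End.one_apply, LinearMap.zero_apply] at h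
        rw [htr, hdet] at h
        simp only [LinearMap.add_apply, LinearMap.sub_apply, Module.End.mul_apply,
          LinearMap.smul_apply, Module.End.one_apply, LinearMap.zero_apply, hRV, hsm]
        rw [← Submodule.Quotient.mk_smul, ← Submodule.Quotient.mk_smul,
          ← Submodule.Quotient.mk_sub, ← Submodule.Quotient.mk_add, h]
        rfl
      d_mul := QL.d_mul
      c := QL.c
      c_sq := QL.c_sq
      d_c := QL.d_c
      t_c := QL.t_c }
  -- the hypotheses of the abstract theorem
  have hsym : ∀ v : V ⧸ (I • (⊤ : Submodule T V)),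
      QL.x21 σ₀ τ₀ • v = QL.x12 τ₀ σ₀ • v := by
    intro v
    rw [hsm, hsm, hsymT]
  have hV : ∀ v : V ⧸ (I • (⊤ : Submodule T V)),
      (QL.x12 τ₀ σ₀ * QL.x12 τ₀ σ₀ ^ k') • v = v := by
    intro v
    have h1 : (QL.x12 τ₀ σ₀ * QL.x12 τ₀ σ₀ ^ k' - 1) • v = 0 := by
      refine hkill _ v ?_
      rw [he, map_sub, map_pow, map_one]
      exact hid2
    rw [sub_smul, one_smul, sub_eq_zero] at h1
    exact h1
  have hann : ∀ a : B, (∀ w : L, QL.C w = w →
      (QL.x12 τ₀ σ₀ * QL.x12 τ₀ σ₀ ^ k') • w = w → a • w = 0) →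
      ∀ v : V ⧸ (I • (⊤ : Submodule T V)), a • v = 0 := by
    intro a ha v
    rw [he] at ha
    have hCE1 : ∀ u : L, QL.C (QL.E1 u) = QL.E1 u := fun u =>
      congrArg (fun f : Module.End B L => f u) QL.C_mul_E1
    have h1 : ∀ u : L, a • QL.x12 τ₀ σ₀ ^ (k' + 1) • QL.E1 u = 0 := by
      intro u
      refine ha _ ?_ (hid1 _)
      rw [map_smul, hCE1]
    have h3 : ∀ u : L, (a * QL.x12 τ₀ σ₀ ^ (k' + 1) * QL.x21 σ₀ τ₀) • QL.E1 u = 0 := by
      intro u
      rw [mul_comm, mul_smul, mul_smul, h1, smul_zero]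
    have h4 : ∀ u : L, (a * QL.x12 τ₀ σ₀ ^ (k' + 1) * QL.x21 σ₀ τ₀) • QL.E2 u = 0 := by
      intro u
      have h : QL.E2 (QL.R σ₀ (QL.E1 (QL.R τ₀ (QL.E2 u)))) = QL.x21 σ₀ τ₀ • QL.E2 u :=
        congrArg (fun f : Module.End B L => f u) (QL.E2_mul_E1_mul_E2 σ₀ τ₀)
      calc (a * QL.x12 τ₀ σ₀ ^ (k' + 1) * QL.x21 σ₀ τ₀) • QL.E2 u
          = (a * QL.x12 τ₀ σ₀ ^ (k' + 1)) • (QL.x21 σ₀ τ₀ • QL.E2 u) := mul_smul _ _ _
        _ = (a * QL.x12 τ₀ σ₀ ^ (k' + 1)) • QL.E2 (QL.R σ₀ (QL.E1 (QL.R τ₀ (QL.E2 u)))) := by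
            rw [h]
        _ = QL.E2 (QL.R σ₀ ((a * QL.x12 τ₀ σ₀ ^ (k' + 1)) • QL.E1 (QL.R τ₀ (QL.E2 u)))) := by
            rw [map_smul, map_smul]
        _ = 0 := by rw [mul_smul, h1, map_zero, map_zero]
    have h5 : ∀ u : L, (a * QL.x12 τ₀ σ₀ ^ (k' + 1) * QL.x21 σ₀ τ₀) • u = 0 := by
      intro u
      have hu2 : QL.E1 u + QL.E2 u = (2 : B) • u :=
        congrArg (fun f : Module.End B L => f u) QL.E1_add_E2
      have h6 : (a * QL.x12 τ₀ σ₀ ^ (k' + 1) * QL.x21 σ₀ τ₀) • ((2 : B) • u) = 0 := by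
        rw [← hu2, smul_add, h3, h4, add_zero]
      have h7 : u = i2 • ((2 : B) • u) := by
        rw [smul_smul, mul_comm, h2, one_smul]
      rw [h7, smul_comm, h6, smul_zero]
    have h8 : Θ (a * QL.x12 τ₀ σ₀ ^ (k' + 1) * QL.x21 σ₀ τ₀) ∈ I := hAR _ h5
    have h9 : Θ a ∈ I := by
      rw [map_mul, map_mul, hsymT, map_pow, mul_assoc, ← pow_succ] at h8
      exact (Ideal.mul_unit_mem_iff_mem I (hu.pow _)).mp h8
    exact hkill a v h9
  obtain ⟨A₁, f, hstab, hsurj, hequiv⟩ := exists_subquotient QL QV rfl rfl i2 h2 τ₀ σ₀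
    (QL.x12 τ₀ σ₀ ^ k') hsym hV hann
  refine ⟨IV QV × IL QL (QL.x12 τ₀ σ₀ * QL.x12 τ₀ σ₀ ^ k'), inferInstance, A₁.toAddSubgroup,
    { toFun := fun z => f ⟨z.1, z.2⟩
      map_zero' := map_zero f
      map_add' := fun z w => map_add f ⟨z.1, z.2⟩ ⟨w.1, w.2⟩ }, ?_, ?_, ?_⟩
  · intro s z hz
    exact hstab s z hz
  · intro v
    obtain ⟨z, rfl⟩ := hsurj v
    exact ⟨⟨z.1, z.2⟩, rfl⟩
  · intro s z hz v hzv
    have h := hequiv s ⟨z.1, z.2⟩ hz
    show f ⟨_, hz⟩ = _
    rw [h]
    have hzv' : f ⟨z.1, z.2⟩ = Submodule.Quotient.mk v := hzv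
    rw [hzv']
    rfl

end Mid

end Fermat.Agent.T6.helper67
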