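/-
T6 (S32) block [CMP], part 3 (helper67): **the Tate side of the comparison**.

For a geometric Tate datum `D` of level `M` (P3), with universal trace `t` and cyclotomic
character `d`:

* `t_conj_eq_zero`, `t_mul_self` : `t(c) = 0` for an involution `c` with `d(c) = -1`, and
  `t(s²) = t(s)² - 2 d(s)` (faithfulness of the Hecke algebra on the Tate module);
* `LT D n = Λ / p^n Λ` as a module over the Hecke algebra, `quadLT` its quadratic datum;
* `jLT` : the injective, Galois-equivariant homomorphism `Λ / p^n Λ → J₀(M)[p^n]`;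
* `mem_of_smul_LT_eq_zero` : if `a` kills `Λ / p^(n + c) Λ` (`c` the Artin-Rees constant), then
  `a ∈ p^n 𝔸`.
-/
import Mathlib
import Fermat.Agent.P3.helper67_TateGeom
import Fermat.Agent.P3.helper64_TraceT
import Fermat.Agent.P3.helper22_QuadAlg

set_option autoImplicit false
set_option linter.unusedSectionVars false
set_option linter.style.haveILetI false
set_option linter.unusedVariables false

noncomputable section

namespace Fermat.Agent.T6.helper67

open Fermat.Agent.P3 Fermat.Agent.P3.helper22 ModularCurve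

section Tate

variable {p : ℕ} [Fact p.Prime] {N : ℕ} [NeZero N] {S : Finset ℕ} {M : ℕ} [NeZero M]
  {hNM : N ∣ M} (D : Fermat.Agent.P3.helper67.TateGeom p N S M hNM) (d : GQ →* ℤ_[p]ˣ)
  (t : GQ → D.𝔸)
  (ht : ∀ (s : GQ) (v : D.Λ), D.r s (D.r s v) - t s • D.r s v + (d s : ℤ_[p]) • v = 0)

/-- the determinant character with values in the Hecke algebra -/
def dA (s : GQ) : D.𝔸 := algebraMap ℤ_[p] D.𝔸 (d s : ℤ_[p])

theorem dA_mul (s s' : GQ) : dA D d (s * s') = dA D d s * dA D d s' := by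
  rw [dA, dA, dA, map_mul, Units.val_mul, map_mul]

theorem dA_smul (s : GQ) (v : D.Λ) : dA D d s • v = (d s : ℤ_[p]) • v :=
  algebraMap_smul D.𝔸 _ v

include ht in
theorem r_r_apply (s : GQ) (v : D.Λ) :
    D.r s (D.r s v) = t s • D.r s v - dA D d s • v := by
  have h := ht s v
  rw [dA_smul, ← sub_eq_zero, ← h]
  abel

theorem r_apply_smul (s : GQ) (a : D.𝔸) (v : D.Λ) : D.r s (a • v) = a • D.r s v :=
  D.r_smul s a v

theorem r_r_inv_apply (s : GQ) (v : D.Λ) : D.r s (D.r s⁻¹ v) = v := by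
  have h : D.r s * D.r s⁻¹ = 1 := by rw [← map_mul, mul_inv_cancel, map_one]
  exact congrArg (fun f => f v) h

include ht in
/-- `t(c) = 0` for an involution `c` with `d(c) = -1` -/
theorem t_conj_eq_zero (c : GQ) (hc : c * c = 1) (hdc : (d c : ℤ_[p]) = -1) : t c = 0 := by
  refine D.smul_faithful _ fun w => ?_
  have hCC : ∀ v : D.Λ, D.r c (D.r c v) = v := by
    intro v
    have h : D.r c * D.r c = 1 := by rw [← map_mul, hc, map_one]
    exact congrArg (fun f => f v) h
  have h := ht c w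
  rw [hCC, hdc, neg_smul, one_smul] at h
  have h1 : t c • D.r c w = 0 := by
    have : t c • D.r c w = -(w - t c • D.r c w + -w) := by abel
    rw [this, h, neg_zero]
  have h2 := congrArg (D.r c) h1
  rw [r_apply_smul, hCC, map_zero] at h2
  exact h2

include ht in
/-- `t(s²) = t(s)² - 2 d(s)` -/
theorem t_mul_self (s : GQ) : t (s * s) = t s ^ 2 - 2 * dA D d s := by
  have key : ∀ v : D.Λ, (t s ^ 2 - 2 * dA D d s - t (s * s)) • D.r s (D.r s v) = 0 := by
    intro v
    have e1 := r_r_apply D d t ht s v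
    have e2 := r_r_apply D d t ht s (D.r s v)
    have e3 := r_r_apply D d t ht s (D.r s (D.r s v))
    have e4 := r_r_apply D d t ht (s * s) v
    rw [map_mul, Module.End.mul_apply, Module.End.mul_apply, dA_mul] at e4
    have e3' : D.r s (D.r s (D.r s (D.r s v)))
        = t s • (t s • D.r s (D.r s v) - dA D d s • D.r s v) - dA D d s • D.r s (D.r s v) := by
      rw [e3, e2]
    have e5 : t s • (t s • D.r s (D.r s v) - dA D d s • D.r s v) - dA D d s • D.r s (D.r s v)
        = t (s * s) • D.r s (D.r s v) - (dA D d s * dA D d s) • v := e3'.symm.trans e4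
    have e6 : D.r s (D.r s v) - (t s • D.r s v - dA D d s • v) = 0 := sub_eq_zero.mpr e1
    have e7 : (t s ^ 2 - 2 * dA D d s - t (s * s)) • D.r s (D.r s v)
        = (t s • (t s • D.r s (D.r s v) - dA D d s • D.r s v) - dA D d s • D.r s (D.r s v))
          - (t (s * s) • D.r s (D.r s v) - (dA D d s * dA D d s) • v)
          - dA D d s • (D.r s (D.r s v) - (t s • D.r s v - dA D d s • v)) := by
      module
    rw [e7, e5, e6, sub_self, smul_zero, sub_zero]
  have h : t s ^ 2 - 2 * dA D d s - t (s * s) = 0 := by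
    refine D.smul_faithful _ fun w => ?_
    have hw : w = D.r s (D.r s (D.r s⁻¹ (D.r s⁻¹ w))) := by
      rw [r_r_inv_apply, r_r_inv_apply]
    rw [hw]
    exact key _
  rw [sub_eq_zero] at h
  exact h.symm

/-! ### The finite level -/

/-- `p ^ n` in the Hecke algebra -/
def piA (n : ℕ) : D.𝔸 := algebraMap ℤ_[p] D.𝔸 ((p : ℤ_[p]) ^ n)

/-- `p ^ n Λ` as a submodule over the Hecke algebra -/
def PT (n : ℕ) : Submodule D.𝔸 D.Λ := LinearMap.range (LinearMap.lsmul D.𝔸 D.Λ (piA D n))

theorem mem_PT {n : ℕ} {v : D.Λ} : v ∈ PT D n ↔ ∃ w : D.Λ, v = (p : ℤ_[p]) ^ n • w := by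
  constructor
  · rintro ⟨w, rfl⟩
    exact ⟨w, algebraMap_smul D.𝔸 _ w⟩
  · rintro ⟨w, rfl⟩
    exact ⟨w, algebraMap_smul D.𝔸 _ w⟩

/-- `Λ / p ^ n Λ` -/
abbrev LT (n : ℕ) : Type := D.Λ ⧸ PT D n

/-- the Galois action on the Tate module, linear over the Hecke algebra -/
def rA (s : GQ) : D.Λ →ₗ[D.𝔸] D.Λ where
  toFun := D.r s
  map_add' := map_add _
  map_smul' := fun a v => D.r_smul s a v

theorem rA_apply (s : GQ) (v : D.Λ) : rA D s v = D.r s v := rfl

theorem PT_le_comap (n : ℕ) (s : GQ) : PT D n ≤ (PT D n).comap (rA D s) := by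
  rintro v ⟨w, rfl⟩
  refine ⟨rA D s w, ?_⟩
  show piA D n • rA D s w = rA D s (piA D n • w)
  rw [map_smul]

/-- the Galois action on `Λ / p ^ n Λ` -/
def rLT (n : ℕ) : GQ →* Module.End D.𝔸 (LT D n) where
  toFun := fun s => Submodule.mapQ _ _ (rA D s) (PT_le_comap D n s)
  map_one' := by
    refine LinearMap.ext fun v => ?_
    obtain ⟨v, rfl⟩ := Submodule.Quotient.mk_surjective _ v
    show Submodule.Quotient.mk (D.r 1 v) = Submodule.Quotient.mk v
    rw [map_one, Module.End.one_apply]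
  map_mul' := fun s s' => by
    refine LinearMap.ext fun v => ?_
    obtain ⟨v, rfl⟩ := Submodule.Quotient.mk_surjective _ v
    show Submodule.Quotient.mk (D.r (s * s') v)
      = Submodule.Quotient.mk (D.r s (D.r s' v))
    rw [map_mul, Module.End.mul_apply]

theorem rLT_mk (n : ℕ) (s : GQ) (v : D.Λ) :
    rLT D n s (Submodule.Quotient.mk v) = Submodule.Quotient.mk (D.r s v) := rfl

/-- the quadratic datum of `Λ / p ^ n Λ` -/
def quadLT (n : ℕ) (c : GQ) (hc : c * c = 1) (hdc : (d c : ℤ_[p]) = -1) :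
    QuadData GQ D.𝔸 (LT D n) where
  R := rLT D n
  t := t
  d := dA D d
  quad := fun σ => by
    refine LinearMap.ext fun v => ?_
    obtain ⟨v, rfl⟩ := Submodule.Quotient.mk_surjective _ v
    have h := r_r_apply D d t ht σ v
    simp only [LinearMap.add_apply, LinearMap.sub_apply, Module.End.mul_apply,
      LinearMap.smul_apply, Module.End.one_apply, LinearMap.zero_apply, rLT_mk]
    rw [← Submodule.Quotient.mk_smul, ← Submodule.Quotient.mk_smul,
      ← Submodule.Quotient.mk_sub, ← Submodule.Quotient.mk_add, h]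
    have e : t σ • D.r σ v - dA D d σ • v - t σ • D.r σ v + dA D d σ • v = 0 := by abel
    rw [e]
    rfl
  d_mul := dA_mul D d
  c := c
  c_sq := hc
  d_c := by rw [dA, hdc, map_neg, map_one]
  t_c := t_conj_eq_zero D d t ht c hc hdc

/-! ### The injection into the torsion -/

/-- the projection to the `p ^ n`-torsion -/
def projTors (n : ℕ) : D.Λ →+ ↥(Submodule.torsionBy ℤ (JZero M) ((p : ℤ) ^ n)) where
  toFun := fun v => ⟨D.proj n v, by
    rw [Submodule.mem_torsionBy_iff]
    have h := D.pow_smul_proj n v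
    have e : ((p : ℤ) ^ n) • D.proj n v = (p ^ n : ℕ) • D.proj n v := by
      rw [← natCast_zsmul, Nat.cast_pow]
    rw [e]
    exact h⟩
  map_zero' := Subtype.ext (map_zero (D.proj n))
  map_add' := fun v w => Subtype.ext (map_add (D.proj n) v w)

theorem coe_projTors (n : ℕ) (v : D.Λ) : ((projTors D n v : _) : JZero M) = D.proj n v := rfl

theorem projTors_eq_zero_iff (n : ℕ) (v : D.Λ) : projTors D n v = 0 ↔ v ∈ PT D n := by
  rw [mem_PT, ← D.proj_eq_zero_iff, Subtype.ext_iff, coe_projTors]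
  rfl

/-- the injection `Λ / p ^ n Λ → J₀(M)[p ^ n]` -/
def jLT (n : ℕ) : LT D n →+ ↥(Submodule.torsionBy ℤ (JZero M) ((p : ℤ) ^ n)) :=
  QuotientAddGroup.lift (PT D n).toAddSubgroup (projTors D n) (by
    intro v hv
    rw [AddMonoidHom.mem_ker]
    exact (projTors_eq_zero_iff D n v).mpr hv)

theorem jLT_mk (n : ℕ) (v : D.Λ) : jLT D n (Submodule.Quotient.mk v) = projTors D n v := rfl

theorem jLT_injective (n : ℕ) : Function.Injective (jLT D n) := by
  rw [injective_iff_map_eq_zero]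
  intro w hw
  obtain ⟨v, rfl⟩ := Submodule.Quotient.mk_surjective _ w
  rw [jLT_mk, projTors_eq_zero_iff] at hw
  exact (Submodule.Quotient.mk_eq_zero _).mpr hw

theorem coe_jLT_rLT (n : ℕ) (s : GQ) (w : LT D n) :
    ((jLT D n (rLT D n s w) : _) : JZero M) = s • ((jLT D n w : _) : JZero M) := by
  obtain ⟨v, rfl⟩ := Submodule.Quotient.mk_surjective _ w
  rw [rLT_mk, jLT_mk, jLT_mk, coe_projTors, coe_projTors]
  exact D.proj_r n s v

/-! ### Artin-Rees -/

/-- if `a` kills `Λ / p ^ (n + c) Λ` (`c` the Artin-Rees constant), then `a ∈ p ^ n 𝔸` -/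
theorem exists_artinRees_LT :
    ∃ c : ℕ, ∀ (n : ℕ) (a : D.𝔸), (∀ w : LT D (n + c), a • w = 0) →
      a ∈ (IsLocalRing.maximalIdeal ℤ_[p] ^ n) • (⊤ : Submodule ℤ_[p] D.𝔸) := by
  obtain ⟨c, hc⟩ := Fermat.Agent.P3.helper64.exists_artinRees_const
    (IsLocalRing.maximalIdeal ℤ_[p]) (Λ := D.Λ) (𝔸 := D.𝔸) D.smul_faithful
  refine ⟨c, fun n a ha => hc n a fun v => ?_⟩
  have h1 := ha (Submodule.Quotient.mk v)
  rw [← Submodule.Quotient.mk_smul, Submodule.Quotient.mk_eq_zero, mem_PT] at h1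
  obtain ⟨w, hw⟩ := h1
  rw [hw]
  refine Submodule.smul_mem_smul (Ideal.pow_mem_pow ?_ _) Submodule.mem_top
  rw [PadicInt.maximalIdeal_eq_span_p]
  exact Ideal.mem_span_singleton_self _

end Tate

end Fermat.Agent.T6.helper67

end
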