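/-
T6 (S19 / S32), helper33: **Hopf orders from generators** and the adapters to the frozen shapes.

* `mem_range_E₂_iff`, `comulSub` : the functions `φ` for which `(x, y) ↦ φ (x + y)` is a finite
  sum of products `a(x) b(y)`, `a, b ∈ H`, form a subalgebra;
* `IsHopfOrder.of_adjoin` : for `H = ℤ_(ℓ)[S]`, `S` a finite set of equivariant functions with
  integral values separating the points, the closure under comultiplication and antipode need
  only be checked on the generators;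
* `isFlatAt_of_orders` : `GaloisRepAdic.IsFlatAt` from Hopf orders on the quotients `V / I V`;
* `exists_hopf_torsion` : the body of S19 for a `ℤ`-module `J` with an action of `G_ℚ`.
-/
import Mathlib
import Fermat.Agent.T6.helper33_HopfOrder

set_option autoImplicit false
set_option linter.unusedSectionVars false
set_option linter.unusedVariables false
set_option linter.style.longLine false
set_option linter.style.haveILetI false

noncomputable section

open scoped TensorProduct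

namespace Fermat.Agent.T6.helper33

open Fermat.Agent.S28.helper94 (Zl isPrincipalIdealRing_Zl isFractionRing_Zl
  isIntegrallyClosed_Zl)

section Gen

variable {ℓ : ℕ} {T : Type} [AddCommGroup T]

/-- the elements of the range of `E₂` are the finite sums of products `a(x) b(y)`. -/
theorem exists_sum_of_tensor (H : Subalgebra (Zl ℓ) (T → Qb)) (z : H ⊗[Zl ℓ] H) :
    ∃ (n : ℕ) (a b : Fin n → T → Qb), (∀ i, a i ∈ H) ∧ (∀ i, b i ∈ H) ∧
      ∀ q : T × T, IsHopfOrder.E₂ H z q = ∑ i, a i q.1 * b i q.2 := by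
  induction z using TensorProduct.induction_on with
  | zero => exact ⟨0, Fin.elim0, Fin.elim0, fun i => i.elim0, fun i => i.elim0, fun q => by simp⟩
  | tmul a b =>
    refine ⟨1, fun _ => a, fun _ => b, fun _ => a.2, fun _ => b.2, fun q => ?_⟩
    rw [IsHopfOrder.E₂_tmul, Fin.sum_univ_one]
  | add w₁ w₂ h₁ h₂ =>
    obtain ⟨n₁, a₁, b₁, ha₁, hb₁, h₁⟩ := h₁
    obtain ⟨n₂, a₂, b₂, ha₂, hb₂, h₂⟩ := h₂
    refine ⟨n₁ + n₂, Fin.append a₁ a₂, Fin.append b₁ b₂, ?_, ?_, fun q => ?_⟩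
    · intro i
      refine Fin.addCases (fun j => ?_) (fun j => ?_) i
      · rw [Fin.append_left]; exact ha₁ j
      · rw [Fin.append_right]; exact ha₂ j
    · intro i
      refine Fin.addCases (fun j => ?_) (fun j => ?_) i
      · rw [Fin.append_left]; exact hb₁ j
      · rw [Fin.append_right]; exact hb₂ j
    · rw [map_add, Pi.add_apply, h₁, h₂, Fin.sum_univ_add]
      simp only [Fin.append_left, Fin.append_right]

theorem mem_range_E₂_iff (H : Subalgebra (Zl ℓ) (T → Qb)) (f : T × T → Qb) :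
    f ∈ (IsHopfOrder.E₂ H).range ↔
      ∃ (n : ℕ) (a b : Fin n → T → Qb), (∀ i, a i ∈ H) ∧ (∀ i, b i ∈ H) ∧
        ∀ q : T × T, f q = ∑ i, a i q.1 * b i q.2 := by
  constructor
  · rintro ⟨z, rfl⟩
    exact exists_sum_of_tensor H z
  · rintro ⟨n, a, b, ha, hb, hab⟩
    refine ⟨∑ i, (⟨a i, ha i⟩ : H) ⊗ₜ[Zl ℓ] (⟨b i, hb i⟩ : H), ?_⟩
    funext q
    rw [map_sum, Finset.sum_apply]
    refine (Finset.sum_congr rfl fun i _ => IsHopfOrder.E₂_tmul _ _ q).trans ?_
    exact (hab q).symm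

/-- the subalgebra of the functions whose comultiplication is a finite sum of products of
elements of `H`. -/
def comulSub (H : Subalgebra (Zl ℓ) (T → Qb)) : Subalgebra (Zl ℓ) (T → Qb) :=
  (IsHopfOrder.E₂ H).range.comap (pre ℓ (fun q : T × T => q.1 + q.2))

theorem mem_comulSub_iff (H : Subalgebra (Zl ℓ) (T → Qb)) (φ : T → Qb) :
    φ ∈ comulSub H ↔
      ∃ (n : ℕ) (a b : Fin n → T → Qb), (∀ i, a i ∈ H) ∧ (∀ i, b i ∈ H) ∧
        ∀ x y : T, φ (x + y) = ∑ i, a i x * b i y := by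
  rw [comulSub, Subalgebra.mem_comap, mem_range_E₂_iff]
  constructor
  · rintro ⟨n, a, b, ha, hb, hab⟩
    exact ⟨n, a, b, ha, hb, fun x y => hab (x, y)⟩
  · rintro ⟨n, a, b, ha, hb, hab⟩
    exact ⟨n, a, b, ha, hb, fun q => hab q.1 q.2⟩

/-- the subalgebra of the equivariant functions -/
def equivSub (ℓ : ℕ) (act : GQ → T → T) : Subalgebra (Zl ℓ) (T → Qb) where
  carrier := {φ | ∀ (σ : GQ) (x : T), φ (act σ x) = σ (φ x)}
  mul_mem' {a b} ha hb σ x := by
    simp only [Pi.mul_apply, map_mul, ha σ x, hb σ x]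
  add_mem' {a b} ha hb σ x := by
    simp only [Pi.add_apply, map_add, ha σ x, hb σ x]
  algebraMap_mem' r σ x := by
    show algebraMap (Zl ℓ) Qb r = σ (algebraMap (Zl ℓ) Qb r)
    rw [coe_algebraMap_Zl, AlgEquiv.commutes]

theorem mem_equivSub_iff (act : GQ → T → T) (φ : T → Qb) :
    φ ∈ equivSub ℓ act ↔ ∀ (σ : GQ) (x : T), φ (act σ x) = σ (φ x) := Iff.rfl

/-- a function on a finite set with integral values is integral. -/
theorem isIntegral_of_values [Finite T] (φ : T → Qb) (h : ∀ x, IsIntegral (Zl ℓ) (φ x)) :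
    IsIntegral (Zl ℓ) φ := by
  classical
  letI := Fintype.ofFinite T
  choose P hP hP0 using h
  refine ⟨∏ x, P x, Polynomial.monic_prod_of_monic _ _ (fun x _ => hP x), ?_⟩
  funext x
  have h1 : (Polynomial.eval₂ (algebraMap (Zl ℓ) (T → Qb)) φ (∏ x, P x)) x
      = Polynomial.eval₂ (algebraMap (Zl ℓ) Qb) (φ x) (∏ x, P x) := by
    have := Polynomial.hom_eval₂ (∏ x, P x) (algebraMap (Zl ℓ) (T → Qb))
      (Pi.evalRingHom (fun _ : T => Qb) x) φ
    exact this
  rw [h1, Polynomial.eval₂_finsetProd]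
  exact Finset.prod_eq_zero (Finset.mem_univ x) (hP0 x)

end Gen

section Adjoin

variable {ℓ : ℕ} [hℓ : Fact ℓ.Prime] {T : Type} [AddCommGroup T] [Finite T]

/-- **Hopf orders from generators.** -/
theorem IsHopfOrder.of_adjoin (act : GQ → T → T) (S : Set (T → Qb)) (hS : S.Finite)
    (act_surj : ∀ σ, Function.Surjective (act σ)) (act_zero : ∀ σ, act σ 0 = 0)
    (hint : ∀ s ∈ S, ∀ x, IsIntegral (Zl ℓ) (s x))
    (heq : ∀ s ∈ S, ∀ (σ : GQ) (x : T), s (act σ x) = σ (s x))
    (hsep : ∀ x y : T, x ≠ y → ∃ s ∈ S, s x ≠ s y)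
    (hcomul : ∀ s ∈ S, ∃ (n : ℕ) (a b : Fin n → T → Qb),
      (∀ i, a i ∈ Algebra.adjoin (Zl ℓ) S) ∧ (∀ i, b i ∈ Algebra.adjoin (Zl ℓ) S) ∧
      ∀ x y, s (x + y) = ∑ i, a i x * b i y)
    (hneg : ∀ s ∈ S, (fun x => s (-x)) ∈ Algebra.adjoin (Zl ℓ) S) :
    IsHopfOrder ℓ act (Algebra.adjoin (Zl ℓ) S) where
  act_surj := act_surj
  act_zero := act_zero
  fg := fg_adjoin_of_finite hS (fun s hs => isIntegral_of_values s (hint s hs))
  equivariant := by
    have h1 : Algebra.adjoin (Zl ℓ) S ≤ equivSub ℓ act := Algebra.adjoin_le heq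
    exact fun φ hφ => h1 hφ
  sep := fun x y hxy => by
    obtain ⟨s, hs, hne⟩ := hsep x y hxy
    exact ⟨s, Algebra.subset_adjoin hs, hne⟩
  comul := by
    have h1 : Algebra.adjoin (Zl ℓ) S ≤ comulSub (Algebra.adjoin (Zl ℓ) S) :=
      Algebra.adjoin_le fun s hs => (mem_comulSub_iff _ _).mpr (hcomul s hs)
    exact fun φ hφ => (mem_comulSub_iff _ _).mp (h1 hφ)
  neg := by
    have h1 : Algebra.adjoin (Zl ℓ) S ≤
        (Algebra.adjoin (Zl ℓ) S).comap (pre ℓ (Neg.neg : T → T)) :=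
      Algebra.adjoin_le fun s hs => hneg s hs
    exact fun φ hφ => h1 hφ

end Adjoin


/-! ### Adapters to the frozen shapes -/

section Adapters

variable {ℓ : ℕ} [hℓ : Fact ℓ.Prime]

/-- the quotients `V / I V` of a Galois representation are finite when `A / I` is. -/
theorem finite_levelQuot {A : Type} [CommRing A] [IsLocalRing A] (ρ : GaloisRepAdic A)
    (I : Ideal A) (hI : Finite (A ⧸ I)) :
    Finite (ρ.V ⧸ (I • (⊤ : Submodule A ρ.V))) := by
  haveI : Module.Finite (A ⧸ I) (ρ.V ⧸ (I • (⊤ : Submodule A ρ.V))) :=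
    Module.Finite.of_restrictScalars_finite A (A ⧸ I) _
  exact Module.finite_of_finite (A ⧸ I)

/-- **`IsFlatAt` from Hopf orders** on the finite quotients `V / I V`. -/
theorem isFlatAt_of_orders {A : Type} [CommRing A] [IsLocalRing A] (ρ : GaloisRepAdic A)
    (hres : Finite (IsLocalRing.ResidueField A))
    (h : ∀ (I : Ideal A) (hI : Finite (A ⧸ I)),
      haveI := finite_levelQuot ρ I hI
      ∃ H : Subalgebra (Zl ℓ) ((ρ.V ⧸ (I • (⊤ : Submodule A ρ.V))) → Qb),
        IsHopfOrder ℓ (fun σ => ρ.levelAction I σ) H) :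
    ρ.IsFlatAt ℓ := by
  refine ⟨hres, fun I hI => ?_⟩
  haveI := finite_levelQuot ρ I hI
  obtain ⟨H, hH⟩ := h I hI
  exact hH.exists_hopf

/-- the action of `G_ℚ` on the `n`-torsion of a `ℤ`-module with a distributive action. -/
def torsAct {J : Type} [AddCommGroup J] [DistribMulAction GQ J] (n : ℤ) (σ : GQ)
    (x : Submodule.torsionBy ℤ J n) : Submodule.torsionBy ℤ J n :=
  ⟨σ • (x : J), by
    rw [Submodule.mem_torsionBy_iff, ← smul_comm, (Submodule.mem_torsionBy_iff _ _).mp x.2,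
      smul_zero]⟩

@[simp]
theorem coe_torsAct {J : Type} [AddCommGroup J] [DistribMulAction GQ J] (n : ℤ) (σ : GQ)
    (x : Submodule.torsionBy ℤ J n) : ((torsAct n σ x : Submodule.torsionBy ℤ J n) : J)
      = σ • (x : J) := rfl

theorem torsAct_surjective {J : Type} [AddCommGroup J] [DistribMulAction GQ J] (n : ℤ)
    (σ : GQ) : Function.Surjective (torsAct (J := J) n σ) := by
  intro y
  refine ⟨torsAct n σ⁻¹ y, Subtype.ext ?_⟩
  rw [coe_torsAct, coe_torsAct, smul_inv_smul]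

theorem torsAct_zero {J : Type} [AddCommGroup J] [DistribMulAction GQ J] (n : ℤ) (σ : GQ) :
    torsAct (J := J) n σ 0 = 0 :=
  Subtype.ext (by rw [coe_torsAct]; exact smul_zero σ)

/-- **the body of S19** for the `n`-torsion of a `ℤ`-module with an action of `G_ℚ`, from a Hopf
order. -/
theorem exists_hopf_torsion {J : Type} [AddCommGroup J] [DistribMulAction GQ J] (n : ℤ)
    [Finite (Submodule.torsionBy ℤ J n)]
    (H : Subalgebra (Zl ℓ) ((Submodule.torsionBy ℤ J n) → Qb))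
    (h : IsHopfOrder ℓ (torsAct n) H) :
    ∃ (H' : Type) (_ : CommRing H') (_ : HopfAlgebra (GaloisRep.ratLocalizedAt ℓ) H'),
      Module.Finite (GaloisRep.ratLocalizedAt ℓ) H' ∧
      Module.Flat (GaloisRep.ratLocalizedAt ℓ) H' ∧
      Coalgebra.IsCocomm (GaloisRep.ratLocalizedAt ℓ) H' ∧
      ∃ e : WithConv (H' →ₐ[GaloisRep.ratLocalizedAt ℓ] AlgebraicClosure ℚ) ≃
          ↥(Submodule.torsionBy ℤ J n),
        (∀ f g, e (f * g) = e f + e g) ∧
        ∀ (σ : AlgebraicClosure ℚ ≃ₐ[ℚ] AlgebraicClosure ℚ)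
          (f g : WithConv (H' →ₐ[GaloisRep.ratLocalizedAt ℓ] AlgebraicClosure ℚ)),
          (∀ a : H', g a = σ (f a)) → ((e g : J)) = σ • (e f : J) := by
  obtain ⟨H', i1, i2, h1, h2, h3, e, he1, he2⟩ := h.exists_hopf
  exact ⟨H', i1, i2, h1, h2, h3, e, he1, fun σ f g hfg => by rw [he2 σ f g hfg, coe_torsAct]⟩

end Adapters

end Fermat.Agent.T6.helper33

end
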