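/-
T6 (S19 / S32) block (CL), part 1, helper75: **the flat shape and Hopf orders are equivalent**.

* `FlatShape ℓ act` : the body of the frozen statement S19 and of `GaloisRepAdic.IsFlatAt` for a
  commutative group `T` with an action `act` of `G_ℚ`;
* `FlatShape.of_order` : a Hopf order (`helper33.IsHopfOrder`) gives the flat shape
  (= `helper33.IsHopfOrder.exists_hopf`);
* `FlatShape.exists_order` : conversely, the flat shape gives a Hopf order (the image of the Hopf
  algebra in `Map(T, ℚ̄)`); closure under the antipode is automatic (`-x = (2n - 1) x`);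
* `IsHopfOrder.of_comul` : the field `neg` of `IsHopfOrder` follows from the other ones.
-/
import Mathlib
import Fermat.Agent.T6.helper33_HopfOrderGen

set_option autoImplicit false
set_option linter.unusedSectionVars false
set_option linter.unusedVariables false
set_option linter.style.longLine false
set_option linter.style.haveILetI false

noncomputable section

open scoped TensorProduct

namespace Fermat.Agent.T6.helper75

open Fermat.Agent.S28.helper94 (Zl)
open Fermat.Agent.T6.helper33 (Qb GQ pre pre_apply IsHopfOrder coe_algebraMap_Zl)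

/-- **The flat shape**: the body of the frozen statement S19 and of `GaloisRepAdic.IsFlatAt`,
for a commutative group `T` with an action `act` of `G_ℚ`. -/
def FlatShape (ℓ : ℕ) {T : Type} [AddCommGroup T] (act : GQ → T → T) : Prop :=
  ∃ (H : Type) (_ : CommRing H) (_ : HopfAlgebra (GaloisRep.ratLocalizedAt ℓ) H),
    Module.Finite (GaloisRep.ratLocalizedAt ℓ) H ∧
    Module.Flat (GaloisRep.ratLocalizedAt ℓ) H ∧
    Coalgebra.IsCocomm (GaloisRep.ratLocalizedAt ℓ) H ∧
    ∃ e : WithConv (H →ₐ[GaloisRep.ratLocalizedAt ℓ] AlgebraicClosure ℚ) ≃ T,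
      (∀ f g, e (f * g) = e f + e g) ∧
      ∀ (σ : AlgebraicClosure ℚ ≃ₐ[ℚ] AlgebraicClosure ℚ)
        (f g : WithConv (H →ₐ[GaloisRep.ratLocalizedAt ℓ] AlgebraicClosure ℚ)),
        (∀ a : H, g a = σ (f a)) → e g = act σ (e f)

section Inv

variable {ℓ : ℕ} [hℓ : Fact ℓ.Prime] {T : Type} [AddCommGroup T] [Finite T]

/-- a Hopf order gives the flat shape. -/
theorem FlatShape.of_order {act : GQ → T → T} {H : Subalgebra (Zl ℓ) (T → Qb)}
    (h : IsHopfOrder ℓ act H) : FlatShape ℓ act :=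
  h.exists_hopf

omit hℓ [Finite T] in
/-- a subalgebra closed under the comultiplication is closed under `φ ↦ φ ∘ (k • ·)`, `k ≥ 1`. -/
theorem nsmul_comp_mem (H : Subalgebra (Zl ℓ) (T → Qb))
    (hcomul : ∀ φ ∈ H, ∃ (n : ℕ) (a b : Fin n → T → Qb), (∀ i, a i ∈ H) ∧ (∀ i, b i ∈ H) ∧
      ∀ x y, φ (x + y) = ∑ i, a i x * b i y) (k : ℕ) :
    ∀ φ ∈ H, (fun x => φ ((k + 1) • x)) ∈ H := by
  induction k with
  | zero =>
    intro φ hφ
    have h1 : (fun x => φ ((0 + 1) • x)) = φ := by
      funext x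
      rw [zero_add, one_smul]
    rw [h1]
    exact hφ
  | succ k ih =>
    intro φ hφ
    obtain ⟨n, a, b, ha, hb, hab⟩ := hcomul φ hφ
    have h1 : (fun x => φ ((k + 1 + 1) • x))
        = ∑ i, (fun x => a i ((k + 1) • x)) * b i := by
      funext x
      rw [succ_nsmul, hab, Finset.sum_apply]
      rfl
    rw [h1]
    exact Subalgebra.sum_mem _ fun i _ => Subalgebra.mul_mem _ (ih (a i) (ha i)) (hb i)

omit hℓ in
/-- in a finite commutative group, `-x = (2n - 1) x` with `n` the order of the group. -/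
theorem neg_eq_nsmul (x : T) : -x = (2 * Nat.card T - 1) • x := by
  have hpos : 0 < Nat.card T := Nat.card_pos
  have h1 : (2 * Nat.card T - 1 + 1) • x = 0 := by
    have h2 : 2 * Nat.card T - 1 + 1 = Nat.card T * 2 := by omega
    rw [h2, mul_smul, card_nsmul_eq_zero']
  rw [succ_nsmul] at h1
  exact (eq_neg_of_add_eq_zero_left h1).symm

omit hℓ in
/-- **closure under the antipode is automatic.** -/
theorem neg_comp_mem (H : Subalgebra (Zl ℓ) (T → Qb))
    (hcomul : ∀ φ ∈ H, ∃ (n : ℕ) (a b : Fin n → T → Qb), (∀ i, a i ∈ H) ∧ (∀ i, b i ∈ H) ∧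
      ∀ x y, φ (x + y) = ∑ i, a i x * b i y) :
    ∀ φ ∈ H, (fun x => φ (-x)) ∈ H := by
  intro φ hφ
  have hpos : 0 < Nat.card T := Nat.card_pos
  have h1 := nsmul_comp_mem H hcomul (2 * Nat.card T - 2) φ hφ
  have h2 : (fun x => φ (-x)) = fun x => φ ((2 * Nat.card T - 2 + 1) • x) := by
    funext x
    rw [neg_eq_nsmul x]
    congr 2
    omega
  rw [h2]
  exact h1

/-- a Hopf order from the fields other than `neg`. -/
theorem _root_.Fermat.Agent.T6.helper33.IsHopfOrder.of_comul {act : GQ → T → T}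
    {H : Subalgebra (Zl ℓ) (T → Qb)}
    (act_surj : ∀ σ, Function.Surjective (act σ)) (act_zero : ∀ σ, act σ 0 = 0)
    (fg : H.toSubmodule.FG)
    (equivariant : ∀ φ ∈ H, ∀ (σ : GQ) (x : T), φ (act σ x) = σ (φ x))
    (sep : ∀ x y : T, x ≠ y → ∃ φ ∈ H, φ x ≠ φ y)
    (comul : ∀ φ ∈ H, ∃ (n : ℕ) (a b : Fin n → T → Qb), (∀ i, a i ∈ H) ∧ (∀ i, b i ∈ H) ∧
      ∀ x y, φ (x + y) = ∑ i, a i x * b i y) :
    IsHopfOrder ℓ act H :=
  ⟨act_surj, act_zero, fg, equivariant, sep, comul, neg_comp_mem H comul⟩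

/-- an element of the Galois group, as an algebra endomorphism over `ℤ_(ℓ)`. -/
def galZl (ℓ : ℕ) (σ : GQ) : Qb →ₐ[Zl ℓ] Qb :=
  { (σ : Qb →+* Qb) with
    commutes' := fun r => by
      show σ (algebraMap (Zl ℓ) Qb r) = algebraMap (Zl ℓ) Qb r
      rw [coe_algebraMap_Zl]
      exact σ.commutes _ }

@[simp]
theorem galZl_apply (σ : GQ) (x : Qb) : galZl ℓ σ x = σ x := rfl

/-- every tensor is a finite sum of pure tensors. -/
theorem exists_fin_sum_tmul {R M N : Type*} [CommSemiring R] [AddCommMonoid M] [AddCommMonoid N]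
    [Module R M] [Module R N] (z : M ⊗[R] N) :
    ∃ (n : ℕ) (u : Fin n → M) (v : Fin n → N), z = ∑ i, u i ⊗ₜ[R] v i := by
  induction z using TensorProduct.induction_on with
  | zero => exact ⟨0, Fin.elim0, Fin.elim0, by simp⟩
  | tmul a b => exact ⟨1, fun _ => a, fun _ => b, by simp⟩
  | add w₁ w₂ h₁ h₂ =>
    obtain ⟨n₁, u₁, v₁, h₁⟩ := h₁
    obtain ⟨n₂, u₂, v₂, h₂⟩ := h₂
    refine ⟨n₁ + n₂, Fin.append u₁ u₂, Fin.append v₁ v₂, ?_⟩
    rw [Fin.sum_univ_add]
    simp only [Fin.append_left, Fin.append_right]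
    rw [← h₁, ← h₂]

/-- **The flat shape gives a Hopf order**: the image of the Hopf algebra in `Map(T, ℚ̄)`. -/
theorem FlatShape.exists_order {act : GQ → T → T}
    (hsurj : ∀ σ, Function.Surjective (act σ)) (hzero : ∀ σ, act σ 0 = 0)
    (h : FlatShape ℓ act) : ∃ H : Subalgebra (Zl ℓ) (T → Qb), IsHopfOrder ℓ act H := by
  obtain ⟨H', i1, i2, hfin, -, -, e, hmul, hequiv⟩ := h
  let ev : H' →ₐ[Zl ℓ] (T → Qb) :=
    AlgHom.pi (fun x => (e.symm x).ofConv)
  have hev : ∀ (a : H') (x : T), ev a x = (e.symm x).ofConv a := fun a x => rfl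
  have hsymm : ∀ x y : T, e.symm (x + y) = e.symm x * e.symm y := by
    intro x y
    apply e.injective
    rw [hmul, e.apply_symm_apply, e.apply_symm_apply, e.apply_symm_apply]
  refine ⟨ev.range, IsHopfOrder.of_comul hsurj hzero ?_ ?_ ?_ ?_⟩
  · -- fg
    have h1 : ev.range.toSubmodule = Submodule.map ev.toLinearMap ⊤ := by
      ext φ
      simp only [Subalgebra.mem_toSubmodule, AlgHom.mem_range, Submodule.mem_map,
        Submodule.mem_top, true_and, AlgHom.toLinearMap_apply]
    rw [h1]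
    exact (Module.Finite.fg_top).map _
  · -- equivariant
    rintro φ ⟨a, rfl⟩ σ x
    let g : WithConv (H' →ₐ[Zl ℓ] Qb) := WithConv.toConv ((galZl ℓ σ).comp (e.symm x).ofConv)
    have h1 : e g = act σ (e (e.symm x)) := hequiv σ (e.symm x) g (fun a => rfl)
    rw [e.apply_symm_apply] at h1
    have h2 : e.symm (act σ x) = g := by
      rw [← h1, e.symm_apply_apply]
    change (e.symm (act σ x)).ofConv a = σ ((e.symm x).ofConv a)
    rw [h2]
    rfl
  · -- sep
    intro x y hxy
    by_contra hcon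
    apply hxy
    have h1 : e.symm x = e.symm y := by
      refine WithConv.ext (AlgHom.ext fun a => ?_)
      by_contra hne
      exact hcon ⟨ev a, ⟨a, rfl⟩, hne⟩
    exact e.symm.injective h1
  · -- comul
    rintro φ ⟨a, rfl⟩
    obtain ⟨n, u, v, huv⟩ := exists_fin_sum_tmul (Coalgebra.comul (R := Zl ℓ) a)
    refine ⟨n, fun i => ev (u i), fun i => ev (v i), fun i => ⟨u i, rfl⟩, fun i => ⟨v i, rfl⟩,
      fun x y => ?_⟩
    change (e.symm (x + y)).ofConv a = _
    rw [hsymm]
    have h1 := AlgHom.convMul_apply (e.symm x) (e.symm y) a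
    refine h1.trans ?_
    rw [huv, map_sum]
    refine Finset.sum_congr rfl fun i _ => ?_
    rw [Algebra.TensorProduct.lift_tmul]
    rfl

end Inv

end Fermat.Agent.T6.helper75

end
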