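/-
T6 (S19 / S32) block (CL), part 2, helper75: **Hopf orders on finite powers**.

For a Hopf order `H` on `X` (`helper33.IsHopfOrder`) and a finite index type `ι`, the subalgebra
`piOrder H ι` of `Map(ι → X, ℚ̄)` generated by the functions `x ↦ φ (x j)`, `φ ∈ H`, `j : ι`, is a
Hopf order on the power `ι → X` (with the componentwise action).
-/
import Mathlib
import Fermat.Agent.T6.helper75_ClosureInv

set_option autoImplicit false
set_option linter.unusedSectionVars false
set_option linter.unusedVariables false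
set_option linter.style.longLine false
set_option linter.style.haveILetI false

noncomputable section

namespace Fermat.Agent.T6.helper75

open Fermat.Agent.S28.helper94 (Zl)
open Fermat.Agent.T6.helper33 (Qb GQ pre pre_apply IsHopfOrder coe_algebraMap_Zl equivSub
  mem_equivSub_iff comulSub mem_comulSub_iff)

section Pi

variable {ℓ : ℕ} [hℓ : Fact ℓ.Prime] {X : Type} [AddCommGroup X] [Finite X]
  (ι : Type) [Finite ι]

/-- the componentwise action on a power. -/
def piAct (act : GQ → X → X) (σ : GQ) (x : ι → X) : ι → X := fun j => act σ (x j)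

omit [Finite X] [Finite ι] in
@[simp]
theorem piAct_apply (act : GQ → X → X) (σ : GQ) (x : ι → X) (j : ι) :
    piAct ι act σ x j = act σ (x j) := rfl

/-- the generators of the order on a power: the functions `x ↦ φ (x j)`, `φ ∈ S`. -/
def piGen (S : Set (X → Qb)) : Set ((ι → X) → Qb) :=
  {f | ∃ j : ι, ∃ φ ∈ S, f = fun x => φ (x j)}

/-- the order on a power. -/
def piOrder (H : Subalgebra (Zl ℓ) (X → Qb)) : Subalgebra (Zl ℓ) ((ι → X) → Qb) :=
  Algebra.adjoin (Zl ℓ) (piGen ι (H : Set (X → Qb)))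

omit hℓ [Finite X] [Finite ι] in
theorem comp_eval_mem_piOrder (H : Subalgebra (Zl ℓ) (X → Qb)) {φ : X → Qb} (hφ : φ ∈ H)
    (j : ι) : (fun x : ι → X => φ (x j)) ∈ piOrder ι H :=
  Algebra.subset_adjoin ⟨j, φ, hφ, rfl⟩

omit hℓ [Finite X] in
theorem piGen_finite {S : Set (X → Qb)} (hS : S.Finite) : (piGen ι S).Finite := by
  have h1 : piGen ι S = (fun q : ι × (X → Qb) => fun x : ι → X => q.2 (x q.1)) ''
      (Set.univ ×ˢ S) := by
    ext f
    constructor
    · rintro ⟨j, φ, hφ, rfl⟩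
      exact ⟨(j, φ), ⟨Set.mem_univ _, hφ⟩, rfl⟩
    · rintro ⟨⟨j, φ⟩, ⟨-, hφ⟩, rfl⟩
      exact ⟨j, φ, hφ, rfl⟩
  rw [h1]
  exact (Set.finite_univ.prod hS).image _

omit hℓ [Finite X] [Finite ι] in
/-- the order on a power is generated by the pull-backs of a generating set of the module `H`. -/
theorem piOrder_eq_adjoin (H : Subalgebra (Zl ℓ) (X → Qb)) (S : Set (X → Qb))
    (hS : Submodule.span (Zl ℓ) S = H.toSubmodule) :
    piOrder ι H = Algebra.adjoin (Zl ℓ) (piGen ι S) := by
  have hSH : S ⊆ (H : Set (X → Qb)) := by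
    intro φ hφ
    have h1 : φ ∈ H.toSubmodule := hS ▸ Submodule.subset_span hφ
    exact h1
  apply le_antisymm
  · refine Algebra.adjoin_le ?_
    rintro f ⟨j, φ, hφ, rfl⟩
    have h1 : φ ∈ Submodule.span (Zl ℓ) S := by
      rw [hS]
      exact hφ
    have h2 : (pre ℓ (fun x : ι → X => x j)).toLinearMap φ ∈
        Submodule.map (pre ℓ (fun x : ι → X => x j)).toLinearMap (Submodule.span (Zl ℓ) S) :=
      Submodule.mem_map_of_mem h1
    rw [Submodule.map_span] at h2
    have h3 : Submodule.span (Zl ℓ) ((pre ℓ (fun x : ι → X => x j)).toLinearMap '' S) ≤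
        Subalgebra.toSubmodule (Algebra.adjoin (Zl ℓ) (piGen ι S)) := by
      refine Submodule.span_le.mpr ?_
      rintro g ⟨φ', hφ', rfl⟩
      exact Algebra.subset_adjoin ⟨j, φ', hφ', rfl⟩
    exact h3 h2
  · refine Algebra.adjoin_mono ?_
    rintro f ⟨j, φ, hφ, rfl⟩
    exact ⟨j, φ, hSH hφ, rfl⟩

/-- **Hopf orders on finite powers.** -/
theorem _root_.Fermat.Agent.T6.helper33.IsHopfOrder.pi {act : GQ → X → X}
    {H : Subalgebra (Zl ℓ) (X → Qb)} (h : IsHopfOrder ℓ act H) :
    IsHopfOrder ℓ (piAct ι act) (piOrder ι H) := by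
  refine IsHopfOrder.of_comul ?_ ?_ ?_ ?_ ?_ ?_
  · intro σ y
    refine ⟨fun j => (h.act_surj σ (y j)).choose, funext fun j => ?_⟩
    exact (h.act_surj σ (y j)).choose_spec
  · intro σ
    funext j
    exact h.act_zero σ
  · obtain ⟨G, hG⟩ := h.fg
    rw [piOrder_eq_adjoin ι H (G : Set (X → Qb)) hG]
    refine fg_adjoin_of_finite (piGen_finite ι G.finite_toSet) ?_
    rintro f ⟨j, φ, hφ, rfl⟩
    have hφH : φ ∈ H := by
      have h1 : φ ∈ H.toSubmodule := hG ▸ Submodule.subset_span hφ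
      exact h1
    have h1 : IsIntegral (Zl ℓ) φ := IsIntegral.of_mem_of_fg H h.fg φ hφH
    exact h1.map (pre ℓ (fun x : ι → X => x j))
  · have h1 : piOrder ι H ≤ equivSub ℓ (piAct ι act) := by
      refine Algebra.adjoin_le ?_
      rintro f ⟨j, φ, hφ, rfl⟩
      exact fun σ x => h.equivariant φ hφ σ (x j)
    exact fun φ hφ => h1 hφ
  · intro x y hxy
    obtain ⟨j, hj⟩ := Function.ne_iff.mp hxy
    obtain ⟨φ, hφ, hne⟩ := h.sep (x j) (y j) hj
    exact ⟨fun z => φ (z j), comp_eval_mem_piOrder ι H hφ j, hne⟩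
  · have h1 : piOrder ι H ≤ comulSub (piOrder ι H) := by
      refine Algebra.adjoin_le ?_
      rintro f ⟨j, φ, hφ, rfl⟩
      obtain ⟨n, a, b, ha, hb, hab⟩ := h.comul φ hφ
      exact (mem_comulSub_iff _ _).mpr ⟨n, fun i x => a i (x j), fun i x => b i (x j),
        fun i => comp_eval_mem_piOrder ι H (ha i) j,
        fun i => comp_eval_mem_piOrder ι H (hb i) j, fun x y => hab (x j) (y j)⟩
    exact fun φ hφ => (mem_comulSub_iff _ _).mp (h1 hφ)

end Pi

end Fermat.Agent.T6.helper75

end
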