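/-
T6 (S19 / S32) block (CL), part 3, helper75: **quotients of Hopf orders**.

For a Hopf order `H` on `T` (`helper33.IsHopfOrder`) and a surjective equivariant homomorphism
`π : T → Q`, the functions `ψ` on `Q` with `ψ ∘ π ∈ H` form a Hopf order on `Q`
(`IsHopfOrder.quotient`).

* `IsHopfOrder.act_add` : the action of a Hopf order is additive;
* `intSpan`, `mem_of_mem_intSpan_of_equivariant` : the span `H̄` of `H` over the integral closure
  of `ℤ_(ℓ)` in `ℚ̄`; the equivariant elements of `H̄` lie in `H` (descent);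
* `normK`, `normK_mem`, `exists_normK_ne` : the norms `z ↦ ∏_{s ∈ ker π} ψ (z + s)`, `ψ ∈ H`, lie in
  `H`, are constant on the fibres of `π` and separate the fibres (values at `c - φ`, `c ∈ ℕ`);
* `quotOrder_comul` : closure under the comultiplication, by peeling with `ℚ̄`-independent bases.
-/
import Mathlib
import Fermat.Agent.T6.helper75_ClosureInv

set_option autoImplicit false
set_option linter.unusedSectionVars false
set_option linter.unusedVariables false
set_option linter.style.longLine false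
set_option linter.style.haveILetI false

noncomputable section

namespace Fermat.Agent.T6.helper75

open Fermat.Agent.S28.helper94 (Zl isPrincipalIdealRing_Zl isFractionRing_Zl
  isIntegrallyClosed_Zl)
open Fermat.Agent.T6.helper33 (Qb GQ pre pre_apply IsHopfOrder coe_algebraMap_Zl
  linearIndependent_of_equivariant exists_rat_of_fixed algebraMap_Zl_injective)

section Quot

variable {ℓ : ℕ} [hℓ : Fact ℓ.Prime] {T Q : Type} [AddCommGroup T] [Finite T]
  [AddCommGroup Q] [Finite Q]

/-! ### The action is additive -/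

/-- the action of a Hopf order is additive. -/
theorem _root_.Fermat.Agent.T6.helper33.IsHopfOrder.act_add {act : GQ → T → T}
    {H : Subalgebra (Zl ℓ) (T → Qb)} (h : IsHopfOrder ℓ act H) (σ : GQ) (x y : T) :
    act σ (x + y) = act σ x + act σ y := by
  by_contra hne
  obtain ⟨φ, hφ, hφne⟩ := h.sep _ _ hne
  apply hφne
  obtain ⟨n, a, b, ha, hb, hab⟩ := h.comul φ hφ
  rw [h.equivariant φ hφ, hab, hab, map_sum]
  refine Finset.sum_congr rfl fun i _ => ?_
  rw [map_mul, h.equivariant (a i) (ha i), h.equivariant (b i) (hb i)]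

omit [Finite Q] in
/-- the action of a Hopf order is injective. -/
theorem _root_.Fermat.Agent.T6.helper33.IsHopfOrder.act_injective {act : GQ → T → T}
    {H : Subalgebra (Zl ℓ) (T → Qb)} (h : IsHopfOrder ℓ act H) (σ : GQ) :
    Function.Injective (act σ) :=
  Finite.injective_iff_surjective.mpr (h.act_surj σ)

/-! ### The integral span of an order -/

/-- the integral closure of `ℤ_(ℓ)` in `ℚ̄`. -/
abbrev Zb (ℓ : ℕ) : Subalgebra (Zl ℓ) Qb := integralClosure (Zl ℓ) Qb

/-- the span of an order over the integral closure of `ℤ_(ℓ)` in `ℚ̄`. -/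
def intSpan (H : Subalgebra (Zl ℓ) (T → Qb)) : Submodule (Zb ℓ) (T → Qb) :=
  Submodule.span (Zb ℓ) (H : Set (T → Qb))

omit hℓ [Finite T] in
theorem mem_intSpan_of_mem {H : Subalgebra (Zl ℓ) (T → Qb)} {φ : T → Qb} (hφ : φ ∈ H) :
    φ ∈ intSpan H :=
  Submodule.subset_span hφ

omit hℓ [Finite T] in
theorem mul_mem_intSpan {H : Subalgebra (Zl ℓ) (T → Qb)} {f g : T → Qb} (hf : f ∈ intSpan H)
    (hg : g ∈ intSpan H) : f * g ∈ intSpan H := by
  have h1 : f * g ∈ intSpan H * intSpan H := Submodule.mul_mem_mul hf hg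
  rw [intSpan, Submodule.span_mul_span] at h1
  refine Submodule.span_mono ?_ h1
  rintro _ ⟨a, ha, b, hb, rfl⟩
  exact H.mul_mem ha hb

omit hℓ [Finite T] in
theorem prod_mem_intSpan {H : Subalgebra (Zl ℓ) (T → Qb)} {κ : Type*} (s : Finset κ)
    (f : κ → T → Qb) (hf : ∀ k ∈ s, f k ∈ intSpan H) : (∏ k ∈ s, f k) ∈ intSpan H := by
  classical
  induction s using Finset.induction_on with
  | empty =>
    rw [Finset.prod_empty]
    exact mem_intSpan_of_mem H.one_mem
  | insert k s hk ih =>
    rw [Finset.prod_insert hk]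
    exact mul_mem_intSpan (hf k (Finset.mem_insert_self k s))
      (ih fun j hj => hf j (Finset.mem_insert_of_mem hj))


/-- the elements of the integral span are the combinations of the basis with integral
coefficients. -/
theorem exists_repr_of_mem_intSpan {act : GQ → T → T} {H : Subalgebra (Zl ℓ) (T → Qb)}
    (h : IsHopfOrder ℓ act H) {f : T → Qb} (hf : f ∈ intSpan H) :
    ∃ c : Fin (Module.finrank (Zl ℓ) H) → Qb, (∀ i, IsIntegral (Zl ℓ) (c i)) ∧
      ∀ x, f x = ∑ i, c i * ((h.basis i : H) : T → Qb) x := by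
  induction hf using Submodule.span_induction with
  | mem φ hφ =>
    refine ⟨fun i => algebraMap (Zl ℓ) Qb (h.basis.repr ⟨φ, hφ⟩ i),
      fun i => isIntegral_algebraMap, fun x => ?_⟩
    have h1 := h.basis.sum_repr ⟨φ, hφ⟩
    have h2 : φ = ∑ i, h.basis.repr ⟨φ, hφ⟩ i • ((h.basis i : H) : T → Qb) := by
      have h3 := congrArg (Subtype.val : H → T → Qb) h1
      refine h3.symm.trans ?_
      simp only [AddSubmonoidClass.coe_finsetSum, Subalgebra.coe_smul]
    conv_lhs => rw [h2]
    rw [Finset.sum_apply]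
    refine Finset.sum_congr rfl fun i _ => ?_
    rw [Pi.smul_apply, Algebra.smul_def]
  | zero => exact ⟨fun _ => 0, fun _ => isIntegral_zero, fun x => by simp⟩
  | add f g _ _ hf hg =>
    obtain ⟨c, hc, hcf⟩ := hf
    obtain ⟨d, hd, hdg⟩ := hg
    refine ⟨fun i => c i + d i, fun i => (hc i).add (hd i), fun x => ?_⟩
    rw [Pi.add_apply, hcf, hdg, ← Finset.sum_add_distrib]
    exact Finset.sum_congr rfl fun i _ => by ring
  | smul z f _ hf =>
    obtain ⟨c, hc, hcf⟩ := hf
    refine ⟨fun i => (z : Qb) * c i, fun i => z.2.mul (hc i), fun x => ?_⟩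
    have h1 : (z • f) x = (z : Qb) * f x := rfl
    rw [h1, hcf, Finset.mul_sum]
    exact Finset.sum_congr rfl fun i _ => by ring

/-- an element of `ℚ̄` which is integral over `ℤ_(ℓ)` and fixed by the Galois group lies in
`ℤ_(ℓ)`. -/
theorem exists_Zl_of_fixed_of_isIntegral (c : Qb) (hc : IsIntegral (Zl ℓ) c)
    (hfix : ∀ σ : GQ, σ c = c) : ∃ r : Zl ℓ, algebraMap (Zl ℓ) Qb r = c := by
  obtain ⟨q, rfl⟩ := exists_rat_of_fixed c hfix
  haveI : IsScalarTower (Zl ℓ) ℚ Qb := IsScalarTower.of_algebraMap_eq fun r => rfl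
  have h1 : IsIntegral (Zl ℓ) q :=
    (isIntegral_algebraMap_iff (algebraMap ℚ Qb).injective).mp hc
  haveI := isFractionRing_Zl ℓ
  haveI := isIntegrallyClosed_Zl ℓ
  obtain ⟨r, hr⟩ := (IsIntegrallyClosed.isIntegral_iff (R := Zl ℓ) (K := ℚ)).mp h1
  refine ⟨r, ?_⟩
  rw [coe_algebraMap_Zl, ← hr]
  rfl

/-- **Descent**: an equivariant element of the integral span of a Hopf order lies in the
order. -/
theorem mem_of_mem_intSpan_of_equivariant {act : GQ → T → T} {H : Subalgebra (Zl ℓ) (T → Qb)}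
    (h : IsHopfOrder ℓ act H) {f : T → Qb} (hf : f ∈ intSpan H)
    (heq : ∀ (σ : GQ) (x : T), f (act σ x) = σ (f x)) : f ∈ H := by
  obtain ⟨c, hc, hcf⟩ := exists_repr_of_mem_intSpan h hf
  have hfix : ∀ (σ : GQ) i, σ (c i) = c i := by
    intro σ
    have h1 : ∑ i, (σ (c i) - c i) • ((h.basis i : H) : T → Qb) = 0 := by
      funext y
      obtain ⟨x, rfl⟩ := h.act_surj σ y
      rw [Finset.sum_apply, Pi.zero_apply]
      have h2 : ∀ i, ((σ (c i) - c i) • ((h.basis i : H) : T → Qb)) (act σ x)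
          = σ (c i * ((h.basis i : H) : T → Qb) x)
            - c i * ((h.basis i : H) : T → Qb) (act σ x) := by
        intro i
        rw [Pi.smul_apply, smul_eq_mul, map_mul, h.equivariant _ (h.basis i).2 σ x]
        ring
      rw [Finset.sum_congr rfl fun i _ => h2 i, Finset.sum_sub_distrib, ← map_sum, ← hcf,
        ← hcf, heq, sub_self]
    intro i
    have h3 := Fintype.linearIndependent_iff.mp h.basis_indep _ h1 i
    exact sub_eq_zero.mp h3
  choose r hr using fun i => exists_Zl_of_fixed_of_isIntegral (c i) (hc i) (fun σ => hfix σ i)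
  have h4 : f = ∑ i, r i • ((h.basis i : H) : T → Qb) := by
    funext x
    rw [hcf, Finset.sum_apply]
    refine Finset.sum_congr rfl fun i _ => ?_
    rw [Pi.smul_apply, Algebra.smul_def, hr]
  rw [h4]
  exact Subalgebra.sum_mem _ fun i _ => Subalgebra.smul_mem _ (h.basis i).2 _

/-- the values of the elements of a Hopf order are integral. -/
theorem isIntegral_apply {act : GQ → T → T} {H : Subalgebra (Zl ℓ) (T → Qb)}
    (h : IsHopfOrder ℓ act H) {φ : T → Qb} (hφ : φ ∈ H) (x : T) : IsIntegral (Zl ℓ) (φ x) :=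
  (IsIntegral.of_mem_of_fg H h.fg φ hφ).map (Pi.evalAlgHom (Zl ℓ) (fun _ : T => Qb) x)

/-- the translates of the elements of a Hopf order lie in its integral span. -/
theorem translate_mem_intSpan {act : GQ → T → T} {H : Subalgebra (Zl ℓ) (T → Qb)}
    (h : IsHopfOrder ℓ act H) {ψ : T → Qb} (hψ : ψ ∈ H) (s : T) :
    (fun z => ψ (z + s)) ∈ intSpan H := by
  obtain ⟨n, a, b, ha, hb, hab⟩ := h.comul ψ hψ
  have h1 : (fun z => ψ (z + s))
      = ∑ i, (⟨b i s, isIntegral_apply h (hb i) s⟩ : Zb ℓ) • a i := by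
    funext z
    rw [hab, Finset.sum_apply]
    refine Finset.sum_congr rfl fun i _ => ?_
    have h2 : ((⟨b i s, isIntegral_apply h (hb i) s⟩ : Zb ℓ) • a i) z = b i s * a i z := rfl
    rw [h2, mul_comm]
  rw [h1]
  exact Submodule.sum_mem _ fun i _ => Submodule.smul_mem _ _ (mem_intSpan_of_mem (ha i))


/-! ### Norms along the kernel of a homomorphism -/

/-- the kernel of a homomorphism, as a finite set. -/
def kerFinset (π : T →+ Q) : Finset T := (Set.toFinite {s : T | π s = 0}).toFinset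

omit hℓ [Finite Q] in
@[simp]
theorem mem_kerFinset (π : T →+ Q) (s : T) : s ∈ kerFinset π ↔ π s = 0 := by
  simp [kerFinset]

/-- the norm of a function along the kernel of `π`. -/
def normK (π : T →+ Q) (ψ : T → Qb) (z : T) : Qb := ∏ s ∈ kerFinset π, ψ (z + s)

omit [Finite Q] in
theorem normK_mem_intSpan {act : GQ → T → T} {H : Subalgebra (Zl ℓ) (T → Qb)}
    (h : IsHopfOrder ℓ act H) (π : T →+ Q) {ψ : T → Qb} (hψ : ψ ∈ H) :
    normK π ψ ∈ intSpan H := by
  have h1 : normK π ψ = ∏ s ∈ kerFinset π, fun z => ψ (z + s) := by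
    funext z
    rw [Finset.prod_apply]
    rfl
  rw [h1]
  exact prod_mem_intSpan _ _ fun s _ => translate_mem_intSpan h hψ s

omit hℓ [Finite Q] in
/-- the norm is invariant under the kernel. -/
theorem normK_invariant (π : T →+ Q) (ψ : T → Qb) {x x' : T} (hx : π x = π x') :
    normK π ψ x = normK π ψ x' := by
  unfold normK
  refine Finset.prod_equiv (Equiv.addLeft (x - x')) (fun s => ?_) (fun s _ => ?_)
  · rw [mem_kerFinset, mem_kerFinset, Equiv.coe_addLeft, map_add, map_sub, hx, sub_self,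
      zero_add]
  · change ψ (x + s) = ψ (x' + (x - x' + s))
    rw [← add_assoc, add_sub_cancel]

/-- the action on the quotient fixes the origin. -/
theorem actQ_zero {act : GQ → T → T} {H : Subalgebra (Zl ℓ) (T → Qb)} (h : IsHopfOrder ℓ act H)
    (π : T →+ Q) (actQ : GQ → Q → Q) (hπact : ∀ σ x, π (act σ x) = actQ σ (π x)) (σ : GQ) :
    actQ σ 0 = 0 := by
  rw [← map_zero π, ← hπact, h.act_zero, map_zero]

omit [Finite Q] in
/-- the action on the quotient is surjective. -/
theorem actQ_surjective {act : GQ → T → T} {H : Subalgebra (Zl ℓ) (T → Qb)}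
    (h : IsHopfOrder ℓ act H) (π : T →+ Q) (hπ : Function.Surjective π) (actQ : GQ → Q → Q)
    (hπact : ∀ σ x, π (act σ x) = actQ σ (π x)) (σ : GQ) : Function.Surjective (actQ σ) := by
  intro q
  obtain ⟨x, rfl⟩ := hπ q
  obtain ⟨x', rfl⟩ := h.act_surj σ x
  exact ⟨π x', (hπact σ x').symm⟩

/-- the norm of an element of a Hopf order is equivariant. -/
theorem normK_equivariant {act : GQ → T → T} {H : Subalgebra (Zl ℓ) (T → Qb)}
    (h : IsHopfOrder ℓ act H) (π : T →+ Q) (hπ : Function.Surjective π) (actQ : GQ → Q → Q)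
    (hπact : ∀ σ x, π (act σ x) = actQ σ (π x)) {ψ : T → Qb} (hψ : ψ ∈ H) (σ : GQ) (z : T) :
    normK π ψ (act σ z) = σ (normK π ψ z) := by
  unfold normK
  rw [map_prod]
  have hinjQ : Function.Injective (actQ σ) :=
    Finite.injective_iff_surjective.mpr (actQ_surjective h π hπ actQ hπact σ)
  symm
  refine Finset.prod_equiv (Equiv.ofBijective (act σ) ⟨h.act_injective σ, h.act_surj σ⟩)
    (fun s => ?_) (fun s _ => ?_)
  · rw [mem_kerFinset, mem_kerFinset]
    change π s = 0 ↔ π (act σ s) = 0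
    rw [hπact]
    constructor
    · intro hs
      rw [hs, actQ_zero h π actQ hπact]
    · intro hs
      exact hinjQ (hs.trans (actQ_zero h π actQ hπact σ).symm)
  · change σ (ψ (z + s)) = ψ (act σ z + act σ s)
    rw [← h.act_add, h.equivariant ψ hψ]

/-- the norm of an element of a Hopf order lies in the order. -/
theorem normK_mem {act : GQ → T → T} {H : Subalgebra (Zl ℓ) (T → Qb)}
    (h : IsHopfOrder ℓ act H) (π : T →+ Q) (hπ : Function.Surjective π) (actQ : GQ → Q → Q)
    (hπact : ∀ σ x, π (act σ x) = actQ σ (π x)) {ψ : T → Qb} (hψ : ψ ∈ H) :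
    normK π ψ ∈ H :=
  mem_of_mem_intSpan_of_equivariant h (normK_mem_intSpan h π hψ)
    (fun σ z => normK_equivariant h π hπ actQ hπact hψ σ z)

/-! ### Avoidance -/

/-- finitely many additive maps to a field of characteristic zero, none of which is zero, have
a common point where none of them vanishes. -/
theorem exists_forall_apply_ne_zero {M K κ : Type*} [AddCommGroup M] [Field K] [CharZero K]
    (s : Finset κ) (f : κ → M →+ K) (hf : ∀ k ∈ s, ∃ m, f k m ≠ 0) :
    ∃ m, ∀ k ∈ s, f k m ≠ 0 := by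
  classical
  induction s using Finset.induction_on with
  | empty => exact ⟨0, fun k hk => absurd hk (Finset.notMem_empty k)⟩
  | insert k₀ s hk₀ ih =>
    obtain ⟨m, hm⟩ := ih fun k hk => hf k (Finset.mem_insert_of_mem hk)
    obtain ⟨w, hw⟩ := hf k₀ (Finset.mem_insert_self k₀ s)
    -- the bad multiples
    have hfin : ∀ k ∈ insert k₀ s, {n : ℕ | f k (n • m + w) = 0}.Finite := by
      intro k hk
      refine Set.Subsingleton.finite ?_
      intro n hn n' hn'
      have hn1 : (n : K) * f k m + f k w = 0 := by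
        have := hn
        simpa [map_add, map_nsmul, nsmul_eq_mul] using this
      have hn2 : (n' : K) * f k m + f k w = 0 := by
        have := hn'
        simpa [map_add, map_nsmul, nsmul_eq_mul] using this
      have hkm : f k m ≠ 0 := by
        rcases Finset.mem_insert.mp hk with rfl | hks
        · intro h0
          rw [h0, mul_zero, zero_add] at hn1
          exact hw hn1
        · exact hm k hks
      have h3 : ((n : K) - (n' : K)) * f k m = 0 := by
        linear_combination hn1 - hn2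
      rcases mul_eq_zero.mp h3 with h4 | h4
      · exact Nat.cast_injective (sub_eq_zero.mp h4)
      · exact absurd h4 hkm
    have hfinU : (⋃ k ∈ insert k₀ s, {n : ℕ | f k (n • m + w) = 0}).Finite :=
      Set.Finite.biUnion (Finset.finite_toSet _) hfin
    obtain ⟨n, hn⟩ := hfinU.exists_notMem
    refine ⟨n • m + w, fun k hk h0 => hn ?_⟩
    exact Set.mem_biUnion hk h0


/-! ### Separation of the fibres by norms -/

omit [Finite Q] in
/-- **the norms separate the fibres** of `π`. -/
theorem exists_normK_ne {act : GQ → T → T} {H : Subalgebra (Zl ℓ) (T → Qb)}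
    (h : IsHopfOrder ℓ act H) (π : T →+ Q) {x y : T} (hxy : π x ≠ π y) :
    ∃ ψ ∈ H, normK π ψ x ≠ normK π ψ y := by
  classical
  -- a function `φ ∈ H` with `φ x ≠ φ (y + s)` for all `s` in the kernel
  let f : T → H →+ Qb := fun s =>
    { toFun := fun φ => (φ : T → Qb) x - (φ : T → Qb) (y + s)
      map_zero' := by simp
      map_add' := fun φ φ' => by
        simp only [Subalgebra.coe_add, Pi.add_apply]
        ring }
  have hf : ∀ s ∈ kerFinset π, ∃ φ : H, f s φ ≠ 0 := by
    intro s hs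
    have hne : x ≠ y + s := by
      intro hh
      apply hxy
      rw [hh, map_add, (mem_kerFinset π s).mp hs, add_zero]
    obtain ⟨φ, hφ, hφne⟩ := h.sep x (y + s) hne
    exact ⟨⟨φ, hφ⟩, sub_ne_zero.mpr hφne⟩
  obtain ⟨φ, hφ⟩ := exists_forall_apply_ne_zero (kerFinset π) f hf
  have hφ' : ∀ s ∈ kerFinset π, (φ : T → Qb) x - (φ : T → Qb) (y + s) ≠ 0 := hφ
  by_contra hall
  have hall' : ∀ ψ ∈ H, normK π ψ x = normK π ψ y := by
    intro ψ hψ
    by_contra hne
    exact hall ⟨ψ, hψ, hne⟩
  -- the two polynomials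
  let P : T → Polynomial Qb := fun z =>
    ∏ s ∈ kerFinset π, (Polynomial.X - Polynomial.C ((φ : T → Qb) (z + s)))
  have heval : ∀ (z : T) (t : Qb), (P z).eval t
      = ∏ s ∈ kerFinset π, (t - (φ : T → Qb) (z + s)) := by
    intro z t
    simp only [P, Polynomial.eval_prod, Polynomial.eval_sub, Polynomial.eval_X,
      Polynomial.eval_C]
  have hnat : ∀ c : ℕ, (P x).eval (c : Qb) = (P y).eval (c : Qb) := by
    intro c
    have hc : (algebraMap (Zl ℓ) (T → Qb) (c : Zl ℓ) - (φ : T → Qb)) ∈ H :=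
      H.sub_mem (H.algebraMap_mem _) φ.2
    have h1 := hall' _ hc
    have h2 : ∀ z : T, normK π (algebraMap (Zl ℓ) (T → Qb) (c : Zl ℓ) - (φ : T → Qb)) z
        = (P z).eval (c : Qb) := by
      intro z
      rw [heval]
      unfold normK
      refine Finset.prod_congr rfl fun s _ => ?_
      rw [Pi.sub_apply, Pi.algebraMap_apply, map_natCast]
    rw [← h2 x, ← h2 y, h1]
  have hP : P x = P y := by
    refine Polynomial.eq_of_infinite_eval_eq _ _ ?_
    refine Set.Infinite.mono ?_ (Set.infinite_range_of_injective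
      (Nat.cast_injective : Function.Injective (Nat.cast : ℕ → Qb)))
    rintro _ ⟨c, rfl⟩
    exact hnat c
  have h0 : (P x).eval ((φ : T → Qb) x) = 0 := by
    rw [heval]
    refine Finset.prod_eq_zero ((mem_kerFinset π 0).mpr (map_zero π)) ?_
    rw [add_zero, sub_self]
  rw [hP, heval, Finset.prod_eq_zero_iff] at h0
  obtain ⟨s, hs, hs0⟩ := h0
  exact hφ' s hs hs0

/-! ### The quotient order -/

/-- the quotient order: the functions on `Q` whose pull-back lies in `H`. -/
def quotOrder (H : Subalgebra (Zl ℓ) (T → Qb)) (π : T →+ Q) : Subalgebra (Zl ℓ) (Q → Qb) :=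
  H.comap (pre ℓ (π : T → Q))

omit hℓ [Finite T] [Finite Q] in
theorem mem_quotOrder_iff (H : Subalgebra (Zl ℓ) (T → Qb)) (π : T →+ Q) (ψ : Q → Qb) :
    ψ ∈ quotOrder H π ↔ (fun x => ψ (π x)) ∈ H := Iff.rfl

omit hℓ [Finite T] [Finite Q] in
/-- an element of `H` which is constant on the fibres of `π` descends to the quotient order. -/
theorem exists_descend (H : Subalgebra (Zl ℓ) (T → Qb)) (π : T →+ Q)
    (hπ : Function.Surjective π) {f : T → Qb} (hf : f ∈ H)
    (hinv : ∀ x x', π x = π x' → f x = f x') :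
    ∃ ψ ∈ quotOrder H π, ∀ x, ψ (π x) = f x := by
  have h1 : ∀ x, f (Function.surjInv hπ (π x)) = f x := fun x =>
    hinv _ _ (Function.surjInv_eq hπ (π x))
  refine ⟨fun q => f (Function.surjInv hπ q), ?_, h1⟩
  rw [mem_quotOrder_iff]
  have h2 : (fun x => f (Function.surjInv hπ (π x))) = f := funext h1
  rw [h2]
  exact hf


omit [Finite T] [Finite Q] in
/-- the quotient order is a finitely generated module. -/
theorem quotOrder_fg {H : Subalgebra (Zl ℓ) (T → Qb)} (hfg : H.toSubmodule.FG) (π : T →+ Q)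
    (hπ : Function.Surjective π) : (quotOrder H π).toSubmodule.FG := by
  haveI := isPrincipalIdealRing_Zl ℓ
  have hinj : Function.Injective (pre ℓ (π : T → Q)).toLinearMap := by
    intro ψ ψ' hh
    funext q
    obtain ⟨x, rfl⟩ := hπ q
    exact congrFun hh x
  refine Submodule.fg_of_fg_map_injective (pre ℓ (π : T → Q)).toLinearMap hinj ?_
  haveI : IsNoetherian (Zl ℓ) H.toSubmodule := isNoetherian_of_fg_of_noetherian _ hfg
  refine isNoetherian_submodule.mp ‹_› _ ?_
  rintro _ ⟨ψ, hψ, rfl⟩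
  exact hψ

omit [Finite T] [Finite Q] in
/-- the elements of the quotient order are equivariant. -/
theorem quotOrder_equivariant {act : GQ → T → T} {H : Subalgebra (Zl ℓ) (T → Qb)}
    (heq : ∀ φ ∈ H, ∀ (σ : GQ) (x : T), φ (act σ x) = σ (φ x)) (π : T →+ Q)
    (hπ : Function.Surjective π) (actQ : GQ → Q → Q)
    (hπact : ∀ σ x, π (act σ x) = actQ σ (π x)) :
    ∀ ψ ∈ quotOrder H π, ∀ (σ : GQ) (q : Q), ψ (actQ σ q) = σ (ψ q) := by
  intro ψ hψ σ q
  obtain ⟨x, rfl⟩ := hπ q
  rw [← hπact]
  exact heq _ hψ σ x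

/-- the quotient order separates the points. -/
theorem quotOrder_sep {act : GQ → T → T} {H : Subalgebra (Zl ℓ) (T → Qb)}
    (h : IsHopfOrder ℓ act H) (π : T →+ Q) (hπ : Function.Surjective π) (actQ : GQ → Q → Q)
    (hπact : ∀ σ x, π (act σ x) = actQ σ (π x)) :
    ∀ q q' : Q, q ≠ q' → ∃ ψ ∈ quotOrder H π, ψ q ≠ ψ q' := by
  intro q q' hqq'
  obtain ⟨x, rfl⟩ := hπ q
  obtain ⟨y, rfl⟩ := hπ q'
  obtain ⟨ψ, hψ, hne⟩ := exists_normK_ne h π hqq'
  obtain ⟨ψ', hψ', hψ'eq⟩ := exists_descend H π hπ (normK_mem h π hπ actQ hπact hψ)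
    (fun x x' hx => normK_invariant π ψ hx)
  refine ⟨ψ', hψ', ?_⟩
  rw [hψ'eq, hψ'eq]
  exact hne

omit hℓ [Finite T] [Finite Q] in
/-- peeling: if `∑ u i a * g i b` does not change when `b` is replaced by `b'`, and the `u i`
are linearly independent, then `g i b = g i b'`. -/
theorem eq_of_sum_mul_eq {A B κ : Type*} [Fintype κ] (u : κ → A → Qb)
    (hu : LinearIndependent Qb u) (g : κ → B → Qb) (b b' : B)
    (hW : ∀ a, ∑ i, u i a * g i b = ∑ i, u i a * g i b') (i : κ) : g i b = g i b' := by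
  have h1 : ∑ i, (g i b - g i b') • u i = 0 := by
    funext a
    rw [Finset.sum_apply, Pi.zero_apply]
    have h2 : ∀ i, ((g i b - g i b') • u i) a = u i a * g i b - u i a * g i b' := by
      intro i
      rw [Pi.smul_apply, smul_eq_mul]
      ring
    rw [Finset.sum_congr rfl fun i _ => h2 i, Finset.sum_sub_distrib, hW, sub_self]
  exact sub_eq_zero.mp (Fintype.linearIndependent_iff.mp hu _ h1 i)

/-- the quotient order is closed under the comultiplication. -/
theorem quotOrder_comul {act : GQ → T → T} {H : Subalgebra (Zl ℓ) (T → Qb)}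
    (h : IsHopfOrder ℓ act H) (π : T →+ Q) (hπ : Function.Surjective π) (actQ : GQ → Q → Q)
    (hπact : ∀ σ x, π (act σ x) = actQ σ (π x)) :
    ∀ ψ ∈ quotOrder H π, ∃ (n : ℕ) (a b : Fin n → Q → Qb),
      (∀ i, a i ∈ quotOrder H π) ∧ (∀ i, b i ∈ quotOrder H π) ∧
      ∀ q q', ψ (q + q') = ∑ i, a i q * b i q' := by
  intro ψ hψ
  haveI := isPrincipalIdealRing_Zl ℓ
  -- a basis of the quotient order, linearly independent over `ℚ̄`
  haveI hfin : Module.Finite (Zl ℓ) (quotOrder H π) :=
    Module.Finite.iff_fg.mpr (quotOrder_fg h.fg π hπ)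
  haveI := IsHopfOrder.torsionFree (quotOrder H π)
  haveI hfree : Module.Free (Zl ℓ) (quotOrder H π) := Module.free_of_finite_type_torsion_free'
  let c := Module.finBasis (Zl ℓ) (quotOrder H π)
  have hc : LinearIndependent Qb (fun j => ((c j : quotOrder H π) : Q → Qb)) := by
    have h1 : LinearIndependent (Zl ℓ) (fun j => ((c j : quotOrder H π) : Q → Qb)) :=
      c.linearIndependent.map' (quotOrder H π).val.toLinearMap
        (LinearMap.ker_eq_bot.mpr Subtype.val_injective)
    haveI := isFractionRing_Zl ℓ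
    have h2 : LinearIndependent ℚ (fun j => ((c j : quotOrder H π) : Q → Qb)) :=
      (LinearIndependent.iff_fractionRing (Zl ℓ) ℚ).mp h1
    exact linearIndependent_of_equivariant actQ (actQ_surjective h π hπ actQ hπact) _
      (fun j σ q => quotOrder_equivariant h.equivariant π hπ actQ hπact _ (c j).2 σ q) h2
  -- the comultiplication upstairs
  obtain ⟨n, α, β, hα, hβ, hαβ⟩ := h.comul _ ((mem_quotOrder_iff H π ψ).mp hψ)
  have hΨ : ∀ x y, ψ (π x + π y) = ∑ k, α k x * β k y := by
    intro x y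
    rw [← map_add]
    exact hαβ x y
  -- first peeling: expand the `β k` in the basis of `H`
  let γ : Fin (Module.finrank (Zl ℓ) H) → T → Qb := fun i =>
    ∑ k, h.basis.repr ⟨β k, hβ k⟩ i • α k
  have hγ : ∀ i, γ i ∈ H := fun i =>
    Subalgebra.sum_mem _ fun k _ => Subalgebra.smul_mem _ (hα k) _
  have hβrepr : ∀ k y, β k y
      = ∑ i, algebraMap (Zl ℓ) Qb (h.basis.repr ⟨β k, hβ k⟩ i) * ((h.basis i : H) : T → Qb) y := by
    intro k y
    have h1 := h.basis.sum_repr ⟨β k, hβ k⟩
    have h3 := congrArg (Subtype.val : H → T → Qb) h1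
    have h4 : β k = ∑ i, h.basis.repr ⟨β k, hβ k⟩ i • ((h.basis i : H) : T → Qb) := by
      refine h3.symm.trans ?_
      simp only [AddSubmonoidClass.coe_finsetSum, Subalgebra.coe_smul]
    conv_lhs => rw [h4]
    rw [Finset.sum_apply]
    refine Finset.sum_congr rfl fun i _ => ?_
    rw [Pi.smul_apply, Algebra.smul_def]
  have hΨ1 : ∀ x y, ψ (π x + π y) = ∑ i, ((h.basis i : H) : T → Qb) y * γ i x := by
    intro x y
    rw [hΨ]
    have h1 : ∀ k, α k x * β k y = ∑ i, ((h.basis i : H) : T → Qb) y *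
        (algebraMap (Zl ℓ) Qb (h.basis.repr ⟨β k, hβ k⟩ i) * α k x) := by
      intro k
      rw [hβrepr, Finset.mul_sum]
      exact Finset.sum_congr rfl fun i _ => by ring
    rw [Finset.sum_congr rfl fun k _ => h1 k, Finset.sum_comm]
    refine Finset.sum_congr rfl fun i _ => ?_
    rw [← Finset.mul_sum]
    congr 1
    change _ = (∑ k, h.basis.repr ⟨β k, hβ k⟩ i • α k) x
    rw [Finset.sum_apply]
    exact Finset.sum_congr rfl fun k _ => by rw [Pi.smul_apply, Algebra.smul_def]
  have hγinv : ∀ i x x', π x = π x' → γ i x = γ i x' := by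
    intro i x x' hx
    refine eq_of_sum_mul_eq (fun i => ((h.basis i : H) : T → Qb)) h.basis_indep γ x x'
      (fun y => ?_) i
    rw [← hΨ1, ← hΨ1, hx]
  choose γ' hγ' hγ'eq using fun i => exists_descend H π hπ (hγ i) (hγinv i)
  -- second peeling: expand the `γ' i` in the basis of the quotient order
  let δ : Fin (Module.finrank (Zl ℓ) (quotOrder H π)) → T → Qb := fun j =>
    ∑ i, c.repr ⟨γ' i, hγ' i⟩ j • ((h.basis i : H) : T → Qb)
  have hδ : ∀ j, δ j ∈ H := fun j =>
    Subalgebra.sum_mem _ fun i _ => Subalgebra.smul_mem _ (h.basis i).2 _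
  have hγ'repr : ∀ i q, γ' i q
      = ∑ j, algebraMap (Zl ℓ) Qb (c.repr ⟨γ' i, hγ' i⟩ j) * ((c j : quotOrder H π) : Q → Qb) q := by
    intro i q
    have h1 := c.sum_repr ⟨γ' i, hγ' i⟩
    have h3 := congrArg (Subtype.val : quotOrder H π → Q → Qb) h1
    have h4 : γ' i = ∑ j, c.repr ⟨γ' i, hγ' i⟩ j • ((c j : quotOrder H π) : Q → Qb) := by
      refine h3.symm.trans ?_
      simp only [AddSubmonoidClass.coe_finsetSum, Subalgebra.coe_smul]
    conv_lhs => rw [h4]
    rw [Finset.sum_apply]
    refine Finset.sum_congr rfl fun j _ => ?_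
    rw [Pi.smul_apply, Algebra.smul_def]
  have hΨ2 : ∀ x y, ψ (π x + π y) = ∑ j, ((c j : quotOrder H π) : Q → Qb) (π x) * δ j y := by
    intro x y
    rw [hΨ1]
    have h1 : ∀ i, ((h.basis i : H) : T → Qb) y * γ i x
        = ∑ j, ((c j : quotOrder H π) : Q → Qb) (π x) *
          (algebraMap (Zl ℓ) Qb (c.repr ⟨γ' i, hγ' i⟩ j) * ((h.basis i : H) : T → Qb) y) := by
      intro i
      rw [← hγ'eq i x, hγ'repr, Finset.mul_sum]
      exact Finset.sum_congr rfl fun j _ => by ring
    rw [Finset.sum_congr rfl fun i _ => h1 i, Finset.sum_comm]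
    refine Finset.sum_congr rfl fun j _ => ?_
    rw [← Finset.mul_sum]
    congr 1
    change _ = (∑ i, c.repr ⟨γ' i, hγ' i⟩ j • ((h.basis i : H) : T → Qb)) y
    rw [Finset.sum_apply]
    exact Finset.sum_congr rfl fun i _ => by rw [Pi.smul_apply, Algebra.smul_def]
  have hδinv : ∀ j y y', π y = π y' → δ j y = δ j y' := by
    intro j y y' hy
    refine eq_of_sum_mul_eq (fun j => ((c j : quotOrder H π) : Q → Qb)) hc δ y y'
      (fun q => ?_) j
    obtain ⟨x, rfl⟩ := hπ q
    rw [← hΨ2, ← hΨ2, hy]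
  choose δ' hδ' hδ'eq using fun j => exists_descend H π hπ (hδ j) (hδinv j)
  refine ⟨_, fun j => ((c j : quotOrder H π) : Q → Qb), δ', fun j => (c j).2, hδ', ?_⟩
  intro q q'
  obtain ⟨x, rfl⟩ := hπ q
  obtain ⟨y, rfl⟩ := hπ q'
  rw [hΨ2]
  exact Finset.sum_congr rfl fun j _ => by rw [hδ'eq]

/-- **Quotients of Hopf orders**: for a surjective equivariant homomorphism `π : T → Q`, the
functions on `Q` whose pull-back lies in `H` form a Hopf order on `Q`. -/
theorem _root_.Fermat.Agent.T6.helper33.IsHopfOrder.quotient {act : GQ → T → T}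
    {H : Subalgebra (Zl ℓ) (T → Qb)} (h : IsHopfOrder ℓ act H) (actQ : GQ → Q → Q)
    (π : T →+ Q) (hπ : Function.Surjective π) (hπact : ∀ σ x, π (act σ x) = actQ σ (π x)) :
    IsHopfOrder ℓ actQ (quotOrder H π) :=
  IsHopfOrder.of_comul (actQ_surjective h π hπ actQ hπact) (actQ_zero h π actQ hπact)
    (quotOrder_fg h.fg π hπ) (quotOrder_equivariant h.equivariant π hπ actQ hπact)
    (quotOrder_sep h π hπ actQ hπact) (quotOrder_comul h π hπ actQ hπact)

end Quot

end Fermat.Agent.T6.helper75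

end
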