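/-
T6 (S19 / S32) block [A4], helper75: **restriction of a Hopf order**.

Target structure: `Fermat.Agent.T6.helper33.IsHopfOrder` (a `ℤ_(ℓ)`-order `H` in `Map(T, ℚ̄)`,
equivariant, separating, closed under comultiplication and antipode).

* `IsHopfOrder.restrict` : for an injective additive map `i : T' → T` which is equivariant for
  actions `act'` on `T'` and `act` on `T`, the restrictions `φ ∘ i`, `φ ∈ H`, form a Hopf order
  on `T'` (`H.map (pre ℓ i)`);
* `IsHopfOrder.restrict_addSubgroup` : the same for a stable subgroup `S ≤ T`;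
* `exists_hopf_of_injective` : the body of the frozen statement S19 / of `IsFlatAt` for `T'`
  from a Hopf order on `T` (this is the form used by the block [LEVEL]:
  `J₀(p)[n] ↪ J₀(4p | 9p)[n]`);
* `IsHopfOrder.congr` : transport of a Hopf order along an equivariant additive equivalence.
-/
import Mathlib
import Fermat.Agent.T6.helper33_HopfOrder

set_option autoImplicit false
set_option linter.unusedSectionVars false
set_option linter.unusedVariables false
set_option linter.style.longLine false
set_option linter.style.haveILetI false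

noncomputable section

namespace Fermat.Agent.T6.helper75

open Fermat.Agent.S28.helper94 (Zl)
open Fermat.Agent.T6.helper33 (Qb GQ pre pre_apply IsHopfOrder)

section Sub

variable {ℓ : ℕ} [hℓ : Fact ℓ.Prime] {T T' : Type} [AddCommGroup T] [Finite T]
  [AddCommGroup T'] [Finite T']

omit hℓ [Finite T] [Finite T'] in
/-- membership in the restricted order. -/
theorem mem_map_pre_iff (H : Subalgebra (Zl ℓ) (T → Qb)) (i : T' → T) (ψ : T' → Qb) :
    ψ ∈ H.map (pre ℓ i) ↔ ∃ φ ∈ H, ∀ x, φ (i x) = ψ x := by
  constructor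
  · rintro ⟨φ, hφ, rfl⟩
    exact ⟨φ, hφ, fun x => rfl⟩
  · rintro ⟨φ, hφ, h⟩
    exact ⟨φ, hφ, funext h⟩

omit hℓ [Finite T] [Finite T'] in
/-- the restriction of an element of `H` lies in the restricted order. -/
theorem comp_mem_map_pre (H : Subalgebra (Zl ℓ) (T → Qb)) (i : T' → T) {φ : T → Qb}
    (hφ : φ ∈ H) : (fun x => φ (i x)) ∈ H.map (pre ℓ i) :=
  ⟨φ, hφ, rfl⟩

omit hℓ [Finite T'] in
/-- an action on `T'` compatible with a surjective action on the finite set `T` along an
injective map is surjective (`T'` is finite). -/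
theorem act_surjective_of_injective {act : GQ → T → T} (hsurj : ∀ σ, Function.Surjective (act σ))
    (act' : GQ → T' → T') (i : T' → T) (hi : Function.Injective i)
    (hact : ∀ σ x, i (act' σ x) = act σ (i x)) (σ : GQ) : Function.Surjective (act' σ) := by
  haveI : Finite T' := Finite.of_injective i hi
  have hinj : Function.Injective (act σ) := Finite.injective_iff_surjective.mpr (hsurj σ)
  refine Finite.injective_iff_surjective.mp fun x y hxy => hi (hinj ?_)
  rw [← hact, ← hact, hxy]

/-- **Restriction of a Hopf order** along an injective equivariant additive map. -/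
theorem _root_.Fermat.Agent.T6.helper33.IsHopfOrder.restrict {act : GQ → T → T}
    {H : Subalgebra (Zl ℓ) (T → Qb)} (h : IsHopfOrder ℓ act H) (act' : GQ → T' → T')
    (i : T' →+ T) (hi : Function.Injective i) (hact : ∀ σ x, i (act' σ x) = act σ (i x)) :
    IsHopfOrder ℓ act' (H.map (pre ℓ i)) where
  act_surj := act_surjective_of_injective h.act_surj act' i hi hact
  act_zero σ := hi (by rw [hact, map_zero, h.act_zero])
  fg := by
    have h1 : (H.map (pre ℓ i)).toSubmodule = H.toSubmodule.map (pre ℓ i).toLinearMap := rfl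
    rw [h1]
    exact h.fg.map _
  equivariant := by
    rintro ψ ⟨φ, hφ, rfl⟩ σ x
    show φ (i (act' σ x)) = σ (φ (i x))
    rw [hact, h.equivariant φ hφ]
  sep x y hxy := by
    obtain ⟨φ, hφ, hne⟩ := h.sep (i x) (i y) (fun hh => hxy (hi hh))
    exact ⟨fun z => φ (i z), comp_mem_map_pre H i hφ, hne⟩
  comul := by
    rintro ψ ⟨φ, hφ, rfl⟩
    obtain ⟨n, a, b, ha, hb, hab⟩ := h.comul φ hφ
    refine ⟨n, fun j x => a j (i x), fun j x => b j (i x),
      fun j => comp_mem_map_pre H i (ha j), fun j => comp_mem_map_pre H i (hb j), fun x y => ?_⟩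
    show φ (i (x + y)) = _
    rw [map_add, hab]
  neg := by
    rintro ψ ⟨φ, hφ, rfl⟩
    refine ⟨fun x => φ (-x), h.neg φ hφ, funext fun x => ?_⟩
    show φ (-(i x)) = φ (i (-x))
    rw [map_neg]

/-- the action induced on a stable subgroup. -/
def subAct (act : GQ → T → T) (S : AddSubgroup T) (hS : ∀ σ, ∀ x ∈ S, act σ x ∈ S) (σ : GQ)
    (x : S) : S :=
  ⟨act σ x, hS σ x x.2⟩

omit [Finite T] in
@[simp]
theorem coe_subAct (act : GQ → T → T) (S : AddSubgroup T) (hS : ∀ σ, ∀ x ∈ S, act σ x ∈ S)
    (σ : GQ) (x : S) : ((subAct act S hS σ x : S) : T) = act σ x := rfl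

/-- **Restriction of a Hopf order to a stable subgroup.** -/
theorem _root_.Fermat.Agent.T6.helper33.IsHopfOrder.restrict_addSubgroup {act : GQ → T → T}
    {H : Subalgebra (Zl ℓ) (T → Qb)} (h : IsHopfOrder ℓ act H) (S : AddSubgroup T)
    (hS : ∀ σ, ∀ x ∈ S, act σ x ∈ S) :
    IsHopfOrder ℓ (subAct act S hS) (H.map (pre ℓ (S.subtype : S → T))) :=
  h.restrict (subAct act S hS) S.subtype S.subtype_injective fun _ _ => rfl

/-- **Transport of a Hopf order** along an equivariant additive equivalence. -/
theorem _root_.Fermat.Agent.T6.helper33.IsHopfOrder.congr {act : GQ → T → T}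
    {H : Subalgebra (Zl ℓ) (T → Qb)} (h : IsHopfOrder ℓ act H) (act' : GQ → T' → T')
    (e : T' ≃+ T) (hact : ∀ σ x, e (act' σ x) = act σ (e x)) :
    IsHopfOrder ℓ act' (H.map (pre ℓ (e : T' → T))) :=
  h.restrict act' e.toAddMonoidHom e.injective hact

/-- **The body of the frozen statement S19 / of `GaloisRepAdic.IsFlatAt` for `T'`**, from a
Hopf order on a group `T` containing `T'` equivariantly. -/
theorem exists_hopf_of_injective {act : GQ → T → T} {H : Subalgebra (Zl ℓ) (T → Qb)}
    (h : IsHopfOrder ℓ act H) (act' : GQ → T' → T') (i : T' →+ T)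
    (hi : Function.Injective i) (hact : ∀ σ x, i (act' σ x) = act σ (i x)) :
    ∃ (H' : Type) (_ : CommRing H') (_ : HopfAlgebra (GaloisRep.ratLocalizedAt ℓ) H'),
      Module.Finite (GaloisRep.ratLocalizedAt ℓ) H' ∧
      Module.Flat (GaloisRep.ratLocalizedAt ℓ) H' ∧
      Coalgebra.IsCocomm (GaloisRep.ratLocalizedAt ℓ) H' ∧
      ∃ e : WithConv (H' →ₐ[GaloisRep.ratLocalizedAt ℓ] AlgebraicClosure ℚ) ≃ T',
        (∀ f g, e (f * g) = e f + e g) ∧
        ∀ (σ : AlgebraicClosure ℚ ≃ₐ[ℚ] AlgebraicClosure ℚ)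
          (f g : WithConv (H' →ₐ[GaloisRep.ratLocalizedAt ℓ] AlgebraicClosure ℚ)),
          (∀ a : H', g a = σ (f a)) → e g = act' σ (e f) :=
  (h.restrict act' i hi hact).exists_hopf

end Sub

end Fermat.Agent.T6.helper75

end
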