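/-
T6 (S19 / S32) block (CL), helper75: **the flat shape passes to subquotients of finite powers**.

`FlatShape ℓ act` is the body of the frozen statement S19 and of `GaloisRepAdic.IsFlatAt` (a
finite flat cocommutative Hopf algebra over `ℤ_(ℓ)` whose `ℚ̄`-points are `T`,
Galois-equivariantly).

* `FlatShape.subquotient_pi` : (CL) if `X` has the flat shape, `Y ↪ (Fin m → X)` is an injective
  equivariant homomorphism and `Y ↠ Z` a surjective equivariant homomorphism, then `Z` has the
  flat shape;
* `FlatShape.sub`, `FlatShape.quotient`, `FlatShape.pi` : the three special cases;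
* `IsHopfOrder.exists_subquotient_pi` : the same for Hopf orders.
-/
import Mathlib
import Fermat.Agent.T6.helper75_OrderSub
import Fermat.Agent.T6.helper75_ClosurePi
import Fermat.Agent.T6.helper75_ClosureQuot

set_option autoImplicit false
set_option linter.unusedSectionVars false
set_option linter.unusedVariables false
set_option linter.style.longLine false
set_option linter.style.haveILetI false

noncomputable section

namespace Fermat.Agent.T6.helper75

open Fermat.Agent.S28.helper94 (Zl)
open Fermat.Agent.T6.helper33 (Qb GQ pre pre_apply IsHopfOrder)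

section Closure

variable {ℓ : ℕ} [hℓ : Fact ℓ.Prime]

/-- **Hopf orders pass to subquotients of finite powers.** -/
theorem _root_.Fermat.Agent.T6.helper33.IsHopfOrder.exists_subquotient_pi
    {X Y Z : Type} [AddCommGroup X] [Finite X] [AddCommGroup Y] [AddCommGroup Z] [Finite Z]
    {actX : GQ → X → X} {actY : GQ → Y → Y} {actZ : GQ → Z → Z}
    {H : Subalgebra (Zl ℓ) (X → Qb)} (h : IsHopfOrder ℓ actX H) (ι : Type) [Finite ι]
    (i : Y →+ (ι → X)) (hi : Function.Injective i)
    (hiact : ∀ σ y j, i (actY σ y) j = actX σ (i y j))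
    (p : Y →+ Z) (hp : Function.Surjective p) (hpact : ∀ σ y, p (actY σ y) = actZ σ (p y)) :
    ∃ H' : Subalgebra (Zl ℓ) (Z → Qb), IsHopfOrder ℓ actZ H' := by
  haveI : Finite Y := Finite.of_injective i hi
  have h1 : IsHopfOrder ℓ (piAct ι actX) (piOrder ι H) := h.pi ι
  have h2 : IsHopfOrder ℓ actY ((piOrder ι H).map (pre ℓ i)) :=
    h1.restrict actY i hi fun σ y => funext fun j => hiact σ y j
  exact ⟨_, h2.quotient actZ p hp hpact⟩

/-- **(CL): the flat shape passes to subquotients of finite powers.** -/
theorem FlatShape.subquotient_pi {X Y Z : Type} [AddCommGroup X] [Finite X] [AddCommGroup Y]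
    [AddCommGroup Z] {actX : GQ → X → X} {actY : GQ → Y → Y} {actZ : GQ → Z → Z}
    (hsurj : ∀ σ, Function.Surjective (actX σ)) (hzero : ∀ σ, actX σ 0 = 0)
    (hX : FlatShape ℓ actX) (m : ℕ)
    (i : Y →+ (Fin m → X)) (hi : Function.Injective i)
    (hiact : ∀ σ y j, i (actY σ y) j = actX σ (i y j))
    (p : Y →+ Z) (hp : Function.Surjective p) (hpact : ∀ σ y, p (actY σ y) = actZ σ (p y)) :
    FlatShape ℓ actZ := by
  haveI : Finite Y := Finite.of_injective i hi
  haveI : Finite Z := Finite.of_surjective p hp
  obtain ⟨H, h⟩ := hX.exists_order hsurj hzero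
  obtain ⟨H', h'⟩ := h.exists_subquotient_pi (Fin m) i hi hiact p hp hpact
  exact FlatShape.of_order h'

/-- the flat shape passes to subgroups. -/
theorem FlatShape.sub {X Y : Type} [AddCommGroup X] [Finite X] [AddCommGroup Y]
    {actX : GQ → X → X} {actY : GQ → Y → Y}
    (hsurj : ∀ σ, Function.Surjective (actX σ)) (hzero : ∀ σ, actX σ 0 = 0)
    (hX : FlatShape ℓ actX) (i : Y →+ X) (hi : Function.Injective i)
    (hiact : ∀ σ y, i (actY σ y) = actX σ (i y)) : FlatShape ℓ actY := by
  haveI : Finite Y := Finite.of_injective i hi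
  obtain ⟨H, h⟩ := hX.exists_order hsurj hzero
  exact FlatShape.of_order (h.restrict actY i hi hiact)

/-- the flat shape passes to quotients. -/
theorem FlatShape.quotient {X Z : Type} [AddCommGroup X] [Finite X] [AddCommGroup Z]
    {actX : GQ → X → X} {actZ : GQ → Z → Z}
    (hsurj : ∀ σ, Function.Surjective (actX σ)) (hzero : ∀ σ, actX σ 0 = 0)
    (hX : FlatShape ℓ actX) (p : X →+ Z) (hp : Function.Surjective p)
    (hpact : ∀ σ x, p (actX σ x) = actZ σ (p x)) : FlatShape ℓ actZ := by
  haveI : Finite Z := Finite.of_surjective p hp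
  obtain ⟨H, h⟩ := hX.exists_order hsurj hzero
  exact FlatShape.of_order (h.quotient actZ p hp hpact)

/-- the flat shape passes to finite powers. -/
theorem FlatShape.pi {X : Type} [AddCommGroup X] [Finite X] {actX : GQ → X → X}
    (hsurj : ∀ σ, Function.Surjective (actX σ)) (hzero : ∀ σ, actX σ 0 = 0)
    (hX : FlatShape ℓ actX) (ι : Type) [Finite ι] : FlatShape ℓ (piAct ι actX) := by
  obtain ⟨H, h⟩ := hX.exists_order hsurj hzero
  exact FlatShape.of_order (h.pi ι)

end Closure

end Fermat.Agent.T6.helper75

end
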