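/-
T6 (S32) block [CMP], part 4 (helper67): **S32 from S19**.

* `isFlatAt_aux` : for a Hecke-Galois datum of level `N` and an auxiliary level `M` (`N ∣ M`)
  carrying a geometric Tate datum (P3), if `p` is odd and `J₀(M)[p^k]` has the flat shape (the
  conclusion of S19 at level `M`) for every `k`, then the representation is flat at `p`;
* `S19Statement`, `S32Statement` : the frozen statements S19, S32 as `Prop`s;
* `s32_of_s19` : `S19Statement → TateGeomAtGoodLevels → S32Statement` (auxiliary level `4 N`).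

Route: the finite-level `2 × 2` calculus `cmp_mid` (every `V / I V` is an equivariant quotient
of a stable subgroup of a finite power of `Λ / p^n Λ ⊆ J₀(M)[p^n]`) and the closure of the flat
shape under subquotients of finite powers (helper75).
-/
import Mathlib
import Fermat.Agent.T2.helper34_WireS34
import Fermat.Agent.P3.helper12_TraceRigid
import Fermat.Agent.T6.helper67_CmpMid
import Fermat.Agent.T6.helper67_CmpTate
import Fermat.Agent.T6.helper75_Closure

set_option autoImplicit false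
set_option linter.unusedSectionVars false
set_option linter.style.haveILetI false
set_option linter.unusedVariables false

noncomputable section

namespace Fermat.Agent.T6.helper67

open Fermat.Agent.P3 Fermat.Agent.P3.helper1 Fermat.Agent.P3.helper64 Fermat.Agent.P3.helper98
  ModularCurve

/-! ## Small lemmas -/

/-- the residue field of `T` is finite -/
theorem finite_residueField_of_surjective {𝒪 T : Type} [CommRing 𝒪] [IsLocalRing 𝒪]
    [CommRing T] [IsLocalRing T] [Algebra 𝒪 T] [IsLocalHom (algebraMap 𝒪 T)]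
    [Finite (IsLocalRing.ResidueField 𝒪)]
    (h : Function.Surjective (IsLocalRing.residue T ∘ algebraMap 𝒪 T)) :
    Finite (IsLocalRing.ResidueField T) := by
  refine Finite.of_surjective (IsLocalRing.ResidueField.map (algebraMap 𝒪 T)) ?_
  intro x
  obtain ⟨a, ha⟩ := h x
  exact ⟨IsLocalRing.residue 𝒪 a, by rw [IsLocalRing.ResidueField.map_residue]; exact ha⟩

/-- a power of an element of the maximal ideal lies in every ideal of finite index -/
theorem exists_pow_mem_of_finite_quotient {T : Type} [CommRing T] [IsLocalRing T] (I : Ideal T)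
    [Finite (T ⧸ I)] (x : T) (hx : x ∈ IsLocalRing.maximalIdeal T) : ∃ n : ℕ, x ^ n ∈ I := by
  obtain ⟨i, j, hij, h⟩ :=
    Finite.exists_ne_map_eq_of_infinite (fun n : ℕ => Ideal.Quotient.mk I (x ^ n))
  have key : ∀ i j : ℕ, i < j → Ideal.Quotient.mk I (x ^ i) = Ideal.Quotient.mk I (x ^ j) →
      ∃ n : ℕ, x ^ n ∈ I := by
    intro i j hlt h
    refine ⟨i, ?_⟩
    obtain ⟨e, rfl⟩ : ∃ e, j = i + (e + 1) := ⟨j - i - 1, by omega⟩
    rw [Ideal.Quotient.eq] at h
    have h1 : x ^ i - x ^ (i + (e + 1)) = x ^ i * (1 - x ^ (e + 1)) := by ring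
    rw [h1] at h
    have hu : IsUnit (1 - x ^ (e + 1)) := by
      have hm : x ^ (e + 1) ∈ IsLocalRing.maximalIdeal T :=
        Ideal.pow_mem_of_mem _ hx _ (Nat.succ_pos e)
      exact IsLocalRing.isUnit_one_sub_self_of_mem_nonunits _ hm
    exact (Ideal.mul_unit_mem_iff_mem I hu).mp h
  rcases lt_or_gt_of_ne hij with hlt | hlt
  · exact key i j hlt h
  · exact key j i hlt h.symm

/-- `2` is invertible in a local ring of odd residue characteristic -/
theorem exists_two_mul_eq_one {R : Type} [CommRing R] [IsLocalRing R] {p : ℕ} (hp : p.Prime)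
    (hp2 : p ≠ 2) (hpR : (p : R) ∈ IsLocalRing.maximalIdeal R) : ∃ i2 : R, 2 * i2 = 1 := by
  obtain ⟨m, hm⟩ : ∃ m, p = 2 * m + 1 := by
    rcases hp.eq_two_or_odd' with h | h
    · exact absurd h hp2
    · exact h
  have hu : IsUnit (1 - (p : R)) := IsLocalRing.isUnit_one_sub_self_of_mem_nonunits _ hpR
  obtain ⟨u, hu⟩ := hu
  refine ⟨-(m : R) * ((u⁻¹ : Rˣ) : R), ?_⟩
  have h1 : (2 : R) * -(m : R) = (u : R) := by
    rw [hu, hm]
    push_cast
    ring
  rw [← mul_assoc, h1, Units.mul_inv]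

/-- the body of S19 gives the flat shape of the torsion -/
theorem flatShape_torsAct_of_body {J : Type} [AddCommGroup J]
    [DistribMulAction Fermat.Agent.T6.helper33.GQ J] (ℓ : ℕ) (n : ℤ)
    (h : ∃ (H : Type) (_ : CommRing H) (_ : HopfAlgebra (GaloisRep.ratLocalizedAt ℓ) H),
      Module.Finite (GaloisRep.ratLocalizedAt ℓ) H ∧ Module.Flat (GaloisRep.ratLocalizedAt ℓ) H ∧
      Coalgebra.IsCocomm (GaloisRep.ratLocalizedAt ℓ) H ∧
      ∃ e : WithConv (H →ₐ[GaloisRep.ratLocalizedAt ℓ] AlgebraicClosure ℚ) ≃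
          ↥(Submodule.torsionBy ℤ J n),
        (∀ f g, e (f * g) = e f + e g) ∧
        ∀ (σ : AlgebraicClosure ℚ ≃ₐ[ℚ] AlgebraicClosure ℚ)
          (f g : WithConv (H →ₐ[GaloisRep.ratLocalizedAt ℓ] AlgebraicClosure ℚ)),
          (∀ a : H, g a = σ (f a)) → ((e g : J)) = σ • (e f : J)) :
    Fermat.Agent.T6.helper75.FlatShape ℓ (Fermat.Agent.T6.helper33.torsAct (J := J) n) := by
  obtain ⟨H', i1, i2, h1, h2, h3, e, he1, he2⟩ := h
  exact ⟨H', i1, i2, h1, h2, h3, e, he1, fun σ f g hfg => Subtype.ext (he2 σ f g hfg)⟩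

/-! ## The main wiring -/

set_option maxHeartbeats 1600000 in
/-- **[CMP] at one auxiliary level**: if a geometric Tate datum of level `M` (`N ∣ M`) exists,
`p` is odd and the `p`-power torsion of `J₀(M)` has the flat shape at every level, then for every
Hecke-Galois datum of level `N` away from `S` the representation is flat at `p`. -/
theorem isFlatAt_aux (hPU : PseudoUnivStatement) (hCheb : ChebStatement)
    (hCyc : CycloStatement) (hZp : ZpAlgebraStatement)
    (p : ℕ) [Fact p.Prime] (hp2 : p ≠ 2) (N : ℕ) [NeZero N] (S : Finset ℕ) (M : ℕ) [NeZero M]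
    (hNM : N ∣ M)
    (hTate : Nonempty (Fermat.Agent.P3.helper67.TateGeom p N S M hNM))
    (hfin : ∀ k : ℕ, Finite ↥(Submodule.torsionBy ℤ (JZero M) ((p : ℤ) ^ k)))
    (hflat : ∀ k : ℕ, Fermat.Agent.T6.helper75.FlatShape p
      (Fermat.Agent.T6.helper33.torsAct (J := JZero M) ((p : ℤ) ^ k)))
    (𝒪 : Type) [CommRing 𝒪] [IsDomain 𝒪] [IsDiscreteValuationRing 𝒪]
    [IsAdicComplete (IsLocalRing.maximalIdeal 𝒪) 𝒪] [Finite (IsLocalRing.ResidueField 𝒪)]
    (hp𝒪 : (p : 𝒪) ∈ IsLocalRing.maximalIdeal 𝒪)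
    (θ : CuspForm.heckeAlgebra N 2 (↑S : Set ℕ) →+* IsLocalRing.ResidueField 𝒪)
    (T : Type) [CommRing T] [IsLocalRing T] [IsNoetherianRing T]
    [IsAdicComplete (IsLocalRing.maximalIdeal T) T] [Algebra 𝒪 T]
    [IsLocalHom (algebraMap 𝒪 T)] [Module.Finite 𝒪 T] [Module.Free 𝒪 T]
    (H : CuspForm.HeckeGaloisRepDatum N (↑S : Set ℕ) 𝒪 θ T) :
    H.ρ.IsFlatAt p := by
  have hp : p.Prime := Fact.out
  obtain ⟨DG⟩ := hTate
  set D : TateDatum p N S M hNM := DG.toTateDatum with hD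
  -- `p` lies in the maximal ideal of `T`
  have hpT : (p : T) ∈ IsLocalRing.maximalIdeal T := by
    rw [IsLocalRing.mem_maximalIdeal, mem_nonunits_iff]
    intro hu
    have h1 : IsUnit (algebraMap 𝒪 T (p : 𝒪)) := by rw [map_natCast]; exact hu
    have h2 : IsUnit (p : 𝒪) := IsUnit.of_map (algebraMap 𝒪 T) _ h1
    exact (IsLocalRing.mem_maximalIdeal _).mp hp𝒪 h2
  -- the cyclotomic character
  have hpZ : (p : ℤ_[p]) ∈ IsLocalRing.maximalIdeal ℤ_[p] := by
    rw [PadicInt.maximalIdeal_eq_span_p]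
    exact Ideal.mem_span_singleton_self _
  obtain ⟨d, hd, hdc, hdloc, c, hc, hdcc⟩ := hCyc p ℤ_[p] hpZ
  -- the universal trace
  obtain ⟨t, ht⟩ := hPU p N S M hNM D d hd hdc
  -- `T` is a `ℤ_p`-algebra
  obtain ⟨ι⟩ := hZp p T hpT
  letI : Algebra ℤ_[p] T := ι.toAlgebra
  -- the map `𝔸 → T`
  let f : MvPolynomial (GoodPrime p M S) ℤ_[p] →ₐ[ℤ_[p]] D.𝔸 := MvPolynomial.aeval D.τ
  let g : MvPolynomial (GoodPrime p M S) ℤ_[p] →ₐ[ℤ_[p]] T :=
    MvPolynomial.aeval (fun ℓ => H.π (goodT hNM ℓ))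
  have hsurj : Function.Surjective f := by
    rw [← AlgHom.range_eq_top]
    change (MvPolynomial.aeval D.τ).range = ⊤
    rw [← Algebra.adjoin_range_eq_range_aeval]
    exact D.adjoin_τ
  have hker : ∀ P ∈ RingHom.ker (f : MvPolynomial (GoodPrime p M S) ℤ_[p] →+* D.𝔸), g P = 0 := by
    intro P hP
    exact D.faithful T H.π P hP
  let Θ : D.𝔸 →ₐ[ℤ_[p]] T :=
    (Ideal.Quotient.liftₐ (RingHom.ker (f : MvPolynomial (GoodPrime p M S) ℤ_[p] →+* D.𝔸)) g
      hker).comp (Ideal.quotientKerAlgEquivOfSurjective hsurj).symm.toAlgHom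
  have hΘ : ∀ ℓ : GoodPrime p M S, Θ (D.τ ℓ) = H.π (goodT hNM ℓ) := by
    intro ℓ
    have h1 : (Ideal.quotientKerAlgEquivOfSurjective hsurj).symm (D.τ ℓ) =
        Ideal.Quotient.mk _ (MvPolynomial.X ℓ) := by
      rw [AlgEquiv.symm_apply_eq]
      change D.τ ℓ = f (MvPolynomial.X ℓ)
      exact (MvPolynomial.aeval_X D.τ ℓ).symm
    change Ideal.Quotient.liftₐ _ g hker ((Ideal.quotientKerAlgEquivOfSurjective hsurj).symm
      (D.τ ℓ)) = _
    rw [h1]
    change g (MvPolynomial.X ℓ) = _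
    exact MvPolynomial.aeval_X _ ℓ
  -- the trace formula
  have htr : ∀ s : GQ, LinearMap.trace T H.ρ.V (H.ρ.ρ s) = Θ (t s) := by
    refine trace_eq_of_tateDatum D d t ht hCheb hd hdc hpT Θ H.ρ ?_
    intro ℓ A' hA' φ hφ
    rw [hΘ]
    exact H.charpoly_frob ℓ.1 ℓ.2.1 (fun h => ℓ.2.2.1 (Dvd.dvd.mul_right (h.trans hNM) p))
      (fun h => ℓ.2.2.2 (Finset.mem_coe.mp h)) A' hA' φ hφ
  -- `2` is invertible
  obtain ⟨j2, hj2⟩ := exists_two_mul_eq_one hp hp2 hpZ
  have h2A : (2 : D.𝔸) * algebraMap ℤ_[p] D.𝔸 j2 = 1 := by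
    rw [← map_ofNat (algebraMap ℤ_[p] D.𝔸) 2, ← map_mul, hj2, map_one]
  have h2T : IsUnit (2 : T) := by
    refine IsUnit.of_mul_eq_one (Θ (algebraMap ℤ_[p] D.𝔸 j2)) ?_
    rw [← map_ofNat Θ 2, ← map_mul, h2A, map_one]
  -- the determinant formula
  have hdet : ∀ s : GQ, LinearMap.det (H.ρ.ρ s) = Θ (dA DG d s) := by
    intro s
    have h1 := two_mul_det_eq H.ρ.finrank_eq (H.ρ.ρ s)
    rw [← map_mul, htr, htr, t_mul_self DG d t ht s, ← map_pow, ← map_sub] at h1
    have h2 : t s ^ 2 - (t s ^ 2 - 2 * dA DG d s) = 2 * dA DG d s := by ring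
    rw [h2, map_mul, map_ofNat] at h1
    exact h2T.mul_left_cancel h1
  have hspan : Submodule.span T (Set.range H.ρ.ρ) = ⊤ :=
    Fermat.Agent.P3.helper12.span_range_eq_top_of_residual_absIrr H.ρ H.residual_absIrr
  refine ⟨finite_residueField_of_surjective H.residue_surjective, fun I hI => ?_⟩
  haveI := hI
  -- the level
  obtain ⟨n, hn⟩ := exists_pow_mem_of_finite_quotient I (p : T) hpT
  obtain ⟨c₀, hc₀⟩ := exists_artinRees_LT DG
  haveI := hfin (n + c₀)
  haveI : Finite (LT DG (n + c₀)) := Finite.of_injective _ (jLT_injective DG (n + c₀))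
  have hAR : ∀ a : D.𝔸, (∀ w : LT DG (n + c₀), a • w = 0) → Θ a ∈ I := by
    intro a ha
    have h1 := hc₀ n a ha
    refine Submodule.smul_induction_on h1 ?_ ?_
    · intro r hr b _
      rw [map_smul, Algebra.smul_def]
      refine Ideal.mul_mem_right _ _ ?_
      rw [PadicInt.maximalIdeal_eq_span_p, Ideal.span_singleton_pow,
        Ideal.mem_span_singleton'] at hr
      obtain ⟨r', rfl⟩ := hr
      rw [map_mul, map_pow, map_natCast]
      exact Ideal.mul_mem_left _ _ hn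
    · intro x y hx hy
      rw [map_add]
      exact Ideal.add_mem _ hx hy
  obtain ⟨κ, hκ, Y, φ, hstab, hφsurj, hequiv⟩ :=
    cmp_mid (quadLT DG d t ht (n + c₀) c hc hdcc) (algebraMap ℤ_[p] D.𝔸 j2) h2A
      (Θ : D.𝔸 →+* T) H.ρ.finrank_eq H.ρ.ρ htr hdet hspan I hAR
  haveI := hκ
  obtain ⟨m, ⟨eκ⟩⟩ := Finite.exists_equiv_fin κ
  -- the closure
  let actY : GQ → Y → Y := fun s z =>
    ⟨fun k => rLT DG (n + c₀) s ((z : κ → LT DG (n + c₀)) k), hstab s z.1 z.2⟩
  let i : Y →+ (Fin m → ↥(Submodule.torsionBy ℤ (JZero M) ((p : ℤ) ^ (n + c₀)))) :=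
    { toFun := fun z j => jLT DG (n + c₀) ((z : κ → LT DG (n + c₀)) (eκ.symm j))
      map_zero' := by
        funext j
        exact map_zero _
      map_add' := fun z w => by
        funext j
        exact map_add _ _ _ }
  have hi : Function.Injective i := by
    intro z w hzw
    refine Subtype.ext (funext fun k => ?_)
    have h1 := congrFun hzw (eκ k)
    have h2 : jLT DG (n + c₀) ((z : κ → LT DG (n + c₀)) (eκ.symm (eκ k)))
        = jLT DG (n + c₀) ((w : κ → LT DG (n + c₀)) (eκ.symm (eκ k))) := h1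
    rw [Equiv.symm_apply_apply] at h2
    exact jLT_injective DG (n + c₀) h2
  have hiact : ∀ (s : GQ) (y : Y) (j : Fin m), i (actY s y) j
      = Fermat.Agent.T6.helper33.torsAct ((p : ℤ) ^ (n + c₀)) s (i y j) := by
    intro s y j
    exact Subtype.ext (coe_jLT_rLT DG (n + c₀) s _)
  have hpact : ∀ (s : GQ) (y : Y), φ (actY s y) = H.ρ.levelAction I s (φ y) := by
    intro s y
    obtain ⟨v, hv⟩ := Submodule.Quotient.mk_surjective _ (φ y)
    have h := hequiv s y (hstab s y.1 y.2) v hv.symm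
    refine h.trans ?_
    rw [← hv]
    rfl
  exact Fermat.Agent.T6.helper75.FlatShape.subquotient_pi
    (Fermat.Agent.T6.helper33.torsAct_surjective _) (Fermat.Agent.T6.helper33.torsAct_zero _)
    (hflat (n + c₀)) m i hi hiact φ hφsurj hpact

/-! ## The final wiring -/

/-- finiteness of the `p ^ k`-torsion of `J₀(M)` (from P3) -/
theorem finite_torsionBy_pow (M : ℕ) [NeZero M] (p : ℕ) [Fact p.Prime] (k : ℕ) :
    Finite ↥(Submodule.torsionBy ℤ (JZero M) ((p : ℤ) ^ k)) := by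
  have hp : p.Prime := Fact.out
  have h1 : Finite (nsmulAddMonoidHom (α := JZero M) (p ^ 1)).ker :=
    Fermat.Agent.P3.helper32.finiteTorsion_of_desc M p
      (Fermat.Agent.LEF.helper99.descStatement_uncond M)
      (Fermat.Agent.P3.helper48.finiteTorsionC M p hp.pos)
  haveI := Fermat.Agent.P3.helper44.finite_torsion_pow p (JZero M) h1 k
  let φ : ↥(Submodule.torsionBy ℤ (JZero M) ((p : ℤ) ^ k)) →
      (nsmulAddMonoidHom (α := JZero M) (p ^ k)).ker := fun x =>
    ⟨x.1, by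
      have hx := (Submodule.mem_torsionBy_iff _ _).mp x.2
      rw [AddMonoidHom.mem_ker]
      show (p ^ k) • (x.1 : JZero M) = 0
      rw [← natCast_zsmul, Nat.cast_pow]
      exact hx⟩
  refine Finite.of_injective φ fun x y hxy => Subtype.ext ?_
  exact congrArg (fun z : (nsmulAddMonoidHom (α := JZero M) (p ^ k)).ker => (z : JZero M)) hxy

/-- The conclusion of the frozen statement S19 at level `M`, prime `ℓ`, exponent `k`. -/
def S19Body (M : ℕ) [NeZero M] (ℓ : ℕ) (k : ℕ) : Prop :=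
  ∃ (H : Type) (_ : CommRing H) (_ : HopfAlgebra (GaloisRep.ratLocalizedAt ℓ) H),
    Module.Finite (GaloisRep.ratLocalizedAt ℓ) H ∧ Module.Flat (GaloisRep.ratLocalizedAt ℓ) H ∧
    Coalgebra.IsCocomm (GaloisRep.ratLocalizedAt ℓ) H ∧
    ∃ e : WithConv (H →ₐ[GaloisRep.ratLocalizedAt ℓ] AlgebraicClosure ℚ) ≃
        ↥(Submodule.torsionBy ℤ (JZero M) ((ℓ : ℤ) ^ k)),
      (∀ f g, e (f * g) = e f + e g) ∧
      ∀ (σ : AlgebraicClosure ℚ ≃ₐ[ℚ] AlgebraicClosure ℚ)
        (f g : WithConv (H →ₐ[GaloisRep.ratLocalizedAt ℓ] AlgebraicClosure ℚ)),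
        (∀ h : H, g h = σ (f h)) → ((e g : JZero M)) = σ • (e f : JZero M)

/-- The frozen statement S19, as a `Prop`. -/
def S19Statement : Prop :=
  ∀ (M : ℕ) [NeZero M] (ℓ : ℕ) [Fact ℓ.Prime], ¬ ℓ ∣ M → ∀ k : ℕ, S19Body M ℓ k

/-- The part of S19 used by S32: the levels `4 N` and the odd primes. -/
def S19GoodStatement : Prop :=
  ∀ (N : ℕ) [NeZero N] (ℓ : ℕ) [Fact ℓ.Prime], ℓ ≠ 2 → ¬ ℓ ∣ N → ∀ k : ℕ,
    haveI : NeZero (4 * N) := ⟨Nat.mul_ne_zero (by norm_num) (NeZero.ne N)⟩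
    S19Body (4 * N) ℓ k

/-- The frozen statement S32, as a `Prop`. -/
def S32Statement : Prop :=
  ∀ {p : ℕ} {N : ℕ} [NeZero N] {S : Finset ℕ}
    {𝒪 : Type} [CommRing 𝒪] [IsDomain 𝒪] [IsDiscreteValuationRing 𝒪]
    [IsAdicComplete (IsLocalRing.maximalIdeal 𝒪) 𝒪]
    {θ : CuspForm.heckeAlgebra N 2 (↑S : Set ℕ) →+* IsLocalRing.ResidueField 𝒪}
    {T : Type} [CommRing T] [IsLocalRing T] [IsNoetherianRing T]
    [IsAdicComplete (IsLocalRing.maximalIdeal T) T] [Algebra 𝒪 T] [IsLocalHom (algebraMap 𝒪 T)]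
    [Module.Finite 𝒪 T] [Module.Free 𝒪 T]
    [Finite (IsLocalRing.ResidueField 𝒪)] [CharZero 𝒪]
    (_hp : p.Prime) (_hp2 : p ≠ 2) (_hp𝒪 : (p : 𝒪) ∈ IsLocalRing.maximalIdeal 𝒪)
    (_hpN : ¬ p ∣ N) (_hpS : p ∈ S) (_hNS : ∀ q : ℕ, q.Prime → q ∣ N → q ∈ S)
    (H : CuspForm.HeckeGaloisRepDatum N (↑S : Set ℕ) 𝒪 θ T),
    H.ρ.IsFlatAt p

theorem s19Good_of_s19 (h : S19Statement) : S19GoodStatement := by
  intro N _ ℓ _ hℓ2 hℓN k
  haveI : NeZero (4 * N) := ⟨Nat.mul_ne_zero (by norm_num) (NeZero.ne N)⟩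
  refine h (4 * N) ℓ ?_ k
  intro hdvd
  have hℓ : ℓ.Prime := Fact.out
  rcases (Nat.Prime.dvd_mul hℓ).mp hdvd with h4 | hN
  · have h2 : ℓ ∣ 2 := by
      have h4' : ℓ ∣ 2 ^ 2 := by norm_num; exact h4
      exact hℓ.dvd_of_dvd_pow h4'
    exact hℓ2 ((Nat.prime_dvd_prime_iff_eq hℓ Nat.prime_two).mp h2)
  · exact hℓN hN

/-- **[CMP]** the frozen statement S32 from S19 at the levels `4 N` (odd primes) and the geometric
Tate data at the good levels. -/
theorem s32_of_s19Good (hS19 : S19GoodStatement)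
    (hTate : Fermat.Agent.T2.helper34.TateGeomAtGoodLevels) : S32Statement := by
  intro p N _ S 𝒪 _ _ _ _ θ T _ _ _ _ _ _ _ _ _ _ hp hp2 hp𝒪 hpN hpS _ H
  haveI : Fact p.Prime := ⟨hp⟩
  haveI : NeZero (4 * N) := ⟨Nat.mul_ne_zero (by norm_num) (NeZero.ne N)⟩
  have hNM : N ∣ 4 * N := Dvd.intro_left 4 rfl
  have hM : GoodLevel (4 * N) := Or.inl (Dvd.intro N rfl)
  exact isFlatAt_aux (Fermat.Agent.P3.helper98.pseudoUniv Fermat.Agent.P3.helper91.cheb)
    Fermat.Agent.P3.helper91.cheb Fermat.Agent.P3.helper26.cycloStatement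
    Fermat.Agent.P3.helper24.zpAlgebra p hp2 N S (4 * N) hNM (hTate p N S (4 * N) hNM hpS hM)
    (fun k => finite_torsionBy_pow (4 * N) p k)
    (fun k => flatShape_torsAct_of_body p _ (hS19 N p hp2 hpN k)) 𝒪 hp𝒪 θ T H

/-- **[CMP]** the frozen statement S32 from the frozen statement S19 and the geometric Tate data
at the good levels. -/
theorem s32_of_s19 (hS19 : S19Statement)
    (hTate : Fermat.Agent.T2.helper34.TateGeomAtGoodLevels) : S32Statement :=
  s32_of_s19Good (s19Good_of_s19 hS19) hTate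

end Fermat.Agent.T6.helper67

end
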