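/-
T6 (S32), helper36: **[ASM] frontier chain for S32**: the frozen statement S32 from the
geometric contract `helper3.GeoStatement` ALONE (`helper67.s32_of_s19` + the Tate data of T2).
-/
import Mathlib
import Fermat.Agent.T6.helper36_AsmGeo
import Fermat.Agent.T6.helper67_CmpWire
import Fermat.Agent.T2.helper34_Asm34

set_option autoImplicit false
set_option linter.unusedSectionVars false
set_option linter.unusedVariables false
set_option linter.style.longLine false

noncomputable section

open AlgebraicCurve ModularCurve

namespace Fermat.Agent.T6.helper36

/-- the two `Prop` forms of the frozen statement S19 agree -/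
theorem s19Statement67_of (h : S19Statement) : Fermat.Agent.T6.helper67.S19Statement :=
  fun M _ ℓ _ hℓ k => h M ℓ hℓ k

/-- **S32 from S19** (Tate data of T2 plugged in). -/
theorem s32_of_s19' (h : S19Statement) : Fermat.Agent.T6.helper67.S32Statement :=
  Fermat.Agent.T6.helper67.s32_of_s19 (s19Statement67_of h)
    Fermat.Agent.T2.helper34.tateGeom_goodLevel

/-- **S32 from the geometric contract of [INT] alone.** -/
theorem s32_of_geo (hG : Fermat.Agent.T6.helper3.GeoStatement) :
    Fermat.Agent.T6.helper67.S32Statement :=
  s32_of_s19' (s19_of_geo hG)

end Fermat.Agent.T6.helper36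

end
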