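import Fermat.Agent.T6.helper73_T6Iface

/-!
# T6 BLUEPRINT (architect helper73): S19 by the Fourier criterion and the Weil pairing

Notation: `l` prime, `n = l^k`, `A` a valuation ring of `Qb = AlgebraicClosure ℚ` over `l`,
`G = Gal(Qb/ℚ)`, `R = ℤ_(l)`, `M` a finite abelian group with an additive action of `G`.
`Map = (M → Qb)`. For `f c : M → Qb` put `<f, c> = ∑_u f u * c u` and
`(c * c') u = ∑_v c v * c' (u - v)` (convolution). `s.f` is `u ↦ s (f (s⁻¹ u))`;
`f` is EQUIVARIANT iff `s.f = f` for all `s`. `<s.f, s.c> = s <f, c>`.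

## 0. Reduction of S19 to (TI)

S19(p, l, k)  <=  `FlatBody l (Tors p l k) (actTors p l k)`
              <=  [A1] + `FunOrder`  <=  [CRIT] + `TI A (actTors p l k)`
              <=  [LEVEL] + `TI A (actTors M l k)`, `M = 4p` (l odd) or `9p` (l = 2)
                  (characters of a subgroup extend: Mathlib `MonoidHom.domRestrict_surjective`)
              <=  [INT] + `WeilAt Qb (FF M) l k`  <=  [WEIL] + [CURVE].

## 1. [CRIT]  (TI) => FunOrder     (Mathlib only)

Let `f_1 .. f_N` be ALL the functions occurring in (TI) for the finitely many characters.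
* each `f_i u` is integral over `R` (all its conjugates `s (f_i u) = f_i (s u)` lie in `A`);
  `O' := R[f_1 .. f_N]` (pointwise ring structure) is a f.g. `R`-module of equivariant functions;
  it spans `Map` over `Qb` (the characters do); `R` is a PID, so `O'` is free with a basis
  `e_1 .. e_m`, `m = |M|`, which is a `Qb`-basis of `Map` (GALOIS DESCENT: equivariant functions
  which are `ℚ`-independent are `Qb`-independent; `A ∩ ℚ = R`).
* `c_1 .. c_m` := the dual basis, `<e_i, c_j> = δ_ij`. The `c_j` are equivariant.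
  For a character `χ = ∑ a_i f_i` : `<χ, c_j> = ∑ a_i <f_i, c_j> ∈ A` since `<f_i, c_j> ∈ R`.
* `Lam := R[c_1 .. c_m]` for the CONVOLUTION product. `c ↦ (<χ, c>)_χ` is an injective ring
  homomorphism `(Map, *) → ∏_χ Qb`. The polynomial `∏_χ (X - <χ, c_j>)` has coefficients in
  `A ∩ ℚ = R` (`G` permutes the characters, `c_j` is equivariant) and kills `c_j`:
  `c_j` is integral, `Lam` is a f.g. `R`-module (`fg_adjoin_of_finite`), free with a basis
  `λ_1 .. λ_m` which is a `Qb`-basis of `Map`; the elements of `Lam` are equivariant.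
* `Δ c := (u, v) ↦ if u = v then c u else 0`. `Δ (c * c') = Δ c * Δ c'`, and
  `Δ c_j = ∑_{a b} <e_a * e_b, c_j> c_a ⊗ c_b` with coefficients in `R` because `O'` is a
  RING. Hence `Δ Lam ⊆ Lam ⊗ Lam := span_R {λ_a ⊗ λ_b}`.
* `H := span_R {h_1 .. h_m}`, `<h_i, λ_j> = δ_ij`, i.e. `H = {f | ∀ λ ∈ Lam, <f, λ> ∈ R}`.
  - `1 ∈ H` : `<1, λ>` is the value of the trivial character, in `A`, `G`-fixed;
  - `H` is closed under the pointwise product: `<f g, λ> = <f ⊗ g, Δ λ>`;
  - `cm` : `h (x + y) = ∑_{a b} <h, λ_a * λ_b> h_a x * h_b y`  (`Lam` is a ring);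
  - `neg`, `eq`, `fg` clear; `sep` : the `h_i` span `Map`.

## 2. [WEIL]  (any algebraically closed `K` of characteristic 0, `F` a curve function field)

* W0: `valueAt P f`, `evalDiv f D`; multiplicativity in `f` (units at `P`) and in `D`;
  `evalDiv c D = c ^ deg D` for constants.
* W1 (Weil reciprocity): `div f`, `div g` disjoint => `evalDiv f (div g) = evalDiv g (div f)`.
  Proof: `E := K(g) ⊆ F`, `N := Algebra.norm E`. (a) `ord_Q (N f) = ∑_{P | Q} ord_P f`
  (P3 `helper58_FFExt`, `Divisor.PushforwardNormFormula`); (b) NEW: if `f` is a unit at all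
  `P | Q` then `valueAt Q (N f) = ∏_{P | Q} (valueAt P f) ^ e(P | Q)` (the norm is the
  determinant of the multiplication by `f` on `B / g B`, `B` = integral closure of the local
  ring of `Q`; `B / g B = ∏ B / P^e`); (c) the case `F = K(t)`, `g = t` by factoring `f`.
* W2: for `u y ∈ Pic0[n]`, `D ∈ u`, `D' ∈ y` disjoint, `div h = n D`, `div h' = n D'` put
  `e_n(u, y) := evalDiv h D' / evalDiv h' D`. By W1 it does not depend on `D, D', h, h'`
  (moving lemma: every class has a representative off a finite set), it is bilinear,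
  `e_n ^ n = 1`, and `e_{l^k}(u, y) = e_l(l^(k-1) u, y)` for `y ∈ Pic0[l]`.
* W3 (perfect): for `y ≠ 0` in `Pic0[l]` there is `u ∈ Pic0[l]` with `e_l(u, y) ≠ 1`.
  `div h = l D_y`; `F' := F(z)`, `z^l = h` is a field (`h` is not an `l`-th power since
  `D_y` is not principal), cyclic with group `<γ>`, `γ z = ζ z`, UNRAMIFIED: every place `P`
  of `F` has exactly the `l` places `γ^i P'` above it, `e = f = 1` (W3a).
  `Pic0 F'` is DIVISIBLE (W3b; on main over `ℂ` only: `P5.helper25.Pic0Divisible`; transfer
  `ℂ → K` with the LEF machinery). Take a place `P'` of `F'`, a divisor `ν'` of degree 0 and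
  `f'` with `l ν' = γ P' - P' + div f'`; `u := [π_* ν']`, `h_u := N f'`. Then (W3c)
  `h(π_* ν') = z(l ν') = z(γ P') / z(P') * z(div f') = ζ^(-1) * f'(div z)`
  `= ζ^(-1) * f'(π^* D_y) = ζ^(-1) * (N f')(D_y)`, i.e. `e_l(u, y) = ζ`.
* END: `y ↦ e_n(., y)` is an injective homomorphism from `Pic0[n]` to its character group;
  both have `n^(2g)` elements (S27), so every character is a Weil character = `WeilAt`.

## 3. [INT]  (good pair `(M, A)`; `F = FF M`, reduction of places `r` from S37, P2 dictionary)

`w`-integral = quotient of an `A`-integral `q`-expansion by a good one (`IsWInt`).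
* I2 (VAL): `f` `w`-integral, `P` a place, `r P ∉ r (poles of f)` => `valueAt P f ∈ A`.
  [if `c := valueAt P f ∉ A` then `c⁻¹ f - 1` is `w`-integral with reduction `-1`, so the
  divisor of its reduction is `0 = r_* (div)`; the zero `P` must cancel against a pole.]
  If moreover `f` is a `w`-unit and `r P ∉ r (zeros of f)`, the value is a unit of `A`.
* I1 (REDUCED DIVISOR): every class `c ∈ Pic0 F` is `[D_c - m_c ∞]` for a unique `m_c ≤ g`
  minimal and a unique effective `D_c` of degree `m_c` (`l(c + m ∞) = 1`); `∞ ∉ supp D_c`;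
  `D_(s c) = s D_c` for `s ∈ G` (uniqueness; `∞` is `G`-fixed).
  `T := {∞} ∪ ⋃_{u ∈ J[n]} supp D_u` is finite and `G`-stable.
* I4 (RATBASIS): the `A`-module of `A`-integral elements of `L(N ∞)` has a basis
  `φ_1 .. φ_r` with `q`-expansions in `ℤ_(l)((q))` whose reductions are linearly independent
  (reduced echelon form is Galois-invariant; P2 `Pivot`, `SurjRed`).
* I3 (MOVE): (a) a rational `φ_E ∈ L(d ∞)`, `l ∤ d`, `A`-integral, exact pole order `d` with
  unit leading coefficient, zeros `E` (`div φ_E = E - d ∞`) with `r(E) ∩ r(T) = ∅`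
  [`φ_E = ψ^(Q+1) - ψ^2 + 1`, `Q` a power of `l` with `ψ(t)` in `F_Q` for the finite points
  `t ∈ r(T)`]; (b) for `y ∈ J[n]` an effective `R_y` of degree `c d` with `y = [c E - R_y]`
  and `r(R_y) ∩ r(T) = ∅` (Riemann-Roch on the special fibre + lifting).
* I5: fix `y`, `div h' = n (c E - R_y)`, `h'` a `w`-unit; for `u ∈ J[n]` let `h_u` be a
  `w`-unit with `div h_u = n (D_u - m_u ∞)` and `h_u^♮ := h_u^d / evalDiv h_u E`
  (independent of the scaling of `h_u`, hence `h_(s u)^♮ = s (h_u^♮)`; `w`-unit by I2). Then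
  `e_n(u, y)^d = evalDiv (h_u^♮) (c E - R_y) / (evalDiv h' (D_u - m_u ∞))^d`
  `            = 1 / (evalDiv (h_u^♮) R_y * (evalDiv h' (D_u - m_u ∞))^d)`.
  - `u ↦ evalDiv (h_u^♮) R_y` : `h_u^♮ = ∑ b_i(u) φ_i` (I4), `b_i` equivariant, `A`-valued;
    `valueAt Q φ_i ∈ A` for `Q ∈ R_y` (I2). So it is an `A`-combination of products of `b_i`.
  - `u ↦ 1 / evalDiv h' D_u` : `1/h' = ∑ a_i θ_i`, `a_i ∈ A`, `θ_i := φ_i / φ_E^(n c)`
    rational, `valueAt P θ_i ∈ A` for `P ∈ T` (I2); the product over the points of `D_u` is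
    an `A`-combination of the POLARISED symmetric functions of the `θ_i (P_j)`, which are
    equivariant in `u` and `A`-valued. The factor at `∞` is `u ↦ const ^ m_u`.
  - both functions have unit values (I2), and `B := A . {equivariant A-valued functions}`
    is a ring over which `Map(M, A)` is integral, so their inverses lie in `B`.
  Every character is `e_n(., y)^d` for some `y` (`l ∤ d`), whence (TI).

## 4. [LEVEL], [CURVE], [CONT]

* LEVEL: `pullPic` of S37 (`helper16_Defs`), injective on torsion (`PullInjStatement`,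
  `helper39_PullInj`), equivariant.   * CURVE: `IsCurveOver Qb (FF M)`, `EssFiniteType`.

## 5. S32 (after S19)

`FunOrder` passes to stable subgroups (restriction), products and quotients (saturation);
P3 must provide: `V / I V` is a Galois subquotient of `J_0(N)[p^k]^m`.
-/
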