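/-
T6 (S19), block [W3] PERFECTNESS, ABSTRACT GROUP THEORY (helper15), Mathlib only.

A bimultiplicative pairing `e : G × G → Kˣ` on a finite abelian `ℓ`-group `G` (`K` algebraically
closed of characteristic `0`) which is non-degenerate on the elements of order `ℓ`
(`ℓ • y = 0`, `y ≠ 0` ⟹ `e x y ≠ 1` for some `x`) is PERFECT: every character of `G` is
`e(·, y)` for a unique `y` (`exists_pairing_of_char`), and also `e(·, y) ^ d` for `d` prime to
`ℓ` (`exists_pairing_pow_of_char`).
-/
import Mathlib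

set_option autoImplicit false
set_option linter.unusedSectionVars false
set_option linter.unusedVariables false
set_option linter.style.longLine false

namespace Fermat.Agent.T6.helper15

variable {G : Type*} [AddCommGroup G] {K : Type*} [Field K]

/-- a pairing, additive in the second variable, is compatible with multiples -/
theorem pairing_nsmul_right (e : G → G → K)
    (hr : ∀ x y y', e x (y + y') = e x y * e x y') (h0 : ∀ x, e x 0 = 1) (x y : G) (n : ℕ) :
    e x (n • y) = e x y ^ n := by
  induction n with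
  | zero => rw [zero_smul, pow_zero, h0]
  | succ n ih => rw [succ_nsmul, hr, ih, pow_succ]

theorem pairing_zero_right (e : G → G → K) (he0 : ∀ x y, e x y ≠ 0)
    (hr : ∀ x y y', e x (y + y') = e x y * e x y') (x : G) : e x 0 = 1 := by
  have h := hr x 0 0
  rw [add_zero] at h
  have h1 : e x 0 * 1 = e x 0 * e x 0 := by rw [mul_one]; exact h
  exact (mul_left_cancel₀ (he0 x 0) h1).symm

theorem pairing_zero_left (e : G → G → K) (he0 : ∀ x y, e x y ≠ 0)
    (hl : ∀ x x' y, e (x + x') y = e x y * e x' y) (y : G) : e 0 y = 1 := by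
  have h := hl 0 0 y
  rw [add_zero] at h
  have h1 : e 0 y * 1 = e 0 y * e 0 y := by rw [mul_one]; exact h
  exact (mul_left_cancel₀ (he0 0 y) h1).symm

/-- the right kernel of a pairing non-degenerate on the `ℓ`-torsion is trivial -/
theorem right_kernel_trivial {ℓ : ℕ} {k : ℕ} (hG : ∀ x : G, (ℓ ^ k) • x = 0)
    (e : G → G → K) (he0 : ∀ x y, e x y ≠ 0)
    (hr : ∀ x y y', e x (y + y') = e x y * e x y')
    (hnd : ∀ y : G, ℓ • y = 0 → y ≠ 0 → ∃ x, e x y ≠ 1)
    {y : G} (hy : ∀ x, e x y = 1) : y = 0 := by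
  classical
  by_contra hne
  have hex : ∃ j : ℕ, (ℓ ^ j) • y = 0 := ⟨k, hG y⟩
  set j := Nat.find hex with hj
  have hj0 : (ℓ ^ j) • y = 0 := Nat.find_spec hex
  have hjpos : j ≠ 0 := by
    intro h0
    rw [h0, pow_zero, one_smul] at hj0
    exact hne hj0
  obtain ⟨i, hi⟩ := Nat.exists_eq_succ_of_ne_zero hjpos
  have hmin : (ℓ ^ i) • y ≠ 0 := Nat.find_min hex (by rw [← hj, hi]; exact Nat.lt_succ_self i)
  have hℓ : ℓ • ((ℓ ^ i) • y) = 0 := by
    rw [← mul_smul, ← pow_succ', ← Nat.succ_eq_add_one, ← hi]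
    exact hj0
  obtain ⟨x, hx⟩ := hnd _ hℓ hmin
  apply hx
  rw [pairing_nsmul_right e hr (fun x => pairing_zero_right e he0 hr x), hy, one_pow]

variable [Finite G] [IsAlgClosed K] [CharZero K]

/-- **Perfectness**: every character is `e(·, y)`. -/
theorem exists_pairing_of_char {ℓ : ℕ} {k : ℕ} (hG : ∀ x : G, (ℓ ^ k) • x = 0)
    (e : G → G → K) (he0 : ∀ x y, e x y ≠ 0)
    (hl : ∀ x x' y, e (x + x') y = e x y * e x' y)
    (hr : ∀ x y y', e x (y + y') = e x y * e x y')
    (hnd : ∀ y : G, ℓ • y = 0 → y ≠ 0 → ∃ x, e x y ≠ 1)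
    (χ : G → K) (hχ0 : ∀ x, χ x ≠ 0) (hχ : ∀ x x', χ (x + x') = χ x * χ x') :
    ∃ y : G, ∀ x, χ x = e x y := by
  classical
  -- the map `y ↦ e(·, y)` into the dual
  let Φ : Multiplicative G → (Multiplicative G →* Kˣ) := fun y =>
    { toFun := fun x => Units.mk0 (e (Multiplicative.toAdd x) (Multiplicative.toAdd y))
        (he0 _ _)
      map_one' := by
        apply Units.ext
        exact pairing_zero_left e he0 hl _
      map_mul' := fun x x' => by
        apply Units.ext
        exact hl _ _ _ }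
  have hΦmul : ∀ y y', Φ (y * y') = Φ y * Φ y' := by
    intro y y'
    ext x
    exact hr _ _ _
  have hΦinj : Function.Injective Φ := by
    intro y y' hyy'
    have h1 : ∀ x : G, e x (Multiplicative.toAdd y - Multiplicative.toAdd y') = 1 := by
      intro x
      have h2 : e x (Multiplicative.toAdd y) = e x (Multiplicative.toAdd y') := by
        have := congrArg (fun f : Multiplicative G →* Kˣ => ((f (Multiplicative.ofAdd x) : Kˣ) : K)) hyy'
        exact this
      have h3 := hr x (Multiplicative.toAdd y - Multiplicative.toAdd y') (Multiplicative.toAdd y')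
      rw [sub_add_cancel, h2] at h3
      have h4 : 1 * e x (Multiplicative.toAdd y') =
          e x (Multiplicative.toAdd y - Multiplicative.toAdd y') * e x (Multiplicative.toAdd y') := by
        rw [one_mul]; exact h3
      exact (mul_right_cancel₀ (he0 x _) h4).symm
    have h5 := right_kernel_trivial hG e he0 hr hnd h1
    exact Multiplicative.toAdd.injective (sub_eq_zero.mp h5)
  -- cardinalities
  have : NeZero ((Monoid.exponent (Multiplicative G) : ℕ) : K) :=
    ⟨Nat.cast_ne_zero.mpr (Monoid.exponent_ne_zero_of_finite)⟩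
  obtain ⟨E⟩ := CommGroup.monoidHom_mulEquiv_of_hasEnoughRootsOfUnity (Multiplicative G) K
  have hsurj : Function.Surjective Φ := by
    have h1 : Function.Injective (fun y => E (Φ y)) := E.injective.comp hΦinj
    have h2 : Function.Surjective (fun y => E (Φ y)) := Finite.surjective_of_injective h1
    intro f
    obtain ⟨y, hy⟩ := h2 (E f)
    exact ⟨y, E.injective hy⟩
  -- the character as a homomorphism
  let f : Multiplicative G →* Kˣ :=
    { toFun := fun x => Units.mk0 (χ (Multiplicative.toAdd x)) (hχ0 _)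
      map_one' := by
        apply Units.ext
        have h := hχ 0 0
        rw [add_zero] at h
        have h1 : χ 0 * 1 = χ 0 * χ 0 := by rw [mul_one]; exact h
        exact (mul_left_cancel₀ (hχ0 0) h1).symm
      map_mul' := fun x x' => by
        apply Units.ext
        exact hχ _ _ }
  obtain ⟨y, hy⟩ := hsurj f
  refine ⟨Multiplicative.toAdd y, fun x => ?_⟩
  have := congrArg (fun f : Multiplicative G →* Kˣ => ((f (Multiplicative.ofAdd x) : Kˣ) : K)) hy
  exact this.symm

/-- **Perfectness, twisted form**: for `d` prime to `ℓ` every character is `e(·, y) ^ d`. -/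
theorem exists_pairing_pow_of_char {ℓ : ℕ} {k : ℕ} (hG : ∀ x : G, (ℓ ^ k) • x = 0)
    (e : G → G → K) (he0 : ∀ x y, e x y ≠ 0)
    (hl : ∀ x x' y, e (x + x') y = e x y * e x' y)
    (hr : ∀ x y y', e x (y + y') = e x y * e x y')
    (hnd : ∀ y : G, ℓ • y = 0 → y ≠ 0 → ∃ x, e x y ≠ 1)
    {d : ℕ} (hd : Nat.Coprime d ℓ)
    (χ : G → K) (hχ0 : ∀ x, χ x ≠ 0) (hχ : ∀ x x', χ (x + x') = χ x * χ x') :
    ∃ y : G, ∀ x, χ x = e x y ^ d := by
  obtain ⟨y, hy⟩ := exists_pairing_of_char hG e he0 hl hr hnd χ hχ0 hχ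
  -- `y = d • y'`
  have hcop : Nat.Coprime d (ℓ ^ k) := Nat.Coprime.pow_right k hd
  have hco : IsCoprime (d : ℤ) ((ℓ ^ k : ℕ) : ℤ) := Nat.isCoprime_iff_coprime.mpr hcop
  obtain ⟨a, b, hab⟩ := hco
  have hky : ((ℓ ^ k : ℕ) : ℤ) • y = 0 := by
    rw [natCast_zsmul]
    exact hG y
  have hy' : d • (a • y) = y := by
    have h1 : (a * (d : ℤ) + b * ((ℓ ^ k : ℕ) : ℤ)) • y = y := by rw [hab, one_smul]
    rw [add_smul, mul_smul b, hky, smul_zero, add_zero, mul_comm, mul_smul] at h1
    rw [← natCast_zsmul]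
    exact h1
  refine ⟨a • y, fun x => ?_⟩
  rw [hy x, ← pairing_nsmul_right e hr (fun x => pairing_zero_right e he0 hr x), hy']

end Fermat.Agent.T6.helper15
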