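/-
T6 (S19), block [W3c], ABSTRACT CORE (helper15): the non-degeneracy step of the Weil pairing.

Setting: `F'/F` a cyclic unramified cover of degree `ℓ` of function fields over `K`, given by
`z ^ ℓ = h`, `div h = ℓ • Dy`, with the automorphism `τ`, `τ z = ζ z`.  All inputs are
HYPOTHESES (structure `CycHyp`), stated for an abstract "value of a function on a divisor"
`ev : F → Divisor K F → K`, `ev' : F' → Divisor K F' → K` (to be instantiated by `dval` of [W0]):

* Weil reciprocity on `F'` ([W1]), the value of a norm ([W3a]), the divisor of a norm,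
  `π_* π^* = ℓ`, `π^* π_* = ∑ τ^i`, `ℓ`-divisibility of `Pic0 K F'` ([W3b]).

Output (`exists_pairing_eq`): a divisor `D` of degree `0` on `F` and `g ∈ F` with
`div g = ℓ • D`, disjoint from `Dy`, such that `ev g Dy = ζ⁻¹ * ev h D`, i.e.
`e_ℓ([D], [Dy]) = ζ⁻¹ ≠ 1`.
-/
import Mathlib
import Fermat.Prelude.Def_AlgebraicCurve_DivisorPushPull
import Fermat.Agent.P2.helper74_NonSpecial

set_option autoImplicit false
set_option linter.unusedSectionVars false
set_option linter.unusedVariables false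
set_option linter.style.longLine false

noncomputable section

open AlgebraicCurve

namespace Fermat.Agent.T6.helper15

/-! ### The identity `ℓ = ∑ τ^i + (1 - τ) Θ` -/

section Theta

variable {M G : Type*} [Monoid M] [AddCommGroup G] [DistribMulAction M G]

/-- `Θ x = ∑_{i < n} (n - 1 - i) τ^i x` -/
def thetaSum (τ : M) (n : ℕ) (x : G) : G :=
  ∑ i ∈ Finset.range n, ((n : ℤ) - 1 - i) • (τ ^ i • x)

theorem thetaSum_succ (τ : M) (n : ℕ) (x : G) :
    thetaSum τ (n + 1) x = thetaSum τ n x + ∑ i ∈ Finset.range n, τ ^ i • x := by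
  unfold thetaSum
  rw [Finset.sum_range_succ]
  have h0 : (((n + 1 : ℕ) : ℤ) - 1 - (n : ℤ)) = 0 := by push_cast; ring
  rw [h0, zero_smul, add_zero, ← Finset.sum_add_distrib]
  refine Finset.sum_congr rfl fun i _ => ?_
  have h1 : (((n + 1 : ℕ) : ℤ) - 1 - (i : ℤ)) = ((n : ℤ) - 1 - i) + 1 := by push_cast; ring
  rw [h1, add_smul, one_smul]

theorem smul_sum_pow (τ : M) (n : ℕ) (x : G) :
    ∑ i ∈ Finset.range (n + 1), τ ^ i • x = x + τ • ∑ i ∈ Finset.range n, τ ^ i • x := by
  rw [Finset.sum_range_succ', pow_zero, one_smul, add_comm, Finset.smul_sum]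
  congr 1
  refine Finset.sum_congr rfl fun i _ => ?_
  rw [pow_succ', mul_smul]

/-- `Θ x - τ Θ x = n x - ∑_{i < n} τ^i x`. -/
theorem thetaSum_sub (τ : M) (n : ℕ) (x : G) :
    thetaSum τ n x - τ • thetaSum τ n x = (n : ℤ) • x - ∑ i ∈ Finset.range n, τ ^ i • x := by
  induction n with
  | zero => simp [thetaSum]
  | succ n ih =>
    rw [thetaSum_succ, smul_add, smul_sum_pow]
    have h1 : (((n + 1 : ℕ) : ℤ)) • x = (n : ℤ) • x + x := by
      push_cast
      rw [add_smul, one_smul]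
    rw [h1]
    have h2 : thetaSum τ n x + ∑ i ∈ Finset.range n, τ ^ i • x -
        (τ • thetaSum τ n x + τ • ∑ i ∈ Finset.range n, τ ^ i • x) =
        (thetaSum τ n x - τ • thetaSum τ n x) + (∑ i ∈ Finset.range n, τ ^ i • x -
          τ • ∑ i ∈ Finset.range n, τ ^ i • x) := by abel
    rw [h2, ih]
    abel

end Theta

/-! ### Generic moving lemma -/

section Moving

open Fermat.Agent.P2.helper74

variable {K F : Type*} [Field K] [Field F] [Algebra K F]

/-- every class of `Pic0` has a representative avoiding a given finite set of places -/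
theorem moving_generic [Infinite K] (hS : RiemannSetting K F) {g : ℕ} {c : ℤ}
    (hc : ∀ D : Divisor K F, c ≤ Divisor.degree D → (ell D : ℤ) + g = Divisor.degree D + 1)
    (cl : Pic0 K F) (Bad : Finset (Place K F)) :
    ∃ D : Divisor.degZero (K := K) (F := F), Pic0.mk D = cl ∧
      ∀ v ∈ Bad, (D : Divisor K F) v = 0 := by
  obtain ⟨D₀, rfl⟩ := Pic0.mk_surjective cl
  have hinf : Infinite (Place K F) := infinite_place hS hc
  obtain ⟨Q₁, hQ₁⟩ := Infinite.exists_notMem_finset Bad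
  obtain ⟨t, ht0, htB, -⟩ := exists_prescribed_ord hS hc Bad
    (fun v => -((D₀ : Divisor K F) v)) Q₁ hQ₁
  obtain ⟨E, hE, hdeg⟩ := hS.principal.exists_divisor t ht0
  have hE0 : E ∈ Divisor.degZero (K := K) (F := F) := Divisor.mem_degZero.mpr hdeg
  refine ⟨D₀ + ⟨E, hE0⟩, ?_, fun v hv => ?_⟩
  · rw [Pic0.mk_add]
    have h0 : Pic0.mk (⟨E, hE0⟩ : Divisor.degZero (K := K) (F := F)) = 0 := by
      unfold Pic0.mk
      rw [QuotientAddGroup.eq_zero_iff, AddSubgroup.mem_addSubgroupOf]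
      exact ⟨t, ht0, hE⟩
    rw [h0, add_zero]
  · show ((D₀ : Divisor K F) + E) v = 0
    rw [Finsupp.add_apply, hE, htB v hv]
    ring

end Moving

/-! ### The hypotheses -/

section Main

open Fermat.Agent.P2.helper74

variable {K F F' : Type*} [Field K] [Field F] [Field F']
  [Algebra K F] [Algebra K F'] [Algebra F F'] [IsScalarTower K F F']
  [Algebra.IsIntegral F F'] [HasPrincipalDivisors K F']

/-- The hypotheses of the abstract non-degeneracy step.  `ev`, `ev'` are the values of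
functions on divisors (`dval` of [W0]), `nm` is the norm `F' → F`. -/
structure CycHyp (ℓ : ℕ) (ζ : K) (h : F) (Dy : Divisor K F) (z : F') (τ : F' ≃ₐ[K] F')
    (nm : F' → F) (ev : F → Divisor K F → K) (ev' : F' → Divisor K F' → K) : Prop where
  /-- Riemann setting of the cover -/
  rs : RiemannSetting K F'
  /-- weak Riemann-Roch on the cover -/
  rr : ∃ (g : ℕ) (c : ℤ), ∀ D : Divisor K F', c ≤ Divisor.degree D →
    (ell D : ℤ) + g = Divisor.degree D + 1
  h_ne : h ≠ 0
  z_ne : z ≠ 0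
  div_h : ∀ v : Place K F, v.ord h = ℓ * Dy v
  div_z : ∀ w : Place K F', w.ord z = Divisor.pullback F' Dy w
  tau_z : τ z = algebraMap K F' ζ * z
  nm_z : ∃ c : K, c ≠ 0 ∧ nm z = algebraMap K F c * h
  nm_ne : ∀ u : F', u ≠ 0 → nm u ≠ 0
  ord_nm : ∀ u : F', u ≠ 0 → ∀ Du : Divisor K F', (∀ w, Du w = w.ord u) →
    ∀ v : Place K F, v.ord (nm u) = Divisor.pushforward F Du v
  push_pull : ∀ D : Divisor K F, Divisor.pushforward F (Divisor.pullback F' D) = (ℓ : ℤ) • D
  pull_push : ∀ D' : Divisor K F',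
    Divisor.pullback F' (Divisor.pushforward F D') = ∑ i ∈ Finset.range ℓ, τ ^ i • D'
  push_tau : ∀ D' : Divisor K F', Divisor.pushforward F (τ • D') = Divisor.pushforward F D'
  tau_pull : ∀ D : Divisor K F, τ • Divisor.pullback F' D = Divisor.pullback F' D
  /-- value of a norm -/
  nv : ∀ u : F', u ≠ 0 → ∀ D : Divisor K F,
    (∀ w, Divisor.pullback F' D w ≠ 0 → w.ord u = 0) →
      ev (nm u) D = ev' u (Divisor.pullback F' D)
  /-- Weil reciprocity on the cover -/
  weil : ∀ (f g : F') (Df Dg : Divisor K F'), f ≠ 0 → g ≠ 0 → (∀ w, Df w = w.ord f) →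
    (∀ w, Dg w = w.ord g) → (∀ w, Df w ≠ 0 → Dg w = 0) → ev' f Dg = ev' g Df
  ev'_add : ∀ (f : F') (D E : Divisor K F'), f ≠ 0 → (∀ w, D w ≠ 0 → w.ord f = 0) →
    (∀ w, E w ≠ 0 → w.ord f = 0) → ev' f (D + E) = ev' f D * ev' f E
  ev'_neg : ∀ (f : F') (D : Divisor K F'), f ≠ 0 → (∀ w, D w ≠ 0 → w.ord f = 0) →
    ev' f (-D) = (ev' f D)⁻¹
  ev'_ne : ∀ (f : F') (D : Divisor K F'), f ≠ 0 → (∀ w, D w ≠ 0 → w.ord f = 0) →
    ev' f D ≠ 0
  ev'_tau : ∀ (f : F') (D : Divisor K F'), f ≠ 0 → (∀ w, D w ≠ 0 → w.ord f = 0) →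
    ev' (τ f) (τ • D) = ev' f D
  ev'_const : ∀ (c : K) (f : F') (D : Divisor K F'), c ≠ 0 → f ≠ 0 →
    (∀ w, D w ≠ 0 → w.ord f = 0) →
      ev' (algebraMap K F' c * f) D = c ^ (Divisor.degree D) * ev' f D
  ev_const : ∀ (c : K) (f : F) (D : Divisor K F), c ≠ 0 → f ≠ 0 →
    (∀ v, D v ≠ 0 → v.ord f = 0) →
      ev (algebraMap K F c * f) D = c ^ (Divisor.degree D) * ev f D
  /-- `Pic0` of the cover is `ℓ`-divisible -/
  divisible : ∀ c : Pic0 K F', ∃ c' : Pic0 K F', (ℓ : ℤ) • c' = c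

/-- the push-forward vanishes at `v` if the divisor vanishes on the fibre of `v` -/
theorem push_eq_zero (D' : Divisor K F') (v : Place K F)
    (hD' : ∀ w : Place K F', w.restrict F = v → D' w = 0) :
    Divisor.pushforward F D' v = 0 := by
  classical
  rw [Divisor.pushforward_apply]
  refine Finset.sum_eq_zero fun w _ => ?_
  split_ifs with hw
  · rw [hD' w hw, zero_mul]
  · rfl

theorem pullback_ne_zero_iff (D : Divisor K F) (w : Place K F') :
    Divisor.pullback F' D w ≠ 0 ↔ D (w.restrict F) ≠ 0 := by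
  rw [Divisor.pullback_apply]
  have he : (w.ramificationIndex F : ℤ) ≠ 0 := by
    have := w.ramificationIndex_pos (F := F)
    omega
  constructor
  · intro h h0
    exact h (by rw [h0, mul_zero])
  · intro h
    exact mul_ne_zero he h

namespace CycHyp

variable {ℓ : ℕ} {ζ : K} {h : F} {Dy : Divisor K F} {z : F'} {τ : F' ≃ₐ[K] F'}
  {nm : F' → F} {ev : F → Divisor K F → K} {ev' : F' → Divisor K F' → K}

theorem pow_pull (H : CycHyp ℓ ζ h Dy z τ nm ev ev') (D : Divisor K F) (i : ℕ) :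
    τ ^ i • Divisor.pullback F' D = Divisor.pullback F' D := by
  induction i with
  | zero => rw [pow_zero, one_smul]
  | succ i ih => rw [pow_succ, mul_smul, H.tau_pull, ih]

theorem pull_apply_pow_inv (H : CycHyp ℓ ζ h Dy z τ nm ev ev') (D : Divisor K F) (i : ℕ)
    (w : Place K F') :
    Divisor.pullback F' D ((τ ^ i)⁻¹ • w) = Divisor.pullback F' D w := by
  have h1 := Divisor.smul_apply (τ ^ i) (Divisor.pullback F' D) w
  rw [H.pow_pull] at h1
  exact h1.symm

theorem pull_apply_inv (H : CycHyp ℓ ζ h Dy z τ nm ev ev') (D : Divisor K F)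
    (w : Place K F') :
    Divisor.pullback F' D (τ⁻¹ • w) = Divisor.pullback F' D w := by
  have h1 := H.pull_apply_pow_inv D 1 w
  rwa [pow_one] at h1

theorem pull_apply_smul (H : CycHyp ℓ ζ h Dy z τ nm ev ev') (D : Divisor K F)
    (w : Place K F') :
    Divisor.pullback F' D (τ • w) = Divisor.pullback F' D w := by
  have h1 := H.pull_apply_inv D (τ • w)
  rw [inv_smul_smul] at h1
  exact h1.symm

theorem zeta_ne (H : CycHyp ℓ ζ h Dy z τ nm ev ev') : ζ ≠ 0 := by
  rintro rfl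
  have h1 := H.tau_z
  rw [map_zero, zero_mul] at h1
  exact H.z_ne ((map_eq_zero_iff τ τ.injective).mp h1)

theorem symm_z (H : CycHyp ℓ ζ h Dy z τ nm ev ev') :
    τ.symm z = algebraMap K F' ζ⁻¹ * z := by
  have h1 : τ (algebraMap K F' ζ⁻¹ * z) = z := by
    rw [map_mul, AlgEquiv.commutes, H.tau_z, ← mul_assoc, ← map_mul,
      inv_mul_cancel₀ H.zeta_ne, map_one, one_mul]
  rw [← h1, AlgEquiv.symm_apply_apply, h1]

/-- **Abstract non-degeneracy step.** -/
theorem exists_pairing_eq [Infinite K] (H : CycHyp ℓ ζ h Dy z τ nm ev ev') :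
    ∃ (D : Divisor K F) (g : F), g ≠ 0 ∧ (∀ v : Place K F, v.ord g = ℓ * D v) ∧
      Divisor.degree D = 0 ∧ (∀ v, Dy v ≠ 0 → v.ord g = 0) ∧
      (∀ v, D v ≠ 0 → v.ord h = 0) ∧ ev g Dy = ζ⁻¹ * ev h D := by
  classical
  obtain ⟨g₀, c₀, hc⟩ := H.rr
  have hinf : Infinite (Place K F') := infinite_place H.rs hc
  set B : Finset (Place K F') := (Divisor.pullback F' Dy).support with hB
  have hBmem : ∀ w, w ∈ B ↔ Divisor.pullback F' Dy w ≠ 0 := fun w => Finsupp.mem_support_iff
  obtain ⟨P, hP⟩ := Infinite.exists_notMem_finset B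
  -- the class of `P - τ P`
  set C0 : Divisor K F' := Finsupp.single P 1 - τ • Finsupp.single P (1 : ℤ) with hC0
  have hC0deg : C0 ∈ Divisor.degZero (K := K) (F := F') := by
    rw [Divisor.mem_degZero, hC0, map_sub, Divisor.degree_smul, sub_self]
  obtain ⟨m, hm⟩ := H.divisible (Pic0.mk ⟨C0, hC0deg⟩)
  obtain ⟨M, hMm, hMB⟩ := moving_generic H.rs hc m B
  -- `ℓ M - C0` is principal
  have hprin : ((ℓ : ℤ) • (M : Divisor K F') - C0) ∈ Divisor.principal (K := K) (F := F') := by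
    have h1 : (QuotientAddGroup.mk ((ℓ : ℤ) • M - ⟨C0, hC0deg⟩) : Pic0 K F') = 0 := by
      rw [QuotientAddGroup.mk_sub, QuotientAddGroup.mk_zsmul]
      have h2 : (QuotientAddGroup.mk M : Pic0 K F') = m := hMm
      have h3 : (QuotientAddGroup.mk (⟨C0, hC0deg⟩ : Divisor.degZero (K := K) (F := F')) :
          Pic0 K F') = (ℓ : ℤ) • m := hm.symm
      rw [h2, h3, sub_self]
    rw [QuotientAddGroup.eq_zero_iff, AddSubgroup.mem_addSubgroupOf] at h1
    exact h1
  obtain ⟨u, hu0, hu⟩ := hprin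
  set Du : Divisor K F' := (ℓ : ℤ) • (M : Divisor K F') - C0 with hDu
  set Θ : Divisor K F' := thetaSum τ ℓ (M : Divisor K F') with hΘ
  set V : Divisor K F' := Finsupp.single P 1 - Θ with hV
  set D : Divisor K F := Divisor.pushforward F (M : Divisor K F') with hD
  -- the key identity
  have hkey : Du = Divisor.pullback F' D - V + τ • V := by
    have h1 := thetaSum_sub τ ℓ (M : Divisor K F')
    rw [← H.pull_push] at h1
    have h2 : (ℓ : ℤ) • (M : Divisor K F') = Divisor.pullback F' D + (Θ - τ • Θ) := by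
      rw [hΘ, h1, hD]
      abel
    rw [hDu, h2, hC0, hV, smul_sub]
    abel
  -- stability of `B`
  have hBpow : ∀ w ∈ B, ∀ i : ℕ, (τ ^ i)⁻¹ • w ∈ B := by
    intro w hw i
    rw [hBmem] at hw ⊢
    rwa [H.pull_apply_pow_inv]
  have hBinv : ∀ w ∈ B, τ⁻¹ • w ∈ B := by
    intro w hw
    rw [hBmem] at hw ⊢
    rwa [H.pull_apply_inv]
  -- vanishing on `B`
  have hΘB : ∀ w ∈ B, Θ w = 0 := by
    intro w hw
    rw [hΘ, thetaSum, Finsupp.finsetSum_apply]
    refine Finset.sum_eq_zero fun i _ => ?_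
    rw [Finsupp.smul_apply, Divisor.smul_apply, hMB _ (hBpow w hw i), smul_zero]
  have hVB : ∀ w ∈ B, V w = 0 := by
    intro w hw
    rw [hV, Finsupp.sub_apply, hΘB w hw, sub_zero]
    refine Finsupp.single_eq_of_ne' ?_
    rintro rfl
    exact hP hw
  have hτVB : ∀ w ∈ B, (τ • V) w = 0 := by
    intro w hw
    rw [Divisor.smul_apply]
    exact hVB _ (hBinv w hw)
  have hDy_of : ∀ w : Place K F', Dy (w.restrict F) ≠ 0 → w ∈ B := by
    intro w hw
    rw [hBmem]
    exact (pullback_ne_zero_iff Dy w).mpr hw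
  have hDB : ∀ v : Place K F, Dy v ≠ 0 → D v = 0 := by
    intro v hv
    refine push_eq_zero _ v fun w hw => ?_
    exact hMB w (hDy_of w (by rw [hw]; exact hv))
  have hpDB : ∀ w ∈ B, Divisor.pullback F' D w = 0 := by
    intro w hw
    by_contra hne
    have h1 := (pullback_ne_zero_iff D w).mp hne
    have h2 := (pullback_ne_zero_iff Dy w).mp ((hBmem w).mp hw)
    exact h1 (hDB _ h2)
  have huB : ∀ w ∈ B, w.ord u = 0 := by
    intro w hw
    rw [← hu w]
    show Du w = 0
    rw [hkey, Finsupp.add_apply, Finsupp.sub_apply, hpDB w hw, hVB w hw, hτVB w hw]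
    ring
  -- disjointness from `z`
  have hdisj : ∀ X : Divisor K F', (∀ w ∈ B, X w = 0) → ∀ w, X w ≠ 0 → w.ord z = 0 := by
    intro X hX w hw
    rw [H.div_z]
    by_contra hne
    exact hw (hX w ((hBmem w).mpr hne))
  -- the function `g`
  have hg0 : nm u ≠ 0 := H.nm_ne u hu0
  have hgord : ∀ v : Place K F, v.ord (nm u) = ℓ * D v := by
    intro v
    rw [H.ord_nm u hu0 Du hu v, hkey, map_add, map_sub, H.push_pull, H.push_tau]
    rw [Finsupp.add_apply, Finsupp.sub_apply, Finsupp.smul_apply, smul_eq_mul]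
    ring
  have hDdeg : Divisor.degree D = 0 := by
    rw [hD, Divisor.degree_pushforward]
    exact M.2
  have hgDy : ∀ v, Dy v ≠ 0 → v.ord (nm u) = 0 := by
    intro v hv
    rw [hgord, hDB v hv, mul_zero]
  have hhD : ∀ v, D v ≠ 0 → v.ord h = 0 := by
    intro v hv
    rw [H.div_h]
    by_contra hne
    have : Dy v ≠ 0 := fun h0 => hne (by rw [h0, mul_zero])
    exact hv (hDB v this)
  refine ⟨D, nm u, hg0, hgord, hDdeg, hgDy, hhD, ?_⟩
  -- the computation
  have hΘdeg : Divisor.degree Θ = 0 := by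
    rw [hΘ, thetaSum, map_sum]
    refine Finset.sum_eq_zero fun i _ => ?_
    rw [map_zsmul, Divisor.degree_smul]
    have : Divisor.degree (M : Divisor K F') = 0 := M.2
    rw [this, smul_zero]
  have hVdeg : Divisor.degree V = 1 := by
    rw [hV, map_sub, hΘdeg, sub_zero, Divisor.degree_single, H.rs.deg_one]
    simp
  have step1 : ev (nm u) Dy = ev' u (Divisor.pullback F' Dy) :=
    H.nv u hu0 Dy fun w hw => huB w ((hBmem w).mpr hw)
  have step2 : ev' u (Divisor.pullback F' Dy) = ev' z Du := by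
    refine H.weil u z Du (Divisor.pullback F' Dy) hu0 H.z_ne hu (fun w => (H.div_z w).symm) ?_
    intro w hw
    by_contra hne
    exact hw (by rw [hu w]; exact huB w ((hBmem w).mpr hne))
  have hd1 := hdisj (Divisor.pullback F' D) hpDB
  have hd2 := hdisj V hVB
  have hd3 := hdisj (τ • V) hτVB
  have hd2' : ∀ w, (-V) w ≠ 0 → w.ord z = 0 := by
    intro w hw
    refine hd2 w fun h0 => hw ?_
    rw [Finsupp.neg_apply, h0, neg_zero]
  have hd12 : ∀ w, (Divisor.pullback F' D + -V) w ≠ 0 → w.ord z = 0 := by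
    intro w hw
    refine hdisj _ (fun w' hw' => ?_) w hw
    rw [Finsupp.add_apply, Finsupp.neg_apply, hpDB w' hw', hVB w' hw']
    ring
  have step3 : ev' z Du = ev' z (Divisor.pullback F' D) * (ev' z V)⁻¹ * ev' z (τ • V) := by
    rw [hkey, sub_eq_add_neg, H.ev'_add z _ _ H.z_ne hd12 hd3,
      H.ev'_add z _ _ H.z_ne hd1 hd2', H.ev'_neg z V H.z_ne hd2]
  have hsz : τ.symm z ≠ 0 := fun h0 =>
    H.z_ne ((map_eq_zero_iff τ.symm τ.symm.injective).mp h0)
  have hordsz : ∀ w : Place K F', w.ord (τ.symm z) = w.ord z := by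
    intro w
    rw [H.symm_z, w.ord_mul (by simpa using inv_ne_zero H.zeta_ne) H.z_ne,
      Fermat.Agent.S24.helper82.ord_algebraMap, zero_add]
  have step4 : ev' z (τ • V) = ζ⁻¹ * ev' z V := by
    have h1 := H.ev'_tau (τ.symm z) V hsz (fun w hw => by rw [hordsz]; exact hd2 w hw)
    rw [AlgEquiv.apply_symm_apply] at h1
    rw [h1, H.symm_z, H.ev'_const ζ⁻¹ z V (inv_ne_zero H.zeta_ne) H.z_ne hd2, hVdeg, zpow_one]
  have step5 : ev' z (Divisor.pullback F' D) = ev h D := by
    obtain ⟨c, hc0, hcz⟩ := H.nm_z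
    rw [← H.nv z H.z_ne D hd1, hcz, H.ev_const c h D hc0 H.h_ne hhD, hDdeg, zpow_zero, one_mul]
  have hne : ev' z V ≠ 0 := H.ev'_ne z V H.z_ne hd2
  rw [step1, step2, step3, step4, step5]
  field_simp

end CycHyp

end Main

end Fermat.Agent.T6.helper15

end
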