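import Mathlib
import Fermat.Agent.T6.helper1_W3cCore
import Fermat.Agent.T6.helper26_PVal
import Fermat.Agent.T6.helper35_WeilPair
import Fermat.Agent.T6.helper98_CycInst

/-!
# T6 [W3c] (helper1): the Kummer computation on the cyclic cover — instance

`valFacts_pval` : the hypotheses `ValFacts` of `helper1_W3cCore` hold for the value function
`helper26.pval` on a cyclic cover `helper98.CycSetting`, given Weil reciprocity on the cover.

`exists_wp_eq_inv` : for a class `y` with representative `D_y`, `div h = ℓ D_y`, and a cyclic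
cover `F' = F(w)`, `w ^ ℓ = h`, on which Weil reciprocity holds and whose `Pic0` is
`ℓ`-divisible, there is `u ∈ Pic0[ℓ]` with `e_ℓ(u, y) = ζ⁻¹` (`helper35.wp`).
-/

set_option autoImplicit false

noncomputable section

namespace Fermat.Agent.T6.helper1

open AlgebraicCurve Fermat.Agent.P2.helper74 Fermat.Agent.T6.helper26 Fermat.Agent.T6.helper35
  Fermat.Agent.T6.helper98

section Inst

variable {K F F' : Type*} [Field K] [Field F] [Field F'] [Algebra K F] [Algebra K F']
  [Algebra F F'] [IsScalarTower K F F'] [FiniteDimensional F F'] [IsAlgClosed K] [CharZero K]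
variable {ℓ : ℕ} {h : F} {w : F'} {ζ : K} {σ : F' ≃ₐ[F] F'}

omit [FiniteDimensional F F'] [IsAlgClosed K] [CharZero K] in
theorem evalDiv_pval_eq_dval {E : Type*} [Field E] [Algebra K E] (f : E) (D : Divisor K E) :
    evalDiv (pval (K := K) (F := E)) f D = dval f D := rfl

/-- The value function `pval` satisfies `ValFacts` on a cyclic cover. -/
theorem valFacts_pval [HasPrincipalDivisors K F'] (C : CycSetting K ℓ h w ζ σ)
    (hW' : WeilRec K F') :
    ValFacts (pval (K := K) (F := F)) (pval (K := K) (F := F')) where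
  mul' Q' f g _ _ hof hog := pval_mul C.setting' hof.ge hog.ge
  ne_zero' Q' f hf h0 := pval_ne_zero C.setting' hf h0
  const' Q' c := pval_algebraMap Q' c
  ne_zero Q f hf h0 := pval_ne_zero C.setting hf h0
  res Q' f _ h0 := by
    have hv : IsValAt (Q'.restrict F) f (pval (Q'.restrict F) f) := isVal_pval C.setting h0.ge
    have hv' : IsVal Q' (algebraMap F F' f) (pval (Q'.restrict F) f) :=
      isValAt_restrict_iff.mp hv
    exact pval_eq_of_isVal hv'
  norm Q f' _ hunit := by
    have hv := C.isValAt_norm Q f' (fun Q' => pval Q' f') fun Q' hQ' =>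
      isVal_pval C.setting' (hunit Q' (Place.mem_fiber.mpr hQ')).ge
    have hv' : IsVal Q (Algebra.norm F f') (∏ Q' ∈ Q.fiber F', pval Q' f') := hv
    rw [pval_eq_of_isVal hv']
    refine Finset.prod_congr rfl fun Q' _ => ?_
    rw [C.ramificationIndex_eq_one, pow_one]
  weil' f g Df Dg hf hg hDf hDg hdisj := by
    have h1 := hW' f g hf hg fun P => by
      by_cases hP : Df P = 0
      · exact Or.inl (by rw [← hDf, hP])
      · exact Or.inr (by rw [← hDg, hdisj P hP])
    rw [divOf_eq_of_forall hDg, divOf_eq_of_forall hDf] at h1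
    exact h1

omit [FiniteDimensional F F'] [IsAlgClosed K] [CharZero K] in
/-- `pval` is compatible with automorphisms of the cover. -/
theorem pval_restrictScalars_smul (hS' : RiemannSetting K F') (σ : F' ≃ₐ[F] F')
    (Q' : Place K F') (f : F') :
    pval ((σ.restrictScalars K) • Q') ((σ.restrictScalars K) f) = pval Q' f := by
  have hord : ((σ.restrictScalars K) • Q').ord ((σ.restrictScalars K) f) = Q'.ord f :=
    Place.ord_smul _ _ _
  by_cases hf : 0 ≤ Q'.ord f
  · have hv : IsValAt Q' f (pval Q' f) := isVal_pval hS' hf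
    have hv' : IsVal (galSmul σ Q') (σ f) (pval Q' f) := hv.galSmul σ
    exact pval_eq_of_isVal hv'
  · rw [pval_of_ord_neg (not_le.mp hf), pval_of_ord_neg (by rw [hord]; exact not_le.mp hf)]

omit [FiniteDimensional F F'] [IsAlgClosed K] [CharZero K] in
/-- **The data on the cover**: a place `P'` off `div w`, and `ℓ • M' = P' - σ P' + div g` with
`M'` of degree `0` supported off `div w` (divisibility of `Pic0 F'` + moving). -/
theorem exists_cover_data (C : CycSetting K ℓ h w ζ σ)
    (hinf' : Infinite (Place K F')) (hMv' : Moving K F')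
    (hdiv' : ∀ c : Pic0 K F', ∃ c' : Pic0 K F', ℓ • c' = c) :
    ∃ (P' : Place K F') (M' : Divisor K F') (g : F'), P'.ord w = 0 ∧ g ≠ 0 ∧
      Divisor.degree M' = 0 ∧
      ℓ • M' = Finsupp.single P' 1 - Finsupp.single ((σ.restrictScalars K) • P') 1
        + divOf K g ∧
      ∀ Q' ∈ M'.support, Q'.ord w = 0 := by
  classical
  have hS' := C.setting'
  obtain ⟨P', hP'⟩ := Infinite.exists_notMem_finset (divOf K w).support
  have hP'w : P'.ord w = 0 := by
    rw [← divOf_apply hS' w]
    exact Finsupp.notMem_support_iff.mp hP'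
  set D0 : Divisor K F' :=
    Finsupp.single P' 1 - Finsupp.single ((σ.restrictScalars K) • P') 1 with hD0
  have hD0deg : D0 ∈ Divisor.degZero (K := K) (F := F') := by
    rw [Divisor.mem_degZero, hD0, map_sub, Divisor.degree_single, Divisor.degree_single,
      hS'.deg_one, hS'.deg_one, sub_self]
  obtain ⟨c', hc'⟩ := hdiv' (Pic0.mk ⟨D0, hD0deg⟩)
  obtain ⟨M0, hM0⟩ := exists_isRep c'
  have hrep1 : IsRep (ℓ • M0) (Pic0.mk ⟨D0, hD0deg⟩) := by
    have := hM0.nsmul ℓ
    rwa [hc'] at this
  obtain ⟨g, hg0, hg⟩ := (IsRep.mk ⟨D0, hD0deg⟩).exists_divOf_sub hS' hrep1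
  obtain ⟨s, hs0, hs⟩ := hMv' M0 (divOf K w).support
  refine ⟨P', M0 + divOf K s, g * s ^ ℓ, hP'w, mul_ne_zero hg0 (pow_ne_zero _ hs0), ?_, ?_, ?_⟩
  · rw [map_add, hM0.degree, degree_divOf hS', add_zero]
  · have hg' : divOf K g = ℓ • M0 - D0 := hg
    rw [← hD0, divOf_mul hS' hg0 (pow_ne_zero _ hs0), divOf_pow hS', hg', smul_add]
    abel
  · intro Q' hQ'
    by_contra hne
    have hQT : Q' ∈ (divOf K w).support := by
      rw [Finsupp.mem_support_iff, divOf_apply hS']
      exact hne
    rw [Finsupp.mem_support_iff, Finsupp.add_apply, divOf_apply hS', hs Q' hQT] at hQ'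
    exact hQ' (by ring)

/-- **Non-degeneracy, cover form.**  If `div h = ℓ D_y`, `D_y` a representative of `y`, and
`F' = F(w)`, `w ^ ℓ = h`, is a cyclic cover with Weil reciprocity and `ℓ`-divisible `Pic0`,
then `e_ℓ(u, y) = ζ⁻¹` for some `u ∈ Pic0[ℓ]`. -/
theorem exists_wp_eq_inv (C : CycSetting K ℓ h w ζ σ)
    (hW : WeilRec K F) (hMv : Moving K F) (hW' : WeilRec K F')
    (hinf' : Infinite (Place K F')) (hMv' : Moving K F')
    (hdiv' : ∀ c : Pic0 K F', ∃ c' : Pic0 K F', ℓ • c' = c)
    {y : Pic0 K F} {Dy : Divisor K F} (hrep : IsRep Dy y) (hDy : divOf K h = ℓ • Dy) :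
    ∃ u : Pic0 K F, u ∈ Pic0.torsion K F ℓ ∧ wp ℓ u y = ζ⁻¹ := by
  have hS := C.setting
  have hS' := C.setting'
  have := hS'.principal
  have : CharZero F := charZero_of_injective_algebraMap (algebraMap K F).injective
  have hℓ : ℓ ≠ 0 := C.pos.ne'
  obtain ⟨P', M', g, hP'w, hg0, hM'deg, hM', hsupp⟩ := exists_cover_data C hinf' hMv' hdiv'
  have hNF : Divisor.PushforwardNormFormula K F F' :=
    Fermat.Agent.P3.helper58.pushforwardNormFormula_of_surjective
      (fun v => residue_surjective hS v) hS'.deg_one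
  have hDy' : ∀ Q : Place K F, (ℓ : ℤ) * Dy Q = Q.ord h := by
    intro Q
    rw [← divOf_apply hS h, hDy, Finsupp.smul_apply, nsmul_eq_mul]
  obtain ⟨Dx, hx, hx0, hDxdeg, hDx, hdisj, hval, hne⟩ :=
    kummer_pair (τ := σ.restrictScalars K) (valFacts_pval C hW') hℓ hNF
      (pval_restrictScalars_smul hS' σ) (fun f => σ.commutes f) C.ne_zero C.root_pow
      C.sigma_root hDy'
      (Fermat.Agent.P3.helper58.inertiaDeg_eq_one hS.deg_one hS'.deg_one)
      hP'w hg0 (divOf_apply hS' g) hM' hsupp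
  have hDx0 : Dx ∈ Divisor.degZero (K := K) (F := F) := by
    rw [Divisor.mem_degZero, hDxdeg, hM'deg]
  have hdivx : divOf K hx = ℓ • Dx :=
    divOf_eq_of_forall fun Q => by rw [Finsupp.smul_apply, nsmul_eq_mul, hDx]
  have hdata : WPData ℓ (Pic0.mk ⟨Dx, hDx0⟩) y Dx Dy hx h :=
    WPData.of_supp hS (IsRep.mk ⟨Dx, hDx0⟩) hrep hx0 C.ne_zero hdivx hDy fun Q => by
      by_cases hQ : Dx Q = 0
      · exact Or.inl hQ
      · exact Or.inr (hdisj Q hQ)
  refine ⟨Pic0.mk ⟨Dx, hDx0⟩, hdata.torsion_left hS, ?_⟩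
  rw [wp_eq hS hW hMv hℓ hdata, ← evalDiv_pval_eq_dval, ← evalDiv_pval_eq_dval, hval]
  have hζ0 : ζ ≠ 0 := C.primitive.ne_zero hℓ
  field_simp

end Inst

section Top

universe u v

variable {K : Type v} {F : Type u} [Field K] [Field F] [Algebra K F] [IsAlgClosed K] [CharZero K]

/-- The contract of block [W1] for all function fields over `K` in the universe of `F`. -/
def WeilRecAll (K : Type v) [Field K] : Prop :=
  ∀ (E : Type u) [Field E] [Algebra K E] (t : E), Transcendental K t →
    FiniteDimensional (IntermediateField.adjoin K {t}) E → WeilRec K E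

/-- The contract of block [W3b] for all function fields over `K` in the universe of `F`:
`Pic0` is `ℓ`-divisible. -/
def PicDivAll (K : Type v) [Field K] (ℓ : ℕ) : Prop :=
  ∀ (E : Type u) [Field E] [Algebra K E] (t : E), Transcendental K t →
    FiniteDimensional (IntermediateField.adjoin K {t}) E →
    ∀ c : Pic0 K E, ∃ c' : Pic0 K E, ℓ • c' = c

omit [IsAlgClosed K] [CharZero K] in
theorem isRep_unique {D : Divisor K F} {u v : Pic0 K F} (hu : IsRep D u) (hv : IsRep D v) :
    u = v := by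
  obtain ⟨h1, rfl⟩ := hu
  obtain ⟨h2, rfl⟩ := hv
  rfl

/-- **[W3] non-degeneracy of `e_ℓ` at prime level**, from the contracts [W1] and [W3b]. -/
theorem exists_wp_ne_one (x : F) (hx : Transcendental K x)
    [FiniteDimensional (IntermediateField.adjoin K {x}) F] {ℓ : ℕ} (hℓ : ℓ.Prime)
    (hW1 : WeilRecAll.{u, v} K) (hW3b : PicDivAll.{u, v} K ℓ)
    {y : Pic0 K F} (hy : y ∈ Pic0.torsion K F ℓ) (hy0 : y ≠ 0) :
    ∃ u : Pic0 K F, u ∈ Pic0.torsion K F ℓ ∧ wp ℓ u y ≠ 1 := by
  classical
  have : CharZero (IntermediateField.adjoin K {x}) :=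
    charZero_of_injective_algebraMap (algebraMap K _).injective
  have hS : RiemannSetting K F := riemannSetting_of_separating x hx
  obtain ⟨gF, cF, hcF⟩ := exists_hasRiemannGenus x hx
  have hMv : Moving K F := moving_of_weakRR hS hcF
  obtain ⟨Dy, hrep⟩ := exists_isRep y
  obtain ⟨h, hh0, hDy⟩ := hrep.exists_divOf_nsmul hS hy
  -- `h` is not an `ℓ`-th power
  have hpow : ∀ b : F, b ^ ℓ ≠ h := by
    intro b hb
    apply hy0
    have h1 : divOf K b = Dy := by
      have h2 : ℓ • divOf K b = ℓ • Dy := by rw [← divOf_pow hS, hb, hDy]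
      ext Q
      have h3 := DFunLike.congr_fun h2 Q
      rw [Finsupp.smul_apply, Finsupp.smul_apply, nsmul_eq_mul, nsmul_eq_mul] at h3
      exact mul_left_cancel₀ (by exact_mod_cast hℓ.ne_zero) h3
    have h4 := isRep_divOf hS b
    rw [h1] at h4
    exact isRep_unique hrep h4
  have hdvd : ∀ P : Place K F, (ℓ : ℤ) ∣ P.ord h := by
    intro P
    rw [← divOf_apply hS h, hDy, Finsupp.smul_apply, nsmul_eq_mul]
    exact dvd_mul_right _ _
  have : NeZero ℓ := ⟨hℓ.ne_zero⟩
  obtain ⟨ζ, hζ⟩ := HasEnoughRootsOfUnity.exists_primitiveRoot K ℓ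
  -- the cyclic cover
  let F' := (Polynomial.X ^ ℓ - Polynomial.C h : Polynomial F).SplittingField
  obtain ⟨w, σ, C⟩ := exists_cycSetting (F' := F') x hx hℓ hpow hdvd hζ
  have hx' : Transcendental K (algebraMap F F' x) := transcendental_algebraMap hx
  have hfd' : FiniteDimensional (IntermediateField.adjoin K {algebraMap F F' x}) F' :=
    finiteDimensional_adjoin_algebraMap x
  obtain ⟨gF', cF', hcF'⟩ := exists_hasRiemannGenus_of_finite (F' := F') x hx
  have hMv' : Moving K F' := moving_of_weakRR C.setting' hcF'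
  have hinf' : Infinite (Place K F') := infinite_place C.setting' hcF'
  obtain ⟨u, hu, hwp⟩ := exists_wp_eq_inv C (hW1 F x hx inferInstance) hMv
    (hW1 F' _ hx' hfd') hinf' hMv' (hW3b F' _ hx' hfd') hrep hDy
  refine ⟨u, hu, ?_⟩
  rw [hwp]
  intro h1
  have h2 : ζ = 1 := by rw [← inv_inv ζ, h1, inv_one]
  exact hζ.ne_one hℓ.one_lt h2

end Top

end Fermat.Agent.T6.helper1

end
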