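import Mathlib
import Fermat.Agent.T6.helper1_W3cInst
import Fermat.Agent.T6.helper91_Pic0Div
import Fermat.Agent.T6.helper51_PerfAlg2
import Fermat.Agent.T6.helper3_IntOfGeo
import Fermat.Agent.T6.helper73_T6Iface
import Fermat.Agent.P5.helper46_RRLoc

/-!
# T6 [WEIL] END (helper1): every character of `Pic0[ℓ^k]` is a Weil character

`weilAt_of_weilRecAll` : `helper73.WeilAt K F l k` for every curve function field `F` over an
algebraically closed field `K` of characteristic `0`, from the contract of block [W1] ONLY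
(`WeilRecAll K` : Weil reciprocity for the function fields over `K`).

`weilStatement_of_w1` : `helper73.WeilStatement` from [W1].

Inputs (all on main): [W0] `helper26`, [W2] `helper35.wp`, [W3a] `helper98`, [W3b] `helper91`,
[W3c] `helper1.exists_wp_ne_one`, [PERF] `helper51`, the count S27 (`P5.helper25.s27_final`).
-/

set_option autoImplicit false

noncomputable section

namespace Fermat.Agent.T6.helper1

open AlgebraicCurve Fermat.Agent.P2.helper74 Fermat.Agent.T6.helper26 Fermat.Agent.T6.helper35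
  Fermat.Agent.T6.helper98

universe u v

/-- [W3b] in the shape of `PicDivAll` (helper91). -/
theorem picDivAll (K : Type v) [Field K] [IsAlgClosed K] [CharZero K] {ℓ : ℕ} (hℓ : 0 < ℓ) :
    PicDivAll.{u, v} K ℓ := by
  intro E _ _ t ht hfd c
  obtain ⟨c', hc'⟩ := Fermat.Agent.T6.helper91.pic0_divisible_of_transcendental K E t ht ℓ hℓ c
  exact ⟨c', by rw [← hc', natCast_zsmul]⟩

section End

variable {K : Type v} {F : Type u} [Field K] [Field F] [Algebra K F] [IsAlgClosed K]
  [CharZero K]

/-- **[W3] at level `ℓ^k`**: no element of order `ℓ` lies in the right kernel of `e_{ℓ^k}`. -/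
theorem exists_wp_pow_ne_one (x : F) (hx : Transcendental K x)
    [FiniteDimensional (IntermediateField.adjoin K {x}) F] {ℓ : ℕ} (hℓ : ℓ.Prime) (k : ℕ)
    (hW1 : WeilRecAll.{u, v} K) {y : Pic0 K F} (hy : y ∈ Pic0.torsion K F ℓ) (hy0 : y ≠ 0) :
    ∃ u : Pic0 K F, u ∈ Pic0.torsion K F (ℓ ^ (k + 1)) ∧ wp (ℓ ^ (k + 1)) u y ≠ 1 := by
  have : CharZero (IntermediateField.adjoin K {x}) :=
    charZero_of_injective_algebraMap (algebraMap K _).injective
  have hS : RiemannSetting K F := riemannSetting_of_separating x hx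
  obtain ⟨gF, cF, hcF⟩ := exists_hasRiemannGenus x hx
  have hMv : Moving K F := moving_of_weakRR hS hcF
  have hW : WeilRec K F := hW1 F x hx inferInstance
  obtain ⟨u0, hu0, hne⟩ := exists_wp_ne_one x hx hℓ hW1 (picDivAll K hℓ.pos) hy hy0
  obtain ⟨u', hu'⟩ := Fermat.Agent.T6.helper91.pic0_divisible_of_transcendental K F x hx
    (ℓ ^ k) (pow_pos hℓ.pos k) u0
  have hu'' : (ℓ ^ k) • u' = u0 := by rw [← hu', natCast_zsmul]
  have hmem : u' ∈ Pic0.torsion K F (ℓ * ℓ ^ k) := by
    rw [Pic0.mem_torsion, natCast_zsmul, mul_smul, hu'']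
    have := Pic0.mem_torsion.mp hu0
    rwa [natCast_zsmul] at this
  refine ⟨u', by rwa [pow_succ'], ?_⟩
  rw [pow_succ', wp_compat hS hW hMv hℓ.ne_zero (pow_ne_zero k hℓ.ne_zero) hmem hy, hu'']
  exact hne

variable [IsCurveOver K F] [Algebra.EssFiniteType K F]

/-- **[WEIL] END**: every character of `Pic0[ℓ^k]` is a Weil character, from [W1] only. -/
theorem weilAt_of_weilRecAll (hW1 : WeilRecAll.{u, v} K) (l : ℕ) [hl : Fact l.Prime] (k : ℕ) :
    Fermat.Agent.T6.helper73.WeilAt K F l k := by
  classical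
  intro χ hχ0 hχmul
  obtain ⟨x, hx, hfd⟩ :=
    Fermat.Agent.P5.helper46.exists_transcendental_finiteDimensional (K := K) (F := F)
  have : CharZero (IntermediateField.adjoin K {x}) :=
    charZero_of_injective_algebraMap (algebraMap K _).injective
  have hS : RiemannSetting K F := riemannSetting_of_separating x hx
  obtain ⟨gF, cF, hcF⟩ := exists_hasRiemannGenus x hx
  have hMv : Moving K F := moving_of_weakRR hS hcF
  have hW : WeilRec K F := hW1 F x hx inferInstance
  have hn : l ^ k ≠ 0 := pow_ne_zero k hl.out.ne_zero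
  -- finiteness (S27)
  have hfin : Finite (Pic0.torsion K F (l ^ k)) := by
    refine Nat.finite_of_card_ne_zero ?_
    rw [Fermat.Agent.P5.helper25.s27_final K F l k]
    exact pow_ne_zero _ hl.out.ne_zero
  -- the pairing on the torsion
  let e : Pic0.torsion K F (l ^ k) → Pic0.torsion K F (l ^ k) → K :=
    fun u y => wp (l ^ k) (u : Pic0 K F) (y : Pic0 K F)
  have hM : ∀ y : Pic0.torsion K F (l ^ k), (l ^ k) • y = 0 := by
    intro y
    apply Subtype.ext
    have := Pic0.mem_torsion.mp y.2
    rw [natCast_zsmul] at this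
    rw [AddSubgroup.coe_nsmul, this]
    rfl
  have hperf : ∀ y : Pic0.torsion K F (l ^ k), l • y = 0 → y ≠ 0 → ∃ u, e u y ≠ 1 := by
    intro y hly hy0
    have hy0' : (y : Pic0 K F) ≠ 0 := fun h => hy0 (Subtype.ext h)
    have hyl : (y : Pic0 K F) ∈ Pic0.torsion K F l := by
      rw [Pic0.mem_torsion, natCast_zsmul]
      have := congrArg Subtype.val hly
      rwa [AddSubgroup.coe_nsmul] at this
    rcases k with _ | k
    · exfalso
      apply hy0
      have h1 : (1 : ℕ) • y = 0 := by simpa using hM y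
      rwa [one_nsmul] at h1
    · obtain ⟨u, hu, hne⟩ := exists_wp_pow_ne_one x hx hl.out k hW1 hyl hy0'
      exact ⟨⟨u, hu⟩, hne⟩
  obtain ⟨y, hy⟩ := Fermat.Agent.T6.helper51.exists_pairing_pow_eq_of_prime_order l k hl.out hM e
    (fun u u' y => wp_add_left hS hW hMv hn u.2 u'.2 y.2)
    (fun u y y' => wp_add_right hS hW hMv hn u.2 y.2 y'.2)
    (fun u y => wp_ne_zero hS hW hMv hn u.2 y.2) hperf 1
    (fun h => hl.out.one_lt.ne' (Nat.dvd_one.mp h)) χ hχ0 hχmul
  refine ⟨y, fun u D D' h h' hD hD' hdisj hh hh' => ?_⟩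
  have repu : IsRep (D : Divisor K F) (u : Pic0 K F) := ⟨D.2, hD⟩
  have repy : IsRep (D' : Divisor K F) (y : Pic0 K F) := ⟨D'.2, hD'⟩
  have hdata : WPData (l ^ k) (u : Pic0 K F) (y : Pic0 K F) (D : Divisor K F)
      (D' : Divisor K F) h h' :=
    WPData.of_supp hS repu repy hh.1 hh'.1 (divOf_eq_of_forall hh.2) (divOf_eq_of_forall hh'.2)
      fun P => by
        by_cases hP : (D : Divisor K F) P = 0
        · exact Or.inl hP
        · right
          by_contra hP'
          exact Finset.disjoint_left.mp hdisj (Finsupp.mem_support_iff.mpr hP)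
            (Finsupp.mem_support_iff.mpr hP')
  have hwp := wp_eq hS hW hMv hn hdata
  have hne : dval h' (D : Divisor K F) ≠ 0 := dval_ne_zero hS hdata.disjy
  rw [hy u, pow_one, Fermat.Agent.T6.helper3.evalDiv_eq_dval,
    Fermat.Agent.T6.helper3.evalDiv_eq_dval]
  show wp (l ^ k) (u : Pic0 K F) (y : Pic0 K F) * _ = _
  rw [hwp]
  field_simp

end End

/-- The contract of block [W1] at universe `0`. -/
def W1Contract : Prop :=
  ∀ (K : Type) [Field K] [IsAlgClosed K] [CharZero K], WeilRecAll.{0, 0} K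

/-- **[WEIL]** `helper73.WeilStatement` from the contract of [W1]. -/
theorem weilStatement_of_w1 (hW1 : W1Contract) : Fermat.Agent.T6.helper73.WeilStatement := by
  intro K F _ _ _ _ _ _ _ l _ k
  exact weilAt_of_weilRecAll (hW1 K) l k

end Fermat.Agent.T6.helper1

end
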