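import Mathlib
import Fermat.Agent.T6.helper1_WeilEnd
import Fermat.Agent.T6.helper26_WeilTransfer
import Fermat.Agent.T6.helper87_WeilP1

/-!
# T6 [WEIL] (helper1): `helper73.WeilStatement`, unconditional

`weilRecAll` : the contract of block [W1] (`WeilRecAll K`) from [P1] `helper87.weilRec_rat` and
the transfer `helper26.weilRec_of_adjoin`.

`weilStatement` : every character of `Pic0[ℓ^k]` of a curve function field over an
algebraically closed field of characteristic `0` is a Weil character.
-/

set_option autoImplicit false

noncomputable section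

namespace Fermat.Agent.T6.helper1

open AlgebraicCurve IntermediateField Fermat.Agent.P2.helper74 Fermat.Agent.T6.helper26

universe u v

section Gen

variable {K : Type v} {E : Type u} [Field K] [Field E] [Algebra K E]

/-- the generator of `K(g)` generates `K(g)` -/
theorem adjoin_gen_eq_top (g : E) : K⟮AdjoinSimple.gen K g⟯ = (⊤ : IntermediateField K K⟮g⟯) := by
  apply IntermediateField.lift_injective
  rw [lift_adjoin_simple, lift_top, AdjoinSimple.coe_gen]

theorem isGen_gen {g : E} (hg : Transcendental K g) :
    Fermat.Agent.T6.helper87.IsGen K (AdjoinSimple.gen K g) where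
  tr := by
    intro h
    apply hg
    have := h.algebraMap (A := E)
    rwa [AdjoinSimple.algebraMap_gen] at this
  top := adjoin_gen_eq_top g

end Gen

/-- **[W1]** Weil reciprocity for all function fields over an algebraically closed field of
characteristic `0`. -/
theorem weilRecAll (K : Type v) [Field K] [IsAlgClosed K] [CharZero K] : WeilRecAll.{u, v} K := by
  intro E _ _ t ht hfd
  have : CharZero (IntermediateField.adjoin K {t}) :=
    charZero_of_injective_algebraMap (algebraMap K _).injective
  have hS' : RiemannSetting K E := riemannSetting_of_separating t ht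
  refine weilRec_of_adjoin hS' fun g hg => ?_
  obtain ⟨hgt, hgfd⟩ := Fermat.Agent.S24.helper82.ff_transcendental t ht g hg
  have hgen := isGen_gen hgt
  exact ⟨hgfd, Fermat.Agent.T6.helper87.riemannSetting_rat hgen,
    fun u hu hd => Fermat.Agent.T6.helper87.weilRec_rat hgen hu hd⟩

/-- **[WEIL]** every character of `Pic0[ℓ^k]` is a Weil character. -/
theorem weilStatement : Fermat.Agent.T6.helper73.WeilStatement :=
  weilStatement_of_w1 fun K _ _ _ => weilRecAll K

/-- **[W3]** non-degeneracy of the Weil pairing at prime level, unconditional. -/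
theorem exists_wp_ne_one' {K : Type v} {F : Type u} [Field K] [Field F] [Algebra K F]
    [IsAlgClosed K] [CharZero K] (x : F) (hx : Transcendental K x)
    [FiniteDimensional (IntermediateField.adjoin K {x}) F] {ℓ : ℕ} (hℓ : ℓ.Prime)
    {y : Pic0 K F} (hy : y ∈ Pic0.torsion K F ℓ) (hy0 : y ≠ 0) :
    ∃ u : Pic0 K F, u ∈ Pic0.torsion K F ℓ ∧ Fermat.Agent.T6.helper35.wp ℓ u y ≠ 1 :=
  exists_wp_ne_one x hx hℓ (weilRecAll K) (picDivAll K hℓ.pos) hy hy0

end Fermat.Agent.T6.helper1

end
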