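import Mathlib
import Fermat.Agent.T6.helper23_RatBasis
import Fermat.Agent.S37.helper16_EffRed
import Fermat.Agent.T6.helper26_PVal
import Fermat.Agent.T6.helper80_MoveFin

/-!
# T6 [I3-a] MOVE `φ_E` (helper23, second prover): a rational integral function whose zeros
reduce off a given finite set

`S : S37.helper16.RedSetting M A` (`A` a valuation ring of `ℚ̄` over `ℓ ∤ M`), `T` a finite set
of places of the special fibre.  There is an `A`-integral function `φ ∈ L(d ∞)`, fixed by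
`Gal(ℚ̄/ℚ)`, with `ord_∞ φ = -d`, `ℓ ∤ d`, unit leading coefficient, such that no zero of `φ`
reduces into `T` or to `∞̄`:  `φ = 1 + Ψ' (Ψ ^ (ℓ ^ r) - Ψ)` (construction of helper80 #2994).

* `move_coeff`          : the leading coefficient of `1 + y (x ^ N - x)` (Laurent series);
* `isAlgebraic_residue` : the residue field of `A` is algebraic over `𝔽_ℓ`;
* `exists_rat_exact`    : for `n ≥ n₀ + 1` a `Gal(ℚ̄/ℚ)`-fixed `A`-integral function of `L(n ∞)`
                          with UNIT coefficient at `q ^ (-n)` (I4 RATBASIS + genus equality);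
* `exists_phiE`         : **[I3-a]**, function form;
* `exists_phiE_div`     : **[I3-a]**, divisor form `div φ = E - d ∞`, `E ≥ 0` Galois-stable.
-/

set_option autoImplicit false
set_option synthInstance.maxHeartbeats 400000
set_option linter.unusedSectionVars false
set_option linter.unusedVariables false
set_option linter.style.longLine false
set_option linter.style.haveILetI false

open HahnSeries ModularCurve IntermediateField AlgebraicCurve
open Fermat.Agent.S18.helper19 Fermat.Agent.P2.helper29 Fermat.Agent.S24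

noncomputable section

namespace Fermat.Agent.T6.helper23

/-! ### Part 0: the leading coefficient of `1 + y (x ^ N - x)` -/

section Coeff

variable {K : Type*} [Field K]

/-- the order of a Laurent series from its coefficients -/
theorem order_eq_of_coeff {x : LaurentSeries K} {n : ℤ} (h0 : x.coeff n ≠ 0)
    (h : ∀ k : ℤ, k < n → x.coeff k = 0) : x ≠ 0 ∧ x.order = n := by
  have hx : x ≠ 0 := by
    rintro rfl
    exact h0 (HahnSeries.coeff_zero)
  refine ⟨hx, le_antisymm (HahnSeries.order_le_of_coeff_ne_zero h0) ?_⟩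
  by_contra hlt
  rw [not_le] at hlt
  exact (HahnSeries.coeff_order_eq_zero.not.mpr hx) (h _ hlt)

/-- **the leading term of `1 + y (x ^ N - x)`**: if `x` has a pole of order `a ≥ 1` and `y` a
pole of order `b ≥ 0`, `N ≥ 2`, then `1 + y (x ^ N - x)` has a pole of order `N a + b`. -/
theorem move_coeff (x y : LaurentSeries K) {a b : ℤ} {N : ℕ} (ha : 1 ≤ a) (hb : 0 ≤ b)
    (hN : 2 ≤ N) (hx0 : x ≠ 0) (hy0 : y ≠ 0) (hx : x.order = -a) (hy : y.order = -b) :
    (1 + y * (x ^ N - x)).coeff (-((N : ℤ) * a + b)) ≠ 0 ∧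
      ∀ k : ℤ, k < -((N : ℤ) * a + b) → (1 + y * (x ^ N - x)).coeff k = 0 := by
  have hNa : a < (N : ℤ) * a := by
    have h2 : (2 : ℤ) ≤ N := by exact_mod_cast hN
    nlinarith
  have hz0 : y * x ^ N ≠ 0 := mul_ne_zero hy0 (pow_ne_zero _ hx0)
  have hzo : (y * x ^ N).order = -((N : ℤ) * a + b) := by
    rw [HahnSeries.order_mul hy0 (pow_ne_zero _ hx0), HahnSeries.order_pow, hx, hy]
    simp only [nsmul_eq_mul]
    ring
  have hw0 : y * x ≠ 0 := mul_ne_zero hy0 hx0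
  have hwo : (y * x).order = -(a + b) := by
    rw [HahnSeries.order_mul hy0 hx0, hx, hy]
    ring
  have hsplit : (1 : LaurentSeries K) + y * (x ^ N - x) = y * x ^ N + (1 - y * x) := by ring
  have hrest : ∀ k : ℤ, k ≤ -((N : ℤ) * a + b) → (1 - y * x : LaurentSeries K).coeff k = 0 := by
    intro k hk
    rw [HahnSeries.coeff_sub, HahnSeries.coeff_one, if_neg (by omega), zero_sub, neg_eq_zero]
    apply HahnSeries.coeff_eq_zero_of_lt_order
    rw [hwo]
    omega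
  refine ⟨?_, fun k hk => ?_⟩
  · rw [hsplit, HahnSeries.coeff_add, hrest _ le_rfl, add_zero, ← hzo]
    exact HahnSeries.coeff_order_eq_zero.not.mpr hz0
  · rw [hsplit, HahnSeries.coeff_add, hrest _ hk.le, add_zero]
    apply HahnSeries.coeff_eq_zero_of_lt_order
    rw [hzo]
    exact hk

end Coeff

/-! ### Part 1: the residue field is algebraic over `𝔽_ℓ` -/

section Alg

variable (A : ValuationSubring Kb) {ℓ : ℕ} [hℓ : Fact ℓ.Prime]

/-- **the residue field of a valuation ring of `ℚ̄` over `ℓ` is algebraic over `𝔽_ℓ`** -/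
theorem isAlgebraic_residue [Algebra (ZMod ℓ) (kA A)] (x : kA A) : IsAlgebraic (ZMod ℓ) x := by
  obtain ⟨a, rfl⟩ := IsLocalRing.residue_surjective x
  have halg : Algebra.IsAlgebraic ℚ Kb := by
    have e : (DivisionRing.toRatAlgebra : Algebra ℚ Kb) = AlgebraicClosure.instAlgebra ℚ :=
      Subsingleton.elim _ _
    rw [e]
    infer_instance
  have ha : IsAlgebraic ℚ (a : Kb) := Algebra.IsAlgebraic.isAlgebraic _
  have ha' : IsAlgebraic ℤ (a : Kb) := (IsFractionRing.isAlgebraic_iff ℤ ℚ Kb).mpr ha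
  obtain ⟨p, hp0, hp⟩ := ha'
  -- the primitive part
  have hc0 : p.content ≠ 0 := fun h => hp0 (Polynomial.content_eq_zero_iff.mp h)
  have hq : Polynomial.aeval (a : Kb) p.primPart = 0 := by
    have h1 := p.eq_C_content_mul_primPart
    rw [h1, map_mul, Polynomial.aeval_C] at hp
    rcases mul_eq_zero.mp hp with h | h
    · exfalso
      apply hc0
      have : ((p.content : ℤ) : Kb) = 0 := by simpa using h
      exact_mod_cast this
    · exact h
  have hprim : p.primPart.IsPrimitive := p.isPrimitive_primPart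
  -- the reduction of the primitive part is nonzero
  have hmap : p.primPart.map (Int.castRingHom (ZMod ℓ)) ≠ 0 := by
    intro h0
    have hdvd : Polynomial.C (ℓ : ℤ) ∣ p.primPart := by
      rw [Polynomial.C_dvd_iff_dvd_coeff]
      intro i
      have := congrArg (fun q : Polynomial (ZMod ℓ) => q.coeff i) h0
      simp only [Polynomial.coeff_map, Polynomial.coeff_zero] at this
      exact (ZMod.intCast_zmod_eq_zero_iff_dvd _ _).mp this
    have hu : IsUnit (ℓ : ℤ) := hprim _ hdvd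
    have := Int.isUnit_iff.mp hu
    have h2 := hℓ.out.two_le
    omega
  -- the root
  have hqA : Polynomial.aeval a p.primPart = 0 := by
    apply Subtype.ext
    have h1 := Polynomial.aeval_algHom_apply (A.subtype.toIntAlgHom) a p.primPart
    exact h1.symm.trans hq
  have hqk : Polynomial.aeval (IsLocalRing.residue A a) p.primPart = 0 := by
    have h1 := Polynomial.aeval_algHom_apply ((IsLocalRing.residue A).toIntAlgHom) a p.primPart
    rw [hqA, map_zero] at h1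
    exact h1
  refine ⟨p.primPart.map (Int.castRingHom (ZMod ℓ)), hmap, ?_⟩
  rw [Polynomial.aeval_def, Polynomial.eval₂_map]
  have hcomp : (algebraMap (ZMod ℓ) (kA A)).comp (Int.castRingHom (ZMod ℓ))
      = algebraMap ℤ (kA A) := RingHom.ext_int _ _
  rw [hcomp, ← Polynomial.aeval_def]
  exact hqk

/-- the instance form -/
theorem isAlgebraic_kA [Algebra (ZMod ℓ) (kA A)] : Algebra.IsAlgebraic (ZMod ℓ) (kA A) :=
  ⟨fun x => isAlgebraic_residue A x⟩

end Alg

/-! ### Part 2: rational integral functions with exact pole order and unit leading coefficient -/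

section Exact

open Fermat.Agent.S37.helper16 Fermat.Agent.P2.helper74 Fermat.Agent.P2.helper22

variable {M : ℕ} [NeZero M] {A : ValuationSubring Kb}

/-- **a rational integral function of exact pole order `n` with unit leading coefficient**, for
every `n ≥ n₀ + 1` (I4 RATBASIS + the lattice count + genus equality `redSub_single`). -/
theorem exists_rat_exact (S : RedSetting M A) (hA : PrimeToLevel M A) {n : ℤ}
    (hn : S.n₀ + 1 ≤ n) :
    ∃ Y : LaurentSeries A, InL (FF M) n (incl A Y) ∧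
      (∀ σ : Kb ≃ₐ[ℚ] Kb, coeffMap (σ : Kb →+* Kb) (incl A Y) = incl A Y) ∧
      IsLocalRing.residue A (Y.coeff (-n)) ≠ 0 := by
  classical
  have hS := Fermat.Agent.P2.helper74.riemannSetting_FF M
  have hc0 := S.c_lt_n₀
  -- the dimension jump
  have h1 : Module.finrank (kA A) (redSub M A (Finsupp.single S.Pinf (n - 1)))
      = ell (Finsupp.single S.Pinf (n - 1)) :=
    finrank_redSub S.hPinf S.hSc S.hInt S.hReg (X := Finsupp.single S.Pinf (n - 1))
      (n := n - 1) (fun v => le_rfl)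
  have h2 : Module.finrank (kA A) (redSub M A (Finsupp.single S.Pinf n))
      = ell (Finsupp.single S.Pinf n) :=
    finrank_redSub S.hPinf S.hSc S.hInt S.hReg (X := Finsupp.single S.Pinf n)
      (n := n) (fun v => le_rfl)
  have e1 := S.hc (Finsupp.single S.Pinf (n - 1)) (by rw [degree_single_of hS]; omega)
  have e2 := S.hc (Finsupp.single S.Pinf n) (by rw [degree_single_of hS]; omega)
  rw [degree_single_of hS] at e1 e2
  have hlt : Module.finrank (kA A) (redSub M A (Finsupp.single S.Pinf (n - 1)))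
      < Module.finrank (kA A) (redSub M A (Finsupp.single S.Pinf n)) := by
    rw [h1, h2]
    have : (ell (Finsupp.single S.Pinf (n - 1)) : ℤ) < ell (Finsupp.single S.Pinf n) := by omega
    exact_mod_cast this
  have hW₁eq : redSub M A (Finsupp.single S.Pinf (n - 1))
      = riemannRochSpace (Finsupp.single S.Qinf (n - 1)) := S.redSub_single (by omega)
  haveI : FiniteDimensional (kA A) (redSub M A (Finsupp.single S.Pinf (n - 1))) := by
    rw [hW₁eq]
    exact finiteDimensional_L S.hSb _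
  obtain ⟨y, hy₂, hy₁⟩ : ∃ y, y ∈ redSub M A (Finsupp.single S.Pinf n) ∧
      y ∉ redSub M A (Finsupp.single S.Pinf (n - 1)) := by
    by_contra hcon
    push Not at hcon
    have hle : redSub M A (Finsupp.single S.Pinf n)
        ≤ redSub M A (Finsupp.single S.Pinf (n - 1)) := fun y hy => hcon y hy
    have := Submodule.finrank_mono hle
    omega
  obtain ⟨Z, ⟨f, hf, hfZ⟩, hZ⟩ := hy₂
  have hZL : InL (FF M) n (incl A Z) := by
    rw [← hfZ]
    exact inL_of_mem_L S.hPinf (fun v => le_rfl) hf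
  have hZb : InL (FFb A M) n (red A Z) := S.hReg n Z hZL
  -- the echelon basis
  obtain ⟨r, ψ, m, hE⟩ := exists_ratBasis M A hA n
  obtain ⟨Y, hY, hYp⟩ := hE.exists_lift
  by_contra hcon
  push Not at hcon
  have hall : ∀ i, IsLocalRing.residue A ((Y i).coeff (-n)) = 0 := fun i =>
    hcon (Y i) (by rw [hY i]; exact hE.mem i)
      (fun σ => by rw [hY i]; exact hE.fix i _ (mem_galSet σ))
  -- the expansion of `Z`
  have hexp : incl A Z = ∑ i, (incl A Z).coeff (m i) • ψ i := hE.expand _ hZL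
  have hZeq : Z = ∑ i, Z.coeff (m i) • Y i := by
    apply coeffMap_subtype_injective A
    rw [map_sum]
    refine hexp.trans (Finset.sum_congr rfl fun i _ => ?_)
    rw [incl_smul, hY i, coeffMap_coeff]
    rfl
  have hcoef : (red A Z).coeff (-n) = 0 := by
    rw [hZeq, map_sum, HahnSeries.coeff_sum]
    refine Finset.sum_eq_zero fun i _ => ?_
    rw [red_smul, HahnSeries.coeff_smul, coeffMap_coeff, hall i, smul_zero]
  -- so `red Z ∈ L̄((n - 1) ∞̄)`
  have hZb' : InL (FFb A M) (n - 1) (red A Z) := by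
    refine ⟨hZb.1, hZb.2.1, fun k hk => ?_⟩
    rcases lt_or_eq_of_le (show k ≤ -n by omega) with h | h
    · exact hZb.2.2 k h
    · rw [h]
      exact hcoef
  apply hy₁
  rw [hW₁eq]
  obtain ⟨hmem, hL⟩ := (inL_iff_mem S.hQinf (n - 1) (red A Z)).mp hZb'
  have : (⟨red A Z, hmem⟩ : FFb A M) = y := Subtype.ext hZ
  rw [← this]
  exact hL

end Exact

/-! ### Part 3: the function `φ_E` -/

section Main

open Fermat.Agent.S37.helper16 Fermat.Agent.P2.helper74 Fermat.Agent.P2.helper22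
open Fermat.Agent.T6.helper26

/-- if the push-forward of an effective divisor vanishes at `b`, the divisor vanishes on the
fibre of `b` -/
theorem fibre_eq_zero {α β : Type*} (g : α → β) (R : α →₀ ℤ) (hR : ∀ a, 0 ≤ R a) (b : β)
    (h : Finsupp.mapDomain g R b = 0) (a : α) (ha : g a = b) : R a = 0 := by
  classical
  by_contra hne
  have hmem : a ∈ R.support := Finsupp.mem_support_iff.mpr hne
  have hsum : Finsupp.mapDomain g R b = ∑ x ∈ R.support, if g x = b then R x else 0 := by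
    rw [Finsupp.mapDomain, Finsupp.sum, Finsupp.finsetSum_apply]
    refine Finset.sum_congr rfl fun x _ => ?_
    rw [Finsupp.single_apply]
  rw [hsum] at h
  have h0 := (Finset.sum_eq_zero_iff_of_nonneg (fun x _ => by
    split_ifs
    · exact hR x
    · exact le_rfl)).mp h a hmem
  rw [if_pos ha] at h0
  exact hne h0

/-- regularity of `1 + g (f ^ N - f)` at a place where `f` and `g` are regular -/
theorem ord_move_nonneg {K F : Type*} [Field K] [Field F] [Algebra K F] (P : Place K F)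
    {f g : F} (hf : 0 ≤ P.ord f) (hg : 0 ≤ P.ord g) (N : ℕ) :
    0 ≤ P.ord (1 + g * (f ^ N - f)) := by
  rw [← Fermat.Agent.S24.helper82.mem_iff_ord_nonneg] at hf hg ⊢
  exact add_mem (one_mem _) (mul_mem hg (sub_mem (pow_mem hf N) hf))

variable {M : ℕ} [NeZero M] {A : ValuationSubring Kb}

/-- **[I3-a] MOVE `φ_E`, function form.**  For every finite set `T` of places of the special
fibre there is an `A`-integral function `φ = incl Y ∈ L(d ∞)`, fixed by `Gal(ℚ̄/ℚ)`, with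
`ℓ ∤ d`, `ord_∞ φ = -d` and unit leading coefficient, whose reduction has no zero in
`T \ {∞̄}`, and such that no zero of `φ` reduces into `T` or to `∞̄`. -/
theorem exists_phiE (S : RedSetting M A) {ℓ : ℕ} (hℓ : ℓ.Prime) (hℓM : ¬ ℓ ∣ M)
    (hA : A.LiesOverPrime ℓ) (T : Finset (Place (kA A) (FFb A M))) :
    ∃ (d : ℕ) (Y : LaurentSeries A) (hφ : incl A Y ∈ FF M) (hφb : red A Y ∈ FFb A M),
      0 < d ∧ ¬ ℓ ∣ d ∧ InL (FF M) d (incl A Y) ∧
      (∀ σ : Kb ≃ₐ[ℚ] Kb,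
        arithmeticRingAut (modularFunctionFieldFull M) σ ⟨incl A Y, hφ⟩ = ⟨incl A Y, hφ⟩) ∧
      IsLocalRing.residue A (Y.coeff (-(d : ℤ))) ≠ 0 ∧
      S.Pinf.ord (⟨incl A Y, hφ⟩ : FF M) = -(d : ℤ) ∧
      S.Qinf.ord (⟨red A Y, hφb⟩ : FFb A M) = -(d : ℤ) ∧
      (∀ Q ∈ T, Q ≠ S.Qinf → Q.ord (⟨red A Y, hφb⟩ : FFb A M) = 0) ∧
      (∀ P, P ≠ S.Pinf → (S.rP P ∈ T ∨ S.rP P = S.Qinf) →
        P.ord (⟨incl A Y, hφ⟩ : FF M) = 0) := by
  classical
  haveI : Fact ℓ.Prime := ⟨hℓ⟩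
  haveI : CharP (kA A) ℓ := Fermat.Agent.P2.helper81.charP_residueField A hA
  letI : Algebra (ZMod ℓ) (kA A) := ZMod.algebra (kA A) ℓ
  haveI : Algebra.IsAlgebraic (ZMod ℓ) (kA A) := isAlgebraic_kA A
  have hPL : PrimeToLevel M A := ⟨ℓ, hℓ, hℓM, hA⟩
  have hS := Fermat.Agent.P2.helper74.riemannSetting_FF M
  have hSb := S.hSb
  have hn0 := S.n₀_pos
  -- the pole orders
  obtain ⟨a, ha⟩ : ∃ a : ℕ, (a : ℤ) = S.n₀ + 1 :=
    ⟨(S.n₀ + 1).toNat, Int.toNat_of_nonneg (by omega)⟩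
  obtain ⟨b, hba, hbℓ⟩ : ∃ b : ℕ, a ≤ b ∧ ¬ ℓ ∣ b := by
    by_cases h : ℓ ∣ a
    · refine ⟨a + 1, Nat.le_succ a, fun h' => ?_⟩
      have h1 : ℓ ∣ 1 := (Nat.dvd_add_right h).mp h'
      exact hℓ.one_lt.ne' (Nat.dvd_one.mp h1)
    · exact ⟨a, le_rfl, h⟩
  have ha1 : (1 : ℤ) ≤ (a : ℤ) := by omega
  have hb0 : (0 : ℤ) ≤ (b : ℤ) := Int.natCast_nonneg b
  have hbn : S.n₀ + 1 ≤ (b : ℤ) := by
    have : (a : ℤ) ≤ (b : ℤ) := by exact_mod_cast hba
    omega
  obtain ⟨Ya, hYaL, hYafix, hYau⟩ := exists_rat_exact S hPL (n := (a : ℤ)) (by omega)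
  obtain ⟨Yb, hYbL, hYbfix, hYbu⟩ := exists_rat_exact S hPL (n := (b : ℤ)) hbn
  -- the reductions
  have hYaLb : InL (FFb A M) a (red A Ya) := S.hReg _ _ hYaL
  have hYbLb : InL (FFb A M) b (red A Yb) := S.hReg _ _ hYbL
  -- the exponent
  obtain ⟨r, hr1, hr0, hr⟩ := Fermat.Agent.T6.helper80.exists_frob_pow_fix_finset_ge ℓ
    (T.image fun Q => pval Q (⟨red A Ya, hYaLb.1⟩ : FFb A M)) 1
  have hN2 : 2 ≤ ℓ ^ r := Nat.one_lt_pow hr0.ne' hℓ.one_lt
  -- the function
  have hincl : incl A (1 + Yb * (Ya ^ (ℓ ^ r) - Ya))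
      = 1 + incl A Yb * (incl A Ya ^ (ℓ ^ r) - incl A Ya) := by
    simp only [map_add, map_one, map_mul, map_sub, map_pow]
  have hred : red A (1 + Yb * (Ya ^ (ℓ ^ r) - Ya))
      = 1 + red A Yb * (red A Ya ^ (ℓ ^ r) - red A Ya) := by
    simp only [map_add, map_one, map_mul, map_sub, map_pow]
  have hφ : incl A (1 + Yb * (Ya ^ (ℓ ^ r) - Ya)) ∈ FF M := by
    rw [hincl]
    exact add_mem (one_mem _) (mul_mem hYbL.1 (sub_mem (pow_mem hYaL.1 _) hYaL.1))
  have hφb : red A (1 + Yb * (Ya ^ (ℓ ^ r) - Ya)) ∈ FFb A M := by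
    rw [hred]
    exact add_mem (one_mem _) (mul_mem hYbLb.1 (sub_mem (pow_mem hYaLb.1 _) hYaLb.1))
  have hφeq : (⟨incl A (1 + Yb * (Ya ^ (ℓ ^ r) - Ya)), hφ⟩ : FF M)
      = 1 + (⟨incl A Yb, hYbL.1⟩ : FF M) *
        ((⟨incl A Ya, hYaL.1⟩ : FF M) ^ (ℓ ^ r) - (⟨incl A Ya, hYaL.1⟩ : FF M)) :=
    Subtype.ext hincl
  have hφbeq : (⟨red A (1 + Yb * (Ya ^ (ℓ ^ r) - Ya)), hφb⟩ : FFb A M)
      = 1 + (⟨red A Yb, hYbLb.1⟩ : FFb A M) *
        ((⟨red A Ya, hYaLb.1⟩ : FFb A M) ^ (ℓ ^ r) - (⟨red A Ya, hYaLb.1⟩ : FFb A M)) :=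
    Subtype.ext hred
  -- the leading coefficients
  have hcast : (((ℓ ^ r * a + b : ℕ) : ℤ)) = ((ℓ ^ r : ℕ) : ℤ) * a + b := by push_cast; ring
  have hua : (Ya.coeff (-(a : ℤ)) : A) ≠ 0 := fun h0 => hYau (by rw [h0, map_zero])
  have hub : (Yb.coeff (-(b : ℤ)) : A) ≠ 0 := fun h0 => hYbu (by rw [h0, map_zero])
  obtain ⟨hxa0, hxa⟩ := order_eq_of_coeff (x := incl A Ya) (n := -(a : ℤ))
    (by rw [coeffMap_coeff]; exact fun h0 => hua (Subtype.ext h0)) hYaL.2.2
  obtain ⟨hxb0, hxb⟩ := order_eq_of_coeff (x := incl A Yb) (n := -(b : ℤ))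
    (by rw [coeffMap_coeff]; exact fun h0 => hub (Subtype.ext h0)) hYbL.2.2
  obtain ⟨hya0, hya⟩ := order_eq_of_coeff (x := red A Ya) (n := -(a : ℤ))
    (by rw [coeffMap_coeff]; exact hYau) hYaLb.2.2
  obtain ⟨hyb0, hyb⟩ := order_eq_of_coeff (x := red A Yb) (n := -(b : ℤ))
    (by rw [coeffMap_coeff]; exact hYbu) hYbLb.2.2
  obtain ⟨hc1, hc2⟩ := move_coeff (incl A Ya) (incl A Yb) ha1 hb0 hN2 hxa0 hxb0 hxa hxb
  obtain ⟨hc3, hc4⟩ := move_coeff (red A Ya) (red A Yb) ha1 hb0 hN2 hya0 hyb0 hya hyb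
  rw [← hincl, ← hcast] at hc1 hc2
  rw [← hred, ← hcast] at hc3 hc4
  obtain ⟨hF0, hFo⟩ := order_eq_of_coeff hc1 hc2
  obtain ⟨hFb0, hFbo⟩ := order_eq_of_coeff hc3 hc4
  have hφ0 : (⟨incl A (1 + Yb * (Ya ^ (ℓ ^ r) - Ya)), hφ⟩ : FF M) ≠ 0 :=
    fun h0 => hF0 (congrArg Subtype.val h0)
  have hφb0 : (⟨red A (1 + Yb * (Ya ^ (ℓ ^ r) - Ya)), hφb⟩ : FFb A M) ≠ 0 :=
    fun h0 => hFb0 (congrArg Subtype.val h0)
  -- `φ ∈ L(d ∞)`
  have hL : InL (FF M) ((ℓ ^ r * a + b : ℕ) : ℤ) (incl A (1 + Yb * (Ya ^ (ℓ ^ r) - Ya))) := by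
    refine ⟨hφ, fun P hP => ?_, hc2⟩
    rw [hφeq]
    exact ord_move_nonneg P (hYaL.2.1 P hP) (hYbL.2.1 P hP) _
  have hPinf : S.Pinf.ord (⟨incl A (1 + Yb * (Ya ^ (ℓ ^ r) - Ya)), hφ⟩ : FF M)
      = -((ℓ ^ r * a + b : ℕ) : ℤ) := by
    rw [S.hPinf _ hφ0]
    exact hFo
  have hQinf : S.Qinf.ord (⟨red A (1 + Yb * (Ya ^ (ℓ ^ r) - Ya)), hφb⟩ : FFb A M)
      = -((ℓ ^ r * a + b : ℕ) : ℤ) := by
    rw [S.hQinf _ hφb0]
    exact hFbo
  -- the values on `T`
  have hT : ∀ Q ∈ T, Q ≠ S.Qinf →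
      Q.ord (⟨red A (1 + Yb * (Ya ^ (ℓ ^ r) - Ya)), hφb⟩ : FFb A M) = 0 := by
    intro Q hQT hQ
    have hQn : ¬ IsInfty Q := fun h => hQ ((isInfty_iff_eq S.hQinf Q).mp h)
    have hra : 0 ≤ Q.ord (⟨red A Ya, hYaLb.1⟩ : FFb A M) := hYaLb.2.1 Q hQn
    have hrb : 0 ≤ Q.ord (⟨red A Yb, hYbLb.1⟩ : FFb A M) := hYbLb.2.1 Q hQn
    have hx : pval Q (⟨red A Ya, hYaLb.1⟩ : FFb A M) ^ (ℓ ^ r)
        = pval Q (⟨red A Ya, hYaLb.1⟩ : FFb A M) :=
      hr _ (Finset.mem_image_of_mem _ hQT)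
    have hreg : 0 ≤ Q.ord (⟨red A (1 + Yb * (Ya ^ (ℓ ^ r) - Ya)), hφb⟩ : FFb A M) := by
      rw [hφbeq]
      exact ord_move_nonneg Q hra hrb _
    have hpow : 0 ≤ Q.ord ((⟨red A Ya, hYaLb.1⟩ : FFb A M) ^ (ℓ ^ r)) := by
      rw [← Fermat.Agent.S24.helper82.mem_iff_ord_nonneg] at hra ⊢
      exact pow_mem hra _
    have hsub : 0 ≤ Q.ord ((⟨red A Ya, hYaLb.1⟩ : FFb A M) ^ (ℓ ^ r)
        - (⟨red A Ya, hYaLb.1⟩ : FFb A M)) := by
      rw [← Fermat.Agent.S24.helper82.mem_iff_ord_nonneg] at hra hpow ⊢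
      exact sub_mem hpow hra
    have hmul : 0 ≤ Q.ord ((⟨red A Yb, hYbLb.1⟩ : FFb A M) *
        ((⟨red A Ya, hYaLb.1⟩ : FFb A M) ^ (ℓ ^ r) - (⟨red A Ya, hYaLb.1⟩ : FFb A M))) :=
      ord_mul_nonneg Q hrb hsub
    have hval : pval Q (⟨red A (1 + Yb * (Ya ^ (ℓ ^ r) - Ya)), hφb⟩ : FFb A M) = 1 := by
      rw [hφbeq, pval_add hSb (le_of_eq (Place.ord_one Q).symm) hmul, pval_one,
        pval_mul hSb hrb hsub, pval_sub hSb hpow hra, pval_pow hSb hra, hx, sub_self, mul_zero,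
        add_zero]
    have hnot : ¬ 0 < Q.ord (⟨red A (1 + Yb * (Ya ^ (ℓ ^ r) - Ya)), hφb⟩ : FFb A M) := by
      rw [← pval_eq_zero_iff hSb hφb0 hreg, hval]
      exact one_ne_zero
    omega
  refine ⟨ℓ ^ r * a + b, 1 + Yb * (Ya ^ (ℓ ^ r) - Ya), hφ, hφb, ?_, ?_, hL, fun σ => ?_, hc3,
    hPinf, hQinf, hT, ?_⟩
  · have : 0 < a := by omega
    positivity
  · exact Fermat.Agent.T6.helper80.move_degree_coprime ℓ hr0 a hbℓ
  · apply Subtype.ext
    rw [coe_arithmeticRingAut_apply]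
    show coeffMap (σ : Kb →+* Kb) (incl A (1 + Yb * (Ya ^ (ℓ ^ r) - Ya)))
      = incl A (1 + Yb * (Ya ^ (ℓ ^ r) - Ya))
    rw [hincl]
    simp only [map_add, map_one, map_mul, map_sub, map_pow, hYafix σ, hYbfix σ]
  · -- conservation of number
    obtain ⟨D, hD, -⟩ := hS.principal.exists_divisor _ hφ0
    have hrou : ∀ Q, Finsupp.mapDomain S.rP D Q
        = Q.ord (⟨red A (1 + Yb * (Ya ^ (ℓ ^ r) - Ya)), hφb⟩ : FFb A M) :=
      fun Q => S.rouche hL hφb hFb0 D hD Q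
    have hD'0 : ∀ P, 0 ≤ (D + Finsupp.single S.Pinf (((ℓ ^ r * a + b : ℕ) : ℤ))) P := by
      intro P
      rw [Finsupp.add_apply, hD P]
      by_cases hP : P = S.Pinf
      · subst hP
        rw [hPinf, Finsupp.single_eq_same]
        omega
      · rw [Finsupp.single_eq_of_ne hP, add_zero]
        exact hL.2.1 P (fun h => hP ((isInfty_iff_eq S.hPinf P).mp h))
    have hmap : ∀ Q, (Q ∈ T ∨ Q = S.Qinf) →
        Finsupp.mapDomain S.rP (D + Finsupp.single S.Pinf (((ℓ ^ r * a + b : ℕ) : ℤ))) Q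
          = 0 := by
      intro Q hQ
      rw [Finsupp.mapDomain_add, Finsupp.mapDomain_single, S.rP_Pinf, Finsupp.add_apply, hrou Q]
      by_cases hQi : Q = S.Qinf
      · subst hQi
        rw [hQinf, Finsupp.single_eq_same]
        omega
      · rw [Finsupp.single_eq_of_ne hQi, add_zero]
        rcases hQ with hQ | hQ
        · exact hT Q hQ hQi
        · exact absurd hQ hQi
    intro P hP hPT
    have h0 := fibre_eq_zero S.rP _ hD'0 (S.rP P) (hmap _ hPT) P rfl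
    rw [Finsupp.add_apply, hD P, Finsupp.single_eq_of_ne hP, add_zero] at h0
    exact h0

/-- **[I3-a] MOVE `φ_E`, divisor form.**  `div φ = E - d ∞` with `E ≥ 0` of degree `d`,
`ℓ ∤ d`, `E` stable under `Gal(ℚ̄/ℚ)`, `∞ ∉ supp E`, and no point of `E` reduces into `T` or to
`∞̄`; `φ = incl Y` is `A`-integral with reduction `red Y ≠ 0` in the special fibre field. -/
theorem exists_phiE_div (S : RedSetting M A) {ℓ : ℕ} (hℓ : ℓ.Prime) (hℓM : ¬ ℓ ∣ M)
    (hA : A.LiesOverPrime ℓ) (T : Finset (Place (kA A) (FFb A M))) :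
    ∃ (d : ℕ) (φ : FF M) (E : Divisor Kb (FF M)) (Y : LaurentSeries A),
      0 < d ∧ ¬ ℓ ∣ d ∧ φ ≠ 0 ∧ incl A Y = (φ : LaurentSeries Kb) ∧
      InL (FF M) d (φ : LaurentSeries Kb) ∧ red A Y ∈ FFb A M ∧ red A Y ≠ 0 ∧
      IsLocalRing.residue A (Y.coeff (-(d : ℤ))) ≠ 0 ∧
      (∀ σ : Kb ≃ₐ[ℚ] Kb, arithmeticRingAut (modularFunctionFieldFull M) σ φ = φ) ∧
      (∀ P, P.ord φ = E P - Finsupp.single S.Pinf (d : ℤ) P) ∧
      (∀ P, 0 ≤ E P) ∧ Divisor.degree E = d ∧ E S.Pinf = 0 ∧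
      (∀ σ : Kb ≃ₐ[ℚ] Kb, arithmeticGalois (modularFunctionFieldFull M) σ • E = E) ∧
      (∀ P, E P ≠ 0 → S.rP P ∉ T ∧ S.rP P ≠ S.Qinf) := by
  classical
  have hS := Fermat.Agent.P2.helper74.riemannSetting_FF M
  obtain ⟨d, Y, hφ, hφb, hd, hdℓ, hL, hfix, hlead, hPinf, hQinf, hT, hoff⟩ :=
    exists_phiE S hℓ hℓM hA T
  have hφ0 : (⟨incl A Y, hφ⟩ : FF M) ≠ 0 := by
    intro h0
    rw [h0, Place.ord_zero] at hPinf
    omega
  have hredne : red A Y ≠ 0 := by
    intro h0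
    have h1 : (⟨red A Y, hφb⟩ : FFb A M) = 0 := Subtype.ext h0
    rw [h1, Place.ord_zero] at hQinf
    omega
  have hPeq : S.Pinf = inftyBar M := IsInfty.unique (FF M) S.hPinf (isInfty_inftyBar M)
  obtain ⟨D, hD, hDdeg⟩ := hS.principal.exists_divisor _ hφ0
  have hE0 : ∀ P, 0 ≤ (D + Finsupp.single S.Pinf (d : ℤ)) P := by
    intro P
    rw [Finsupp.add_apply, hD P]
    by_cases hP : P = S.Pinf
    · subst hP
      rw [hPinf, Finsupp.single_eq_same]
      omega
    · rw [Finsupp.single_eq_of_ne hP, add_zero]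
      exact hL.2.1 P (fun h => hP ((isInfty_iff_eq S.hPinf P).mp h))
  refine ⟨d, ⟨incl A Y, hφ⟩, D + Finsupp.single S.Pinf (d : ℤ), Y, hd, hdℓ, hφ0, rfl, hL, hφb,
    hredne, hlead, hfix, fun P => ?_, hE0, ?_, ?_, fun σ => ?_, fun P hP => ?_⟩
  · rw [Finsupp.add_apply, hD P]
    ring
  · rw [map_add, hDdeg, degree_single_of hS, zero_add]
  · rw [Finsupp.add_apply, hD, hPinf, Finsupp.single_eq_same]
    omega
  · ext P
    rw [SemilinearAut.divisor_smul_apply, Finsupp.add_apply, Finsupp.add_apply, hD, hD]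
    have h1 : ((Fermat.Agent.T3.helper84.horAut M σ)⁻¹ • P).ord (⟨incl A Y, hφ⟩ : FF M)
        = P.ord (⟨incl A Y, hφ⟩ : FF M) := Fermat.Agent.T3.helper84.hor_ord_of_fix (hfix σ) P
    have h2 : (Finsupp.single S.Pinf (d : ℤ)) ((Fermat.Agent.T3.helper84.horAut M σ)⁻¹ • P)
        = (Finsupp.single S.Pinf (d : ℤ)) P := by
      rw [hPeq]
      by_cases hP : P = inftyBar M
      · rw [hP, Fermat.Agent.T3.helper84.hor_smul_infty]
      · have hP' : (Fermat.Agent.T3.helper84.horAut M σ)⁻¹ • P ≠ inftyBar M := fun h =>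
          hP ((Fermat.Agent.T3.helper84.hor_smul_eq_infty_iff σ P).mp h)
        rw [Finsupp.single_eq_of_ne hP, Finsupp.single_eq_of_ne hP']
    exact congrArg₂ (· + ·) h1 h2
  · have hPne : P ≠ S.Pinf := by
      rintro rfl
      apply hP
      rw [Finsupp.add_apply, hD, hPinf, Finsupp.single_eq_same]
      omega
    have hord : P.ord (⟨incl A Y, hφ⟩ : FF M) ≠ 0 := by
      rw [Finsupp.add_apply, hD, Finsupp.single_eq_of_ne hPne, add_zero] at hP
      exact hP
    refine ⟨fun h => hord (hoff P hPne (Or.inl h)), fun h => hord (hoff P hPne (Or.inr h))⟩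

end Main

end Fermat.Agent.T6.helper23

end
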