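/-
T6 (S19 / S32), block (CL) [QUOT] (helper25): **quotient of a Hopf order**.

Target structure: `Fermat.Agent.T6.helper33.IsHopfOrder` (a `ℤ_(ℓ)`-order `H` in `Map(Y, ℚ̄)`,
equivariant, separating, closed under comultiplication and antipode).

* `span_eq_top_of_sep`   : a subalgebra of functions on a finite set which separates the points
  spans all functions over `ℚ̄` (Lagrange interpolation);
* `sum_mem_Zl`           : the sum of the values of an element of `H` over a stable finite set is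
  in `ℤ_(ℓ)`;
* `trace_mem`            : `y ↦ ∑_{s ∈ ker p} φ (y + s)` lies in `H` for `φ ∈ H`;
* `IsHopfOrder.quotient` : for `p : Y →+ Z` surjective and equivariant, the functions `ψ` on `Z`
  with `ψ ∘ p ∈ H` form a Hopf order on `Z` (`H.comap (pre ℓ p)`).
-/
import Mathlib
import Fermat.Agent.T6.helper33_HopfOrder

set_option autoImplicit false
set_option linter.unusedSectionVars false
set_option linter.unusedVariables false
set_option linter.style.longLine false
set_option linter.style.haveILetI false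

noncomputable section

namespace Fermat.Agent.T6.helper25

open Fermat.Agent.S28.helper94 (Zl isPrincipalIdealRing_Zl isFractionRing_Zl
  isIntegrallyClosed_Zl)
open Fermat.Agent.T6.helper33 (Qb GQ pre pre_apply IsHopfOrder exists_rat_of_fixed
  linearIndependent_of_equivariant linearIndependent_mulProd coe_algebraMap_Zl
  algebraMap_Zl_injective)

/-! ### Interpolation -/

section Interp

variable {ℓ : ℕ} {X : Type} [Finite X]

/-- a subalgebra of functions on a finite set which separates the points spans all functions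
over `ℚ̄`. -/
theorem span_eq_top_of_sep (H : Subalgebra (Zl ℓ) (X → Qb))
    (hsep : ∀ x y : X, x ≠ y → ∃ φ ∈ H, φ x ≠ φ y) :
    Submodule.span Qb (H : Set (X → Qb)) = ⊤ := by
  classical
  letI := Fintype.ofFinite X
  have hadj : Algebra.adjoin Qb (H : Set (X → Qb)) = ⊤ := by
    rw [eq_top_iff]
    intro F _
    have hind : ∀ x : X, Pi.single x (1 : Qb) ∈ Algebra.adjoin Qb (H : Set (X → Qb)) := by
      intro x
      have hx' : ∀ x' : X, x' ≠ x →
          ∃ g ∈ Algebra.adjoin Qb (H : Set (X → Qb)), g x = 1 ∧ g x' = 0 := by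
        intro x' hne
        obtain ⟨φ, hφ, hφne⟩ := hsep x x' (Ne.symm hne)
        refine ⟨algebraMap Qb (X → Qb) ((φ x - φ x')⁻¹) * (φ - algebraMap Qb (X → Qb) (φ x')),
          ?_, ?_, ?_⟩
        · exact mul_mem (Subalgebra.algebraMap_mem _ _)
            (sub_mem (Algebra.subset_adjoin hφ) (Subalgebra.algebraMap_mem _ _))
        · show (φ x - φ x')⁻¹ * (φ x - φ x') = 1
          exact inv_mul_cancel₀ (sub_ne_zero.mpr hφne)
        · show (φ x - φ x')⁻¹ * (φ x' - φ x') = 0
          rw [sub_self, mul_zero]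
      choose! g hg hgx hgx' using hx'
      have hprod : Pi.single x (1 : Qb) = ∏ x' ∈ Finset.univ.erase x, g x' := by
        funext y
        rw [Finset.prod_apply]
        by_cases hy : y = x
        · subst hy
          rw [Pi.single_eq_same]
          symm
          exact Finset.prod_eq_one fun x' hx' => hgx x' (Finset.ne_of_mem_erase hx')
        · rw [Pi.single_eq_of_ne hy]
          symm
          exact Finset.prod_eq_zero (Finset.mem_erase.mpr ⟨hy, Finset.mem_univ y⟩) (hgx' y hy)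
      rw [hprod]
      exact Subalgebra.prod_mem _ fun x' hx' => hg x' (Finset.ne_of_mem_erase hx')
    have hF : F = ∑ x, algebraMap Qb (X → Qb) (F x) * Pi.single x 1 := by
      funext y
      rw [Finset.sum_apply]
      rw [Finset.sum_eq_single y]
      · show F y = F y * (Pi.single y (1 : Qb) : X → Qb) y
        rw [Pi.single_eq_same, mul_one]
      · intro x _ hxy
        show F x * (Pi.single x (1 : Qb) : X → Qb) y = 0
        rw [Pi.single_eq_of_ne (Ne.symm hxy), mul_zero]
      · intro h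
        exact absurd (Finset.mem_univ y) h
    rw [hF]
    exact Subalgebra.sum_mem _ fun x _ => mul_mem (Subalgebra.algebraMap_mem _ _) (hind x)
  have h2 : Submodule.span Qb (H : Set (X → Qb)) =
      Subalgebra.toSubmodule (Algebra.adjoin Qb (H : Set (X → Qb))) := by
    rw [Algebra.adjoin_eq_span]
    congr 1
    exact (congrArg (fun S : Submonoid (X → Qb) => (S : Set (X → Qb)))
      (Submonoid.closure_eq H.toSubmonoid)).symm
  rw [h2, hadj]
  rfl

end Interp

/-! ### Traces over the kernel -/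

section Trace

variable {ℓ : ℕ} [hℓ : Fact ℓ.Prime] {Y Z : Type} [AddCommGroup Y] [Finite Y]
  [AddCommGroup Z]

/-- the values of the elements of a Hopf order are integral. -/
theorem isIntegral_value {actY : GQ → Y → Y} {H : Subalgebra (Zl ℓ) (Y → Qb)}
    (h : IsHopfOrder ℓ actY H) {φ : Y → Qb} (hφ : φ ∈ H) (y : Y) :
    IsIntegral (Zl ℓ) (φ y) := by
  haveI := h.finite
  have hint : IsIntegral (Zl ℓ) (⟨φ, hφ⟩ : H) := Algebra.IsIntegral.isIntegral _
  exact hint.map ((Pi.evalAlgHom (Zl ℓ) (fun _ : Y => Qb) y).comp H.val)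

omit [Finite Y] [AddCommGroup Y] in
/-- a Galois-fixed integral element of `ℚ̄` lies in `ℤ_(ℓ)`. -/
theorem mem_Zl_of_fixed_integral (x : Qb) (hfix : ∀ σ : GQ, σ x = x)
    (hint : IsIntegral (Zl ℓ) x) : ∃ r : Zl ℓ, algebraMap (Zl ℓ) Qb r = x := by
  obtain ⟨q, hq⟩ := exists_rat_of_fixed x hfix
  rw [← hq] at hint
  have h2 : IsIntegral (Zl ℓ) q :=
    (isIntegral_algebraMap_iff (algebraMap ℚ Qb).injective).mp hint
  haveI := isFractionRing_Zl ℓ
  haveI := isIntegrallyClosed_Zl ℓ
  obtain ⟨r, hr⟩ := IsIntegrallyClosed.isIntegral_iff.mp h2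
  refine ⟨r, ?_⟩
  rw [← hq, ← hr]
  rfl

/-- the sum of the values of an element of a Hopf order over a stable finite set lies in
`ℤ_(ℓ)`. -/
theorem sum_mem_Zl {actY : GQ → Y → Y} {H : Subalgebra (Zl ℓ) (Y → Qb)}
    (h : IsHopfOrder ℓ actY H) (S : Finset Y) (hS : ∀ σ, ∀ s ∈ S, actY σ s ∈ S)
    {b : Y → Qb} (hb : b ∈ H) : ∃ r : Zl ℓ, algebraMap (Zl ℓ) Qb r = ∑ s ∈ S, b s := by
  classical
  apply mem_Zl_of_fixed_integral
  · intro σ
    rw [map_sum]
    have hinj : Function.Injective (actY σ) :=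
      Finite.injective_iff_surjective.mpr (h.act_surj σ)
    have himg : S.image (actY σ) = S := by
      apply Finset.eq_of_subset_of_card_le
      · intro y hy
        obtain ⟨s, hs, rfl⟩ := Finset.mem_image.mp hy
        exact hS σ s hs
      · rw [Finset.card_image_of_injective _ hinj]
    calc ∑ s ∈ S, σ (b s) = ∑ s ∈ S, b (actY σ s) :=
          Finset.sum_congr rfl fun s _ => (h.equivariant b hb σ s).symm
      _ = ∑ s ∈ S.image (actY σ), b s := by
          rw [Finset.sum_image (fun x _ y _ hxy => hinj hxy)]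
      _ = ∑ s ∈ S, b s := by rw [himg]
  · exact IsIntegral.sum _ fun s _ => isIntegral_value h hb s

/-- the kernel of `p` as a finset -/
def kerF (p : Y →+ Z) : Finset Y := (Set.toFinite {y : Y | p y = 0}).toFinset

omit hℓ in
@[simp]
theorem mem_kerF (p : Y →+ Z) (y : Y) : y ∈ kerF p ↔ p y = 0 := by
  simp [kerF]

/-- the trace over the kernel of `p` -/
def tr (p : Y →+ Z) (φ : Y → Qb) : Y → Qb := fun y => ∑ s ∈ kerF p, φ (y + s)

omit hℓ in
theorem tr_apply (p : Y →+ Z) (φ : Y → Qb) (y : Y) : tr p φ y = ∑ s ∈ kerF p, φ (y + s) := rfl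

omit hℓ in
/-- the trace is constant on the fibres of `p`. -/
theorem tr_eq_of_eq (p : Y →+ Z) (φ : Y → Qb) {y y' : Y} (hyy : p y = p y') :
    tr p φ y = tr p φ y' := by
  rw [tr_apply, tr_apply]
  refine Finset.sum_nbij' (fun s => (y - y') + s) (fun s => (y' - y) + s) ?_ ?_ ?_ ?_ ?_
  · intro s hs
    rw [mem_kerF] at hs ⊢
    rw [map_add, map_sub, hyy, sub_self, zero_add, hs]
  · intro s hs
    rw [mem_kerF] at hs ⊢
    rw [map_add, map_sub, hyy, sub_self, zero_add, hs]
  · intro s _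
    abel
  · intro s _
    abel
  · intro s _
    congr 1
    abel

/-- the trace of an element of a Hopf order lies in the Hopf order. -/
theorem tr_mem {actY : GQ → Y → Y} {H : Subalgebra (Zl ℓ) (Y → Qb)}
    (h : IsHopfOrder ℓ actY H) (p : Y →+ Z)
    (hker : ∀ σ y, p y = 0 → p (actY σ y) = 0) {φ : Y → Qb} (hφ : φ ∈ H) : tr p φ ∈ H := by
  obtain ⟨n, a, b, ha, hb, hab⟩ := h.comul φ hφ
  have hS : ∀ σ, ∀ s ∈ kerF p, actY σ s ∈ kerF p := by
    intro σ s hs
    rw [mem_kerF] at hs ⊢
    exact hker σ s hs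
  choose r hr using fun i => sum_mem_Zl h (kerF p) hS (hb i)
  have htr : tr p φ = ∑ i, r i • a i := by
    funext y
    rw [tr_apply, Finset.sum_apply]
    simp_rw [hab]
    rw [Finset.sum_comm]
    refine Finset.sum_congr rfl fun i _ => ?_
    rw [← Finset.mul_sum, ← hr i]
    show _ = (r i • a i) y
    rw [Pi.smul_apply, Algebra.smul_def, mul_comm]
  rw [htr]
  exact Subalgebra.sum_mem _ fun i _ => Subalgebra.smul_mem _ (ha i) _

omit hℓ [Finite Y] in
/-- descent of a function which is constant on the fibres of `p` -/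
theorem exists_desc (p : Y →+ Z) (hp : Function.Surjective p) (f : Y → Qb)
    (hf : ∀ y y', p y = p y' → f y = f y') : ∃ ψ : Z → Qb, ∀ y, ψ (p y) = f y :=
  ⟨fun z => f (Function.surjInv hp z), fun y => hf _ _ (Function.surjInv_eq hp (p y))⟩

end Trace

/-! ### The quotient order -/

section Quot

variable {ℓ : ℕ} [hℓ : Fact ℓ.Prime] {Y Z : Type} [AddCommGroup Y] [Finite Y]
  [AddCommGroup Z] [Finite Z]

omit hℓ [Finite Y] [Finite Z] in
theorem mem_comap_pre_iff (H : Subalgebra (Zl ℓ) (Y → Qb)) (p : Y → Z) (ψ : Z → Qb) :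
    ψ ∈ H.comap (pre ℓ p) ↔ (fun y => ψ (p y)) ∈ H := Iff.rfl

/-- **separation**: the invariant elements of a Hopf order separate the points of the
quotient. -/
theorem quot_sep {actY : GQ → Y → Y} {H : Subalgebra (Zl ℓ) (Y → Qb)}
    (h : IsHopfOrder ℓ actY H) (p : Y →+ Z) (hp : Function.Surjective p)
    (hker : ∀ σ y, p y = 0 → p (actY σ y) = 0) (z z' : Z) (hzz : z ≠ z') :
    ∃ ψ ∈ H.comap (pre ℓ (p : Y → Z)), ψ z ≠ ψ z' := by
  classical
  by_contra hcon
  push Not at hcon
  obtain ⟨y, rfl⟩ := hp z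
  obtain ⟨y', rfl⟩ := hp z'
  let L : (Y → Qb) →ₗ[Qb] Qb :=
    { toFun := fun F => tr p F y - tr p F y'
      map_add' := fun F G => by
        simp only [tr_apply, Pi.add_apply, Finset.sum_add_distrib]
        ring
      map_smul' := fun c F => by
        simp only [tr_apply, Pi.smul_apply, smul_eq_mul, ← Finset.mul_sum, RingHom.id_apply]
        ring }
  have hL : ∀ φ ∈ H, L φ = 0 := by
    intro φ hφ
    obtain ⟨ψ, hψ⟩ := exists_desc p hp (tr p φ) (fun _ _ => tr_eq_of_eq p φ)
    have hψH : ψ ∈ H.comap (pre ℓ (p : Y → Z)) := by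
      rw [mem_comap_pre_iff]
      have h1 : (fun y => ψ (p y)) = tr p φ := funext hψ
      rw [h1]
      exact tr_mem h p hker hφ
    have h2 := hcon ψ hψH
    show tr p φ y - tr p φ y' = 0
    rw [← hψ y, ← hψ y', h2, sub_self]
  have hle : Submodule.span Qb (H : Set (Y → Qb)) ≤ LinearMap.ker L :=
    Submodule.span_le.mpr fun φ hφ => hL φ hφ
  rw [span_eq_top_of_sep H h.sep] at hle
  have h1 : L (Pi.single y 1) = 0 := hle Submodule.mem_top
  have h2 : tr p (Pi.single y (1 : Qb)) y = 1 := by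
    rw [tr_apply, Finset.sum_eq_single 0]
    · rw [add_zero, Pi.single_eq_same]
    · intro s _ hs
      rw [Pi.single_eq_of_ne]
      intro h0
      exact hs (by simpa using h0)
    · intro h0
      exact absurd ((mem_kerF p 0).mpr (map_zero p)) h0
  have h3 : tr p (Pi.single y (1 : Qb)) y' = 0 := by
    rw [tr_apply]
    refine Finset.sum_eq_zero fun s hs => ?_
    rw [Pi.single_eq_of_ne]
    intro h0
    apply hzz
    have hs0 : p s = 0 := (mem_kerF p s).mp hs
    rw [← h0, map_add, hs0, add_zero]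
  have h4 : L (Pi.single y 1) = 1 := by
    show tr p (Pi.single y (1 : Qb)) y - tr p (Pi.single y (1 : Qb)) y' = 1
    rw [h2, h3, sub_zero]
  rw [h4] at h1
  exact one_ne_zero h1

/-- the invariant elements of `H`, as a submodule of `H` -/
def invSub (H : Subalgebra (Zl ℓ) (Y → Qb)) (p : Y → Z) : Submodule (Zl ℓ) H :=
  Submodule.comap H.val.toLinearMap (LinearMap.range (pre ℓ p).toLinearMap)

omit hℓ [Finite Y] [Finite Z] in
theorem mem_invSub_iff (H : Subalgebra (Zl ℓ) (Y → Qb)) (p : Y → Z) (φ : H) :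
    φ ∈ invSub H p ↔ ∃ ψ : Z → Qb, ∀ y, ψ (p y) = (φ : Y → Qb) y := by
  constructor
  · rintro ⟨ψ, hψ⟩
    exact ⟨ψ, fun y => congrFun hψ y⟩
  · rintro ⟨ψ, hψ⟩
    exact ⟨ψ, funext hψ⟩

/-- evaluation at a point, as a linear form on `H` -/
def evH (H : Subalgebra (Zl ℓ) (Y → Qb)) (y : Y) : H →ₗ[Zl ℓ] Qb :=
  (LinearMap.proj y : (Y → Qb) →ₗ[Zl ℓ] Qb).comp H.val.toLinearMap

omit hℓ [Finite Y] [AddCommGroup Y] in
@[simp]
theorem evH_apply (H : Subalgebra (Zl ℓ) (Y → Qb)) (y : Y) (φ : H) :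
    evH H y φ = (φ : Y → Qb) y := rfl

omit hℓ [Finite Y] [AddCommGroup Y] in
/-- expansion of the values of an element of `H` in a basis -/
theorem value_eq_sum {ι : Type*} [Fintype ι] (H : Subalgebra (Zl ℓ) (Y → Qb))
    (b : Module.Basis ι (Zl ℓ) H) (φ : H) (y : Y) :
    (φ : Y → Qb) y = ∑ j, algebraMap (Zl ℓ) Qb (b.repr φ j) * ((b j : H) : Y → Qb) y := by
  have h1 := congrArg (evH H y) (b.sum_repr φ)
  rw [map_sum] at h1
  rw [← evH_apply H y φ, ← h1]
  refine Finset.sum_congr rfl fun j _ => ?_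
  rw [map_smul, evH_apply, Algebra.smul_def]

/-- a `ℤ_(ℓ)`-basis of a Hopf order is linearly independent over `ℚ̄`. -/
theorem basis_indep' {ι : Type*} {actY : GQ → Y → Y} {H : Subalgebra (Zl ℓ) (Y → Qb)}
    (h : IsHopfOrder ℓ actY H) (b : Module.Basis ι (Zl ℓ) H) :
    LinearIndependent Qb (fun j => ((b j : H) : Y → Qb)) := by
  have h1 : LinearIndependent (Zl ℓ) (fun j => ((b j : H) : Y → Qb)) :=
    b.linearIndependent.map' H.val.toLinearMap
      (LinearMap.ker_eq_bot.mpr Subtype.val_injective)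
  haveI := isFractionRing_Zl ℓ
  have h2 : LinearIndependent ℚ (fun j => ((b j : H) : Y → Qb)) :=
    (LinearIndependent.iff_fractionRing (Zl ℓ) ℚ).mp h1
  exact linearIndependent_of_equivariant actY h.act_surj _
    (fun j σ x => h.equivariant _ (b j).2 σ x) h2

/-- **comultiplication**: the invariant elements of a Hopf order are closed under the
comultiplication. -/
theorem quot_comul {actY : GQ → Y → Y} {H : Subalgebra (Zl ℓ) (Y → Qb)}
    (h : IsHopfOrder ℓ actY H) (p : Y →+ Z) (hp : Function.Surjective p)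
    (hsepZ : ∀ z z' : Z, z ≠ z' → ∃ ψ ∈ H.comap (pre ℓ (p : Y → Z)), ψ z ≠ ψ z')
    (ψ : Z → Qb) (hψ : ψ ∈ H.comap (pre ℓ (p : Y → Z))) :
    ∃ (n : ℕ) (a b : Fin n → Z → Qb), (∀ i, a i ∈ H.comap (pre ℓ (p : Y → Z))) ∧
      (∀ i, b i ∈ H.comap (pre ℓ (p : Y → Z))) ∧ ∀ x y, ψ (x + y) = ∑ i, a i x * b i y := by
  classical
  haveI := h.finite
  haveI := h.free
  haveI := isPrincipalIdealRing_Zl ℓ
  obtain ⟨n, snf⟩ := (invSub H (p : Y → Z)).smithNormalForm h.basis
  have hinjA : Function.Injective (algebraMap (Zl ℓ) Qb) := algebraMap_Zl_injective ℓ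
  -- the diagonal entries are nonzero
  have ha0 : ∀ i, algebraMap (Zl ℓ) Qb (snf.a i) ≠ 0 := by
    intro i hi
    have hi' : snf.a i = 0 := hinjA (by rw [hi, map_zero])
    have h1 := snf.snf i
    rw [hi', zero_smul] at h1
    exact snf.bN.ne_zero i (Subtype.ext h1)
  -- values of `bN i`
  have hbN : ∀ i y, (((snf.bN i : invSub H (p : Y → Z)) : H) : Y → Qb) y =
      algebraMap (Zl ℓ) Qb (snf.a i) * ((snf.bM (snf.f i) : H) : Y → Qb) y := by
    intro i y
    have h1 := congrArg (evH H y) (snf.snf i)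
    rw [map_smul, evH_apply, evH_apply, Algebra.smul_def] at h1
    exact h1
  -- the functions `ε i` on `Z`
  have hε : ∀ i, ∃ ε : Z → Qb, ∀ y, ε (p y) = ((snf.bM (snf.f i) : H) : Y → Qb) y := by
    intro i
    obtain ⟨ψ', hψ'⟩ := (mem_invSub_iff H (p : Y → Z) _).mp (snf.bN i).2
    refine ⟨fun z => (algebraMap (Zl ℓ) Qb (snf.a i))⁻¹ * ψ' z, fun y => ?_⟩
    show (algebraMap (Zl ℓ) Qb (snf.a i))⁻¹ * ψ' (p y) = _
    rw [hψ' y, hbN i y, ← mul_assoc, inv_mul_cancel₀ (ha0 i), one_mul]
  choose ε hεp using hε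
  have hεH : ∀ i, ε i ∈ H.comap (pre ℓ (p : Y → Z)) := by
    intro i
    rw [mem_comap_pre_iff]
    have h1 : (fun y => ε i (p y)) = ((snf.bM (snf.f i) : H) : Y → Qb) := funext (hεp i)
    rw [h1]
    exact (snf.bM (snf.f i)).2
  -- the `ε i` span all functions on `Z`
  have hspan : Submodule.span Qb (Set.range ε) = ⊤ := by
    rw [eq_top_iff, ← span_eq_top_of_sep (H.comap (pre ℓ (p : Y → Z))) hsepZ]
    refine Submodule.span_le.mpr fun χ hχ => ?_
    have hχ' : (fun y => χ (p y)) ∈ H := hχ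
    have hN : (⟨fun y => χ (p y), hχ'⟩ : H) ∈ invSub H (p : Y → Z) :=
      (mem_invSub_iff H (p : Y → Z) _).mpr ⟨χ, fun _ => rfl⟩
    set m : invSub H (p : Y → Z) := ⟨_, hN⟩ with hm
    have hχeq : χ = ∑ i, (algebraMap (Zl ℓ) Qb (snf.bN.repr m i * snf.a i)) • ε i := by
      funext z
      obtain ⟨y, rfl⟩ := hp z
      have h1 : evH H y ((∑ i, snf.bN.repr m i • snf.bN i : invSub H (p : Y → Z)) : H) =
          evH H y ((m : invSub H (p : Y → Z)) : H) :=
        congrArg (fun φ : invSub H (p : Y → Z) => evH H y (φ : H)) (snf.bN.sum_repr m)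
      rw [Finset.sum_apply]
      have h2 : evH H y ((∑ i, snf.bN.repr m i • snf.bN i : invSub H (p : Y → Z)) : H) =
          ∑ i, algebraMap (Zl ℓ) Qb (snf.bN.repr m i) *
            (((snf.bN i : invSub H (p : Y → Z)) : H) : Y → Qb) y := by
        rw [Submodule.coe_sum, map_sum]
        refine Finset.sum_congr rfl fun i _ => ?_
        rw [Submodule.coe_smul, map_smul, evH_apply, Algebra.smul_def]
      rw [h2] at h1
      have h3 : evH H y ((m : invSub H (p : Y → Z)) : H) = χ (p y) := rfl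
      rw [h3] at h1
      rw [← h1]
      refine Finset.sum_congr rfl fun i _ => ?_
      rw [Pi.smul_apply, smul_eq_mul, hbN i y, hεp i y, map_mul, mul_assoc]
    rw [hχeq]
    exact Submodule.sum_mem _ fun i _ =>
      Submodule.smul_mem _ _ (Submodule.subset_span ⟨i, rfl⟩)
  -- expansion of `(z, z') ↦ ψ (z + z')` over `ℚ̄`
  have hexp1 : ∀ z' : Z, ∃ c : Fin n → Qb, ∑ i, c i • ε i = fun z => ψ (z + z') := by
    intro z'
    have h1 : (fun z => ψ (z + z')) ∈ Submodule.span Qb (Set.range ε) := by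
      rw [hspan]; exact Submodule.mem_top
    exact (Submodule.mem_span_range_iff_exists_fun Qb).mp h1
  choose c hc using hexp1
  have hexp2 : ∀ i : Fin n, ∃ d : Fin n → Qb, ∑ i', d i' • ε i' = fun z' => c z' i := by
    intro i
    have h1 : (fun z' => c z' i) ∈ Submodule.span Qb (Set.range ε) := by
      rw [hspan]; exact Submodule.mem_top
    exact (Submodule.mem_span_range_iff_exists_fun Qb).mp h1
  choose q hq using hexp2
  have hψq : ∀ z z', ψ (z + z') = ∑ i, ∑ i', q i i' * (ε i z * ε i' z') := by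
    intro z z'
    have h1 := congrFun (hc z') z
    rw [Finset.sum_apply] at h1
    rw [← h1]
    refine Finset.sum_congr rfl fun i _ => ?_
    have h2 := congrFun (hq i) z'
    rw [Finset.sum_apply] at h2
    rw [Pi.smul_apply, smul_eq_mul, ← h2, Finset.sum_mul]
    refine Finset.sum_congr rfl fun i' _ => ?_
    rw [Pi.smul_apply, smul_eq_mul]
    ring
  -- expansion over `ℤ_(ℓ)` in the basis `bM`
  obtain ⟨n₀, A, B, hA, hB, hAB⟩ := h.comul (fun y => ψ (p y)) hψ
  set mm : Fin (Module.finrank (Zl ℓ) H) → Fin (Module.finrank (Zl ℓ) H) → Zl ℓ :=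
    fun j k => ∑ t, snf.bM.repr ⟨A t, hA t⟩ j * snf.bM.repr ⟨B t, hB t⟩ k with hmm
  have hψm : ∀ y y', ψ (p y + p y') = ∑ j, ∑ k, algebraMap (Zl ℓ) Qb (mm j k) *
      (((snf.bM j : H) : Y → Qb) y * ((snf.bM k : H) : Y → Qb) y') := by
    intro y y'
    have h1 : ψ (p (y + y')) = ∑ t, A t y * B t y' := hAB y y'
    rw [← map_add, h1]
    have h2 : ∀ t, A t y * B t y' = ∑ j, ∑ k,
        algebraMap (Zl ℓ) Qb (snf.bM.repr ⟨A t, hA t⟩ j * snf.bM.repr ⟨B t, hB t⟩ k) *
          (((snf.bM j : H) : Y → Qb) y * ((snf.bM k : H) : Y → Qb) y') := by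
      intro t
      have hA' : A t y = _ := value_eq_sum H snf.bM ⟨A t, hA t⟩ y
      have hB' : B t y' = _ := value_eq_sum H snf.bM ⟨B t, hB t⟩ y'
      rw [hA', hB', Finset.sum_mul_sum]
      refine Finset.sum_congr rfl fun j _ => Finset.sum_congr rfl fun k _ => ?_
      rw [map_mul]
      ring
    simp_rw [h2]
    rw [Finset.sum_comm]
    refine Finset.sum_congr rfl fun j _ => ?_
    rw [Finset.sum_comm]
    refine Finset.sum_congr rfl fun k _ => ?_
    rw [hmm]
    simp only [map_sum, Finset.sum_mul]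
  -- comparison of the coefficients
  have hindep := basis_indep' h snf.bM
  have hindep2 := linearIndependent_mulProd _ _ hindep hindep
  set v : Fin (Module.finrank (Zl ℓ) H) × Fin (Module.finrank (Zl ℓ) H) → (Y × Y → Qb) :=
    fun jk => fun yy => ((snf.bM jk.1 : H) : Y → Qb) yy.1 * ((snf.bM jk.2 : H) : Y → Qb) yy.2
    with hv
  set l₁ : (Fin (Module.finrank (Zl ℓ) H) × Fin (Module.finrank (Zl ℓ) H)) →₀ Qb :=
    (Finsupp.linearEquivFunOnFinite Qb Qb _).symm
      (fun jk => algebraMap (Zl ℓ) Qb (mm jk.1 jk.2)) with hl₁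
  set l₂ : (Fin n × Fin n) →₀ Qb :=
    (Finsupp.linearEquivFunOnFinite Qb Qb _).symm (fun ii => q ii.1 ii.2) with hl₂
  have e1 : Finsupp.linearCombination Qb v l₁ = fun yy : Y × Y => ψ (p yy.1 + p yy.2) := by
    rw [hl₁, Finsupp.linearCombination_eq_fintype_linearCombination_apply,
      Fintype.linearCombination_apply]
    funext yy
    rw [Finset.sum_apply, hψm, Fintype.sum_prod_type]
    rfl
  have e2 : Finsupp.linearCombination Qb v (l₂.mapDomain (Prod.map snf.f snf.f)) =
      fun yy : Y × Y => ψ (p yy.1 + p yy.2) := by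
    rw [Finsupp.linearCombination_mapDomain, hl₂,
      Finsupp.linearCombination_eq_fintype_linearCombination_apply,
      Fintype.linearCombination_apply]
    funext yy
    rw [Finset.sum_apply, hψq, Fintype.sum_prod_type]
    refine Finset.sum_congr rfl fun i _ => Finset.sum_congr rfl fun i' _ => ?_
    show q i i' * (((snf.bM (snf.f i) : H) : Y → Qb) yy.1 *
      ((snf.bM (snf.f i') : H) : Y → Qb) yy.2) = _
    rw [hεp i, hεp i']
  have hl : l₁ = l₂.mapDomain (Prod.map snf.f snf.f) := hindep2 (e1.trans e2.symm)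
  have hfinj : Function.Injective (Prod.map snf.f snf.f) :=
    Function.Injective.prodMap snf.f.injective snf.f.injective
  have key : ∀ i i', q i i' = algebraMap (Zl ℓ) Qb (mm (snf.f i) (snf.f i')) := by
    intro i i'
    have h1 := DFunLike.congr_fun hl (Prod.map snf.f snf.f (i, i'))
    rw [Finsupp.mapDomain_apply hfinj, hl₁, hl₂, Finsupp.linearEquivFunOnFinite_symm_apply,
      Finsupp.linearEquivFunOnFinite_symm_apply] at h1
    exact h1.symm
  -- conclusion
  refine ⟨n, ε, fun i => ∑ i', mm (snf.f i) (snf.f i') • ε i', hεH,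
    fun i => Subalgebra.sum_mem _ fun i' _ => Subalgebra.smul_mem _ (hεH i') _, fun z z' => ?_⟩
  rw [hψq]
  refine Finset.sum_congr rfl fun i _ => ?_
  show _ = ε i z * (∑ i', mm (snf.f i) (snf.f i') • ε i') z'
  rw [Finset.sum_apply, Finset.mul_sum]
  refine Finset.sum_congr rfl fun i' _ => ?_
  rw [key, Pi.smul_apply, Algebra.smul_def]
  ring

/-- **Quotient of a Hopf order**: for a surjective equivariant additive map `p : Y → Z`, the
functions `ψ` on `Z` with `ψ ∘ p ∈ H` form a Hopf order on `Z`. -/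
theorem isHopfOrder_quotient {actY : GQ → Y → Y} {H : Subalgebra (Zl ℓ) (Y → Qb)}
    (h : IsHopfOrder ℓ actY H) (actZ : GQ → Z → Z) (p : Y →+ Z) (hp : Function.Surjective p)
    (hpact : ∀ σ y, p (actY σ y) = actZ σ (p y)) :
    IsHopfOrder ℓ actZ (H.comap (pre ℓ (p : Y → Z))) := by
  have hZ0 : ∀ σ, actZ σ 0 = 0 := fun σ => by
    have h1 := hpact σ 0
    rw [h.act_zero, map_zero] at h1
    exact h1.symm
  have hker : ∀ σ y, p y = 0 → p (actY σ y) = 0 := fun σ y hy => by
    rw [hpact, hy, hZ0]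
  have hsepZ : ∀ z z' : Z, z ≠ z' → ∃ ψ ∈ H.comap (pre ℓ (p : Y → Z)), ψ z ≠ ψ z' :=
    fun z z' hzz => quot_sep h p hp hker z z' hzz
  refine
    { act_surj := fun σ z => ?_
      act_zero := hZ0
      fg := ?_
      equivariant := ?_
      sep := hsepZ
      comul := fun ψ hψ => quot_comul h p hp hsepZ ψ hψ
      neg := ?_ }
  · obtain ⟨y, rfl⟩ := hp z
    obtain ⟨y', rfl⟩ := h.act_surj σ y
    exact ⟨p y', (hpact σ y').symm⟩
  · haveI := h.finite
    haveI := isPrincipalIdealRing_Zl ℓ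
    haveI hN : IsNoetherian (Zl ℓ) H := isNoetherian_of_isNoetherianRing_of_finite (Zl ℓ) H
    have hinj : Function.Injective (pre ℓ (p : Y → Z)).toLinearMap := by
      intro ψ ψ' hψ
      funext z
      obtain ⟨y, rfl⟩ := hp z
      exact congrFun hψ y
    apply Submodule.fg_of_fg_map_injective _ hinj
    have hle : Submodule.map (pre ℓ (p : Y → Z)).toLinearMap
        (Subalgebra.toSubmodule (H.comap (pre ℓ (p : Y → Z)))) ≤ Subalgebra.toSubmodule H := by
      rintro _ ⟨ψ, hψ, rfl⟩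
      exact hψ
    have hN' : IsNoetherian (Zl ℓ) (Subalgebra.toSubmodule H) := hN
    exact (isNoetherian_submodule.mp hN') _ hle
  · intro ψ hψ σ z
    obtain ⟨y, rfl⟩ := hp z
    have h1 := h.equivariant _ ((mem_comap_pre_iff H (p : Y → Z) ψ).mp hψ) σ y
    rw [← hpact]
    exact h1
  · intro ψ hψ
    rw [mem_comap_pre_iff]
    have h1 := h.neg _ ((mem_comap_pre_iff H (p : Y → Z) ψ).mp hψ)
    have h2 : (fun y => (fun z => ψ (-z)) (p y)) = fun x => (fun y => ψ (p y)) (-x) := by
      funext y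
      show ψ (-(p y)) = ψ (p (-y))
      rw [map_neg]
    rw [h2]
    exact h1

/-- **The body of the frozen statement S19 / of `GaloisRepAdic.IsFlatAt` for a quotient `Z`** of
a group `Y` carrying a Hopf order. -/
theorem exists_hopf_of_surjective {actY : GQ → Y → Y} {H : Subalgebra (Zl ℓ) (Y → Qb)}
    (h : IsHopfOrder ℓ actY H) (actZ : GQ → Z → Z) (p : Y →+ Z) (hp : Function.Surjective p)
    (hpact : ∀ σ y, p (actY σ y) = actZ σ (p y)) :
    ∃ (H' : Type) (_ : CommRing H') (_ : HopfAlgebra (GaloisRep.ratLocalizedAt ℓ) H'),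
      Module.Finite (GaloisRep.ratLocalizedAt ℓ) H' ∧
      Module.Flat (GaloisRep.ratLocalizedAt ℓ) H' ∧
      Coalgebra.IsCocomm (GaloisRep.ratLocalizedAt ℓ) H' ∧
      ∃ e : WithConv (H' →ₐ[GaloisRep.ratLocalizedAt ℓ] AlgebraicClosure ℚ) ≃ Z,
        (∀ f g, e (f * g) = e f + e g) ∧
        ∀ (σ : AlgebraicClosure ℚ ≃ₐ[ℚ] AlgebraicClosure ℚ)
          (f g : WithConv (H' →ₐ[GaloisRep.ratLocalizedAt ℓ] AlgebraicClosure ℚ)),
          (∀ a : H', g a = σ (f a)) → e g = actZ σ (e f) :=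
  (isHopfOrder_quotient h actZ p hp hpact).exists_hopf

end Quot

end Fermat.Agent.T6.helper25

end
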