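import Fermat.Agent.T6.helper34_S32Iface

/-!
# T6 / S32, box **[QV]** (helper25): the quadratic datum on `V / I V`

Contract: `helper34.QVStatement X I` (file `T6/helper34_S32Iface.lean`).

* `cmpSet_t_c` : in a comparison setting the universal trace of the complex conjugation is `0`
  in `𝔸` (from the quadratic relation on `Λ`, `c * c = 1`, `d c = -1` and the faithfulness of
  `Λ`);
* `quad_rank_two` : Cayley-Hamilton in rank two;
* `qvData X I` : the quadratic datum on `V / I V` (an `𝔸`-module through `Θ`), with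
  `R s = ρ.levelAction I s`, `t = X.t`, `d = algebraMap ∘ X.d`, `c = X.c`;
* `qvStatement X I : helper34.QVStatement X I`.
* `qlData X k`, `qlStatement X k : helper34.QLStatement X k` : the same on `Λ / p ^ k Λ`
  (spare for the box **[QL]**).
-/

set_option autoImplicit false
set_option linter.unusedSectionVars false
set_option linter.style.longLine false

noncomputable section

namespace Fermat.Agent.T6.helper25

open Fermat.Agent.P3 Fermat.Agent.P3.helper22 Fermat.Agent.T6.helper34

section RankTwo

variable {T : Type*} [CommRing T] [Nontrivial T] {V : Type*} [AddCommGroup V] [Module T V]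
  [Module.Free T V] [Module.Finite T V]

/-- Cayley-Hamilton in rank two. -/
theorem quad_rank_two (hrank : Module.finrank T V = 2) (f : Module.End T V) :
    f * f - LinearMap.trace T V f • f + LinearMap.det f • (1 : Module.End T V) = 0 := by
  classical
  let b : Module.Basis (Fin 2) T V := Module.finBasisOfFinrankEq T V hrank
  have h := LinearMap.aeval_self_charpoly f
  have hc : f.charpoly = Polynomial.X ^ 2 - Polynomial.C (LinearMap.trace T V f) * Polynomial.X
      + Polynomial.C (LinearMap.det f) := by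
    rw [← LinearMap.charpoly_toMatrix f b, Matrix.charpoly_fin_two,
      ← LinearMap.trace_eq_matrix_trace T b f, LinearMap.det_toMatrix b f]
  rw [hc] at h
  simp only [map_add, map_sub, map_mul, map_pow, Polynomial.aeval_X, Polynomial.aeval_C] at h
  rw [← h, pow_two, Algebra.smul_def, Algebra.smul_def, mul_one]

end RankTwo

section QV

variable {p : ℕ} [Fact p.Prime] {N : ℕ} [NeZero N] {S : Finset ℕ} {M : ℕ} [NeZero M]
  {hNM : N ∣ M} {D : helper67.TateGeom p N S M hNM}
  {T : Type} [CommRing T] [IsLocalRing T] {ρ : GaloisRepAdic T}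

theorem cmpSet_r_c_r_c (X : CmpSet D ρ) (v : D.Λ) : D.r X.c (D.r X.c v) = v := by
  have h : D.r (X.c * X.c) v = D.r X.c (D.r X.c v) := by
    rw [map_mul]; rfl
  rw [← h, X.c_sq, map_one]; rfl

/-- the universal trace of the complex conjugation vanishes. -/
theorem cmpSet_t_c (X : CmpSet D ρ) : X.t X.c = 0 := by
  apply D.smul_faithful
  intro v
  have h := X.quad X.c (D.r X.c v)
  rw [cmpSet_r_c_r_c, cmpSet_r_c_r_c, X.d_c, neg_one_smul] at h
  have h2 : X.t X.c • v = -(D.r X.c v - X.t X.c • v + -(D.r X.c v)) := by abel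
  rw [h2, h, neg_zero]

/-- the determinant of the comparison setting, with values in `𝔸`. -/
def cmpSet_d (X : CmpSet D ρ) (s : GQ) : D.𝔸 := algebraMap ℤ_[p] D.𝔸 (X.d s : ℤ_[p])

theorem cmpSet_d_mul (X : CmpSet D ρ) (s s' : GQ) :
    cmpSet_d X (s * s') = cmpSet_d X s * cmpSet_d X s' := by
  rw [cmpSet_d, cmpSet_d, cmpSet_d, map_mul, Units.val_mul, map_mul]

theorem cmpSet_d_c (X : CmpSet D ρ) : cmpSet_d X X.c = -1 := by
  rw [cmpSet_d, X.d_c, map_neg, map_one]

/-- the Galois action on `V / I V`, as `𝔸`-linear maps. -/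
def rVb (X : CmpSet D ρ) (I : Ideal T) : GQ →* Module.End D.𝔸 (VbA X I) where
  toFun s :=
    { toFun := fun v => ρ.levelAction I s v
      map_add' := fun v w => map_add (ρ.levelAction I s) v w
      map_smul' := fun a v => (ρ.levelAction I s).map_smul (X.Θ a) v }
  map_one' := by
    apply LinearMap.ext
    intro v
    obtain ⟨v, rfl⟩ := Submodule.Quotient.mk_surjective _ v
    show ρ.levelAction I 1 (Submodule.Quotient.mk v) = Submodule.Quotient.mk v
    rw [GaloisRepAdic.levelAction, Submodule.mapQ_apply, map_one]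
    rfl
  map_mul' := fun s s' => by
    apply LinearMap.ext
    intro v
    obtain ⟨v, rfl⟩ := Submodule.Quotient.mk_surjective _ v
    show ρ.levelAction I (s * s') (Submodule.Quotient.mk v)
      = ρ.levelAction I s (ρ.levelAction I s' (Submodule.Quotient.mk v))
    rw [GaloisRepAdic.levelAction, GaloisRepAdic.levelAction, GaloisRepAdic.levelAction,
      Submodule.mapQ_apply, Submodule.mapQ_apply, Submodule.mapQ_apply, map_mul]
    rfl

@[simp] theorem rVb_apply (X : CmpSet D ρ) (I : Ideal T) (s : GQ) (v : VbA X I) :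
    rVb X I s v = ρ.levelAction I s v := rfl

theorem levelAction_mk (I : Ideal T) (s : GQ) (v : ρ.V) :
    ρ.levelAction I s (Submodule.Quotient.mk v) = Submodule.Quotient.mk (ρ.ρ s v) := rfl

/-- the quadratic relation on `V / I V` (Cayley-Hamilton in rank two). -/
theorem levelAction_quad (X : CmpSet D ρ) (I : Ideal T) (s : GQ)
    (v : ρ.V ⧸ (I • (⊤ : Submodule T ρ.V))) :
    ρ.levelAction I s (ρ.levelAction I s v) - X.Θ (X.t s) • ρ.levelAction I s v
      + X.Θ (cmpSet_d X s) • v = 0 := by
  obtain ⟨v, rfl⟩ := Submodule.Quotient.mk_surjective _ v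
  have h := congrArg (fun f : Module.End T ρ.V => f v) (quad_rank_two ρ.finrank_eq (ρ.ρ s))
  simp only [LinearMap.add_apply, LinearMap.sub_apply, Module.End.mul_apply,
    LinearMap.smul_apply, Module.End.one_apply, LinearMap.zero_apply] at h
  rw [X.trace_eq, X.det_eq] at h
  rw [levelAction_mk, levelAction_mk, ← Submodule.Quotient.mk_smul,
    ← Submodule.Quotient.mk_smul, ← Submodule.Quotient.mk_sub, ← Submodule.Quotient.mk_add,
    cmpSet_d, h]
  rfl

/-- **[QV]** the quadratic datum on `V / I V`. -/
def qvData (X : CmpSet D ρ) (I : Ideal T) : QuadData GQ D.𝔸 (VbA X I) where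
  R := rVb X I
  t := X.t
  d := cmpSet_d X
  quad := fun s => LinearMap.ext fun v => levelAction_quad X I s v
  d_mul := cmpSet_d_mul X
  c := X.c
  c_sq := X.c_sq
  d_c := cmpSet_d_c X
  t_c := cmpSet_t_c X

@[simp] theorem qvData_R (X : CmpSet D ρ) (I : Ideal T) : (qvData X I).R = rVb X I := rfl
@[simp] theorem qvData_t (X : CmpSet D ρ) (I : Ideal T) : (qvData X I).t = X.t := rfl
@[simp] theorem qvData_d (X : CmpSet D ρ) (I : Ideal T) : (qvData X I).d = cmpSet_d X := rfl
@[simp] theorem qvData_c (X : CmpSet D ρ) (I : Ideal T) : (qvData X I).c = X.c := rfl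

/-- **[QV]** (`helper34.QVStatement`). -/
theorem qvStatement (X : CmpSet D ρ) (I : Ideal T) : QVStatement X I :=
  ⟨qvData X I, fun _ _ => rfl, rfl, rfl⟩

/-- **[QL]** the quadratic datum on `Λ / p ^ k Λ`. -/
def qlData (X : CmpSet D ρ) (k : ℕ) : QuadData GQ D.𝔸 (Lk D k) where
  R := rL D k
  t := X.t
  d := cmpSet_d X
  quad := fun s => by
    apply LinearMap.ext
    intro v
    obtain ⟨v, rfl⟩ := Submodule.Quotient.mk_surjective _ v
    have h := X.quad s v
    simp only [LinearMap.add_apply, LinearMap.sub_apply, Module.End.mul_apply,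
      LinearMap.smul_apply, Module.End.one_apply, LinearMap.zero_apply, rL_mk]
    rw [← Submodule.Quotient.mk_smul, ← Submodule.Quotient.mk_smul,
      ← Submodule.Quotient.mk_sub, ← Submodule.Quotient.mk_add, cmpSet_d,
      algebraMap_smul, h]
    rfl
  d_mul := cmpSet_d_mul X
  c := X.c
  c_sq := X.c_sq
  d_c := cmpSet_d_c X
  t_c := cmpSet_t_c X

@[simp] theorem qlData_R (X : CmpSet D ρ) (k : ℕ) : (qlData X k).R = rL D k := rfl
@[simp] theorem qlData_t (X : CmpSet D ρ) (k : ℕ) : (qlData X k).t = X.t := rfl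
@[simp] theorem qlData_d (X : CmpSet D ρ) (k : ℕ) : (qlData X k).d = cmpSet_d X := rfl
@[simp] theorem qlData_c (X : CmpSet D ρ) (k : ℕ) : (qlData X k).c = X.c := rfl

/-- **[QL]** (`helper34.QLStatement`). -/
theorem qlStatement (X : CmpSet D ρ) (k : ℕ) : QLStatement X k :=
  ⟨qlData X k, rfl, rfl, rfl⟩

/-- the two quadratic data have the same trace, determinant and involution. -/
theorem qvData_t_eq_qlData_t (X : CmpSet D ρ) (I : Ideal T) (k : ℕ) :
    (qvData X I).t = (qlData X k).t ∧ (qvData X I).d = (qlData X k).d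
      ∧ (qvData X I).c = (qlData X k).c :=
  ⟨rfl, rfl, rfl⟩

end QV

end Fermat.Agent.T6.helper25

end
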