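/-
T6 [W0] (helper26): BRIDGE between `helper26_PVal` (`pval`, `dval`, `divOf`) and the
vocabulary of the architect's interface `helper73_T6Iface` (`valueAt`, `evalDiv`, `IsDivOf`).
The two sets of definitions agree unconditionally.
-/
import Mathlib
import Fermat.Agent.T6.helper26_PVal
import Fermat.Agent.T6.helper73_T6Iface

set_option autoImplicit false

noncomputable section

open AlgebraicCurve

namespace Fermat.Agent.T6.helper26

open Fermat.Agent.P2.helper74 Fermat.Agent.T6.helper73

variable {K F : Type*} [Field K] [Field F] [Algebra K F]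

theorem valuation_lt_one_iff_ord (P : Place K F) (x : F) :
    P.toValuationSubring.valuation x < 1 ↔ x = 0 ∨ 0 < P.ord x := by
  rcases eq_or_ne x 0 with rfl | hx
  · simp
  have h1 : P.toValuationSubring.valuation x < 1 ↔ x⁻¹ ∉ P.toValuationSubring := by
    rw [← ValuationSubring.valuation_le_one_iff, map_inv₀, not_le]
    have hv : P.toValuationSubring.valuation x ≠ 0 := (Valuation.ne_zero_iff _).mpr hx
    constructor
    · intro h
      exact (one_lt_inv₀ (zero_lt_iff.mpr hv)).mpr h
    · intro h
      exact (one_lt_inv₀ (zero_lt_iff.mpr hv)).mp h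
  rw [h1, Fermat.Agent.S24.helper82.mem_iff_ord_nonneg, Place.ord_inv]
  constructor
  · intro h
    right
    omega
  · rintro (h | h)
    · exact absurd h hx
    · omega

theorem isValueAt_iff (P : Place K F) (f : F) (a : K) : IsValueAt P f a ↔ IsVal P f a := by
  rw [IsValueAt, valuation_lt_one_iff_ord, IsVal, sub_eq_zero]

theorem valueAt_eq_pval (P : Place K F) (f : F) : valueAt P f = pval P f := by
  by_cases h : ∃ a, IsValueAt P f a
  · have h' := h.choose_spec
    rw [valueAt, dif_pos h]
    exact (pval_eq_of_isVal ((isValueAt_iff P f _).mp h')).symm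
  · rw [valueAt, dif_neg h]
    exact (pval_of_not_exists fun ⟨a, ha⟩ => h ⟨a, (isValueAt_iff P f a).mpr ha⟩).symm

theorem evalDiv_eq_dval (f : F) (D : Divisor K F) : evalDiv f D = dval f D := by
  unfold evalDiv dval
  simp only [valueAt_eq_pval]

theorem isDivOf_iff_divOf (hS : RiemannSetting K F) {f : F} {D : Divisor K F} :
    IsDivOf f D ↔ f ≠ 0 ∧ divOf K f = D := by
  constructor
  · rintro ⟨hf, h⟩
    exact ⟨hf, divOf_eq_of_forall h⟩
  · rintro ⟨hf, rfl⟩
    exact ⟨hf, fun P => divOf_apply hS f P⟩

theorem IsDivOf.divOf_eq {f : F} {D : Divisor K F} (h : IsDivOf f D) : divOf K f = D :=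
  divOf_eq_of_forall h.2

theorem isDivOf_divOf (hS : RiemannSetting K F) {f : F} (hf : f ≠ 0) : IsDivOf f (divOf K f) :=
  (isDivOf_iff_divOf hS).mpr ⟨hf, rfl⟩

/-- the disjointness used in `WeilAt` gives `Disj` -/
theorem disj_of_isDivOf_of_disjoint {f : F} {D E : Divisor K F} {n : ℕ}
    (h : IsDivOf f (n • D)) (hDE : Disjoint D.support E.support) : Disj f E := by
  refine ⟨h.1, fun P hP => ?_⟩
  have hPE : P ∈ E.support := Finsupp.mem_support_iff.mpr hP
  have hPD : D P = 0 := by
    by_contra hne
    exact Finset.disjoint_left.mp hDE (Finsupp.mem_support_iff.mpr hne) hPE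
  rw [← h.2 P, Finsupp.smul_apply, hPD, smul_zero]

end Fermat.Agent.T6.helper26

end
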