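/-
T6 [W2] (helper26): THE WEIL PAIRING `e_n` on `Pic0[n]` from Weil reciprocity.

Setting: `hS : RiemannSetting K F`, weak Riemann-Roch `hc` (threshold form), `K` infinite,
`hW : WeilRec K F` (block [W1]).

* `IsRep n x D h`   : `D` is a divisor of degree `0` in the class `x` and `div h = n D`;
* `DisjDiv D E`     : `D` and `E` have disjoint supports;
* `eps h D h' D'`   : `h(D') / h'(D)`;
* `eps_indep`       : `eps` does not depend on the disjoint representatives;
* `weilPair n x y`  : the Weil pairing (junk `1` outside the `n`-torsion);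
* `weilPair_eq`     : FORMULA `e_n(x, y) = h(D') / h'(D)` for ANY disjoint representatives;
* `weilPair_add_left / _add_right`, `weilPair_pow`, `weilPair_ne_zero`, `weilPair_swap`,
  `weilPair_compat` (`e_{m n}(x, y) = e_n(m x, y)`).
-/
import Mathlib
import Fermat.Agent.T6.helper26_PVal
import Fermat.Agent.P2.helper74_NonSpecial

set_option autoImplicit false

noncomputable section

open AlgebraicCurve

namespace Fermat.Agent.T6.helper26

open Fermat.Agent.P2.helper74

variable {K F : Type*} [Field K] [Field F] [Algebra K F]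

/-! ### Classes of divisors of degree `0` -/

/-- the class of a divisor of degree `0` -/
def cls (D : Divisor K F) (hD : Divisor.degree D = 0) : Pic0 K F :=
  Pic0.mk ⟨D, hD⟩

theorem exists_cls (x : Pic0 K F) : ∃ (D : Divisor K F) (hD : Divisor.degree D = 0),
    cls D hD = x := by
  obtain ⟨⟨D, hD⟩, rfl⟩ := Pic0.mk_surjective x
  exact ⟨D, hD, rfl⟩

theorem cls_add {D E : Divisor K F} (hD : Divisor.degree D = 0) (hE : Divisor.degree E = 0) :
    cls (D + E) (by rw [map_add, hD, hE, add_zero]) = cls D hD + cls E hE := rfl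

theorem cls_eq_zero_iff {D : Divisor K F} (hD : Divisor.degree D = 0) :
    cls D hD = 0 ↔ Divisor.IsPrincipal D := by
  unfold cls Pic0.mk
  rw [QuotientAddGroup.eq_zero_iff, AddSubgroup.mem_addSubgroupOf]
  rfl

theorem cls_nsmul {D : Divisor K F} (hD : Divisor.degree D = 0) (n : ℕ) :
    cls (n • D) (by rw [map_nsmul, hD, smul_zero]) = n • cls D hD := by
  induction n with
  | zero =>
    refine Eq.trans ?_ (zero_nsmul _).symm
    rw [cls_eq_zero_iff]
    exact ⟨1, one_ne_zero, fun v => by simp⟩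
  | succ n ih =>
    have e : cls ((n + 1) • D) (by rw [map_nsmul, hD, smul_zero])
        = cls (n • D) (by rw [map_nsmul, hD, smul_zero]) + cls D hD := by
      unfold cls
      rw [← Pic0.mk_add]
      congr 1
      exact Subtype.ext (succ_nsmul D n)
    rw [e, ih, succ_nsmul]

theorem cls_eq_cls_iff {D E : Divisor K F} (hD : Divisor.degree D = 0)
    (hE : Divisor.degree E = 0) :
    cls D hD = cls E hE ↔ Divisor.IsPrincipal (E - D) := by
  unfold cls Pic0.mk
  rw [QuotientAddGroup.eq, AddSubgroup.mem_addSubgroupOf]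
  have : ((-(⟨D, hD⟩ : Divisor.degZero (K := K) (F := F)) + ⟨E, hE⟩ :
      Divisor.degZero (K := K) (F := F)) : Divisor K F) = E - D := by
    show -D + E = E - D
    abel
  rw [this]
  rfl

/-! ### Disjoint divisors -/

/-- `D` and `E` have disjoint supports. -/
def DisjDiv (D E : Divisor K F) : Prop := ∀ P : Place K F, D P = 0 ∨ E P = 0

namespace DisjDiv

variable {D D' E E' : Divisor K F}

theorem symm (h : DisjDiv D E) : DisjDiv E D := fun P => (h P).symm

theorem add_right (h : DisjDiv D E) (h' : DisjDiv D E') : DisjDiv D (E + E') := fun P => by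
  rcases h P with h1 | h1
  · exact Or.inl h1
  rcases h' P with h2 | h2
  · exact Or.inl h2
  · right
    rw [Finsupp.add_apply, h1, h2, add_zero]

theorem add_left (h : DisjDiv D E) (h' : DisjDiv D' E) : DisjDiv (D + D') E :=
  (h.symm.add_right h'.symm).symm

theorem neg_right (h : DisjDiv D E) : DisjDiv D (-E) := fun P => by
  rcases h P with h1 | h1
  · exact Or.inl h1
  · right
    rw [Finsupp.neg_apply, h1, neg_zero]

theorem sub_right (h : DisjDiv D E) (h' : DisjDiv D E') : DisjDiv D (E - E') := by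
  rw [sub_eq_add_neg]
  exact h.add_right h'.neg_right

theorem nsmul_right (h : DisjDiv D E) (n : ℕ) : DisjDiv D (n • E) := fun P => by
  rcases h P with h1 | h1
  · exact Or.inl h1
  · right
    rw [Finsupp.smul_apply, h1, smul_zero]

theorem nsmul_left (h : DisjDiv D E) (n : ℕ) : DisjDiv (n • D) E :=
  (h.symm.nsmul_right n).symm

theorem of_disjoint_support (h : Disjoint D.support E.support) : DisjDiv D E := fun P => by
  by_contra hne
  rw [not_or] at hne
  exact Finset.disjoint_left.mp h (Finsupp.mem_support_iff.mpr hne.1)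
    (Finsupp.mem_support_iff.mpr hne.2)

theorem disjoint_support (h : DisjDiv D E) : Disjoint D.support E.support := by
  rw [Finset.disjoint_left]
  intro P hP hP'
  rcases h P with h1 | h1
  · exact Finsupp.mem_support_iff.mp hP h1
  · exact Finsupp.mem_support_iff.mp hP' h1

end DisjDiv

/-! ### Representatives of torsion classes -/

/-- `(D, h)` represents the class `x` (of order dividing `n`): `deg D = 0`, `[D] = x`,
`h ≠ 0`, `div h = n D`. -/
def IsRep (n : ℕ) (x : Pic0 K F) (D : Divisor K F) (h : F) : Prop :=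
  (∃ hD : Divisor.degree D = 0, cls D hD = x) ∧ h ≠ 0 ∧ divOf K h = n • D

namespace IsRep

variable {n : ℕ} {x y : Pic0 K F} {D E : Divisor K F} {h g : F}

theorem deg (H : IsRep n x D h) : Divisor.degree D = 0 := H.1.choose

theorem cls_eq (H : IsRep n x D h) : cls D H.deg = x := H.1.choose_spec

theorem ne_zero (H : IsRep n x D h) : h ≠ 0 := H.2.1

theorem divOf_eq (H : IsRep n x D h) : divOf K h = n • D := H.2.2

end IsRep

section Setting

variable (hS : RiemannSetting K F)

include hS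

theorem IsRep.ord_eq {n : ℕ} {x : Pic0 K F} {D : Divisor K F} {h : F} (H : IsRep n x D h)
    (P : Place K F) : P.ord h = n * D P := by
  rw [← divOf_apply hS h P, H.divOf_eq, Finsupp.smul_apply, nsmul_eq_mul]

theorem IsRep.disj {n : ℕ} {x : Pic0 K F} {D E : Divisor K F} {h : F} (H : IsRep n x D h)
    (hDE : DisjDiv D E) : Disj h E := by
  refine ⟨H.ne_zero, fun P hP => ?_⟩
  rw [H.ord_eq hS, (hDE P).resolve_right hP, mul_zero]

theorem IsRep.add {n : ℕ} {x y : Pic0 K F} {D E : Divisor K F} {h g : F}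
    (H : IsRep n x D h) (H' : IsRep n y E g) : IsRep n (x + y) (D + E) (h * g) := by
  refine ⟨⟨by rw [map_add, H.deg, H'.deg, add_zero], ?_⟩, mul_ne_zero H.ne_zero H'.ne_zero, ?_⟩
  · rw [cls_add H.deg H'.deg, H.cls_eq, H'.cls_eq]
  · rw [divOf_mul hS H.ne_zero H'.ne_zero, H.divOf_eq, H'.divOf_eq, smul_add]

theorem IsRep.nsmul_class {n : ℕ} {x : Pic0 K F} {D : Divisor K F} {h : F}
    (H : IsRep n x D h) : n • x = 0 := by
  rw [← H.cls_eq, ← cls_nsmul H.deg, cls_eq_zero_iff, ← H.divOf_eq]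
  exact isPrincipal_divOf hS H.ne_zero

/-- every class killed by `n` has a representative -/
theorem exists_isRep {n : ℕ} {x : Pic0 K F} (hx : n • x = 0) : ∃ D h, IsRep n x D h := by
  obtain ⟨D, hD, rfl⟩ := exists_cls x
  rw [← cls_nsmul hD, cls_eq_zero_iff, isPrincipal_iff_exists_divOf hS] at hx
  obtain ⟨h, hh, hdiv⟩ := hx
  exact ⟨D, h, ⟨hD, rfl⟩, hh, hdiv⟩

/-- change of the representative by a principal divisor -/
theorem IsRep.move {n : ℕ} {x : Pic0 K F} {D : Divisor K F} {h : F} (H : IsRep n x D h)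
    {t : F} (ht : t ≠ 0) : IsRep n x (D + divOf K t) (h * t ^ n) := by
  have hdeg : Divisor.degree (D + divOf K t) = 0 := by
    rw [map_add, H.deg, degree_divOf hS, add_zero]
  refine ⟨⟨hdeg, ?_⟩, mul_ne_zero H.ne_zero (pow_ne_zero n ht), ?_⟩
  · rw [← H.cls_eq, eq_comm, cls_eq_cls_iff, add_sub_cancel_left]
    exact isPrincipal_divOf hS ht
  · rw [divOf_mul hS H.ne_zero (pow_ne_zero n ht), H.divOf_eq, divOf_pow hS, smul_add]

/-- two representatives of the same class differ by a principal divisor -/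
theorem IsRep.exists_eq {n : ℕ} {x : Pic0 K F} {D E : Divisor K F} {h g : F}
    (H : IsRep n x D h) (H' : IsRep n x E g) :
    ∃ (u : F) (a : K), u ≠ 0 ∧ a ≠ 0 ∧ E = D + divOf K u ∧
      g = algebraMap K F a * (h * u ^ n) := by
  have h1 : cls D H.deg = cls E H'.deg := by rw [H.cls_eq, H'.cls_eq]
  rw [cls_eq_cls_iff, isPrincipal_iff_exists_divOf hS] at h1
  obtain ⟨u, hu, hdiv⟩ := h1
  have hE : E = D + divOf K u := by rw [hdiv]; abel
  have hm := H.move hS hu
  have h2 : divOf K g = divOf K (h * u ^ n) := by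
    rw [H'.divOf_eq, hm.divOf_eq, hE]
  obtain ⟨a, ha, hga⟩ := exists_const_of_divOf_eq hS H'.ne_zero hm.ne_zero h2
  exact ⟨u, a, hu, ha, hE, hga⟩

end Setting


/-! ### The pairing on representatives -/

/-- `h(D') / h'(D)` -/
def eps (h : F) (D : Divisor K F) (h' : F) (D' : Divisor K F) : K :=
  dval h D' / dval h' D

theorem eps_swap (h : F) (D : Divisor K F) (h' : F) (D' : Divisor K F) :
    eps h D h' D' = (eps h' D' h D)⁻¹ := by
  rw [eps, eps, inv_div]

section Pairing

variable (hS : RiemannSetting K F)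

include hS

theorem eps_ne_zero {n : ℕ} {x y : Pic0 K F} {D D' : Divisor K F} {h h' : F}
    (H : IsRep n x D h) (H' : IsRep n y D' h') (d : DisjDiv D D') : eps h D h' D' ≠ 0 :=
  div_ne_zero (dval_ne_zero hS (H.disj hS d)) (dval_ne_zero hS (H'.disj hS d.symm))

variable (hW : WeilRec K F)

include hW

/-- reciprocity for representatives with disjoint supports -/
theorem dval_rep_comm {n : ℕ} {x y : Pic0 K F} {D D' : Divisor K F} {h h' : F}
    (H : IsRep n x D h) (H' : IsRep n y D' h') (d : DisjDiv D D') :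
    dval h (n • D') = dval h' (n • D) := by
  rw [← H'.divOf_eq, ← H.divOf_eq]
  refine hW h h' H.ne_zero H'.ne_zero fun P => ?_
  rcases d P with e | e
  · left
    rw [H.ord_eq hS, e, mul_zero]
  · right
    rw [H'.ord_eq hS, e, mul_zero]

theorem eps_pow {n : ℕ} {x y : Pic0 K F} {D D' : Divisor K F} {h h' : F}
    (H : IsRep n x D h) (H' : IsRep n y D' h') (d : DisjDiv D D') :
    eps h D h' D' ^ n = 1 := by
  rw [eps, div_pow, ← dval_nsmul hS (H.disj hS d), ← dval_nsmul hS (H'.disj hS d.symm),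
    dval_rep_comm hS hW H H' d]
  exact div_self (dval_ne_zero hS ((H'.disj hS d.symm).nsmul n))

/-- change of the second representative -/
theorem eps_change_right {n : ℕ} {x y : Pic0 K F} {D D' D'' : Divisor K F} {h h' h'' : F}
    (H : IsRep n x D h) (H' : IsRep n y D' h') (H'' : IsRep n y D'' h'')
    (d' : DisjDiv D D') (d'' : DisjDiv D D'') : eps h D h' D' = eps h D h'' D'' := by
  obtain ⟨u, a, hu, ha, hE, hg⟩ := H'.exists_eq hS H''
  have hdivu : divOf K u = D'' - D' := by rw [hE]; abel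
  have hdu : DisjDiv D (divOf K u) := by
    rw [hdivu]
    exact d''.sub_right d'
  have hhD' : Disj h D' := H.disj hS d'
  have hhu : Disj h (divOf K u) := H.disj hS hdu
  have huD : Disj u D := by
    refine ⟨hu, fun P hP => ?_⟩
    rw [← divOf_apply hS u P]
    exact (hdu P).resolve_left hP
  have hh'D : Disj h' D := H'.disj hS d'.symm
  -- reciprocity for `h` and `u`
  have hrec : dval h (divOf K u) = dval u D ^ n := by
    rw [← dval_nsmul hS huD, ← H.divOf_eq]
    refine hW h u H.ne_zero hu fun P => ?_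
    rcases hdu P with e | e
    · left
      rw [H.ord_eq hS, e, mul_zero]
    · right
      rw [← divOf_apply hS u P, e]
  have h1 : dval h D'' = dval h D' * dval u D ^ n := by
    rw [hE, dval_add hS hhD' hhu, hrec]
  have h2 : dval h'' D = dval h' D * dval u D ^ n := by
    rw [hg, dval_const_mul hS ha (hh'D.mul (huD.pow n)) H.deg, dval_mul hS hh'D (huD.pow n),
      dval_pow hS huD]
  rw [eps, eps, h1, h2]
  exact (mul_div_mul_right _ _ (pow_ne_zero n (dval_ne_zero hS huD))).symm

/-- change of the first representative -/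
theorem eps_change_left {n : ℕ} {x y : Pic0 K F} {D₁ D₂ D' : Divisor K F} {h₁ h₂ h' : F}
    (H₁ : IsRep n x D₁ h₁) (H₂ : IsRep n x D₂ h₂) (H' : IsRep n y D' h')
    (d₁ : DisjDiv D₁ D') (d₂ : DisjDiv D₂ D') : eps h₁ D₁ h' D' = eps h₂ D₂ h' D' := by
  rw [eps_swap h₁, eps_swap h₂, eps_change_right hS hW H' H₁ H₂ d₁.symm d₂.symm]

end Pairing

/-! ### The moving lemma -/

section Move

variable (hS : RiemannSetting K F) {g : ℕ} {c : ℤ}
  (hc : ∀ D : Divisor K F, c ≤ Divisor.degree D → (ell D : ℤ) + g = Divisor.degree D + 1)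
  [Infinite K]

include hS hc

/-- every class killed by `n` has a representative off a given finite set of places -/
theorem exists_isRep_off {n : ℕ} {y : Pic0 K F} (hy : n • y = 0) (T : Finset (Place K F)) :
    ∃ D' h', IsRep n y D' h' ∧ ∀ P ∈ T, D' P = 0 := by
  obtain ⟨D₀, h₀, H₀⟩ := exists_isRep hS hy
  have : Infinite (Place K F) := infinite_place hS hc
  obtain ⟨Q₁, hQ₁⟩ := Infinite.exists_notMem_finset T
  obtain ⟨t, ht, hT, -⟩ := exists_prescribed_ord hS hc T (fun P => -D₀ P) Q₁ hQ₁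
  refine ⟨D₀ + divOf K t, h₀ * t ^ n, H₀.move hS ht, fun P hP => ?_⟩
  rw [Finsupp.add_apply, divOf_apply hS, hT P hP, add_neg_cancel]

/-- every class killed by `n` has a representative disjoint from two given divisors -/
theorem exists_isRep_disj {n : ℕ} {y : Pic0 K F} (hy : n • y = 0) (D₁ D₂ : Divisor K F) :
    ∃ D' h', IsRep n y D' h' ∧ DisjDiv D₁ D' ∧ DisjDiv D₂ D' := by
  classical
  obtain ⟨D', h', H', hoff⟩ := exists_isRep_off hS hc hy (D₁.support ∪ D₂.support)
  refine ⟨D', h', H', fun P => ?_, fun P => ?_⟩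
  · by_cases e : D₁ P = 0
    · exact Or.inl e
    · exact Or.inr (hoff P (Finset.mem_union_left _ (Finsupp.mem_support_iff.mpr e)))
  · by_cases e : D₂ P = 0
    · exact Or.inl e
    · exact Or.inr (hoff P (Finset.mem_union_right _ (Finsupp.mem_support_iff.mpr e)))

variable (hW : WeilRec K F)

include hW

/-- **independence of the representatives** -/
theorem eps_indep {n : ℕ} {x y : Pic0 K F} {D₁ D₂ D₁' D₂' : Divisor K F} {h₁ h₂ h₁' h₂' : F}
    (H₁ : IsRep n x D₁ h₁) (H₁' : IsRep n y D₁' h₁') (d₁ : DisjDiv D₁ D₁')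
    (H₂ : IsRep n x D₂ h₂) (H₂' : IsRep n y D₂' h₂') (d₂ : DisjDiv D₂ D₂') :
    eps h₁ D₁ h₁' D₁' = eps h₂ D₂ h₂' D₂' := by
  obtain ⟨E, e, HE, dE₁, dE₂⟩ := exists_isRep_disj hS hc (H₁'.nsmul_class hS) D₁ D₂
  rw [eps_change_right hS hW H₁ H₁' HE d₁ dE₁, eps_change_left hS hW H₁ H₂ HE dE₁ dE₂,
    eps_change_right hS hW H₂ HE H₂' dE₂ d₂]

end Move

/-! ### The Weil pairing -/

open Classical in
/-- **the Weil pairing** `e_n(x, y)` (junk `1` if `x` or `y` is not killed by `n`) -/
def weilPair (n : ℕ) (x y : Pic0 K F) : K :=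
  if H : ∃ v : K, ∃ (D D' : Divisor K F) (h h' : F),
      IsRep n x D h ∧ IsRep n y D' h' ∧ DisjDiv D D' ∧ v = eps h D h' D' then H.choose else 1

section WeilPair

variable (hS : RiemannSetting K F) {g : ℕ} {c : ℤ}
  (hc : ∀ D : Divisor K F, c ≤ Divisor.degree D → (ell D : ℤ) + g = Divisor.degree D + 1)
  [Infinite K] (hW : WeilRec K F)

include hS hc hW

/-- **FORMULA**: `e_n(x, y) = h(D') / h'(D)` for ANY representatives with disjoint supports -/
theorem weilPair_eq {n : ℕ} {x y : Pic0 K F} {D D' : Divisor K F} {h h' : F}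
    (H : IsRep n x D h) (H' : IsRep n y D' h') (d : DisjDiv D D') :
    weilPair n x y = dval h D' / dval h' D := by
  have hex : ∃ v : K, ∃ (D D' : Divisor K F) (h h' : F),
      IsRep n x D h ∧ IsRep n y D' h' ∧ DisjDiv D D' ∧ v = eps h D h' D' :=
    ⟨_, D, D', h, h', H, H', d, rfl⟩
  rw [weilPair, dif_pos hex]
  obtain ⟨D₁, D₁', h₁, h₁', H₁, H₁', d₁, hv⟩ := hex.choose_spec
  rw [hv]
  exact eps_indep hS hc hW H₁ H₁' d₁ H H' d

omit hW in
/-- representatives with disjoint supports exist -/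
theorem exists_reps {n : ℕ} {x y : Pic0 K F} (hx : n • x = 0) (hy : n • y = 0) :
    ∃ (D D' : Divisor K F) (h h' : F), IsRep n x D h ∧ IsRep n y D' h' ∧ DisjDiv D D' := by
  obtain ⟨D, h, H⟩ := exists_isRep hS hx
  obtain ⟨D', h', H', d, -⟩ := exists_isRep_disj hS hc hy D D
  exact ⟨D, D', h, h', H, H', d⟩

theorem weilPair_ne_zero {n : ℕ} {x y : Pic0 K F} (hx : n • x = 0) (hy : n • y = 0) :
    weilPair n x y ≠ 0 := by
  obtain ⟨D, D', h, h', H, H', d⟩ := exists_reps hS hc hx hy
  rw [weilPair_eq hS hc hW H H' d]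
  exact eps_ne_zero hS H H' d

theorem weilPair_pow {n : ℕ} {x y : Pic0 K F} (hx : n • x = 0) (hy : n • y = 0) :
    weilPair n x y ^ n = 1 := by
  obtain ⟨D, D', h, h', H, H', d⟩ := exists_reps hS hc hx hy
  rw [weilPair_eq hS hc hW H H' d]
  exact eps_pow hS hW H H' d

theorem weilPair_swap {n : ℕ} {x y : Pic0 K F} (hx : n • x = 0) (hy : n • y = 0) :
    weilPair n x y = (weilPair n y x)⁻¹ := by
  obtain ⟨D, D', h, h', H, H', d⟩ := exists_reps hS hc hx hy
  rw [weilPair_eq hS hc hW H H' d, weilPair_eq hS hc hW H' H d.symm, inv_div]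

theorem weilPair_add_right {n : ℕ} {x y₁ y₂ : Pic0 K F} (hx : n • x = 0) (hy₁ : n • y₁ = 0)
    (hy₂ : n • y₂ = 0) :
    weilPair n x (y₁ + y₂) = weilPair n x y₁ * weilPair n x y₂ := by
  obtain ⟨D, h, H⟩ := exists_isRep hS hx
  obtain ⟨D₁, h₁, H₁, d₁, -⟩ := exists_isRep_disj hS hc hy₁ D D
  obtain ⟨D₂, h₂, H₂, d₂, -⟩ := exists_isRep_disj hS hc hy₂ D D
  rw [weilPair_eq hS hc hW H (H₁.add hS H₂) (d₁.add_right d₂), weilPair_eq hS hc hW H H₁ d₁,
    weilPair_eq hS hc hW H H₂ d₂, dval_add hS (H.disj hS d₁) (H.disj hS d₂),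
    dval_mul hS (H₁.disj hS d₁.symm) (H₂.disj hS d₂.symm), mul_div_mul_comm]

theorem weilPair_add_left {n : ℕ} {x₁ x₂ y : Pic0 K F} (hx₁ : n • x₁ = 0) (hx₂ : n • x₂ = 0)
    (hy : n • y = 0) :
    weilPair n (x₁ + x₂) y = weilPair n x₁ y * weilPair n x₂ y := by
  have hx : n • (x₁ + x₂) = 0 := by rw [nsmul_add, hx₁, hx₂, add_zero]
  rw [weilPair_swap hS hc hW hx hy, weilPair_add_right hS hc hW hy hx₁ hx₂, mul_inv,
    ← weilPair_swap hS hc hW hx₁ hy, ← weilPair_swap hS hc hW hx₂ hy]

theorem weilPair_zero_right {n : ℕ} {x : Pic0 K F} (hx : n • x = 0) :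
    weilPair n x 0 = 1 := by
  have h0 : n • (0 : Pic0 K F) = 0 := nsmul_zero n
  have h := weilPair_add_right hS hc hW hx h0 h0
  rw [add_zero] at h
  have hne := weilPair_ne_zero hS hc hW hx h0
  exact (mul_eq_left₀ hne).mp h.symm

theorem weilPair_zero_left {n : ℕ} {y : Pic0 K F} (hy : n • y = 0) :
    weilPair n 0 y = 1 := by
  rw [weilPair_swap hS hc hW (nsmul_zero n) hy, weilPair_zero_right hS hc hW hy, inv_one]

/-- **compatibility** `e_{m n}(x, y) = e_n(m x, y)` for `y` killed by `n` -/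
theorem weilPair_compat {m n : ℕ} {x y : Pic0 K F} (hx : (m * n) • x = 0) (hy : n • y = 0) :
    weilPair (m * n) x y = weilPair n (m • x) y := by
  obtain ⟨D, h, H⟩ := exists_isRep hS hx
  obtain ⟨D', h', H', d, -⟩ := exists_isRep_disj hS hc hy D D
  have Hm : IsRep n (m • x) (m • D) h := by
    refine ⟨⟨by rw [map_nsmul, H.deg, smul_zero], ?_⟩, H.ne_zero, ?_⟩
    · rw [cls_nsmul H.deg, H.cls_eq]
    · rw [H.divOf_eq, mul_comm, mul_smul]
  have Hy : IsRep (m * n) y D' (h' ^ m) := by
    refine ⟨⟨H'.deg, H'.cls_eq⟩, pow_ne_zero m H'.ne_zero, ?_⟩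
    rw [divOf_pow hS, H'.divOf_eq, mul_smul]
  rw [weilPair_eq hS hc hW H Hy d, weilPair_eq hS hc hW Hm H' (d.nsmul_left m),
    dval_pow hS (H'.disj hS d.symm), dval_nsmul hS (H'.disj hS d.symm)]

end WeilPair

end Fermat.Agent.T6.helper26

end
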