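/-
T6 [W2] END (helper26): from the Weil pairing to the architect's contract `WeilAt`.

* `exists_eq_pairing`   : (Mathlib only) a bimultiplicative pairing on a finite abelian group
                          which is non-degenerate in the second variable realises EVERY
                          character (`|Hom(M, K^×)| ≤ |M|` by linear independence);
* `weilPair_nsmul_right`;
* `nondeg_pow_of_nondeg`: non-degeneracy of `e_{l^k}` from non-degeneracy of `e_l`
                          + divisibility of the `l`-power torsion (blocks [W3c], [W3b]);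
* `weilAt_of_nondeg`    : `helper73.WeilAt K F l k` from non-degeneracy of `e_{l^k}`;
* `weilAt_of_nondeg_one`: `helper73.WeilAt K F l k` from non-degeneracy of `e_l`.
-/
import Mathlib
import Fermat.Agent.T6.helper26_WeilPair
import Fermat.Agent.T6.helper26_PValIface

set_option autoImplicit false

noncomputable section

open AlgebraicCurve

namespace Fermat.Agent.T6.helper26

open Fermat.Agent.P2.helper74 Fermat.Agent.T6.helper73

/-! ### Counting characters (Mathlib only) -/

/-- A bimultiplicative pairing on a finite abelian group which is non-degenerate in the second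
variable realises every character. -/
theorem exists_eq_pairing {M : Type*} [AddCommGroup M] [Finite M] {K : Type*} [Field K]
    (e : M → M → K) (hel : ∀ x x' y, e (x + x') y = e x y * e x' y) (he0 : ∀ y, e 0 y = 1)
    (her : ∀ x y y', e x (y + y') = e x y * e x y')
    (hnd : ∀ y, y ≠ 0 → ∃ x, e x y ≠ 1)
    (χ : M → K) (hχ0 : χ 0 = 1) (hχ : ∀ x y, χ (x + y) = χ x * χ y) :
    ∃ y, ∀ x, χ x = e x y := by
  classical
  have hne : ∀ x y, e x y ≠ 0 := fun x y h0 => by
    have h := hel x (-x) y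
    rw [add_neg_cancel, he0, h0, zero_mul] at h
    exact one_ne_zero h
  let Φ : M → (Multiplicative M →* K) := fun y =>
    { toFun := fun x => e (Multiplicative.toAdd x) y
      map_one' := he0 y
      map_mul' := fun x x' => hel _ _ y }
  have hinj : Function.Injective Φ := by
    intro y y' hyy'
    by_contra hne'
    obtain ⟨x, hx⟩ := hnd (y - y') (sub_ne_zero.mpr hne')
    apply hx
    have h1 : e x y = e x y' := DFunLike.congr_fun hyy' (Multiplicative.ofAdd x)
    have h2 := her x (y - y') y'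
    rw [sub_add_cancel, h1] at h2
    exact (mul_eq_right₀ (hne x y')).mp h2.symm
  have hli := linearIndependent_monoidHom (Multiplicative M) K
  have hfinM : Finite (Multiplicative M) := inferInstanceAs (Finite M)
  have : Fintype (Multiplicative M) := Fintype.ofFinite _
  have hfin : Finite (Multiplicative M →* K) := hli.finite
  have : Fintype (Multiplicative M →* K) := Fintype.ofFinite _
  have hcard : Nat.card (Multiplicative M →* K) ≤ Nat.card M := by
    have h := hli.fintype_card_le_finrank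
    rw [Module.finrank_fintype_fun_eq_card] at h
    rw [Nat.card_eq_fintype_card, show Nat.card M = Nat.card (Multiplicative M) from rfl,
      Nat.card_eq_fintype_card]
    exact h
  obtain ⟨y, hy⟩ := (hinj.bijective_of_nat_card_le hcard).2
    { toFun := fun x => χ (Multiplicative.toAdd x)
      map_one' := hχ0
      map_mul' := fun x x' => hχ _ _ }
  exact ⟨y, fun x => (DFunLike.congr_fun hy (Multiplicative.ofAdd x)).symm⟩

variable {K F : Type*} [Field K] [Field F] [Algebra K F]

section End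

variable (hS : RiemannSetting K F) {g : ℕ} {c : ℤ}
  (hc : ∀ D : Divisor K F, c ≤ Divisor.degree D → (ell D : ℤ) + g = Divisor.degree D + 1)
  [Infinite K] (hW : WeilRec K F)

include hS hc hW

theorem weilPair_nsmul_right {n : ℕ} {x y : Pic0 K F} (hx : n • x = 0) (hy : n • y = 0)
    (m : ℕ) : weilPair n x (m • y) = weilPair n x y ^ m := by
  induction m with
  | zero => rw [zero_nsmul, pow_zero, weilPair_zero_right hS hc hW hx]
  | succ m ih =>
    have hmy : n • (m • y) = 0 := by rw [nsmul_left_comm, hy, nsmul_zero]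
    rw [succ_nsmul, weilPair_add_right hS hc hW hx hmy hy, ih, pow_succ]

/-- non-degeneracy of `e_{l^k}` from non-degeneracy of `e_l` and divisibility -/
theorem nondeg_pow_of_nondeg (l : ℕ)
    (hdiv : ∀ x : Pic0 K F, l • x = 0 → ∀ j : ℕ, ∃ z : Pic0 K F, l ^ j • z = x)
    (hnd : ∀ y : Pic0 K F, l • y = 0 → y ≠ 0 → ∃ x : Pic0 K F, l • x = 0 ∧ weilPair l x y ≠ 1)
    (k : ℕ) (y : Pic0 K F) (hy : l ^ k • y = 0) (hy0 : y ≠ 0) :
    ∃ x : Pic0 K F, l ^ k • x = 0 ∧ weilPair (l ^ k) x y ≠ 1 := by
  classical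
  -- the largest `j` with `l ^ j • y ≠ 0`
  have hex : ∃ j, l ^ j • y = 0 := ⟨k, hy⟩
  set j₀ := Nat.find hex with hj₀
  have hj₀spec : l ^ j₀ • y = 0 := Nat.find_spec hex
  have hj₀pos : j₀ ≠ 0 := by
    intro h0
    rw [h0, pow_zero, one_nsmul] at hj₀spec
    exact hy0 hj₀spec
  obtain ⟨j, hj⟩ := Nat.exists_eq_succ_of_ne_zero hj₀pos
  have hjk : j₀ ≤ k := Nat.find_min' hex hy
  obtain ⟨k', rfl⟩ : ∃ k', k = k' + 1 := Nat.exists_eq_succ_of_ne_zero (by omega)
  have hy' : l ^ j • y ≠ 0 := Nat.find_min hex (by omega)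
  have hly' : l • (l ^ j • y) = 0 := by
    rw [← mul_nsmul, ← pow_succ, ← Nat.succ_eq_add_one, ← hj]
    exact hj₀spec
  obtain ⟨x', hx', hne⟩ := hnd _ hly' hy'
  obtain ⟨x, hx⟩ := hdiv x' hx' k'
  have hxk' : (l ^ k' * l) • x = 0 := by
    rw [mul_nsmul, hx, hx']
  have hxk : l ^ (k' + 1) • x = 0 := by
    rw [pow_succ]
    exact hxk'
  refine ⟨x, hxk, fun h1 => hne ?_⟩
  have hcomp := weilPair_compat hS hc hW hxk' hly'
  rw [hx, ← pow_succ, weilPair_nsmul_right hS hc hW hxk hy, h1, one_pow] at hcomp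
  exact hcomp.symm

/-- **`WeilAt` from non-degeneracy of `e_{l^k}`** -/
theorem weilAt_of_nondeg (l k : ℕ) [Finite (Pic0.torsion K F (l ^ k))]
    (hnd : ∀ y : Pic0 K F, l ^ k • y = 0 → y ≠ 0 →
      ∃ x : Pic0 K F, l ^ k • x = 0 ∧ weilPair (l ^ k) x y ≠ 1) :
    WeilAt K F l k := by
  intro χ hχ0 hχ
  have htor : ∀ x : Pic0.torsion K F (l ^ k), l ^ k • (x : Pic0 K F) = 0 := fun x => by
    have := Pic0.mem_torsion.mp x.2
    rwa [natCast_zsmul] at this
  obtain ⟨y, hy⟩ := exists_eq_pairing
    (fun x y : Pic0.torsion K F (l ^ k) => weilPair (l ^ k) (x : Pic0 K F) (y : Pic0 K F))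
    (fun x x' y => weilPair_add_left hS hc hW (htor x) (htor x') (htor y))
    (fun y => weilPair_zero_left hS hc hW (htor y))
    (fun x y y' => weilPair_add_right hS hc hW (htor x) (htor y) (htor y'))
    (fun y hy0 => by
      obtain ⟨x, hx, hne⟩ := hnd (y : Pic0 K F) (htor y) (fun h => hy0 (Subtype.ext h))
      exact ⟨⟨x, Pic0.mem_torsion.mpr (by rwa [natCast_zsmul])⟩, hne⟩)
    χ hχ0 hχ
  refine ⟨y, fun u D D' h h' hD hD' hdisj hh hh' => ?_⟩
  have H : IsRep (l ^ k) (u : Pic0 K F) (D : Divisor K F) h :=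
    ⟨⟨D.2, hD⟩, hh.1, divOf_eq_of_forall hh.2⟩
  have H' : IsRep (l ^ k) (y : Pic0 K F) (D' : Divisor K F) h' :=
    ⟨⟨D'.2, hD'⟩, hh'.1, divOf_eq_of_forall hh'.2⟩
  have d : DisjDiv (D : Divisor K F) (D' : Divisor K F) := DisjDiv.of_disjoint_support hdisj
  rw [hy u, evalDiv_eq_dval, evalDiv_eq_dval, weilPair_eq hS hc hW H H' d]
  exact div_mul_cancel₀ _ (dval_ne_zero hS (H'.disj hS d.symm))

/-- **`WeilAt` from non-degeneracy of `e_l` and divisibility** -/
theorem weilAt_of_nondeg_one (l k : ℕ) [Finite (Pic0.torsion K F (l ^ k))]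
    (hdiv : ∀ x : Pic0 K F, l • x = 0 → ∀ j : ℕ, ∃ z : Pic0 K F, l ^ j • z = x)
    (hnd : ∀ y : Pic0 K F, l • y = 0 → y ≠ 0 →
      ∃ x : Pic0 K F, l • x = 0 ∧ weilPair l x y ≠ 1) :
    WeilAt K F l k :=
  weilAt_of_nondeg hS hc hW l k (nondeg_pow_of_nondeg hS hc hW l hdiv hnd k)

end End

end Fermat.Agent.T6.helper26

end
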