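import Mathlib
import Fermat.Agent.LEF.helper99_P5Uncond
import Fermat.Agent.P5.helper25_S27Wire

/-!
# T6 / [W3b] (helper27): `Pic0` of a function field over an algebraically closed field of
characteristic `0` is DIVISIBLE

* `exists_conPic0_eq_of_stabilizer` : generalised L6 (LEF, helper82): a class of `Pic0(F')`
  fixed by a subgroup of finite index of `Aut(K'/K)` is a conorm;
* `act_smul_conPic0`                : conorm classes are fixed by `Aut(K'/K)`;
* `exists_stabilizer_of_zsmul`      : if `n • c'` is fixed by `Aut(K'/K)` and `Pic0(F')[n]` is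
  finite, the stabiliser of `c'` has finite index;
* `exists_zsmul_eq_of_constExt`     : descent of divisibility along a constant field extension;
* `pic0_divisible_countable`        : the case of a countable constant field (complex model);
* `pic0_divisible`                  : the general case (countable model);
* `pic0_divisible_algebraicClosure_rat` : the case `K = AlgebraicClosure ℚ`.
-/

set_option autoImplicit false
set_option linter.unusedVariables false
set_option linter.style.haveILetI false

open AlgebraicCurve IntermediateField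

namespace Fermat.Agent.T6.helper27

open Fermat.Agent.LEF Fermat.Agent.P2.helper74

section descent

variable {K F K' F' : Type*} [Field K] [Field F] [Algebra K F] [Field K'] [Field F']
  [Algebra K' F'] (C : ConstExt K F K' F')

/-- **generalised L6**: a class of `Pic0(F')` fixed by a subgroup of finite index of
`Aut(K'/K)` is a conorm. -/
theorem exists_conPic0_eq_of_stabilizer [IsAlgClosed K] [IsAlgClosed K'] [CharZero K]
    (hS : RiemannSetting K F) (hS' : RiemannSetting K' F')
    (hR : ∃ g : ℤ, ∀ D : Divisor K' F', Divisor.degree D + 1 - g ≤ (ell D : ℤ))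
    (c : Pic0 K' F') (H : Subgroup (RingAut K')) (hH : H ≤ C.gal)
    (hHfin : (H.subgroupOf C.gal).FiniteIndex) (hHc : ∀ σ ∈ H, C.act σ • c = c) :
    ∃ c₀ : Pic0 K F, C.conPic0 c₀ = c := by
  classical
  obtain ⟨D', rfl⟩ := Pic0.mk_surjective c
  obtain ⟨P₀⟩ := hS.nonempty
  obtain ⟨Q₀, hQ₀⟩ := helper99.exists_isExt C hS P₀
  obtain ⟨m, hm⟩ := helper67.exists_ell_add_eq_one hS' hR (D' : Divisor K' F') Q₀
  obtain ⟨E₁, ⟨hE₁eff, hE₁pr⟩, hE₁uniq⟩ :=
    helper67.existsUnique_effective_of_ell_eq_one hS' _ hm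
  -- `E₁` is stable under `H`
  have hstab : ∀ σ ∈ H, C.act σ • E₁ = E₁ := by
    intro σ hσ
    refine hE₁uniq _ ⟨fun v => ?_, ?_⟩
    · rw [SemilinearAut.divisor_smul_apply]
      exact hE₁eff _
    · have h1 : C.act σ • (E₁ - ((D' : Divisor K' F') + Finsupp.single Q₀ m)) ∈
          Divisor.principal (K := K') (F := F') := SemilinearAut.smul_mem_principal _ hE₁pr
      have h2 : (C.act σ • (D' : Divisor K' F')) - (D' : Divisor K' F') ∈
          Divisor.principal (K := K') (F := F') := by
        have h3 := hHc σ hσ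
        rw [SemilinearAut.pic0_smul_mk] at h3
        have h4 := (helper82.l6_mk_eq_mk_iff _ _).mp h3.symm
        exact h4
      have h5 : C.act σ • Q₀ = Q₀ :=
        helper95.act_smul_of_isExt C hS σ (hH hσ)
          (fun h h' => helper99.isExt_unique C hS h h') hQ₀
      have h6 : C.act σ • E₁ - ((D' : Divisor K' F') + Finsupp.single Q₀ m) =
          C.act σ • (E₁ - ((D' : Divisor K' F') + Finsupp.single Q₀ m)) +
            ((C.act σ • (D' : Divisor K' F')) - (D' : Divisor K' F')) := by
        rw [smul_sub, smul_add, SemilinearAut.smul_single, h5]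
        abel
      rw [h6]
      exact add_mem h1 h2
  obtain ⟨E₀, hE₀⟩ := helper82.exists_con_eq_of_stable C hS hS' H hH hHfin E₁ hstab
  -- degrees
  have hdegE₁ : Divisor.degree E₁ = m := by
    have h1 := helper82.l6_degree_eq_zero_of_principal hS' hE₁pr
    rw [map_sub, map_add, Divisor.degree_single, hS'.deg_one] at h1
    have h2 : Divisor.degree (D' : Divisor K' F') = 0 := D'.2
    rw [h2] at h1
    simpa [sub_eq_zero] using h1
  have hdegE₀ : Divisor.degree E₀ = m := by
    rw [← helper82.l6_degree_con C hS hS', hE₀, hdegE₁]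
  have hD₀ : E₀ - Finsupp.single P₀ m ∈ Divisor.degZero (K := K) (F := F) := by
    rw [Divisor.mem_degZero, map_sub, hdegE₀, Divisor.degree_single, hS.deg_one]
    simp
  refine ⟨Pic0.mk ⟨E₀ - Finsupp.single P₀ m, hD₀⟩, ?_⟩
  rw [helper37.conPic0_mk (helper82.l6_conOK C hS hS'), helper82.l6_mk_eq_mk_iff]
  have h7 : ((C.conDegZero (helper82.l6_conOK C hS hS') ⟨E₀ - Finsupp.single P₀ m, hD₀⟩ :
      Divisor.degZero (K := K') (F := F')) : Divisor K' F') =
      E₁ - Finsupp.single Q₀ m := by
    show C.con (E₀ - Finsupp.single P₀ m) = _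
    rw [map_sub, hE₀, helper37.con_single_of_isExt (helper82.l6_plInputs C hS) hQ₀]
  rw [h7]
  have h8 : (D' : Divisor K' F') - (E₁ - Finsupp.single Q₀ m) =
      -(E₁ - ((D' : Divisor K' F') + Finsupp.single Q₀ m)) := by abel
  rw [h8]
  exact neg_mem hE₁pr

/-- conorm classes are fixed by `Aut(K'/K)` -/
theorem act_smul_conPic0 (hS : RiemannSetting K F) (hS' : RiemannSetting K' F')
    (σ : RingAut K') (hσ : σ ∈ C.gal) (c₀ : Pic0 K F) :
    C.act σ • C.conPic0 c₀ = C.conPic0 c₀ := by
  obtain ⟨D, rfl⟩ := Pic0.mk_surjective c₀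
  rw [helper37.conPic0_mk (helper82.l6_conOK C hS hS'), SemilinearAut.pic0_smul_mk]
  congr 1
  apply Subtype.ext
  rw [SemilinearAut.coe_degZeroSMulHom]
  show C.act σ • C.con (D : Divisor K F) = C.con (D : Divisor K F)
  exact helper95.act_smul_con C hS σ hσ (fun h h' => helper99.isExt_unique C hS h h') _

/-- if `n • c'` is fixed by `Aut(K'/K)` and `Pic0(F')[n]` is finite, then the stabiliser of
`c'` in `Aut(K'/K)` has finite index -/
theorem exists_stabilizer_of_zsmul (n : ℕ) (hfin : Finite (Pic0.torsion K' F' n))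
    (c' : Pic0 K' F')
    (hc : ∀ σ ∈ C.gal, C.act σ • ((n : ℤ) • c') = (n : ℤ) • c') :
    ∃ H : Subgroup (RingAut K'), H ≤ C.gal ∧ (H.subgroupOf C.gal).FiniteIndex ∧
      ∀ σ ∈ H, C.act σ • c' = c' := by
  classical
  letI : MulAction C.gal (Pic0 K' F') := MulAction.compHom _ (helper82.l6ActHom C)
  have hsmul : ∀ (σ : C.gal) (x : Pic0 K' F'), σ • x = C.act (σ : RingAut K') • x :=
    fun σ x => rfl
  -- the orbit of `c'` is finite
  have horb : (MulAction.orbit C.gal c').Finite := by
    have hfinset : (Set.range fun t : Pic0.torsion K' F' n => (t : Pic0 K' F') + c').Finite :=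
      Set.finite_range _
    refine hfinset.subset ?_
    rintro x ⟨σ, rfl⟩
    have h1 : (n : ℤ) • (C.act (σ : RingAut K') • c' - c') = 0 := by
      rw [zsmul_sub, ← SemilinearAut.smul_zsmul, hc σ σ.2, sub_self]
    refine ⟨⟨C.act (σ : RingAut K') • c' - c', Pic0.mem_torsion.mpr h1⟩, ?_⟩
    show C.act (σ : RingAut K') • c' - c' + c' = σ • c'
    rw [sub_add_cancel, hsmul]
  set S : Subgroup C.gal := MulAction.stabilizer C.gal c' with hSdef
  haveI : Finite (MulAction.orbit C.gal c') := horb
  have : Finite (C.gal ⧸ S) :=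
    Finite.of_equiv _ (MulAction.orbitEquivQuotientStabilizer C.gal c')
  have hS : S.FiniteIndex := Subgroup.finiteIndex_of_finite_quotient
  refine ⟨S.map C.gal.subtype, Subgroup.map_subtype_le S, ?_, ?_⟩
  · have : (S.map C.gal.subtype).subgroupOf C.gal = S :=
      Subgroup.comap_map_eq_self_of_injective (Subgroup.subtype_injective _) S
    rw [this]
    exact hS
  · rintro σ ⟨s, hs, rfl⟩
    have h1 : s • c' = c' := MulAction.mem_stabilizer_iff.mp hs
    rw [hsmul] at h1
    exact h1

include C in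
/-- **descent of divisibility** along a constant field extension -/
theorem exists_zsmul_eq_of_constExt [IsAlgClosed K] [IsAlgClosed K'] [CharZero K]
    (hS : RiemannSetting K F) (hS' : RiemannSetting K' F')
    (hR : ∃ g : ℤ, ∀ D : Divisor K' F', Divisor.degree D + 1 - g ≤ (ell D : ℤ))
    (n : ℕ) (hfin : Finite (Pic0.torsion K' F' n))
    (hdiv : ∀ c : Pic0 K' F', ∃ c' : Pic0 K' F', (n : ℤ) • c' = c) (c₀ : Pic0 K F) :
    ∃ c₀' : Pic0 K F, (n : ℤ) • c₀' = c₀ := by
  obtain ⟨c', hc'⟩ := hdiv (C.conPic0 c₀)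
  obtain ⟨H, hH, hHfin, hHc⟩ := exists_stabilizer_of_zsmul C n hfin c' (fun σ hσ => by
    rw [hc']
    exact act_smul_conPic0 C hS hS' σ hσ c₀)
  obtain ⟨c₀', hc₀'⟩ := exists_conPic0_eq_of_stabilizer C hS hS' hR c' H hH hHfin hHc
  refine ⟨c₀', helper99.conPic0_injective C hS hS' ?_⟩
  rw [map_zsmul, hc₀', hc']

end descent

section final

open Fermat.Agent.LEF.helper99 Fermat.Agent.P5.helper25 Fermat.Agent.P5.helper42

universe u v

/-- `Pic0` of a complex function field is divisible (P5, unconditional). -/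
theorem pic0Divisible_complex : Pic0Divisible :=
  pic0Divisible_of_modules existsCutModel_final rhStatement_final
    Fermat.Agent.P5.helper56.combDivisible Fermat.Agent.P5.helper42.rrConStatement

/-- division by a prime, countable constant field (complex model + descent) -/
theorem pic0_divisible_prime_countable (K : Type u) (F : Type v) [Field K] [Field F]
    [Algebra K F] [IsAlgClosed K] [CharZero K] [IsCurveOver K F] [Algebra.EssFiniteType K F]
    [Countable K] (ℓ : ℕ) (hℓ : ℓ.Prime) (c : Pic0 K F) :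
    ∃ c' : Pic0 K F, (ℓ : ℤ) • c' = c := by
  obtain ⟨x, hx, hfd, -, -⟩ := exists_separating_transcendental (K := K) (F := F)
  haveI := hfd
  haveI : Countable F := helper13.countable_of_essFiniteType K F
  obtain ⟨K₁, F₁, instK₁, instF₁, instA₁, eK, eF, he⟩ := helper13.exists_small_model K F
  haveI : Countable K₁ := eK.symm.toEquiv.injective.countable
  haveI : CharZero K₁ := charZero_of_injective_ringHom eK.toRingHom.injective
  haveI : IsAlgClosed K₁ := isAlgClosed_of_ringEquiv' eK
  obtain ⟨κ₁⟩ := helper13.exists_ringHom_complex K₁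
  obtain ⟨F', instF', instA', C₁, -⟩ := helper57.exists_constExt K₁ F₁ ℂ κ₁
  obtain ⟨C, -, -⟩ := helper86.exists_constExt_comp eK eF he C₁
  obtain ⟨hx', hfd'⟩ := helper86.transcendental_ι C x hx
  haveI := hfd'
  obtain ⟨hcurve, hess⟩ := helper67.isCurveOver_of_transcendental ℂ F' (C.ι x) hx'
  haveI := hcurve
  haveI := hess
  have hS : RiemannSetting K F := riemannSetting_of_separating x hx
  have hS' : RiemannSetting ℂ F' := riemannSetting_of_separating (C.ι x) hx'
  obtain ⟨g', hg'⟩ := exists_hasRiemannGenus (K := ℂ) (F := F') (C.ι x) hx'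
  have hR : ∃ g₀ : ℤ, ∀ D : Divisor ℂ F', Divisor.degree D + 1 - g₀ ≤ (ell D : ℤ) := by
    refine ⟨g', fun D => ?_⟩
    have := HasRiemannGenus.ineq hS' hg' D
    linarith
  haveI : Fact ℓ.Prime := ⟨hℓ⟩
  have hcard : Nat.card (Pic0.torsion ℂ F' (ℓ ^ 1)) = ℓ ^ (2 * genusFF ℂ F' * 1) :=
    s27_final ℂ F' ℓ 1
  rw [pow_one] at hcard
  have hfin : Finite (Pic0.torsion ℂ F' ℓ) := by
    refine Nat.finite_of_card_ne_zero ?_
    rw [hcard]
    exact (pow_pos hℓ.pos _).ne'
  exact exists_zsmul_eq_of_constExt C hS hS' hR ℓ hfin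
    (fun c => pic0Divisible_complex F' ℓ hℓ.pos c) c

/-- division by a prime, general constant field (countable model) -/
theorem pic0_divisible_prime (K : Type u) (F : Type v) [Field K] [Field F]
    [Algebra K F] [IsAlgClosed K] [CharZero K] [IsCurveOver K F] [Algebra.EssFiniteType K F]
    (ℓ : ℕ) (hℓ : ℓ.Prime) (c : Pic0 K F) :
    ∃ c' : Pic0 K F, (ℓ : ℤ) • c' = c := by
  classical
  obtain ⟨M⟩ := existsCountableModel_uncond.{u, v} K F {c}
  letI := M.fieldK
  letI := M.fieldF
  letI := M.alg
  haveI := M.algClosed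
  haveI := M.charZero
  haveI := M.curve
  haveI := M.ess
  haveI := M.countable
  obtain ⟨c₀, hc₀⟩ := M.mem_range c (Finset.mem_singleton_self c)
  obtain ⟨c₀', hc₀'⟩ := pic0_divisible_prime_countable M.K₀ M.F₀ ℓ hℓ c₀
  refine ⟨M.tr.con c₀', ?_⟩
  rw [← map_zsmul, hc₀', hc₀]

/-- **[W3b]** `Pic0` of the function field of a curve over an algebraically closed field of
characteristic `0` is divisible. -/
theorem pic0_divisible (K : Type u) (F : Type v) [Field K] [Field F]
    [Algebra K F] [IsAlgClosed K] [CharZero K] [IsCurveOver K F] [Algebra.EssFiniteType K F]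
    (n : ℕ) (hn : 0 < n) (c : Pic0 K F) :
    ∃ c' : Pic0 K F, (n : ℤ) • c' = c := by
  induction n using Nat.recOnMul generalizing c with
  | zero => exact absurd hn (lt_irrefl 0)
  | one => exact ⟨c, by simp⟩
  | prime p hp => exact pic0_divisible_prime K F p hp c
  | mul a b iha ihb =>
    have ha : 0 < a := Nat.pos_of_ne_zero (fun h => by simp [h] at hn)
    have hb : 0 < b := Nat.pos_of_ne_zero (fun h => by simp [h] at hn)
    obtain ⟨c₁, hc₁⟩ := iha ha c
    obtain ⟨c₂, hc₂⟩ := ihb hb c₁
    refine ⟨c₂, ?_⟩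
    rw [Nat.cast_mul, mul_smul, hc₂, hc₁]

/-- **[W3b]** for `K = AlgebraicClosure ℚ`. -/
theorem pic0_divisible_algebraicClosure_rat (F : Type v) [Field F]
    [Algebra (AlgebraicClosure ℚ) F] [IsCurveOver (AlgebraicClosure ℚ) F]
    [Algebra.EssFiniteType (AlgebraicClosure ℚ) F]
    (n : ℕ) (hn : 0 < n) (c : Pic0 (AlgebraicClosure ℚ) F) :
    ∃ c' : Pic0 (AlgebraicClosure ℚ) F, (n : ℤ) • c' = c :=
  pic0_divisible (AlgebraicClosure ℚ) F n hn c

/-- the `n`-th power map version: multiplication by `n` is surjective on `Pic0` -/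
theorem pic0_zsmul_surjective (K : Type u) (F : Type v) [Field K] [Field F]
    [Algebra K F] [IsAlgClosed K] [CharZero K] [IsCurveOver K F] [Algebra.EssFiniteType K F]
    (n : ℕ) (hn : 0 < n) : Function.Surjective (fun c : Pic0 K F => (n : ℤ) • c) :=
  fun c => pic0_divisible K F n hn c

end final

end Fermat.Agent.T6.helper27
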