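import Mathlib
import Fermat.Agent.T6.helper73_T6Iface
import Fermat.Agent.T6.helper82_Crit
import Fermat.Agent.T6.helper66_Level
import Fermat.Agent.T6.helper85_FinT6
import Fermat.Agent.S54.helper91_Frobenius

/-!
# T6 [ASM] (helper30): the frozen statement S19 from the two open block statements

`s19_of_statements : WeilStatement → IntStatement → (frozen S19, verbatim)`.

Chain (blueprint of helper73, §0), everything else is on main:

* `helper66.s19_of_good`  : S19 at every level from `OrderStatement M ℓ k` at the good levels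
  (`4 ∣ M ∨ 9 ∣ M`, `ℓ ∤ M`)                                              [LEVEL];
* `helper82.crit_liesOver`: `(TI)` gives a Hopf order `helper33.IsHopfOrder` [A3 = CRIT, A1];
* `helper85.finite_torsionBy_jZero`, `isCurveOver_modularFunctionFieldBar`    [FIN, CURVE];
* `S54.helper91.exists_valuationSubring_liesOver` : a valuation ring of `ℚ̄` over `ℓ`.

The two hypotheses are the interface statements of `helper73_T6Iface`:
* `WeilStatement` : every character of `Pic0[ℓ^k]` is a Weil character   [W0-W3, PERF];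
* `IntStatement`  : at a good level the Weil characters satisfy `(TI)`    [I1-I5].
-/

set_option autoImplicit false

noncomputable section

namespace Fermat.Agent.T6.helper30

open AlgebraicCurve ModularCurve
open Fermat.Agent.T6.helper73

/-- The conclusion of the frozen statement S19 (verbatim). -/
def S19Concl (p ℓ k : ℕ) : Prop :=
  ∃ (H : Type) (_ : CommRing H) (_ : HopfAlgebra (GaloisRep.ratLocalizedAt ℓ) H),
    Module.Finite (GaloisRep.ratLocalizedAt ℓ) H ∧ Module.Flat (GaloisRep.ratLocalizedAt ℓ) H ∧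
    Coalgebra.IsCocomm (GaloisRep.ratLocalizedAt ℓ) H ∧
    ∃ e : WithConv (H →ₐ[GaloisRep.ratLocalizedAt ℓ] AlgebraicClosure ℚ) ≃
        ↥(Submodule.torsionBy ℤ (JZero p) ((ℓ : ℤ) ^ k)),
      (∀ f g, e (f * g) = e f + e g) ∧
      ∀ (σ : AlgebraicClosure ℚ ≃ₐ[ℚ] AlgebraicClosure ℚ)
        (f g : WithConv (H →ₐ[GaloisRep.ratLocalizedAt ℓ] AlgebraicClosure ℚ)),
        (∀ h : H, g h = σ (f h)) → ((e g : JZero p)) = σ • (e f : JZero p)

/-- **[ASM-ORD]** `(TI)` at level `M` gives the order statement of [LEVEL] at level `M`. -/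
theorem order_of_ti (M : ℕ) [NeZero M] (ℓ : ℕ) [Fact ℓ.Prime] (k : ℕ)
    (A : ValuationSubring Kq) (hA : A.LiesOverPrime ℓ) (hTI : TI A (actTors M ℓ k)) :
    Fermat.Agent.T6.helper66.OrderStatement M ℓ k := by
  have hfin : Finite (Fermat.Agent.T6.helper66.Tors M ((ℓ : ℤ) ^ k)) :=
    Fermat.Agent.T6.helper85.finite_torsionBy_jZero M ℓ k
  refine ⟨hfin, ?_⟩
  refine Fermat.Agent.T6.helper82.crit_liesOver ℓ A
    (Fermat.Agent.T6.helper66.torsAct M ((ℓ : ℤ) ^ k)) hA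
    (Fermat.Agent.T6.helper66.torsAct_surjective M _)
    (fun σ u v => Subtype.ext (smul_add σ (u : JZero M) (v : JZero M))) ?_
  intro χ h0 hmul
  obtain ⟨n, a, f, ha, hfA, hfeq, hχ⟩ := hTI χ h0 hmul
  exact ⟨n, a, f, ha, hfeq, hfA, hχ⟩

/-- **[ASM]** S19 from `(TI)` at the good levels. -/
theorem s19_of_ti
    (h : ∀ (M : ℕ) [NeZero M] (ℓ : ℕ) [Fact ℓ.Prime] (k : ℕ), (4 ∣ M ∨ 9 ∣ M) → ¬ ℓ ∣ M →
      ∃ A : ValuationSubring Kq, A.LiesOverPrime ℓ ∧ TI A (actTors M ℓ k))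
    (p : ℕ) [NeZero p] (ℓ : ℕ) [Fact ℓ.Prime] (hℓp : ¬ ℓ ∣ p) (k : ℕ) : S19Concl p ℓ k :=
  Fermat.Agent.T6.helper66.s19_of_good
    (fun M _ ℓ _ k hM hℓ => by
      obtain ⟨A, hA, hTI⟩ := h M ℓ k hM hℓ
      exact order_of_ti M ℓ k A hA hTI) p ℓ hℓp k

/-- **[ASM]** S19 from the Weil characters at the good levels and [INT]. -/
theorem s19_of_weil_int
    (hW : ∀ (M : ℕ) [NeZero M] (ℓ : ℕ) [Fact ℓ.Prime] (k : ℕ), (4 ∣ M ∨ 9 ∣ M) → ¬ ℓ ∣ M →
      WeilAt Kq (modularFunctionFieldBar M) ℓ k)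
    (hI : IntStatement)
    (p : ℕ) [NeZero p] (ℓ : ℕ) [Fact ℓ.Prime] (hℓp : ¬ ℓ ∣ p) (k : ℕ) : S19Concl p ℓ k := by
  refine s19_of_ti (fun M _ ℓ _ k hM hℓ => ?_) p ℓ hℓp k
  have hprime : ℓ.Prime := Fact.out
  obtain ⟨A, hA⟩ := Fermat.Agent.S54.helper91.exists_valuationSubring_liesOver hprime
  exact ⟨A, hA, hI M ℓ A ⟨hM, hprime, hℓ, hA⟩ k (hW M ℓ k hM hℓ)⟩

/-- **[ASM]** the frozen statement S19 from the two interface statements [WEIL] and [INT]. -/
theorem s19_of_statements (hW : WeilStatement) (hI : IntStatement)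
    (p : ℕ) [NeZero p] (ℓ : ℕ) [Fact ℓ.Prime] (hℓp : ¬ ℓ ∣ p) (k : ℕ) : S19Concl p ℓ k := by
  refine s19_of_weil_int (fun M _ ℓ _ k _ _ => ?_) hI p ℓ hℓp k
  obtain ⟨h1, h2⟩ := Fermat.Agent.T6.helper85.isCurveOver_modularFunctionFieldBar M
  exact @hW Kq ↥(modularFunctionFieldBar M) _ _ _ _ _ h1 h2 ℓ _ k

end Fermat.Agent.T6.helper30
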