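import Mathlib
import Fermat.Agent.T6.helper30_Asm
import Fermat.Agent.T6.helper17_WeilEnd
import Fermat.Agent.T6.helper3_IntStatement

/-!
# T6 [ASM] (helper30): the frozen statement S19 from [W1] and the geometric contract [I5]

`s19_of_w1_geo : helper17.W1Statement → helper3.GeoStatement → (frozen S19, verbatim)`.

* `helper17.weilStatement_of_w1 : W1Statement → helper73.WeilStatement`   [WEIL end];
* `helper3.int_of_geo : GeoStatement → helper73.IntStatement`             [INT end];
* `helper30.s19_of_statements : WeilStatement → IntStatement → S19`       [ASM].

After this file the statement S19 is exactly the two propositions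
* `helper17.W1Statement` : Weil reciprocity `helper26.WeilRec K F` for every function field of one
  variable over an algebraically closed field of characteristic zero (in `Type`);
* `helper3.GeoStatement` : at every good pair `(M, A)` the geometric contract `WeilGeo`.
-/

set_option autoImplicit false

noncomputable section

namespace Fermat.Agent.T6.helper30

/-- **[ASM]** the frozen statement S19 from Weil reciprocity and the geometric contract. -/
theorem s19_of_w1_geo (h1 : Fermat.Agent.T6.helper17.W1Statement)
    (hG : Fermat.Agent.T6.helper3.GeoStatement)
    (p : ℕ) [NeZero p] (ℓ : ℕ) [Fact ℓ.Prime] (hℓp : ¬ ℓ ∣ p) (k : ℕ) : S19Concl p ℓ k :=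
  s19_of_statements (Fermat.Agent.T6.helper17.weilStatement_of_w1 h1)
    (Fermat.Agent.T6.helper3.int_of_geo hG) p ℓ hℓp k

end Fermat.Agent.T6.helper30
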