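import Mathlib
import Fermat.Agent.S28.helper94_Zl
import Fermat.Agent.S51.GaloisFixed

/-!
# T6 : the Galois-descent bridge for Hopf orders of functions

`R` is a principal ideal domain with fraction field `k`, `K / k` is a (possibly infinite)
Galois extension, `M` is a finite set with a map `act : Gal(K/k) → M → M`, and `H` is an
`R`-subalgebra of the algebra of functions `M → K` such that

* every `h ∈ H` is Galois-equivariant, `h (act σ x) = σ (h x)`;
* `H` is a finite `R`-module;
* `H` separates the points of `M`.

Then `H` has an `R`-basis which is a `K`-basis of `M → K` (`exists_basis_of_equivariant`), in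
particular `rank_R H = #M`, and the value of any `h ∈ H` at a Galois-fixed point lies in `R`
(`apply_fixed_mem_range`).  `descentBridge` is the specialisation to
`R = GaloisRep.ratLocalizedAt ℓ`, `k = ℚ`, `K = AlgebraicClosure ℚ`, which is the situation of
the frozen statements S19 and `GaloisRepAdic.IsFlatAt`.

Mathlib only (plus the two landed facts `ℤ_(ℓ)` is a PID with fraction field `ℚ` and
`ℚ̄ / ℚ` is Galois).
-/

set_option autoImplicit false

namespace Fermat.Agent.T6.helper30

open scoped BigOperators

/-- **Galois descent of linear independence.**  Functions on a `Gal(K/k)`-set with values in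
`K` which are Galois-equivariant and linearly independent over `k` are linearly independent
over `K`. -/
theorem linearIndependent_of_equivariant {k K M ι : Type*} [Field k] [Field K] [Algebra k K]
    [IsGalois k K] (act : (K ≃ₐ[k] K) → M → M) (f : ι → M → K)
    (hf : ∀ i (σ : K ≃ₐ[k] K) x, f i (act σ x) = σ (f i x))
    (hk : LinearIndependent k f) : LinearIndependent K f := by
  classical
  rw [linearIndependent_iff']
  intro s
  induction s using Finset.induction_on with
  | empty => intro g _ i hi; simp at hi
  | insert a s has ih =>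
    intro g hg
    have hga : g a = 0 := by
      by_contra hne
      set c : ι → K := fun i => g i / g a with hc
      have hrel : ∀ x, f a x + ∑ i ∈ s, c i * f i x = 0 := by
        intro x
        have h1 := congrFun hg x
        rw [Finset.sum_insert has] at h1
        simp only [Pi.add_apply, Pi.smul_apply, Finset.sum_apply, smul_eq_mul,
          Pi.zero_apply] at h1
        have h2 : g a * (f a x + ∑ i ∈ s, c i * f i x) = 0 := by
          rw [mul_add, Finset.mul_sum, ← h1]
          congr 1
          apply Finset.sum_congr rfl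
          intro i _
          simp only [hc]
          field_simp
        exact (mul_eq_zero.mp h2).resolve_left hne
      have hfix : ∀ i ∈ s, ∀ σ : K ≃ₐ[k] K, σ (c i) = c i := by
        intro i hi σ
        have hrelσ : ∀ x, f a x + ∑ j ∈ s, σ (c j) * f j x = 0 := by
          intro x
          have h1 := hrel (act σ⁻¹ x)
          simp only [hf] at h1
          have h2 := congrArg σ h1
          simpa [map_add, map_sum, map_mul] using h2
        have hdiff : ∑ j ∈ s, (σ (c j) - c j) • f j = 0 := by
          funext x
          have h1 := hrelσ x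
          have h2 := hrel x
          simp only [Finset.sum_apply, Pi.smul_apply, smul_eq_mul, Pi.zero_apply, sub_mul,
            Finset.sum_sub_distrib]
          linear_combination h1 - h2
        exact sub_eq_zero.mp (ih _ hdiff i hi)
      have hrat : ∀ i ∈ s, ∃ d : k, algebraMap k K d = c i := fun i hi =>
        (InfiniteGalois.mem_range_algebraMap_iff_fixed (k := k) (K := K) (c i)).mpr (hfix i hi)
      let d : ι → k := fun i => if h : i ∈ s then (hrat i h).choose else 1
      have hd : ∀ i ∈ s, algebraMap k K (d i) = c i := by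
        intro i hi
        simp only [d, dif_pos hi]
        exact (hrat i hi).choose_spec
      have hda : d a = 1 := by simp only [d, dif_neg has]
      have hkrel : ∑ i ∈ insert a s, d i • f i = 0 := by
        funext x
        rw [Finset.sum_insert has]
        simp only [Pi.add_apply, Pi.smul_apply, Finset.sum_apply, Pi.zero_apply, hda, one_smul]
        rw [← hrel x]
        congr 1
        apply Finset.sum_congr rfl
        intro i hi
        rw [Algebra.smul_def, hd i hi]
      have := linearIndependent_iff'.mp hk _ d hkrel a (Finset.mem_insert_self a s)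
      rw [hda] at this
      exact one_ne_zero this
    have hs : ∑ i ∈ s, g i • f i = 0 := by
      rw [Finset.sum_insert has, hga, zero_smul, zero_add] at hg
      exact hg
    intro i hi
    rcases Finset.mem_insert.mp hi with rfl | hi
    · exact hga
    · exact ih g hs i hi

/-- On a finite set, a subalgebra of functions (over any base ring) which separates points
spans all functions over the field of values. -/
theorem span_eq_top_of_separates {R K M : Type*} [CommRing R] [Field K] [Algebra R K] [Finite M]
    (H : Subalgebra R (M → K))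
    (hsep : ∀ x y : M, x ≠ y → ∃ h ∈ H, h x ≠ h y) :
    Submodule.span K (H : Set (M → K)) = ⊤ := by
  classical
  cases nonempty_fintype M
  set A : Subalgebra K (M → K) := Algebra.adjoin K (H : Set (M → K)) with hA
  have hAspan : Subalgebra.toSubmodule A = Submodule.span K (H : Set (M → K)) := by
    rw [hA, Algebra.adjoin_eq_span]
    congr 1
    exact congrArg _ (Submonoid.closure_eq H.toSubmonoid)
  have hsingle : ∀ x : M, Pi.single x (1 : K) ∈ A := by
    intro x
    have hex : ∀ y : M, ∃ e ∈ A, e x = 1 ∧ (y ≠ x → e y = 0) := by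
      intro y
      by_cases hxy : y = x
      · exact ⟨1, one_mem _, rfl, fun h => absurd hxy h⟩
      · obtain ⟨h, hh, hne⟩ := hsep x y (Ne.symm hxy)
        have hne' : h x - h y ≠ 0 := sub_ne_zero.mpr hne
        refine ⟨(h x - h y)⁻¹ • (h - algebraMap K (M → K) (h y)), ?_, ?_, ?_⟩
        · exact A.smul_mem (A.sub_mem (Algebra.subset_adjoin hh) (A.algebraMap_mem _)) _
        · simp only [Pi.smul_apply, Pi.sub_apply, Pi.algebraMap_apply, Algebra.algebraMap_self,
            RingHom.id_apply, smul_eq_mul]
          exact inv_mul_cancel₀ hne'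
        · intro _
          simp
    choose e heA hex1 hey using hex
    have hprod : Pi.single x (1 : K) = ∏ y, e y := by
      funext z
      rw [Finset.prod_apply]
      by_cases hz : z = x
      · subst hz
        simp [hex1]
      · rw [Pi.single_eq_of_ne hz]
        symm
        exact Finset.prod_eq_zero (Finset.mem_univ z) (hey z hz)
    rw [hprod]
    exact prod_mem (fun y _ => heA y)
  have htop : A = ⊤ := by
    rw [eq_top_iff]
    intro g _
    have hg : g = ∑ x, g x • Pi.single x (1 : K) := by
      funext z
      simp [Finset.sum_apply, Pi.single_apply]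
    rw [hg]
    exact sum_mem (fun x _ => A.smul_mem (hsingle x) _)
  rw [← hAspan, htop]
  simp

section Bridge

theorem algebraMap_injective_of_tower (R k K : Type*) [CommRing R] [IsDomain R]
    [Field k] [Field K] [Algebra R k] [IsFractionRing R k] [Algebra k K] [Algebra R K]
    [IsScalarTower R k K] : Function.Injective (algebraMap R K) := by
  rw [IsScalarTower.algebraMap_eq R k K]
  exact (algebraMap k K).injective.comp (IsFractionRing.injective R k)

/-- A subalgebra of functions with values in an extension of the fraction field is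
torsion free. -/
theorem isTorsionFree_subalgebra {R : Type*} (k : Type*) {K M : Type*} [CommRing R] [IsDomain R]
    [Field k] [Field K] [Algebra R k] [IsFractionRing R k] [Algebra k K] [Algebra R K]
    [IsScalarTower R k K] (H : Subalgebra R (M → K)) : Module.IsTorsionFree R H := by
  refine ⟨fun r hr x y hxy => ?_⟩
  have hr0 : algebraMap R K r ≠ 0 := by
    intro h0
    have : r = 0 := algebraMap_injective_of_tower R k K (by rw [h0, map_zero])
    exact hr.ne_zero this
  apply Subtype.ext
  funext m
  have h1 : (r • x : H) = r • y := hxy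
  have h2 := congrArg (fun z : H => (z : M → K) m) h1
  simp only [Algebra.smul_def] at h2
  exact mul_left_cancel₀ hr0 h2

variable {R k K M : Type*} [CommRing R] [IsDomain R] [IsPrincipalIdealRing R]
  [Field k] [Field K] [Algebra R k] [IsFractionRing R k] [Algebra k K] [Algebra R K]
  [IsScalarTower R k K]

variable [IsGalois k K]

/-- **The descent bridge.**  A finite `R`-subalgebra of Galois-equivariant functions on a finite
Galois set which separates points has an `R`-basis which is a `K`-basis of the space of all
functions; in particular its rank is the cardinality of the set. -/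
theorem exists_basis_of_equivariant [Finite M] (act : (K ≃ₐ[k] K) → M → M) (H : Subalgebra R (M → K))
    (hequiv : ∀ h ∈ H, ∀ (σ : K ≃ₐ[k] K) x, h (act σ x) = σ (h x))
    (hfin : Module.Finite R H)
    (hsep : ∀ x y : M, x ≠ y → ∃ h ∈ H, h x ≠ h y) :
    ∃ (n : ℕ) (b : Module.Basis (Fin n) R H),
      LinearIndependent K (fun i => ((b i : H) : M → K)) ∧
      Submodule.span K (Set.range fun i => ((b i : H) : M → K)) = ⊤ ∧ n = Nat.card M := by
  classical
  cases nonempty_fintype M
  have htf : Module.IsTorsionFree R H := isTorsionFree_subalgebra k H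
  have hfree : Module.Free R H := Module.free_of_finite_type_torsion_free'
  let b : Module.Basis (Fin (Module.finrank R H)) R H := Module.finBasis R H
  have hR : LinearIndependent R (fun i => ((b i : H) : M → K)) := by
    have := b.linearIndependent.map' H.val.toLinearMap
      (LinearMap.ker_eq_bot.mpr Subtype.val_injective)
    exact this
  have hk : LinearIndependent k (fun i => ((b i : H) : M → K)) :=
    (LinearIndependent.iff_fractionRing R k).mp hR
  have hK : LinearIndependent K (fun i => ((b i : H) : M → K)) :=
    linearIndependent_of_equivariant act _ (fun i σ x => hequiv _ (b i).2 σ x) hk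
  have hspan : Submodule.span K (Set.range fun i => ((b i : H) : M → K)) = ⊤ := by
    rw [eq_top_iff, ← span_eq_top_of_separates H hsep]
    apply Submodule.span_le.mpr
    intro h hh
    have hrepr := b.sum_repr ⟨h, hh⟩
    have h1 : h = ∑ i, (b.repr ⟨h, hh⟩ i) • ((b i : H) : M → K) := by
      have := congrArg (fun z : H => (z : M → K)) hrepr
      simp only [AddSubmonoidClass.coe_finsetSum, Subalgebra.coe_smul] at this
      exact this.symm
    rw [h1]
    refine Submodule.sum_mem _ (fun i _ => ?_)
    rw [← algebraMap_smul K (b.repr ⟨h, hh⟩ i) ((b i : H) : M → K)]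
    exact Submodule.smul_mem _ _ (Submodule.subset_span ⟨i, rfl⟩)
  refine ⟨_, b, hK, hspan, ?_⟩
  have hcard := Module.finrank_eq_card_basis (Module.Basis.mk hK hspan.ge)
  rw [Module.finrank_fintype_fun_eq_card, Fintype.card_fin] at hcard
  rw [Nat.card_eq_fintype_card, hcard]

/-- The value of an equivariant integral function at a Galois-fixed point lies in `R`. -/
theorem apply_fixed_mem_range (act : (K ≃ₐ[k] K) → M → M) (H : Subalgebra R (M → K))
    (hequiv : ∀ h ∈ H, ∀ (σ : K ≃ₐ[k] K) x, h (act σ x) = σ (h x))
    (hfin : Module.Finite R H) (x₀ : M) (hx₀ : ∀ σ, act σ x₀ = x₀) :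
    ∀ h ∈ H, h x₀ ∈ Set.range (algebraMap R K) := by
  intro h hh
  have hfixed : ∀ σ : K ≃ₐ[k] K, σ (h x₀) = h x₀ := fun σ => by
    rw [← hequiv h hh σ x₀, hx₀]
  obtain ⟨q, hq⟩ :=
    (InfiniteGalois.mem_range_algebraMap_iff_fixed (k := k) (K := K) (h x₀)).mpr hfixed
  have hint : IsIntegral R (⟨h, hh⟩ : H) := IsIntegral.of_finite R _
  have hint2 : IsIntegral R (h x₀) := by
    have := hint.map ((Pi.evalAlgHom R (fun _ : M => K) x₀).comp H.val)
    simpa using this
  rw [← hq] at hint2
  have hint3 : IsIntegral R q :=
    (isIntegral_algHom_iff (IsScalarTower.toAlgHom R k K) (algebraMap k K).injective).mp hint2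
  obtain ⟨r, hr⟩ := IsIntegrallyClosed.isIntegral_iff.mp hint3
  exact ⟨r, by rw [IsScalarTower.algebraMap_apply R k K, hr, hq]⟩

end Bridge

section Specialisation

/-- **The descent bridge over `ℤ_(ℓ)`.**  For a finite `ℤ_(ℓ)`-subalgebra `H` of equivariant
functions on a finite `G_ℚ`-set `M` which separates points:
* `H` has a `ℤ_(ℓ)`-basis which is a `ℚ̄`-basis of all functions, and `rank H = #M`;
* the value of every `h ∈ H` at a `G_ℚ`-fixed point lies in `ℤ_(ℓ)`. -/
theorem descentBridge (ℓ : ℕ) [Fact ℓ.Prime] {M : Type*} [Finite M]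
    (act : (AlgebraicClosure ℚ ≃ₐ[ℚ] AlgebraicClosure ℚ) → M → M)
    (H : Subalgebra ↥(GaloisRep.ratLocalizedAt ℓ) (M → AlgebraicClosure ℚ))
    (hequiv : ∀ h ∈ H, ∀ (σ : AlgebraicClosure ℚ ≃ₐ[ℚ] AlgebraicClosure ℚ) x,
      h (act σ x) = σ (h x))
    (hfin : Module.Finite ↥(GaloisRep.ratLocalizedAt ℓ) H)
    (hsep : ∀ x y : M, x ≠ y → ∃ h ∈ H, h x ≠ h y) :
    (∃ (n : ℕ) (b : Module.Basis (Fin n) ↥(GaloisRep.ratLocalizedAt ℓ) H),
      LinearIndependent (AlgebraicClosure ℚ)
        (fun i => ((b i : H) : M → AlgebraicClosure ℚ)) ∧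
      Submodule.span (AlgebraicClosure ℚ)
        (Set.range fun i => ((b i : H) : M → AlgebraicClosure ℚ)) = ⊤ ∧
      n = Nat.card M) ∧
    ∀ x₀ : M, (∀ σ, act σ x₀ = x₀) → ∀ h ∈ H,
      h x₀ ∈ Set.range (algebraMap ↥(GaloisRep.ratLocalizedAt ℓ) (AlgebraicClosure ℚ)) := by
  have h1 : IsPrincipalIdealRing ↥(GaloisRep.ratLocalizedAt ℓ) :=
    Fermat.Agent.S28.helper94.isPrincipalIdealRing_Zl ℓ
  have h2 : IsFractionRing ↥(GaloisRep.ratLocalizedAt ℓ) ℚ :=
    Fermat.Agent.S28.helper94.isFractionRing_Zl ℓ
  have h3 : IsGalois ℚ (AlgebraicClosure ℚ) := Fermat.Agent.S51.isGalois_Qbar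
  exact ⟨exists_basis_of_equivariant (k := ℚ) act H hequiv hfin hsep,
    fun x₀ hx₀ => apply_fixed_mem_range (k := ℚ) act H hequiv hfin x₀ hx₀⟩

/-- The rank of a Hopf order of functions is the number of points. -/
theorem finrank_eq_card (ℓ : ℕ) [Fact ℓ.Prime] {M : Type*} [Finite M]
    (act : (AlgebraicClosure ℚ ≃ₐ[ℚ] AlgebraicClosure ℚ) → M → M)
    (H : Subalgebra ↥(GaloisRep.ratLocalizedAt ℓ) (M → AlgebraicClosure ℚ))
    (hequiv : ∀ h ∈ H, ∀ (σ : AlgebraicClosure ℚ ≃ₐ[ℚ] AlgebraicClosure ℚ) x,
      h (act σ x) = σ (h x))
    (hfin : Module.Finite ↥(GaloisRep.ratLocalizedAt ℓ) H)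
    (hsep : ∀ x y : M, x ≠ y → ∃ h ∈ H, h x ≠ h y) :
    Module.finrank ↥(GaloisRep.ratLocalizedAt ℓ) H = Nat.card M := by
  obtain ⟨⟨n, b, -, -, hn⟩, -⟩ := descentBridge ℓ act H hequiv hfin hsep
  rw [Module.finrank_eq_card_basis b, Fintype.card_fin, hn]

end Specialisation

end Fermat.Agent.T6.helper30
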