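import Mathlib

/-!
# T6 [ASM] / [PERF-COUNT] (helper30): from non-degeneracy on elements of order `ℓ` to
"every character is a pairing character"

Mathlib only.  `T` is a finite abelian group (additive), `K` an algebraically closed field of
characteristic `0`, `e : T → T → Kˣ` a bilinear pairing.

* `right_nondeg_of_prime` : if `T` is an `ℓ`-group and the right kernel of `e` contains no
  element of order `ℓ`, then the right kernel is trivial.
* `pairing_bijective` : if the right kernel is trivial then `y ↦ e (·, y)` is a bijection from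
  `T` onto the characters `Multiplicative T →* Kˣ`.
* `exists_eq_pairing` : every character `χ` is `e (·, y)` for some `y`.
* `exists_eq_pairing_pow` : for `d` prime to the exponent, every character is
  `u ↦ (e u y) ^ d` for some `y`.
* `exists_pow_smul_eq_of_card` : in an abelian group whose `ℓ ^ j`-torsion has `ℓ ^ (c * j)`
  elements for all `j`, multiplication by `ℓ ^ (k - 1)` maps the `ℓ ^ k`-torsion ONTO the
  `ℓ`-torsion.
* `right_nondeg_of_level` : the level-`k` pairing is right non-degenerate as soon as the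
  level-one pairing is, given the compatibility `e_k (u, y) = e_1 (ℓ ^ (k - 1) u, y)` for
  `ℓ y = 0`.
-/

set_option autoImplicit false

namespace Fermat.Agent.T6.helper30

open scoped BigOperators

section PerfCount

variable {T : Type*} [AddCommGroup T] {K : Type*} [Field K]

/-- A bilinear pairing with values in the units of a field. -/
structure IsBilinPairing (e : T → T → Kˣ) : Prop where
  add_left : ∀ u u' y, e (u + u') y = e u y * e u' y
  add_right : ∀ u y y', e u (y + y') = e u y * e u y'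

namespace IsBilinPairing

variable {e : T → T → Kˣ} (he : IsBilinPairing e)
include he

theorem zero_right (u : T) : e u 0 = 1 := by
  have h := he.add_right u 0 0
  rw [add_zero] at h
  exact (mul_eq_left.mp h.symm)

theorem zero_left (y : T) : e 0 y = 1 := by
  have h := he.add_left 0 0 y
  rw [add_zero] at h
  exact (mul_eq_left.mp h.symm)

theorem neg_right (u y : T) : e u (-y) = (e u y)⁻¹ := by
  have h := he.add_right u y (-y)
  rw [add_neg_cancel, he.zero_right] at h
  exact (eq_inv_of_mul_eq_one_right h.symm)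

theorem sub_right (u y y' : T) : e u (y - y') = e u y * (e u y')⁻¹ := by
  rw [sub_eq_add_neg, he.add_right, he.neg_right]

theorem nsmul_right (u y : T) (n : ℕ) : e u (n • y) = (e u y) ^ n := by
  induction n with
  | zero => rw [zero_smul, he.zero_right, pow_zero]
  | succ n ih => rw [succ_nsmul, he.add_right, ih, pow_succ]

theorem nsmul_left (u y : T) (n : ℕ) : e (n • u) y = (e u y) ^ n := by
  induction n with
  | zero => rw [zero_smul, he.zero_left, pow_zero]
  | succ n ih => rw [succ_nsmul, he.add_left, ih, pow_succ]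

/-- The character `e (·, y)`. -/
def char (y : T) : Multiplicative T →* Kˣ where
  toFun u := e u.toAdd y
  map_one' := he.zero_left y
  map_mul' _ _ := he.add_left _ _ y

@[simp] theorem char_apply (y : T) (u : Multiplicative T) : he.char y u = e u.toAdd y := rfl

/-- If `T` is an `ℓ`-group and no element of order `ℓ` lies in the right kernel, then the right
kernel is trivial. -/
theorem right_nondeg_of_prime (ℓ : ℕ) (hT : ∀ x : T, ∃ k : ℕ, (ℓ ^ k) • x = 0)
    (h : ∀ y : T, y ≠ 0 → ℓ • y = 0 → ∃ u, e u y ≠ 1) :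
    ∀ y : T, y ≠ 0 → ∃ u, e u y ≠ 1 := by
  classical
  intro y hy
  obtain ⟨k, hk⟩ : ∃ k : ℕ, (ℓ ^ k) • y = 0 := hT y
  -- the least such `k`
  let k₀ := Nat.find (⟨k, hk⟩ : ∃ k : ℕ, (ℓ ^ k) • y = 0)
  have hk₀ : (ℓ ^ k₀) • y = 0 := Nat.find_spec (⟨k, hk⟩ : ∃ k : ℕ, (ℓ ^ k) • y = 0)
  have hk₀pos : k₀ ≠ 0 := by
    intro h0
    rw [h0, pow_zero, one_smul] at hk₀
    exact hy hk₀
  obtain ⟨j, hj⟩ := Nat.exists_eq_succ_of_ne_zero hk₀pos
  have hjlt : j < k₀ := by omega
  have hyj : (ℓ ^ j) • y ≠ 0 := Nat.find_min (⟨k, hk⟩ : ∃ k : ℕ, (ℓ ^ k) • y = 0) hjlt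
  have hℓ : ℓ • ((ℓ ^ j) • y) = 0 := by
    rw [smul_smul, ← pow_succ', ← Nat.succ_eq_add_one, ← hj]
    exact hk₀
  obtain ⟨u, hu⟩ := h _ hyj hℓ
  refine ⟨u, fun h1 => hu ?_⟩
  rw [he.nsmul_right, h1, one_pow]

variable [Finite T] [IsAlgClosed K] [CharZero K]

omit he in
theorem card_char : Nat.card (Multiplicative T →* Kˣ) = Nat.card T := by
  have hne : NeZero (Monoid.exponent (Multiplicative T)) :=
    ⟨Monoid.exponent_ne_zero_of_finite⟩
  have := CommGroup.card_monoidHom_of_hasEnoughRootsOfUnity (Multiplicative T) K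
  rw [this]
  rfl

/-- A pairing with trivial right kernel identifies `T` with its character group. -/
theorem pairing_bijective (hnd : ∀ y : T, y ≠ 0 → ∃ u, e u y ≠ 1) :
    Function.Bijective he.char := by
  have hinj : Function.Injective he.char := by
    intro y y' hyy'
    by_contra hne
    obtain ⟨u, hu⟩ := hnd (y - y') (sub_ne_zero.mpr hne)
    apply hu
    have h1 : e u y = e u y' := by
      have := DFunLike.congr_fun hyy' (Multiplicative.ofAdd u)
      simpa using this
    rw [he.sub_right, h1, mul_inv_cancel]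
  have hfin : Finite (Multiplicative T →* Kˣ) := by
    apply Nat.finite_of_card_ne_zero
    rw [card_char]
    exact Nat.card_pos.ne'
  exact hinj.bijective_of_nat_card_le (le_of_eq card_char)

/-- **Every character is a pairing character.** -/
theorem exists_eq_pairing (hnd : ∀ y : T, y ≠ 0 → ∃ u, e u y ≠ 1)
    (χ : T → Kˣ) (hχ : ∀ u u', χ (u + u') = χ u * χ u') : ∃ y, ∀ u, χ u = e u y := by
  have hχ0 : χ 0 = 1 := by
    have h := hχ 0 0
    rw [add_zero] at h
    exact (mul_eq_left.mp h.symm)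
  let χ' : Multiplicative T →* Kˣ :=
    { toFun := fun u => χ u.toAdd
      map_one' := hχ0
      map_mul' := fun u u' => hχ _ _ }
  obtain ⟨y, hy⟩ := (he.pairing_bijective hnd).2 χ'
  refine ⟨y, fun u => ?_⟩
  have := DFunLike.congr_fun hy (Multiplicative.ofAdd u)
  simpa [χ'] using this.symm

/-- For `d` prime to `n`, where `n` kills `T`, every character is the `d`-th power of a pairing
character. -/
theorem exists_eq_pairing_pow (hnd : ∀ y : T, y ≠ 0 → ∃ u, e u y ≠ 1)
    (n d : ℕ) (hn : ∀ x : T, n • x = 0) (hd : Nat.Coprime d n)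
    (χ : T → Kˣ) (hχ : ∀ u u', χ (u + u') = χ u * χ u') :
    ∃ y, ∀ u, χ u = (e u y) ^ d := by
  obtain ⟨y, hy⟩ := he.exists_eq_pairing hnd χ hχ
  rcases Nat.eq_zero_or_pos n with hn0 | hnpos
  · -- `n = 0`: then `d = 1`
    subst hn0
    have hd1 : d = 1 := by simpa using hd
    exact ⟨y, fun u => by rw [hy u, hd1, pow_one]⟩
  -- choose `d'` with `d * d' ≡ 1 mod n`
  obtain ⟨d', hd'⟩ : ∃ d' : ℕ, (d * d') % n = 1 % n := by
    rcases Nat.lt_or_ge 1 n with h1 | h1
    · obtain ⟨m, -, hm⟩ := Nat.exists_mul_mod_eq_one_of_coprime hd h1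
      exact ⟨m, by rw [hm, Nat.mod_eq_of_lt h1]⟩
    · have hn1 : n = 1 := by omega
      exact ⟨0, by rw [hn1, Nat.mod_one, Nat.mod_one]⟩
  refine ⟨d' • y, fun u => ?_⟩
  rw [hy u, he.nsmul_right, ← pow_mul, mul_comm d' d]
  -- `(e u y) ^ n = 1`
  have hpow : (e u y) ^ n = 1 := by
    rw [← he.nsmul_right, hn y, he.zero_right]
  have h1 : (e u y) ^ (d * d') = (e u y) ^ ((d * d') % n) := by
    conv_lhs => rw [← Nat.div_add_mod (d * d') n, pow_add, pow_mul, hpow, one_pow, one_mul]
  have h2 : (e u y) ^ (1 : ℕ) = (e u y) ^ (1 % n) := by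
    conv_lhs => rw [← Nat.div_add_mod 1 n, pow_add, pow_mul, hpow, one_pow, one_mul]
  rw [h1, hd', ← h2, pow_one]

end IsBilinPairing

end PerfCount

section Level

variable {J : Type*} [AddCommGroup J]

/-- the `n`-torsion as an additive subgroup -/
def torsSub (J : Type*) [AddCommGroup J] (n : ℕ) : AddSubgroup J :=
  (nsmulAddMonoidHom (α := J) n).ker

@[simp] theorem mem_torsSub (n : ℕ) (x : J) : x ∈ torsSub J n ↔ n • x = 0 := by
  rw [torsSub, AddMonoidHom.mem_ker]
  rfl

/-- In an abelian group whose `ℓ ^ j`-torsion has `ℓ ^ (c * j)` elements for every `j`,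
multiplication by `ℓ ^ k` maps the `ℓ ^ (k + 1)`-torsion ONTO the `ℓ`-torsion. -/
theorem exists_pow_smul_eq_of_card (ℓ c : ℕ) (hℓ : 1 < ℓ)
    (hcard : ∀ j : ℕ, Nat.card (torsSub J (ℓ ^ j)) = ℓ ^ (c * j))
    (k : ℕ) (v : J) (hv : ℓ • v = 0) :
    ∃ u : J, (ℓ ^ (k + 1)) • u = 0 ∧ (ℓ ^ k) • u = v := by
  classical
  have hpos : ∀ j, 0 < ℓ ^ (c * j) := fun j => pow_pos (by omega) _
  have hfin : ∀ j, Finite (torsSub J (ℓ ^ j)) := fun j =>
    Nat.finite_of_card_ne_zero (by rw [hcard j]; exact (hpos j).ne')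
  -- multiplication by `ℓ ^ k` from `J[ℓ^(k+1)]` to `J[ℓ]`
  let f : torsSub J (ℓ ^ (k + 1)) →+ torsSub J (ℓ ^ 1) :=
    { toFun := fun a => ⟨(ℓ ^ k) • (a : J), by
        have ha := (mem_torsSub _ _).mp a.2
        rw [mem_torsSub, smul_smul, pow_one, ← pow_succ']
        exact ha⟩
      map_zero' := by
        apply Subtype.ext
        simp
      map_add' := fun a b => by
        apply Subtype.ext
        simp [smul_add] }
  have hfval : ∀ a, ((f a : torsSub J (ℓ ^ 1)) : J) = (ℓ ^ k) • (a : J) := fun a => rfl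
  -- the kernel of `f` is `J[ℓ^k]`
  have hker : Nat.card f.ker = ℓ ^ (c * k) := by
    rw [← hcard k]
    refine Nat.card_congr
      { toFun := fun a => ⟨(a : torsSub J (ℓ ^ (k + 1))), ?_⟩
        invFun := fun a => ⟨⟨(a : J), ?_⟩, ?_⟩
        left_inv := fun a => rfl
        right_inv := fun a => rfl }
    · have ha := a.2
      rw [AddMonoidHom.mem_ker] at ha
      rw [mem_torsSub]
      have := congrArg (fun z : torsSub J (ℓ ^ 1) => (z : J)) ha
      simpa [hfval] using this
    · have ha := (mem_torsSub _ _).mp a.2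
      rw [mem_torsSub, pow_succ', mul_smul, ha, smul_zero]
    · rw [AddMonoidHom.mem_ker]
      apply Subtype.ext
      rw [hfval]
      exact (mem_torsSub _ _).mp a.2
  have hquot := AddSubgroup.card_eq_card_quotient_mul_card_addSubgroup f.ker
  have hrange : Nat.card (torsSub J (ℓ ^ (k + 1)) ⧸ f.ker) = Nat.card f.range :=
    Nat.card_congr (QuotientAddGroup.quotientKerEquivRange f).toEquiv
  rw [hcard (k + 1), hrange, hker] at hquot
  have hr : Nat.card f.range = ℓ ^ c := by
    have h1 : ℓ ^ (c * (k + 1)) = ℓ ^ c * ℓ ^ (c * k) := by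
      rw [← pow_add]
      congr 1
      ring
    rw [h1] at hquot
    exact (Nat.eq_of_mul_eq_mul_right (hpos k) hquot).symm
  have htop : f.range = ⊤ := by
    have := hfin 1
    apply AddSubgroup.eq_top_of_card_eq
    rw [hr, hcard 1, mul_one]
  have hv' : v ∈ torsSub J (ℓ ^ 1) := by
    rw [mem_torsSub, pow_one]
    exact hv
  have hmem : (⟨v, hv'⟩ : torsSub J (ℓ ^ 1)) ∈ f.range := by
    rw [htop]
    exact AddSubgroup.mem_top _
  obtain ⟨a, ha⟩ := hmem
  refine ⟨(a : J), (mem_torsSub _ _).mp a.2, ?_⟩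
  have := congrArg (fun z : torsSub J (ℓ ^ 1) => (z : J)) ha
  simpa [hfval] using this


variable {K : Type*} [Field K]

/-- **Non-degeneracy at level `ℓ ^ (k + 1)` from level `ℓ`.**  `T` is a presentation of the
`ℓ ^ (k + 1)`-torsion of `J` (`ι` injective with image the torsion).  If for every `y ∈ T` of
order `ℓ` there is an `ℓ`-torsion point `v` of `J` such that `e u y ≠ 1` for all `u` with
`ℓ ^ k • u = v` (this is what the compatibility `e_{ℓ^(k+1)} (u, y) = e_ℓ (ℓ ^ k u, y)` and the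
non-degeneracy of `e_ℓ` give), then the right kernel of `e` is trivial. -/
theorem right_nondeg_of_level {T : Type*} [AddCommGroup T] (ℓ c : ℕ) (hℓ : 1 < ℓ)
    (hcard : ∀ j : ℕ, Nat.card (torsSub J (ℓ ^ j)) = ℓ ^ (c * j)) (k : ℕ)
    (ι : T →+ J) (hrange : ∀ x : J, (ℓ ^ (k + 1)) • x = 0 → ∃ t, ι t = x)
    (hkill : ∀ t : T, (ℓ ^ (k + 1)) • t = 0)
    (e : T → T → Kˣ) (he : IsBilinPairing e)
    (h1 : ∀ y : T, y ≠ 0 → ℓ • y = 0 →
      ∃ v : J, ℓ • v = 0 ∧ ∀ u : T, (ℓ ^ k) • ι u = v → e u y ≠ 1) :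
    ∀ y : T, y ≠ 0 → ∃ u, e u y ≠ 1 := by
  refine he.right_nondeg_of_prime ℓ (fun x => ⟨k + 1, hkill x⟩) (fun y hy hℓy => ?_)
  obtain ⟨v, hv, hvu⟩ := h1 y hy hℓy
  obtain ⟨u₀, hu₀, hu₀v⟩ := exists_pow_smul_eq_of_card ℓ c hℓ hcard k v hv
  obtain ⟨u, rfl⟩ := hrange u₀ hu₀
  exact ⟨u, hvu u hu₀v⟩

end Level

end Fermat.Agent.T6.helper30
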