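import Mathlib
import Fermat.Agent.P2.helper74_NonSpecial

/-!
# T6 [KM-RR] (helper31): the Khuri-Makdisi lemmas for a function field with weak Riemann-Roch

Setting: `hS : helper74.RiemannSetting K F` (P2), `K` infinite, and the equality part of Riemann's
theorem with threshold `c`:
`hc : ∀ D, c ≤ deg D → ℓ(D) + g = deg D + 1`.  No duality, no differentials, no `H¹`.

* `mul_mem_L`, `L_mul_le` : `L(D₁) · L(D₂) ⊆ L(D₁ + D₂)`;
* `L_add_single_eq_sup` : `L(D + P) = L(D) + K h` for every `h ∈ L(D + P) ∖ L(D)`;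
* `exists_pencil` : a base-point-free pencil in `L(D)` for `deg D ≥ c + 1`;
* `km_mul_base` : the base-point-free pencil trick;
* `km_mul` (**Khuri-Makdisi, Lemma 2.2**) : `L(D₁) · L(D₂) = L(D₁ + D₂)` for
  `deg D₁ ≥ 2 c + 1`, `deg D₂ ≥ c + 1`;
* `km_div` (**Khuri-Makdisi, Lemma 2.3**) : `f · L(D₂) ⊆ L(D₁ + D₂ - E) ↔ f ∈ L(D₁ - E)` for
  `deg D₂ ≥ c + 1`.
-/

set_option autoImplicit false
set_option linter.unusedSectionVars false
set_option linter.unusedVariables false
set_option linter.style.longLine false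

noncomputable section

namespace Fermat.Agent.T6.helper31

open AlgebraicCurve Fermat.Agent.P2.helper74

variable {K F : Type*} [Field K] [Field F] [Algebra K F]

/-! ### Products -/

/-- `L(D₁) · L(D₂) ⊆ L(D₁ + D₂)`, elementwise -/
theorem mul_mem_L {D₁ D₂ : Divisor K F} {f h : F} (hf : f ∈ riemannRochSpace D₁)
    (hh : h ∈ riemannRochSpace D₂) : f * h ∈ riemannRochSpace (D₁ + D₂) := by
  rcases eq_or_ne f 0 with rfl | hf0
  · rw [zero_mul]; exact zero_mem _
  rcases eq_or_ne h 0 with rfl | hh0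
  · rw [mul_zero]; exact zero_mem _
  rw [mem_L_iff' (mul_ne_zero hf0 hh0)]
  intro v
  have h1 := (mem_L_iff' hf0).mp hf v
  have h2 := (mem_L_iff' hh0).mp hh v
  rw [v.ord_mul hf0 hh0, Finsupp.add_apply]
  omega

/-- `L(D₁) · L(D₂) ⊆ L(D₁ + D₂)` -/
theorem L_mul_le (D₁ D₂ : Divisor K F) :
    riemannRochSpace D₁ * riemannRochSpace D₂ ≤ riemannRochSpace (D₁ + D₂) :=
  Submodule.mul_le.mpr fun _ hf _ hh => mul_mem_L hf hh

theorem L_le_add_single (D : Divisor K F) (v : Place K F) :
    riemannRochSpace D ≤ riemannRochSpace (D + Finsupp.single v 1) := by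
  classical
  refine L_mono fun w => ?_
  rw [Finsupp.add_apply, Finsupp.single_apply]
  split_ifs <;> omega

section Setting

variable (hS : RiemannSetting K F)

include hS

/-- `L(D + P) = L(D) + K h` for every `h ∈ L(D + P) ∖ L(D)`. -/
theorem L_add_single_eq_sup (D : Divisor K F) (v : Place K F) {h : F}
    (hh : h ∈ riemannRochSpace (D + Finsupp.single v 1)) (hn : h ∉ riemannRochSpace D) :
    riemannRochSpace (D + Finsupp.single v 1) = riemannRochSpace D ⊔ Submodule.span K {h} := by
  apply le_antisymm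
  · obtain ⟨g₀, hg₀⟩ := exists_L_add_single_le hS D v
    have h1 := hg₀ hh
    rw [Submodule.mem_sup] at h1
    obtain ⟨a, ha, b, hb, hab⟩ := h1
    rw [Submodule.mem_span_singleton] at hb
    obtain ⟨t, rfl⟩ := hb
    have ht : t ≠ 0 := by
      rintro rfl
      rw [zero_smul, add_zero] at hab
      exact hn (hab ▸ ha)
    have hg : g₀ ∈ riemannRochSpace D ⊔ Submodule.span K {h} := by
      have e : g₀ = t⁻¹ • (h - a) := by
        rw [← hab, add_sub_cancel_left, smul_smul, inv_mul_cancel₀ ht, one_smul]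
      rw [e]
      refine Submodule.smul_mem _ _ (Submodule.sub_mem _ ?_ ?_)
      · exact Submodule.mem_sup_right (Submodule.mem_span_singleton_self h)
      · exact Submodule.mem_sup_left ha
    refine hg₀.trans (sup_le le_sup_left ?_)
    rw [Submodule.span_singleton_le_iff_mem]
    exact hg
  · refine sup_le (L_le_add_single D v) ?_
    rw [Submodule.span_singleton_le_iff_mem]
    exact hh

variable {g : ℕ} {c : ℤ}
  (hc : ∀ D : Divisor K F, c ≤ Divisor.degree D → (ell D : ℤ) + g = Divisor.degree D + 1)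

include hc

/-- **a base-point-free pencil**: two elements of `L(D)` without common zero relative to `D` -/
theorem exists_pencil [Infinite K] {D : Divisor K F} (hD : c + 1 ≤ Divisor.degree D) :
    ∃ s₀ s₁ : F, s₀ ≠ 0 ∧ s₁ ≠ 0 ∧ s₀ ∈ riemannRochSpace D ∧ s₁ ∈ riemannRochSpace D ∧
      ∀ v : Place K F, v.ord s₀ = -D v ∨ v.ord s₁ = -D v := by
  classical
  obtain ⟨P₀⟩ := hS.nonempty
  obtain ⟨s₀, hs₀, hs₀D, -⟩ := exists_mem_L_ord_eq hS hc hD P₀
  obtain ⟨Z, hZ, -⟩ := hS.principal.exists_divisor s₀ hs₀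
  set T : Finset (Place K F) := (Z + D).support with hT
  -- the proper subspaces to avoid
  let p : Option T → Submodule K (riemannRochSpace D) := fun i =>
    match i with
    | none => ⊥
    | some v => (riemannRochSpace (D - Finsupp.single (v : Place K F) 1)).comap
        (riemannRochSpace D).subtype
  have hp : ∀ i, p i ≠ ⊤ := by
    intro i
    cases i with
    | none =>
      intro h
      have : (⟨s₀, hs₀D⟩ : riemannRochSpace D) ∈ (⊥ : Submodule K (riemannRochSpace D)) := by
        show (⟨s₀, hs₀D⟩ : riemannRochSpace D) ∈ p none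
        rw [h]; exact Submodule.mem_top
      rw [Submodule.mem_bot] at this
      exact hs₀ (congrArg Subtype.val this)
    | some v =>
      intro h
      obtain ⟨f, hf0, hfD, hford⟩ := exists_mem_L_ord_eq hS hc hD (v : Place K F)
      have : (⟨f, hfD⟩ : riemannRochSpace D) ∈ p (some v) := by
        rw [h]; exact Submodule.mem_top
      have h2 : f ∈ riemannRochSpace (D - Finsupp.single (v : Place K F) 1) := this
      have h3 := ((mem_L_sub_single_iff hf0).mp h2).2
      omega
  obtain ⟨x, hx⟩ := Submodule.exists_forall_notMem_of_forall_ne_top p hp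
  have hx0 : (x : F) ≠ 0 := by
    intro h0
    apply hx none
    show x ∈ (⊥ : Submodule K (riemannRochSpace D))
    rw [Submodule.mem_bot]
    exact Subtype.ext h0
  refine ⟨s₀, x, hs₀, hx0, hs₀D, x.2, fun v => ?_⟩
  by_cases hv : v ∈ T
  · right
    have h1 : (x : F) ∉ riemannRochSpace (D - Finsupp.single v 1) := fun h => hx (some ⟨v, hv⟩) h
    have h2 := (mem_L_iff' hx0).mp x.2 v
    have h3 : ¬ (-D v < v.ord (x : F)) := fun h =>
      h1 ((mem_L_sub_single_iff hx0).mpr ⟨x.2, h⟩)
    omega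
  · left
    rw [hT, Finsupp.mem_support_iff, not_not, Finsupp.add_apply, hZ] at hv
    omega

/-- **the base-point-free pencil trick** -/
theorem km_mul_base [Infinite K] {D₁ D₂ : Divisor K F} (h₂ : c + 1 ≤ Divisor.degree D₂)
    (h₁ : c ≤ Divisor.degree D₁) (h₁₂ : c ≤ Divisor.degree D₁ - Divisor.degree D₂) :
    riemannRochSpace D₁ * riemannRochSpace D₂ = riemannRochSpace (D₁ + D₂) := by
  classical
  apply le_antisymm (L_mul_le D₁ D₂)
  obtain ⟨s₀, s₁, hs₀, hs₁, hs₀D, hs₁D, hpen⟩ := exists_pencil hS hc h₂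
  haveI := finiteDimensional_L hS D₁
  haveI := finiteDimensional_L hS (D₁ + D₂)
  haveI := finiteDimensional_L hS (D₁ - D₂)
  -- the map `(a, b) ↦ a s₀ + b s₁`
  let φ : (riemannRochSpace D₁ × riemannRochSpace D₁) →ₗ[K] F :=
    ((LinearMap.mulRight K s₀).comp (riemannRochSpace D₁).subtype).coprod
      ((LinearMap.mulRight K s₁).comp (riemannRochSpace D₁).subtype)
  have hφ : ∀ x : riemannRochSpace D₁ × riemannRochSpace D₁,
      φ x = (x.1 : F) * s₀ + (x.2 : F) * s₁ := fun x => by
    simp [φ, LinearMap.coprod_apply]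
  have hrange : LinearMap.range φ ≤ riemannRochSpace D₁ * riemannRochSpace D₂ := by
    rintro _ ⟨x, rfl⟩
    rw [hφ]
    exact add_mem (Submodule.mul_mem_mul x.1.2 hs₀D) (Submodule.mul_mem_mul x.2.2 hs₁D)
  -- the kernel embeds into `L(D₁ - D₂)`
  have hker : ∀ x : LinearMap.ker φ,
      ((x : riemannRochSpace D₁ × riemannRochSpace D₁).1 : F) * s₁⁻¹ ∈
        riemannRochSpace (D₁ - D₂) := by
    intro x
    have hx : ((x : riemannRochSpace D₁ × riemannRochSpace D₁).1 : F) * s₀ +
        ((x : riemannRochSpace D₁ × riemannRochSpace D₁).2 : F) * s₁ = 0 := by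
      rw [← hφ]; exact x.2
    set a : F := ((x : riemannRochSpace D₁ × riemannRochSpace D₁).1 : F) with ha
    set b : F := ((x : riemannRochSpace D₁ × riemannRochSpace D₁).2 : F) with hb
    have haD : a ∈ riemannRochSpace D₁ := (x : riemannRochSpace D₁ × riemannRochSpace D₁).1.2
    have hbD : b ∈ riemannRochSpace D₁ := (x : riemannRochSpace D₁ × riemannRochSpace D₁).2.2
    rcases eq_or_ne a 0 with h0 | ha0
    · rw [h0, zero_mul]; exact zero_mem _
    have hb0 : b ≠ 0 := by
      rintro h0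
      rw [h0, zero_mul, add_zero] at hx
      exact (mul_ne_zero ha0 hs₀) hx
    have hab : a * s₁⁻¹ = -(b * s₀⁻¹) := by
      field_simp
      linear_combination hx
    rw [mem_L_iff' (mul_ne_zero ha0 (inv_ne_zero hs₁))]
    intro v
    rw [Finsupp.sub_apply]
    have e1 := (mem_L_iff' ha0).mp haD v
    have e2 := (mem_L_iff' hb0).mp hbD v
    have e3 := (mem_L_iff' hs₀).mp hs₀D v
    have e4 := (mem_L_iff' hs₁).mp hs₁D v
    rcases hpen v with h | h
    · have : v.ord (a * s₁⁻¹) = v.ord b - v.ord s₀ := by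
        rw [hab]
        have hneg : -(b * s₀⁻¹) = (-b) * s₀⁻¹ := by ring
        rw [hneg, v.ord_mul (neg_ne_zero.mpr hb0) (inv_ne_zero hs₀), v.ord_inv]
        have : v.ord (-b) = v.ord b := by
          have e : -b = algebraMap K F (-1) * b := by rw [map_neg, map_one]; ring
          rw [e, v.ord_mul (by rw [map_neg, map_one]; exact neg_ne_zero.mpr one_ne_zero) hb0,
            Fermat.Agent.S24.helper82.ord_algebraMap, zero_add]
        rw [this]; ring
      rw [this]; omega
    · have : v.ord (a * s₁⁻¹) = v.ord a - v.ord s₁ := by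
        rw [v.ord_mul ha0 (inv_ne_zero hs₁), v.ord_inv]; ring
      rw [this]; omega
  let ψ : LinearMap.ker φ →ₗ[K] riemannRochSpace (D₁ - D₂) :=
    LinearMap.codRestrict (riemannRochSpace (D₁ - D₂))
      ((LinearMap.mulRight K s₁⁻¹).comp ((riemannRochSpace D₁).subtype.comp
        ((LinearMap.fst K _ _).comp (LinearMap.ker φ).subtype)))
      (fun x => by simpa using hker x)
  have hψ : Function.Injective ψ := by
    rw [injective_iff_map_eq_zero]
    intro x hx
    have h1 : ((x : riemannRochSpace D₁ × riemannRochSpace D₁).1 : F) * s₁⁻¹ = 0 := by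
      have := congrArg Subtype.val hx
      simpa [ψ] using this
    have ha : ((x : riemannRochSpace D₁ × riemannRochSpace D₁).1 : F) = 0 := by
      rcases mul_eq_zero.mp h1 with h | h
      · exact h
      · exact absurd h (inv_ne_zero hs₁)
    have hx' : ((x : riemannRochSpace D₁ × riemannRochSpace D₁).1 : F) * s₀ +
        ((x : riemannRochSpace D₁ × riemannRochSpace D₁).2 : F) * s₁ = 0 := by
      rw [← hφ]; exact x.2
    rw [ha, zero_mul, zero_add] at hx'
    have hb : ((x : riemannRochSpace D₁ × riemannRochSpace D₁).2 : F) = 0 := by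
      rcases mul_eq_zero.mp hx' with h | h
      · exact h
      · exact absurd h hs₁
    apply Subtype.ext
    apply Prod.ext
    · exact Subtype.ext ha
    · exact Subtype.ext hb
  have hkerdim : Module.finrank K (LinearMap.ker φ) ≤ ell (D₁ - D₂) :=
    LinearMap.finrank_le_finrank_of_injective hψ
  have hrk := LinearMap.finrank_range_add_finrank_ker φ
  rw [Module.finrank_prod] at hrk
  -- dimensions
  have d1 := hc D₁ h₁
  have d2 := hc (D₁ - D₂) (by rw [map_sub]; exact h₁₂)
  have hgc : (g : ℤ) ≤ c + 1 := by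
    obtain ⟨P₀⟩ := hS.nonempty
    have hd : Divisor.degree (Finsupp.single P₀ (c.toNat : ℤ) + Finsupp.single P₀ (c - c.toNat)) =
        c := by
      rw [map_add, Divisor.degree_single, Divisor.degree_single, hS.deg_one]
      push_cast; ring
    have := hc _ (le_of_eq hd.symm)
    rw [hd] at this
    have h0 : (0 : ℤ) ≤ ell (Finsupp.single P₀ (c.toNat : ℤ) + Finsupp.single P₀ (c - c.toNat)) :=
      Int.natCast_nonneg _
    linarith
  have d3 := hc (D₁ + D₂) (by rw [map_add]; linarith)
  rw [map_sub] at d2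
  rw [map_add] at d3
  have hdim : ell (D₁ + D₂) ≤ Module.finrank K (LinearMap.range φ) := by
    have e1 : ((Module.finrank K (LinearMap.range φ) : ℕ) : ℤ) +
        (Module.finrank K (LinearMap.ker φ) : ℕ) = (ell D₁ : ℤ) + ell D₁ := by
      have := congrArg (fun n : ℕ => (n : ℤ)) hrk
      simpa [ell] using this
    have e2 : ((Module.finrank K (LinearMap.ker φ) : ℕ) : ℤ) ≤ ell (D₁ - D₂) := by
      exact_mod_cast hkerdim
    have : (ell (D₁ + D₂) : ℤ) ≤ Module.finrank K (LinearMap.range φ) := by linarith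
    exact_mod_cast this
  have hle : LinearMap.range φ ≤ riemannRochSpace (D₁ + D₂) := hrange.trans (L_mul_le D₁ D₂)
  have heq : LinearMap.range φ = riemannRochSpace (D₁ + D₂) :=
    Submodule.eq_of_le_of_finrank_le hle hdim
  rw [← heq]
  exact hrange

/-- adding a point to `D₂` -/
theorem km_mul_step {D₁ D₂ : Divisor K F} (P : Place K F) (h₁ : c + 1 ≤ Divisor.degree D₁)
    (h₂ : c ≤ Divisor.degree D₂)
    (h : riemannRochSpace D₁ * riemannRochSpace D₂ = riemannRochSpace (D₁ + D₂)) :
    riemannRochSpace D₁ * riemannRochSpace (D₂ + Finsupp.single P 1) =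
      riemannRochSpace (D₁ + (D₂ + Finsupp.single P 1)) := by
  classical
  apply le_antisymm (L_mul_le _ _)
  obtain ⟨f₁, hf₁0, hf₁D, hf₁⟩ := exists_mem_L_ord_eq hS hc h₁ P
  obtain ⟨f₂, hf₂0, hf₂D, hf₂⟩ := exists_mem_L_ord_eq hS hc
    (D := D₂ + Finsupp.single P 1) (by rw [degree_add_single hS]; linarith) P
  rw [Finsupp.add_apply, Finsupp.single_apply, if_pos rfl] at hf₂
  have hmem : f₁ * f₂ ∈ riemannRochSpace (D₁ + D₂ + Finsupp.single P 1) := by
    rw [add_assoc]; exact mul_mem_L hf₁D hf₂D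
  have hnot : f₁ * f₂ ∉ riemannRochSpace (D₁ + D₂) := by
    intro hcon
    have := (mem_L_iff' (mul_ne_zero hf₁0 hf₂0)).mp hcon P
    rw [P.ord_mul hf₁0 hf₂0, Finsupp.add_apply] at this
    omega
  rw [← add_assoc, L_add_single_eq_sup hS (D₁ + D₂) P hmem hnot]
  refine sup_le ?_ ?_
  · rw [← h]
    exact Submodule.mul_le.mpr fun a ha b hb =>
      Submodule.mul_mem_mul ha (L_le_add_single D₂ P hb)
  · rw [Submodule.span_singleton_le_iff_mem]
    exact Submodule.mul_mem_mul hf₁D hf₂D

/-- **Khuri-Makdisi, Lemma 2.2** (multiplication is onto), with the thresholds of the weak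
Riemann-Roch theorem: `L(D₁) · L(D₂) = L(D₁ + D₂)` for `deg D₁ ≥ 2 c + 1`, `deg D₂ ≥ c + 1`. -/
theorem km_mul [Infinite K] (hc0 : 0 ≤ c) {D₁ D₂ : Divisor K F}
    (h₁ : 2 * c + 1 ≤ Divisor.degree D₁) (h₂ : c + 1 ≤ Divisor.degree D₂) :
    riemannRochSpace D₁ * riemannRochSpace D₂ = riemannRochSpace (D₁ + D₂) := by
  obtain ⟨P₀⟩ := hS.nonempty
  suffices H : ∀ (r : ℕ) (D₂ : Divisor K F), Divisor.degree D₂ = c + 1 + r →
      riemannRochSpace D₁ * riemannRochSpace D₂ = riemannRochSpace (D₁ + D₂) by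
    refine H (Divisor.degree D₂ - (c + 1)).toNat D₂ ?_
    rw [Int.toNat_of_nonneg (by linarith)]
    ring
  intro r
  induction r with
  | zero =>
    intro D₂ hD₂
    refine km_mul_base hS hc (by rw [hD₂]; simp) (by linarith) ?_
    rw [hD₂]
    push_cast
    linarith
  | succ r ih =>
    intro D₂ hD₂
    have hdeg : Divisor.degree (D₂ - Finsupp.single P₀ 1) = c + 1 + r := by
      rw [degree_sub_single hS, hD₂]
      push_cast
      ring
    have h3 := km_mul_step hS hc P₀ (by linarith) (by rw [hdeg]; linarith)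
      (ih (D₂ - Finsupp.single P₀ 1) hdeg)
    rw [sub_add_cancel] at h3
    exact h3

/-- **Khuri-Makdisi, Lemma 2.3** (division): for `deg D₂ ≥ c + 1`,
`f · L(D₂) ⊆ L(D₁ + D₂ - E)` iff `f ∈ L(D₁ - E)`. -/
theorem km_div {D₁ D₂ E : Divisor K F} (h₂ : c + 1 ≤ Divisor.degree D₂) {f : F} :
    (∀ h ∈ riemannRochSpace D₂, f * h ∈ riemannRochSpace (D₁ + D₂ - E)) ↔
      f ∈ riemannRochSpace (D₁ - E) := by
  constructor
  · intro H
    rcases eq_or_ne f 0 with rfl | hf0
    · exact zero_mem _
    rw [mem_L_iff' hf0]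
    intro v
    obtain ⟨h, hh0, hhD, hh⟩ := exists_mem_L_ord_eq hS hc h₂ v
    have := (mem_L_iff' (mul_ne_zero hf0 hh0)).mp (H h hhD) v
    rw [v.ord_mul hf0 hh0, Finsupp.sub_apply, Finsupp.add_apply] at this
    rw [Finsupp.sub_apply]
    omega
  · intro hf h hh
    have := mul_mem_L hf hh
    rwa [show D₁ - E + D₂ = D₁ + D₂ - E by abel] at this

/-- `L(D)` determines `D` in large degree (no base points): `L(D₁) ≤ L(D₂)` implies
`D₁ ≤ D₂` for `deg D₁ ≥ c + 1`. -/
theorem le_of_L_le {D₁ D₂ : Divisor K F} (h₁ : c + 1 ≤ Divisor.degree D₁)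
    (h : riemannRochSpace D₁ ≤ riemannRochSpace D₂) (v : Place K F) : D₁ v ≤ D₂ v := by
  obtain ⟨f, hf0, hfD, hf⟩ := exists_mem_L_ord_eq hS hc h₁ v
  have := (mem_L_iff' hf0).mp (h hfD) v
  omega

/-- `D ↦ L(D)` is injective in degree `≥ c + 1`. -/
theorem eq_of_L_eq {D₁ D₂ : Divisor K F} (h₁ : c + 1 ≤ Divisor.degree D₁)
    (h₂ : c + 1 ≤ Divisor.degree D₂) (h : riemannRochSpace D₁ = riemannRochSpace D₂) :
    D₁ = D₂ := by
  ext v
  exact le_antisymm (le_of_L_le hS hc h₁ h.le v) (le_of_L_le hS hc h₂ h.ge v)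

omit hS hc in
/-- `z · f ∈ L(D) ↔ f ∈ L(D + div z)` -/
theorem mul_mem_L_iff (D : Divisor K F) {z : F} (hz : z ≠ 0) {Z : Divisor K F}
    (hZ : ∀ v, Z v = v.ord z) {f : F} :
    z * f ∈ riemannRochSpace D ↔ f ∈ riemannRochSpace (D + Z) := by
  rcases eq_or_ne f 0 with rfl | hf0
  · rw [mul_zero]
    exact ⟨fun _ => zero_mem _, fun _ => zero_mem _⟩
  rw [mem_L_iff' (mul_ne_zero hz hf0), mem_L_iff' hf0]
  refine forall_congr' fun v => ?_
  rw [v.ord_mul hz hf0, Finsupp.add_apply, hZ]
  constructor <;> intro h <;> omega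

/-- **division by a fixed section** (the form used in the Khuri-Makdisi algorithms): for
`deg D₂ ≥ c + 1` and `s ≠ 0` with divisor `Z`:
`f · L(D₂) ⊆ s · L(D₃)` iff `f ∈ L(D₃ - Z - D₂)`. -/
theorem km_div_section {D₂ D₃ : Divisor K F} (h₂ : c + 1 ≤ Divisor.degree D₂) {s : F}
    (hs : s ≠ 0) {Z : Divisor K F} (hZ : ∀ v, Z v = v.ord s) {f : F} :
    (∀ h ∈ riemannRochSpace D₂, ∃ t ∈ riemannRochSpace D₃, f * h = s * t) ↔
      f ∈ riemannRochSpace (D₃ - Z - D₂) := by
  have hZi : ∀ v, (-Z) v = v.ord s⁻¹ := fun v => by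
    rw [Finsupp.neg_apply, hZ, v.ord_inv]
  have key : ∀ h : F, (∃ t ∈ riemannRochSpace D₃, f * h = s * t) ↔
      f * h ∈ riemannRochSpace (D₃ - Z) := by
    intro h
    constructor
    · rintro ⟨t, ht, e⟩
      rw [e]
      rcases eq_or_ne t 0 with rfl | ht0
      · rw [mul_zero]; exact zero_mem _
      rw [mem_L_iff' (mul_ne_zero hs ht0)]
      intro v
      have := (mem_L_iff' ht0).mp ht v
      rw [v.ord_mul hs ht0, Finsupp.sub_apply, hZ]
      omega
    · intro hfh
      refine ⟨s⁻¹ * (f * h), ?_, by rw [mul_inv_cancel_left₀ hs]⟩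
      rw [mul_mem_L_iff D₃ (inv_ne_zero hs) hZi, ← sub_eq_add_neg]
      exact hfh
  have h3 := km_div hS hc (D₁ := D₃ - Z - D₂) (D₂ := D₂) (E := 0) h₂ (f := f)
  rw [sub_zero, sub_zero, sub_add_cancel] at h3
  rw [← h3]
  exact forall_congr' fun h => forall_congr' fun _ => key h

/-! ### Non-special divisors relative to a class -/

/-- if `D` is special (`deg D + 1 < ℓ(D) + g`) there is a point `Q` off any given finite set
with `ℓ(D + Q) = ℓ(D)` -/
theorem exists_place_ell_add_eq [Infinite K] (T : Finset (Place K F)) {D : Divisor K F}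
    (hD : Divisor.degree D + 1 < (ell D : ℤ) + g) :
    ∃ Q : Place K F, Q ∉ T ∧ D Q = 0 ∧ ell (D + Finsupp.single Q 1) = ell D := by
  classical
  by_contra hcon
  push Not at hcon
  haveI := infinite_place hS hc
  set N : ℕ := (c - Divisor.degree D).toNat with hN
  have hN' : c - Divisor.degree D ≤ N := Int.self_le_toNat _
  have hinf : ((↑(T ∪ D.support) : Set (Place K F))ᶜ).Infinite :=
    Set.Finite.infinite_compl (Finset.finite_toSet _)
  obtain ⟨S, hSsub, hScard⟩ := hinf.exists_subset_card_eq N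
  have hS0 : ∀ P ∈ S, D P = 0 := by
    intro P hP
    have := hSsub hP
    rw [Set.mem_compl_iff, Finset.mem_coe, Finset.mem_union, not_or] at this
    exact Finsupp.notMem_support_iff.mp this.2
  have hST : ∀ P ∈ S, P ∉ T := by
    intro P hP
    have := hSsub hP
    rw [Set.mem_compl_iff, Finset.mem_coe, Finset.mem_union, not_or] at this
    exact this.1
  have hbad : ∀ P ∈ S, ell D < ell (D + Finsupp.single P 1) := by
    intro P hP
    have h1 : ell D ≤ ell (D + Finsupp.single P 1) := by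
      haveI := finiteDimensional_L hS (D + Finsupp.single P 1)
      exact Submodule.finrank_mono (L_le_add_single D P)
    exact lt_of_le_of_ne h1 (fun h => hcon P (hST P hP) (hS0 P hP) h.symm)
  have h2 := ell_add_sumSingle_ge hS S hS0 hbad
  have hdeg : Divisor.degree (D + sumSingle S) = Divisor.degree D + N := by
    rw [map_add, degree_sumSingle hS, hScard]
  have h3 := hc (D + sumSingle S) (by rw [hdeg]; linarith)
  rw [hdeg] at h3
  have h4 : ((ell D + S.card : ℕ) : ℤ) ≤ ell (D + sumSingle S) := by exact_mod_cast h2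
  rw [hScard] at h4
  push_cast at h4
  linarith

/-- adding `k` general points to a divisor `D` with `ℓ(D) = 0` keeps `ℓ = 0` as long as the
degree stays `≤ g - 1` -/
theorem exists_finset_ell_eq_zero [Infinite K] (T : Finset (Place K F)) (D : Divisor K F)
    (hD0 : ell D = 0) :
    ∀ k : ℕ, Divisor.degree D + k + 1 ≤ g →
      ∃ Q : Finset (Place K F), Q.card = k ∧ Disjoint Q T ∧ (∀ P ∈ Q, D P = 0) ∧
        ell (D + sumSingle Q) = 0 := by
  classical
  intro k
  induction k with
  | zero =>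
    intro _
    exact ⟨∅, rfl, Finset.disjoint_empty_left _, fun P hP => absurd hP (Finset.notMem_empty P),
      by rw [sumSingle_empty, add_zero]; exact hD0⟩
  | succ k ih =>
    intro hk
    obtain ⟨Q, hQcard, hQT, hQ0, hQell⟩ := ih (by push_cast at hk; linarith)
    have hdeg : Divisor.degree (D + sumSingle Q) = Divisor.degree D + k := by
      rw [map_add, degree_sumSingle hS, hQcard]
    obtain ⟨P, hPT, hP0, hPell⟩ := exists_place_ell_add_eq hS hc (T ∪ Q ∪ D.support)
      (D := D + sumSingle Q) (by rw [hdeg, hQell]; push_cast at hk ⊢; linarith)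
    rw [Finset.mem_union, Finset.mem_union, not_or, not_or] at hPT
    obtain ⟨⟨hPT, hPQ⟩, hPD⟩ := hPT
    refine ⟨insert P Q, ?_, ?_, ?_, ?_⟩
    · rw [Finset.card_insert_of_notMem hPQ, hQcard]
    · rw [Finset.disjoint_insert_left]
      exact ⟨hPT, hQT⟩
    · intro P' hP'
      rcases Finset.mem_insert.mp hP' with rfl | h
      · exact Finsupp.notMem_support_iff.mp hPD
      · exact hQ0 P' h
    · rw [sumSingle_insert hPQ, ← add_assoc, hPell, hQell]

/-- **non-special representatives of a class** (the chart lemma): for a divisor `D₀` of degree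
`0`, a place `P∞` and a finite set `T` of places there are `g` distinct places `Q₁, …, Q_g`
off `T` with `ℓ(D₀ + Q₁ + ⋯ + Q_g) = 1` and `ℓ(D₀ + Q₁ + ⋯ + Q_g - P∞) = 0`. -/
theorem exists_nonspecial_rel [Infinite K] (T : Finset (Place K F)) (D₀ : Divisor K F)
    (hdeg : Divisor.degree D₀ = 0) (Pinf : Place K F) :
    ∃ Q : Finset (Place K F), Q.card = g ∧ Disjoint Q T ∧
      ell (D₀ + sumSingle Q) = 1 ∧ ell (D₀ + sumSingle Q - Finsupp.single Pinf 1) = 0 := by
  classical
  have hd : Divisor.degree (D₀ - Finsupp.single Pinf 1) = -1 := by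
    rw [degree_sub_single hS, hdeg]; ring
  have h0 : ell (D₀ - Finsupp.single Pinf 1) = 0 := by
    unfold ell
    rw [L_eq_bot_of_degree_neg hS (by rw [hd]; norm_num), finrank_bot]
  obtain ⟨Q, hQcard, hQT, -, hQell⟩ := exists_finset_ell_eq_zero hS hc T
    (D₀ - Finsupp.single Pinf 1) h0 g (by rw [hd]; ring_nf; exact le_refl _)
  have e : D₀ - Finsupp.single Pinf 1 + sumSingle Q = D₀ + sumSingle Q - Finsupp.single Pinf 1 := by
    abel
  rw [e] at hQell
  refine ⟨Q, hQcard, hQT, ?_, hQell⟩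
  have h1 := (step hS (D₀ + sumSingle Q - Finsupp.single Pinf 1) Pinf
    (finiteDimensional_L hS _)).2
  rw [sub_add_cancel, hQell, zero_add] at h1
  have h2 := riemann_ineq_of_eq hS hc (D₀ + sumSingle Q)
  rw [map_add, degree_sumSingle hS, hdeg, hQcard, zero_add] at h2
  have h3 : 1 ≤ ell (D₀ + sumSingle Q) := by
    have : (1 : ℤ) ≤ ell (D₀ + sumSingle Q) := by linarith
    exact_mod_cast this
  omega

/-- the unique effective divisor of a non-special class avoiding `P∞`: for `ℓ(D) = 1` and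
`ℓ(D - P∞) = 0` every nonzero `f ∈ L(D)` has exact order `-D P∞` at `P∞`, and `L(D) = K f`. -/
theorem eq_span_of_ell_eq_one {D : Divisor K F} (h1 : ell D = 1) {f : F} (hf0 : f ≠ 0)
    (hf : f ∈ riemannRochSpace D) : riemannRochSpace D = Submodule.span K {f} := by
  haveI := finiteDimensional_L hS D
  symm
  apply Submodule.eq_of_le_of_finrank_le
  · rw [Submodule.span_singleton_le_iff_mem]; exact hf
  · rw [finrank_span_singleton hf0]
    exact le_of_eq h1

omit hc in
theorem ord_eq_of_ell_sub_single_eq_zero {D : Divisor K F} (Pinf : Place K F)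
    (h0 : ell (D - Finsupp.single Pinf 1) = 0) {f : F} (hf0 : f ≠ 0)
    (hf : f ∈ riemannRochSpace D) : Pinf.ord f = -D Pinf := by
  have h1 := (mem_L_iff' hf0).mp hf Pinf
  by_contra hne
  have h2 : f ∈ riemannRochSpace (D - Finsupp.single Pinf 1) :=
    (mem_L_sub_single_iff hf0).mpr ⟨hf, by omega⟩
  haveI := finiteDimensional_L hS (D - Finsupp.single Pinf 1)
  have h3 : riemannRochSpace (D - Finsupp.single Pinf 1) = ⊥ := by
    rw [← Submodule.finrank_eq_zero]; exact h0
  rw [h3, Submodule.mem_bot] at h2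
  exact hf0 h2

end Setting

end Fermat.Agent.T6.helper31
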