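/-
T6 (S19 / S32), helper33, block [A1] in the shape of the T6 interface (`helper73_T6Iface`):
`helper73.FunOrder` is `helper33.IsHopfOrder`, and `helper73.A1Statement` holds.
-/
import Fermat.Agent.T6.helper33_HopfOrder
import Fermat.Agent.T6.helper73_T6Iface

set_option autoImplicit false

namespace Fermat.Agent.T6.helper33

open Fermat.Agent.T6

/-- the contract `FunOrder` of the interface gives a Hopf order. -/
theorem isHopfOrder_of_funOrder {l : ℕ} [Fact l.Prime] {M : Type} [AddCommGroup M] [Finite M]
    {act : helper73.Gq → M → M} (hact : helper73.IsGalAct act)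
    {H : Subalgebra (helper73.Rl l) (M → helper73.Kq)} (hH : helper73.FunOrder l act H) :
    IsHopfOrder l act H where
  act_surj σ := fun x => ⟨act σ⁻¹ x, by rw [← hact.mul, mul_inv_cancel, hact.one]⟩
  act_zero σ := by
    have := hact.add σ 0 0
    rw [add_zero] at this
    exact left_eq_add.mp this
  fg := hH.fg
  equivariant := hH.eq
  sep := hH.sep
  comul := hH.cm
  neg := hH.neg

/-- a Hopf order satisfies the contract `FunOrder` of the interface. -/
theorem funOrder_of_isHopfOrder {l : ℕ} [Fact l.Prime] {M : Type} [AddCommGroup M] [Finite M]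
    {act : helper73.Gq → M → M}
    {H : Subalgebra (helper73.Rl l) (M → helper73.Kq)} (hH : IsHopfOrder l act H) :
    helper73.FunOrder l act H where
  fg := hH.fg
  eq := hH.equivariant
  sep := hH.sep
  cm := hH.comul
  neg := hH.neg

/-- **[A1]** in the shape of the T6 interface. -/
theorem a1Statement : helper73.A1Statement := by
  intro l _ M _ _ act hact H hH
  exact (isHopfOrder_of_funOrder hact hH).exists_hopf

end Fermat.Agent.T6.helper33
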