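/-
T6 (S19 / S32), helper33, block [A3] **CRIT**, part 1: linear algebra.

* `dualFam`, `dualB` : the dual basis of a basis of the space of functions on a finite set, for
  the pairing `⟨f, c⟩ = ∑ u, f u * c u`;
* `exists_basis_of_lattice` : a finitely generated `ℤ_(ℓ)`-module of equivariant functions which
  spans the space of functions has a `ℤ_(ℓ)`-basis which is a `ℚ̄`-basis of the functions;
* `neg_mem_of_comul` : in a finite group, closure under the comultiplication implies closure
  under the antipode;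
* `IsHopfOrder.of_adjoin_comul` : the generators criterion without the antipode.
-/
import Mathlib
import Fermat.Agent.T6.helper33_HopfOrderGen

set_option autoImplicit false
set_option linter.unusedSectionVars false
set_option linter.unusedVariables false
set_option linter.style.longLine false
set_option linter.style.haveILetI false

noncomputable section

open scoped BigOperators

namespace Fermat.Agent.T6.helper33

open Fermat.Agent.S28.helper94 (Zl isPrincipalIdealRing_Zl isFractionRing_Zl
  isIntegrallyClosed_Zl)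

/-! ### Dual bases -/

section Dual

variable {K : Type*} [Field K] {X ι : Type*} [Fintype X] [DecidableEq X] [Fintype ι]
  [DecidableEq ι]

/-- the dual family of a basis of the space of functions on `X`, for the pairing
`⟨f, c⟩ = ∑ u, f u * c u`. -/
def dualFam (b : Module.Basis ι K (X → K)) (j : ι) (u : X) : K :=
  b.repr (Pi.single u 1) j

theorem eq_sum_single (g : X → K) : g = ∑ u, g u • (Pi.single u (1 : K) : X → K) := by
  funext v
  rw [Finset.sum_apply]
  simp only [Pi.smul_apply, smul_eq_mul, Pi.single_apply, mul_ite, mul_one, mul_zero]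
  rw [Finset.sum_ite_eq, if_pos (Finset.mem_univ v)]

/-- the coordinates in a basis are given by the pairing with the dual family. -/
theorem repr_eq_sum (b : Module.Basis ι K (X → K)) (g : X → K) (j : ι) :
    b.repr g j = ∑ u, g u * dualFam b j u := by
  conv_lhs => rw [eq_sum_single g]
  rw [map_sum, Finsupp.coe_finsetSum, Finset.sum_apply]
  refine Finset.sum_congr rfl fun u _ => ?_
  rw [map_smul, Finsupp.smul_apply, smul_eq_mul]
  rfl

theorem sum_mul_dualFam (b : Module.Basis ι K (X → K)) (i j : ι) :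
    ∑ u, b i u * dualFam b j u = if i = j then 1 else 0 := by
  rw [← repr_eq_sum, b.repr_self, Finsupp.single_apply]

theorem sum_dualFam_mul (b : Module.Basis ι K (X → K)) (u v : X) :
    ∑ j, dualFam b j u * b j v = if u = v then 1 else 0 := by
  have h := congrFun (b.sum_repr (Pi.single u (1 : K))) v
  rw [Finset.sum_apply] at h
  simp only [Pi.smul_apply, smul_eq_mul] at h
  rw [Pi.single_apply] at h
  rw [show (∑ j, dualFam b j u * b j v) = ∑ j, (b.repr (Pi.single u 1)) j * b j v from rfl, h]
  by_cases huv : u = v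
  · rw [if_pos huv, if_pos huv.symm]
  · rw [if_neg huv, if_neg (Ne.symm huv)]

/-- expansion of a function in a basis. -/
theorem eq_sum_pairing (b : Module.Basis ι K (X → K)) (g : X → K) (v : X) :
    g v = ∑ j, (∑ u, g u * dualFam b j u) * b j v := by
  have h := congrFun (b.sum_repr g) v
  rw [Finset.sum_apply] at h
  rw [← h]
  refine Finset.sum_congr rfl fun j _ => ?_
  rw [Pi.smul_apply, smul_eq_mul, repr_eq_sum]

theorem dualFam_linearIndependent (b : Module.Basis ι K (X → K)) :
    LinearIndependent K (dualFam b) := by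
  rw [Fintype.linearIndependent_iff]
  intro a ha i
  have h1 : ∑ u, b i u * (∑ j, a j • dualFam b j) u = 0 := by
    rw [ha]; simp
  have h2 : ∑ u, b i u * (∑ j, a j • dualFam b j) u = a i := by
    simp only [Finset.sum_apply, Pi.smul_apply, smul_eq_mul, Finset.mul_sum]
    rw [Finset.sum_comm]
    have : ∀ j, ∑ u, b i u * (a j * dualFam b j u) = a j * (if i = j then 1 else 0) := by
      intro j
      rw [← sum_mul_dualFam b i j, Finset.mul_sum]
      refine Finset.sum_congr rfl fun u _ => ?_
      ring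
    simp only [this, mul_ite, mul_one, mul_zero]
    rw [Finset.sum_ite_eq, if_pos (Finset.mem_univ i)]
  rw [← h2, h1]

theorem card_eq_of_basis (b : Module.Basis ι K (X → K)) : Fintype.card ι = Fintype.card X := by
  rw [← Module.finrank_eq_card_basis b, Module.finrank_fintype_fun_eq_card]

/-- the dual basis. -/
def dualB (b : Module.Basis ι K (X → K)) : Module.Basis ι K (X → K) :=
  Module.Basis.mk (dualFam_linearIndependent b)
    (ge_of_eq ((dualFam_linearIndependent b).span_eq_top_of_card_eq_finrank'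
      (by rw [Module.finrank_fintype_fun_eq_card]; exact card_eq_of_basis b)))

@[simp] theorem dualB_apply (b : Module.Basis ι K (X → K)) (j : ι) :
    dualB b j = dualFam b j := by
  rw [dualB, Module.Basis.mk_apply]

theorem single_eq_sum_dualB (b : Module.Basis ι K (X → K)) (u : X) :
    (Pi.single u (1 : K) : X → K) = ∑ j, b j u • dualB b j := by
  funext v
  rw [Finset.sum_apply, Pi.single_apply]
  simp only [Pi.smul_apply, smul_eq_mul, dualB_apply]
  have h := sum_dualFam_mul b v u
  rw [← h]
  refine Finset.sum_congr rfl fun j _ => ?_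
  ring

/-- the dual of the dual basis is the basis. -/
theorem dualFam_dualB (b : Module.Basis ι K (X → K)) (j : ι) (u : X) :
    dualFam (dualB b) j u = b j u := by
  rw [dualFam, single_eq_sum_dualB b u, Module.Basis.repr_sum_self]

/-- the coordinates in the dual basis are given by the pairing with the basis. -/
theorem repr_dualB_eq_sum (b : Module.Basis ι K (X → K)) (g : X → K) (j : ι) :
    (dualB b).repr g j = ∑ u, g u * b j u := by
  rw [repr_eq_sum]
  simp only [dualFam_dualB]

end Dual

/-! ### Equivariance of the dual family -/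

section DualEquiv

variable {X ι : Type*} [Fintype X] [DecidableEq X] [Fintype ι] [DecidableEq ι]

theorem dualFam_equivariant (b : Module.Basis ι Qb (X → Qb)) (σ : GQ) (s : X → X)
    (hs : Function.Surjective s) (hb : ∀ i x, b i (s x) = σ (b i x)) (j : ι) (u : X) :
    dualFam b j (s u) = σ (dualFam b j u) := by
  have hinj : Function.Injective s := Finite.injective_iff_surjective.mpr hs
  have h0 : ∑ i, (σ (dualFam b i u) - dualFam b i (s u)) • b i = 0 := by
    funext w
    obtain ⟨v, rfl⟩ := hs w
    rw [Finset.sum_apply]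
    simp only [Pi.smul_apply, smul_eq_mul, sub_mul, Finset.sum_sub_distrib, Pi.zero_apply]
    rw [sum_dualFam_mul b (s u) (s v)]
    have h1 : ∑ i, σ (dualFam b i u) * b i (s v) = σ (∑ i, dualFam b i u * b i v) := by
      rw [map_sum]
      refine Finset.sum_congr rfl fun i _ => ?_
      rw [map_mul, hb]
    rw [h1, sum_dualFam_mul b u v]
    by_cases huv : u = v
    · rw [if_pos huv, if_pos (congrArg s huv), map_one, sub_self]
    · rw [if_neg huv, if_neg (fun h => huv (hinj h)), map_zero, sub_self]
  have h2 := Fintype.linearIndependent_iff.mp b.linearIndependent _ h0 j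
  exact (sub_eq_zero.mp h2).symm

end DualEquiv

/-! ### Lattices of equivariant functions -/

section Lattice

variable {ℓ : ℕ} [hℓ : Fact ℓ.Prime] {X : Type} [Finite X]

/-- a finitely generated `ℤ_(ℓ)`-module of equivariant functions which spans the space of
functions has a `ℤ_(ℓ)`-basis which is a `ℚ̄`-basis of the space of functions. -/
theorem exists_basis_of_lattice (act : GQ → X → X) (hact : ∀ σ, Function.Surjective (act σ))
    (N : Submodule (Zl ℓ) (X → Qb)) (hfg : N.FG)
    (heq : ∀ φ ∈ N, ∀ (σ : GQ) (x : X), φ (act σ x) = σ (φ x))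
    (hspan : Submodule.span Qb (N : Set (X → Qb)) = ⊤) :
    ∃ (n : ℕ) (b : Module.Basis (Fin n) Qb (X → Qb)), (∀ i, b i ∈ N) ∧
      ∀ φ ∈ N, ∀ i, ∃ r : Zl ℓ, b.repr φ i = algebraMap (Zl ℓ) Qb r := by
  classical
  haveI := isPrincipalIdealRing_Zl ℓ
  haveI : Module.Finite (Zl ℓ) N := Module.Finite.iff_fg.mpr hfg
  haveI : Module.IsTorsionFree (Zl ℓ) N := by
    refine Module.IsTorsionFree.of_smul_eq_zero fun r φ hr => ?_
    by_cases h0 : r = 0
    · exact Or.inl h0
    · right
      apply Subtype.ext
      funext x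
      have h1 : algebraMap (Zl ℓ) Qb r * (φ : X → Qb) x = 0 := by
        have h1 := congrFun (congrArg Subtype.val hr) x
        rw [← Algebra.smul_def]
        exact h1
      rcases mul_eq_zero.mp h1 with h2 | h2
      · exact absurd ((algebraMap_Zl_injective ℓ) (by rw [h2, map_zero])) h0
      · exact h2
  haveI : Module.Free (Zl ℓ) N := Module.free_of_finite_type_torsion_free'
  let β : Module.Basis (Fin (Module.finrank (Zl ℓ) N)) (Zl ℓ) N := Module.finBasis (Zl ℓ) N
  let e : Fin (Module.finrank (Zl ℓ) N) → X → Qb := fun i => ((β i : N) : X → Qb)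
  have h1 : LinearIndependent (Zl ℓ) e :=
    β.linearIndependent.map' N.subtype (LinearMap.ker_eq_bot.mpr Subtype.val_injective)
  haveI := isFractionRing_Zl ℓ
  have h2 : LinearIndependent ℚ e := (LinearIndependent.iff_fractionRing (Zl ℓ) ℚ).mp h1
  have h3 : LinearIndependent Qb e :=
    linearIndependent_of_equivariant act hact e (fun i σ x => heq _ (β i).2 σ x) h2
  -- expansion of the elements of `N`
  have hexp : ∀ (φ : X → Qb) (hφ : φ ∈ N),
      φ = ∑ i, algebraMap (Zl ℓ) Qb (β.repr ⟨φ, hφ⟩ i) • e i := by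
    intro φ hφ
    have h4 := congrArg (fun t : N => (t : X → Qb)) (β.sum_repr ⟨φ, hφ⟩)
    simp only [Submodule.coe_sum, Submodule.coe_smul] at h4
    refine h4.symm.trans ?_
    refine Finset.sum_congr rfl fun i _ => ?_
    rw [algebraMap_smul]
  have h4 : ⊤ ≤ Submodule.span Qb (Set.range e) := by
    rw [← hspan]
    refine Submodule.span_le.mpr fun φ hφ => ?_
    rw [hexp φ hφ]
    exact Submodule.sum_mem _ fun i _ =>
      Submodule.smul_mem _ _ (Submodule.subset_span ⟨i, rfl⟩)
  refine ⟨_, Module.Basis.mk h3 h4, fun i => ?_, fun φ hφ i => ?_⟩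
  · rw [Module.Basis.mk_apply]
    exact (β i).2
  · refine ⟨β.repr ⟨φ, hφ⟩ i, ?_⟩
    conv_lhs => rw [hexp φ hφ]
    have : (∑ i, algebraMap (Zl ℓ) Qb (β.repr ⟨φ, hφ⟩ i) • e i)
        = ∑ i, algebraMap (Zl ℓ) Qb (β.repr ⟨φ, hφ⟩ i) • (Module.Basis.mk h3 h4) i := by
      refine Finset.sum_congr rfl fun i _ => ?_
      rw [Module.Basis.mk_apply]
    rw [this, Module.Basis.repr_sum_self]

end Lattice

/-! ### The antipode is automatic -/

section Neg

variable {ℓ : ℕ} {T : Type} [AddCommGroup T] [Finite T]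

theorem nsmul_mem_of_comul (H : Subalgebra (Zl ℓ) (T → Qb))
    (hc : ∀ φ ∈ H, ∃ (n : ℕ) (a b : Fin n → T → Qb), (∀ i, a i ∈ H) ∧ (∀ i, b i ∈ H) ∧
      ∀ x y, φ (x + y) = ∑ i, a i x * b i y) (k : ℕ) :
    ∀ φ ∈ H, (fun x => φ ((k + 1) • x)) ∈ H := by
  induction k with
  | zero =>
    intro φ hφ
    simpa using hφ
  | succ k ih =>
    intro φ hφ
    obtain ⟨n, a, b, ha, hb, hab⟩ := hc φ hφ
    have h1 : (fun x => φ ((k + 1 + 1) • x)) = ∑ i, (fun x => a i ((k + 1) • x)) * b i := by
      funext x
      rw [succ_nsmul, hab, Finset.sum_apply]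
      rfl
    rw [h1]
    exact H.sum_mem fun i _ => H.mul_mem (ih (a i) (ha i)) (hb i)

/-- in a finite group the closure under the comultiplication implies the closure under the
antipode. -/
theorem neg_mem_of_comul (H : Subalgebra (Zl ℓ) (T → Qb))
    (hc : ∀ φ ∈ H, ∃ (n : ℕ) (a b : Fin n → T → Qb), (∀ i, a i ∈ H) ∧ (∀ i, b i ∈ H) ∧
      ∀ x y, φ (x + y) = ∑ i, a i x * b i y) :
    ∀ φ ∈ H, (fun x => φ (-x)) ∈ H := by
  intro φ hφ
  have hn : 0 < Nat.card T := Nat.card_pos
  have h1 := nsmul_mem_of_comul H hc (2 * Nat.card T - 2) φ hφ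
  have h2 : ∀ x : T, (2 * Nat.card T - 2 + 1) • x = -x := by
    intro x
    have h3 : (2 * Nat.card T - 2 + 1) + 1 = 2 * Nat.card T := by omega
    have h4 : ((2 * Nat.card T - 2 + 1) + 1) • x = 0 := by
      rw [h3, mul_comm, mul_nsmul, card_nsmul_eq_zero', nsmul_zero]
    rw [succ_nsmul] at h4
    exact eq_neg_of_add_eq_zero_left h4
  simpa only [h2] using h1

end Neg

section Adjoin2

variable {ℓ : ℕ} [hℓ : Fact ℓ.Prime] {T : Type} [AddCommGroup T] [Finite T]

/-- **Hopf orders from generators**, without the antipode. -/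
theorem IsHopfOrder.of_adjoin_comul (act : GQ → T → T) (S : Set (T → Qb)) (hS : S.Finite)
    (act_surj : ∀ σ, Function.Surjective (act σ)) (act_zero : ∀ σ, act σ 0 = 0)
    (hint : ∀ s ∈ S, ∀ x, IsIntegral (Zl ℓ) (s x))
    (heq : ∀ s ∈ S, ∀ (σ : GQ) (x : T), s (act σ x) = σ (s x))
    (hsep : ∀ x y : T, x ≠ y → ∃ s ∈ S, s x ≠ s y)
    (hcomul : ∀ s ∈ S, ∃ (n : ℕ) (a b : Fin n → T → Qb),
      (∀ i, a i ∈ Algebra.adjoin (Zl ℓ) S) ∧ (∀ i, b i ∈ Algebra.adjoin (Zl ℓ) S) ∧
      ∀ x y, s (x + y) = ∑ i, a i x * b i y) :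
    IsHopfOrder ℓ act (Algebra.adjoin (Zl ℓ) S) := by
  have hcomul' : ∀ φ ∈ Algebra.adjoin (Zl ℓ) S, ∃ (n : ℕ) (a b : Fin n → T → Qb),
      (∀ i, a i ∈ Algebra.adjoin (Zl ℓ) S) ∧ (∀ i, b i ∈ Algebra.adjoin (Zl ℓ) S) ∧
      ∀ x y, φ (x + y) = ∑ i, a i x * b i y := by
    have h1 : Algebra.adjoin (Zl ℓ) S ≤ comulSub (Algebra.adjoin (Zl ℓ) S) :=
      Algebra.adjoin_le fun s hs => (mem_comulSub_iff _ _).mpr (hcomul s hs)
    exact fun φ hφ => (mem_comulSub_iff _ _).mp (h1 hφ)
  exact IsHopfOrder.of_adjoin act S hS act_surj act_zero hint heq hsep hcomul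
    (fun s hs => neg_mem_of_comul _ hcomul' s (Algebra.subset_adjoin hs))

end Adjoin2

end Fermat.Agent.T6.helper33

end
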