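/-
T6 (S19 / S32), helper33, block [A2] **FOURIER**: the characters of a finite abelian group with
values in `ℚ̄`, the Fourier transform, convolution, and the integrality criterion
"all Galois conjugates lie in a valuation ring over `ℓ` ⟹ integral over `ℤ_(ℓ)`".
-/
import Mathlib
import Fermat.Prelude.Def_FLTPrelim_Ramification
import Fermat.Agent.T6.helper33_HopfOrder

set_option autoImplicit false
set_option linter.unusedSectionVars false
set_option linter.unusedVariables false
set_option linter.style.longLine false
set_option linter.style.haveILetI false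

noncomputable section

open scoped BigOperators

namespace Fermat.Agent.T6.helper33

open Fermat.Agent.S28.helper94 (Zl isPrincipalIdealRing_Zl isFractionRing_Zl
  isIntegrallyClosed_Zl)

/-! ### Characters -/

section Characters

variable (M : Type) [AddCommGroup M] [Finite M]

instance hasEnoughRoots_exponent :
    HasEnoughRootsOfUnity Qb (Monoid.exponent (Multiplicative M)) := by
  haveI : NeZero (Monoid.exponent (Multiplicative M)) :=
    ⟨Monoid.exponent_ne_zero_of_finite⟩
  infer_instance

variable {M}

/-- **characters separate points** -/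
theorem exists_addChar_ne_one {u : M} (hu : u ≠ 0) : ∃ χ : AddChar M Qb, χ u ≠ 1 := by
  have h1 : Multiplicative.ofAdd u ≠ 1 := fun h => hu (by simpa using h)
  obtain ⟨φ, hφ⟩ := CommGroup.exists_apply_ne_one_of_hasEnoughRootsOfUnity
    (Multiplicative M) Qb h1
  refine ⟨AddChar.toMonoidHomEquiv.symm ((Units.coeHom Qb).comp φ), ?_⟩
  intro h
  apply hφ
  apply Units.ext
  simpa using h

variable (M)

/-- the characters, as functions, are linearly independent (Dedekind). -/
theorem addChar_linearIndependent :
    LinearIndependent Qb (fun χ : AddChar M Qb => (χ : M → Qb)) := by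
  have h := (linearIndependent_monoidHom (Multiplicative M) Qb).comp
    (fun χ : AddChar M Qb => AddChar.toMonoidHomEquiv χ) AddChar.toMonoidHomEquiv.injective
  exact h

instance finite_addChar : Finite (AddChar M Qb) :=
  (addChar_linearIndependent M).finite_of_isNoetherian

/-- NOT an instance (to avoid diamonds downstream): all statements below take an arbitrary
`[Fintype (AddChar M Qb)]`; use `letI := fintype_addChar M` (or `Fintype.ofFinite _`). -/
@[reducible] def fintype_addChar : Fintype (AddChar M Qb) := Fintype.ofFinite _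

theorem card_addChar : Nat.card (AddChar M Qb) = Nat.card M := by
  classical
  letI := Fintype.ofFinite M
  letI := fintype_addChar M
  apply le_antisymm
  · have h1 := (addChar_linearIndependent M).fintype_card_le_finrank
    rw [Module.finrank_fintype_fun_eq_card] at h1
    rw [Nat.card_eq_fintype_card, Nat.card_eq_fintype_card]
    exact h1
  · obtain ⟨e⟩ := CommGroup.monoidHom_mulEquiv_of_hasEnoughRootsOfUnity (Multiplicative M) Qb
    have h2 : Nat.card (Multiplicative M →* Qbˣ) = Nat.card M := by
      rw [Nat.card_congr e.toEquiv]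
      rfl
    rw [← h2]
    refine Nat.card_le_card_of_injective
      (fun φ : Multiplicative M →* Qbˣ =>
        (AddChar.toMonoidHomEquiv.symm ((Units.coeHom Qb).comp φ) : AddChar M Qb)) ?_
    intro φ ψ h
    have h3 := AddChar.toMonoidHomEquiv.symm.injective h
    ext x
    exact DFunLike.congr_fun h3 x


variable {M}

/-- **second orthogonality relation** -/
theorem sum_addChar_apply [DecidableEq M] [Fintype (AddChar M Qb)] (u : M) :
    ∑ χ : AddChar M Qb, χ u = if u = 0 then (Nat.card M : Qb) else 0 := by
  split_ifs with hu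
  · subst hu
    simp only [AddChar.map_zero_eq_one, Finset.sum_const, Finset.card_univ, nsmul_eq_mul, mul_one]
    rw [← card_addChar M, Nat.card_eq_fintype_card]
  · obtain ⟨χ₀, hχ₀⟩ := exists_addChar_ne_one hu
    have h1 : ∑ χ : AddChar M Qb, χ u = χ₀ u * ∑ χ : AddChar M Qb, χ u := by
      rw [Finset.mul_sum]
      refine (Fintype.sum_bijective (fun χ : AddChar M Qb => χ₀ * χ)
        (Group.mulLeft_bijective χ₀) _ _ (fun χ => ?_)).symm
      rw [AddChar.mul_apply]
    have h2 : (1 - χ₀ u) * ∑ χ : AddChar M Qb, χ u = 0 := by
      rw [sub_mul, one_mul, ← h1, sub_self]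
    rcases mul_eq_zero.mp h2 with h3 | h3
    · exact absurd (sub_eq_zero.mp h3).symm hχ₀
    · exact h3

/-- the **Fourier transform** -/
def ft : (M → Qb) →ₗ[Qb] (AddChar M Qb → Qb) where
  toFun c χ := ∑ᶠ u, c u * χ u
  map_add' c d := by
    classical
    letI := Fintype.ofFinite M
    funext χ
    simp only [Pi.add_apply, finsum_eq_sum_of_fintype, add_mul, Finset.sum_add_distrib]
  map_smul' a c := by
    classical
    letI := Fintype.ofFinite M
    funext χ
    simp only [Pi.smul_apply, smul_eq_mul, finsum_eq_sum_of_fintype, RingHom.id_apply,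
      Finset.mul_sum, mul_assoc]

theorem ft_apply [Fintype M] (c : M → Qb) (χ : AddChar M Qb) :
    ft c χ = ∑ u, c u * χ u := by
  show ∑ᶠ u, c u * χ u = _
  rw [finsum_eq_sum_of_fintype]

/-- **Fourier inversion** -/
theorem ft_inv [Fintype M] [Fintype (AddChar M Qb)] (c : M → Qb) (u : M) :
    (Nat.card M : Qb) * c u = ∑ χ : AddChar M Qb, ft c χ * χ (-u) := by
  classical
  calc (Nat.card M : Qb) * c u
      = ∑ v, c v * (if v - u = 0 then (Nat.card M : Qb) else 0) := by
        rw [Finset.sum_eq_single u]
        · rw [sub_self, if_pos rfl, mul_comm]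
        · intro v _ hv
          rw [if_neg (sub_ne_zero.mpr hv), mul_zero]
        · intro h
          exact absurd (Finset.mem_univ u) h
    _ = ∑ v, c v * ∑ χ : AddChar M Qb, χ (v - u) := by
        refine Finset.sum_congr rfl fun v _ => ?_
        rw [sum_addChar_apply]
    _ = ∑ χ : AddChar M Qb, ft c χ * χ (-u) := by
        simp_rw [ft_apply, Finset.mul_sum, Finset.sum_mul]
        rw [Finset.sum_comm]
        refine Finset.sum_congr rfl fun χ _ => Finset.sum_congr rfl fun v _ => ?_
        rw [sub_eq_add_neg, AddChar.map_add_eq_mul, mul_assoc]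

theorem card_ne_zero_Qb (M : Type) [Finite M] [Nonempty M] : (Nat.card M : Qb) ≠ 0 := by
  have : Nat.card M ≠ 0 := Nat.card_ne_zero.mpr ⟨inferInstance, inferInstance⟩
  exact_mod_cast this

theorem ft_injective : Function.Injective (ft (M := M)) := by
  classical
  letI := Fintype.ofFinite M
  letI := fintype_addChar M
  intro c d hcd
  funext u
  have h1 := ft_inv c u
  have h2 := ft_inv d u
  rw [hcd] at h1
  exact mul_left_cancel₀ (card_ne_zero_Qb M) (h1.trans h2.symm)

/-- the characters span the space of functions. -/
theorem span_addChar_eq_top :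
    Submodule.span Qb (Set.range (fun χ : AddChar M Qb => (χ : M → Qb))) = ⊤ := by
  classical
  letI := Fintype.ofFinite M
  letI := fintype_addChar M
  rw [eq_top_iff]
  intro c _
  have h1 : c = ∑ χ : AddChar M Qb, ((Nat.card M : Qb)⁻¹ * ft c χ) • ((χ⁻¹ : AddChar M Qb) : M → Qb) := by
    funext u
    rw [Finset.sum_apply]
    simp only [Pi.smul_apply, smul_eq_mul, AddChar.inv_apply, mul_assoc]
    rw [← Finset.mul_sum, ← ft_inv, ← mul_assoc, inv_mul_cancel₀ (card_ne_zero_Qb M), one_mul]
  rw [h1]
  exact Submodule.sum_mem _ fun χ _ => Submodule.smul_mem _ _ (Submodule.subset_span ⟨χ⁻¹, rfl⟩)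

/-- **convolution** -/
def conv (c d : M → Qb) (u : M) : Qb := ∑ᶠ v, c v * d (u - v)

theorem conv_apply [Fintype M] (c d : M → Qb) (u : M) :
    conv c d u = ∑ v, c v * d (u - v) := by
  show ∑ᶠ v, c v * d (u - v) = _
  rw [finsum_eq_sum_of_fintype]

/-- the Fourier transform turns convolution into the pointwise product. -/
theorem ft_conv (c d : M → Qb) (χ : AddChar M Qb) :
    ft (conv c d) χ = ft c χ * ft d χ := by
  classical
  letI := Fintype.ofFinite M
  simp_rw [ft_apply, conv_apply, Finset.sum_mul, Finset.mul_sum]
  rw [Finset.sum_comm]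
  refine Finset.sum_congr rfl fun v _ => ?_
  refine (Fintype.sum_bijective (fun u : M => u - v)
    (Equiv.subRight v).bijective _ _ (fun u => ?_))
  have : χ u = χ v * χ (u - v) := by
    rw [← AddChar.map_add_eq_mul, add_sub_cancel]
  rw [this]
  ring

/-- convolution is dual to the comultiplication of functions. -/
theorem sum_mul_conv [Fintype M] (f c d : M → Qb) :
    ∑ w, f w * conv c d w = ∑ u, ∑ v, f (u + v) * c u * d v := by
  classical
  simp_rw [conv_apply, Finset.mul_sum]
  rw [Finset.sum_comm]
  refine Finset.sum_congr rfl fun u _ => ?_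
  refine (Fintype.sum_bijective (fun w : M => w - u)
    (Equiv.subRight u).bijective _ _ (fun w => ?_))
  rw [add_sub_cancel]
  ring

end Characters

end Fermat.Agent.T6.helper33

end
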