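/-
T6 (S19 / S32), helper33, block [A2] **FOURIER**, part 2: integrality.

* `rat_mem_iff` : a rational number lies in a valuation ring `A` of `ℚ̄` over `ℓ` iff it lies in
  `ℤ_(ℓ)`;
* `isIntegral_of_conj_mem` : an element of `ℚ̄` all of whose Galois conjugates lie in `A` is
  integral over `ℤ_(ℓ)`;
* `twist`, `ft_twist` : Galois conjugation of Fourier coefficients;
* `isIntegral_ft` : the Fourier coefficients of an equivariant function are integral over `ℤ_(ℓ)`
  as soon as they all lie in `A`.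
-/
import Mathlib
import Fermat.Prelude.Def_FLTPrelim_Ramification
import Fermat.Agent.T6.helper33_Fourier

set_option autoImplicit false
set_option linter.unusedSectionVars false
set_option linter.unusedVariables false
set_option linter.style.longLine false
set_option linter.style.haveILetI false

noncomputable section

open scoped BigOperators
open Polynomial

namespace Fermat.Agent.T6.helper33

open Fermat.Agent.S28.helper94 (Zl isPrincipalIdealRing_Zl isFractionRing_Zl
  isIntegrallyClosed_Zl)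

section Integrality

variable {ℓ : ℕ} [hℓ : Fact ℓ.Prime] {A : ValuationSubring Qb}

/-- an integer prime to `ℓ` is a unit of `A`. -/
theorem intCast_inv_mem_A (hA : A.LiesOverPrime ℓ) (m : ℤ) (hm : ¬ (ℓ : ℤ) ∣ m) :
    ((m : Qb))⁻¹ ∈ A := by
  have hcop : IsCoprime (ℓ : ℤ) m :=
    (Nat.prime_iff_prime_int.mp hℓ.out).coprime_iff_not_dvd.mpr hm
  obtain ⟨a, b, hab⟩ := hcop
  have hm0 : (m : Qb) ≠ 0 := by
    intro h
    have : m = 0 := by exact_mod_cast h
    exact hm (this ▸ dvd_zero _)
  by_contra hinv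
  -- then `m` is a nonunit of `A`
  have hmA : (m : Qb) ∈ A := intCast_mem A m
  have hmnu : (m : Qb) ∈ A.nonunits := by
    rw [ValuationSubring.mem_nonunits_iff_exists_mem_maximalIdeal]
    refine ⟨hmA, ?_⟩
    rw [IsLocalRing.mem_maximalIdeal, mem_nonunits_iff]
    intro hu
    obtain ⟨u, hu⟩ := hu.exists_right_inv
    apply hinv
    have h1 : (m : Qb) * (u : Qb) = 1 := by
      have := congrArg (fun t : A => (t : Qb)) hu
      simpa using this
    have h2 : (m : Qb)⁻¹ = (u : Qb) := by
      rw [inv_eq_iff_eq_inv, eq_comm, inv_eq_iff_eq_inv]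
      exact (eq_inv_of_mul_eq_one_right h1)
    rw [h2]
    exact u.2
  have hℓnu : ((ℓ : ℕ) : Qb) ∈ A.nonunits := hA
  -- the nonunits are closed under `A`-linear combinations
  have h1 : ((a : Qb) * (ℓ : Qb) + (b : Qb) * (m : Qb)) ∈ A.nonunits := by
    rw [ValuationSubring.mem_nonunits_iff_exists_mem_maximalIdeal] at hmnu hℓnu ⊢
    obtain ⟨hm1, hm2⟩ := hmnu
    obtain ⟨hl1, hl2⟩ := hℓnu
    have ha : (a : Qb) ∈ A := intCast_mem A a
    have hb : (b : Qb) ∈ A := intCast_mem A b
    refine ⟨A.add_mem _ _ (A.mul_mem _ _ ha hl1) (A.mul_mem _ _ hb hm1), ?_⟩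
    have := (IsLocalRing.maximalIdeal A).add_mem
      ((IsLocalRing.maximalIdeal A).mul_mem_left ⟨(a : Qb), ha⟩ hl2)
      ((IsLocalRing.maximalIdeal A).mul_mem_left ⟨(b : Qb), hb⟩ hm2)
    exact this
  have h2 : ((a : Qb) * (ℓ : Qb) + (b : Qb) * (m : Qb)) = 1 := by
    have := congrArg (fun t : ℤ => (t : Qb)) hab
    simpa using this
  rw [h2, ValuationSubring.mem_nonunits_iff, map_one] at h1
  exact lt_irrefl _ h1

/-- a rational number lies in `A` iff it lies in `ℤ_(ℓ)`. -/
theorem rat_mem_iff (hA : A.LiesOverPrime ℓ) (r : ℚ) :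
    algebraMap ℚ Qb r ∈ A ↔ r ∈ GaloisRep.ratLocalizedAt ℓ := by
  have hcast : algebraMap ℚ Qb r = (r.num : Qb) * ((r.den : ℤ) : Qb)⁻¹ := by
    rw [eq_ratCast]
    conv_lhs => rw [← Rat.num_div_den r]
    push_cast
    rw [div_eq_mul_inv]
  constructor
  · intro hr
    show r.den.Coprime ℓ
    rw [Nat.coprime_comm, Nat.Prime.coprime_iff_not_dvd hℓ.out]
    intro hdvd
    -- then `ℓ ∤ num`, so `num` is a unit, so `1 / den ∈ A`, so `1 / ℓ ∈ A`
    have hnum : ¬ (ℓ : ℤ) ∣ r.num := by
      intro h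
      have h1 : (ℓ : ℤ) ∣ (r.num.natAbs : ℤ) := by rwa [Int.dvd_natAbs]
      have h2 : ℓ ∣ r.num.natAbs := by exact_mod_cast h1
      have h3 := Nat.dvd_gcd h2 hdvd
      rw [r.reduced] at h3
      exact hℓ.out.one_lt.ne' (Nat.dvd_one.mp h3)
    have hninv := intCast_inv_mem_A hA r.num hnum
    have hnum0 : (r.num : Qb) ≠ 0 := by
      intro h
      have : r.num = 0 := by exact_mod_cast h
      exact hnum (this ▸ dvd_zero _)
    have hden0 : ((r.den : ℤ) : Qb) ≠ 0 := by
      have := r.den_ne_zero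
      exact_mod_cast this
    have hdeninv : (((r.den : ℤ) : Qb))⁻¹ ∈ A := by
      have : (((r.den : ℤ) : Qb))⁻¹ = (r.num : Qb)⁻¹ * algebraMap ℚ Qb r := by
        rw [hcast, ← mul_assoc, inv_mul_cancel₀ hnum0, one_mul]
      rw [this]
      exact A.mul_mem _ _ hninv hr
    obtain ⟨k, hk⟩ := hdvd
    have hℓ0 : ((ℓ : ℕ) : Qb) ≠ 0 := by
      have := hℓ.out.ne_zero
      exact_mod_cast this
    have hℓinv : ((ℓ : ℕ) : Qb)⁻¹ ∈ A := by
      have : ((ℓ : ℕ) : Qb)⁻¹ = (k : Qb) * (((r.den : ℤ) : Qb))⁻¹ := by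
        have hk' : ((r.den : ℤ) : Qb) = (ℓ : Qb) * (k : Qb) := by
          rw [hk]; push_cast; ring
        rw [hk']
        have hk0 : (k : Qb) ≠ 0 := by
          intro h
          rw [h, mul_zero] at hk'
          exact hden0 hk'
        field_simp
      rw [this]
      exact A.mul_mem _ _ (natCast_mem A k) hdeninv
    -- contradiction with `ℓ` being a nonunit
    have hnu : ((ℓ : ℕ) : Qb) ∈ A.nonunits := hA
    rw [ValuationSubring.mem_nonunits_iff] at hnu
    have h1 := (A.valuation_le_one_iff _).mpr hℓinv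
    rw [map_inv₀] at h1
    have h2 : A.valuation ((ℓ : ℕ) : Qb) ≠ 0 := by
      rw [Ne, map_eq_zero]
      exact hℓ0
    have h3 : (1 : A.ValueGroup) ≤ A.valuation ((ℓ : ℕ) : Qb) := by
      rwa [inv_le_one₀ (zero_lt_iff.mpr h2)] at h1
    exact absurd hnu (not_lt.mpr h3)
  · intro hr
    have hden : ¬ (ℓ : ℤ) ∣ (r.den : ℤ) := by
      intro h
      have h2 : ℓ ∣ r.den := by exact_mod_cast h
      have h3 : r.den.Coprime ℓ := hr
      rw [Nat.coprime_comm, Nat.Prime.coprime_iff_not_dvd hℓ.out] at h3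
      exact h3 h2
    rw [hcast]
    exact A.mul_mem _ _ (intCast_mem A r.num) (intCast_inv_mem_A hA _ hden)

theorem algebraMap_Zl_mem_A (hA : A.LiesOverPrime ℓ) (r : Zl ℓ) :
    algebraMap (Zl ℓ) Qb r ∈ A := by
  rw [coe_algebraMap_Zl]
  exact (rat_mem_iff hA _).mpr r.2

/-- **integrality criterion**: an element of `ℚ̄` all of whose Galois conjugates lie in a
valuation ring over `ℓ` is integral over `ℤ_(ℓ)`. -/
theorem isIntegral_of_conj_mem (hA : A.LiesOverPrime ℓ) (x : Qb) (hx : ∀ σ : GQ, σ x ∈ A) :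
    IsIntegral (Zl ℓ) x := by
  classical
  have hcl : IsAlgClosure ℚ Qb := by
    have h : (DivisionRing.toRatAlgebra : Algebra ℚ Qb) = AlgebraicClosure.instAlgebra ℚ :=
      Subsingleton.elim _ _
    rw [h]
    infer_instance
  have hgal : IsGalois ℚ Qb := inferInstance
  have hnorm : Normal ℚ Qb := inferInstance
  have halg : IsAlgebraic ℚ x := (Normal.isIntegral hnorm x).isAlgebraic
  have hint : IsIntegral ℚ x := Normal.isIntegral hnorm x
  set p : ℚ[X] := minpoly ℚ x with hp
  have hmonic : p.Monic := minpoly.monic hint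
  have hsplit : (p.map (algebraMap ℚ Qb)).Splits := IsAlgClosed.splits _
  have hprod := hsplit.eq_prod_roots_of_monic (hmonic.map _)
  -- every root is a conjugate, hence in `A`
  have hroots : ∀ r ∈ (p.map (algebraMap ℚ Qb)).roots, r ∈ A := by
    intro r hr
    have h1 : Polynomial.aeval r p = 0 := by
      have := (Polynomial.mem_roots'.mp hr).2
      rwa [Polynomial.IsRoot.def, Polynomial.eval_map, ← Polynomial.aeval_def] at this
    obtain ⟨σ, hσ⟩ := minpoly.exists_algEquiv_of_root' halg h1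
    rw [← hσ]
    exact hx σ
  -- so the polynomial has coefficients in `A`
  have hlift : p.map (algebraMap ℚ Qb) ∈ Polynomial.lifts A.subtype := by
    rw [hprod]
    refine Subsemiring.multiset_prod_mem _ _ ?_
    intro q hq
    obtain ⟨r, hr, rfl⟩ := Multiset.mem_map.mp hq
    rw [Polynomial.lifts_iff_coeff_lifts]
    intro n
    have : (X - C r : Qb[X]) = ((X - C (⟨r, hroots r hr⟩ : A) : A[X])).map A.subtype := by
      simp
    rw [this, Polynomial.coeff_map]
    exact ⟨_, rfl⟩
  have hcoeff : ∀ n, p.coeff n ∈ GaloisRep.ratLocalizedAt ℓ := by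
    intro n
    rw [← rat_mem_iff hA]
    obtain ⟨a, ha⟩ := (Polynomial.lifts_iff_coeff_lifts _).mp hlift n
    rw [Polynomial.coeff_map] at ha
    rw [← ha]
    exact a.2
  -- the polynomial over `ℤ_(ℓ)`
  have hlift2 : p ∈ Polynomial.lifts (algebraMap (Zl ℓ) ℚ) := by
    rw [Polynomial.lifts_iff_coeff_lifts]
    intro n
    exact ⟨⟨p.coeff n, hcoeff n⟩, rfl⟩
  obtain ⟨q, hq1, hq2, hq3⟩ := Polynomial.lifts_and_degree_eq_and_monic hlift2 hmonic
  refine ⟨q, hq3, ?_⟩
  have h1 : Polynomial.aeval x p = 0 := minpoly.aeval ℚ x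
  rw [← hq1, Polynomial.aeval_def, Polynomial.eval₂_map] at h1
  exact h1

end Integrality

/-! ### Galois conjugation of Fourier coefficients -/

section Twist

variable {M : Type} [AddCommGroup M] [Finite M]

/-- the twist of a character by a field automorphism and an additive automorphism. -/
def twist (σ : GQ) (e : M ≃+ M) (χ : AddChar M Qb) : AddChar M Qb where
  toFun v := σ (χ (e.symm v))
  map_zero_eq_one' := by simp
  map_add_eq_mul' a b := by simp [AddChar.map_add_eq_mul]

@[simp] theorem twist_apply (σ : GQ) (e : M ≃+ M) (χ : AddChar M Qb) (v : M) :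
    twist σ e χ v = σ (χ (e.symm v)) := rfl

/-- **Galois conjugation of Fourier coefficients** -/
theorem ft_twist (σ : GQ) (e : M ≃+ M) (c : M → Qb) (hc : ∀ u, c (e u) = σ (c u))
    (χ : AddChar M Qb) : σ (ft c χ) = ft c (twist σ e χ) := by
  classical
  letI := Fintype.ofFinite M
  rw [ft_apply, ft_apply, map_sum]
  refine Fintype.sum_bijective e e.bijective _ _ (fun u => ?_)
  rw [map_mul, hc, twist_apply, AddEquiv.symm_apply_apply]

/-- an additive surjective self-map of a finite group, as an additive automorphism. -/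
def addEquivOfSurj (f : M → M) (hadd : ∀ u v, f (u + v) = f u + f v)
    (hsurj : Function.Surjective f) : M ≃+ M :=
  AddEquiv.ofBijective (AddMonoidHom.mk' f hadd)
    ⟨Finite.injective_iff_surjective.mpr hsurj, hsurj⟩

@[simp] theorem addEquivOfSurj_apply (f : M → M) (hadd : ∀ u v, f (u + v) = f u + f v)
    (hsurj : Function.Surjective f) (u : M) : addEquivOfSurj f hadd hsurj u = f u := rfl

variable {ℓ : ℕ} [hℓ : Fact ℓ.Prime] {A : ValuationSubring Qb}

/-- **integrality of Fourier coefficients**: if `c` is equivariant and all its Fourier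
coefficients lie in `A`, they are integral over `ℤ_(ℓ)`. -/
theorem isIntegral_ft (hA : A.LiesOverPrime ℓ) (act : GQ → M → M)
    (hadd : ∀ σ u v, act σ (u + v) = act σ u + act σ v)
    (hsurj : ∀ σ, Function.Surjective (act σ))
    (c : M → Qb) (hc : ∀ σ u, c (act σ u) = σ (c u))
    (hcA : ∀ χ : AddChar M Qb, ft c χ ∈ A) (χ : AddChar M Qb) :
    IsIntegral (Zl ℓ) (ft c χ) := by
  refine isIntegral_of_conj_mem hA _ (fun σ => ?_)
  rw [ft_twist σ (addEquivOfSurj (act σ) (hadd σ) (hsurj σ)) c (fun u => hc σ u) χ]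
  exact hcA _

end Twist

end Fermat.Agent.T6.helper33

end
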