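/-
T6 (S19 / S32), helper33, block [A3] **CRIT**: the Fourier criterion.

If every character of the finite Galois module `M` is an `A`-linear combination of equivariant
`A`-valued functions (`A` a valuation ring of `ℚ̄` over `ℓ`), then the algebra of functions on
`M` contains a Hopf order over `ℤ_(ℓ)`.

Construction: `e` = a `ℤ_(ℓ)`-basis of the span of the given functions, `c` = its dual basis;
the Fourier transforms of the `c j` are equivariant `A`-valued functions on the set of
characters, so they generate a finite `ℤ_(ℓ)`-algebra `Λ^` (pointwise product), with basis `λ^`;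
`λ := ft⁻¹ λ^` spans a lattice closed under convolution which contains the `c j`;
`H := ℤ_(ℓ)[h]`, `h` = the dual basis of `λ`.
-/
import Mathlib
import Fermat.Agent.T6.helper33_FourierInt
import Fermat.Agent.T6.helper33_CritLin

set_option autoImplicit false
set_option linter.unusedSectionVars false
set_option linter.unusedVariables false
set_option linter.style.longLine false
set_option linter.style.haveILetI false

noncomputable section

open scoped BigOperators

namespace Fermat.Agent.T6.helper33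

open Fermat.Agent.S28.helper94 (Zl isPrincipalIdealRing_Zl isFractionRing_Zl
  isIntegrallyClosed_Zl)

/-! ### Preliminaries -/

section Prelim

variable {ℓ : ℕ} [hℓ : Fact ℓ.Prime] {A : ValuationSubring Qb}

/-- the subalgebra of the `A`-valued functions. -/
def valSub (hA : A.LiesOverPrime ℓ) (X : Type*) : Subalgebra (Zl ℓ) (X → Qb) where
  carrier := {φ | ∀ x, φ x ∈ A}
  mul_mem' ha hb x := A.mul_mem _ _ (ha x) (hb x)
  add_mem' ha hb x := A.add_mem _ _ (ha x) (hb x)
  algebraMap_mem' r x := algebraMap_Zl_mem_A hA r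

theorem mem_valSub_iff (hA : A.LiesOverPrime ℓ) {X : Type*} (φ : X → Qb) :
    φ ∈ valSub hA X ↔ ∀ x, φ x ∈ A := Iff.rfl

/-- reindexing of a decomposition of the comultiplication. -/
theorem exists_fin_of_sum {T : Type} [Add T] (H : Subalgebra (Zl ℓ) (T → Qb)) {ι : Type}
    [Fintype ι] (a b : ι → T → Qb) (ha : ∀ i, a i ∈ H) (hb : ∀ i, b i ∈ H) (φ : T → Qb)
    (h : ∀ x y, φ (x + y) = ∑ i, a i x * b i y) :
    ∃ (n : ℕ) (a' b' : Fin n → T → Qb), (∀ i, a' i ∈ H) ∧ (∀ i, b' i ∈ H) ∧
      ∀ x y, φ (x + y) = ∑ i, a' i x * b' i y :=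
  ⟨Fintype.card ι, a ∘ (Fintype.equivFin ι).symm, b ∘ (Fintype.equivFin ι).symm,
    fun i => ha _, fun i => hb _, fun x y => by
      rw [h]
      exact (Equiv.sum_comp (Fintype.equivFin ι).symm (fun i => a i x * b i y)).symm⟩

end Prelim

/-! ### The action on the characters -/

section ActChar

variable {M : Type} [AddCommGroup M] [Finite M]

/-- the action of `G_ℚ` on the characters of `M`. -/
def actChar (act : GQ → M → M) (hadd : ∀ σ u v, act σ (u + v) = act σ u + act σ v)
    (hsurj : ∀ σ, Function.Surjective (act σ)) (σ : GQ) (χ : AddChar M Qb) : AddChar M Qb :=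
  twist σ (addEquivOfSurj (act σ) (hadd σ) (hsurj σ)) χ

variable (act : GQ → M → M) (hadd : ∀ σ u v, act σ (u + v) = act σ u + act σ v)
  (hsurj : ∀ σ, Function.Surjective (act σ))

theorem actChar_surjective (σ : GQ) : Function.Surjective (actChar act hadd hsurj σ) := by
  intro χ'
  refine ⟨twist σ.symm (addEquivOfSurj (act σ) (hadd σ) (hsurj σ)).symm χ', ?_⟩
  apply DFunLike.ext
  intro v
  show σ (σ.symm (χ' (((addEquivOfSurj (act σ) (hadd σ) (hsurj σ)).symm).symm
    ((addEquivOfSurj (act σ) (hadd σ) (hsurj σ)).symm v)))) = χ' v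
  rw [AlgEquiv.apply_symm_apply, AddEquiv.symm_symm, AddEquiv.apply_symm_apply]

theorem ft_actChar (c : M → Qb) (hc : ∀ σ u, c (act σ u) = σ (c u)) (σ : GQ)
    (χ : AddChar M Qb) : ft c (actChar act hadd hsurj σ χ) = σ (ft c χ) :=
  (ft_twist σ (addEquivOfSurj (act σ) (hadd σ) (hsurj σ)) c (fun u => hc σ u) χ).symm

/-- a function is equivariant as soon as its Fourier transform is. -/
theorem equivariant_of_ft (c : M → Qb)
    (h : ∀ σ χ, ft c (actChar act hadd hsurj σ χ) = σ (ft c χ)) (σ : GQ) (u : M) :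
    c (act σ u) = σ (c u) := by
  classical
  letI := Fintype.ofFinite M
  set e := addEquivOfSurj (act σ) (hadd σ) (hsurj σ) with he
  have h1 : ft (fun u => σ.symm (c (act σ u))) = ft c := by
    funext χ
    apply σ.injective
    rw [← h σ χ, ft_apply, ft_apply, map_sum]
    refine Fintype.sum_bijective e e.bijective _ _ (fun u => ?_)
    rw [map_mul, AlgEquiv.apply_symm_apply]
    show c (act σ u) * σ (χ u) = c (e u) * σ (χ (e.symm (e u)))
    rw [AddEquiv.symm_apply_apply]
    rfl
  have h2 : σ.symm (c (act σ u)) = c u := congrFun (ft_injective h1) u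
  rw [← h2, AlgEquiv.apply_symm_apply]

theorem ft_surjective : Function.Surjective (ft (M := M)) := by
  classical
  letI := Fintype.ofFinite M
  letI := fintype_addChar M
  refine (LinearMap.injective_iff_surjective_of_finrank_eq_finrank ?_).mp ft_injective
  rw [Module.finrank_fintype_fun_eq_card, Module.finrank_fintype_fun_eq_card,
    ← Nat.card_eq_fintype_card, ← Nat.card_eq_fintype_card, card_addChar]

/-- the Fourier transform as a linear equivalence. -/
def ftEquiv (M : Type) [AddCommGroup M] [Finite M] : (M → Qb) ≃ₗ[Qb] (AddChar M Qb → Qb) :=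
  LinearEquiv.ofBijective ft ⟨ft_injective, ft_surjective⟩

@[simp] theorem ftEquiv_apply (c : M → Qb) : ftEquiv M c = ft c := rfl

end ActChar

/-! ### The criterion -/

section Crit

variable {ℓ : ℕ} [hℓ : Fact ℓ.Prime] {A : ValuationSubring Qb}
  {M : Type} [AddCommGroup M] [Fintype M] [DecidableEq M]

/-- **Step 0**: a basis `e` of equivariant `A`-valued functions whose dual basis has Fourier
coefficients in `A`. -/
theorem exists_basis_of_TI (act : GQ → M → M)
    (hadd : ∀ σ u v, act σ (u + v) = act σ u + act σ v)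
    (hsurj : ∀ σ, Function.Surjective (act σ)) (hA : A.LiesOverPrime ℓ)
    (hTI : ∀ χ : AddChar M Qb, ∃ (n : ℕ) (a : Fin n → Qb) (f : Fin n → M → Qb),
      (∀ i, a i ∈ A) ∧ (∀ i x, f i x ∈ A) ∧
      (∀ i (σ : GQ) x, f i (act σ x) = σ (f i x)) ∧ ∀ x, χ x = ∑ i, a i * f i x) :
    ∃ (n : ℕ) (e : Module.Basis (Fin n) Qb (M → Qb)), (∀ i u, e i u ∈ A) ∧
      (∀ i (σ : GQ) u, e i (act σ u) = σ (e i u)) ∧
      ∀ j (χ : AddChar M Qb), ft (dualB e j) χ ∈ A := by
  letI := fintype_addChar M
  choose n a f ha hf hfe hχ using hTI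
  let F : (Σ χ : AddChar M Qb, Fin (n χ)) → M → Qb := fun k => f k.1 k.2
  let N : Submodule (Zl ℓ) (M → Qb) := Submodule.span (Zl ℓ) (Set.range F)
  have hfg : N.FG := Submodule.fg_span (Set.finite_range F)
  have hNeq : N ≤ Subalgebra.toSubmodule (equivSub ℓ act) := by
    refine Submodule.span_le.mpr ?_
    rintro _ ⟨k, rfl⟩
    exact fun σ x => hfe k.1 k.2 σ x
  have hNval : N ≤ Subalgebra.toSubmodule (valSub hA M) := by
    refine Submodule.span_le.mpr ?_
    rintro _ ⟨k, rfl⟩
    exact fun x => hf k.1 k.2 x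
  have hFN : ∀ χ i, f χ i ∈ N := fun χ i => Submodule.subset_span ⟨⟨χ, i⟩, rfl⟩
  have hspan : Submodule.span Qb (N : Set (M → Qb)) = ⊤ := by
    rw [eq_top_iff, ← span_addChar_eq_top]
    refine Submodule.span_le.mpr ?_
    rintro _ ⟨χ, rfl⟩
    have h1 : (χ : M → Qb) = ∑ i, a χ i • f χ i := by
      funext x
      rw [hχ χ x, Finset.sum_apply]
      rfl
    show (χ : M → Qb) ∈ _
    rw [h1]
    exact Submodule.sum_mem _ fun i _ =>
      Submodule.smul_mem _ _ (Submodule.subset_span (hFN χ i))
  obtain ⟨m, e, he, hrepr⟩ := exists_basis_of_lattice act hsurj N hfg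
    (fun φ hφ => hNeq hφ) hspan
  refine ⟨m, e, fun i u => hNval (he i) u, fun i σ u => hNeq (he i) σ u, fun j χ => ?_⟩
  have h1 : ft (dualB e j) χ = ∑ i, a χ i * e.repr (f χ i) j := by
    rw [ft_apply]
    simp only [repr_eq_sum, dualB_apply, Finset.mul_sum]
    rw [Finset.sum_comm]
    refine Finset.sum_congr rfl fun u _ => ?_
    rw [hχ χ u, Finset.mul_sum]
    refine Finset.sum_congr rfl fun i _ => ?_
    ring
  rw [h1]
  refine A.toSubring.sum_mem fun i _ => A.mul_mem _ _ (ha χ i) ?_
  obtain ⟨r, hr⟩ := hrepr (f χ i) (hFN χ i) j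
  rw [hr]
  exact algebraMap_Zl_mem_A hA r

/-- **Steps 1 and 2**: a basis `λ` of equivariant functions whose `ℤ_(ℓ)`-span is closed under
the convolution and contains the given basis `c`. -/
theorem exists_conv_lattice (act : GQ → M → M)
    (hadd : ∀ σ u v, act σ (u + v) = act σ u + act σ v)
    (hsurj : ∀ σ, Function.Surjective (act σ)) (hA : A.LiesOverPrime ℓ) {n : ℕ}
    (c : Module.Basis (Fin n) Qb (M → Qb))
    (hceq : ∀ j (σ : GQ) u, c j (act σ u) = σ (c j u))
    (hcA : ∀ j (χ : AddChar M Qb), ft (c j) χ ∈ A) :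
    ∃ (m : ℕ) (lam : Module.Basis (Fin m) Qb (M → Qb)),
      (∀ k (σ : GQ) u, lam k (act σ u) = σ (lam k u)) ∧
      (∀ a b i, ∃ r : Zl ℓ, lam.repr (conv (lam a) (lam b)) i = algebraMap (Zl ℓ) Qb r) ∧
      (∀ j i, ∃ r : Zl ℓ, lam.repr (c j) i = algebraMap (Zl ℓ) Qb r) := by
  set actX := actChar act hadd hsurj with hactX
  let S : Set (AddChar M Qb → Qb) := Set.range (fun j => ft (c j))
  let L : Subalgebra (Zl ℓ) (AddChar M Qb → Qb) := Algebra.adjoin (Zl ℓ) S
  have hSeq : ∀ s ∈ S, ∀ (σ : GQ) χ, s (actX σ χ) = σ (s χ) := by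
    rintro _ ⟨j, rfl⟩ σ χ
    exact ft_actChar act hadd hsurj (c j) (hceq j) σ χ
  have hSint : ∀ s ∈ S, IsIntegral (Zl ℓ) s := by
    intro s hs
    refine isIntegral_of_values s (fun χ => isIntegral_of_conj_mem hA _ (fun σ => ?_))
    rw [← hSeq s hs σ χ]
    obtain ⟨j, rfl⟩ := hs
    exact hcA j _
  have hfg : (Subalgebra.toSubmodule L).FG := fg_adjoin_of_finite (Set.finite_range _) hSint
  have hLeq : L ≤ equivSub ℓ actX := Algebra.adjoin_le hSeq
  have hspan : Submodule.span Qb ((Subalgebra.toSubmodule L : Submodule (Zl ℓ) _) :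
      Set (AddChar M Qb → Qb)) = ⊤ := by
    rw [eq_top_iff]
    have h1 : Submodule.span Qb (Set.range (fun j => ft (c j))) = ⊤ := by
      have h2 : (fun j => ft (c j)) = (ftEquiv M) ∘ c := rfl
      rw [h2, Set.range_comp, ← LinearEquiv.coe_coe, ← Submodule.map_span, c.span_eq,
        Submodule.map_top, LinearMap.range_eq_top]
      exact (ftEquiv M).surjective
    rw [← h1]
    exact Submodule.span_mono (fun s hs => Algebra.subset_adjoin hs)
  obtain ⟨m, lamh, hmem, hrepr⟩ := exists_basis_of_lattice actX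
    (actChar_surjective act hadd hsurj) (Subalgebra.toSubmodule L) hfg
    (fun φ hφ => hLeq hφ) hspan
  have hft : ∀ k, ft ((lamh.map (ftEquiv M).symm) k) = lamh k := by
    intro k
    rw [Module.Basis.map_apply, ← ftEquiv_apply, LinearEquiv.apply_symm_apply]
  have hrep : ∀ (g : M → Qb) i, (lamh.map (ftEquiv M).symm).repr g i = lamh.repr (ft g) i := by
    intro g i
    rw [Module.Basis.map_repr]
    rfl
  refine ⟨m, lamh.map (ftEquiv M).symm, fun k σ u => ?_, fun a b i => ?_, fun j i => ?_⟩
  · refine equivariant_of_ft act hadd hsurj _ (fun σ χ => ?_) σ u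
    rw [hft]
    exact hLeq (hmem k) σ χ
  · rw [hrep]
    have h1 : ft (conv ((lamh.map (ftEquiv M).symm) a) ((lamh.map (ftEquiv M).symm) b))
        = lamh a * lamh b := by
      funext χ
      rw [ft_conv, hft, hft]
      rfl
    rw [h1]
    exact hrepr _ (L.mul_mem (hmem a) (hmem b)) i
  · rw [hrep]
    exact hrepr _ (Algebra.subset_adjoin ⟨j, rfl⟩) i

/-- **Step 3**: the Hopf order generated by the dual basis of `λ`. -/
theorem isHopfOrder_of_conv_lattice (act : GQ → M → M)
    (hadd : ∀ σ u v, act σ (u + v) = act σ u + act σ v)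
    (hsurj : ∀ σ, Function.Surjective (act σ)) (hA : A.LiesOverPrime ℓ)
    (hzero : ∀ σ, act σ 0 = 0) {n m : ℕ}
    (e : Module.Basis (Fin n) Qb (M → Qb)) (heA : ∀ i u, e i u ∈ A)
    (lam : Module.Basis (Fin m) Qb (M → Qb))
    (hlameq : ∀ k (σ : GQ) u, lam k (act σ u) = σ (lam k u))
    (hconv : ∀ a b i, ∃ r : Zl ℓ, lam.repr (conv (lam a) (lam b)) i = algebraMap (Zl ℓ) Qb r)
    (hc : ∀ j i, ∃ r : Zl ℓ, lam.repr (dualB e j) i = algebraMap (Zl ℓ) Qb r) :
    IsHopfOrder ℓ act (Algebra.adjoin (Zl ℓ) (Set.range (dualB lam))) := by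
  have heq : ∀ i (σ : GQ) u, dualB lam i (act σ u) = σ (dualB lam i u) := by
    intro i σ u
    rw [dualB_apply]
    exact dualFam_equivariant lam σ (act σ) (hsurj σ) (fun k x => hlameq k σ x) i u
  have hval : ∀ i u, dualB lam i u ∈ A := by
    intro i u
    rw [dualB_apply]
    show lam.repr (Pi.single u 1) i ∈ A
    rw [single_eq_sum_dualB e u, map_sum, Finsupp.coe_finsetSum, Finset.sum_apply]
    refine A.toSubring.sum_mem fun j _ => ?_
    rw [map_smul, Finsupp.smul_apply, smul_eq_mul]
    obtain ⟨r, hr⟩ := hc j i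
    rw [hr]
    exact A.mul_mem _ _ (heA j u) (algebraMap_Zl_mem_A hA r)
  refine IsHopfOrder.of_adjoin_comul act _ (Set.finite_range _) hsurj hzero ?_ ?_ ?_ ?_
  · rintro _ ⟨i, rfl⟩ u
    refine isIntegral_of_conj_mem hA _ (fun σ => ?_)
    rw [← heq]
    exact hval _ _
  · rintro _ ⟨i, rfl⟩ σ u
    exact heq i σ u
  · intro x y hxy
    by_contra hne
    push Not at hne
    have h1 := congrFun ((dualB lam).sum_repr (Pi.single x (1 : Qb))) x
    have h2 := congrFun ((dualB lam).sum_repr (Pi.single x (1 : Qb))) y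
    rw [Finset.sum_apply] at h1 h2
    simp only [Pi.smul_apply, smul_eq_mul] at h1 h2
    rw [Pi.single_eq_same] at h1
    rw [Pi.single_eq_of_ne (Ne.symm hxy)] at h2
    have h3 : ∑ i, ((dualB lam).repr (Pi.single x 1)) i * (dualB lam) i x
        = ∑ i, ((dualB lam).repr (Pi.single x 1)) i * (dualB lam) i y :=
      Finset.sum_congr rfl fun i _ => by rw [hne _ ⟨i, rfl⟩]
    rw [h1, h2] at h3
    exact one_ne_zero h3
  · rintro _ ⟨i, rfl⟩
    choose r hr using hconv
    refine exists_fin_of_sum _ (ι := Fin m × Fin m)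
      (fun p => r p.1 p.2 i • dualB lam p.1) (fun p => dualB lam p.2)
      (fun p => Subalgebra.smul_mem _ (Algebra.subset_adjoin (Set.mem_range_self p.1)) _)
      (fun p => Algebra.subset_adjoin (Set.mem_range_self p.2)) _ (fun x y => ?_)
    -- the comultiplication formula
    have hE1 := eq_sum_pairing (dualB lam) (fun x => dualB lam i (x + y)) x
    simp only [dualFam_dualB] at hE1
    have hE2 : ∀ a, ∑ u, dualB lam i (u + y) * lam a u
        = ∑ b, (∑ v, (∑ u, dualB lam i (u + v) * lam a u) * lam b v) * dualB lam b y := by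
      intro a
      have := eq_sum_pairing (dualB lam) (fun y => ∑ u, dualB lam i (u + y) * lam a u) y
      simp only [dualFam_dualB] at this
      exact this
    have hE3 : ∀ a b, ∑ v, (∑ u, dualB lam i (u + v) * lam a u) * lam b v
        = algebraMap (Zl ℓ) Qb (r a b i) := by
      intro a b
      rw [← hr a b i, repr_eq_sum]
      have h5 : ∑ u, conv (lam a) (lam b) u * dualFam lam i u
          = ∑ w, dualB lam i w * conv (lam a) (lam b) w :=
        Finset.sum_congr rfl fun w _ => by rw [dualB_apply, mul_comm]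
      rw [h5, sum_mul_conv, Finset.sum_comm]
      refine Finset.sum_congr rfl fun v _ => ?_
      rw [Finset.sum_mul]
    rw [hE1, Fintype.sum_prod_type]
    refine Finset.sum_congr rfl fun a _ => ?_
    rw [hE2 a, Finset.sum_mul]
    refine Finset.sum_congr rfl fun b _ => ?_
    rw [hE3 a b]
    simp only [Pi.smul_apply, Algebra.smul_def]
    ring

end Crit

/-! ### The criterion, final form -/

section Final

variable {ℓ : ℕ} [hℓ : Fact ℓ.Prime] {A : ValuationSubring Qb}
  {M : Type} [AddCommGroup M] [Finite M]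

/-- **the Fourier criterion** (CRIT): if every character of `M` is an `A`-linear combination
of equivariant `A`-valued functions, the algebra of functions on `M` contains a Hopf order. -/
theorem exists_isHopfOrder_of_TI (hA : A.LiesOverPrime ℓ) (act : GQ → M → M)
    (hadd : ∀ σ u v, act σ (u + v) = act σ u + act σ v)
    (hsurj : ∀ σ, Function.Surjective (act σ))
    (hTI : ∀ χ : AddChar M Qb, ∃ (n : ℕ) (a : Fin n → Qb) (f : Fin n → M → Qb),
      (∀ i, a i ∈ A) ∧ (∀ i x, f i x ∈ A) ∧
      (∀ i (σ : GQ) x, f i (act σ x) = σ (f i x)) ∧ ∀ x, χ x = ∑ i, a i * f i x) :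
    ∃ H : Subalgebra (Zl ℓ) (M → Qb), IsHopfOrder ℓ act H := by
  classical
  letI := Fintype.ofFinite M
  have hzero : ∀ σ, act σ 0 = 0 := by
    intro σ
    have := hadd σ 0 0
    rw [add_zero] at this
    exact left_eq_add.mp this
  obtain ⟨n, e, heA, heeq, hcA⟩ := exists_basis_of_TI act hadd hsurj hA hTI
  have hceq : ∀ j (σ : GQ) u, dualB e j (act σ u) = σ (dualB e j u) := by
    intro j σ u
    rw [dualB_apply]
    exact dualFam_equivariant e σ (act σ) (hsurj σ) (fun k x => heeq k σ x) j u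
  obtain ⟨m, lam, hlameq, hconv, hc⟩ :=
    exists_conv_lattice act hadd hsurj hA (dualB e) hceq hcA
  exact ⟨_, isHopfOrder_of_conv_lattice act hadd hsurj hA hzero e heA lam hlameq hconv hc⟩

end Final

end Fermat.Agent.T6.helper33

end
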