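/-
T6 (S19 / S32), helper33, block [A3] **CRIT** in the shape of the T6 interface
(`helper73_T6Iface`): `critStatement : helper73.CritStatement`, and the composite
`flatBody_of_TI` : (TI) gives the body of S19.
-/
import Fermat.Agent.T6.helper33_Crit
import Fermat.Agent.T6.helper33_A1Iface

set_option autoImplicit false

namespace Fermat.Agent.T6.helper33

open Fermat.Agent.T6

/-- **(TI) gives a Hopf order** (interface form of the hypothesis). -/
theorem exists_isHopfOrder_of_iface {l : ℕ} [Fact l.Prime] {A : ValuationSubring helper73.Kq}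
    (hA : A.LiesOverPrime l) {M : Type} [AddCommGroup M] [Finite M]
    {act : helper73.Gq → M → M} (hact : helper73.IsGalAct act) (hTI : helper73.TI A act) :
    ∃ H : Subalgebra (helper73.Rl l) (M → helper73.Kq), IsHopfOrder l act H := by
  refine exists_isHopfOrder_of_TI hA act hact.add
    (fun σ x => ⟨act σ⁻¹ x, by rw [← hact.mul, mul_inv_cancel, hact.one]⟩) (fun χ => ?_)
  exact hTI χ (AddChar.map_zero_eq_one χ) (fun x y => AddChar.map_add_eq_mul χ x y)

/-- **[A3] = CRIT** in the shape of the T6 interface. -/
theorem critStatement : helper73.CritStatement := by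
  intro l _ A hA M _ _ act hact hTI
  obtain ⟨H, hH⟩ := exists_isHopfOrder_of_iface hA hact hTI
  exact ⟨H, funOrder_of_isHopfOrder hH⟩

/-- **[A1] + [A3]**: (TI) gives the body of S19. -/
theorem flatBody_of_TI {l : ℕ} [Fact l.Prime] {A : ValuationSubring helper73.Kq}
    (hA : A.LiesOverPrime l) {M : Type} [AddCommGroup M] [Finite M]
    {act : helper73.Gq → M → M} (hact : helper73.IsGalAct act) (hTI : helper73.TI A act) :
    helper73.FlatBody l M act := by
  obtain ⟨H, hH⟩ := exists_isHopfOrder_of_iface hA hact hTI
  exact hH.exists_hopf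

end Fermat.Agent.T6.helper33
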