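import Fermat.Prelude.Def_CuspForm_HeckeGaloisRepDatum
import Fermat.Prelude.Def_GaloisRep_Flat
import Fermat.Agent.P3.helper67_TateGeom
import Fermat.Agent.P3.helper22_QuadAlg
import Fermat.Agent.T6.helper33_HopfOrderGen

/-!
# T6 / S32 (helper34, sub-architect): the contracts of the comparison [CMP]

S32 = `H.ρ.IsFlatAt p` for a Hecke-Galois datum `H` of level `N`, `p` odd, `p ∤ N`.
Route (helper67): `M = 4 N`, `D : TateGeom p N S M`, `B = D.𝔸`, `L = Λ / p ^ k`,
`Vb = V / I V` with `𝔸` acting through `Θ : 𝔸 → T`; the abstract `2 × 2` calculus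
`helper67.exists_subquotient` makes `Vb` an equivariant quotient of a stable submodule of a finite
power of `L`, `L` embeds equivariantly into `J₀(M)[p ^ k]`, and the flat shape passes to
subquotients of finite powers (`helper75.FlatShape.subquotient_pi_of_finite`).

This file contains ONLY definitions and `Prop`-valued contracts (the boxes):

* `CmpSet D ρ` : the cyclotomic character `d`, a complex conjugation `c`, the universal trace
  `t : G_ℚ → 𝔸` and `Θ : 𝔸 →+* T` with `tr ρ = Θ ∘ t`, `det ρ = Θ ∘ d`  - box **[SET]**;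
* `Lk D k = Λ / p ^ k Λ` (an `𝔸`-module), `rL D k` the Galois action on it;
* `VbA X I = V / I V` as an `𝔸`-module through `Θ`;
* `QLStatement`, `EmbStatement`, `QVStatement`, `XStatement`, `FaithStatement` : the boxes
  **[QL]**, **[EMB]**, **[QV]**, **[X]**, **[FAITH]**.

* `AnnStatement`, `PowStatement` : the abstract boxes **[ANN]**, **[POW]** (Mathlib +
  `helper22.QuadData` only).
-/

set_option autoImplicit false
set_option linter.unusedSectionVars false
set_option linter.style.longLine false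

noncomputable section

namespace Fermat.Agent.T6.helper34

open Fermat.Agent.P3 Fermat.Agent.P3.helper22 ModularCurve

section Setting

variable {p : ℕ} [Fact p.Prime] {N : ℕ} [NeZero N] {S : Finset ℕ} {M : ℕ} [NeZero M]
  {hNM : N ∣ M}

/-- **[SET]** the comparison setting: cyclotomic character, complex conjugation, universal
trace and the map `Θ : 𝔸 → T` with `tr ρ = Θ ∘ t`, `det ρ = Θ ∘ d`. -/
structure CmpSet (D : helper67.TateGeom p N S M hNM) {T : Type} [CommRing T] [IsLocalRing T]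
    (ρ : GaloisRepAdic T) where
  /-- the `p`-adic cyclotomic character -/
  d : GQ →* ℤ_[p]ˣ
  /-- a complex conjugation -/
  c : GQ
  c_sq : c * c = 1
  d_c : (d c : ℤ_[p]) = -1
  /-- the universal trace -/
  t : GQ → D.𝔸
  quad : ∀ (s : GQ) (v : D.Λ), D.r s (D.r s v) - t s • D.r s v + (d s : ℤ_[p]) • v = 0
  /-- the comparison map -/
  Θ : D.𝔸 →+* T
  trace_eq : ∀ s : GQ, LinearMap.trace T ρ.V (ρ.ρ s) = Θ (t s)
  det_eq : ∀ s : GQ, LinearMap.det (ρ.ρ s) = Θ (algebraMap ℤ_[p] D.𝔸 (d s : ℤ_[p]))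

variable (D : helper67.TateGeom p N S M hNM)

/-- the Galois action on the Tate module, as `𝔸`-linear maps. -/
def rA : GQ →* Module.End D.𝔸 D.Λ where
  toFun g :=
    { toFun := fun v => D.r g v
      map_add' := fun v w => map_add (D.r g) v w
      map_smul' := fun a v => D.r_smul g a v }
  map_one' := by
    apply LinearMap.ext
    intro v
    show D.r 1 v = v
    rw [map_one]
    rfl
  map_mul' := fun g h => by
    apply LinearMap.ext
    intro v
    show D.r (g * h) v = D.r g (D.r h v)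
    rw [map_mul]
    rfl

@[simp] theorem rA_apply (g : GQ) (v : D.Λ) : rA D g v = D.r g v := rfl

/-- `p ^ k Λ` as an `𝔸`-submodule. -/
def pk (k : ℕ) : Submodule D.𝔸 D.Λ :=
  LinearMap.range (LinearMap.lsmul D.𝔸 D.Λ ((p : D.𝔸) ^ k))

theorem mem_pk {k : ℕ} {v : D.Λ} : v ∈ pk D k ↔ ∃ w : D.Λ, ((p : D.𝔸) ^ k) • w = v :=
  Iff.rfl

/-- `Λ / p ^ k Λ`, an `𝔸`-module. -/
abbrev Lk (k : ℕ) : Type := D.Λ ⧸ pk D k

/-- the Galois action on `Λ / p ^ k Λ`. -/
def rL (k : ℕ) : GQ →* Module.End D.𝔸 (Lk D k) where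
  toFun g := Submodule.mapQ (pk D k) (pk D k) (rA D g) (by
    rintro v ⟨w, rfl⟩
    exact ⟨rA D g w, ((rA D g).map_smul _ w).symm⟩)
  map_one' := by
    apply LinearMap.ext
    intro x
    obtain ⟨v, rfl⟩ := Submodule.Quotient.mk_surjective _ x
    rw [Submodule.mapQ_apply, map_one]
    rfl
  map_mul' := fun g h => by
    apply LinearMap.ext
    intro x
    obtain ⟨v, rfl⟩ := Submodule.Quotient.mk_surjective _ x
    rw [Module.End.mul_apply, Submodule.mapQ_apply, Submodule.mapQ_apply, Submodule.mapQ_apply,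
      map_mul]
    rfl

@[simp] theorem rL_mk (k : ℕ) (g : GQ) (v : D.Λ) :
    rL D k g (Submodule.Quotient.mk v) = Submodule.Quotient.mk (D.r g v) := rfl

variable {D} {T : Type} [CommRing T] [IsLocalRing T] {ρ : GaloisRepAdic T}

/-- `V / I V` as an `𝔸`-module through `Θ`. -/
def VbA (_X : CmpSet D ρ) (I : Ideal T) : Type := ρ.V ⧸ (I • (⊤ : Submodule T ρ.V))

instance (X : CmpSet D ρ) (I : Ideal T) : AddCommGroup (VbA X I) :=
  inferInstanceAs (AddCommGroup (ρ.V ⧸ (I • (⊤ : Submodule T ρ.V))))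

instance (X : CmpSet D ρ) (I : Ideal T) : Module T (VbA X I) :=
  inferInstanceAs (Module T (ρ.V ⧸ (I • (⊤ : Submodule T ρ.V))))

instance (X : CmpSet D ρ) (I : Ideal T) : Module D.𝔸 (VbA X I) :=
  Module.compHom (ρ.V ⧸ (I • (⊤ : Submodule T ρ.V))) X.Θ

theorem VbA.smul_def (X : CmpSet D ρ) (I : Ideal T) (a : D.𝔸) (v : VbA X I) :
    a • v = (X.Θ a) • v := rfl

/-- the `x₁₂`-scalar of the universal trace. -/
def tx12 (X : CmpSet D ρ) (τ σ : GQ) : D.𝔸 :=
  2 * (X.t (τ * σ) + X.t (X.c * (τ * σ))) - (X.t τ + X.t (X.c * τ)) * (X.t σ + X.t (X.c * σ))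

/-- the `x₂₁`-scalar of the universal trace. -/
def tx21 (X : CmpSet D ρ) (τ σ : GQ) : D.𝔸 :=
  2 * (X.t (τ * σ) - X.t (X.c * (τ * σ))) - (X.t τ - X.t (X.c * τ)) * (X.t σ - X.t (X.c * σ))

theorem x12_eq_tx12 (X : CmpSet D ρ) {W : Type*} [AddCommGroup W] [Module D.𝔸 W]
    (Q : QuadData GQ D.𝔸 W) (ht : Q.t = X.t) (hc : Q.c = X.c) (τ σ : GQ) :
    Q.x12 τ σ = tx12 X τ σ := by
  rw [QuadData.x12, tx12, ht, hc]

theorem x21_eq_tx21 (X : CmpSet D ρ) {W : Type*} [AddCommGroup W] [Module D.𝔸 W]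
    (Q : QuadData GQ D.𝔸 W) (ht : Q.t = X.t) (hc : Q.c = X.c) (τ σ : GQ) :
    Q.x21 τ σ = tx21 X τ σ := by
  rw [QuadData.x21, tx21, ht, hc]

/-! ## The boxes -/

/-- **[QL]** the quadratic datum on `Λ / p ^ k Λ`. -/
def QLStatement (X : CmpSet D ρ) (k : ℕ) : Prop :=
  ∃ Q : QuadData GQ D.𝔸 (Lk D k), Q.R = rL D k ∧ Q.t = X.t ∧ Q.c = X.c

/-- **[QV]** the quadratic datum on `V / I V`. -/
def QVStatement (X : CmpSet D ρ) (I : Ideal T) : Prop :=
  ∃ Q : QuadData GQ D.𝔸 (VbA X I),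
    (∀ (s : GQ) (v : VbA X I), Q.R s v = ρ.levelAction I s v) ∧ Q.t = X.t ∧ Q.c = X.c

/-- **[EMB]** `Λ / p ^ k Λ` is finite and embeds Galois-equivariantly into `J₀(M)[p ^ k]`. -/
def EmbStatement (D : helper67.TateGeom p N S M hNM) (k : ℕ) : Prop :=
  Finite (Lk D k) ∧
  ∃ ι : Lk D k →+ Submodule.torsionBy ℤ (JZero M) ((p : ℤ) ^ k), Function.Injective ι ∧
    ∀ (s : GQ) (w : Lk D k), ι (rL D k s w) = helper33.torsAct ((p : ℤ) ^ k) s (ι w)

/-- **[X]** residual absolute irreducibility: an off-diagonal product is a unit. -/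
def XStatement (X : CmpSet D ρ) : Prop :=
  ∃ τ₀ σ₀ : GQ, IsUnit (X.Θ (tx12 X τ₀ σ₀)) ∧ X.Θ (tx21 X σ₀ τ₀) = X.Θ (tx12 X τ₀ σ₀)

/-- **[FAITH]** Artin-Rees: an element of `𝔸` which maps `Λ` into `p ^ k Λ`, `k` large, is
divisible by `p ^ n`. -/
def FaithStatement (D : helper67.TateGeom p N S M hNM) : Prop :=
  ∀ n : ℕ, ∃ k₀ : ℕ, ∀ k : ℕ, k₀ ≤ k → ∀ y : D.𝔸, (∀ v : D.Λ, y • v ∈ pk D k) →
    ∃ z : D.𝔸, y = (p : D.𝔸) ^ n * z

end Setting

/-! ## The abstract boxes -/

/-- **[ANN]** the annihilator hypothesis `hann` of `helper67.exists_subquotient` from: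
`e = x₁₂ x'` is idempotent on `L` and the identity on `V`, `x₂₁` is injective on `V`, and every
element of `B` killing `L` kills `V`. -/
def AnnStatement : Prop :=
  ∀ {G : Type} [Group G] {B : Type} [CommRing B] {L : Type} [AddCommGroup L] [Module B L]
    (QL : QuadData G B L) {V : Type} [AddCommGroup V] [Module B V] (_QV : QuadData G B V)
    (i2 : B) (_h2 : 2 * i2 = 1) (τ₀ σ₀ : G) (x' : B)
    (_he : ∀ w : L, (QL.x12 τ₀ σ₀ * x') • (QL.x12 τ₀ σ₀ * x') • w = (QL.x12 τ₀ σ₀ * x') • w)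
    (_hV : ∀ v : V, (QL.x12 τ₀ σ₀ * x') • v = v)
    (_hinj : ∀ v : V, QL.x21 σ₀ τ₀ • v = 0 → v = 0)
    (_hfaith : ∀ y : B, (∀ w : L, y • w = 0) → ∀ v : V, y • v = 0)
    (a : B), (∀ w : L, QL.C w = w → (QL.x12 τ₀ σ₀ * x') • w = w → a • w = 0) →
      ∀ v : V, a • v = 0

/-- **[POW]** the power trick: if `x` acts injectively on the finite module `V`, some power
`x ^ m = x * x'` (`m ≥ 1`) is idempotent on the finite module `L` and the identity on `V`. -/
def PowStatement : Prop :=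
  ∀ {B : Type} [CommRing B] {L : Type} [AddCommGroup L] [Module B L] [Finite L]
    {V : Type} [AddCommGroup V] [Module B V] [Finite V] (x : B),
    (∀ v : V, x • v = 0 → v = 0) →
    ∃ x' : B, (∀ w : L, (x * x') • (x * x') • w = (x * x') • w) ∧ ∀ v : V, (x * x') • v = v

end Fermat.Agent.T6.helper34

end
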