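import Mathlib

/-!
# T6, box [CMP], algebra leaf (helper35): representations with the same traces

Mathlib only, any field `K`, any dimension.

* `bn_conj` : two matrix representations `ρ₁ ρ₂ : G →* Matrix n n K` with the same traces, the
  first of which spans the full matrix algebra (absolute irreducibility, Burnside), are
  conjugate: there is an invertible `P` with `ρ₂ g * P = P * ρ₁ g` for all `g`.
  No hypothesis on `ρ₂` and on the characteristic.
-/

set_option autoImplicit false
set_option linter.unusedSectionVars false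

namespace Fermat.Agent.T6.helper35

open Matrix

variable {K : Type*} [Field K] {n : Type*} [Fintype n] [DecidableEq n]

/-- a matrix orthogonal to all matrices for the trace form is zero -/
theorem bn_eq_zero_of_trace_mul (X : Matrix n n K) (h : ∀ Y : Matrix n n K, (X * Y).trace = 0) :
    X = 0 := by
  ext i j
  have := h (Matrix.single j i 1)
  rw [Matrix.trace_mul_single] at this
  simpa using this

section Alg

variable {B : Type*} [Ring B] [Algebra K B] (r₁ r₂ : B →ₐ[K] Matrix n n K)

/-- if `r₁` is onto and the traces agree, `ker r₂ ≤ ker r₁` -/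
theorem bn_ker_le (hsurj : Function.Surjective r₁)
    (htr : ∀ x : B, (r₁ x).trace = (r₂ x).trace) (x : B) (hx : r₂ x = 0) : r₁ x = 0 := by
  apply bn_eq_zero_of_trace_mul
  intro Y
  obtain ⟨y, rfl⟩ := hsurj Y
  rw [← map_mul, htr, map_mul, hx, zero_mul, Matrix.trace_zero]

/-- if `r₁` is onto and the traces agree, `r₂` is onto -/
theorem bn_surjective (hsurj : Function.Surjective r₁)
    (htr : ∀ x : B, (r₁ x).trace = (r₂ x).trace) : Function.Surjective r₂ := by
  choose y hy using fun ij : n × n => hsurj (Matrix.single ij.1 ij.2 (1 : K))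
  -- the linear map `Y ↦ r₂ (∑ Y i j • y i j)`
  let Ψ : Matrix n n K →ₗ[K] Matrix n n K :=
    { toFun := fun Y => r₂ (∑ i, ∑ j, Y i j • y (i, j))
      map_add' := by
        intro Y Z
        rw [← map_add]
        congr 1
        rw [← Finset.sum_add_distrib]
        refine Finset.sum_congr rfl (fun i _ => ?_)
        rw [← Finset.sum_add_distrib]
        refine Finset.sum_congr rfl (fun j _ => ?_)
        rw [Matrix.add_apply, add_smul]
      map_smul' := by
        intro c Y
        rw [RingHom.id_apply, ← map_smul]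
        congr 1
        rw [Finset.smul_sum]
        refine Finset.sum_congr rfl (fun i _ => ?_)
        rw [Finset.smul_sum]
        refine Finset.sum_congr rfl (fun j _ => ?_)
        rw [Matrix.smul_apply, smul_eq_mul, mul_smul] }
  have hr₁ : ∀ Y : Matrix n n K, r₁ (∑ i, ∑ j, Y i j • y (i, j)) = Y := by
    intro Y
    rw [map_sum]
    conv_rhs => rw [Matrix.matrix_eq_sum_single Y]
    refine Finset.sum_congr rfl (fun i _ => ?_)
    rw [map_sum]
    refine Finset.sum_congr rfl (fun j _ => ?_)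
    rw [map_smul, hy]
    ext a b
    simp [Matrix.single_apply]
  have hinj : Function.Injective Ψ := by
    rw [← LinearMap.ker_eq_bot, LinearMap.ker_eq_bot']
    intro Y hY
    have h1 : r₁ (∑ i, ∑ j, Y i j • y (i, j)) = 0 := bn_ker_le r₁ r₂ hsurj htr _ hY
    rw [hr₁] at h1
    exact h1
  intro Z
  obtain ⟨Y, hY⟩ := LinearMap.surjective_of_injective hinj Z
  exact ⟨_, hY⟩

/-- if `r₁` is onto and the traces agree, `ker r₁ = ker r₂` -/
theorem bn_ker_eq (hsurj : Function.Surjective r₁)
    (htr : ∀ x : B, (r₁ x).trace = (r₂ x).trace) (x : B) : r₁ x = 0 ↔ r₂ x = 0 :=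
  ⟨bn_ker_le r₂ r₁ (bn_surjective r₁ r₂ hsurj htr) (fun x => (htr x).symm) x,
    bn_ker_le r₁ r₂ hsurj htr x⟩

/-- **conjugacy**, algebra form: two algebra homomorphisms to `Matrix n n K` with the same
traces, the first of which is onto, are conjugate. -/
theorem bn_conj_alg (hsurj : Function.Surjective r₁)
    (htr : ∀ x : B, (r₁ x).trace = (r₂ x).trace) :
    ∃ P : Matrix n n K, IsUnit P.det ∧ ∀ x : B, r₂ x * P = P * r₁ x := by
  rcases isEmpty_or_nonempty n with hn | hn
  · refine ⟨1, by simp, fun x => ?_⟩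
    ext i
    exact (hn.false i).elim
  obtain ⟨i₀⟩ := hn
  have hker := bn_ker_eq r₁ r₂ hsurj htr
  choose y hy using fun i : n => hsurj (Matrix.single i i₀ (1 : K))
  -- the idempotent
  have hEE : r₂ (y i₀) * r₂ (y i₀) = r₂ (y i₀) := by
    have h1 : r₁ (y i₀ * y i₀ - y i₀) = 0 := by
      rw [map_sub, map_mul, hy, Matrix.single_mul_single_same, mul_one, sub_self]
    have h2 := (hker _).1 h1
    rw [map_sub, map_mul] at h2
    exact sub_eq_zero.1 h2
  have hE0 : r₂ (y i₀) ≠ 0 := by
    intro h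
    have h1 := (hker _).2 h
    rw [hy] at h1
    have h2 := congrFun (congrFun h1 i₀) i₀
    simp at h2
  obtain ⟨u, hu⟩ : ∃ u : n → K, r₂ (y i₀) *ᵥ u ≠ 0 := by
    by_contra hall
    apply hE0
    ext a b
    have h1 : r₂ (y i₀) *ᵥ (Pi.single b 1) = 0 := by
      by_contra h
      exact hall ⟨_, h⟩
    have h2 := congrFun h1 a
    simpa [Matrix.mulVec_single_one] using h2
  obtain ⟨w, hw⟩ : ∃ w : n → K, w = r₂ (y i₀) *ᵥ u := ⟨_, rfl⟩
  have hw0 : w ≠ 0 := by rw [hw]; exact hu
  have hEw : r₂ (y i₀) *ᵥ w = w := by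
    rw [hw, Matrix.mulVec_mulVec, hEE]
  -- well-definedness
  have hWD : ∀ z : B, r₁ z *ᵥ (Pi.single i₀ 1) = 0 → r₂ z *ᵥ w = 0 := by
    intro z hz
    have h1 : r₁ (z * y i₀) = 0 := by
      rw [map_mul, hy]
      ext a b
      have h2 := congrFun hz a
      rw [Matrix.mulVec_single_one] at h2
      have h3 : r₁ z a i₀ = 0 := h2
      rw [Matrix.mul_apply, Matrix.zero_apply]
      refine Finset.sum_eq_zero (fun j _ => ?_)
      rw [Matrix.single_apply]
      split_ifs with h
      · rw [← h.1, h3, zero_mul]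
      · rw [mul_zero]
    have h2 := (hker _).1 h1
    rw [map_mul] at h2
    rw [← hEw, Matrix.mulVec_mulVec, h2, Matrix.zero_mulVec]
  -- the section `v ↦ z_v`
  have hz1 : ∀ v : n → K, r₁ (∑ i, v i • y i) *ᵥ (Pi.single i₀ 1) = v := by
    intro v
    rw [map_sum]
    ext a
    rw [Matrix.mulVec_single_one]
    simp only [map_smul, hy, Matrix.col_apply, Matrix.sum_apply, Matrix.smul_apply,
      Matrix.single_apply, smul_eq_mul]
    simp
  -- the matrix `P`
  refine ⟨Matrix.of (fun a i => (r₂ (y i) *ᵥ w) a), ?_, ?_⟩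
  all_goals
    have hP : ∀ v : n → K, (Matrix.of (fun a i => (r₂ (y i) *ᵥ w) a)) *ᵥ v =
        r₂ (∑ i, v i • y i) *ᵥ w := by
      intro v
      rw [map_sum, Matrix.sum_mulVec]
      ext a
      simp only [Matrix.mulVec, dotProduct, Matrix.of_apply, map_smul, Finset.sum_apply,
        Matrix.smul_apply, smul_eq_mul]
      refine Finset.sum_congr rfl (fun i _ => ?_)
      rw [Finset.sum_mul]
      refine Finset.sum_congr rfl (fun j _ => ?_)
      ring
    have hequiv : ∀ (x : B) (v : n → K),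
        r₂ x *ᵥ ((Matrix.of (fun a i => (r₂ (y i) *ᵥ w) a)) *ᵥ v) =
          (Matrix.of (fun a i => (r₂ (y i) *ᵥ w) a)) *ᵥ (r₁ x *ᵥ v) := by
      intro x v
      rw [hP, hP, Matrix.mulVec_mulVec, ← map_mul]
      have h1 : r₁ (x * (∑ i, v i • y i) - ∑ i, (r₁ x *ᵥ v) i • y i) *ᵥ (Pi.single i₀ 1) = 0 := by
        rw [map_sub, Matrix.sub_mulVec, map_mul, ← Matrix.mulVec_mulVec, hz1, hz1, sub_self]
      have h2 := hWD _ h1
      rw [map_sub, Matrix.sub_mulVec] at h2
      exact sub_eq_zero.1 h2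
  · -- invertibility
    rw [isUnit_iff_ne_zero]
    intro hdet
    obtain ⟨v, hv0, hv⟩ := Matrix.exists_mulVec_eq_zero_iff.2 hdet
    obtain ⟨j, hj⟩ : ∃ j, v j ≠ 0 := by
      by_contra hall
      apply hv0
      ext j
      by_contra hj
      exact hall ⟨j, hj⟩
    obtain ⟨x, hx⟩ := hsurj (Matrix.single i₀ j (v j)⁻¹)
    have h1 : r₁ x *ᵥ v = Pi.single i₀ 1 := by
      rw [hx, Matrix.single_mulVec, inv_mul_cancel₀ hj]
      ext a
      simp [Function.update, Pi.single_apply]
    have h2 := hequiv x v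
    rw [hv, Matrix.mulVec_zero, h1, hP] at h2
    have h3 : (∑ i, (Pi.single i₀ (1 : K) : n → K) i • y i) = y i₀ := by
      rw [Finset.sum_eq_single i₀]
      · simp
      · intro b _ hb
        simp [hb]
      · intro h
        exact absurd (Finset.mem_univ _) h
    rw [h3, hEw] at h2
    exact hw0 h2.symm
  · -- equivariance
    intro x
    ext a b
    have h1 := congrFun (hequiv x (Pi.single b 1)) a
    rw [Matrix.mulVec_mulVec, Matrix.mulVec_mulVec, Matrix.mulVec_single_one,
      Matrix.mulVec_single_one] at h1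
    exact h1

end Alg

section Grp

variable {G : Type*} [Monoid G]

/-- **conjugacy**: two matrix representations with the same traces, the first of which spans
the matrix algebra, are conjugate. -/
theorem bn_conj (ρ₁ ρ₂ : G →* Matrix n n K)
    (hspan : Submodule.span K (Set.range ρ₁) = ⊤)
    (htr : ∀ g : G, (ρ₁ g).trace = (ρ₂ g).trace) :
    ∃ P : Matrix n n K, IsUnit P.det ∧ ∀ g : G, ρ₂ g * P = P * ρ₁ g := by
  have hsurj : Function.Surjective (MonoidAlgebra.lift K (Matrix n n K) G ρ₁) := by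
    have h1 : Submodule.span K (Set.range ρ₁) ≤
        LinearMap.range (MonoidAlgebra.lift K (Matrix n n K) G ρ₁).toLinearMap := by
      rw [Submodule.span_le]
      rintro _ ⟨g, rfl⟩
      exact ⟨MonoidAlgebra.of K G g, MonoidAlgebra.lift_of ρ₁ g⟩
    rw [hspan] at h1
    intro Y
    obtain ⟨x, hx⟩ := h1 (Submodule.mem_top (x := Y))
    exact ⟨x, hx⟩
  have htr' : ∀ x : MonoidAlgebra K G,
      (MonoidAlgebra.lift K (Matrix n n K) G ρ₁ x).trace =
        (MonoidAlgebra.lift K (Matrix n n K) G ρ₂ x).trace := by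
    intro x
    induction x using MonoidAlgebra.induction_on with
    | of g => rw [MonoidAlgebra.lift_of, MonoidAlgebra.lift_of, htr]
    | add x y hx hy => rw [map_add, map_add, Matrix.trace_add, Matrix.trace_add, hx, hy]
    | smul c x hx => rw [map_smul, map_smul, Matrix.trace_smul, Matrix.trace_smul, hx]
  obtain ⟨P, hP, h⟩ := bn_conj_alg _ _ hsurj htr'
  refine ⟨P, hP, fun g => ?_⟩
  have := h (MonoidAlgebra.of K G g)
  rwa [MonoidAlgebra.lift_of, MonoidAlgebra.lift_of] at this

/-- the same with `P` in `GL n K`: `ρ₂ g = P ρ₁ g P⁻¹` -/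
theorem bn_conj_GL (ρ₁ ρ₂ : G →* Matrix n n K)
    (hspan : Submodule.span K (Set.range ρ₁) = ⊤)
    (htr : ∀ g : G, (ρ₁ g).trace = (ρ₂ g).trace) :
    ∃ P : GL n K, ∀ g : G, ρ₂ g = (P : Matrix n n K) * ρ₁ g * ((P⁻¹ : GL n K) : Matrix n n K) := by
  obtain ⟨P, hP, h⟩ := bn_conj ρ₁ ρ₂ hspan htr
  obtain ⟨Q, hQ⟩ : ∃ Q : GL n K, (Q : Matrix n n K) = P :=
    ⟨Matrix.GeneralLinearGroup.mk'' P hP, rfl⟩
  subst hQ
  refine ⟨Q, fun g => ?_⟩
  rw [← h g, mul_assoc]
  have h2 : (Q : Matrix n n K) * ((Q⁻¹ : GL n K) : Matrix n n K) = 1 := by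
    rw [← Units.val_mul, mul_inv_cancel, Units.val_one]
  rw [h2, mul_one]

end Grp

end Fermat.Agent.T6.helper35
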