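/-
T6 [W3] wiring (helper35): PERFECTNESS OF THE WEIL PAIRING ON `Pic0[ℓ^k]` FROM
NON-DEGENERACY AT LEVEL `ℓ` AND THE COUNT OF TORSION.

Setting of `helper35_WeilPair` (`hS`, `hW : WeilRec K F`, `hM : Moving K F`), `ℓ` a prime,

* `WPNonDeg K F ℓ`  : the contract of [W3c]: for `y ≠ 0` in `Pic0[ℓ]` there is `u ∈ Pic0[ℓ]`
                      with `wp ℓ u y ≠ 1`;
* `hcard`           : `Nat.card Pic0[ℓ^k] = ℓ^(r k)` for all `k` (S27 with `r = 2 g`).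

Results:
* `exists_pow_smul_eq`   : `ℓ^k : Pic0[ℓ^(k+1)] → Pic0[ℓ]` is onto;
* `wp_nondeg_pow`        : non-degeneracy at level `ℓ^k`;
* `wp_perfect`           : every character of `Pic0[ℓ^k]` is `wp (ℓ^k) · y`;
* `wp_perfect_pow`       : every character of `Pic0[ℓ^k]` is `(wp (ℓ^k) · y) ^ d`, `ℓ ∤ d`.
-/
import Mathlib
import Fermat.Agent.T6.helper35_WeilPair

set_option autoImplicit false
set_option linter.unusedSectionVars false
set_option linter.unusedVariables false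
set_option linter.unusedSimpArgs false
set_option linter.style.haveILetI false

noncomputable section

open AlgebraicCurve

namespace Fermat.Agent.T6.helper35

open Fermat.Agent.P2.helper74 Fermat.Agent.T6.helper26

variable {K F : Type*} [Field K] [Field F] [Algebra K F]

/-- **non-degeneracy at level `ℓ`** (the contract of block [W3c]) -/
def WPNonDeg (K F : Type*) [Field K] [Field F] [Algebra K F] (ℓ : ℕ) : Prop :=
  ∀ y : Pic0 K F, y ∈ Pic0.torsion K F ℓ → y ≠ 0 →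
    ∃ u : Pic0 K F, u ∈ Pic0.torsion K F ℓ ∧ wp ℓ u y ≠ 1

/-! ### Torsion: elementary facts -/

theorem mem_torsion_iff_nsmul {n : ℕ} {x : Pic0 K F} :
    x ∈ Pic0.torsion K F n ↔ n • x = 0 := by
  rw [Pic0.mem_torsion, natCast_zsmul]

theorem torsion_mono {m n : ℕ} (h : m ∣ n) : Pic0.torsion K F m ≤ Pic0.torsion K F n := by
  intro x hx
  rw [mem_torsion_iff_nsmul] at hx ⊢
  obtain ⟨c, rfl⟩ := h
  rw [mul_comm, mul_smul, hx, smul_zero]

theorem nsmul_mem_torsion {m n : ℕ} {x : Pic0 K F} (hx : x ∈ Pic0.torsion K F (n * m)) :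
    m • x ∈ Pic0.torsion K F n := by
  rw [mem_torsion_iff_nsmul] at hx ⊢
  rw [← mul_smul, hx]

/-- **`ℓ^k : Pic0[ℓ^(k+1)] → Pic0[ℓ]` is onto** (by counting). -/
theorem exists_pow_smul_eq {ℓ r : ℕ} (hℓ : ℓ.Prime)
    (hcard : ∀ k : ℕ, Nat.card (Pic0.torsion K F (ℓ ^ k)) = ℓ ^ (r * k)) (k : ℕ)
    {x : Pic0 K F} (hx : x ∈ Pic0.torsion K F ℓ) :
    ∃ u : Pic0 K F, u ∈ Pic0.torsion K F (ℓ ^ (k + 1)) ∧ ℓ ^ k • u = x := by
  obtain ⟨f, hf⟩ : ∃ f : Pic0 K F →+ Pic0 K F, ∀ x, f x = ℓ ^ k • x :=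
    ⟨nsmulAddMonoidHom (ℓ ^ k), fun x => rfl⟩
  have h1card : Nat.card (Pic0.torsion K F ℓ) = ℓ ^ r := by
    have h := hcard 1
    have e : Pic0.torsion K F (ℓ ^ 1) = Pic0.torsion K F ℓ := by rw [pow_one]
    rw [mul_one] at h
    rw [← h, e]
  have hfin1 : Finite (Pic0.torsion K F ℓ) :=
    Nat.finite_of_card_ne_zero (by rw [h1card]; exact pow_ne_zero _ hℓ.ne_zero)
  have hkerinf : f.ker ⊓ Pic0.torsion K F (ℓ ^ (k + 1)) = Pic0.torsion K F (ℓ ^ k) := by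
    ext x
    rw [AddSubgroup.mem_inf, AddMonoidHom.mem_ker, hf, mem_torsion_iff_nsmul,
      mem_torsion_iff_nsmul]
    refine ⟨fun h => h.1, fun h => ⟨h, ?_⟩⟩
    rw [pow_succ', mul_smul, h, smul_zero]
  have hmaple : (Pic0.torsion K F (ℓ ^ (k + 1))).map f ≤ Pic0.torsion K F ℓ := by
    rintro _ ⟨u, hu, rfl⟩
    have hu' : ℓ ^ (k + 1) • u = 0 := mem_torsion_iff_nsmul.mp hu
    rw [mem_torsion_iff_nsmul, hf, ← mul_smul, ← pow_succ']
    exact hu'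
  have hcount : Nat.card (Pic0.torsion K F (ℓ ^ k)) *
      Nat.card ((Pic0.torsion K F (ℓ ^ (k + 1))).map f) =
        Nat.card (Pic0.torsion K F (ℓ ^ (k + 1))) := by
    have h := AddSubgroup.relIndex_inf_mul_relIndex (⊥ : AddSubgroup (Pic0 K F)) f.ker
      (Pic0.torsion K F (ℓ ^ (k + 1)))
    rw [AddSubgroup.relIndex_bot_left, bot_inf_eq, AddSubgroup.relIndex_bot_left,
      AddSubgroup.relIndex_ker, hkerinf] at h
    exact h
  have hmapcard : Nat.card ((Pic0.torsion K F (ℓ ^ (k + 1))).map f) = ℓ ^ r := by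
    rw [hcard k, hcard (k + 1)] at hcount
    have h3 : ℓ ^ (r * (k + 1)) = ℓ ^ (r * k) * ℓ ^ r := by
      rw [← pow_add, mul_add, mul_one]
    rw [h3] at hcount
    exact Nat.eq_of_mul_eq_mul_left (pow_pos hℓ.pos _) hcount
  have heq : (Pic0.torsion K F (ℓ ^ (k + 1))).map f = Pic0.torsion K F ℓ :=
    AddSubgroup.eq_of_le_of_card_ge hmaple (by rw [h1card, hmapcard])
  have hx' : x ∈ (Pic0.torsion K F (ℓ ^ (k + 1))).map f := by
    rw [heq]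
    exact hx
  obtain ⟨u, hu, hux⟩ := hx'
  exact ⟨u, hu, by rw [← hf, hux]⟩

/-- exponents prime to `ℓ` are invertible on `ℓ^k`-th roots of unity -/
theorem exists_inv_exp {ℓ : ℕ} (hℓ : ℓ.Prime) (k : ℕ) {d : ℕ} (hd : ¬ ℓ ∣ d) :
    ∃ e : ℕ, ∀ W : K, W ^ (ℓ ^ k) = 1 → W ^ (e * d) = W := by
  have hn : ℓ ^ k ≠ 0 := pow_ne_zero _ hℓ.ne_zero
  rcases Nat.lt_or_ge 1 (ℓ ^ k) with hlt | hge
  · have hcop : Nat.Coprime d (ℓ ^ k) :=
      Nat.Coprime.pow_right k (Nat.coprime_comm.mp ((Nat.Prime.coprime_iff_not_dvd hℓ).mpr hd))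
    obtain ⟨e, -, he⟩ := Nat.exists_mul_mod_eq_one_of_coprime hcop hlt
    refine ⟨e, fun W hW => ?_⟩
    have h2 : e * d = ℓ ^ k * (d * e / ℓ ^ k) + 1 := by
      have := (Nat.div_add_mod (d * e) (ℓ ^ k)).symm
      rw [he] at this
      rw [mul_comm e d]
      exact this
    rw [h2, pow_add, pow_mul, hW, one_pow, one_mul, pow_one]
  · have h4 : ℓ ^ k = 1 := le_antisymm hge (Nat.one_le_iff_ne_zero.mpr hn)
    refine ⟨0, fun W hW => ?_⟩
    rw [h4, pow_one] at hW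
    rw [zero_mul, pow_zero, hW]

section Pairing

variable (hS : RiemannSetting K F) (hW : WeilRec K F) (hM : Moving K F)

include hS hW hM

theorem wp_nsmul_right {n : ℕ} (hn : n ≠ 0) {u y : Pic0 K F} (hu : u ∈ Pic0.torsion K F n)
    (hy : y ∈ Pic0.torsion K F n) (m : ℕ) : wp n u (m • y) = wp n u y ^ m := by
  induction m with
  | zero => rw [zero_nsmul, pow_zero, wp_zero_right hS hW hM hn hu]
  | succ m ih =>
    rw [succ_nsmul, wp_add_right hS hW hM hn hu ((Pic0.torsion K F n).nsmul_mem hy m) hy, ih,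
      pow_succ]

theorem wp_nsmul_left {n : ℕ} (hn : n ≠ 0) {u y : Pic0 K F} (hu : u ∈ Pic0.torsion K F n)
    (hy : y ∈ Pic0.torsion K F n) (m : ℕ) : wp n (m • u) y = wp n u y ^ m := by
  induction m with
  | zero => rw [zero_nsmul, pow_zero, wp_zero_left hS hW hM hn hy]
  | succ m ih =>
    rw [succ_nsmul, wp_add_left hS hW hM hn ((Pic0.torsion K F n).nsmul_mem hu m) hu hy, ih,
      pow_succ]

theorem wp_neg_right {n : ℕ} (hn : n ≠ 0) {u y : Pic0 K F} (hu : u ∈ Pic0.torsion K F n)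
    (hy : y ∈ Pic0.torsion K F n) : wp n u (-y) = (wp n u y)⁻¹ := by
  have h1 := wp_add_right hS hW hM hn hu hy ((Pic0.torsion K F n).neg_mem hy)
  rw [add_neg_cancel, wp_zero_right hS hW hM hn hu] at h1
  exact eq_inv_of_mul_eq_one_right h1.symm

/-- **non-degeneracy at level `ℓ^k`** -/
theorem wp_nondeg_pow {ℓ r : ℕ} (hℓ : ℓ.Prime) (hND : WPNonDeg K F ℓ)
    (hcard : ∀ k : ℕ, Nat.card (Pic0.torsion K F (ℓ ^ k)) = ℓ ^ (r * k)) (k : ℕ)
    {y : Pic0 K F} (hy : y ∈ Pic0.torsion K F (ℓ ^ k)) (hy0 : y ≠ 0) :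
    ∃ u : Pic0 K F, u ∈ Pic0.torsion K F (ℓ ^ k) ∧ wp (ℓ ^ k) u y ≠ 1 := by
  classical
  have hn : ℓ ^ k ≠ 0 := pow_ne_zero _ hℓ.ne_zero
  -- the order of `y`
  have hex : ∃ j : ℕ, ℓ ^ j • y = 0 := ⟨k, mem_torsion_iff_nsmul.mp hy⟩
  have hj0 : Nat.find hex ≠ 0 := by
    intro h0
    have := Nat.find_spec hex
    rw [h0, pow_zero, one_smul] at this
    exact hy0 this
  obtain ⟨j, hj⟩ := Nat.exists_eq_succ_of_ne_zero hj0
  have hjk : j + 1 ≤ k := by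
    rw [← Nat.succ_eq_add_one, ← hj]
    exact Nat.find_min' hex (mem_torsion_iff_nsmul.mp hy)
  have hy1 : ℓ ^ j • y ≠ 0 := fun h => by
    have := Nat.find_min' hex h
    omega
  have hy2 : ℓ ^ j • y ∈ Pic0.torsion K F ℓ := by
    rw [mem_torsion_iff_nsmul, ← mul_smul, ← pow_succ']
    have := Nat.find_spec hex
    rwa [hj] at this
  obtain ⟨k', rfl⟩ : ∃ k', k = k' + 1 := ⟨k - 1, by omega⟩
  obtain ⟨u', hu', hne⟩ := hND _ hy2 hy1
  obtain ⟨u, hu, rfl⟩ := exists_pow_smul_eq hℓ hcard k' hu'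
  refine ⟨u, hu, fun h1 => hne ?_⟩
  have hu2 : u ∈ Pic0.torsion K F (ℓ * ℓ ^ k') := by rwa [pow_succ'] at hu
  rw [← wp_compat hS hW hM hℓ.ne_zero (pow_ne_zero _ hℓ.ne_zero) hu2 hy2, ← pow_succ',
    wp_nsmul_right hS hW hM hn hu hy, h1, one_pow]

/-- the pairing as a homomorphism `Pic0[n] → Hom(Pic0[n], Kˣ)`, here for fixed `y` -/
def wpHom {n : ℕ} (hn : n ≠ 0) (y : Pic0.torsion K F n) :
    Multiplicative (Pic0.torsion K F n) →* Kˣ where
  toFun u := Units.mk0 (wp n ((Multiplicative.toAdd u : Pic0.torsion K F n) : Pic0 K F) y)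
    (wp_ne_zero hS hW hM hn (Multiplicative.toAdd u).2 y.2)
  map_one' := Units.ext (wp_zero_left hS hW hM hn y.2)
  map_mul' u v := Units.ext
    (wp_add_left hS hW hM hn (Multiplicative.toAdd u).2 (Multiplicative.toAdd v).2 y.2)

theorem wpHom_apply {n : ℕ} (hn : n ≠ 0) (y u : Pic0.torsion K F n) :
    ((wpHom hS hW hM hn y (Multiplicative.ofAdd u) : Kˣ) : K) = wp n (u : Pic0 K F) y := rfl

/-- **perfectness**: every character of `Pic0[ℓ^k]` is `wp (ℓ^k) · y`. -/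
theorem wp_perfect_hom {ℓ r : ℕ} (hℓ : ℓ.Prime) (hND : WPNonDeg K F ℓ)
    (hcard : ∀ k : ℕ, Nat.card (Pic0.torsion K F (ℓ ^ k)) = ℓ ^ (r * k)) (k : ℕ)
    [HasEnoughRootsOfUnity K (ℓ ^ k)]
    (χ : Multiplicative (Pic0.torsion K F (ℓ ^ k)) →* Kˣ) :
    ∃ y : Pic0.torsion K F (ℓ ^ k), χ = wpHom hS hW hM (pow_ne_zero k hℓ.ne_zero) y := by
  classical
  have hn : ℓ ^ k ≠ 0 := pow_ne_zero _ hℓ.ne_zero
  haveI : NeZero (ℓ ^ k) := ⟨hn⟩
  haveI hfin : Finite (Pic0.torsion K F (ℓ ^ k)) :=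
    Nat.finite_of_card_ne_zero (by rw [hcard k]; exact pow_ne_zero _ hℓ.ne_zero)
  haveI : Finite (Multiplicative (Pic0.torsion K F (ℓ ^ k))) := hfin
  have hexp : Monoid.exponent (Multiplicative (Pic0.torsion K F (ℓ ^ k))) ∣ ℓ ^ k := by
    refine Monoid.exponent_dvd_of_forall_pow_eq_one fun u => ?_
    have h1 : (ℓ ^ k) • (Multiplicative.toAdd u : Pic0.torsion K F (ℓ ^ k)) = 0 := by
      apply Subtype.ext
      rw [AddSubgroup.coe_nsmul]
      exact mem_torsion_iff_nsmul.mp (Multiplicative.toAdd u).2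
    exact congrArg Multiplicative.ofAdd h1
  haveI : HasEnoughRootsOfUnity K
      (Monoid.exponent (Multiplicative (Pic0.torsion K F (ℓ ^ k)))) :=
    HasEnoughRootsOfUnity.of_dvd K hexp
  have hc := CommGroup.card_monoidHom_of_hasEnoughRootsOfUnity
    (Multiplicative (Pic0.torsion K F (ℓ ^ k))) K
  haveI : Finite (Multiplicative (Pic0.torsion K F (ℓ ^ k)) →* Kˣ) :=
    Nat.finite_of_card_ne_zero (by
      rw [hc]
      exact (Nat.card_pos (α := Multiplicative (Pic0.torsion K F (ℓ ^ k)))).ne')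
  have hinj : Function.Injective (fun y : Pic0.torsion K F (ℓ ^ k) => wpHom hS hW hM hn y) := by
    intro y y' h
    by_contra hne
    have hd : ((y : Pic0 K F) - y') ≠ 0 := fun h0 => hne (Subtype.ext (sub_eq_zero.mp h0))
    have hdm : ((y : Pic0 K F) - y') ∈ Pic0.torsion K F (ℓ ^ k) :=
      (Pic0.torsion K F (ℓ ^ k)).sub_mem y.2 y'.2
    obtain ⟨u, hu, hne1⟩ := wp_nondeg_pow hS hW hM hℓ hND hcard k hdm hd
    apply hne1
    have h1 := congrArg (fun φ : Multiplicative (Pic0.torsion K F (ℓ ^ k)) →* Kˣ =>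
      ((φ (Multiplicative.ofAdd ⟨u, hu⟩) : Kˣ) : K)) h
    simp only [wpHom_apply] at h1
    rw [sub_eq_add_neg, wp_add_right hS hW hM hn hu y.2 ((Pic0.torsion K F (ℓ ^ k)).neg_mem y'.2),
      wp_neg_right hS hW hM hn hu y'.2, h1]
    exact mul_inv_cancel₀ (wp_ne_zero hS hW hM hn hu y'.2)
  have hbij := hinj.bijective_of_nat_card_le (le_of_eq (by
    rw [hc]
    rfl))
  obtain ⟨y, hy⟩ := hbij.2 χ
  exact ⟨y, hy.symm⟩

/-- **perfectness**, function form: a map `χ : Pic0[ℓ^k] → K` with `χ 0 = 1` and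
`χ (u + v) = χ u * χ v` is `wp (ℓ^k) · y` for some `y ∈ Pic0[ℓ^k]`. -/
theorem wp_perfect {ℓ r : ℕ} (hℓ : ℓ.Prime) (hND : WPNonDeg K F ℓ)
    (hcard : ∀ k : ℕ, Nat.card (Pic0.torsion K F (ℓ ^ k)) = ℓ ^ (r * k)) (k : ℕ)
    [HasEnoughRootsOfUnity K (ℓ ^ k)]
    (χ : Pic0.torsion K F (ℓ ^ k) → K) (h0 : χ 0 = 1) (hmul : ∀ u v, χ (u + v) = χ u * χ v) :
    ∃ y : Pic0 K F, y ∈ Pic0.torsion K F (ℓ ^ k) ∧
      ∀ u : Pic0.torsion K F (ℓ ^ k), χ u = wp (ℓ ^ k) (u : Pic0 K F) y := by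
  have hne : ∀ u, χ u ≠ 0 := by
    intro u hu
    have h1 := hmul u (-u)
    rw [add_neg_cancel, h0, hu, zero_mul] at h1
    exact one_ne_zero h1
  let φ : Multiplicative (Pic0.torsion K F (ℓ ^ k)) →* Kˣ :=
    { toFun := fun u => Units.mk0 (χ (Multiplicative.toAdd u)) (hne _)
      map_one' := Units.ext h0
      map_mul' := fun u v => Units.ext (hmul _ _) }
  obtain ⟨y, hy⟩ := wp_perfect_hom hS hW hM hℓ hND hcard k φ
  refine ⟨y, y.2, fun u => ?_⟩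
  have h1 := congrArg (fun ψ : Multiplicative (Pic0.torsion K F (ℓ ^ k)) →* Kˣ =>
    ((ψ (Multiplicative.ofAdd u) : Kˣ) : K)) hy
  exact h1

/-- **perfectness with an exponent `d` prime to `ℓ`**: every character of `Pic0[ℓ^k]` is
`(wp (ℓ^k) · y) ^ d`. -/
theorem wp_perfect_pow {ℓ r : ℕ} (hℓ : ℓ.Prime) (hND : WPNonDeg K F ℓ)
    (hcard : ∀ k : ℕ, Nat.card (Pic0.torsion K F (ℓ ^ k)) = ℓ ^ (r * k)) (k : ℕ)
    [HasEnoughRootsOfUnity K (ℓ ^ k)] {d : ℕ} (hd : ¬ ℓ ∣ d)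
    (χ : Pic0.torsion K F (ℓ ^ k) → K) (h0 : χ 0 = 1) (hmul : ∀ u v, χ (u + v) = χ u * χ v) :
    ∃ y : Pic0 K F, y ∈ Pic0.torsion K F (ℓ ^ k) ∧
      ∀ u : Pic0.torsion K F (ℓ ^ k), χ u = wp (ℓ ^ k) (u : Pic0 K F) y ^ d := by
  have hn : ℓ ^ k ≠ 0 := pow_ne_zero _ hℓ.ne_zero
  obtain ⟨y₀, hy₀, hχ⟩ := wp_perfect hS hW hM hℓ hND hcard k χ h0 hmul
  obtain ⟨e, he⟩ := exists_inv_exp (K := K) hℓ k hd
  refine ⟨e • y₀, (Pic0.torsion K F (ℓ ^ k)).nsmul_mem hy₀ e, fun u => ?_⟩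
  rw [hχ u, wp_nsmul_right hS hW hM hn u.2 hy₀, ← pow_mul]
  exact (he _ (wp_pow hS hW hM hn u.2 hy₀)).symm

end Pairing

end Fermat.Agent.T6.helper35

end
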