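import Mathlib

/-!
# T6 [KM-FAM] (helper3): families of subspaces over a local ring of functions

The algebra layer under the Khuri-Makdisi calculus (Mathlib only, no matrices, no determinants).

Setting: `R` a commutative LOCAL ring with residue field `k`, and a JOINTLY INJECTIVE family of
ring homomorphisms `ev s : R →+* Ω s` into fields (`R` is a ring of functions on the set of
points `s`).  Vectors are functions `ι → R` (`ι` a finite index set: coordinates with respect
to a fixed basis of a lattice); `mapVec f v = f ∘ v` is the coordinatewise image.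

* `fam_span` : **(FAM-SPAN)** let `W` be the span of a family `g j` of vectors and `I` a set of
  pivot coordinates.  If the reduction of `W` modulo the maximal ideal projects ONTO `k ^ I`, and
  at every point `s` the span of the `g j (s)` has dimension `≤ #I`, then `W` is the GRAPH of a
  matrix `T` over `R` on the coordinates `I` (`v c = ∑ i ∈ I, T c i * v i` for `v ∈ W`, and every
  `I`-part occurs), and at every point `W (s)` is the graph of `T (s)`.
* `fam_ker` : **(FAM-KER)** the same for the KERNEL of a matrix `M` over `R`: if the range of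
  `M` satisfies the hypotheses of (FAM-SPAN) with pivots `I'` and the kernel of the reduction of
  `M` projects onto `k ^ I`, `#I + #I' = #ι`, then `ker M` is the graph of a matrix over `R` on
  the coordinates `I`, and at every point `ker (M (s))` is the graph of its value.
-/

set_option autoImplicit false
set_option linter.style.haveILetI false
set_option linter.unusedSectionVars false

noncomputable section

namespace Fermat.Agent.T6.helper3

open Submodule

/-! ### coordinatewise images -/

section MapVec

variable {R S : Type*} [CommRing R] [CommRing S] {ι : Type*}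

/-- the coordinatewise image of a vector -/
def mapVec (f : R →+* S) (v : ι → R) : ι → S := fun i => f (v i)

@[simp] theorem mapVec_apply (f : R →+* S) (v : ι → R) (i : ι) : mapVec f v i = f (v i) := rfl

theorem mapVec_zero (f : R →+* S) : mapVec f (0 : ι → R) = 0 := by
  funext i; simp

theorem mapVec_add (f : R →+* S) (v w : ι → R) : mapVec f (v + w) = mapVec f v + mapVec f w := by
  funext i; simp

theorem mapVec_smul (f : R →+* S) (a : R) (v : ι → R) :
    mapVec f (a • v) = f a • mapVec f v := by
  funext i; simp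

theorem mapVec_sub (f : R →+* S) (v w : ι → R) : mapVec f (v - w) = mapVec f v - mapVec f w := by
  funext i; simp

theorem mapVec_sum {α : Type*} (f : R →+* S) (t : Finset α) (v : α → ι → R) :
    mapVec f (∑ a ∈ t, v a) = ∑ a ∈ t, mapVec f (v a) := by
  funext i; simp [Finset.sum_apply]

/-- the image of the span lies in the span of the images -/
theorem mapVec_mem_span (f : R →+* S) {J : Type*} (g : J → ι → R) {v : ι → R}
    (hv : v ∈ span R (Set.range g)) :
    mapVec f v ∈ span S (Set.range fun j => mapVec f (g j)) := by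
  induction hv using Submodule.span_induction with
  | mem x hx =>
    obtain ⟨j, rfl⟩ := hx
    exact subset_span ⟨j, rfl⟩
  | zero => rw [mapVec_zero]; exact zero_mem _
  | add x y _ _ hx hy => rw [mapVec_add]; exact add_mem hx hy
  | smul a x _ hx => rw [mapVec_smul]; exact smul_mem _ _ hx

/-- for a surjective `f`, every element of the span of the images is the image of an element of
the span -/
theorem exists_mapVec_eq_of_mem_span (f : R →+* S) (hf : Function.Surjective f) {J : Type*}
    (g : J → ι → R) {w : ι → S} (hw : w ∈ span S (Set.range fun j => mapVec f (g j))) :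
    ∃ v ∈ span R (Set.range g), mapVec f v = w := by
  induction hw using Submodule.span_induction with
  | mem x hx =>
    obtain ⟨j, rfl⟩ := hx
    exact ⟨g j, subset_span ⟨j, rfl⟩, rfl⟩
  | zero => exact ⟨0, zero_mem _, mapVec_zero f⟩
  | add x y _ _ hx hy =>
    obtain ⟨v, hv, rfl⟩ := hx
    obtain ⟨v', hv', rfl⟩ := hy
    exact ⟨v + v', add_mem hv hv', mapVec_add f v v'⟩
  | smul a x _ hx =>
    obtain ⟨v, hv, rfl⟩ := hx
    obtain ⟨b, rfl⟩ := hf a
    exact ⟨b • v, smul_mem _ _ hv, mapVec_smul f b v⟩

end MapVec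

/-! ### Graphs over a field -/

section Field

variable {Ω : Type*} [Field Ω] {ι : Type*} [Fintype ι] [DecidableEq ι]

/-- **pointwise step.**  Let `W` be a subspace of `Ω ^ ι` of dimension `≤ #I` containing vectors
`x i` (`i ∈ I`) whose `I`-parts are the standard basis vectors.  Then `W` is the graph of the
matrix `(x i) c` over the coordinates `I`. -/
theorem graph_of_finrank_le (W : Submodule Ω (ι → Ω)) (I : Finset ι)
    (hW : Module.finrank Ω W ≤ I.card) (x : ι → ι → Ω)
    (hx : ∀ i ∈ I, x i ∈ W) (hxI : ∀ i ∈ I, ∀ j ∈ I, x i j = if j = i then 1 else 0)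
    {w : ι → Ω} (hw : w ∈ W) (c : ι) : w c = ∑ i ∈ I, x i c * w i := by
  classical
  -- the family `x` restricted to `I`, inside `W`
  let y : I → W := fun i => ⟨x i, hx i i.2⟩
  have hli : LinearIndependent Ω y := by
    rw [linearIndependent_iff']
    intro t l hl i hi
    have h1 : (∑ a ∈ t, l a • (y a : ι → Ω)) = 0 := by
      have := congrArg (Subtype.val : W → ι → Ω) hl
      simpa using this
    have h2 := congrFun h1 (i : ι)
    rw [Finset.sum_apply] at h2
    simp only [Pi.smul_apply, smul_eq_mul, Pi.zero_apply] at h2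
    rw [Finset.sum_eq_single i] at h2
    · have h3 : (y i : ι → Ω) (i : ι) = 1 := by
        show x i i = 1
        rw [hxI i i.2 i i.2, if_pos rfl]
      rw [h3, mul_one] at h2
      exact h2
    · intro a _ hai
      have h3 : (y a : ι → Ω) (i : ι) = 0 := by
        show x a i = 0
        rw [hxI a a.2 i i.2, if_neg (fun h => hai (Subtype.ext h.symm))]
      rw [h3, mul_zero]
    · intro h; exact absurd hi h
  have hcard : Fintype.card I = Module.finrank Ω W := by
    apply le_antisymm
    · exact hli.fintype_card_le_finrank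
    · rw [Fintype.card_coe]; exact hW
  have hspan : span Ω (Set.range y) = ⊤ := hli.span_eq_top_of_card_eq_finrank' hcard
  have hmem : (⟨w, hw⟩ : W) ∈ span Ω (Set.range y) := by rw [hspan]; exact mem_top
  obtain ⟨l, hl⟩ := (Submodule.mem_span_range_iff_exists_fun Ω).mp hmem
  have hl' : ∑ i : I, l i • (x i : ι → Ω) = w := by
    have := congrArg (Subtype.val : W → ι → Ω) hl
    simpa [y] using this
  -- the coefficients are the `I`-coordinates of `w`
  have hcoef : ∀ i : I, l i = w i := by
    intro i
    have h2 := congrFun hl' (i : ι)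
    rw [Finset.sum_apply] at h2
    simp only [Pi.smul_apply, smul_eq_mul] at h2
    rw [Finset.sum_eq_single i] at h2
    · rw [hxI i i.2 i i.2, if_pos rfl, mul_one] at h2
      exact h2
    · intro a _ hai
      rw [hxI a a.2 i i.2, if_neg (fun h => hai (Subtype.ext h.symm)), mul_zero]
    · intro h; exact absurd (Finset.mem_univ i) h
  have h3 := congrFun hl' c
  rw [Finset.sum_apply] at h3
  simp only [Pi.smul_apply, smul_eq_mul] at h3
  rw [← h3, ← Finset.sum_coe_sort I (fun i => x i c * w i)]
  refine Finset.sum_congr rfl fun i _ => ?_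
  rw [hcoef i, mul_comm]

/-- a subspace containing vectors whose `I`-parts are the standard basis vectors has dimension
`≥ #I` -/
theorem card_le_finrank_of_pivots (W : Submodule Ω (ι → Ω)) (I : Finset ι) (x : ι → ι → Ω)
    (hx : ∀ i ∈ I, x i ∈ W) (hxI : ∀ i ∈ I, ∀ j ∈ I, x i j = if j = i then 1 else 0) :
    I.card ≤ Module.finrank Ω W := by
  classical
  let y : I → W := fun i => ⟨x i, hx i i.2⟩
  have hli : LinearIndependent Ω y := by
    rw [linearIndependent_iff']
    intro t l hl i hi
    have h1 : (∑ a ∈ t, l a • (y a : ι → Ω)) = 0 := by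
      have := congrArg (Subtype.val : W → ι → Ω) hl
      simpa using this
    have h2 := congrFun h1 (i : ι)
    rw [Finset.sum_apply] at h2
    simp only [Pi.smul_apply, smul_eq_mul, Pi.zero_apply] at h2
    rw [Finset.sum_eq_single i] at h2
    · have h3 : (y i : ι → Ω) (i : ι) = 1 := by
        show x i i = 1
        rw [hxI i i.2 i i.2, if_pos rfl]
      rw [h3, mul_one] at h2
      exact h2
    · intro a _ hai
      have h3 : (y a : ι → Ω) (i : ι) = 0 := by
        show x a i = 0
        rw [hxI a a.2 i i.2, if_neg (fun h => hai (Subtype.ext h.symm))]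
      rw [h3, mul_zero]
    · intro h; exact absurd hi h
  have := hli.fintype_card_le_finrank
  rwa [Fintype.card_coe] at this

end Field

/-! ### Families over a local ring -/

section Local

variable {R : Type*} [CommRing R] [IsLocalRing R] {ι : Type*} [Fintype ι] [DecidableEq ι]

/-- a vector with coordinates in the maximal ideal lies in `𝔪 • ⊤` -/
theorem mem_smul_top_of_forall_mem {α : Type*} [Fintype α] [DecidableEq α] (y : α → R)
    (hy : ∀ a, y a ∈ IsLocalRing.maximalIdeal R) :
    y ∈ (IsLocalRing.maximalIdeal R) • (⊤ : Submodule R (α → R)) := by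
  have h : y = ∑ a, y a • (Pi.single a (1 : R) : α → R) := by
    funext b
    rw [Finset.sum_apply]
    simp only [Pi.smul_apply, smul_eq_mul, Pi.single_apply, mul_ite, mul_one, mul_zero,
      Finset.sum_ite_eq, Finset.mem_univ, if_true]
  rw [h]
  exact Submodule.sum_mem _ fun a _ => Submodule.smul_mem_smul (hy a) mem_top

/-- **Nakayama step.**  If a submodule `W` of `R ^ ι` projects onto `k ^ I` modulo the maximal
ideal, then it projects onto `R ^ I`. -/
theorem exists_mem_eq_on_of_residue (W : Submodule R (ι → R)) (I : Finset ι)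
    (h1 : ∀ u : ι → R, ∃ w ∈ W, ∀ i ∈ I, IsLocalRing.residue R (w i) = IsLocalRing.residue R (u i))
    (u : ι → R) : ∃ v ∈ W, ∀ i ∈ I, v i = u i := by
  classical
  let ρ : (ι → R) →ₗ[R] (I → R) := LinearMap.funLeft R R (Subtype.val : I → ι)
  have hρ : ∀ (v : ι → R) (i : I), ρ v i = v i := fun v i => rfl
  have htop : (⊤ : Submodule R (I → R)) ≤ W.map ρ := by
    refine Submodule.le_of_le_smul_of_le_jacobson_bot (I := IsLocalRing.maximalIdeal R)
      Module.Finite.fg_top ?_ ?_
    · rw [IsLocalRing.jacobson_eq_maximalIdeal ⊥ bot_ne_top]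
    · intro x _
      -- extend `x` by zero
      let ux : ι → R := fun i => if h : i ∈ I then x ⟨i, h⟩ else 0
      obtain ⟨w, hw, hwI⟩ := h1 ux
      rw [Submodule.mem_sup]
      refine ⟨ρ w, Submodule.mem_map_of_mem hw, x - ρ w, ?_, by abel⟩
      refine mem_smul_top_of_forall_mem _ fun i => ?_
      rw [Pi.sub_apply, hρ, ← Ideal.Quotient.eq_zero_iff_mem]
      have := hwI i i.2
      have hux : ux i = x i := by
        simp only [ux, dif_pos i.2]
      rw [hux] at this
      show IsLocalRing.residue R (x i - w i) = 0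
      rw [map_sub, this, sub_self]
  obtain ⟨v, hv, hvu⟩ := htop (mem_top : ρ u ∈ ⊤)
  exact ⟨v, hv, fun i hi => congrFun hvu ⟨i, hi⟩⟩

variable {σ : Type*} {Ω : σ → Type*} [∀ s, Field (Ω s)] (ev : ∀ s, R →+* Ω s)

/-- **(FAM-SPAN), submodule form.**  Let `W` be a submodule of `R ^ ι` which projects onto
`k ^ I` modulo the maximal ideal, and such that at every point `s` the image of `W` lies in a
subspace `Ws s` of dimension `≤ #I`.  Then `W` is the graph of a matrix `T` over `R` on the
coordinates `I`, and every `Ws s` is the graph of `T (s)`. -/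
theorem fam_graph (W : Submodule R (ι → R)) (I : Finset ι)
    (h1 : ∀ u : ι → R, ∃ w ∈ W, ∀ i ∈ I, IsLocalRing.residue R (w i) = IsLocalRing.residue R (u i))
    (Ws : ∀ s, Submodule (Ω s) (ι → Ω s))
    (hWs : ∀ s, ∀ v ∈ W, mapVec (ev s) v ∈ Ws s)
    (h2 : ∀ s, Module.finrank (Ω s) (Ws s) ≤ I.card)
    (hev : ∀ a : R, (∀ s, ev s a = 0) → a = 0) :
    ∃ T : ι → ι → R,
      (∀ i ∈ I, (fun c => T c i) ∈ W) ∧
      (∀ i ∈ I, ∀ j ∈ I, T j i = if j = i then 1 else 0) ∧
      (∀ v ∈ W, ∀ c, v c = ∑ i ∈ I, T c i * v i) ∧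
      (∀ u : ι → R, ∃ v ∈ W, ∀ i ∈ I, v i = u i) ∧
      (∀ s, ∀ w ∈ Ws s, ∀ c, w c = ∑ i ∈ I, ev s (T c i) * w i) := by
  classical
  have hb := exists_mem_eq_on_of_residue W I h1
  -- the pivot vectors
  have hex : ∀ i : ι, ∃ v ∈ W, ∀ j ∈ I, v j = (Pi.single i (1 : R) : ι → R) j := fun i => hb _
  let wv : ι → ι → R := fun i => (hex i).choose
  have hwv : ∀ i, wv i ∈ W := fun i => (hex i).choose_spec.1
  have hwvI : ∀ i, ∀ j ∈ I, wv i j = if j = i then 1 else 0 := by
    intro i j hj
    have := (hex i).choose_spec.2 j hj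
    rw [Pi.single_apply] at this
    exact this
  have hpt : ∀ s, ∀ w ∈ Ws s, ∀ c, w c = ∑ i ∈ I, ev s (wv i c) * w i := by
    intro s w hw c
    have := graph_of_finrank_le (Ws s) I (h2 s) (fun i => mapVec (ev s) (wv i))
      (fun i _ => hWs s _ (hwv i)) (fun i _ j hj => by
        rw [mapVec_apply, hwvI i j hj]
        split_ifs <;> simp) hw c
    simpa using this
  refine ⟨fun c i => wv i c, fun i _ => hwv i, fun i _ j hj => hwvI i j hj, ?_, hb, hpt⟩
  intro v hv c
  rw [← sub_eq_zero]
  apply hev
  intro s
  have := hpt s _ (hWs s v hv) c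
  simp only [mapVec_apply] at this
  rw [map_sub, this, map_sum, sub_eq_zero]
  refine Finset.sum_congr rfl fun i _ => ?_
  rw [map_mul]

/-- **(FAM-SPAN).**  Let `W` be the span of a family `g j` of vectors of `R ^ ι`.  If the span of
the reductions of the `g j` projects onto `k ^ I`, and at every point `s` the span of the
`g j (s)` has dimension `≤ #I`, then `W` is the graph of a matrix `T` over `R` on the
coordinates `I` (in particular free of rank `#I`, with basis the columns of `T`), and at every
point the span of the `g j (s)` is the graph of `T (s)`. -/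
theorem fam_span {J : Type*} (g : J → ι → R) (I : Finset ι)
    (h1 : ∀ u : ι → IsLocalRing.ResidueField R,
      ∃ w ∈ span (IsLocalRing.ResidueField R)
        (Set.range fun j => mapVec (IsLocalRing.residue R) (g j)), ∀ i ∈ I, w i = u i)
    (h2 : ∀ s, Module.finrank (Ω s) (span (Ω s) (Set.range fun j => mapVec (ev s) (g j))) ≤
      I.card)
    (hev : ∀ a : R, (∀ s, ev s a = 0) → a = 0) :
    ∃ T : ι → ι → R,
      (∀ i ∈ I, (fun c => T c i) ∈ span R (Set.range g)) ∧
      (∀ i ∈ I, ∀ j ∈ I, T j i = if j = i then 1 else 0) ∧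
      (∀ v ∈ span R (Set.range g), ∀ c, v c = ∑ i ∈ I, T c i * v i) ∧
      (∀ u : ι → R, ∃ v ∈ span R (Set.range g), ∀ i ∈ I, v i = u i) ∧
      (∀ s, ∀ w ∈ span (Ω s) (Set.range fun j => mapVec (ev s) (g j)),
        ∀ c, w c = ∑ i ∈ I, ev s (T c i) * w i) := by
  refine fam_graph ev (span R (Set.range g)) I (fun u => ?_)
    (fun s => span (Ω s) (Set.range fun j => mapVec (ev s) (g j)))
    (fun s v hv => mapVec_mem_span (ev s) g hv) h2 hev
  obtain ⟨w, hw, hwI⟩ := h1 (mapVec (IsLocalRing.residue R) u)
  obtain ⟨v, hv, rfl⟩ :=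
    exists_mapVec_eq_of_mem_span (IsLocalRing.residue R) IsLocalRing.residue_surjective g hw
  exact ⟨v, hv, fun i hi => hwI i hi⟩

end Local

/-! ### Kernels -/

section Ker

variable {R : Type*} [CommRing R] [IsLocalRing R] {ι ι' : Type*} [Fintype ι] [DecidableEq ι]
  [Fintype ι'] [DecidableEq ι']
  {σ : Type*} {Ω : σ → Type*} [∀ s, Field (Ω s)] (ev : ∀ s, R →+* Ω s)

theorem mapVec_mulVec {S : Type*} [CommRing S] (f : R →+* S) (M : Matrix ι' ι R) (v : ι → R) :
    mapVec f (M.mulVec v) = (M.map f).mulVec (mapVec f v) := by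
  funext i
  exact RingHom.map_mulVec f M v i

/-- **(FAM-KER).**  Let `M` be a matrix over `R` (a linear map `R ^ ι → R ^ ι'`), `I'` a set of
pivot coordinates for its range and `I` a set of pivot coordinates for its kernel,
`#ι ≤ #I + #I'`.  Assume that modulo the maximal ideal the range of `M` projects onto `k ^ I'` and
the kernel of `M` projects onto `k ^ I`, and that `M (s)` has rank `≤ #I'` at every point `s`.
Then the kernel of `M` is the graph of a matrix `T` over `R` on the coordinates `I`, and at every
point the kernel of `M (s)` is the graph of `T (s)`. -/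
theorem fam_ker (M : Matrix ι' ι R) (I : Finset ι) (I' : Finset ι')
    (hcard : Fintype.card ι ≤ I.card + I'.card)
    (h1 : ∀ u' : ι' → R, ∃ x : ι → R, ∀ i' ∈ I',
      IsLocalRing.residue R (M.mulVec x i') = IsLocalRing.residue R (u' i'))
    (h2 : ∀ s, (M.map (ev s)).rank ≤ I'.card)
    (h3 : ∀ u : ι → R, ∃ w : ι → R, (∀ i', M.mulVec w i' ∈ IsLocalRing.maximalIdeal R) ∧
      ∀ i ∈ I, IsLocalRing.residue R (w i) = IsLocalRing.residue R (u i))
    (hev : ∀ a : R, (∀ s, ev s a = 0) → a = 0) :
    ∃ T : ι → ι → R,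
      (∀ i ∈ I, M.mulVec (fun c => T c i) = 0) ∧
      (∀ i ∈ I, ∀ j ∈ I, T j i = if j = i then 1 else 0) ∧
      (∀ v, M.mulVec v = 0 → ∀ c, v c = ∑ i ∈ I, T c i * v i) ∧
      (∀ u : ι → R, ∃ v, M.mulVec v = 0 ∧ ∀ i ∈ I, v i = u i) ∧
      (∀ s, ∀ w, (M.map (ev s)).mulVec w = 0 → ∀ c, w c = ∑ i ∈ I, ev s (T c i) * w i) := by
  classical
  -- Step 1: the range
  obtain ⟨T', hT'mem, hT'I, hT'graph, hT'surj, -⟩ :=
    fam_graph ev (LinearMap.range M.mulVecLin) I'
      (fun u' => by
        obtain ⟨x, hx⟩ := h1 u'
        exact ⟨M.mulVec x, ⟨x, rfl⟩, hx⟩)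
      (fun s => LinearMap.range (M.map (ev s)).mulVecLin)
      (fun s v hv => by
        obtain ⟨x, rfl⟩ := hv
        exact ⟨mapVec (ev s) x, (mapVec_mulVec (ev s) M x).symm⟩)
      h2 hev
  -- Step 2: the kernel projects onto `R ^ I`
  have hK : ∀ u : ι → R, ∃ v ∈ LinearMap.ker M.mulVecLin,
      ∀ i ∈ I, IsLocalRing.residue R (v i) = IsLocalRing.residue R (u i) := by
    intro u
    obtain ⟨w, hw, hwI⟩ := h3 u
    have hz : ∀ i' : ι', ∃ z : ι → R, ∀ j' ∈ I',
        M.mulVec z j' = (Pi.single i' (1 : R) : ι' → R) j' := by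
      intro i'
      obtain ⟨y, ⟨z, hz⟩, hy⟩ := hT'surj (Pi.single i' (1 : R))
      exact ⟨z, fun j' hj' => by rw [← hy j' hj', ← hz]; rfl⟩
    let z : ι' → ι → R := fun i' => (hz i').choose
    have hzI : ∀ i', ∀ j' ∈ I', M.mulVec (z i') j' = if j' = i' then 1 else 0 := by
      intro i' j' hj'
      have := (hz i').choose_spec j' hj'
      rw [Pi.single_apply] at this
      exact this
    let w' : ι → R := ∑ i' ∈ I', M.mulVec w i' • z i'
    have hMw' : M.mulVec w' = ∑ i' ∈ I', M.mulVec w i' • M.mulVec (z i') := by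
      show M.mulVecLin w' = _
      rw [map_sum]
      refine Finset.sum_congr rfl fun i' _ => ?_
      rw [map_smul]
      rfl
    have hdiff : M.mulVec (w - w') = 0 := by
      have hmem : M.mulVec (w - w') ∈ LinearMap.range M.mulVecLin := ⟨w - w', rfl⟩
      funext c'
      rw [hT'graph _ hmem c', Pi.zero_apply]
      refine Finset.sum_eq_zero fun j' hj' => ?_
      have : M.mulVec (w - w') j' = 0 := by
        rw [Matrix.mulVec_sub, Pi.sub_apply, hMw', Finset.sum_apply, sub_eq_zero]
        simp only [Pi.smul_apply, smul_eq_mul]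
        rw [Finset.sum_eq_single j']
        · rw [hzI j' j' hj', if_pos rfl, mul_one]
        · intro a _ haj
          rw [hzI a j' hj', if_neg (fun h => haj h.symm), mul_zero]
        · intro h; exact absurd hj' h
      rw [this, mul_zero]
    refine ⟨w - w', hdiff, fun i hi => ?_⟩
    rw [← hwI i hi, Pi.sub_apply, map_sub, sub_eq_self]
    refine (IsLocalRing.residue_eq_zero_iff _).mpr ?_
    show (∑ i' ∈ I', M.mulVec w i' • z i') i ∈ IsLocalRing.maximalIdeal R
    rw [Finset.sum_apply]
    refine Ideal.sum_mem _ fun i' _ => ?_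
    rw [Pi.smul_apply, smul_eq_mul]
    exact Ideal.mul_mem_right _ _ (hw i')
  -- Step 3: the kernel is a graph
  have hrk : ∀ s, Module.finrank (Ω s) (LinearMap.ker (M.map (ev s)).mulVecLin) ≤ I.card := by
    intro s
    have h4 := LinearMap.finrank_range_add_finrank_ker (M.map (ev s)).mulVecLin
    rw [Module.finrank_pi] at h4
    have h5 : I'.card ≤ Module.finrank (Ω s) (LinearMap.range (M.map (ev s)).mulVecLin) := by
      refine card_le_finrank_of_pivots _ I' (fun i' => mapVec (ev s) (fun c' => T' c' i'))
        (fun i' hi' => ?_) (fun i' hi' j' hj' => ?_)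
      · obtain ⟨x, hx⟩ := hT'mem i' hi'
        refine ⟨mapVec (ev s) x, ?_⟩
        show (M.map (ev s)).mulVec (mapVec (ev s) x) = _
        rw [← mapVec_mulVec]
        exact congrArg (mapVec (ev s)) hx
      · rw [mapVec_apply, hT'I i' hi' j' hj']
        split_ifs <;> simp
    omega
  obtain ⟨T, hTmem, hTI, hTgraph, hTsurj, hTpt⟩ :=
    fam_graph ev (LinearMap.ker M.mulVecLin) I hK
      (fun s => LinearMap.ker (M.map (ev s)).mulVecLin)
      (fun s v hv => by
        rw [LinearMap.mem_ker] at hv ⊢
        show (M.map (ev s)).mulVec (mapVec (ev s) v) = 0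
        rw [← mapVec_mulVec]
        have : M.mulVec v = 0 := hv
        rw [this, mapVec_zero])
      hrk hev
  exact ⟨T, fun i hi => hTmem i hi, hTI, fun v hv c => hTgraph v hv c,
    fun u => hTsurj u, fun s w hw c => hTpt s w hw c⟩

end Ker

end Fermat.Agent.T6.helper3

end
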