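/-
T6 (S19 / S32), helper3: **the instance of the geometric contract `WeilGeo` at a reduction
setting**, and `helper73.IntStatement` at the good pairs.

* `nonempty_weilGeo` : `Nonempty (WeilGeo ..)` at every `S37.helper16.RedSetting M A` over
  `ℓ ∤ M`, from [I1] (`helper74`), [I3-a] (`helper80`), [HNAT] / [I3-b] (`helper97`) and [HY]
  (`helper3`);
* `ti_of_weilAt` : `WeilAt ℚ̄ (F_M) l k ⟹ TI A (actTors M l k)` at the good pairs, given the
  finiteness of the torsion.
-/
import Mathlib
import Fermat.Agent.T6.helper3_HY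
import Fermat.Agent.T6.helper3_IntStatement
import Fermat.Agent.T6.helper16_RedPlace

set_option autoImplicit false
set_option synthInstance.maxHeartbeats 400000
set_option maxHeartbeats 1000000
set_option linter.unusedSectionVars false
set_option linter.unusedVariables false
set_option linter.style.longLine false
set_option linter.style.haveILetI false

noncomputable section

namespace Fermat.Agent.T6.helper3

open HahnSeries IntermediateField AlgebraicCurve ModularCurve
open Fermat.Agent.S18.helper19 Fermat.Agent.P2.helper29 Fermat.Agent.P2.helper22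
open Fermat.Agent.S37.helper16
open Fermat.Agent.T6.helper26 Fermat.Agent.T6.helper35 Fermat.Agent.T6.helper81
open Fermat.Agent.T6.helper73 Fermat.Agent.T6.helper80
open Fermat.Agent.T6.helper74 (DpT mT hT Tn galAut riemann_ineq_FF galAut_smul_inftyBar
  geo_Dp_nonneg geo_D_deg geo_D_mk geo_h_div geo_Dp_eq geo_m_eq geo_disjoint geo_disj_hy
  geo_ord_hy)
open Fermat.Agent.T6.helper97 (OffT Pinf_eq hnat_coords exists_dval_natFun_mul_eq_one)

variable {M : ℕ} [NeZero M] {A : ValuationSubring Kb}

/-- shortcut instance (slow to find by synthesis) -/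
local instance algebraFFbGI : Algebra (kA A) (FFb A M) := SubalgebraClass.toAlgebra (FFb A M)

variable (S : RedSetting M A)

/-- the zero divisor of the moved function is fixed by the Galois action -/
theorem zeroDiv_fix {T : Finset (Place (kA A) (FFb A M))} {d : ℤ} {Y : LaurentSeries A}
    (hM : IsMoved S T d Y) (E : Divisor Kb (FF M))
    (hE : ∀ P, E P = P.ord (⟨incl A Y, hM.lead.inL.1⟩ : FF M) + Finsupp.single S.Pinf d P)
    (σ : Kb ≃ₐ[ℚ] Kb) : galAut M σ • E = E := by
  have hS := Fermat.Agent.P2.helper74.riemannSetting_FF M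
  have hPe := Pinf_eq S
  set φ : FF M := ⟨incl A Y, hM.lead.inL.1⟩ with hφdef
  have hEeq : E = divOf Kb φ + Finsupp.single S.Pinf d := by
    ext P
    rw [Finsupp.add_apply, divOf_apply hS, hE]
  have hφfix : galAut M σ • φ = φ := by
    apply Subtype.ext
    rw [coe_arithmeticGalois_smul]
    exact hM.lead.fix σ
  have hPfix : galAut M σ • S.Pinf = S.Pinf := by
    rw [hPe]
    exact galAut_smul_inftyBar M σ
  rw [hEeq, smul_add, ← divOf_smul hS, hφfix, SemilinearAut.smul_single, hPfix]

include S in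
/-- **the instance of the geometric contract** at a reduction setting -/
theorem nonempty_weilGeo {l : ℕ} (hl : l.Prime) (hlM : ¬ l ∣ M) (hAl : A.LiesOverPrime l)
    (k : ℕ) [Finite (Pic0.torsion Kb (FF M) (l ^ k))] :
    Nonempty (WeilGeo (arithmeticGalois (L := Kb) (modularFunctionFieldFull M))
      A.toSubring l k) := by
  classical
  have hS := Fermat.Agent.P2.helper74.riemannSetting_FF M
  have hR := riemann_ineq_FF M
  have hPL : PrimeToLevel M A := ⟨l, hl, hlM, hAl⟩
  have hPe := Pinf_eq S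
  obtain ⟨d, Y, hd, hld, hM⟩ := exists_phiE S hl hlM hAl (Tred S (l ^ k))
  obtain ⟨E, hEnn, hEdeg, hE, hEinf, hET, -⟩ := hM.zeroDiv S
  have hEdeg' : Divisor.degree E = d := hEdeg
  have hEoff : OffT S (l ^ k) E := by
    refine offT_of_forall S (l ^ k) fun P hP => ⟨fun h => hP (hET P (Or.inl h)),
      fun h => hP (hET P (Or.inr h))⟩
  have hEfix : ∀ σ : Kb ≃ₐ[ℚ] Kb, galAut M σ • E = E := fun σ => zeroDiv_fix S hM E hE σ
  obtain ⟨r, v, c, hnat, hcA, hceq, hvfix, hvval⟩ :=
    hnat_coords (S := S) (n := l ^ k) hPL hEdeg' hEoff hEfix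
  refine ⟨{
    oo := inftyBar M
    d := d
    hd := ((Nat.Prime.coprime_iff_not_dvd hl).mpr hld).symm
    E := E
    Dp := DpT (inftyBar M) (l ^ k)
    m := mT (inftyBar M) (l ^ k)
    h := hT (inftyBar M) (l ^ k)
    Dp_nonneg := geo_Dp_nonneg hS hR _ _
    D_deg := geo_D_deg hS _ _
    D_mk := geo_D_mk hS _ _
    h_div := geo_h_div hS _ _
    Dp_eq := fun σ u => geo_Dp_eq hS hR _ _ (galAut M) (galAut_smul_inftyBar M) σ u
    m_eq := fun σ u => geo_m_eq hS _ _ (galAut M) (galAut_smul_inftyBar M) σ u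
    h_E := fun u => hEoff.disj_hT u
    r := r
    v := v
    c := c
    hnat := hnat
    c_mem := hcA
    c_eq := hceq
    move := fun y => ?_ }⟩
  obtain ⟨cc, Ry, hy, hdeg, r', v', b, hRy, hdegR, hmk, hdiv, hoff, hfix, hb, hyinv, hreg, hval,
    hoo⟩ := exists_hy S hPL hd hM E hE y
  have hRoff : OffT S (l ^ k) Ry := offT_of_forall S (l ^ k) hoff
  have hXoff : OffT S (l ^ k) (cc • E - Ry) := (hEoff.nsmul cc).sub hRoff
  have hX0 := hXoff.apply_eq_zero
  refine ⟨cc, Ry, hy, hdeg, r', v', b, hRy, hdegR, hmk, hdiv,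
    fun u => geo_disjoint (inftyBar M) (l ^ k) hX0 u, fun u => hRoff.disj_hT u,
    fun u => geo_disj_hy (inftyBar M) (l ^ k) hS hX0 hdiv u,
    geo_ord_hy (inftyBar M) (l ^ k) hS hX0 hdiv,
    fun P hP i => (hvval i P (hRoff.rP_ne_Qinf (Finsupp.mem_support_iff.mp hP))).1,
    fun P hP i => (hvval i P (hRoff.rP_ne_Qinf (Finsupp.mem_support_iff.mp hP))).2,
    fun u => exists_dval_natFun_mul_eq_one hEdeg' hEoff hRoff u, hfix, hb, hyinv, hreg, hval,
    hoo⟩

/-- **[INT] at the good pairs**, given the finiteness of the torsion: if every character of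
`J_0(M)[l^k]` is a Weil character, then `(TI)` holds. -/
theorem ti_of_weilAt (l : ℕ) [Fact l.Prime] (hgood : GoodAt M l A) (k : ℕ)
    (hfin : Finite (Pic0.torsion Kq (modularFunctionFieldBar M) (l ^ k)))
    (hW : WeilAt Kq (modularFunctionFieldBar M) l k) : TI A (actTors M l k) := by
  obtain ⟨h49, hl, hlM, hAl⟩ := hgood
  have hGP : GoodPair M A := ⟨h49, l, hl, hlM, hAl⟩
  obtain ⟨S⟩ := Fermat.Agent.T6.helper16.exists_redSetting hGP
  haveI := hfin
  obtain ⟨W⟩ := nonempty_weilGeo S hl hlM hAl k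
  intro χ h0 hmul
  have hS : Fermat.Agent.P2.helper74.RiemannSetting Kq (modularFunctionFieldBar M) :=
    Fermat.Agent.P2.helper74.riemannSetting_FF (M := M)
  have h := isTI_of_weilGeo (hS := hS) hl.one_lt hW W (fun u => χ (torsEquiv M l k u))
    (by
      have : torsEquiv M l k 0 = 0 := rfl
      rw [this, h0])
    (fun x y => by
      have : torsEquiv M l k (x + y) = torsEquiv M l k x + torsEquiv M l k y := rfl
      rw [this, hmul])
  obtain ⟨n, a, f, ha, hfA, hfeq, hχ⟩ := h
  refine ⟨n, a, fun i x => f i ((torsEquiv M l k).symm x), fun i => ha i,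
    fun i x => hfA i _, fun i σ x => ?_, fun x => ?_⟩
  · show f i ((torsEquiv M l k).symm (actTors M l k σ x)) = σ (f i ((torsEquiv M l k).symm x))
    rw [torsEquiv_symm_act]
    exact hfeq i σ _
  · have h1 : χ (torsEquiv M l k ((torsEquiv M l k).symm x)) =
        ∑ i, a i * f i ((torsEquiv M l k).symm x) := hχ ((torsEquiv M l k).symm x)
    rw [Equiv.apply_symm_apply] at h1
    exact h1

/-- **the geometric contract at all good pairs**, given the finiteness of the torsion -/
theorem geoStatement_of_fin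
    (hfin : ∀ (M : ℕ) [NeZero M] (l : ℕ) [Fact l.Prime] (k : ℕ),
      Finite (Pic0.torsion Kq (modularFunctionFieldBar M) (l ^ k))) : GeoStatement := by
  intro M _ l _ A hgood k
  obtain ⟨h49, hl, hlM, hAl⟩ := hgood
  have hGP : GoodPair M A := ⟨h49, l, hl, hlM, hAl⟩
  obtain ⟨S⟩ := Fermat.Agent.T6.helper16.exists_redSetting hGP
  haveI := hfin M l k
  exact ⟨hfin M l k, nonempty_weilGeo S hl hlM hAl k⟩

end Fermat.Agent.T6.helper3

end
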