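/-
T6 (S19 / S32), helper3: **`GeoStatement`, unconditional**, hence `helper73.IntStatement`.
-/
import Mathlib
import Fermat.Agent.T6.helper3_GeoInst
import Fermat.Agent.T6.helper85_FinT6

set_option autoImplicit false
set_option linter.unusedSectionVars false
set_option linter.unusedVariables false
set_option linter.style.longLine false
set_option linter.style.haveILetI false

noncomputable section

namespace Fermat.Agent.T6.helper3

open AlgebraicCurve ModularCurve
open Fermat.Agent.T6.helper73

/-- the torsion of `J_0(M)` is finite, in the shape of `Pic0.torsion` -/
theorem finite_pic0_torsion (M : ℕ) [NeZero M] (l : ℕ) [Fact l.Prime] (k : ℕ) :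
    Finite (Pic0.torsion Kq (modularFunctionFieldBar M) (l ^ k)) := by
  haveI := Fermat.Agent.T6.helper85.finite_torsionBy_jZero M l k
  exact Finite.of_equiv _ (torsEquiv M l k).symm

/-- **the geometric contract of [INT]**, unconditional -/
theorem geoStatement : GeoStatement := geoStatement_of_fin finite_pic0_torsion

/-- **[INT]**, unconditional -/
theorem intStatement : IntStatement := int_of_geo geoStatement

end Fermat.Agent.T6.helper3

end
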