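/-
T6 (S19 / S32), helper3: **[HY] the second factor of the Weil characters at a reduction setting**.

`S : S37.helper16.RedSetting M A`, `n ≠ 0`, `φ` an `A`-integral Galois-fixed function of
`L(d ∞)` with nonzero reduction, exact pole order `d` at `∞` and without zeros reducing into the
finite set `T` or to `∞̄` ([I3-a]); `E = div_0 φ`; `T` contains the reductions of the points of the
reduced divisors `D_u⁺` of the `n`-torsion classes ([I1]).

`exists_hy` : for every `n`-torsion class `y` there are `c`, an effective divisor `R_y` of degree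
`c d` whose points reduce outside `T` and `∞̄`, with `[c E - R_y] = y` ([I3-b]), a function `h_y`
with `div h_y = n (c E - R_y)`, and Galois-fixed functions `v'_j` with
`h_y⁻¹ = ∑ b_j v'_j`, `b_j ∈ A`, such that `h_y` has no zero or pole on the `D_u⁺` and at `∞`,
the `v'_j` are regular with values in `A` at the points of the `D_u⁺`, and `h_y(∞) ∈ A`.
-/
import Mathlib
import Fermat.Agent.T6.helper97_MoveR
import Fermat.Agent.T6.helper81_PlaceRedValInst
import Fermat.Agent.T6.helper23_RatBasis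
import Fermat.Agent.T6.helper74_RedDivW
import Fermat.Agent.T6.helper74_RedDivFF
import Fermat.Agent.T6.helper74_GeoI1
import Fermat.Agent.T6.helper80_MovePhi
import Fermat.Agent.T6.helper97_HNat
import Fermat.Agent.T6.helper3_TIWeil

set_option autoImplicit false
set_option synthInstance.maxHeartbeats 400000
set_option maxHeartbeats 1000000
set_option linter.unusedSectionVars false
set_option linter.unusedVariables false
set_option linter.style.longLine false
set_option linter.style.haveILetI false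

noncomputable section

namespace Fermat.Agent.T6.helper3

open HahnSeries IntermediateField AlgebraicCurve ModularCurve
open Fermat.Agent.S18.helper19 Fermat.Agent.P2.helper29 Fermat.Agent.P2.helper22
open Fermat.Agent.S37.helper16
open Fermat.Agent.T6.helper26 Fermat.Agent.T6.helper35 Fermat.Agent.T6.helper81
open Fermat.Agent.T6.helper73 Fermat.Agent.T6.helper80
open Fermat.Agent.T6.helper74 (DpT mT hT Tn mem_Tn_iff mem_Tn_of_Dp O_mem_Tn galAut riemann_ineq_FF
  geo_Dp_nonneg geo_degree_Dp redDiv0 redPlus0 redDeg0 redDiv0_eq ord_torFun torFun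
  torFun_ne_zero isRep_redDiv0 genusFF)

variable {M : ℕ} [NeZero M] {A : ValuationSubring Kb}

/-- shortcut instance (slow to find by synthesis) -/
local instance algebraFFbHY : Algebra (kA A) (FFb A M) := SubalgebraClass.toAlgebra (FFb A M)

variable (S : RedSetting M A)

/-- **VAL-1 in `pval` form**: a function with a reduction, none of whose poles reduces to the
reduction of `P`, has its value at `P` in `A`. -/
theorem pval_mem_of_redOf {f : FF M} {fb : FFb A M} (hf : RedOfM A M f fb)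
    {P : Place Kb (FF M)} (hpole : ∀ P', S.rP P' = S.rP P → 0 ≤ P'.ord f) : pval P f ∈ A := by
  obtain ⟨c, hc⟩ := exists_valAt P (hpole P rfl)
  have hcA := val_mem S hf hc hpole
  have h1 : pval P f = c := pval_eq_of_isVal hc
  rw [h1]
  exact hcA

omit S in
theorem redOfM_pow {f : FF M} {fb : FFb A M} (hf : RedOfM A M f fb) (k : ℕ) :
    RedOfM A M (f ^ k) (fb ^ k) := by
  induction k with
  | zero =>
    rw [pow_zero, pow_zero]
    exact redOf_one
  | succ k ih =>
    rw [pow_succ, pow_succ]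
    exact ih.mul hf

include S in
/-- an integral function of `L(n ∞)` given as an element of `FF M` -/
theorem redOfM_of_inL' {n : ℤ} {f : FF M} {Y : LaurentSeries A}
    (hY : incl A Y = (f : LaurentSeries Kb)) (hL : InL (FF M) n (f : LaurentSeries Kb)) :
    ∃ hb : red A Y ∈ FFb A M, RedOfM A M f ⟨red A Y, hb⟩ := by
  have hL' : InL (FF M) n (incl A Y) := by rw [hY]; exact hL
  have h := redOfM_of_inL S hL'
  have e : (⟨incl A Y, hL'.1⟩ : FF M) = f := Subtype.ext hY
  rw [e] at h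
  exact ⟨_, h⟩

/-! ### the finite set `T` -/

section T

variable (n : ℕ) [Finite (Pic0.torsion Kb (FF M) n)]

open Classical in
/-- the reductions of `∞` and of the points of the reduced divisors of the `n`-torsion classes -/
def Tred : Finset (Place (kA A) (FFb A M)) := (Tn (inftyBar M) n).image S.rP

theorem rP_mem_Tred {P : Place Kb (FF M)} (hP : P ∈ Tn (inftyBar M) n) :
    S.rP P ∈ Tred S n := by
  classical
  exact Finset.mem_image_of_mem _ hP

/-- a divisor whose points reduce outside `T` is off `T` -/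
theorem offT_of_forall {X : Divisor Kb (FF M)}
    (hX : ∀ P, X P ≠ 0 → S.rP P ∉ Tred S n ∧ S.rP P ≠ S.Qinf) :
    Fermat.Agent.T6.helper97.OffT S n X := by
  intro P hP P' hP' he
  exact (hX P hP).1 (he ▸ rP_mem_Tred S n hP')

/-- the reductions of the points of a divisor off `T` avoid `Tred` and `∞̄` -/
theorem forall_of_offT {X : Divisor Kb (FF M)} (hX : Fermat.Agent.T6.helper97.OffT S n X) :
    ∀ P, X P ≠ 0 → S.rP P ∉ Tred S n ∧ S.rP P ≠ S.Qinf := by
  classical
  intro P hP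
  refine ⟨fun hmem => ?_, hX.rP_ne_Qinf hP⟩
  obtain ⟨P', hP', he⟩ := Finset.mem_image.mp hmem
  exact hX P hP P' hP' he

end T

/-! ### the second factor -/

section HY

variable {n : ℕ} [Finite (Pic0.torsion Kb (FF M) n)]

/-- **[HY]**. -/
theorem exists_hy (hA : PrimeToLevel M A) {d : ℕ} (hd : 0 < d)
    {Y : LaurentSeries A} (hM : IsMoved S (Tred S n) (d : ℤ) Y) (E : Divisor Kb (FF M))
    (hE : ∀ P, E P = P.ord (⟨incl A Y, hM.lead.inL.1⟩ : FF M) + Finsupp.single S.Pinf (d : ℤ) P)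
    (y : Pic0.torsion Kb (FF M) n) :
    ∃ (cc : ℕ) (Ry : Divisor Kb (FF M)) (hy : FF M)
      (hdeg : Divisor.degree (cc • E - Ry) = 0) (r' : ℕ) (v' : Fin r' → FF M) (b : Fin r' → Kb),
      (∀ P, 0 ≤ Ry P) ∧ Divisor.degree Ry = (cc : ℤ) * d ∧
      Pic0.mk ⟨cc • E - Ry, hdeg⟩ = (y : Pic0 Kb (FF M)) ∧
      IsDivOf hy (n • (cc • E - Ry)) ∧
      (∀ P, Ry P ≠ 0 → S.rP P ∉ Tred S n ∧ S.rP P ≠ S.Qinf) ∧
      (∀ (σ : Kb ≃ₐ[ℚ] Kb) j, galAut M σ • v' j = v' j) ∧ (∀ j, b j ∈ A) ∧
      hy⁻¹ = ∑ j, b j • v' j ∧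
      (∀ u, ∀ P ∈ (DpT (inftyBar M) n u).support, ∀ j, 0 ≤ P.ord (v' j)) ∧
      (∀ u, ∀ P ∈ (DpT (inftyBar M) n u).support, ∀ j, pval P (v' j) ∈ A) ∧
      pval (inftyBar M) hy ∈ A := by
  classical
  have hS := Fermat.Agent.P2.helper74.riemannSetting_FF M
  have hR := riemann_ineq_FF M
  have hPe : S.Pinf = inftyBar M := Fermat.Agent.T6.helper97.Pinf_eq S
  rw [← hPe]
  set φ : FF M := ⟨incl A Y, hM.lead.inL.1⟩ with hφdef
  have hφ0 : φ ≠ 0 := fun h0 => hM.lead.incl_ne_zero (congrArg Subtype.val h0)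
  have hφinf : S.Pinf.ord φ = -(d : ℤ) := hM.lead.ord_Pinf S
  have hφreg : ∀ P, P ≠ S.Pinf → 0 ≤ P.ord φ := fun P hP => hM.lead.ord_incl_nonneg S P hP
  have hφT : ∀ P, P ≠ S.Pinf → (S.rP P ∈ Tred S n ∨ S.rP P = S.Qinf) → P.ord φ = 0 := hM.ord
  have hφE : ∀ P, P.ord φ = E P - Finsupp.single S.Pinf (d : ℤ) P := fun P => by
    rw [hE P]; ring
  have hEinf : E S.Pinf = 0 := by
    rw [hE, Finsupp.single_eq_same, hφinf]; ring
  have hEne : ∀ P, P ≠ S.Pinf → E P = P.ord φ := fun P hP => by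
    rw [hE, Finsupp.single_eq_of_ne hP, add_zero]
  have hEnn : ∀ P, 0 ≤ E P := fun P => by
    by_cases hP : P = S.Pinf
    · rw [hP, hEinf]
    · rw [hEne P hP]; exact hφreg P hP
  have hET : ∀ P, (S.rP P ∈ Tred S n ∨ S.rP P = S.Qinf) → E P = 0 := fun P hP => by
    by_cases hPi : P = S.Pinf
    · rw [hPi, hEinf]
    · rw [hEne P hPi]; exact hφT P hPi hP
  -- the moved representative
  obtain ⟨cc, Ry, g, -, hcc, hg0, hRy, hdegR, hordg, hoff⟩ :=
    Fermat.Agent.T6.helper97.exists_move_Ry S hφ0 hd hφE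
      (geo_Dp_nonneg hS hR S.Pinf n y) (Tred S n) 1
  have hRyT : ∀ P, (S.rP P ∈ Tred S n ∨ S.rP P = S.Qinf) → Ry P = 0 := fun P hP => by
    by_contra hne
    rcases hP with hP | hP
    · exact (hoff P hne).1 hP
    · exact (hoff P hne).2 hP
  have hRyinf : Ry S.Pinf = 0 := hRyT _ (Or.inr S.rP_Pinf)
  have hX : ∀ P, (cc • E - Ry) P = cc * E P - Ry P := fun P => by
    rw [Finsupp.sub_apply, Finsupp.smul_apply, nsmul_eq_mul]
  have hordg' : ∀ P, P.ord g = (cc • E - Ry) P - redDiv0 S.Pinf (y : Pic0 Kb (FF M)) P := by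
    intro P
    rw [hordg P, redDiv0_eq]
    have h1 : Divisor.degree (DpT S.Pinf n y) = (mT S.Pinf n y : ℤ) :=
      geo_degree_Dp hS hR S.Pinf n y
    rw [h1]
    rfl
  -- the function `h₀` with divisor `n (c E - R)`
  have hT0 : hT S.Pinf n y ≠ 0 := torFun_ne_zero _ _ _
  set h0 : FF M := hT S.Pinf n y * g ^ n with hh0def
  have hh0 : h0 ≠ 0 := mul_ne_zero hT0 (pow_ne_zero _ hg0)
  have hordh0 : ∀ P, P.ord h0 = n * (cc • E - Ry) P := by
    intro P
    rw [hh0def, P.ord_mul hT0 (pow_ne_zero _ hg0), ord_npow]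
    have h1 : P.ord (hT S.Pinf n y) = n * redDiv0 S.Pinf (y : Pic0 Kb (FF M)) P :=
      ord_torFun hS S.Pinf y.2 P
    rw [h1, hordg']
    ring
  -- the function `w₀ = φ ^ (n c) / h₀ ∈ L(n c d ∞)`
  set w0 : FF M := φ ^ (n * cc) / h0 with hw0def
  have hw0 : w0 ≠ 0 := div_ne_zero (pow_ne_zero _ hφ0) hh0
  have hordw0 : ∀ P, P.ord w0 =
      n * Ry P - ((n * cc : ℕ) : ℤ) * Finsupp.single S.Pinf (d : ℤ) P := by
    intro P
    rw [hw0def, ord_div P (pow_ne_zero _ hφ0) hh0, ord_npow, hordh0, hφE, hX]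
    push_cast
    ring
  have hw0L : InL (FF M) (((n * cc * d : ℕ) : ℤ)) (w0 : LaurentSeries Kb) := by
    rw [inL_iff_mem S.hPinf]
    refine ⟨w0.2, ?_⟩
    rw [Fermat.Agent.P2.helper74.mem_L_iff' hw0]
    intro v
    rw [hordw0]
    by_cases hv : v = S.Pinf
    · rw [hv, Finsupp.single_eq_same, Finsupp.single_eq_same, hRyinf]
      push_cast
      ring_nf
      exact le_refl _
    · rw [Finsupp.single_eq_of_ne hv, Finsupp.single_eq_of_ne hv]
      have := hRy v
      have hn0 : (0 : ℤ) ≤ (n : ℤ) := Int.natCast_nonneg n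
      nlinarith
  have hw0c : (w0 : LaurentSeries Kb) ≠ 0 := fun h => hw0 (Subtype.ext h)
  -- the normalisation
  obtain ⟨c, hc, Z, hZ, hZr⟩ :=
    Fermat.Agent.P2.helper74.contentAttained_of_inL S.hSc S.hInt hw0L hw0c
  set w : FF M := c • w0 with hwdef
  have hw : w ≠ 0 := by
    rw [hwdef, Algebra.smul_def]
    exact mul_ne_zero (by simpa using hc) hw0
  have hwZ : incl A Z = (w : LaurentSeries Kb) := by
    rw [hwdef, coe_smul_eq]
    exact hZ
  have hwL : InL (FF M) (((n * cc * d : ℕ) : ℤ)) (w : LaurentSeries Kb) := by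
    rw [hwdef, coe_smul_eq]
    exact inL_smul S.hPinf hw0L c
  set hyF : FF M := c⁻¹ • h0 with hyFdef
  have hyF0 : hyF ≠ 0 := by
    rw [hyFdef, Algebra.smul_def]
    exact mul_ne_zero (by simpa using hc) hh0
  have hordhy : ∀ P, P.ord hyF = n * (cc • E - Ry) P := fun P => by
    rw [hyFdef, ord_smul_eq P (inv_ne_zero hc), hordh0]
  have hcF : algebraMap Kb (FF M) c ≠ 0 := by simpa using hc
  have hyw : hyF = φ ^ (n * cc) / w := by
    rw [hyFdef, hwdef, hw0def, Algebra.smul_def, Algebra.smul_def, map_inv₀]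
    field_simp
  have hyinv : hyF⁻¹ = w / φ ^ (n * cc) := by
    rw [hyw, inv_div]
  -- the class
  have hrep : IsRep (cc • E - Ry) (y : Pic0 Kb (FF M)) := by
    have h1 := (isRep_redDiv0 hS S.Pinf (y : Pic0 Kb (FF M))).add_divOf hS g
    have h2 : redDiv0 S.Pinf (y : Pic0 Kb (FF M)) + divOf Kb g = cc • E - Ry := by
      ext P
      rw [Finsupp.add_apply, divOf_apply hS, hordg']
      ring
    rw [h2] at h1
    exact h1
  obtain ⟨hdegX, hmk⟩ := hrep
  -- the basis of `L(n c d ∞)`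
  obtain ⟨r', ψ, Yψ, m, hψL, hψY, hψfix, -, -, -, hexp⟩ :=
    Fermat.Agent.T6.helper23.exists_ratBasis_FF M A hA (((n * cc * d : ℕ) : ℤ))
  have hwexp := hexp w hwL
  -- reductions
  obtain ⟨hφb, hφred⟩ := redOfM_of_inL' S (f := φ) (Y := Y) rfl hM.lead.inL
  have hφbne : (⟨red A Y, hφb⟩ : FFb A M) ≠ 0 := fun h0 =>
    hM.lead.red_ne_zero (congrArg Subtype.val h0)
  have hφpow := redOfM_pow hφred (n * cc)
  have hφpowne : (⟨red A Y, hφb⟩ : FFb A M) ^ (n * cc) ≠ 0 := pow_ne_zero _ hφbne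
  obtain ⟨hwb, hwred⟩ := redOfM_of_inL' S (f := w) (Y := Z) hwZ hwL
  have hwbne : (⟨red A Z, hwb⟩ : FFb A M) ≠ 0 := fun h0 => hZr (congrArg Subtype.val h0)
  -- orders of the `v'`
  have hv'ord : ∀ j, ∀ P : Place Kb (FF M), (S.rP P ∈ Tred S n ∨ S.rP P = S.Qinf) →
      0 ≤ P.ord (ψ j / φ ^ (n * cc)) := by
    intro j P hP
    rcases eq_or_ne (ψ j) 0 with h0 | h0
    · rw [h0, zero_div, Place.ord_zero]
    rw [ord_div P h0 (pow_ne_zero _ hφ0), ord_npow]
    have hψmem := ((inL_iff_mem S.hPinf _ _).mp (hψL j)).2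
    have hψord := (Fermat.Agent.P2.helper74.mem_L_iff' h0).mp hψmem P
    by_cases hPi : P = S.Pinf
    · rw [hPi] at hψord ⊢
      rw [Finsupp.single_eq_same] at hψord
      rw [hφinf]
      push_cast at hψord ⊢
      linarith
    · rw [Finsupp.single_eq_of_ne hPi] at hψord
      rw [hφT P hPi hP]
      simpa using hψord
  have hmemTn : ∀ (u : Pic0.torsion Kb (FF M) n) (P : Place Kb (FF M)),
      DpT S.Pinf n u P ≠ 0 → P ∈ Tn (inftyBar M) n := by
    rw [← hPe]
    exact fun u P h => mem_Tn_of_Dp S.Pinf n u h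
  have hPT : ∀ u, ∀ P ∈ (DpT S.Pinf n u).support, S.rP P ∈ Tred S n := fun u P hP =>
    rP_mem_Tred S n (hmemTn u P (Finsupp.mem_support_iff.mp hP))
  refine ⟨cc, Ry, hyF, hdegX, r', fun j => ψ j / φ ^ (n * cc),
    fun j => (w : LaurentSeries Kb).coeff (m j), hRy, hdegR, hmk,
    ⟨hyF0, fun P => by rw [Finsupp.smul_apply, nsmul_eq_mul, hordhy]⟩, hoff, ?_, ?_, ?_, ?_, ?_, ?_⟩
  · -- the `v'` are fixed
    intro σ j
    have h1 : galAut M σ • ψ j = ψ j := hψfix j σ
    have h2 : galAut M σ • φ = φ := by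
      apply Subtype.ext
      rw [coe_arithmeticGalois_smul]
      exact hM.lead.fix σ
    show SemilinearAut.toRingAut (galAut M σ) (ψ j / φ ^ (n * cc)) = ψ j / φ ^ (n * cc)
    rw [map_div₀, map_pow]
    show (galAut M σ • ψ j) / (galAut M σ • φ) ^ (n * cc) = _
    rw [h1, h2]
  · -- the coordinates are integral
    intro j
    show (w : LaurentSeries Kb).coeff (m j) ∈ A
    rw [← hwZ]
    simp only [incl, coeffMap_coeff]
    exact (Z.coeff (m j)).2
  · -- the expansion
    rw [hyinv]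
    conv_lhs => rw [hwexp]
    rw [Finset.sum_div]
    refine Finset.sum_congr rfl fun j _ => ?_
    rw [Algebra.smul_def, mul_div_assoc]
  · intro u P hP j
    exact hv'ord j P (Or.inl (hPT u P hP))
  · intro u P hP j
    obtain ⟨hψb, hψred⟩ := redOfM_of_inL' S (f := ψ j) (Y := Yψ j) (hψY j) (hψL j)
    refine pval_mem_of_redOf S (hψred.div hφpow hφpowne) fun P' hP' => ?_
    exact hv'ord j P' (Or.inl (hP' ▸ hPT u P hP))
  · rw [hyw]
    refine pval_mem_of_redOf S (hφpow.div hwred hwbne) fun P' hP' => ?_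
    rw [← hyw, hordhy, hX, hRyT P' (Or.inr (hP'.trans S.rP_Pinf)), sub_zero]
    exact mul_nonneg (Int.natCast_nonneg _) (mul_nonneg (Int.natCast_nonneg _) (hEnn P'))

end HY

end Fermat.Agent.T6.helper3

end
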