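/-
T6 [W1], part [P1] (helper42): ORDERS AND VALUES OF POLYNOMIALS IN A FUNCTION `g`, and the
places of the rational function field `K(g)`.

For any `(K, F)` with the Prelude `Place` API and `g : F`:

* `ord_add_eq_left`     : strict ultrametric equality;
* `isVal_aeval`         : `p(g)` has the value `p(c)` where `g` has the value `c`;
* `ord_aeval_of_pos`    : `ord_P p(g) = mult_c(p) * ord_P (g - c)` where `0 < ord_P (g - c)`;
* `ord_aeval_of_neg`    : `ord_P p(g) = deg p * ord_P g` at a pole of `g`;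
* `isVal_aeval_pole`    : value of `p(g) / g ^ deg p` at a pole of `g` = leading coefficient;

and for a field `E = K(g)` (`IsRatGen g`: every element is `p(g) / q(g)`):

* `ord_sub_eq_one`, `ord_eq_neg_one` : `g - c` resp. `1 / g` are uniformisers;
* `place_eq_of_zero`, `place_eq_of_pole` : a place of `K(g)` is determined by the value of `g`.
-/
import Mathlib
import Fermat.Agent.T6.helper26_PVal

set_option autoImplicit false

noncomputable section

open AlgebraicCurve Polynomial

namespace Fermat.Agent.T6.helper42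

open Fermat.Agent.P2.helper74 Fermat.Agent.T6.helper26

variable {K F : Type*} [Field K] [Field F] [Algebra K F]

/-! ### Orders -/

section Ord

variable (P : Place K F)

/-- strict ultrametric equality -/
theorem ord_add_eq_left {f g : F} (hf : f ≠ 0) (h : P.ord f < P.ord g) :
    P.ord (f + g) = P.ord f := by
  have hfg : f + g ≠ 0 := by
    intro h0
    have h1 : g = -f := by
      rw [eq_neg_iff_add_eq_zero, add_comm]
      exact h0
    rw [h1, ord_neg_eq] at h
    exact lt_irrefl _ h
  have h1 := ord_add_ge P hfg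
  rw [min_eq_left h.le] at h1
  have h2 : min (P.ord (f + g)) (P.ord (-g)) ≤ P.ord ((f + g) + -g) :=
    ord_add_ge P (by simpa using hf)
  rw [add_neg_cancel_right, ord_neg_eq] at h2
  rcases min_le_iff.mp h2 with h3 | h3
  · omega
  · omega

/-- a function with a nonzero value has order `0` -/
theorem ord_eq_zero_of_isVal {f : F} {a : K} (h : IsVal P f a) (ha : a ≠ 0) : P.ord f = 0 := by
  rcases h with h | h
  · rw [h]
    exact ord_const P a
  · have h0 : algebraMap K F a ≠ 0 := by
      intro h0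
      apply ha
      exact (map_eq_zero (algebraMap K F)).mp h0
    have h1 : P.ord (algebraMap K F a) < P.ord (f - algebraMap K F a) := by
      rw [ord_const]
      exact h
    have h2 := ord_add_eq_left P h0 h1
    rw [add_sub_cancel, ord_const] at h2
    exact h2

theorem ne_zero_of_isVal {f : F} {a : K} (h : IsVal P f a) (ha : a ≠ 0) : f ≠ 0 := by
  rintro rfl
  rcases h with h | h
  · apply ha
    exact (map_eq_zero (algebraMap K F)).mp h.symm
  · rw [zero_sub, ord_neg_eq, ord_const] at h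
    exact lt_irrefl _ h

theorem isVal_of_ord_sub_pos {g : F} {c : K} (h : 0 < P.ord (g - algebraMap K F c)) :
    IsVal P g c := Or.inr h

/-- `p(g)` has the value `p(c)` where `g` has the value `c` -/
theorem isVal_aeval {g : F} {c : K} (h : IsVal P g c) (p : K[X]) :
    IsVal P (aeval g p) (p.eval c) := by
  induction p using Polynomial.induction_on with
  | C a =>
    rw [aeval_C, eval_C]
    exact IsVal.const P a
  | add p q hp hq =>
    rw [map_add, eval_add]
    exact hp.add hq
  | monomial n a ih =>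
    rw [pow_succ, ← mul_assoc, map_mul, eval_mul, aeval_X, eval_X]
    exact ih.mul h


/-- `ord_P p(g) = mult_c(p) * ord_P (g - c)` where `0 < ord_P (g - c)` -/
theorem ord_aeval_of_pos {g : F} {c : K} (hc : 0 < P.ord (g - algebraMap K F c)) (p : K[X])
    (hp : p ≠ 0) :
    P.ord (aeval g p) = (p.rootMultiplicity c : ℤ) * P.ord (g - algebraMap K F c) := by
  obtain ⟨q, hq, hnd⟩ := Polynomial.exists_eq_pow_rootMultiplicity_mul_and_not_dvd p hp c
  have hqc : q.eval c ≠ 0 := fun h0 => hnd (dvd_iff_isRoot.mpr h0)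
  have hv : IsVal P (aeval g q) (q.eval c) := isVal_aeval P (Or.inr hc) q
  have hq0 : aeval g q ≠ 0 := ne_zero_of_isVal P hv hqc
  have hgc : g - algebraMap K F c ≠ 0 := by
    intro h0
    rw [h0, Place.ord_zero] at hc
    exact lt_irrefl _ hc
  have e : aeval g p = (g - algebraMap K F c) ^ p.rootMultiplicity c * aeval g q := by
    conv_lhs => rw [hq]
    rw [map_mul, map_pow, map_sub, aeval_X, aeval_C]
  rw [e, P.ord_mul (pow_ne_zero _ hgc) hq0, ord_eq_zero_of_isVal P hv hqc, add_zero,
    ← zpow_natCast, P.ord_zpow]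

/-- the value of `p(g⁻¹ ... )`: at a pole of `g` the function `p(g) / g ^ deg p` has the value
`leadingCoeff p` -/
theorem aeval_eq_pow_mul_reverse {g : F} (hg : g ≠ 0) (p : K[X]) :
    aeval g p = g ^ p.natDegree * aeval g⁻¹ p.reverse := by
  let _ : Invertible g := invertibleOfNonzero hg
  have h := Polynomial.eval₂_reverse_mul_pow (algebraMap K F) g p
  rw [invOf_eq_inv] at h
  rw [aeval_def, aeval_def, ← h, mul_comm]

theorem isVal_inv_of_neg {g : F} (hg : P.ord g < 0) : IsVal P g⁻¹ 0 := by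
  refine Or.inr ?_
  rw [map_zero, sub_zero, Place.ord_inv]
  omega

theorem isVal_aeval_reverse {g : F} (hg : P.ord g < 0) (p : K[X]) :
    IsVal P (aeval g⁻¹ p.reverse) p.leadingCoeff := by
  have h := isVal_aeval P (isVal_inv_of_neg P hg) p.reverse
  rwa [← coeff_zero_eq_eval_zero, coeff_zero_reverse] at h

/-- `ord_P p(g) = deg p * ord_P g` at a pole of `g` -/
theorem ord_aeval_of_neg {g : F} (hg : P.ord g < 0) (p : K[X]) (hp : p ≠ 0) :
    P.ord (aeval g p) = (p.natDegree : ℤ) * P.ord g := by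
  have hg0 : g ≠ 0 := by
    rintro rfl
    rw [Place.ord_zero] at hg
    exact lt_irrefl _ hg
  have hl : p.leadingCoeff ≠ 0 := leadingCoeff_ne_zero.mpr hp
  have hv := isVal_aeval_reverse P hg p
  rw [aeval_eq_pow_mul_reverse hg0, P.ord_mul (pow_ne_zero _ hg0) (ne_zero_of_isVal P hv hl),
    ord_eq_zero_of_isVal P hv hl, add_zero, ← zpow_natCast, P.ord_zpow]

theorem aeval_ne_zero_of_pos {g : F} {c : K} (hc : 0 < P.ord (g - algebraMap K F c)) (p : K[X])
    (hp : p ≠ 0) : aeval g p ≠ 0 := by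
  obtain ⟨q, hq, hnd⟩ := Polynomial.exists_eq_pow_rootMultiplicity_mul_and_not_dvd p hp c
  have hqc : q.eval c ≠ 0 := fun h0 => hnd (dvd_iff_isRoot.mpr h0)
  have hv : IsVal P (aeval g q) (q.eval c) := isVal_aeval P (Or.inr hc) q
  have hq0 : aeval g q ≠ 0 := ne_zero_of_isVal P hv hqc
  have hgc : g - algebraMap K F c ≠ 0 := by
    intro h0
    rw [h0, Place.ord_zero] at hc
    exact lt_irrefl _ hc
  have e : aeval g p = (g - algebraMap K F c) ^ p.rootMultiplicity c * aeval g q := by
    conv_lhs => rw [hq]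
    rw [map_mul, map_pow, map_sub, aeval_X, aeval_C]
  rw [e]
  exact mul_ne_zero (pow_ne_zero _ hgc) hq0

end Ord

/-! ### The rational function field `K(g)` -/

section RatGen

variable {E : Type*} [Field E] [Algebra K E]

/-- `E = K(g)`: every element is a quotient of polynomials in `g` -/
def IsRatGen (K : Type*) {E : Type*} [Field K] [Field E] [Algebra K E] (g : E) : Prop :=
  ∀ h : E, ∃ p q : K[X], aeval g q ≠ 0 ∧ h = aeval g p / aeval g q

theorem isRatGen_gen (g : F) : IsRatGen K (IntermediateField.AdjoinSimple.gen K g) := by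
  intro h
  obtain ⟨r, s, hrs⟩ := (IntermediateField.mem_adjoin_simple_iff K (h : F)).mp h.2
  have hco : ∀ p : K[X], ((aeval (IntermediateField.AdjoinSimple.gen K g) p :
      IntermediateField.adjoin K {g}) : F) = aeval g p := by
    intro p
    have := Polynomial.aeval_algebraMap_apply F (IntermediateField.AdjoinSimple.gen K g) p
    rw [IntermediateField.AdjoinSimple.algebraMap_gen] at this
    exact this.symm
  by_cases hs : aeval g s = 0
  · refine ⟨0, 1, by simp, ?_⟩
    apply Subtype.ext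
    rw [hrs, hs, div_zero]
    simp
  · refine ⟨r, s, ?_, ?_⟩
    · intro h0
      apply hs
      rw [← hco, h0]
      rfl
    · apply Subtype.ext
      rw [hrs]
      push_cast
      rw [hco, hco]

variable {g : E}

theorem ord_eq_of_ratGen_pos (v : Place K E) {c : K} (hc : 0 < v.ord (g - algebraMap K E c))
    {p q : K[X]} (hp : p ≠ 0) (hq : q ≠ 0) :
    v.ord (aeval g p / aeval g q) =
      ((p.rootMultiplicity c : ℤ) - q.rootMultiplicity c) * v.ord (g - algebraMap K E c) := by
  rw [div_eq_mul_inv, v.ord_mul (aeval_ne_zero_of_pos v hc p hp)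
    (inv_ne_zero (aeval_ne_zero_of_pos v hc q hq)), Place.ord_inv, ord_aeval_of_pos v hc p hp,
    ord_aeval_of_pos v hc q hq]
  ring

theorem aeval_ne_zero_of_neg (v : Place K E) (hg : v.ord g < 0) (p : K[X]) (hp : p ≠ 0) :
    aeval g p ≠ 0 := by
  have hg0 : g ≠ 0 := by
    rintro rfl
    rw [Place.ord_zero] at hg
    exact lt_irrefl _ hg
  rw [aeval_eq_pow_mul_reverse hg0]
  exact mul_ne_zero (pow_ne_zero _ hg0)
    (ne_zero_of_isVal v (isVal_aeval_reverse v hg p) (leadingCoeff_ne_zero.mpr hp))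

theorem ord_eq_of_ratGen_neg (v : Place K E) (hg : v.ord g < 0)
    {p q : K[X]} (hp : p ≠ 0) (hq : q ≠ 0) :
    v.ord (aeval g p / aeval g q) = ((p.natDegree : ℤ) - q.natDegree) * v.ord g := by
  rw [div_eq_mul_inv, v.ord_mul (aeval_ne_zero_of_neg v hg p hp)
    (inv_ne_zero (aeval_ne_zero_of_neg v hg q hq)), Place.ord_inv, ord_aeval_of_neg v hg p hp,
    ord_aeval_of_neg v hg q hq]
  ring

theorem exists_ord_eq_one (v : Place K E) : ∃ π : E, π ≠ 0 ∧ v.ord π = 1 := by
  obtain ⟨π, hπ⟩ := IsDiscreteValuationRing.exists_irreducible v.toValuationSubring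
  refine ⟨(π : E), ?_, v.ord_coe_irreducible hπ⟩
  intro h0
  apply hπ.ne_zero
  exact Subtype.ext h0

theorem ne_zero_of_aeval_div_ne_zero {p q : K[X]} (h : aeval g p / aeval g q ≠ 0) :
    p ≠ 0 ∧ q ≠ 0 := by
  constructor
  · rintro rfl
    simp at h
  · rintro rfl
    simp at h

/-- `g - c` is a uniformiser at the place `g = c` of `K(g)` -/
theorem ord_sub_eq_one (hgen : IsRatGen K g) (v : Place K E) {c : K}
    (hc : 0 < v.ord (g - algebraMap K E c)) : v.ord (g - algebraMap K E c) = 1 := by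
  obtain ⟨π, hπ0, hπ⟩ := exists_ord_eq_one v
  obtain ⟨p, q, -, e⟩ := hgen π
  rw [e] at hπ0 hπ
  obtain ⟨hp, hq⟩ := ne_zero_of_aeval_div_ne_zero hπ0
  rw [ord_eq_of_ratGen_pos v hc hp hq] at hπ
  exact Int.eq_one_of_mul_eq_one_left hc.le hπ

/-- `1 / g` is a uniformiser at the pole of `g` in `K(g)` -/
theorem ord_eq_neg_one (hgen : IsRatGen K g) (v : Place K E) (hg : v.ord g < 0) :
    v.ord g = -1 := by
  obtain ⟨π, hπ0, hπ⟩ := exists_ord_eq_one v
  obtain ⟨p, q, -, e⟩ := hgen π
  rw [e] at hπ0 hπ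
  obtain ⟨hp, hq⟩ := ne_zero_of_aeval_div_ne_zero hπ0
  rw [ord_eq_of_ratGen_neg v hg hp hq] at hπ
  rcases Int.eq_one_or_neg_one_of_mul_eq_one hπ with h1 | h1
  · rw [h1, one_mul] at hπ
    omega
  · rw [h1] at hπ
    omega

theorem place_ext_ord {v w : Place K E} (h : ∀ f : E, v.ord f = w.ord f) : v = w := by
  apply Place.ext
  ext f
  rw [Fermat.Agent.S24.helper82.mem_iff_ord_nonneg, Fermat.Agent.S24.helper82.mem_iff_ord_nonneg,
    h f]

/-- a place of `K(g)` is determined by the value of `g` -/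
theorem place_eq_of_zero (hgen : IsRatGen K g) {v w : Place K E} {c : K}
    (hv : 0 < v.ord (g - algebraMap K E c)) (hw : 0 < w.ord (g - algebraMap K E c)) :
    v = w := by
  apply place_ext_ord
  intro f
  rcases eq_or_ne f 0 with rfl | hf
  · simp
  obtain ⟨p, q, -, e⟩ := hgen f
  rw [e] at hf ⊢
  obtain ⟨hp, hq⟩ := ne_zero_of_aeval_div_ne_zero hf
  rw [ord_eq_of_ratGen_pos v hv hp hq, ord_eq_of_ratGen_pos w hw hp hq,
    ord_sub_eq_one hgen v hv, ord_sub_eq_one hgen w hw]

/-- the pole of `g` in `K(g)` is unique -/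
theorem place_eq_of_pole (hgen : IsRatGen K g) {v w : Place K E}
    (hv : v.ord g < 0) (hw : w.ord g < 0) : v = w := by
  apply place_ext_ord
  intro f
  rcases eq_or_ne f 0 with rfl | hf
  · simp
  obtain ⟨p, q, -, e⟩ := hgen f
  rw [e] at hf ⊢
  obtain ⟨hp, hq⟩ := ne_zero_of_aeval_div_ne_zero hf
  rw [ord_eq_of_ratGen_neg v hv hp hq, ord_eq_of_ratGen_neg w hw hp hq,
    ord_eq_neg_one hgen v hv, ord_eq_neg_one hgen w hw]

end RatGen

/-! ### The polynomial identity -/

section Poly

theorem eval_zero_eq_prod [IsAlgClosed K] [DecidableEq K] (p : K[X]) (T : Finset K)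
    (hT : p.roots.toFinset ⊆ T) :
    p.eval 0 = (-1) ^ p.natDegree * p.leadingCoeff * ∏ c ∈ T, c ^ p.rootMultiplicity c := by
  rw [← coeff_zero_eq_eval_zero, (IsAlgClosed.splits p).coeff_zero_eq_leadingCoeff_mul_prod_roots,
    Finset.prod_multiset_count_of_subset p.roots T hT]
  congr 1
  refine Finset.prod_congr rfl fun c _ => ?_
  rw [count_roots]

theorem not_mem_roots_zero {p : K[X]} (hp0 : p.eval 0 ≠ 0) : (0 : K) ∉ p.roots := by
  intro h
  exact hp0 (isRoot_of_mem_roots h)

/-- **the polynomial identity behind Weil reciprocity on `ℙ¹`** -/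
theorem poly_identity [IsAlgClosed K] {p q : K[X]} (hp0 : p.eval 0 ≠ 0) (hq0 : q.eval 0 ≠ 0)
    (hdeg : p.natDegree = q.natDegree) (C : Finset K) (hC0 : (0 : K) ∉ C)
    (hC : ∀ c : K, c ≠ 0 → p.rootMultiplicity c ≠ q.rootMultiplicity c → c ∈ C) :
    (p.eval 0 / q.eval 0) / (p.leadingCoeff / q.leadingCoeff) =
      ∏ c ∈ C, c ^ ((p.rootMultiplicity c : ℤ) - q.rootMultiplicity c) := by
  classical
  have hp : p ≠ 0 := by
    rintro rfl
    simp at hp0
  have hq : q ≠ 0 := by
    rintro rfl
    simp at hq0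
  set T : Finset K := C ∪ p.roots.toFinset ∪ q.roots.toFinset with hT
  have hT0 : ∀ c ∈ T, c ≠ 0 := by
    intro c hc h0
    rw [hT, Finset.mem_union, Finset.mem_union, Multiset.mem_toFinset, Multiset.mem_toFinset,
      h0] at hc
    rcases hc with (hc | hc) | hc
    · exact hC0 hc
    · exact not_mem_roots_zero hp0 hc
    · exact not_mem_roots_zero hq0 hc
  have h1 := eval_zero_eq_prod p T (by
    intro c hc
    rw [hT]
    exact Finset.mem_union_left _ (Finset.mem_union_right _ hc))
  have h2 := eval_zero_eq_prod q T (by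
    intro c hc
    rw [hT]
    exact Finset.mem_union_right _ hc)
  have hlp : p.leadingCoeff ≠ 0 := leadingCoeff_ne_zero.mpr hp
  have hlq : q.leadingCoeff ≠ 0 := leadingCoeff_ne_zero.mpr hq
  have hRq : ∏ c ∈ T, c ^ q.rootMultiplicity c ≠ 0 :=
    Finset.prod_ne_zero_iff.mpr fun c hc => pow_ne_zero _ (hT0 c hc)
  have hsign : ((-1 : K)) ^ q.natDegree ≠ 0 := pow_ne_zero _ (by norm_num)
  have e1 : (p.eval 0 / q.eval 0) / (p.leadingCoeff / q.leadingCoeff) =
      (∏ c ∈ T, c ^ p.rootMultiplicity c) / ∏ c ∈ T, c ^ q.rootMultiplicity c := by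
    rw [h1, h2, hdeg]
    field_simp
  rw [e1, ← Finset.prod_div_distrib]
  have e2 : ∏ c ∈ T, c ^ p.rootMultiplicity c / c ^ q.rootMultiplicity c =
      ∏ c ∈ T, c ^ ((p.rootMultiplicity c : ℤ) - q.rootMultiplicity c) := by
    refine Finset.prod_congr rfl fun c hc => ?_
    rw [zpow_sub₀ (hT0 c hc), zpow_natCast, zpow_natCast]
  rw [e2]
  symm
  refine Finset.prod_subset ?_ ?_
  · intro c hc
    rw [hT]
    exact Finset.mem_union_left _ (Finset.mem_union_left _ hc)
  · intro c hc hcC
    have : p.rootMultiplicity c = q.rootMultiplicity c := by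
      by_contra hne
      exact hcC (hC c (hT0 c hc) hne)
    rw [this, sub_self, zpow_zero]

end Poly

end Fermat.Agent.T6.helper42

end
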