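import Mathlib

/-!
# T6 [W1] (helper58): norm on `S ⧸ I` over a coefficient field = product of values

`S` a Dedekind domain which is an algebra over a field `K`, such that `K → S ⧸ Q` is surjective
for the primes `Q` dividing the nonzero ideal `I`.  Then `S ⧸ I` is finite over `K` and for every
`x : S` the norm (determinant of multiplication by `x`) of `x mod I` is the product, over the prime
factors `Q` of `I` with multiplicity, of the value `x(Q) ∈ K` of `x` at `Q`.
-/

set_option autoImplicit false
set_option linter.style.haveILetI false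

namespace Fermat.Agent.T6.helper58

open Ideal UniqueFactorizationMonoid

section LinAlg

variable {K V U : Type*} [Field K] [AddCommGroup V] [Module K V] [AddCommGroup U] [Module K U]

/-- determinant in a short exact sequence, the endomorphism acting as a scalar on the kernel -/
theorem det_eq_pow_mul_det_of_surjective [FiniteDimensional K V]
    (π : V →ₗ[K] U) (hπ : Function.Surjective π) (e : V →ₗ[K] V) (eU : U →ₗ[K] U)
    (hcomm : ∀ v, π (e v) = eU (π v)) (c : K) (hc : ∀ w ∈ LinearMap.ker π, e w = c • w) :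
    LinearMap.det e = c ^ Module.finrank K (LinearMap.ker π) * LinearMap.det eU := by
  have he : LinearMap.ker π ≤ (LinearMap.ker π).comap e := fun w hw => by
    rw [Submodule.mem_comap, LinearMap.mem_ker, hcomm, LinearMap.mem_ker.mp hw, map_zero]
  rw [LinearMap.det_eq_det_mul_det (LinearMap.ker π) e he]
  congr 1
  · have h1 : e.restrict (p := LinearMap.ker π) (q := LinearMap.ker π) he
        = c • LinearMap.id := by
      ext w
      simp [hc w w.2]
    rw [h1, LinearMap.det_smul, LinearMap.det_id, mul_one]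
  · have h2 : (LinearMap.ker π).mapQ (LinearMap.ker π) e he =
        ((LinearMap.quotKerEquivOfSurjective π hπ).symm : U →ₗ[K] _) ∘ₗ eU ∘ₗ
          ((LinearMap.quotKerEquivOfSurjective π hπ) : _ →ₗ[K] U) := by
      apply LinearMap.ext
      intro w
      obtain ⟨v, rfl⟩ := Submodule.Quotient.mk_surjective _ w
      apply (LinearMap.quotKerEquivOfSurjective π hπ).injective
      simp [hcomm]
    rw [h2]
    exact LinearMap.det_conj eU (LinearMap.quotKerEquivOfSurjective π hπ).symm

theorem finite_of_surjective_of_finite_ker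
    (π : V →ₗ[K] U) (hπ : Function.Surjective π) [FiniteDimensional K U]
    [FiniteDimensional K (LinearMap.ker π)] : FiniteDimensional K V := by
  have : Module.Finite K (V ⧸ LinearMap.ker π) :=
    Module.Finite.equiv (LinearMap.quotKerEquivOfSurjective π hπ).symm
  exact Module.Finite.of_submodule_quotient (LinearMap.ker π)

end LinAlg

section Dedekind

variable {K S : Type*} [Field K] [CommRing S] [IsDedekindDomain S] [Algebra K S]

/-- no ideal strictly between `Q * J` and `J` -/
theorem span_sup_mul_eq {Q J : Ideal S} (hQ : Prime Q) (hJ : J ≠ ⊥) {a : S} (haJ : a ∈ J)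
    (haQJ : a ∉ Q * J) : Ideal.span {a} ⊔ Q * J = J := by
  set M := Ideal.span {a} ⊔ Q * J with hM
  have hMJ : M ≤ J := sup_le ((Ideal.span_singleton_le_iff_mem _).mpr haJ) Ideal.mul_le_right
  have hQJM : Q * J ≤ M := le_sup_right
  obtain ⟨M', hM'⟩ := Ideal.dvd_iff_le.mpr hMJ
  have hdvd : M ∣ Q * J := Ideal.dvd_iff_le.mpr hQJM
  rw [hM', mul_comm Q J] at hdvd
  have hM'Q : M' ∣ Q := (mul_dvd_mul_iff_left hJ).mp hdvd
  rcases (hQ.irreducible.dvd_iff.mp hM'Q) with h | h
  · rw [hM', Ideal.isUnit_iff.mp h, Ideal.mul_top]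
  · exfalso
    apply haQJ
    have h3 : M = Q * J := by
      rw [hM', mul_comm Q J]
      exact (associated_iff_eq.mp (h.mul_left J)).symm
    rw [← h3]
    exact Ideal.mem_sup_left (Ideal.mem_span_singleton_self a)

/-- the kernel of `S ⧸ Q * J → S ⧸ J` is a line over `K` when `K → S ⧸ Q` is surjective -/
theorem ker_factor_props {Q J : Ideal S} (hQ : Prime Q) (hJ : J ≠ ⊥)
    (hres : ∀ y : S, ∃ c : K, y - algebraMap K S c ∈ Q) :
    Module.finrank K (LinearMap.ker
      (Ideal.Quotient.factorₐ K (Ideal.mul_le_right (I := Q) (J := J))).toLinearMap) = 1 ∧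
    ∀ (x : S) (c : K), x - algebraMap K S c ∈ Q →
      ∀ w ∈ LinearMap.ker
        (Ideal.Quotient.factorₐ K (Ideal.mul_le_right (I := Q) (J := J))).toLinearMap,
        Algebra.lmul K (S ⧸ Q * J) (Ideal.Quotient.mk (Q * J) x) w = c • w := by
  have hQne : Q ≠ ⊤ := fun h => hQ.not_isUnit (Ideal.isUnit_iff.mpr h)
  have hker : ∀ w : S ⧸ Q * J, w ∈ LinearMap.ker
      (Ideal.Quotient.factorₐ K (Ideal.mul_le_right (I := Q) (J := J))).toLinearMap ↔
      ∃ y ∈ J, Ideal.Quotient.mk (Q * J) y = w := by
    intro w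
    obtain ⟨y, rfl⟩ := Ideal.Quotient.mk_surjective w
    rw [LinearMap.mem_ker]
    constructor
    · intro h
      refine ⟨y, ?_, rfl⟩
      exact Ideal.Quotient.eq_zero_iff_mem.mp h
    · rintro ⟨y', hy', h⟩
      have h1 : y - y' ∈ Q * J := Ideal.Quotient.eq.mp h.symm
      have h2 : y ∈ J := by
        have := J.add_mem (Ideal.mul_le_right h1) hy'
        simpa using this
      exact Ideal.Quotient.eq_zero_iff_mem.mpr h2
  have hscal : ∀ (x : S) (c : K), x - algebraMap K S c ∈ Q → ∀ y ∈ J,
      Ideal.Quotient.mk (Q * J) (x * y) = c • Ideal.Quotient.mk (Q * J) y := by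
    intro x c hx y hy
    rw [Algebra.smul_def]
    change _ = Ideal.Quotient.mk (Q * J) (algebraMap K S c) * _
    rw [← map_mul, Ideal.Quotient.eq, ← sub_mul]
    exact Ideal.mul_mem_mul hx hy
  refine ⟨?_, ?_⟩
  · -- dimension one
    have hne : Q * J ≠ J := by
      intro h
      have h1 : Q * J = ⊤ * J := by rw [h, Ideal.top_mul]
      exact hQne (mul_right_cancel₀ hJ h1)
    have hlt : ¬ J ≤ Q * J := fun h => hne (le_antisymm Ideal.mul_le_right h)
    obtain ⟨a, haJ, haQJ⟩ := Set.not_subset.mp hlt
    have hspan := span_sup_mul_eq hQ hJ haJ haQJ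
    rw [finrank_eq_one_iff']
    refine ⟨⟨Ideal.Quotient.mk (Q * J) a, (hker _).mpr ⟨a, haJ, rfl⟩⟩, ?_, ?_⟩
    · intro h
      apply haQJ
      have := congrArg Subtype.val h
      exact Ideal.Quotient.eq_zero_iff_mem.mp this
    · rintro ⟨w, hw⟩
      obtain ⟨y, hy, rfl⟩ := (hker w).mp hw
      rw [← hspan] at hy
      obtain ⟨s, hs, t, ht, rfl⟩ := Submodule.mem_sup.mp hy
      obtain ⟨r, rfl⟩ := Ideal.mem_span_singleton'.mp hs
      obtain ⟨c, hc⟩ := hres r
      refine ⟨c, Subtype.ext ?_⟩
      change c • Ideal.Quotient.mk (Q * J) a = Ideal.Quotient.mk (Q * J) (r * a + t)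
      rw [← hscal r c hc a haJ, Ideal.Quotient.eq]
      have : r * a - (r * a + t) = -t := by ring
      rw [this]
      exact (Q * J).neg_mem ht
  · intro x c hx w hw
    obtain ⟨y, hy, rfl⟩ := (hker w).mp hw
    change Ideal.Quotient.mk (Q * J) x * Ideal.Quotient.mk (Q * J) y = _
    rw [← map_mul]
    exact hscal x c hx y hy

/-- **Norm on `S ⧸ I`**: finite over `K`, and the norm of `x mod I` is the product of the values
of `x` at the prime factors of `I` (with multiplicity). -/
theorem finite_and_norm_quotient (I : Ideal S) (hI : I ≠ ⊥)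
    (hres : ∀ Q ∈ normalizedFactors I, ∀ y : S, ∃ c : K, y - algebraMap K S c ∈ Q) :
    Module.Finite K (S ⧸ I) ∧
    ∀ (x : S) (φ : Ideal S → K), (∀ Q ∈ normalizedFactors I, x - algebraMap K S (φ Q) ∈ Q) →
      Algebra.norm K (Ideal.Quotient.mk I x) = ((normalizedFactors I).map φ).prod := by
  induction I using UniqueFactorizationMonoid.induction_on_prime with
  | h₁ => exact absurd rfl hI
  | h₂ I hu =>
    have htop : I = ⊤ := Ideal.isUnit_iff.mp hu
    subst htop
    have : Subsingleton (S ⧸ (⊤ : Ideal S)) := Ideal.Quotient.subsingleton_iff.mpr rfl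
    refine ⟨inferInstance, fun x φ _ => ?_⟩
    rw [Algebra.norm_apply, LinearMap.det_eq_one_of_subsingleton]
    have : normalizedFactors (⊤ : Ideal S) = 0 := normalizedFactors_of_isUnit hu
    rw [this, Multiset.map_zero, Multiset.prod_zero]
  | h₃ J Q hJ hQ ih =>
    have hQ0 : Q ≠ ⊥ := hQ.ne_zero
    have hfac : normalizedFactors (Q * J) = Q ::ₘ normalizedFactors J := by
      rw [normalizedFactors_mul hQ0 hJ, normalizedFactors_irreducible hQ.irreducible,
        normalize_eq, Multiset.singleton_add]
    rw [hfac] at hres ⊢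
    have hresQ := hres Q (Multiset.mem_cons_self _ _)
    obtain ⟨hfin, hnorm⟩ := ih hJ (fun Q' hQ' => hres Q' (Multiset.mem_cons_of_mem hQ'))
    obtain ⟨hrk, hsc⟩ := ker_factor_props (K := K) hQ hJ hresQ
    set π := (Ideal.Quotient.factorₐ K (Ideal.mul_le_right (I := Q) (J := J))).toLinearMap
      with hπdef
    have hπ : Function.Surjective π :=
      Ideal.Quotient.factor_surjective (Ideal.mul_le_right (I := Q) (J := J))
    haveI : FiniteDimensional K (LinearMap.ker π) :=
      Module.finite_of_finrank_pos (by rw [hrk]; exact one_pos)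
    haveI : FiniteDimensional K (S ⧸ Q * J) := finite_of_surjective_of_finite_ker π hπ
    refine ⟨inferInstance, fun x φ hφ => ?_⟩
    rw [Multiset.map_cons, Multiset.prod_cons, ← hnorm x φ
      (fun Q' hQ' => hφ Q' (Multiset.mem_cons_of_mem hQ')), Algebra.norm_apply, Algebra.norm_apply]
    have := det_eq_pow_mul_det_of_surjective π hπ
      (Algebra.lmul K (S ⧸ Q * J) (Ideal.Quotient.mk (Q * J) x))
      (Algebra.lmul K (S ⧸ J) (Ideal.Quotient.mk J x)) (fun v => ?_) (φ Q)
      (hsc x (φ Q) (hφ Q (Multiset.mem_cons_self _ _)))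
    · rw [this, hrk, pow_one]
    · obtain ⟨y, rfl⟩ := Ideal.Quotient.mk_surjective v
      rfl

end Dedekind

section Local

open IsLocalRing

variable {R S : Type*} [CommRing R] [CommRing S] [Algebra R S] [IsLocalRing R]
  [Module.Free R S] [Module.Finite R S]

attribute [local instance] Ideal.Quotient.field

/-- the norm commutes with reduction modulo the maximal ideal of a local ring -/
theorem norm_quotient_mk_local (x : S) :
    Algebra.norm (R ⧸ maximalIdeal R)
      (Ideal.Quotient.mk ((maximalIdeal R).map (algebraMap R S)) x) =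
      Ideal.Quotient.mk (maximalIdeal R) (Algebra.norm R x) := by
  classical
  let ι := Module.Free.ChooseBasisIndex R S
  let b : Module.Basis ι R S := Module.Free.chooseBasis R S
  rw [Algebra.norm_eq_matrix_det b, Algebra.norm_eq_matrix_det (basisQuotient b),
    RingHom.map_det]
  congr 1
  ext i j
  simp only [Algebra.leftMulMatrix_apply, Algebra.coe_lmul_eq_mul, LinearMap.toMatrix_apply,
    basisQuotient_apply, LinearMap.mul_apply', RingHom.mapMatrix_apply, Matrix.map_apply,
    ← map_mul, basisQuotient_repr]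

variable {K : Type*} [Field K] [Algebra K R] [Algebra K S] [IsScalarTower K R S]
  [IsDedekindDomain S]

/-- **Value of a norm**, algebraic form: if `K → R ⧸ m` and `K → S ⧸ Q` (`Q ∣ m S`) are
surjective, then `N_{S/R}(x) ≡ ∏_Q x(Q)^{e_Q}` modulo `m`. -/
theorem norm_sub_prod_mem_maximalIdeal
    (hm : (maximalIdeal R).map (algebraMap R S) ≠ ⊥)
    (hR : ∀ r : R, ∃ c : K, r - algebraMap K R c ∈ maximalIdeal R)
    (hres : ∀ Q ∈ normalizedFactors ((maximalIdeal R).map (algebraMap R S)),
      ∀ y : S, ∃ c : K, y - algebraMap K S c ∈ Q)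
    (x : S) (φ : Ideal S → K)
    (hφ : ∀ Q ∈ normalizedFactors ((maximalIdeal R).map (algebraMap R S)),
      x - algebraMap K S (φ Q) ∈ Q) :
    Algebra.norm R x - algebraMap K R
      ((normalizedFactors ((maximalIdeal R).map (algebraMap R S))).map φ).prod
        ∈ maximalIdeal R := by
  obtain ⟨hfin, hnorm⟩ := finite_and_norm_quotient (K := K) _ hm hres
  have h1 := hnorm x φ hφ
  obtain ⟨c, hc⟩ := hR (Algebra.norm R x)
  have hbij : Function.Bijective (algebraMap K (R ⧸ maximalIdeal R)) := by
    refine ⟨(algebraMap K (R ⧸ maximalIdeal R)).injective, fun y => ?_⟩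
    obtain ⟨r, rfl⟩ := Ideal.Quotient.mk_surjective y
    obtain ⟨c, hc⟩ := hR r
    exact ⟨c, (Ideal.Quotient.eq.mpr hc).symm⟩
  have hrk : Module.finrank K (R ⧸ maximalIdeal R) = 1 := by
    rw [← (LinearEquiv.ofBijective (Algebra.linearMap K (R ⧸ maximalIdeal R)) hbij).finrank_eq,
      Module.finrank_self]
  haveI : IsScalarTower K (R ⧸ maximalIdeal R) (S ⧸ (maximalIdeal R).map (algebraMap R S)) :=
    IsScalarTower.of_algebraMap_eq fun a => by
      change Ideal.Quotient.mk _ (algebraMap K S a) =
        algebraMap (R ⧸ maximalIdeal R) _ (Ideal.Quotient.mk _ (algebraMap K R a))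
      rw [Ideal.Quotient.algebraMap_quotient_map_quotient, IsScalarTower.algebraMap_apply K R S]
  have h2 : Algebra.norm K (Ideal.Quotient.mk ((maximalIdeal R).map (algebraMap R S)) x) = c := by
    rw [← Algebra.norm_norm (S := R ⧸ maximalIdeal R), norm_quotient_mk_local]
    have : Ideal.Quotient.mk (maximalIdeal R) (Algebra.norm R x) =
        algebraMap K (R ⧸ maximalIdeal R) c := Ideal.Quotient.eq.mpr hc
    rw [this, Algebra.norm_algebraMap, hrk, pow_one]
  rw [← h1, h2]
  exact hc

end Local

end Fermat.Agent.T6.helper58
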