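import Mathlib
import Fermat.Prelude.Def_AlgebraicCurve_Correspondence
import Fermat.Agent.S24.helper75_FFCore

/-!
# T6 [W1] (helper58): the value of a function at a place, relational form

`IsVal w f c` : the function `f` is regular at the place `w` and takes the value `c ∈ K` there
(`f - c` lies in the maximal ideal of the valuation ring of `w`).
-/

set_option autoImplicit false
set_option linter.unusedSectionVars false

open AlgebraicCurve

namespace Fermat.Agent.T6.helper58

open Fermat.Agent.S24.helper75

variable {K F : Type*} [Field K] [Field F] [Algebra K F]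

/-- `c` is the value of `f` at the place `w` -/
def IsVal (w : Place K F) (f : F) (c : K) : Prop :=
  f = algebraMap K F c ∨ 0 < w.ord (f - algebraMap K F c)

theorem isVal_iff_mem (w : Place K F) (f : F) (c : K) :
    IsVal w f c ↔ ∃ a ∈ IsLocalRing.maximalIdeal w.toValuationSubring,
      (a : F) = f - algebraMap K F c := by
  constructor
  · rintro (h | h)
    · exact ⟨0, zero_mem _, by rw [h, sub_self]; rfl⟩
    · have hmem : f - algebraMap K F c ∈ w.toValuationSubring :=
        place_mem_of_ord_nonneg w h.le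
      exact ⟨⟨_, hmem⟩, (place_mem_maximalIdeal_iff w _).mpr (Or.inr h), rfl⟩
  · rintro ⟨a, ha, hfa⟩
    rcases (place_mem_maximalIdeal_iff w a).mp ha with h | h
    · left
      rw [h] at hfa
      exact (sub_eq_zero.mp hfa.symm)
    · right
      rwa [← hfa]

theorem IsVal.mem {w : Place K F} {f : F} {c : K} (h : IsVal w f c) :
    f ∈ w.toValuationSubring := by
  obtain ⟨a, -, ha⟩ := (isVal_iff_mem w f c).mp h
  have : f = (a : F) + algebraMap K F c := by rw [ha]; ring
  rw [this]
  exact w.toValuationSubring.add_mem _ _ a.2 (w.algebraMap_mem' c)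

theorem IsVal.ord_nonneg {w : Place K F} {f : F} {c : K} (h : IsVal w f c) : 0 ≤ w.ord f :=
  place_ord_nonneg_of_mem w h.mem

theorem isVal_algebraMap (w : Place K F) (c : K) : IsVal w (algebraMap K F c) c := Or.inl rfl

theorem isVal_one (w : Place K F) : IsVal w (1 : F) (1 : K) := Or.inl (map_one _).symm

theorem isVal_zero_iff (w : Place K F) (f : F) : IsVal w f 0 ↔ f = 0 ∨ 0 < w.ord f := by
  unfold IsVal
  rw [map_zero, sub_zero]

/-- the maximal ideal of a place as a set of functions -/
theorem mem_max_add {w : Place K F} {a b : F} (ha : a = 0 ∨ 0 < w.ord a)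
    (hb : b = 0 ∨ 0 < w.ord b) : a + b = 0 ∨ 0 < w.ord (a + b) := by
  rcases ha with rfl | ha
  · simpa using hb
  rcases hb with rfl | hb
  · simpa using Or.inr ha
  by_cases h : a + b = 0
  · exact Or.inl h
  · right
    have := place_ord_add_ge w h
    omega

theorem mem_max_mul {w : Place K F} {a b : F} (ha : a = 0 ∨ 0 < w.ord a)
    (hb : 0 ≤ w.ord b) : a * b = 0 ∨ 0 < w.ord (a * b) := by
  rcases ha with rfl | ha
  · simp
  rcases eq_or_ne b 0 with rfl | hb0
  · simp
  have ha0 : a ≠ 0 := by
    rintro rfl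
    simp at ha
  right
  rw [w.ord_mul ha0 hb0]
  omega

theorem isVal_iff' (w : Place K F) (f : F) (c : K) :
    IsVal w f c ↔ (f - algebraMap K F c = 0 ∨ 0 < w.ord (f - algebraMap K F c)) := by
  unfold IsVal
  rw [sub_eq_zero]

theorem IsVal.add {w : Place K F} {f g : F} {c d : K} (hf : IsVal w f c) (hg : IsVal w g d) :
    IsVal w (f + g) (c + d) := by
  rw [isVal_iff'] at hf hg ⊢
  have := mem_max_add hf hg
  rw [map_add]
  convert this using 2 <;> ring_nf

theorem IsVal.neg {w : Place K F} {f : F} {c : K} (hf : IsVal w f c) : IsVal w (-f) (-c) := by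
  rw [isVal_iff'] at hf ⊢
  have := mem_max_mul hf (b := -1) (by
    have : w.ord (-1 : F) = 0 := by
      have h := place_ord_algebraMap w (-1 : K)
      simpa using h
    omega)
  rw [map_neg]
  convert this using 2 <;> ring_nf

theorem IsVal.sub {w : Place K F} {f g : F} {c d : K} (hf : IsVal w f c) (hg : IsVal w g d) :
    IsVal w (f - g) (c - d) := by
  rw [sub_eq_add_neg, sub_eq_add_neg]
  exact hf.add hg.neg

theorem IsVal.mul {w : Place K F} {f g : F} {c d : K} (hf : IsVal w f c) (hg : IsVal w g d) :
    IsVal w (f * g) (c * d) := by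
  have hg0 := hg.ord_nonneg
  rw [isVal_iff'] at hf hg ⊢
  have h1 := mem_max_mul hf hg0
  have h2 := mem_max_mul hg (place_ord_algebraMap w c).ge
  have := mem_max_add h1 h2
  rw [map_mul]
  convert this using 2 <;> ring_nf

theorem IsVal.pow {w : Place K F} {f : F} {c : K} (hf : IsVal w f c) (n : ℕ) :
    IsVal w (f ^ n) (c ^ n) := by
  induction n with
  | zero => simpa using isVal_one w
  | succ n ih => rw [pow_succ, pow_succ]; exact ih.mul hf

theorem IsVal.unique {w : Place K F} {f : F} {c d : K} (hc : IsVal w f c) (hd : IsVal w f d) :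
    c = d := by
  have h := hd.sub hc
  rw [sub_self, isVal_iff', zero_sub, ← map_neg] at h
  rcases h with h | h
  · have h2 : -(d - c) = 0 := (algebraMap K F).injective (by rw [h, map_zero])
    have h3 : d - c = 0 := neg_eq_zero.mp h2
    exact (sub_eq_zero.mp h3).symm
  · rw [place_ord_algebraMap] at h
    exact absurd h (lt_irrefl 0)

theorem IsVal.ord_eq_zero {w : Place K F} {f : F} {c : K} (hf : IsVal w f c) (hc : c ≠ 0) :
    w.ord f = 0 := by
  have hc' : algebraMap K F c ≠ 0 := by simpa using hc
  rcases hf with h | h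
  · rw [h, place_ord_algebraMap]
  · by_contra hne
    have h0 := place_ord_nonneg_of_mem w (IsVal.mem (Or.inr h : IsVal w f c))
    have hpos : 0 < w.ord f := lt_of_le_of_ne h0 (Ne.symm hne)
    have hf0 : f ≠ 0 := by
      rintro rfl
      simp at hpos
    have hcf : algebraMap K F c = f + -(f - algebraMap K F c) := by ring
    have hsub0 : -(f - algebraMap K F c) ≠ 0 := by
      intro h2
      rw [neg_eq_zero] at h2
      rw [h2] at h
      simp at h
    have hordneg : w.ord (-(f - algebraMap K F c)) = w.ord (f - algebraMap K F c) := by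
      have h1 : -(f - algebraMap K F c) = (f - algebraMap K F c) * (-1) := by ring
      have hm1 : w.ord (-1 : F) = 0 := by
        have h := place_ord_algebraMap w (-1 : K)
        simpa using h
      rw [h1, w.ord_mul (neg_ne_zero.mp hsub0) (by norm_num), hm1, add_zero]
    have := place_ord_add_ge w (f := f) (g := -(f - algebraMap K F c)) (by rw [← hcf]; exact hc')
    rw [← hcf, place_ord_algebraMap, hordneg] at this
    omega

theorem IsVal.ne_zero_of_ord_eq_zero {w : Place K F} {f : F} {c : K} (hf : IsVal w f c)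
    (hf0 : f ≠ 0) (h : w.ord f = 0) : c ≠ 0 := by
  rintro rfl
  rcases (isVal_zero_iff w f).mp hf with h1 | h1
  · exact hf0 h1
  · omega

theorem IsVal.inv {w : Place K F} {f : F} {c : K} (hf : IsVal w f c) (hc : c ≠ 0) :
    IsVal w f⁻¹ c⁻¹ := by
  have hord := hf.ord_eq_zero hc
  have hc' : algebraMap K F c ≠ 0 := by simpa using hc
  have hf0 : f ≠ 0 := by
    rintro rfl
    rcases hf with h | h
    · exact hc' h.symm
    · rw [zero_sub] at h
      have : w.ord (-(algebraMap K F c)) = 0 := by
        rw [← map_neg, place_ord_algebraMap]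
      omega
  rw [isVal_iff'] at hf ⊢
  have h1 : f⁻¹ - algebraMap K F c⁻¹ = (f - algebraMap K F c) * (-(f⁻¹ * (algebraMap K F c)⁻¹)) := by
    rw [map_inv₀]
    field_simp
    ring
  rw [h1]
  apply mem_max_mul hf
  have h2 : w.ord (-(f⁻¹ * (algebraMap K F c)⁻¹)) = 0 := by
    have h3 : -(f⁻¹ * (algebraMap K F c)⁻¹) = f⁻¹ * algebraMap K F (-c⁻¹) := by
      rw [map_neg, map_inv₀]
      ring
    rw [h3, w.ord_mul (inv_ne_zero hf0) (by simpa using hc), w.ord_inv, hord,
      place_ord_algebraMap]
    simp
  omega

theorem IsVal.zpow {w : Place K F} {f : F} {c : K} (hf : IsVal w f c) (hc : c ≠ 0) (n : ℤ) :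
    IsVal w (f ^ n) (c ^ n) := by
  cases n with
  | ofNat n => simpa using hf.pow n
  | negSucc n =>
    rw [zpow_negSucc, zpow_negSucc]
    exact (hf.pow (n + 1)).inv (pow_ne_zero _ hc)

theorem IsVal.div {w : Place K F} {f g : F} {c d : K} (hf : IsVal w f c) (hg : IsVal w g d)
    (hd : d ≠ 0) : IsVal w (f / g) (c / d) := by
  rw [div_eq_mul_inv, div_eq_mul_inv]
  exact hf.mul (hg.inv hd)

/-- existence of values when the residue field is `K` -/
theorem exists_isVal (w : Place K F) (hsurj : Function.Surjective (algebraMap K w.ResidueField))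
    {f : F} (hf : f ∈ w.toValuationSubring) : ∃ c : K, IsVal w f c := by
  obtain ⟨c, hc⟩ := hsurj (IsLocalRing.residue w.toValuationSubring ⟨f, hf⟩)
  refine ⟨c, (isVal_iff_mem w f c).mpr ⟨⟨f, hf⟩ - algebraMap K w.toValuationSubring c, ?_, rfl⟩⟩
  rw [← IsLocalRing.residue_eq_zero_iff, map_sub, ← hc]
  exact sub_eq_zero.mpr rfl

theorem IsVal.prod {ι : Type*} {w : Place K F} (s : Finset ι) {f : ι → F} {c : ι → K}
    (h : ∀ i ∈ s, IsVal w (f i) (c i)) : IsVal w (∏ i ∈ s, f i) (∏ i ∈ s, c i) := by
  classical
  induction s using Finset.induction_on with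
  | empty => simpa using isVal_one w
  | insert a s ha ih =>
    rw [Finset.prod_insert ha, Finset.prod_insert ha]
    exact (h a (Finset.mem_insert_self a s)).mul
      (ih fun i hi => h i (Finset.mem_insert_of_mem hi))

end Fermat.Agent.T6.helper58
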