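import Mathlib
import Fermat.Prelude.Def_AlgebraicCurve_Correspondence
import Fermat.Agent.P3.helper58_FFExt
import Fermat.Agent.T6.helper58_WeilDet
import Fermat.Agent.T6.helper58_WeilVal

/-!
# T6 [W1] (helper58): the value of a norm at a place

`isVal_norm` : for a finite extension `F'/F` of function fields over `K` (all residue fields `K`),
a place `v` of `F` and `f ∈ F'` regular at all places `w ∣ v` with values `φ w`:
`N_{F'/F}(f)` is regular at `v` with value `∏_{w ∣ v} φ(w) ^ e(w ∣ v)`.
-/

set_option autoImplicit false
set_option linter.unusedSectionVars false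
set_option linter.style.haveILetI false

open AlgebraicCurve IsDedekindDomain Ideal UniqueFactorizationMonoid

namespace Fermat.Agent.T6.helper58

open Fermat.Agent.S24.helper75 Fermat.Agent.P3.helper58

section Local

variable {K F : Type*} (F' : Type*) [Field K] [Field F] [Field F'] [Algebra K F] [Algebra K F']
  [Algebra F F'] [IsScalarTower K F F'] [FiniteDimensional F F'] [CharZero F]

variable (v : Place K F)

local instance nvDed : IsDedekindDomain (BV F' v) :=
  integralClosure.isDedekindDomain v.toValuationSubring F F'

local instance nvFrac : IsFractionRing (BV F' v) F' :=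
  integralClosure.isFractionRing_of_finite_extension F F'

local instance nvFin : Module.Finite v.toValuationSubring (BV F' v) :=
  IsIntegralClosure.finite v.toValuationSubring F F' (BV F' v)

local instance nvTower : IsScalarTower K v.toValuationSubring F' :=
  IsScalarTower.of_algebraMap_eq fun a => by
    rw [IsScalarTower.algebraMap_apply K F F']
    rfl

local instance nvTF : Module.IsTorsionFree v.toValuationSubring F' :=
  Module.isTorsionFree_iff_algebraMap_injective.mpr (algebraMap_OV_injective F' v)

local instance nvTFB : Module.IsTorsionFree v.toValuationSubring (BV F' v) :=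
  Subalgebra.instIsTorsionFree (BV F' v)

local instance nvFree : Module.Free v.toValuationSubring (BV F' v) :=
  Module.free_of_finite_type_torsion_free'

/-- membership in a height one prime of `BV` in terms of the attached place -/
theorem mem_asIdeal_iff (Q : HeightOneSpectrum (BV F' v)) (y : BV F' v) :
    y ∈ Q.asIdeal ↔
      y = 0 ∨ 0 < (Place.ofHeightOneSpectrum (K := K) (F := F') Q).ord
        (algebraMap (BV F' v) F' y) := by
  have hR := algebraMap_mem_ofHeightOneSpectrum (K := K) (F := F') Q
  have h1 : primeOf (Place.ofHeightOneSpectrum (K := K) (F := F') Q) hR = Q :=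
    ofHeightOneSpectrum_injective (K := K) (F := F') (ofHeightOneSpectrum_primeOf _ hR)
  have h2 : Q.asIdeal = idealOf (Place.ofHeightOneSpectrum (K := K) (F := F') Q) hR :=
    (congrArg HeightOneSpectrum.asIdeal h1).symm
  rw [h2, mem_idealOf]

/-- the multiplicity of a height one prime in `m_v B` is the ramification index -/
theorem count_factors_eq_ramificationIndex (Q : HeightOneSpectrum (BV F' v)) :
    Multiset.count Q.asIdeal (normalizedFactors
      ((IsLocalRing.maximalIdeal v.toValuationSubring).map
        (algebraMap v.toValuationSubring (BV F' v)))) =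
      (Place.ofHeightOneSpectrum (K := K) (F := F') Q).ramificationIndex F := by
  classical
  obtain ⟨π, hπ⟩ := IsDiscreteValuationRing.exists_irreducible v.toValuationSubring
  have hm : IsLocalRing.maximalIdeal v.toValuationSubring = Ideal.span {π} := hπ.maximalIdeal_eq
  have hπ0 : (π : F) ≠ 0 := by
    simpa [ne_eq, ZeroMemClass.coe_eq_zero] using hπ.ne_zero
  have hπB : algebraMap v.toValuationSubring (BV F' v) π ≠ 0 := by
    intro h
    have h2 : algebraMap F F' (π : F) = 0 := by
      have := congrArg (algebraMap (BV F' v) F') h
      rw [map_zero] at this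
      exact this
    exact hπ0 (by simpa using h2)
  have hI : Ideal.span {algebraMap v.toValuationSubring (BV F' v) π} ≠ 0 := by
    rwa [ne_eq, Ideal.zero_eq_bot, Ideal.span_singleton_eq_bot]
  rw [hm, Ideal.map_span, Set.image_singleton,
    ← Ideal.count_associates_factors_eq hI Q.isPrime Q.ne_bot]
  have h1 := intValuation_eq_exp_cnt Q hπB
  have h2 := ofHeightOneSpectrum_ord (K := K) Q (algebraMap (BV F' v) F'
    (algebraMap v.toValuationSubring (BV F' v) π))
  rw [HeightOneSpectrum.valuation_of_algebraMap, h1, WithZero.log_exp, neg_neg] at h2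
  have h3 : algebraMap (BV F' v) F' (algebraMap v.toValuationSubring (BV F' v) π) =
      algebraMap F F' (π : F) := rfl
  rw [h3, Place.ord_restrict, restrict_ofHeightOneSpectrum, v.ord_coe_irreducible hπ,
    mul_one] at h2
  have h4 : ((Place.ofHeightOneSpectrum (K := K) (F := F') Q).ramificationIndex F : ℤ) =
      (cnt Q (Ideal.span {algebraMap v.toValuationSubring (BV F' v) π}) : ℤ) := h2
  exact_mod_cast h4.symm

/-- a function regular at all places over `v` lies in the integral closure `BV` -/
theorem exists_BV_eq (f : F')
    (hf : ∀ w : Place K F', w.restrict F = v → f ∈ w.toValuationSubring) :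
    ∃ b : BV F' v, algebraMap (BV F' v) F' b = f := by
  have := HeightOneSpectrum.mem_integers_of_valuation_le_one (R := BV F' v) F' f (fun Q => by
    have h1 := hf (Place.ofHeightOneSpectrum (K := K) (F := F') Q)
      (restrict_ofHeightOneSpectrum F' v Q)
    rwa [Place.ofHeightOneSpectrum_toValuationSubring, Valuation.mem_valuationSubring_iff] at h1)
  exact this

section Main

variable [HasPrincipalDivisors K F']

/-- **Value of a norm** at a place. -/
theorem isVal_norm (hv : Function.Surjective (algebraMap K v.ResidueField))
    (hw : ∀ w : Place K F', w.restrict F = v →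
      Function.Surjective (algebraMap K w.ResidueField))
    (f : F') (φ : Place K F' → K) (hφ : ∀ w : Place K F', w.restrict F = v → IsVal w f (φ w)) :
    IsVal v (Algebra.norm F f) (∏ w ∈ v.fiber F', φ w ^ w.ramificationIndex F) := by
  classical
  haveI : Finite (HeightOneSpectrum (BV F' v)) := by
    have hfin := Place.restrict_fiber_finite (F := F) (F' := F') v
    haveI := hfin.to_subtype
    exact Finite.of_injective
      (fun Q => (⟨Place.ofHeightOneSpectrum (K := K) (F := F') Q,
        restrict_ofHeightOneSpectrum F' v Q⟩ : {w : Place K F' | w.restrict F = v}))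
      (fun Q Q' h => ofHeightOneSpectrum_injective (congrArg Subtype.val h))
  letI := Fintype.ofFinite (HeightOneSpectrum (BV F' v))
  obtain ⟨b, rfl⟩ := exists_BV_eq F' v f (fun w hwv => (hφ w hwv).mem)
  -- the norm
  have hnorm : Algebra.norm F (algebraMap (BV F' v) F' b) =
      algebraMap v.toValuationSubring F (Algebra.norm v.toValuationSubring b) := by
    have h1 : Algebra.norm v.toValuationSubring b =
        Algebra.intNorm v.toValuationSubring (BV F' v) b := by
      rw [Algebra.intNorm_eq_norm]
    rw [h1, Algebra.algebraMap_intNorm (A := v.toValuationSubring)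
      (K := F) (L := F') (B := BV F' v)]
  -- hypotheses of the algebraic core
  set I := (IsLocalRing.maximalIdeal v.toValuationSubring).map
    (algebraMap v.toValuationSubring (BV F' v)) with hIdef
  have hinj : Function.Injective (algebraMap v.toValuationSubring (BV F' v)) :=
    FaithfulSMul.algebraMap_injective _ _
  have hm : I ≠ ⊥ := by
    rw [hIdef, ne_eq, Ideal.map_eq_bot_iff_of_injective hinj]
    exact IsDiscreteValuationRing.not_a_field _
  have hR : ∀ r : v.toValuationSubring, ∃ c : K,
      r - algebraMap K v.toValuationSubring c ∈ IsLocalRing.maximalIdeal v.toValuationSubring := by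
    intro r
    obtain ⟨c, hc⟩ := hv (IsLocalRing.residue v.toValuationSubring r)
    refine ⟨c, ?_⟩
    rw [← IsLocalRing.residue_eq_zero_iff, map_sub, ← hc]
    exact sub_eq_zero.mpr rfl
  -- primes in the factorisation
  have hprime : ∀ Q ∈ normalizedFactors I, Q.IsPrime ∧ Q ≠ ⊥ := by
    intro Q hQ
    have hp := prime_of_normalized_factor Q hQ
    exact ⟨Ideal.isPrime_of_prime hp, hp.ne_zero⟩
  let φ' : Ideal (BV F' v) → K := fun Q =>
    if h : Q.IsPrime ∧ Q ≠ ⊥ then φ (Place.ofHeightOneSpectrum (K := K) (F := F') ⟨Q, h.1, h.2⟩)
    else 0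
  have hval : ∀ (Q : HeightOneSpectrum (BV F' v)) (y : BV F' v) (c : K),
      IsVal (Place.ofHeightOneSpectrum (K := K) (F := F') Q) (algebraMap (BV F' v) F' y) c →
      y - algebraMap K (BV F' v) c ∈ Q.asIdeal := by
    intro Q y c hc
    rw [mem_asIdeal_iff]
    rw [isVal_iff'] at hc
    rcases hc with hc | hc
    · left
      apply FaithfulSMul.algebraMap_injective (BV F' v) F'
      rw [map_zero, map_sub]
      exact hc
    · right
      rw [map_sub]
      exact hc
  have hres : ∀ Q ∈ normalizedFactors I, ∀ y : BV F' v, ∃ c : K,
      y - algebraMap K (BV F' v) c ∈ Q := by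
    intro Q hQ y
    obtain ⟨h1, h2⟩ := hprime Q hQ
    set Q' : HeightOneSpectrum (BV F' v) := ⟨Q, h1, h2⟩
    obtain ⟨c, hc⟩ := exists_isVal (Place.ofHeightOneSpectrum (K := K) (F := F') Q')
      (hw _ (restrict_ofHeightOneSpectrum F' v Q'))
      (algebraMap_mem_ofHeightOneSpectrum (K := K) (F := F') Q' y)
    exact ⟨c, hval Q' y c hc⟩
  have hφ' : ∀ Q ∈ normalizedFactors I, b - algebraMap K (BV F' v) (φ' Q) ∈ Q := by
    intro Q hQ
    obtain ⟨h1, h2⟩ := hprime Q hQ
    set Q' : HeightOneSpectrum (BV F' v) := ⟨Q, h1, h2⟩
    have : φ' Q = φ (Place.ofHeightOneSpectrum (K := K) (F := F') Q') := dif_pos ⟨h1, h2⟩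
    rw [this]
    exact hval Q' b _ (hφ _ (restrict_ofHeightOneSpectrum F' v Q'))
  have key := norm_sub_prod_mem_maximalIdeal (K := K) (R := v.toValuationSubring)
    (S := BV F' v) hm hR hres b φ' hφ'
  -- the product
  have hprod : ((normalizedFactors I).map φ').prod =
      ∏ w ∈ v.fiber F', φ w ^ w.ramificationIndex F := by
    rw [Finset.prod_multiset_map_count]
    have himg : v.fiber F' = Finset.univ.image
        (fun Q : HeightOneSpectrum (BV F' v) =>
          Place.ofHeightOneSpectrum (K := K) (F := F') Q) := by
      ext w
      rw [Place.mem_fiber, Finset.mem_image]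
      constructor
      · intro hw
        obtain ⟨Q, hQ⟩ := exists_ofHeightOneSpectrum_eq F' v w hw
        exact ⟨Q, Finset.mem_univ _, hQ⟩
      · rintro ⟨Q, -, rfl⟩
        exact restrict_ofHeightOneSpectrum F' v Q
    have himg2 : (normalizedFactors I).toFinset = Finset.univ.image
        (fun Q : HeightOneSpectrum (BV F' v) => Q.asIdeal) := by
      ext Q
      rw [Multiset.mem_toFinset, Finset.mem_image]
      constructor
      · intro hQ
        obtain ⟨h1, h2⟩ := hprime Q hQ
        exact ⟨⟨Q, h1, h2⟩, Finset.mem_univ _, rfl⟩
      · rintro ⟨Q', -, rfl⟩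
        have hc := count_factors_eq_ramificationIndex F' v Q'
        have hpos := (Place.ofHeightOneSpectrum (K := K) (F := F') Q').ramificationIndex_pos
          (F := F)
        rw [← Multiset.count_pos, hc]
        exact hpos
    rw [himg, himg2, Finset.prod_image (fun Q _ Q' _ h => HeightOneSpectrum.ext h),
      Finset.prod_image (fun Q _ Q' _ h => ofHeightOneSpectrum_injective h)]
    refine Finset.prod_congr rfl fun Q _ => ?_
    rw [count_factors_eq_ramificationIndex]
    congr 1
    exact dif_pos ⟨Q.isPrime, Q.ne_bot⟩
  rw [hprod] at key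
  rw [hnorm, isVal_iff_mem]
  exact ⟨_, key, rfl⟩

end Main

end Local

end Fermat.Agent.T6.helper58
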