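/-
T6 [W1] (helper42): WEIL RECIPROCITY, unconditional.

`K` algebraically closed of characteristic `0`, `F / K` a function field of one variable
(`x ∈ F` transcendental with `[F : K(x)] < ∞`).

* `weil_of_gen` : `f(div g) = g(div f)` for `g` transcendental with `[F : K(g)] < ∞` and `f ≠ 0`
  with divisor disjoint from the divisor of `g`;
* `weilRec_of_riemannSetting`, `weilRec_of_transcendental` : `helper26.WeilRec K F`
  (= the contract of block [W1]).

Route: `f(div g) = N(f)(0) / N(f)(∞)` by the value of a norm [NV] (`helper58.isVal_norm`; the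
zeros resp. poles of `g` are the fibres of the places `g = 0`, `g = ∞` of `K(g)`, with
`e_P = ± ord_P g`); `g(div f) = ∏_c c ^ ord_c N(f)` by the valuation of a norm
(`helper58.sum_fiber_ord_eq`); the two agree by the polynomial identity
`helper42.poly_identity` for `N(f) = p(g) / q(g)`.
-/
import Mathlib
import Fermat.Agent.T6.helper42_WeilP1
import Fermat.Agent.P3.helper58_FFExt
import Fermat.Agent.T6.helper58_WeilNV
import Fermat.Agent.P2.helper74_RiemannSep

set_option autoImplicit false
set_option linter.unusedSectionVars false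
set_option linter.style.haveILetI false

noncomputable section

open AlgebraicCurve Polynomial IntermediateField

namespace Fermat.Agent.T6.helper42

open Fermat.Agent.P2.helper74 Fermat.Agent.T6.helper26

variable {K F : Type*} [Field K] [Field F] [Algebra K F]

section Setup

variable (g : F) [FiniteDimensional K⟮g⟯ F]

/-- the generator of `K(g)` -/
abbrev gen0 : K⟮g⟯ := AdjoinSimple.gen K g

theorem algebraMap_gen0_sub (c : K) :
    algebraMap K⟮g⟯ F (gen0 g - algebraMap K K⟮g⟯ c) = g - algebraMap K F c := by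
  rw [map_sub, AdjoinSimple.algebraMap_gen, ← IsScalarTower.algebraMap_apply]

theorem ord_sub_restrict (P : Place K F) (c : K) :
    P.ord (g - algebraMap K F c) =
      (P.ramificationIndex K⟮g⟯ : ℤ) *
        (P.restrict K⟮g⟯).ord (gen0 g - algebraMap K K⟮g⟯ c) := by
  rw [← algebraMap_gen0_sub, P.ord_restrict]

theorem ord_gen_restrict (P : Place K F) :
    P.ord g = (P.ramificationIndex K⟮g⟯ : ℤ) * (P.restrict K⟮g⟯).ord (gen0 g) := by
  have h := P.ord_restrict (F := K⟮g⟯) (gen0 g)
  rwa [AdjoinSimple.algebraMap_gen] at h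

theorem ramificationIndex_pos' (P : Place K F) : (0 : ℤ) < (P.ramificationIndex K⟮g⟯ : ℤ) := by
  exact_mod_cast P.ramificationIndex_pos (F := K⟮g⟯)

/-- at a zero of `g - c` : the restriction is the place `g = c` and `ord_P (g - c) = e_P` -/
theorem restrict_of_zero {P : Place K F} {c : K} (h : 0 < P.ord (g - algebraMap K F c)) :
    0 < (P.restrict K⟮g⟯).ord (gen0 g - algebraMap K K⟮g⟯ c) ∧
      P.ord (g - algebraMap K F c) = (P.ramificationIndex K⟮g⟯ : ℤ) := by
  have he := ramificationIndex_pos' g P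
  have h1 := ord_sub_restrict g P c
  have h2 : 0 < (P.restrict K⟮g⟯).ord (gen0 g - algebraMap K K⟮g⟯ c) := by
    rw [h1] at h
    by_contra hcon
    have := mul_nonpos_of_nonneg_of_nonpos he.le (not_lt.mp hcon)
    omega
  refine ⟨h2, ?_⟩
  rw [h1, ord_sub_eq_one (isRatGen_gen g) _ h2, mul_one]

theorem restrict_of_pole {P : Place K F} (h : P.ord g < 0) :
    (P.restrict K⟮g⟯).ord (gen0 g) < 0 ∧ P.ord g = -(P.ramificationIndex K⟮g⟯ : ℤ) := by
  have he := ramificationIndex_pos' g P
  have h1 := ord_gen_restrict g P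
  have h2 : (P.restrict K⟮g⟯).ord (gen0 g) < 0 := by
    rw [h1] at h
    by_contra hcon
    have := mul_nonneg he.le (not_lt.mp hcon)
    omega
  refine ⟨h2, ?_⟩
  rw [h1, ord_eq_neg_one (isRatGen_gen g) _ h2, mul_neg, mul_one]

variable [HasPrincipalDivisors K F]

/-- the fibre of the place `g = c` of `K(g)` is the set of zeros of `g - c` -/
theorem mem_fiber_zero_iff {P₀ : Place K F} {c : K} (h₀ : 0 < P₀.ord (g - algebraMap K F c))
    (P : Place K F) :
    P ∈ (P₀.restrict K⟮g⟯).fiber F ↔ 0 < P.ord (g - algebraMap K F c) := by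
  rw [Place.mem_fiber]
  constructor
  · intro h
    have h1 := ord_sub_restrict g P c
    rw [h, ord_sub_eq_one (isRatGen_gen g) _ (restrict_of_zero g h₀).1, mul_one] at h1
    rw [h1]
    exact ramificationIndex_pos' g P
  · intro h
    exact place_eq_of_zero (isRatGen_gen g) (restrict_of_zero g h).1 (restrict_of_zero g h₀).1

/-- the fibre of the place `g = ∞` of `K(g)` is the set of poles of `g` -/
theorem mem_fiber_pole_iff {P₀ : Place K F} (h₀ : P₀.ord g < 0) (P : Place K F) :
    P ∈ (P₀.restrict K⟮g⟯).fiber F ↔ P.ord g < 0 := by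
  rw [Place.mem_fiber]
  constructor
  · intro h
    have h1 := ord_gen_restrict g P
    rw [h, ord_eq_neg_one (isRatGen_gen g) _ (restrict_of_pole g h₀).1] at h1
    rw [h1]
    have := ramificationIndex_pos' g P
    omega
  · intro h
    exact place_eq_of_pole (isRatGen_gen g) (restrict_of_pole g h).1 (restrict_of_pole g h₀).1

end Setup

/-! ### `K(g)` is generated by its generator -/

section Gen

theorem finiteDimensional_of_eq_top {E : Type*} [Field E] [Algebra K E]
    {L : IntermediateField K E} (h : L = ⊤) : FiniteDimensional L E := by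
  subst h
  exact Module.Finite.of_surjective (Algebra.linearMap (⊤ : IntermediateField K E) E)
    (fun y => ⟨⟨y, trivial⟩, rfl⟩)

theorem adjoin_gen0_eq_top (g : F) : K⟮gen0 (K := K) g⟯ = ⊤ := by
  rw [eq_top_iff]
  intro y _
  obtain ⟨p, q, -, e⟩ := isRatGen_gen (K := K) g y
  rw [e]
  exact div_mem
    (IntermediateField.algebra_adjoin_le_adjoin K _ (aeval_mem_adjoin_singleton K _))
    (IntermediateField.algebra_adjoin_le_adjoin K _ (aeval_mem_adjoin_singleton K _))

theorem finiteDimensional_gen0 (g : F) : FiniteDimensional K⟮gen0 (K := K) g⟯ K⟮g⟯ :=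
  finiteDimensional_of_eq_top (adjoin_gen0_eq_top g)

end Gen

/-! ### Existence of zeros and poles -/

section Exist

variable (hS : RiemannSetting K F) (g : F) (hg : Transcendental K g)

include hS hg

theorem exists_pole : ∃ P : Place K F, P.ord g < 0 := by
  by_contra h
  have h' : ∀ P : Place K F, 0 ≤ P.ord g := fun P => not_lt.mp fun hP => h ⟨P, hP⟩
  obtain ⟨a, ha⟩ := exists_eq_algebraMap_of_forall_ord_nonneg hS h'
  apply hg
  rw [ha]
  exact isAlgebraic_algebraMap a

theorem exists_zero (c : K) : ∃ P : Place K F, 0 < P.ord (g - algebraMap K F c) := by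
  by_contra h
  have h' : ∀ P : Place K F, 0 ≤ P.ord (g - algebraMap K F c)⁻¹ := fun P => by
    rw [Place.ord_inv]
    have := not_lt.mp fun hP => h ⟨P, hP⟩
    omega
  obtain ⟨a, ha⟩ := exists_eq_algebraMap_of_forall_ord_nonneg hS h'
  apply hg
  have h1 : g = algebraMap K F (a⁻¹ + c) := by
    rw [map_add, map_inv₀, ← ha, inv_inv, sub_add_cancel]
  rw [h1]
  exact isAlgebraic_algebraMap _

omit hS in
theorem ne_zero_of_transcendental : g ≠ 0 := by
  rintro rfl
  exact hg isAlgebraic_zero

theorem pos_ord_sub_pval {P : Place K F} (h : 0 ≤ P.ord g) :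
    0 < P.ord (g - algebraMap K F (pval P g)) := by
  rcases isVal_pval hS h with h1 | h1
  · exfalso
    apply hg
    rw [h1]
    exact isAlgebraic_algebraMap _
  · exact h1

end Exist

/-! ### Values of a quotient of polynomials in `g` at the zero and at the pole of `g` -/

section Repr

variable {E : Type*} [Field E] [Algebra K E] {γ : E}

theorem isVal_zero_of_repr {v : Place K E} (h₀ : 0 < v.ord γ) (p : K[X]) {q : K[X]}
    (hq0 : q.eval 0 ≠ 0) : IsVal v (aeval γ p / aeval γ q) (p.eval 0 / q.eval 0) := by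
  have hγ : IsVal v γ 0 := IsVal.of_ord_pos h₀
  have hp := isVal_aeval v hγ p
  have hq := isVal_aeval v hγ q
  rw [div_eq_mul_inv, div_eq_mul_inv]
  exact hp.mul (hq.inv (ne_zero_of_isVal v hq hq0) (ord_eq_zero_of_isVal v hq hq0))

theorem isVal_infty_of_repr {v : Place K E} (hinf : v.ord γ < 0) {p q : K[X]} (hq : q ≠ 0)
    (hdeg : p.natDegree = q.natDegree) :
    IsVal v (aeval γ p / aeval γ q) (p.leadingCoeff / q.leadingCoeff) := by
  have hγ : γ ≠ 0 := by
    rintro rfl
    simp at hinf
  have e : aeval γ p / aeval γ q = aeval γ⁻¹ p.reverse / aeval γ⁻¹ q.reverse := by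
    rw [aeval_eq_pow_mul_reverse hγ p, aeval_eq_pow_mul_reverse hγ q, hdeg]
    exact mul_div_mul_left _ _ (pow_ne_zero _ hγ)
  rw [e, div_eq_mul_inv, div_eq_mul_inv]
  have hp := isVal_aeval_reverse v hinf p
  have hq' := isVal_aeval_reverse v hinf q
  have hlc : q.leadingCoeff ≠ 0 := leadingCoeff_ne_zero.mpr hq
  exact hp.mul (hq'.inv (ne_zero_of_isVal v hq' hlc) (ord_eq_zero_of_isVal v hq' hlc))

/-- a function of `K(γ)` which is a unit at `γ = 0` and at `γ = ∞` is `p(γ) / q(γ)` with
`p(0), q(0) ≠ 0` and `deg p = deg q` -/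
theorem exists_normalized (hgen : IsRatGen K γ) {v₀ vinf : Place K E} (h₀ : 0 < v₀.ord γ)
    (hinf : vinf.ord γ < 0) {h : E} (hh : h ≠ 0) (hv₀ : v₀.ord h = 0) (hvinf : vinf.ord h = 0) :
    ∃ p q : K[X], p.eval 0 ≠ 0 ∧ q.eval 0 ≠ 0 ∧ p.natDegree = q.natDegree ∧
      h = aeval γ p / aeval γ q := by
  obtain ⟨p, q, -, e⟩ := hgen h
  have hne := hh
  rw [e] at hne
  obtain ⟨hp, hq⟩ := ne_zero_of_aeval_div_ne_zero hne
  have h₀' : 0 < v₀.ord (γ - algebraMap K E 0) := by rwa [map_zero, sub_zero]
  have hγ : γ ≠ 0 := by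
    rintro rfl
    simp at hinf
  have hk : p.rootMultiplicity 0 = q.rootMultiplicity 0 := by
    have h1 := ord_eq_of_ratGen_pos v₀ h₀' hp hq
    rw [← e, hv₀] at h1
    rcases mul_eq_zero.mp h1.symm with h2 | h2
    · omega
    · omega
  obtain ⟨p', hp', hpd⟩ := exists_eq_pow_rootMultiplicity_mul_and_not_dvd p hp 0
  obtain ⟨q', hq', hqd⟩ := exists_eq_pow_rootMultiplicity_mul_and_not_dvd q hq 0
  have hp'0 : p'.eval 0 ≠ 0 := fun h0 => hpd (dvd_iff_isRoot.mpr h0)
  have hq'0 : q'.eval 0 ≠ 0 := fun h0 => hqd (dvd_iff_isRoot.mpr h0)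
  have hp'ne : p' ≠ 0 := by
    rintro rfl
    simp at hp'0
  have hq'ne : q' ≠ 0 := by
    rintro rfl
    simp at hq'0
  have ep : aeval γ p = γ ^ p.rootMultiplicity 0 * aeval γ p' := by
    conv_lhs => rw [hp']
    simp
  have eq : aeval γ q = γ ^ q.rootMultiplicity 0 * aeval γ q' := by
    conv_lhs => rw [hq']
    simp
  have e' : h = aeval γ p' / aeval γ q' := by
    rw [e, ep, eq, hk]
    exact mul_div_mul_left _ _ (pow_ne_zero _ hγ)
  refine ⟨p', q', hp'0, hq'0, ?_, e'⟩
  have h1 := ord_eq_of_ratGen_neg vinf hinf hp'ne hq'ne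
  rw [← e', hvinf] at h1
  rcases mul_eq_zero.mp h1.symm with h2 | h2
  · omega
  · omega

end Repr

/-! ### The two sides of the reciprocity law -/

section Sides

open Fermat.Agent.P3.helper58 Fermat.Agent.S24.helper82

variable [IsAlgClosed K] [CharZero K] (hS : RiemannSetting K F) [HasPrincipalDivisors K F]
  (g : F) [FiniteDimensional K⟮g⟯ F]

include hS

/-- **[NV]** in the relational form, for the extension `F / K(g)` -/
theorem isVal_norm_fiber (v : Place K K⟮g⟯) (f : F) (h0 : ∀ w ∈ v.fiber F, w.ord f = 0) :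
    IsVal v (Algebra.norm K⟮g⟯ f) (∏ w ∈ v.fiber F, pval w f ^ w.ramificationIndex K⟮g⟯) := by
  haveI : CharZero K⟮g⟯ := charZero_of_injective_algebraMap (algebraMap K _).injective
  haveI := finiteDimensional_gen0 (K := K) g
  exact Fermat.Agent.T6.helper58.isVal_norm F v
    (algebraMap_residueField_surjective (gen0 g) v)
    (fun w _ => algebraMap_residueField_surjective g w)
    f (fun w => pval w f)
    (fun w hw => isVal_pval hS (h0 w (Place.mem_fiber.mpr hw)).ge)

/-- the left hand side: `f(div g) = ∏_{P | 0} f(P)^e / ∏_{P | ∞} f(P)^e` -/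
theorem dval_divOf_gen (f : F) {P₀ Pinf : Place K F} (hP₀ : 0 < P₀.ord g)
    (hPinf : Pinf.ord g < 0) :
    dval f (divOf K g) =
      (∏ w ∈ (P₀.restrict K⟮g⟯).fiber F, pval w f ^ w.ramificationIndex K⟮g⟯) /
        (∏ w ∈ (Pinf.restrict K⟮g⟯).fiber F, pval w f ^ w.ramificationIndex K⟮g⟯) := by
  classical
  have hP₀' : 0 < P₀.ord (g - algebraMap K F 0) := by rwa [map_zero, sub_zero]
  have hz : ∀ P : Place K F, P ∈ (P₀.restrict K⟮g⟯).fiber F ↔ 0 < P.ord g := fun P => by
    rw [mem_fiber_zero_iff g hP₀' P, map_zero, sub_zero]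
  have hp : ∀ P : Place K F, P ∈ (Pinf.restrict K⟮g⟯).fiber F ↔ P.ord g < 0 :=
    mem_fiber_pole_iff g hPinf
  have hsupp : (divOf K g).support =
      (P₀.restrict K⟮g⟯).fiber F ∪ (Pinf.restrict K⟮g⟯).fiber F := by
    ext P
    rw [Finsupp.mem_support_iff, divOf_apply hS, Finset.mem_union, hz, hp]
    omega
  have hdj : Disjoint ((P₀.restrict K⟮g⟯).fiber F) ((Pinf.restrict K⟮g⟯).fiber F) := by
    rw [Finset.disjoint_left]
    intro P h1 h2
    rw [hz] at h1
    rw [hp] at h2
    omega
  rw [dval_eq_prod, hsupp, Finset.prod_union hdj, div_eq_mul_inv, ← Finset.prod_inv_distrib]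
  congr 1
  · refine Finset.prod_congr rfl fun P hP => ?_
    rw [divOf_apply hS]
    have h1 : 0 < P.ord (g - algebraMap K F 0) := by
      rw [map_zero, sub_zero]
      exact (hz P).mp hP
    have h2 := (restrict_of_zero g h1).2
    rw [map_zero, sub_zero] at h2
    rw [h2, zpow_natCast]
  · refine Finset.prod_congr rfl fun P hP => ?_
    rw [divOf_apply hS, (restrict_of_pole g ((hp P).mp hP)).2, zpow_neg, zpow_natCast]

omit [IsAlgClosed K] [CharZero K] [HasPrincipalDivisors K F] [FiniteDimensional K⟮g⟯ F] hS in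
theorem prod_zpow_eq_zpow_sum {ι : Type*} (s : Finset ι) (n : ι → ℤ) {c : K} (hc : c ≠ 0) :
    ∏ i ∈ s, c ^ n i = c ^ ∑ i ∈ s, n i := by
  classical
  induction s using Finset.induction_on with
  | empty => simp
  | insert a s ha ih => rw [Finset.prod_insert ha, Finset.sum_insert ha, ih, zpow_add₀ hc]

omit hS in
/-- the order of the norm at the place `g = c` -/
theorem sum_fiber_ord_at {P : Place K F} {c : K} (hP : 0 < P.ord (g - algebraMap K F c))
    {f : F} (hf : f ≠ 0) {p q : K[X]} (hp : p ≠ 0) (hq : q ≠ 0)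
    (e : Algebra.norm K⟮g⟯ f = aeval (gen0 g) p / aeval (gen0 g) q) :
    ∑ w ∈ (P.restrict K⟮g⟯).fiber F, w.ord f =
      (p.rootMultiplicity c : ℤ) - q.rootMultiplicity c := by
  haveI : CharZero K⟮g⟯ := charZero_of_injective_algebraMap (algebraMap K _).injective
  haveI := finiteDimensional_gen0 (K := K) g
  rw [sum_fiber_ord_eq F _ (algebraMap_residueField_surjective (gen0 g) _) hf, e,
    ord_eq_of_ratGen_pos _ (restrict_of_zero g hP).1 hp hq,
    ord_sub_eq_one (isRatGen_gen g) _ (restrict_of_zero g hP).1, mul_one]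

/-- the right hand side: `g(div f) = ∏_c c ^ ord_c N(f)` -/
theorem dval_gen_divOf [DecidableEq K] (hg : Transcendental K g) {f : F} (hf : f ≠ 0)
    (hdisj : ∀ P : Place K F, P.ord f = 0 ∨ P.ord g = 0) {p q : K[X]} (hp : p ≠ 0)
    (hq : q ≠ 0) (e : Algebra.norm K⟮g⟯ f = aeval (gen0 g) p / aeval (gen0 g) q) :
    dval g (divOf K f) = ∏ c ∈ (divOf K f).support.image (fun P => pval P g),
      c ^ ((p.rootMultiplicity c : ℤ) - q.rootMultiplicity c) := by
  classical
  have hg0 : g ≠ 0 := ne_zero_of_transcendental g hg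
  have hSord : ∀ P ∈ (divOf K f).support, P.ord g = 0 := fun P hP => by
    have h1 : P.ord f ≠ 0 := by rwa [Finsupp.mem_support_iff, divOf_apply hS] at hP
    exact (hdisj P).resolve_left h1
  have hSpos : ∀ P ∈ (divOf K f).support, 0 < P.ord (g - algebraMap K F (pval P g)) :=
    fun P hP => pos_ord_sub_pval hS g hg (hSord P hP).ge
  rw [dval_eq_prod, ← Finset.prod_fiberwise_of_maps_to
    (t := (divOf K f).support.image fun P => pval P g) (g := fun P => pval P g)
    (fun P hP => Finset.mem_image_of_mem _ hP)]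
  refine Finset.prod_congr rfl fun c hc => ?_
  obtain ⟨Pc, hPc, hcP⟩ := Finset.mem_image.mp hc
  have hcP' : pval Pc g = c := hcP
  have hc0 : c ≠ 0 := hcP' ▸ pval_ne_zero hS hg0 (hSord Pc hPc)
  have hPc' : 0 < Pc.ord (g - algebraMap K F c) := hcP' ▸ hSpos Pc hPc
  rw [← sum_fiber_ord_at g hPc' hf hp hq e, ← prod_zpow_eq_zpow_sum _ _ hc0]
  have hsub : (divOf K f).support.filter (fun P => pval P g = c) ⊆
      (Pc.restrict K⟮g⟯).fiber F := by
    intro P hP
    rw [Finset.mem_filter] at hP
    rw [mem_fiber_zero_iff g hPc' P, ← hP.2]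
    exact hSpos P hP.1
  calc ∏ P ∈ (divOf K f).support.filter (fun P => pval P g = c), pval P g ^ (divOf K f) P
      = ∏ P ∈ (divOf K f).support.filter (fun P => pval P g = c), c ^ P.ord f :=
        Finset.prod_congr rfl fun P hP => by
          rw [(Finset.mem_filter.mp hP).2, divOf_apply hS]
    _ = ∏ w ∈ (Pc.restrict K⟮g⟯).fiber F, c ^ w.ord f := by
        refine Finset.prod_subset hsub fun w hw hw' => ?_
        have h1 : 0 < w.ord (g - algebraMap K F c) := (mem_fiber_zero_iff g hPc' w).mp hw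
        have h2 : pval w g = c := pval_eq_of_isVal (Or.inr h1)
        have h3 : w ∉ (divOf K f).support := fun h => hw' (Finset.mem_filter.mpr ⟨h, h2⟩)
        have h4 : w.ord f = 0 := by
          rw [Finsupp.mem_support_iff, divOf_apply hS, not_not] at h3
          exact h3
        rw [h4, zpow_zero]

end Sides

/-! ### Weil reciprocity -/

section Weil

open Fermat.Agent.P3.helper58 Fermat.Agent.S24.helper82

variable [IsAlgClosed K] [CharZero K]

/-- **Weil reciprocity** for a transcendental `g` with `[F : K(g)] < ∞`. -/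
theorem weil_of_gen (hS : RiemannSetting K F) (g : F) (hg : Transcendental K g)
    [FiniteDimensional K⟮g⟯ F] {f : F} (hf : f ≠ 0)
    (hdisj : ∀ P : Place K F, P.ord f = 0 ∨ P.ord g = 0) :
    dval f (divOf K g) = dval g (divOf K f) := by
  classical
  haveI : HasPrincipalDivisors K F := hS.principal
  haveI : CharZero K⟮g⟯ := charZero_of_injective_algebraMap (algebraMap K _).injective
  haveI := finiteDimensional_gen0 (K := K) g
  have hgen := isRatGen_gen (K := K) g
  have hg0 : g ≠ 0 := ne_zero_of_transcendental g hg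
  obtain ⟨P₀, hP₀'⟩ := exists_zero hS g hg 0
  have hP₀ : 0 < P₀.ord g := by rwa [map_zero, sub_zero] at hP₀'
  obtain ⟨Pinf, hPinf⟩ := exists_pole hS g hg
  have hγ₀ : 0 < (P₀.restrict K⟮g⟯).ord (gen0 g) := by
    have := (restrict_of_zero g hP₀').1
    rwa [map_zero, sub_zero] at this
  have hγinf : (Pinf.restrict K⟮g⟯).ord (gen0 g) < 0 := (restrict_of_pole g hPinf).1
  -- `f` is a unit over `0` and over `∞`
  have hu₀ : ∀ w ∈ (P₀.restrict K⟮g⟯).fiber F, w.ord f = 0 := fun w hw => by
    have h1 : 0 < w.ord (g - algebraMap K F 0) := (mem_fiber_zero_iff g hP₀' w).mp hw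
    rw [map_zero, sub_zero] at h1
    exact (hdisj w).resolve_right (by omega)
  have huinf : ∀ w ∈ (Pinf.restrict K⟮g⟯).fiber F, w.ord f = 0 := fun w hw => by
    have h1 := (mem_fiber_pole_iff g hPinf w).mp hw
    exact (hdisj w).resolve_right (by omega)
  -- the norm
  have hh0 : Algebra.norm K⟮g⟯ f ≠ 0 := Algebra.norm_ne_zero_iff.mpr hf
  have ho₀ : (P₀.restrict K⟮g⟯).ord (Algebra.norm K⟮g⟯ f) = 0 := by
    rw [← sum_fiber_ord_eq F _ (algebraMap_residueField_surjective (gen0 g) _) hf]
    exact Finset.sum_eq_zero hu₀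
  have hoinf : (Pinf.restrict K⟮g⟯).ord (Algebra.norm K⟮g⟯ f) = 0 := by
    rw [← sum_fiber_ord_eq F _ (algebraMap_residueField_surjective (gen0 g) _) hf]
    exact Finset.sum_eq_zero huinf
  obtain ⟨p, q, hp0, hq0, hdeg, e⟩ := exists_normalized hgen hγ₀ hγinf hh0 ho₀ hoinf
  have hp : p ≠ 0 := by
    rintro rfl
    simp at hp0
  have hq : q ≠ 0 := by
    rintro rfl
    simp at hq0
  -- the values of the norm at `0` and at `∞`
  have hA₀ := (isVal_norm_fiber hS g _ f hu₀).unique
    (by rw [e]; exact isVal_zero_of_repr hγ₀ p hq0)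
  have hAinf := (isVal_norm_fiber hS g _ f huinf).unique
    (by rw [e]; exact isVal_infty_of_repr hγinf hq hdeg)
  rw [dval_divOf_gen hS g f hP₀ hPinf, hA₀, hAinf, dval_gen_divOf hS g hg hf hdisj hp hq e]
  refine poly_identity hp0 hq0 hdeg _ ?_ ?_
  · -- `0` is not a value
    intro h0
    obtain ⟨P, hP, hP0⟩ := Finset.mem_image.mp h0
    have h1 : P.ord f ≠ 0 := by rwa [Finsupp.mem_support_iff, divOf_apply hS] at hP
    exact pval_ne_zero hS hg0 ((hdisj P).resolve_left h1) hP0
  · -- every `c` where the multiplicities differ is a value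
    intro c _ hc
    obtain ⟨Pc, hPc⟩ := exists_zero hS g hg c
    have h1 := sum_fiber_ord_at g hPc hf hp hq e
    have h2 : ∑ w ∈ (Pc.restrict K⟮g⟯).fiber F, w.ord f ≠ 0 := by
      rw [h1]
      intro h3
      apply hc
      omega
    obtain ⟨w, hw, hw0⟩ := Finset.exists_ne_zero_of_sum_ne_zero h2
    have h4 : 0 < w.ord (g - algebraMap K F c) := (mem_fiber_zero_iff g hPc w).mp hw
    refine Finset.mem_image.mpr ⟨w, ?_, pval_eq_of_isVal (Or.inr h4)⟩
    rw [Finsupp.mem_support_iff, divOf_apply hS]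
    exact hw0

/-- **[W1] Weil reciprocity** for a function field with a `RiemannSetting`. -/
theorem weilRec_of_riemannSetting (hS : RiemannSetting K F) (x : F) (hx : Transcendental K x)
    [FiniteDimensional K⟮x⟯ F] : WeilRec K F := by
  intro f g hf hg hdisj
  by_cases hgr : g ∈ Set.range (algebraMap K F)
  · obtain ⟨a, rfl⟩ := hgr
    have ha : a ≠ 0 := fun h => hg (by rw [h, map_zero])
    rw [divOf_algebraMap, dval_zero_right, dval_algebraMap hS ha, degree_divOf hS, zpow_zero]
  · obtain ⟨hg', hfd⟩ := ff_transcendental x hx g hgr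
    haveI := hfd
    exact weil_of_gen hS g hg' hf hdisj

/-- **[W1] Weil reciprocity** for every function field of one variable over an algebraically
closed field of characteristic zero. -/
theorem weilRec_of_transcendental (x : F) (hx : Transcendental K x)
    [FiniteDimensional K⟮x⟯ F] : WeilRec K F := by
  haveI : CharZero K⟮x⟯ := charZero_of_injective_algebraMap (algebraMap K _).injective
  exact weilRec_of_riemannSetting (riemannSetting_of_separating x hx) x hx

end Weil

end Fermat.Agent.T6.helper42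

end
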