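/-
T6 [I2] VAL (helper61): VALUE OF A `w`-INTEGRAL FUNCTION AT A PLACE.

Setting: `A` a valuation subring of `Kb = ℚ̄`, `k = kA A`, `F = FF M`, `Fb = FFb A M`,
`r : Place Kb F → Place k Fb` a reduction of places with CONSERVATION OF NUMBER
(`Conserves r`, the second component of the Prelude `IsPlaceReductionModL A M r`; at good pairs
`ReductionInputsModL A M` is `S37.helper16.redDiv_goodPair`).

`w`-integral functions are given as quotients `f = Y₁ / Y₂` of integral `q`-series, `Y₂` good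
(`IsGood A M Y₂`: nonzero reduction in `Fb`); values are in the vocabulary of helper26's [W0]
(`IsVal P f c`, `pval P f`).

* `mem_of_isVal`     (VAL-1) `f` `w`-integral, `c = f(P)`, `r P ∉ r(poles f)`  ⟹  `c ∈ A`;
* `isVal_red`        (VAL-2) then `f̄(r P) = c mod m_A` for `f̄ = red Y₁ / red Y₂`;
* `isUnit_of_isVal`  (VAL-3) `f` a `w`-unit, `r P ∉ r(zeros f ∪ poles f)`  ⟹  `c ∈ Aˣ`;
* `pval_mem`, `pval_red`, `pval_inv_mem` : the same for `pval`.
-/
import Mathlib
import Fermat.Agent.S37.helper16_Defs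
import Fermat.Agent.P2.helper22_IdealStep
import Fermat.Agent.P2.helper74_RieInst
import Fermat.Agent.P2.helper95_FFlInst
import Fermat.Agent.T6.helper26_PVal

set_option autoImplicit false
set_option synthInstance.maxHeartbeats 400000
set_option linter.unusedSectionVars false

noncomputable section

open HahnSeries IntermediateField AlgebraicCurve ModularCurve
open Fermat.Agent.S18.helper19 Fermat.Agent.P2.helper29

namespace Fermat.Agent.T6.helper61

open Fermat.Agent.P2 Fermat.Agent.T6.helper26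

/-! ### Push-forward of divisors: the fibre sums -/

section Comb

variable {α β : Type*}

theorem mapDomain_apply_eq_sum [DecidableEq β] (r : α → β) (D : α →₀ ℤ) (Q : β) :
    Finsupp.mapDomain r D Q = ∑ a ∈ D.support, if r a = Q then D a else 0 := by
  rw [Finsupp.mapDomain, Finsupp.sum_apply, Finsupp.sum]
  refine Finset.sum_congr rfl fun a _ => ?_
  rw [Finsupp.single_apply]

/-- a fibre without negative terms and with a positive term has positive sum -/
theorem mapDomain_pos (r : α → β) (D : α →₀ ℤ) (P : α) (hP : 0 < D P)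
    (hnn : ∀ P', r P' = r P → 0 ≤ D P') : 0 < Finsupp.mapDomain r D (r P) := by
  classical
  rw [mapDomain_apply_eq_sum]
  have hmem : P ∈ D.support := Finsupp.mem_support_iff.mpr hP.ne'
  have hterm : ∀ a ∈ D.support, 0 ≤ (if r a = r P then D a else 0) := by
    intro a _
    split_ifs with h
    · exact hnn a h
    · exact le_rfl
  calc 0 < D P := hP
    _ = (if r P = r P then D P else 0) := by rw [if_pos rfl]
    _ ≤ _ := Finset.single_le_sum hterm hmem

/-- a fibre without nonzero terms has sum `0` -/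
theorem mapDomain_eq_zero (r : α → β) (D : α →₀ ℤ) (Q : β)
    (h : ∀ P', r P' = Q → D P' = 0) : Finsupp.mapDomain r D Q = 0 := by
  classical
  rw [mapDomain_apply_eq_sum]
  apply Finset.sum_eq_zero
  intro a _
  split_ifs with h'
  · exact h a h'
  · rfl

end Comb

/-! ### Conservation of number -/

variable {M : ℕ} [NeZero M] {A : ValuationSubring Kb}

/-- **conservation of number** for the reduction `r` of places: the second component of the
Prelude `IsPlaceReductionModL A M r`. -/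
def Conserves (r : Place Kb (FF M) → Place (kA A) (FFb A M)) : Prop :=
  ∀ (Y : LaurentSeries A) (hy : incl A Y ∈ FF M) (hb : red A Y ∈ FFb A M), red A Y ≠ 0 →
    ∀ D : Divisor Kb (FF M), (∀ P, D P = P.ord (⟨incl A Y, hy⟩ : FF M)) →
      ∀ Q, Finsupp.mapDomain r D Q = Q.ord (⟨red A Y, hb⟩ : FFb A M)

theorem conserves_of_isPlaceReduction {r : Place Kb (FF M) → Place (kA A) (FFb A M)}
    (hr : IsPlaceReductionModL A M r) : Conserves r :=
  fun Y hy hb hne D hD Q => hr.2 Y hy hb hne D hD Q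

/-! ### Integral series -/

theorem incl_ne_zero_of_red {Y : LaurentSeries A} (h : red A Y ≠ 0) : incl A Y ≠ 0 := by
  intro h0
  apply h
  have hY : Y = 0 := helper22.incl_injective (by rw [h0, map_zero])
  rw [hY, map_zero]

theorem incl_smul (a : A) (Y : LaurentSeries A) : incl A (a • Y) = (a : Kb) • incl A Y :=
  helper74.coeffMap_subtype_smul A a Y

theorem red_smul (a : A) (Y : LaurentSeries A) :
    red A (a • Y) = IsLocalRing.residue A a • red A Y := by
  ext m
  simp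

theorem coe_algebraMap_mul (c : Kb) (f : FF M) :
    ((algebraMap Kb (FF M) c * f : FF M) : LaurentSeries Kb) = c • (f : LaurentSeries Kb) := by
  rw [← Algebra.smul_def]
  exact helper22.coe_smul_eq c f

theorem coe_algebraMap_mulb (c : kA A) (f : FFb A M) :
    ((algebraMap (kA A) (FFb A M) c * f : FFb A M) : LaurentSeries (kA A))
      = c • (f : LaurentSeries (kA A)) := by
  rw [← Algebra.smul_def]
  exact helper22.coe_smul_eq c f

/-- a nonunit of `A` from an element outside `A` -/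
theorem residue_inv_eq_zero {c : Kb} (hcA : c ∉ A) :
    ∃ a : A, (a : Kb) = c⁻¹ ∧ IsLocalRing.residue A a = 0 := by
  have hc0 : c ≠ 0 := fun h => hcA (h ▸ A.zero_mem)
  have hci : c⁻¹ ∈ A := (A.mem_or_inv_mem c).resolve_left hcA
  refine ⟨⟨c⁻¹, hci⟩, rfl, ?_⟩
  rw [IsLocalRing.residue_eq_zero_iff, IsLocalRing.mem_maximalIdeal, mem_nonunits_iff]
  intro hu
  obtain ⟨b, hb⟩ := isUnit_iff_exists_inv.mp hu
  apply hcA
  have h1 : c⁻¹ * (b : Kb) = 1 := by
    have := congrArg (Subtype.val) hb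
    simpa using this
  have h2 : (b : Kb) = c := by
    field_simp at h1
    exact h1
  rw [← h2]
  exact b.2

/-! ### Conservation for quotients -/

variable {r : Place Kb (FF M) → Place (kA A) (FFb A M)}

/-- **conservation of number for `w`-units**: `r_*(div g) = div(red Y₁) - div(red Y₂)` for
`g = Y₁ / Y₂`, both good. -/
theorem conserves_quot (hr : Conserves r) {Y₁ Y₂ : LaurentSeries A}
    (h₁ : IsGood A M Y₁) (h₂ : IsGood A M Y₂) {g : FF M}
    (hg : incl A Y₁ = (g : LaurentSeries Kb) * incl A Y₂)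
    (D : Divisor Kb (FF M)) (hD : ∀ P, D P = P.ord g) (Q : Place (kA A) (FFb A M)) :
    Finsupp.mapDomain r D Q
      = Q.ord (⟨red A Y₁, h₁.2.1⟩ : FFb A M) - Q.ord (⟨red A Y₂, h₂.2.1⟩ : FFb A M) := by
  have hS := helper74.riemannSetting_FF M
  have hY₁0 : (⟨incl A Y₁, h₁.1⟩ : FF M) ≠ 0 := fun h0 =>
    incl_ne_zero_of_red h₁.2.2 (congrArg Subtype.val h0)
  have hY₂0 : (⟨incl A Y₂, h₂.1⟩ : FF M) ≠ 0 := fun h0 =>
    incl_ne_zero_of_red h₂.2.2 (congrArg Subtype.val h0)
  have hprod : (⟨incl A Y₁, h₁.1⟩ : FF M) = g * ⟨incl A Y₂, h₂.1⟩ := Subtype.ext hg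
  have hg0 : g ≠ 0 := by
    rintro rfl
    apply hY₁0
    rw [hprod, zero_mul]
  obtain ⟨D₁, hD₁, -⟩ := hS.principal.exists_divisor _ hY₁0
  obtain ⟨D₂, hD₂, -⟩ := hS.principal.exists_divisor _ hY₂0
  have hDD : D = D₁ - D₂ := by
    ext P
    rw [Finsupp.sub_apply, hD, hD₁, hD₂, hprod, P.ord_mul hg0 hY₂0]
    ring
  rw [hDD, Finsupp.mapDomain_sub, Finsupp.sub_apply,
    hr Y₁ h₁.1 h₁.2.1 h₁.2.2 D₁ hD₁ Q, hr Y₂ h₂.1 h₂.2.1 h₂.2.2 D₂ hD₂ Q]

/-! ### [I2] VAL -/

/-- **(VAL-1)** the value of a `w`-integral function `f = Y₁ / Y₂` at a place `P` whose reduction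
is not the reduction of a pole of `f` lies in `A`. -/
theorem mem_of_isVal (hr : Conserves r) {Y₁ Y₂ : LaurentSeries A}
    (h₂ : IsGood A M Y₂) {f : FF M}
    (hf : incl A Y₁ = (f : LaurentSeries Kb) * incl A Y₂)
    {P : Place Kb (FF M)} {c : Kb} (hc : IsVal P f c)
    (hpole : ∀ P' : Place Kb (FF M), P'.ord f < 0 → r P' ≠ r P) : c ∈ A := by
  by_contra hcA
  have hS := helper74.riemannSetting_FF M
  have hc0 : c ≠ 0 := fun h => hcA (h ▸ A.zero_mem)
  obtain ⟨a, ha, hres⟩ := residue_inv_eq_zero hcA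
  -- the function `g = c⁻¹ f - 1` and its numerator
  set g : FF M := algebraMap Kb (FF M) c⁻¹ * f - 1 with hgdef
  set Y₃ : LaurentSeries A := a • Y₁ - Y₂ with hY₃
  have hg : incl A Y₃ = (g : LaurentSeries Kb) * incl A Y₂ := by
    have e1 : (g : LaurentSeries Kb) = c⁻¹ • (f : LaurentSeries Kb) - 1 := by
      rw [hgdef]
      change ((algebraMap Kb (FF M) c⁻¹ * f : FF M) : LaurentSeries Kb) - 1 = _
      rw [coe_algebraMap_mul]
    rw [hY₃, map_sub, incl_smul, ha, hf, e1, sub_mul, one_mul,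
      ← helper22.algebraMap_mul_eq_smul, ← helper22.algebraMap_mul_eq_smul, mul_assoc]
  have hred : red A Y₃ = - red A Y₂ := by
    rw [hY₃, map_sub, red_smul, hres, zero_smul, zero_sub]
  have h₃ : IsGood A M Y₃ := by
    refine ⟨?_, ?_, ?_⟩
    · change incl A Y₃ ∈ FF M
      rw [hg]
      exact mul_mem g.2 h₂.1
    · change red A Y₃ ∈ FFb A M
      rw [hred]
      exact neg_mem h₂.2.1
    · change red A Y₃ ≠ 0
      rw [hred]
      exact neg_ne_zero.mpr h₂.2.2
  have hg0 : g ≠ 0 := by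
    intro h0
    apply incl_ne_zero_of_red h₃.2.2
    rw [hg, h0]
    simp
  obtain ⟨D, hD, -⟩ := hS.principal.exists_divisor g hg0
  -- conservation: the reduction of `div g` is `0`
  have hcons := conserves_quot hr h₃ h₂ hg D hD (r P)
  have hneg : (⟨red A Y₃, h₃.2.1⟩ : FFb A M) = - ⟨red A Y₂, h₂.2.1⟩ := Subtype.ext hred
  rw [hneg, ord_neg_eq, sub_self] at hcons
  -- `P` is a zero of `g`
  have hgfac : g = algebraMap Kb (FF M) c⁻¹ * (f - algebraMap Kb (FF M) c) := by
    rw [hgdef, mul_sub, ← map_mul, inv_mul_cancel₀ hc0, map_one]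
  have hcF : algebraMap Kb (FF M) c⁻¹ ≠ 0 := by
    simpa using hc0
  have hfc : f - algebraMap Kb (FF M) c ≠ 0 := by
    intro h0
    apply hg0
    rw [hgfac, h0, mul_zero]
  have hposP : 0 < D P := by
    rw [hD, hgfac, P.ord_mul hcF hfc, ord_const, zero_add]
    rcases hc with hc | hc
    · exact absurd (sub_eq_zero.mpr hc) hfc
    · exact hc
  -- no pole of `g` in the fibre of `r P`
  have hnn : ∀ P' : Place Kb (FF M), r P' = r P → 0 ≤ D P' := by
    intro P' hP'
    have hf' : 0 ≤ P'.ord f := by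
      by_contra hlt
      exact hpole P' (not_le.mp hlt) hP'
    rw [hD, hgfac, P'.ord_mul hcF hfc, ord_const, zero_add]
    exact helper74.ord_sub_algebraMap_nonneg P' hf' c
  have := mapDomain_pos r D P hposP hnn
  omega

/-- **(VAL-2)** the value of a `w`-integral function reduces to the value of its reduction:
`f̄(r P) = f(P) mod m_A` for `f = Y₁ / Y₂`, `f̄ = red Y₁ / red Y₂`. -/
theorem isVal_red (hr : Conserves r) {Y₁ Y₂ : LaurentSeries A}
    (hb₁ : red A Y₁ ∈ FFb A M) (h₂ : IsGood A M Y₂) {f : FF M}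
    (hf : incl A Y₁ = (f : LaurentSeries Kb) * incl A Y₂)
    {P : Place Kb (FF M)} {c : A} (hc : IsVal P f (c : Kb))
    (hpole : ∀ P' : Place Kb (FF M), P'.ord f < 0 → r P' ≠ r P) :
    IsVal (r P) ((⟨red A Y₁, hb₁⟩ : FFb A M) / ⟨red A Y₂, h₂.2.1⟩)
      (IsLocalRing.residue A c) := by
  have hS := helper74.riemannSetting_FF M
  set fb : FFb A M := (⟨red A Y₁, hb₁⟩ : FFb A M) / ⟨red A Y₂, h₂.2.1⟩ with hfb
  set cb : kA A := IsLocalRing.residue A c with hcb
  have hY₂b0 : (⟨red A Y₂, h₂.2.1⟩ : FFb A M) ≠ 0 := fun h0 => h₂.2.2 (congrArg Subtype.val h0)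
  -- the function `g = f - c` and its numerator
  set g : FF M := f - algebraMap Kb (FF M) c with hgdef
  set Y₃ : LaurentSeries A := Y₁ - c • Y₂ with hY₃
  have hg : incl A Y₃ = (g : LaurentSeries Kb) * incl A Y₂ := by
    have e1 : (g : LaurentSeries Kb)
        = (f : LaurentSeries Kb) - algebraMap Kb (LaurentSeries Kb) c := rfl
    rw [hY₃, map_sub, incl_smul, hf, e1, sub_mul, helper22.algebraMap_mul_eq_smul]
  have hred : red A Y₃ = red A Y₁ - cb • red A Y₂ := by
    rw [hY₃, map_sub, red_smul]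
  have hb₃ : red A Y₃ ∈ FFb A M := by
    rw [hred, ← helper22.algebraMap_mul_eq_smul]
    exact sub_mem hb₁ (mul_mem ((FFb A M).algebraMap_mem cb) h₂.2.1)
  -- `fb - cb = red Y₃ / red Y₂`
  have hquot : fb - algebraMap (kA A) (FFb A M) cb
      = (⟨red A Y₃, hb₃⟩ : FFb A M) / ⟨red A Y₂, h₂.2.1⟩ := by
    have e3 : (⟨red A Y₃, hb₃⟩ : FFb A M)
        = ⟨red A Y₁, hb₁⟩ - algebraMap (kA A) (FFb A M) cb * ⟨red A Y₂, h₂.2.1⟩ := by
      apply Subtype.ext
      change red A Y₃ = red A Y₁ - algebraMap (kA A) (LaurentSeries (kA A)) cb * red A Y₂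
      rw [hred, helper22.algebraMap_mul_eq_smul]
    rw [e3, hfb, sub_div, mul_div_assoc, div_self hY₂b0, mul_one]
  by_cases hz : red A Y₃ = 0
  · left
    have h0 : (⟨red A Y₃, hb₃⟩ : FFb A M) = 0 := Subtype.ext hz
    rw [h0, zero_div, sub_eq_zero] at hquot
    exact hquot
  right
  have h₃ : IsGood A M Y₃ := by
    refine ⟨?_, hb₃, hz⟩
    change incl A Y₃ ∈ FF M
    rw [hg]
    exact mul_mem g.2 h₂.1
  have hY₃b0 : (⟨red A Y₃, hb₃⟩ : FFb A M) ≠ 0 := fun h0 => hz (congrArg Subtype.val h0)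
  have hg0 : g ≠ 0 := by
    intro h0
    apply incl_ne_zero_of_red h₃.2.2
    rw [hg, h0]
    simp
  obtain ⟨D, hD, -⟩ := hS.principal.exists_divisor g hg0
  have hcons := conserves_quot hr h₃ h₂ hg D hD (r P)
  have hposP : 0 < D P := by
    rw [hD]
    rcases hc with hc | hc
    · exact absurd (sub_eq_zero.mpr hc) hg0
    · exact hc
  have hnn : ∀ P' : Place Kb (FF M), r P' = r P → 0 ≤ D P' := by
    intro P' hP'
    have hf' : 0 ≤ P'.ord f := by
      by_contra hlt
      exact hpole P' (not_le.mp hlt) hP'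
    rw [hD]
    exact helper74.ord_sub_algebraMap_nonneg P' hf' c
  have hpos := mapDomain_pos r D P hposP hnn
  rw [hquot, div_eq_mul_inv, (r P).ord_mul hY₃b0 (inv_ne_zero hY₂b0), Place.ord_inv]
  omega

/-- **(VAL-3)** the value of a `w`-unit `f = Y₁ / Y₂` (both good) at a place `P` whose reduction
is not the reduction of a zero or a pole of `f` is a unit of `A`. -/
theorem inv_mem_of_isVal (hr : Conserves r) {Y₁ Y₂ : LaurentSeries A}
    (h₁ : IsGood A M Y₁) (h₂ : IsGood A M Y₂) {f : FF M}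
    (hf : incl A Y₁ = (f : LaurentSeries Kb) * incl A Y₂)
    {P : Place Kb (FF M)} {c : Kb} (hc : IsVal P f c)
    (hzp : ∀ P' : Place Kb (FF M), P'.ord f ≠ 0 → r P' ≠ r P) :
    c ≠ 0 ∧ c ∈ A ∧ c⁻¹ ∈ A := by
  have hY₁0 : incl A Y₁ ≠ 0 := incl_ne_zero_of_red h₁.2.2
  have hf0 : f ≠ 0 := by
    rintro rfl
    apply hY₁0
    rw [hf]
    simp
  have hP0 : P.ord f = 0 := by
    by_contra h
    exact hzp P h rfl
  have hc0 : c ≠ 0 := hc.ne_zero_of_ord_eq_zero hf0 hP0
  refine ⟨hc0, ?_, ?_⟩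
  · exact mem_of_isVal hr h₂ hf hc fun P' hP' => hzp P' hP'.ne
  · have hf' : incl A Y₂ = ((f⁻¹ : FF M) : LaurentSeries Kb) * incl A Y₁ := by
      have hfL : (f : LaurentSeries Kb) ≠ 0 := fun h0 => hf0 (Subtype.ext h0)
      have e : ((f⁻¹ : FF M) : LaurentSeries Kb) = (f : LaurentSeries Kb)⁻¹ := rfl
      rw [e, hf, ← mul_assoc, inv_mul_cancel₀ hfL, one_mul]
    refine mem_of_isVal hr h₁ hf' (hc.inv hf0 hP0) fun P' hP' => hzp P' ?_
    rw [Place.ord_inv] at hP'
    omega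

/-- **(VAL-3)**, unit form. -/
theorem isUnit_of_isVal (hr : Conserves r) {Y₁ Y₂ : LaurentSeries A}
    (h₁ : IsGood A M Y₁) (h₂ : IsGood A M Y₂) {f : FF M}
    (hf : incl A Y₁ = (f : LaurentSeries Kb) * incl A Y₂)
    {P : Place Kb (FF M)} {c : Kb} (hc : IsVal P f c)
    (hzp : ∀ P' : Place Kb (FF M), P'.ord f ≠ 0 → r P' ≠ r P) :
    ∃ u : Aˣ, ((u : A) : Kb) = c := by
  obtain ⟨hc0, hcA, hciA⟩ := inv_mem_of_isVal hr h₁ h₂ hf hc hzp
  refine ⟨⟨⟨c, hcA⟩, ⟨c⁻¹, hciA⟩, ?_, ?_⟩, rfl⟩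
  · exact Subtype.ext (mul_inv_cancel₀ hc0)
  · exact Subtype.ext (inv_mul_cancel₀ hc0)

/-! ### The same for `pval` -/

/-- **(VAL-1)** for `pval`. -/
theorem pval_mem (hr : Conserves r) {Y₁ Y₂ : LaurentSeries A}
    (h₂ : IsGood A M Y₂) {f : FF M}
    (hf : incl A Y₁ = (f : LaurentSeries Kb) * incl A Y₂) {P : Place Kb (FF M)}
    (hpole : ∀ P' : Place Kb (FF M), P'.ord f < 0 → r P' ≠ r P) : pval P f ∈ A := by
  have hS := helper74.riemannSetting_FF M
  have hP : 0 ≤ P.ord f := by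
    by_contra hlt
    exact hpole P (not_le.mp hlt) rfl
  exact mem_of_isVal hr h₂ hf (isVal_pval hS hP) hpole

/-- **(VAL-2)** for `pval`: `f̄(r P) = f(P) mod m_A`. -/
theorem pval_red (hr : Conserves r) {Y₁ Y₂ : LaurentSeries A}
    (hb₁ : red A Y₁ ∈ FFb A M) (h₂ : IsGood A M Y₂) {f : FF M}
    (hf : incl A Y₁ = (f : LaurentSeries Kb) * incl A Y₂) {P : Place Kb (FF M)}
    (hpole : ∀ P' : Place Kb (FF M), P'.ord f < 0 → r P' ≠ r P) :
    pval (r P) ((⟨red A Y₁, hb₁⟩ : FFb A M) / ⟨red A Y₂, h₂.2.1⟩)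
      = IsLocalRing.residue A ⟨pval P f, pval_mem hr h₂ hf hpole⟩ := by
  have hS := helper74.riemannSetting_FF M
  have hP : 0 ≤ P.ord f := by
    by_contra hlt
    exact hpole P (not_le.mp hlt) rfl
  exact pval_eq_of_isVal
    (isVal_red hr hb₁ h₂ hf (c := ⟨pval P f, pval_mem hr h₂ hf hpole⟩) (isVal_pval hS hP) hpole)

/-- **(VAL-3)** for `pval`. -/
theorem pval_isUnit (hr : Conserves r) {Y₁ Y₂ : LaurentSeries A}
    (h₁ : IsGood A M Y₁) (h₂ : IsGood A M Y₂) {f : FF M}
    (hf : incl A Y₁ = (f : LaurentSeries Kb) * incl A Y₂) {P : Place Kb (FF M)}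
    (hzp : ∀ P' : Place Kb (FF M), P'.ord f ≠ 0 → r P' ≠ r P) :
    ∃ u : Aˣ, ((u : A) : Kb) = pval P f := by
  have hS := helper74.riemannSetting_FF M
  have hP : P.ord f = 0 := by
    by_contra h
    exact hzp P h rfl
  exact isUnit_of_isVal hr h₁ h₂ hf (isVal_pval hS hP.ge) hzp

end Fermat.Agent.T6.helper61
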