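/-
T6 [HNAT] (helper43): **the scale-free functions `h^♮ = h ^ d / h(E)`**.

Generic part (`hS : RiemannSetting K F`):
* `natFun f E d = (dval f E)⁻¹ • f ^ d`;
* `natFun_const_mul` : scale-freeness (`deg E = d`);
* `natFun_smul` : semilinear compatibility `g • natFun f E d = natFun (g • f) (g • E) d`;
* `natFun_equivariant` : `γ σ • h u = a * h (act σ u)` and `γ σ • E = E` give
  `γ σ • natFun (h u) E d = natFun (h (act σ u)) E d`.

Modular part (`S : S37.helper16.RedSetting M A`, `O = S.Pinf`), for a function `h` with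
`div h = n • (Dp - m • O)`, `Dp ≥ 0`, and divisors `X` whose points reduce off `∞̄` and off the
reductions of the points of `Dp` (`RedOff S X Dp`):
* `exists_scaled`      : `c • h` has a good integral `q`-expansion, `c ≠ 0`;
* `dval_aunit`         : the value at `X` of a function with a good integral `q`-expansion and
                         divisor `n • (Dp - m • O)` is a unit of `A`;
* `natFun_good`        : `natFun h E d` has a good integral `q`-expansion;
* `natFun_inL`         : `natFun h E d ∈ L(N ∞)` for `d n m ≤ N`;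
* `natFun_dval_aunit`  : the value of `natFun h E d` at `X` is a unit of `A`;
* `exists_hnat`        : **[HNAT]** the fields `r`, `v`, `c`, `hnat`, `c_mem`, `c_eq` of
                         `helper3.WeilGeo` and the clause `hunit` (and the clauses on `v`) of its
                         field `move`.
-/
import Mathlib
import Fermat.Agent.T6.helper26_PVal
import Fermat.Agent.T6.helper61_ValAt
import Fermat.Agent.T6.helper81_PlaceRedValInst
import Fermat.Agent.T6.helper23_RatBasis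
import Fermat.Agent.T6.helper74_RedDivFF
import Fermat.Agent.T6.helper74_GeoI1
import Fermat.Agent.T6.helper73_T6Iface
import Fermat.Agent.T6.helper3_TIWeil

set_option autoImplicit false
set_option synthInstance.maxHeartbeats 400000
set_option linter.unusedSectionVars false
set_option linter.unusedVariables false
set_option linter.style.longLine false
set_option linter.style.haveILetI false

noncomputable section

open HahnSeries IntermediateField AlgebraicCurve ModularCurve
open Fermat.Agent.S18.helper19 Fermat.Agent.P2.helper29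

namespace Fermat.Agent.T6.helper43

open Fermat.Agent.P2 Fermat.Agent.T6.helper26 Fermat.Agent.T6.helper73
open Fermat.Agent.P2.helper74

/-! ### Generic part -/

section Generic

variable {K F : Type*} [Field K] [Field F] [Algebra K F]

/-- **the scale-free function** `h^♮ = h ^ d / h(E)` -/
def natFun (f : F) (E : Divisor K F) (d : ℕ) : F := (dval f E)⁻¹ • f ^ d

theorem natFun_def (f : F) (E : Divisor K F) (d : ℕ) :
    natFun f E d = (dval f E)⁻¹ • f ^ d := rfl

/-- **scale-freeness** -/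
theorem natFun_const_mul (hS : RiemannSetting K F) {a : K} (ha : a ≠ 0) {f : F}
    {E : Divisor K F} {d : ℕ} (hf : Disj f E) (hE : Divisor.degree E = d) :
    natFun (algebraMap K F a * f) E d = natFun f E d := by
  unfold natFun
  have h0 : dval f E ≠ 0 := dval_ne_zero hS hf
  rw [dval_mul hS (Disj.const ha E) hf, dval_algebraMap hS ha, hE, zpow_natCast, mul_pow,
    Algebra.smul_def, Algebra.smul_def, ← map_pow, ← mul_assoc, ← map_mul]
  congr 2
  have had : a ^ d ≠ 0 := pow_ne_zero d ha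
  field_simp

theorem natFun_smul_const (hS : RiemannSetting K F) {a : K} (ha : a ≠ 0) {f : F}
    {E : Divisor K F} {d : ℕ} (hf : Disj f E) (hE : Divisor.degree E = d) :
    natFun (a • f) E d = natFun f E d := by
  rw [Algebra.smul_def]
  exact natFun_const_mul hS ha hf hE

/-- **semilinear compatibility** -/
theorem natFun_smul (g : SemilinearAut K F) (f : F) (E : Divisor K F) (d : ℕ) :
    g • natFun f E d = natFun (g • f) (g • E) d := by
  unfold natFun
  rw [Fermat.Agent.T6.helper3.semilinear_smul, smul_pow', dval_smul, map_inv₀]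

/-- **equivariance** of the scale-free functions -/
theorem natFun_equivariant (hS : RiemannSetting K F) {G Γ : Type*}
    (γ : Γ → SemilinearAut K F) (act : Γ → G → G) (h : G → F) {E : Divisor K F} {d : ℕ}
    (hE : Divisor.degree E = d) (hEfix : ∀ σ, γ σ • E = E) (hdisj : ∀ u, Disj (h u) E)
    (hsm : ∀ σ u, ∃ a : K, a ≠ 0 ∧ γ σ • h u = algebraMap K F a * h (act σ u))
    (σ : Γ) (u : G) : γ σ • natFun (h u) E d = natFun (h (act σ u)) E d := by
  obtain ⟨a, ha, he⟩ := hsm σ u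
  rw [natFun_smul, hEfix, he, natFun_const_mul hS ha (hdisj _) hE]

theorem natFun_ne_zero (hS : RiemannSetting K F) {f : F} {E : Divisor K F} (hf : Disj f E)
    (d : ℕ) : natFun f E d ≠ 0 := by
  unfold natFun
  exact smul_ne_zero (inv_ne_zero (dval_ne_zero hS hf)) (pow_ne_zero d hf.ne_zero)

theorem ord_natFun (hS : RiemannSetting K F) {f : F} {E : Divisor K F} (hf : Disj f E)
    (d : ℕ) (P : Place K F) : P.ord (natFun f E d) = d * P.ord f := by
  unfold natFun
  have h0 : (dval f E)⁻¹ ≠ 0 := inv_ne_zero (dval_ne_zero hS hf)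
  rw [Algebra.smul_def, P.ord_mul (by simpa using h0) (pow_ne_zero d hf.ne_zero), ord_const,
    zero_add, ← zpow_natCast, Place.ord_zpow]

end Generic

/-! ### Units of `A` -/

section AUnit

variable (A : ValuationSubring Kb)

/-- `x` is a unit of `A` -/
def AUnit (x : Kb) : Prop := x ∈ A ∧ x⁻¹ ∈ A ∧ x ≠ 0

variable {A}

theorem aunit_one : AUnit A 1 := ⟨one_mem A, by rw [inv_one]; exact one_mem A, one_ne_zero⟩

theorem AUnit.mul {x y : Kb} (hx : AUnit A x) (hy : AUnit A y) : AUnit A (x * y) :=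
  ⟨mul_mem hx.1 hy.1, by rw [mul_inv]; exact mul_mem hx.2.1 hy.2.1, mul_ne_zero hx.2.2 hy.2.2⟩

theorem AUnit.inv {x : Kb} (hx : AUnit A x) : AUnit A x⁻¹ :=
  ⟨hx.2.1, by rw [inv_inv]; exact hx.1, inv_ne_zero hx.2.2⟩

theorem AUnit.pow {x : Kb} (hx : AUnit A x) (n : ℕ) : AUnit A (x ^ n) :=
  ⟨pow_mem hx.1 n, by rw [← inv_pow]; exact pow_mem hx.2.1 n, pow_ne_zero n hx.2.2⟩

theorem AUnit.zpow {x : Kb} (hx : AUnit A x) (n : ℤ) : AUnit A (x ^ n) := by
  rcases Int.eq_nat_or_neg n with ⟨k, rfl | rfl⟩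
  · rw [zpow_natCast]
    exact hx.pow k
  · rw [zpow_neg, zpow_natCast]
    exact (hx.pow k).inv

theorem AUnit.prod {ι : Type*} (s : Finset ι) (f : ι → Kb) (h : ∀ i ∈ s, AUnit A (f i)) :
    AUnit A (∏ i ∈ s, f i) := by
  classical
  induction s using Finset.induction_on with
  | empty => simpa using aunit_one
  | insert a s ha ih =>
    rw [Finset.prod_insert ha]
    exact (h a (Finset.mem_insert_self a s)).mul
      (ih fun i hi => h i (Finset.mem_insert_of_mem hi))

theorem aunit_of_units {x : Kb} (h : ∃ u : Aˣ, ((u : A) : Kb) = x) : AUnit A x := by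
  obtain ⟨u, rfl⟩ := h
  have h1 : ((u : A) : Kb) * (((u⁻¹ : Aˣ) : A) : Kb) = 1 := by
    have : (u : A) * ((u⁻¹ : Aˣ) : A) = 1 := Units.mul_inv u
    exact_mod_cast congrArg (fun x : A => (x : Kb)) this
  have h0 : ((u : A) : Kb) ≠ 0 := left_ne_zero_of_mul_eq_one h1
  refine ⟨(u : A).2, ?_, h0⟩
  rw [← eq_inv_of_mul_eq_one_right h1]
  exact ((u⁻¹ : Aˣ) : A).2

theorem AUnit.exists_mul_eq_one {x : Kb} (hx : AUnit A x) : ∃ y ∈ A, x * y = 1 :=
  ⟨x⁻¹, hx.2.1, mul_inv_cancel₀ hx.2.2⟩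

theorem AUnit.residue_ne_zero {x : Kb} (hx : AUnit A x) :
    IsLocalRing.residue A ⟨x, hx.1⟩ ≠ 0 := by
  intro h0
  have h1 : (⟨x, hx.1⟩ : A) * ⟨x⁻¹, hx.2.1⟩ = 1 := Subtype.ext (mul_inv_cancel₀ hx.2.2)
  have h2 := congrArg (IsLocalRing.residue A) h1
  rw [map_mul, h0, zero_mul, map_one] at h2
  exact zero_ne_one h2

end AUnit

/-! ### Modular part -/

section Modular

open Fermat.Agent.S37.helper16

variable {M : ℕ} [NeZero M] {A : ValuationSubring Kb}

/-- shortcut instance (slow to find by synthesis) -/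
local instance algebraFFbHNat : Algebra (kA A) (FFb A M) := SubalgebraClass.toAlgebra (FFb A M)

variable (S : RedSetting M A)

/-- no point of `X` reduces to `∞̄` or to the reduction of a point of `Dp` -/
def RedOff (X Dp : Divisor Kb (FF M)) : Prop :=
  ∀ P, X P ≠ 0 → S.rP P ≠ S.Qinf ∧ ∀ P', Dp P' ≠ 0 → S.rP P' ≠ S.rP P

theorem redOff_of_finset {X Dp : Divisor Kb (FF M)} (T : Finset (Place (kA A) (FFb A M)))
    (hT : ∀ P', Dp P' ≠ 0 → S.rP P' ∈ T)
    (hX : ∀ P, X P ≠ 0 → S.rP P ∉ T ∧ S.rP P ≠ S.Qinf) : RedOff S X Dp :=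
  fun P hP => ⟨(hX P hP).2, fun P' hP' h => (hX P hP).1 (h ▸ hT P' hP')⟩

variable {S}

/-- the order of a function with divisor `k • (Dp - m • O)` -/
theorem ord_of_isDivOf {f : FF M} {k m : ℕ} {Dp : Divisor Kb (FF M)}
    (hdiv : IsDivOf f (k • (Dp - m • Finsupp.single S.Pinf (1 : ℤ)))) (P : Place Kb (FF M)) :
    P.ord f = k * (Dp P - m * Finsupp.single S.Pinf (1 : ℤ) P) := by
  rw [← hdiv.2 P, Finsupp.smul_apply, Finsupp.sub_apply, Finsupp.smul_apply, nsmul_eq_mul,
    nsmul_eq_mul]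

theorem ord_of_isDivOf_ne {f : FF M} {k m : ℕ} {Dp : Divisor Kb (FF M)}
    (hdiv : IsDivOf f (k • (Dp - m • Finsupp.single S.Pinf (1 : ℤ)))) {P : Place Kb (FF M)}
    (hP : P ≠ S.Pinf) : P.ord f = k * Dp P := by
  rw [ord_of_isDivOf hdiv, Finsupp.single_eq_of_ne hP, mul_zero, sub_zero]

/-- a function with divisor `k • (Dp - m • O)`, `Dp ≥ 0`, lies in `L(N ∞)` for `k m ≤ N` -/
theorem inL_of_isDivOf {f : FF M} {k m : ℕ} {Dp : Divisor Kb (FF M)} (hDp : ∀ P, 0 ≤ Dp P)
    (hdiv : IsDivOf f (k • (Dp - m • Finsupp.single S.Pinf (1 : ℤ)))) {N : ℤ}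
    (hN : ((k * m : ℕ) : ℤ) ≤ N) : InL (FF M) N (f : LaurentSeries Kb) := by
  rw [helper22.inL_iff_mem S.hPinf]
  refine ⟨f.2, ?_⟩
  show f ∈ riemannRochSpace (Finsupp.single S.Pinf N)
  rw [mem_L_iff' hdiv.1]
  intro v
  by_cases hv : v = S.Pinf
  · subst hv
    rw [ord_of_isDivOf hdiv, Finsupp.single_eq_same, Finsupp.single_eq_same]
    have h1 := hDp S.Pinf
    have h2 : (0 : ℤ) ≤ (k : ℤ) * Dp S.Pinf := mul_nonneg (Int.natCast_nonneg k) h1
    push_cast at hN
    linarith
  · rw [ord_of_isDivOf_ne hdiv hv, Finsupp.single_eq_of_ne hv, neg_zero]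
    exact mul_nonneg (Int.natCast_nonneg k) (hDp v)

/-- scalar multiples have the same divisor -/
theorem isDivOf_smul {f : FF M} {D : Divisor Kb (FF M)} (hdiv : IsDivOf f D) {c : Kb}
    (hc : c ≠ 0) : IsDivOf (c • f) D :=
  ⟨smul_ne_zero hc hdiv.1, fun P => by rw [helper22.ord_smul_eq P hc, hdiv.2 P]⟩

/-- **scaling**: a function with divisor `n • (Dp - m • O)`, `Dp ≥ 0`, has a scalar multiple
with a good integral `q`-expansion -/
theorem exists_scaled {h : FF M} {n m : ℕ} {Dp : Divisor Kb (FF M)} (hDp : ∀ P, 0 ≤ Dp P)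
    (hdiv : IsDivOf h (n • (Dp - m • Finsupp.single S.Pinf (1 : ℤ)))) :
    ∃ (c : Kb) (Y : LaurentSeries A), c ≠ 0 ∧ IsGood A M Y ∧
      incl A Y = ((c • h : FF M) : LaurentSeries Kb) := by
  have hL := inL_of_isDivOf hDp hdiv (N := ((n * m : ℕ) : ℤ)) le_rfl
  have h0 : (h : LaurentSeries Kb) ≠ 0 := fun e => hdiv.1 (Subtype.ext e)
  obtain ⟨c, Y, hc, hY, hgood⟩ :=
    Fermat.Agent.S37.helper61.exists_scaled_integral S.hPinf S.hSc S.hInt hL h0
  exact ⟨c, Y, hc, hgood, by rw [hY, helper22.coe_smul_eq]⟩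

/-- **[I2] for divisors**: the value at `X` of a function with a good integral `q`-expansion
and divisor `k • (Dp - m • O)` is a unit of `A` if no point of `X` reduces to `∞̄` or to the
reduction of a point of `Dp`. -/
theorem pval_aunit {f : FF M} {Y : LaurentSeries A} (hY : IsGood A M Y)
    (hf : incl A Y = (f : LaurentSeries Kb)) {k m : ℕ} {Dp X : Divisor Kb (FF M)}
    (hdiv : IsDivOf f (k • (Dp - m • Finsupp.single S.Pinf (1 : ℤ))))
    (hX : RedOff S X Dp) {P : Place Kb (FF M)} (hP : X P ≠ 0) : AUnit A (pval P f) := by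
  have hr : Fermat.Agent.T6.helper61.Conserves (M := M) (A := A) S.rP :=
    Fermat.Agent.T6.helper61.conserves_of_isPlaceReduction
      (Fermat.Agent.T6.helper81.isPlaceReductionModL_rP S)
  have hf' : incl A Y = (f : LaurentSeries Kb) * incl A (1 : LaurentSeries A) := by
    rw [map_one, mul_one, hf]
  refine aunit_of_units
    (Fermat.Agent.T6.helper61.pval_isUnit hr hY isGood_one hf' fun P' hP' => ?_)
  by_cases hv : P' = S.Pinf
  · rw [hv, S.rP_Pinf]
    exact fun e => (hX P hP).1 e.symm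
  · rw [ord_of_isDivOf_ne hdiv hv] at hP'
    exact (hX P hP).2 P' fun e => hP' (by rw [e, mul_zero])

theorem dval_aunit {f : FF M} {Y : LaurentSeries A} (hY : IsGood A M Y)
    (hf : incl A Y = (f : LaurentSeries Kb)) {k m : ℕ} {Dp X : Divisor Kb (FF M)}
    (hdiv : IsDivOf f (k • (Dp - m • Finsupp.single S.Pinf (1 : ℤ))))
    (hX : RedOff S X Dp) : AUnit A (dval f X) := by
  rw [dval_eq_prod]
  exact AUnit.prod _ _ fun P hP =>
    (pval_aunit hY hf hdiv hX (Finsupp.mem_support_iff.mp hP)).zpow _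

/-- a function with divisor `k • (Dp - m • O)` has no zeros and poles on a divisor off `Dp` -/
theorem disj_of_redOff {f : FF M} {k m : ℕ} {Dp X : Divisor Kb (FF M)}
    (hdiv : IsDivOf f (k • (Dp - m • Finsupp.single S.Pinf (1 : ℤ))))
    (hX : RedOff S X Dp) : Disj f X := by
  refine ⟨hdiv.1, fun P hP => ?_⟩
  have hv : P ≠ S.Pinf := by
    rintro rfl
    exact (hX _ hP).1 S.rP_Pinf
  rw [ord_of_isDivOf_ne hdiv hv]
  by_contra h0
  exact (hX P hP).2 P (fun e => h0 (by rw [e, mul_zero])) rfl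

/-! ### The scale-free functions at a reduction setting -/

section Nat

variable {h : FF M} {n m d : ℕ} {Dp E : Divisor Kb (FF M)}

theorem coe_natFun (f : FF M) (E : Divisor Kb (FF M)) (d : ℕ) :
    ((natFun f E d : FF M) : LaurentSeries Kb) = (dval f E)⁻¹ • (f : LaurentSeries Kb) ^ d := by
  rw [natFun_def, helper22.coe_smul_eq]
  rfl

/-- the divisor of `natFun h E d` -/
theorem isDivOf_natFun (hdiv : IsDivOf h (n • (Dp - m • Finsupp.single S.Pinf (1 : ℤ))))
    (hE : RedOff S E Dp) :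
    IsDivOf (natFun h E d) ((d * n) • (Dp - m • Finsupp.single S.Pinf (1 : ℤ))) := by
  have hS := riemannSetting_FF M
  have hdisj : Disj h E := disj_of_redOff hdiv hE
  refine ⟨natFun_ne_zero hS hdisj d, fun P => ?_⟩
  rw [ord_natFun hS hdisj, ← hdiv.2 P, mul_smul, Finsupp.smul_apply, nsmul_eq_mul]

/-- **`h^♮` has a good integral `q`-expansion** -/
theorem natFun_good (hDp : ∀ P, 0 ≤ Dp P)
    (hdiv : IsDivOf h (n • (Dp - m • Finsupp.single S.Pinf (1 : ℤ))))
    (hE : RedOff S E Dp) (hdeg : Divisor.degree E = d) :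
    ∃ Y : LaurentSeries A, IsGood A M Y ∧
      incl A Y = ((natFun h E d : FF M) : LaurentSeries Kb) := by
  obtain ⟨c, Y, hc, hgood, hY⟩ := exists_scaled hDp hdiv
  have hS := riemannSetting_FF M
  have hdisj : Disj h E := disj_of_redOff hdiv hE
  have hdiv' := isDivOf_smul hdiv hc
  have ha : AUnit A (dval (c • h) E) := dval_aunit hgood hY hdiv' hE
  have e : natFun h E d = natFun (c • h) E d := (natFun_smul_const hS hc hdisj hdeg).symm
  have hincl : incl A ((⟨(dval (c • h) E)⁻¹, ha.2.1⟩ : A) • Y ^ d) =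
      ((natFun h E d : FF M) : LaurentSeries Kb) := by
    rw [e, coe_natFun, Fermat.Agent.T6.helper61.incl_smul, map_pow, hY]
  have hred : red A ((⟨(dval (c • h) E)⁻¹, ha.2.1⟩ : A) • Y ^ d) =
      algebraMap (kA A) (LaurentSeries (kA A))
        (IsLocalRing.residue A ⟨(dval (c • h) E)⁻¹, ha.2.1⟩) * red A Y ^ d := by
    rw [Fermat.Agent.T6.helper61.red_smul, map_pow, helper22.algebraMap_mul_eq_smul]
  refine ⟨(⟨(dval (c • h) E)⁻¹, ha.2.1⟩ : A) • Y ^ d, ⟨?_, ?_, ?_⟩, hincl⟩
  · show incl A _ ∈ FF M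
    rw [hincl]
    exact (natFun h E d).2
  · show red A _ ∈ FFb A M
    rw [hred]
    exact mul_mem ((FFb A M).algebraMap_mem _) (pow_mem hgood.2.1 d)
  · show red A _ ≠ 0
    rw [hred]
    refine mul_ne_zero ?_ (pow_ne_zero d hgood.2.2)
    rw [Ne, map_eq_zero]
    exact ha.inv.residue_ne_zero

/-- **`h^♮ ∈ L(N ∞)`** for `d n m ≤ N` -/
theorem natFun_inL (hDp : ∀ P, 0 ≤ Dp P)
    (hdiv : IsDivOf h (n • (Dp - m • Finsupp.single S.Pinf (1 : ℤ))))
    (hE : RedOff S E Dp) {N : ℤ} (hN : ((d * n * m : ℕ) : ℤ) ≤ N) :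
    InL (FF M) N ((natFun h E d : FF M) : LaurentSeries Kb) :=
  inL_of_isDivOf hDp (isDivOf_natFun hdiv hE) hN

/-- **the coefficients of `h^♮` lie in `A`** -/
theorem coeff_natFun_mem (hDp : ∀ P, 0 ≤ Dp P)
    (hdiv : IsDivOf h (n • (Dp - m • Finsupp.single S.Pinf (1 : ℤ))))
    (hE : RedOff S E Dp) (hdeg : Divisor.degree E = d) (k : ℤ) :
    ((natFun h E d : FF M) : LaurentSeries Kb).coeff k ∈ A := by
  obtain ⟨Y, -, hY⟩ := natFun_good hDp hdiv hE hdeg
  rw [← hY, coeffMap_coeff]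
  exact (Y.coeff k).2

/-- **the value of `h^♮` at a place off `Dp` is a unit of `A`** -/
theorem natFun_pval_aunit (hDp : ∀ P, 0 ≤ Dp P)
    (hdiv : IsDivOf h (n • (Dp - m • Finsupp.single S.Pinf (1 : ℤ))))
    (hE : RedOff S E Dp) (hdeg : Divisor.degree E = d) {X : Divisor Kb (FF M)}
    (hX : RedOff S X Dp) {P : Place Kb (FF M)} (hP : X P ≠ 0) :
    AUnit A (pval P (natFun h E d)) := by
  obtain ⟨Y, hgood, hY⟩ := natFun_good hDp hdiv hE hdeg
  exact pval_aunit hgood hY (isDivOf_natFun hdiv hE) hX hP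

/-- **the value of `h^♮` at a divisor off `Dp` is a unit of `A`** -/
theorem natFun_dval_aunit (hDp : ∀ P, 0 ≤ Dp P)
    (hdiv : IsDivOf h (n • (Dp - m • Finsupp.single S.Pinf (1 : ℤ))))
    (hE : RedOff S E Dp) (hdeg : Divisor.degree E = d) {X : Divisor Kb (FF M)}
    (hX : RedOff S X Dp) : AUnit A (dval (natFun h E d) X) := by
  obtain ⟨Y, hgood, hY⟩ := natFun_good hDp hdiv hE hdeg
  exact dval_aunit hgood hY (isDivOf_natFun hdiv hE) hX

end Nat

/-! ### The family: coordinates in the rational basis -/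

section Family

open Fermat.Agent.T6.helper74

/-- the Galois action on the coefficients of the `q`-expansion -/
theorem coeff_galAut_smul (σ : Kb ≃ₐ[ℚ] Kb) (f : FF M) (k : ℤ) :
    ((galAut M σ • f : FF M) : LaurentSeries Kb).coeff k =
      σ ((f : LaurentSeries Kb).coeff k) := by
  rw [coe_arithmeticGalois_smul, coeffMap_coeff]
  rfl

/-- regularity and integrality of the values of an integral function of `L(N ∞)` -/
theorem pval_mem_of_inL (S : RedSetting M A) {N : ℤ} {f : FF M} {Y : LaurentSeries A}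
    (hL : InL (FF M) N (f : LaurentSeries Kb)) (hY : incl A Y = (f : LaurentSeries Kb))
    {P : Place Kb (FF M)} (hP : S.rP P ≠ S.Qinf) : 0 ≤ P.ord f ∧ pval P f ∈ A := by
  have hreg : ∀ P' : Place Kb (FF M), P' ≠ S.Pinf → 0 ≤ P'.ord f := fun P' hP' =>
    hL.2.1 P' fun hinf => hP' ((helper22.isInfty_iff_eq S.hPinf P').mp hinf)
  have hPne : P ≠ S.Pinf := by
    rintro rfl
    exact hP S.rP_Pinf
  refine ⟨hreg P hPne, ?_⟩
  have hr : Fermat.Agent.T6.helper61.Conserves (M := M) (A := A) S.rP :=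
    Fermat.Agent.T6.helper61.conserves_of_isPlaceReduction
      (Fermat.Agent.T6.helper81.isPlaceReductionModL_rP S)
  have hf' : incl A Y = (f : LaurentSeries Kb) * incl A (1 : LaurentSeries A) := by
    rw [map_one, mul_one, hY]
  refine Fermat.Agent.T6.helper61.pval_mem hr isGood_one hf' fun P' hP' => ?_
  have hP'inf : P' = S.Pinf := by
    by_contra hne
    exact absurd (hreg P' hne) (not_le.mpr hP')
  rw [hP'inf, S.rP_Pinf]
  exact fun e => hP e.symm

variable {G : Type*} (act : (Kb ≃ₐ[ℚ] Kb) → G → G)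
  {n d : ℕ} {E : Divisor Kb (FF M)} {Dp : G → Divisor Kb (FF M)} {m : G → ℕ} {h : G → FF M}

/-- **[HNAT]** at a reduction setting.  For a family `h u` of functions with divisors
`n • (Dp u - m u • ∞)`, `Dp u ≥ 0`, equivariant up to constants, and a `Gal(ℚ̄/ℚ)`-stable
divisor `E` of degree `d` none of whose points reduces to `∞̄` or to the reduction of a point of
some `Dp u`: the scale-free functions `h_u^♮ = (dval (h u) E)⁻¹ • h u ^ d` have coordinates
`c i u ∈ A` in a `Gal(ℚ̄/ℚ)`-fixed `A`-integral family `v i ∈ L(N ∞)`, the coordinates are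
equivariant, and the values of `h_u^♮` at the divisors off the `Dp u` are units of `A`. -/
theorem exists_hnat (S : RedSetting M A) (hPL : PrimeToLevel M A)
    (hDp : ∀ u P, 0 ≤ Dp u P)
    (hdiv : ∀ u, IsDivOf (h u) (n • (Dp u - m u • Finsupp.single S.Pinf (1 : ℤ))))
    (hsm : ∀ σ u, ∃ a : Kb, a ≠ 0 ∧
      galAut M σ • h u = algebraMap Kb (FF M) a * h (act σ u))
    (hdeg : Divisor.degree E = d) (hEfix : ∀ σ, galAut M σ • E = E)
    (hE : ∀ u, RedOff S E (Dp u))
    {N : ℤ} (hN : ∀ u, ((d * n * m u : ℕ) : ℤ) ≤ N) :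
    ∃ (r : ℕ) (v : Fin r → FF M) (c : Fin r → G → Kb),
      (∀ i, InL (FF M) N (v i : LaurentSeries Kb)) ∧
      (∀ i, ∃ Y : LaurentSeries A, incl A Y = (v i : LaurentSeries Kb)) ∧
      (∀ σ i, galAut M σ • v i = v i) ∧
      (∀ i (P : Place Kb (FF M)), S.rP P ≠ S.Qinf → 0 ≤ P.ord (v i) ∧ pval P (v i) ∈ A) ∧
      (∀ u, (dval (h u) E)⁻¹ • h u ^ d = ∑ i, c i u • v i) ∧
      (∀ i u, c i u ∈ A) ∧
      (∀ i σ u, c i (act σ u) = SemilinearAut.baseAut (galAut M σ) (c i u)) ∧
      (∀ X : Divisor Kb (FF M), (∀ u, RedOff S X (Dp u)) →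
        ∀ u, ∃ x ∈ A, dval ((dval (h u) E)⁻¹ • h u ^ d) X * x = 1) := by
  have hS := riemannSetting_FF M
  obtain ⟨r, ψ, Y, mI, hL, hY, hfix, -, -, -, hexp⟩ :=
    Fermat.Agent.T6.helper23.exists_ratBasis_FF M A hPL N
  have hdisj : ∀ u, Disj (h u) E := fun u => disj_of_redOff (hdiv u) (hE u)
  refine ⟨r, ψ, fun i u => ((natFun (h u) E d : FF M) : LaurentSeries Kb).coeff (mI i), hL,
    fun i => ⟨Y i, hY i⟩, fun σ i => hfix i σ, fun i P hP => pval_mem_of_inL S (hL i) (hY i) hP,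
    fun u => ?_, fun i u => coeff_natFun_mem (hDp u) (hdiv u) (hE u) hdeg _, fun i σ u => ?_,
    fun X hX u => (natFun_dval_aunit (hDp u) (hdiv u) (hE u) hdeg (hX u)).exists_mul_eq_one⟩
  · have h1 := hexp (natFun (h u) E d) (natFun_inL (hDp u) (hdiv u) (hE u) (hN u))
    rw [← natFun_def]
    refine h1.trans (Finset.sum_congr rfl fun i _ => ?_)
    rw [Algebra.smul_def]
  · show ((natFun (h (act σ u)) E d : FF M) : LaurentSeries Kb).coeff (mI i) =
      σ (((natFun (h u) E d : FF M) : LaurentSeries Kb).coeff (mI i))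
    rw [← natFun_equivariant hS (galAut M) act h hdeg hEfix hdisj hsm σ u, coeff_galAut_smul]

end Family

/-! ### The instance for the reduced divisors of the torsion classes -/

section Geo

open Fermat.Agent.T6.helper74

theorem pinf_eq_inftyBar (S : RedSetting M A) : S.Pinf = inftyBar M :=
  (helper22.isInfty_iff_eq (isInfty_inftyBar M) S.Pinf).mp S.hPinf

/-- **[HNAT]** for the functions `hT ∞ n u` of [I1] (`div = n • (DpT ∞ n u - mT ∞ n u • ∞)`):
the fields `r`, `v`, `c`, `hnat`, `c_mem`, `c_eq` of `helper3.WeilGeo` and the clauses of its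
field `move` on `v` and on the unit values, for a `Gal(ℚ̄/ℚ)`-stable divisor `E` of degree `d`
and all divisors `X` none of whose points reduces into `T ∪ {∞̄}`, where `T` contains the
reductions of the points of all `DpT ∞ n u`. -/
theorem exists_hnat_geo (S : RedSetting M A) (hPL : PrimeToLevel M A) (n d : ℕ)
    {E : Divisor Kb (FF M)} (hdeg : Divisor.degree E = d) (hEfix : ∀ σ, galAut M σ • E = E)
    (T : Finset (Place (kA A) (FFb A M)))
    (hTD : ∀ (u : Pic0.torsion Kb (FF M) n) (P' : Place Kb (FF M)),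
      DpT (inftyBar M) n u P' ≠ 0 → S.rP P' ∈ T)
    (hE : ∀ P, E P ≠ 0 → S.rP P ∉ T ∧ S.rP P ≠ S.Qinf) :
    ∃ (r : ℕ) (v : Fin r → FF M) (c : Fin r → Pic0.torsion Kb (FF M) n → Kb),
      (∀ i, InL (FF M) ((d * n * genusFF M : ℕ) : ℤ) (v i : LaurentSeries Kb)) ∧
      (∀ i, ∃ Y : LaurentSeries A, incl A Y = (v i : LaurentSeries Kb)) ∧
      (∀ σ i, galAut M σ • v i = v i) ∧
      (∀ i (P : Place Kb (FF M)), S.rP P ≠ S.Qinf → 0 ≤ P.ord (v i) ∧ pval P (v i) ∈ A) ∧
      (∀ u, (dval (hT (inftyBar M) n u) E)⁻¹ • hT (inftyBar M) n u ^ d = ∑ i, c i u • v i) ∧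
      (∀ i u, c i u ∈ A) ∧
      (∀ i σ u, c i (galAut M σ • u) = SemilinearAut.baseAut (galAut M σ) (c i u)) ∧
      (∀ X : Divisor Kb (FF M), (∀ P, X P ≠ 0 → S.rP P ∉ T ∧ S.rP P ≠ S.Qinf) →
        ∀ u, ∃ x ∈ A, dval ((dval (hT (inftyBar M) n u) E)⁻¹ • hT (inftyBar M) n u ^ d) X * x
          = 1) := by
  have hS := riemannSetting_FF M
  have hR := riemann_ineq_FF M
  have hO := pinf_eq_inftyBar S
  have hγ : ∀ σ : Kb ≃ₐ[ℚ] Kb, galAut M σ • S.Pinf = S.Pinf := fun σ => by
    rw [hO]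
    exact galAut_smul_inftyBar M σ
  have hN : ∀ u : Pic0.torsion Kb (FF M) n,
      ((d * n * mT S.Pinf n u : ℕ) : ℤ) ≤ ((d * n * genusFF M : ℕ) : ℤ) := fun u => by
    exact_mod_cast Nat.mul_le_mul_left _ (geo_m_le hS hR S.Pinf n u)
  have hT' : ∀ (u : Pic0.torsion Kb (FF M) n) (P' : Place Kb (FF M)),
      DpT S.Pinf n u P' ≠ 0 → S.rP P' ∈ T := by
    rw [hO]
    exact hTD
  obtain ⟨r, v, c, h1, h2, h3, h4, h5, h6, h7, h8⟩ :=
    exists_hnat (G := Pic0.torsion Kb (FF M) n) (fun σ u => galAut M σ • u) S hPL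
      (n := n) (d := d) (E := E) (Dp := DpT S.Pinf n) (m := mT S.Pinf n) (h := hT S.Pinf n)
      (fun u P => geo_Dp_nonneg hS hR S.Pinf n u P)
      (fun u => geo_h_div hS S.Pinf n u)
      (fun σ u => geo_h_smul hS hR S.Pinf n (galAut M) hγ σ u)
      hdeg hEfix (fun u => redOff_of_finset S T (hT' u) hE) hN
  rw [hO] at h5 h8
  exact ⟨r, v, c, h1, h2, h3, h4, h5, h6, h7,
    fun X hX u => h8 X (fun u => by
      have := redOff_of_finset S T (hT' u) hX
      rwa [hO] at this) u⟩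

end Geo

end Modular

end Fermat.Agent.T6.helper43

end
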