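import Mathlib

/-!
T6 (S19), leaf [PERF-ALG] (helper51): the two purely algebraic steps between the Weil pairing
blocks W2 / W3c and the Fourier criterion [A3] (helper82).  Mathlib only.

* `nondegenerate_of_prime_level` : nondegeneracy of `e_ℓ` on `G[ℓ]` (output of W3c),
  compatibility `e_{ℓ^k}(u, y) = e_ℓ(ℓ^(k-1) u, y)` (W2) and divisibility of the torsion
  (W3b or the count S27) give nondegeneracy of `e_{ℓ^k}` on `G[ℓ^k]`.
* `exists_pairing_pow_eq_of_nondegenerate` : for a finite abelian group `M`, a bimultiplicative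
  pairing `e : M → M → K` which is nondegenerate on the right, and `d` prime to `|M|`, EVERY
  character `χ` of `M` is `u ↦ e u y ^ d` for some `y` (injective map between finite sets of the
  same cardinality).  This is the hypothesis shape of the criterion: `χ 0 = 1`,
  `χ (u + v) = χ u * χ v`.
-/

set_option autoImplicit false

namespace Fermat.Agent.T6.helper51

section AllCharacters

variable {M : Type*} [AddCommGroup M] {K : Type*} [Field K]

theorem pairing_zero_left (e : M → M → K)
    (hl : ∀ u u' y, e (u + u') y = e u y * e u' y) (h0 : ∀ u y, e u y ≠ 0) (y : M) :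
    e 0 y = 1 := by
  have h := hl 0 0 y
  rw [add_zero] at h
  have h2 : e 0 y * 1 = e 0 y * e 0 y := by rw [mul_one]; exact h
  exact (mul_left_cancel₀ (h0 0 y) h2).symm

theorem pairing_nsmul_left (e : M → M → K)
    (hl : ∀ u u' y, e (u + u') y = e u y * e u' y) (h0 : ∀ u y, e u y ≠ 0) (n : ℕ) (u y : M) :
    e (n • u) y = e u y ^ n := by
  induction n with
  | zero => rw [zero_smul, pow_zero]; exact pairing_zero_left e hl h0 y
  | succ n ih => rw [succ_nsmul, hl, ih, pow_succ]

/-- **All characters are pairing characters.**  `e` bimultiplicative, nowhere zero,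
nondegenerate on the right, `d` prime to `|M|`: every character of `M` is `e(·, y)^d`. -/
theorem exists_pairing_pow_eq_of_nondegenerate [Finite M]
    [HasEnoughRootsOfUnity K (Monoid.exponent (Multiplicative M))]
    (e : M → M → K)
    (hl : ∀ u u' y, e (u + u') y = e u y * e u' y)
    (hr : ∀ u y y', e u (y + y') = e u y * e u y')
    (h0 : ∀ u y, e u y ≠ 0)
    (hperf : ∀ y, y ≠ 0 → ∃ u, e u y ≠ 1)
    (d : ℕ) (hd : d.Coprime (Nat.card M))
    (χ : M → K) (hχ0 : χ 0 = 1) (hχ : ∀ u v, χ (u + v) = χ u * χ v) :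
    ∃ y, ∀ u, χ u = e u y ^ d := by
  classical
  -- the character attached to `y`
  let φ : M → (Multiplicative M →* Kˣ) := fun y =>
    { toFun := fun u => Units.mk0 (e (Multiplicative.toAdd u) y ^ d) (pow_ne_zero _ (h0 _ _))
      map_one' := by
        apply Units.ext
        show e 0 y ^ d = 1
        rw [pairing_zero_left e hl h0 y, one_pow]
      map_mul' := fun u v => by
        apply Units.ext
        show e (Multiplicative.toAdd u + Multiplicative.toAdd v) y ^ d =
          e (Multiplicative.toAdd u) y ^ d * e (Multiplicative.toAdd v) y ^ d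
        rw [hl, mul_pow] }
  have hφ : ∀ y u, ((φ y (Multiplicative.ofAdd u) : Kˣ) : K) = e u y ^ d := fun _ _ => rfl
  -- injectivity
  have hinj : Function.Injective φ := by
    intro y y' hyy'
    by_contra hne
    have hsub : y - y' ≠ 0 := sub_ne_zero.mpr hne
    obtain ⟨u, hu⟩ := hperf _ hsub
    apply hu
    have h1 : e u y ^ d = e u y' ^ d := by
      rw [← hφ y u, ← hφ y' u, hyy']
    have h2 : e u y = e u (y - y') * e u y' := by
      rw [← hr, sub_add_cancel]
    have h3 : e u (y - y') ^ d = 1 := by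
      have : e u (y - y') ^ d * e u y' ^ d = 1 * e u y' ^ d := by
        rw [← mul_pow, ← h2, h1, one_mul]
      exact mul_right_cancel₀ (pow_ne_zero _ (h0 _ _)) this
    have h4 : e u (y - y') ^ Nat.card M = 1 := by
      rw [← pairing_nsmul_left e hl h0, card_nsmul_eq_zero', pairing_zero_left e hl h0]
    have h5 := pow_gcd_eq_one.mpr ⟨h3, h4⟩
    rwa [Nat.Coprime.gcd_eq_one hd, pow_one] at h5
  -- cardinalities
  have hcard : Nat.card (Multiplicative M →* Kˣ) = Nat.card M := by
    rw [CommGroup.card_monoidHom_of_hasEnoughRootsOfUnity (Multiplicative M) K]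
    exact Nat.card_congr Multiplicative.toAdd
  have hfin : Finite (Multiplicative M →* Kˣ) :=
    Nat.finite_of_card_ne_zero (by rw [hcard]; exact Nat.card_pos.ne')
  have hbij : Function.Bijective φ :=
    Function.Injective.bijective_of_nat_card_le hinj hcard.le
  -- the given character as a homomorphism
  have hχne : ∀ u, χ u ≠ 0 := by
    intro u hu
    have := hχ u (-u)
    rw [add_neg_cancel, hχ0, hu, zero_mul] at this
    exact one_ne_zero this
  let ψ : Multiplicative M →* Kˣ :=
    { toFun := fun u => Units.mk0 (χ (Multiplicative.toAdd u)) (hχne _)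
      map_one' := Units.ext hχ0
      map_mul' := fun u v => Units.ext (hχ _ _) }
  obtain ⟨y, hy⟩ := hbij.2 ψ
  refine ⟨y, fun u => ?_⟩
  have := congrArg (fun f : Multiplicative M →* Kˣ => ((f (Multiplicative.ofAdd u) : Kˣ) : K)) hy
  exact this.symm

/-- The same over an algebraically closed field of characteristic `0` (no instance needed). -/
theorem exists_pairing_pow_eq_of_nondegenerate' [Finite M] [IsAlgClosed K] [CharZero K]
    (e : M → M → K)
    (hl : ∀ u u' y, e (u + u') y = e u y * e u' y)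
    (hr : ∀ u y y', e u (y + y') = e u y * e u y')
    (h0 : ∀ u y, e u y ≠ 0)
    (hperf : ∀ y, y ≠ 0 → ∃ u, e u y ≠ 1)
    (d : ℕ) (hd : d.Coprime (Nat.card M))
    (χ : M → K) (hχ0 : χ 0 = 1) (hχ : ∀ u v, χ (u + v) = χ u * χ v) :
    ∃ y, ∀ u, χ u = e u y ^ d := by
  have hne : Monoid.exponent (Multiplicative M) ≠ 0 := Monoid.exponent_ne_zero_of_finite
  haveI : NeZero ((Monoid.exponent (Multiplicative M) : ℕ) : K) :=
    ⟨Nat.cast_ne_zero.mpr hne⟩
  exact exists_pairing_pow_eq_of_nondegenerate e hl hr h0 hperf d hd χ hχ0 hχ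

end AllCharacters

section PrimePower

variable {G : Type*} [AddCommGroup G] {K : Type*} [Field K]

/-- **From level `ℓ` to level `ℓ^k`.**  `e` plays the role of `e_{ℓ^k}` and `e1` of `e_ℓ`. -/
theorem nondegenerate_of_prime_level (ℓ k : ℕ)
    (e e1 : G → G → K)
    (hr : ∀ u y y', (ℓ ^ k) • u = 0 → (ℓ ^ k) • y = 0 → (ℓ ^ k) • y' = 0 →
      e u (y + y') = e u y * e u y')
    (hr0 : ∀ u, (ℓ ^ k) • u = 0 → e u 0 = 1)
    (hcompat : ∀ u y, (ℓ ^ k) • u = 0 → ℓ • y = 0 → e u y = e1 ((ℓ ^ (k - 1)) • u) y)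
    (hdiv : ∀ u1 : G, ℓ • u1 = 0 → ∃ u, (ℓ ^ k) • u = 0 ∧ (ℓ ^ (k - 1)) • u = u1)
    (hperf1 : ∀ y, ℓ • y = 0 → y ≠ 0 → ∃ u, ℓ • u = 0 ∧ e1 u y ≠ 1) :
    ∀ y, (ℓ ^ k) • y = 0 → y ≠ 0 → ∃ u, (ℓ ^ k) • u = 0 ∧ e u y ≠ 1 := by
  classical
  intro y hy hy0
  -- the least `j` with `ℓ^(j+1) y = 0`
  have hex : ∃ j, (ℓ ^ (j + 1)) • y = 0 := by
    rcases Nat.eq_zero_or_pos k with hk | hk
    · subst hk
      rw [pow_zero, one_smul] at hy
      exact absurd hy hy0
    · refine ⟨k - 1, ?_⟩
      rwa [Nat.sub_add_cancel hk]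
  let j := Nat.find hex
  have hj : (ℓ ^ (j + 1)) • y = 0 := Nat.find_spec hex
  have hj' : (ℓ ^ j) • y ≠ 0 := by
    rcases Nat.eq_zero_or_pos j with h | h
    · rw [h, pow_zero, one_smul]; exact hy0
    · intro hzero
      have hlt : j - 1 < j := Nat.sub_lt h Nat.one_pos
      apply Nat.find_min hex hlt
      rwa [Nat.sub_add_cancel h]
  set y' : G := (ℓ ^ j) • y with hy'
  have hy'ℓ : ℓ • y' = 0 := by
    rw [hy', smul_smul, ← pow_succ']; exact hj
  obtain ⟨u1, hu1, hu1e⟩ := hperf1 y' hy'ℓ hj'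
  obtain ⟨u, hu, huu1⟩ := hdiv u1 hu1
  refine ⟨u, hu, fun hone => hu1e ?_⟩
  -- `e u (n y) = (e u y)^n`
  have hpow : ∀ n : ℕ, e u (n • y) = e u y ^ n := by
    intro n
    induction n with
    | zero => rw [zero_smul, pow_zero]; exact hr0 u hu
    | succ n ih =>
      have hny : (ℓ ^ k) • (n • y) = 0 := by
        rw [smul_comm, hy, smul_zero]
      rw [succ_nsmul, hr u _ _ hu hny hy, ih, pow_succ]
  have h1 : e u y' = 1 := by rw [hy', hpow, hone, one_pow]
  rw [← huu1, ← hcompat u y' hu hy'ℓ]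
  exact h1

end PrimePower

end Fermat.Agent.T6.helper51
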