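import Mathlib

/-
T6 (S19 / S32), block KM-ADD, leaf [RANK] (helper51): the RANK LEMMA = linear algebra in
families over a local ring of functions.  Mathlib only.

Situation of the consumer (Khuri-Makdisi addition in charts): `Λ` is the image of
`H_y ⊗ H_y'` in `Map(fibre_y × fibre_y', ℚ̄)`; the evaluations `ev s : Λ →+* ℚ̄` at the points
are jointly injective (`hev`), and `Λ` is local with residue map `res : Λ →+* k` (`hres`: an
element with nonzero residue is a unit).  A step of the algorithm is a matrix `M` over `Λ`
(products of sections, or a division = kernel).  Riemann's inequality at the points gives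
`rank ≤ r`, Riemann-Roch on the special fibre gives `rank ≥ r` at the closed point.  Then:

* `exists_rowReduce` : there is an invertible `P` such that `P * M` has `r` columns `j t` equal
  to distinct standard basis vectors `e_{i t}` and zero rows outside the `i t`
  (unit pivot minor; the Schur complement vanishes at every point, hence is `0`).
* `exists_mulVec_eq_of_pointwise` : a vector over `Λ` lying in the column space at every point
  is a `Λ`-combination of the columns (the image is a saturated direct summand).
* `rank_eq_of_rowReduce` : the rank is exactly `r` at every point.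
* `mulVec_map_eq_zero_iff`, `exists_mulVec_map_eq_iff` : kernel and image of `M.map φ` for
  EVERY specialisation `φ : Λ →+* R` (points, closed point, identity) in terms of the same
  row-reduced data, i.e. kernel and image commute with specialisation.
* `exists_cols_linearIndependent`, `exists_minor_ne_zero` : over a field, rank `≥ r` gives
  `r` independent columns and a nonzero `r`-minor.
-/

set_option autoImplicit false

open Module

namespace Fermat.Agent.T6.helper51

section Field

variable {k : Type*} [Field k] {m n : Type*} [Fintype n]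

/-- Over a field, a matrix of rank at least `r` has `r` linearly independent columns. -/
theorem exists_cols_linearIndependent (A : Matrix m n k) (r : ℕ) (hr : r ≤ A.rank) :
    ∃ j : Fin r → n, Function.Injective j ∧ LinearIndependent k (fun t => A.col (j t)) := by
  classical
  obtain ⟨b, hb, hspan, hli⟩ := exists_linearIndependent k (Set.range A.col)
  have hfin : b.Finite := (Set.finite_range _).subset hb
  let _ : Fintype b := hfin.fintype
  have hcard : A.rank = Fintype.card b := by
    rw [A.rank_eq_finrank_span_cols, ← hspan, finrank_span_set_eq_card hli, Set.toFinset_card]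
  have hle : r ≤ Fintype.card b := hcard ▸ hr
  let g : Fin r → b := fun t => (Fintype.equivFin b).symm (Fin.castLE hle t)
  have hg : Function.Injective g := fun t t' h => by
    have := (Fintype.equivFin b).symm.injective h
    exact Fin.castLE_injective hle this
  have hpre : ∀ t, ∃ c, A.col c = (g t : m → k) := fun t => hb (g t).2
  choose j hj using hpre
  have hli' : LinearIndependent k (fun t => A.col (j t)) := by
    have h1 : (fun t => A.col (j t)) = Subtype.val ∘ g := funext hj
    rw [h1]
    exact hli.comp g hg
  refine ⟨j, ?_, hli'⟩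
  have hinj := hli'.injective
  exact fun t t' h => hinj (by simp only [h])

/-- Over a field, a matrix of rank at least `r` has a nonzero minor of size `r`. -/
theorem exists_minor_ne_zero [Fintype m] (A : Matrix m n k) (r : ℕ) (hr : r ≤ A.rank) :
    ∃ (i : Fin r → m) (j : Fin r → n), Function.Injective i ∧ Function.Injective j ∧
      (A.submatrix i j).det ≠ 0 := by
  classical
  obtain ⟨j, hj, hlij⟩ := exists_cols_linearIndependent A r hr
  -- the transpose of the selected columns
  let Ct : Matrix (Fin r) m k := (A.submatrix id j).transpose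
  have hrow : LinearIndependent k Ct.row := hlij
  have hrk : r ≤ Ct.rank := by
    rw [hrow.rank_matrix, Fintype.card_fin]
  obtain ⟨i, hi, hlii⟩ := exists_cols_linearIndependent Ct r hrk
  refine ⟨i, j, hi, hj, ?_⟩
  have hB : LinearIndependent k (A.submatrix i j).row := hlii
  have hu : IsUnit (A.submatrix i j) := Matrix.linearIndependent_rows_iff_isUnit.mp hB
  exact ((Matrix.isUnit_iff_isUnit_det _).mp hu).ne_zero

/-- A column space of dimension at most `r` containing `r` distinct standard basis vectors
`e_{i t}` is contained in the coordinate subspace they span. -/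
theorem col_apply_eq_zero_of_rank_le [Fintype m] [DecidableEq m] (A : Matrix m n k) (r : ℕ)
    (hr : A.rank ≤ r) (i : Fin r → m) (hi : Function.Injective i) (j : Fin r → n)
    (hcol : ∀ t a, A a (j t) = if a = i t then 1 else 0)
    (a : m) (ha : ∀ t, a ≠ i t) (b : n) : A a b = 0 := by
  classical
  set V : Submodule k (m → k) := Submodule.span k (Set.range A.col) with hV
  set v : Fin r → (m → k) := fun t => Pi.single (i t) (1 : k) with hv
  set W : Submodule k (m → k) := Submodule.span k (Set.range v) with hW
  have hvli : LinearIndependent k v := by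
    have := (Pi.basisFun k m).linearIndependent.comp i hi
    have h2 : v = (⇑(Pi.basisFun k m)) ∘ i := by
      funext t
      simp [hv, Pi.basisFun_apply]
    rw [h2]; exact this
  have hWV : W ≤ V := by
    rw [hW, Submodule.span_le]
    rintro _ ⟨t, rfl⟩
    have : v t = A.col (j t) := by
      funext a'
      simp only [hv, Matrix.col_apply, hcol, Pi.single_apply]
    rw [this]
    exact Submodule.subset_span ⟨j t, rfl⟩
  have hWr : finrank k W = r := by
    rw [hW, finrank_span_eq_card hvli, Fintype.card_fin]
  have hVr : finrank k V ≤ finrank k W := by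
    rw [hWr, hV, ← A.rank_eq_finrank_span_cols]; exact hr
  have hEq : W = V := Submodule.eq_of_le_of_finrank_le hWV hVr
  have hmem : A.col b ∈ W := by
    rw [hEq]; exact Submodule.subset_span ⟨b, rfl⟩
  have hker : W ≤ LinearMap.ker (LinearMap.proj (R := k) (φ := fun _ : m => k) a) := by
    rw [hW, Submodule.span_le]
    rintro _ ⟨t, rfl⟩
    simp only [SetLike.mem_coe, LinearMap.mem_ker, LinearMap.proj_apply, hv]
    rw [Pi.single_apply, if_neg (ha t)]
  have := hker hmem
  simpa [LinearMap.mem_ker] using this

end Field

section Main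

variable {Λ K k : Type*} [CommRing Λ] [Field K] [Field k] {S : Type*}
variable {m n : Type*} [Fintype m] [Fintype n] [DecidableEq m]

/-- **Rank lemma** (row reduction in families).  `Λ` is a ring of "functions on `S`"
(`ev` is jointly injective) which is local with residue map `res` (`hres`).  If a matrix `M`
over `Λ` has rank at most `r` at every point of `S` and rank at least `r` at the closed point,
then after an invertible row transformation `P` the matrix `P * M` has `r` columns `j t` equal
to distinct standard basis vectors `e_{i t}` and all its rows outside the `i t` vanish. -/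
theorem exists_rowReduce (ev : S → Λ →+* K) (hev : ∀ a : Λ, (∀ s, ev s a = 0) → a = 0)
    (res : Λ →+* k) (hres : ∀ a : Λ, res a ≠ 0 → IsUnit a)
    (M : Matrix m n Λ) (r : ℕ) (hgen : ∀ s, (M.map (ev s)).rank ≤ r)
    (hsp : r ≤ (M.map res).rank) :
    ∃ (P P' : Matrix m m Λ) (i : Fin r → m) (j : Fin r → n),
      P * P' = 1 ∧ P' * P = 1 ∧ Function.Injective i ∧ Function.Injective j ∧
      (∀ t a, (P * M) a (j t) = if a = i t then 1 else 0) ∧
      (∀ a, (∀ t, a ≠ i t) → ∀ b, (P * M) a b = 0) := by
  classical
  obtain ⟨i, j, hi, hj, hdet⟩ := exists_minor_ne_zero (M.map res) r hsp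
  -- the unit minor
  set B : Matrix (Fin r) (Fin r) Λ := M.submatrix i j with hB
  have hBdet : IsUnit B.det := by
    apply hres
    have : res B.det = ((M.map res).submatrix i j).det := by
      rw [RingHom.map_det]; rfl
    rw [this]; exact hdet
  set C : Matrix m (Fin r) Λ := M.submatrix id j with hC
  let E : Matrix (Fin r) m Λ := Matrix.of fun t a => if a = i t then 1 else 0
  have hEapp : ∀ t a, E t a = if a = i t then 1 else 0 := fun _ _ => rfl
  let Et : Matrix m (Fin r) Λ := E.transpose
  have hEtapp : ∀ a t, Et a t = if a = i t then 1 else 0 := fun _ _ => rfl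
  have hEEt : E * Et = 1 := by
    ext t t'
    rw [Matrix.mul_apply, Finset.sum_eq_single (i t)]
    · rw [hEapp, hEtapp, if_pos rfl, one_mul, Matrix.one_apply]
      by_cases h : t = t'
      · subst h; simp
      · have : i t ≠ i t' := fun h' => h (hi h')
        rw [if_neg this, if_neg h]
    · intro a _ ha
      rw [hEapp, if_neg ha, zero_mul]
    · intro h; exact absurd (Finset.mem_univ _) h
  have hEC : E * C = B := by
    ext t t'
    rw [Matrix.mul_apply, Finset.sum_eq_single (i t)]
    · rw [hEapp, if_pos rfl, one_mul]; rfl
    · intro a _ ha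
      rw [hEapp, if_neg ha, zero_mul]
    · intro h; exact absurd (Finset.mem_univ _) h
  -- the matrix with columns `c_t` at the places `i t` and standard basis vectors elsewhere
  set T : Matrix m m Λ := 1 + (C - Et) * E with hT
  have hTdet : IsUnit T.det := by
    have : T.det = B.det := by
      rw [hT, Matrix.det_one_add_mul_comm, Matrix.mul_sub, hEC, hEEt, add_sub_cancel]
    rw [this]; exact hBdet
  have hTEt : T * Et = C := by
    rw [hT, Matrix.add_mul, Matrix.one_mul, Matrix.mul_assoc, hEEt, Matrix.mul_one,
      add_sub_cancel]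
  refine ⟨T⁻¹, T, i, j, Matrix.nonsing_inv_mul T hTdet, Matrix.mul_nonsing_inv T hTdet, hi, hj,
    ?_, ?_⟩
  · intro t a
    have h1 : T⁻¹ * C = Et := by
      rw [← hTEt, ← Matrix.mul_assoc, Matrix.nonsing_inv_mul T hTdet, Matrix.one_mul]
    have h2 : (T⁻¹ * M) a (j t) = (T⁻¹ * C) a t := by
      simp only [Matrix.mul_apply, hC, Matrix.submatrix_apply, id]
    rw [h2, h1, hEtapp]
  · intro a ha b
    apply hev
    intro s
    have hmap : (T⁻¹ * M).map (ev s) = (T⁻¹).map (ev s) * M.map (ev s) := Matrix.map_mul
    have hrk : ((T⁻¹ * M).map (ev s)).rank ≤ r := by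
      rw [hmap]
      exact (Matrix.rank_mul_le_right _ _).trans (hgen s)
    have hcol : ∀ t a', ((T⁻¹ * M).map (ev s)) a' (j t) = if a' = i t then 1 else 0 := by
      intro t a'
      have h1 : T⁻¹ * C = Et := by
        rw [← hTEt, ← Matrix.mul_assoc, Matrix.nonsing_inv_mul T hTdet, Matrix.one_mul]
      have h2 : (T⁻¹ * M) a' (j t) = (T⁻¹ * C) a' t := by
        simp only [Matrix.mul_apply, hC, Matrix.submatrix_apply, id]
      rw [Matrix.map_apply, h2, h1, hEtapp]
      split_ifs <;> simp
    have := col_apply_eq_zero_of_rank_le ((T⁻¹ * M).map (ev s)) r hrk i hi j hcol a ha b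
    simpa [Matrix.map_apply] using this

/-- **Image criterion.**  In the situation of the rank lemma, a vector `u` over `Λ` which lies
in the column space of `M` at every point of `S` is a `Λ`-linear combination of the columns of
`M` (the image of `M` is "saturated"). -/
theorem exists_mulVec_eq_of_pointwise (ev : S → Λ →+* K) (hev : ∀ a : Λ, (∀ s, ev s a = 0) → a = 0)
    (res : Λ →+* k) (hres : ∀ a : Λ, res a ≠ 0 → IsUnit a)
    (M : Matrix m n Λ) (r : ℕ) (hgen : ∀ s, (M.map (ev s)).rank ≤ r)
    (hsp : r ≤ (M.map res).rank) (u : m → Λ)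
    (hu : ∀ s, ∃ c : n → K, (M.map (ev s)).mulVec c = fun a => ev s (u a)) :
    ∃ c : n → Λ, M.mulVec c = u := by
  classical
  obtain ⟨P, P', i, j, hPP', hP'P, hi, hj, hcol, hrow⟩ :=
    exists_rowReduce ev hev res hres M r hgen hsp
  -- `P u` vanishes outside the pivot rows
  have hPu : ∀ a, (∀ t, a ≠ i t) → P.mulVec u a = 0 := by
    intro a ha
    apply hev
    intro s
    obtain ⟨c, hc⟩ := hu s
    have h1 : ev s (P.mulVec u a) = ((P.map (ev s)).mulVec fun a' => ev s (u a')) a := by
      simp only [Matrix.mulVec, dotProduct, map_sum, map_mul, Matrix.map_apply]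
    rw [h1, ← hc, Matrix.mulVec_mulVec, ← Matrix.map_mul]
    simp only [Matrix.mulVec, dotProduct, Matrix.map_apply]
    apply Finset.sum_eq_zero
    intro b _
    rw [hrow a ha b, map_zero, zero_mul]
  -- the coefficient vector, supported on the pivot columns
  obtain ⟨w, hw⟩ : ∃ w : m → Λ, w = P.mulVec u := ⟨_, rfl⟩
  rw [← hw] at hPu
  let c : n → Λ := fun b => ∑ t, if b = j t then w (i t) else 0
  refine ⟨c, ?_⟩
  have hPM : (P * M).mulVec c = w := by
    funext a
    have hsum : (P * M).mulVec c a = ∑ t, (P * M) a (j t) * w (i t) := by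
      simp only [Matrix.mulVec, dotProduct, c, Finset.mul_sum]
      rw [Finset.sum_comm]
      apply Finset.sum_congr rfl
      intro t _
      rw [Finset.sum_eq_single (j t)]
      · rw [if_pos rfl]
      · intro b _ hb; rw [if_neg hb, mul_zero]
      · intro h; exact absurd (Finset.mem_univ _) h
    rw [hsum]
    by_cases ha : ∃ t, a = i t
    · obtain ⟨t₀, rfl⟩ := ha
      rw [Finset.sum_eq_single t₀]
      · rw [hcol, if_pos rfl, one_mul]
      · intro t _ ht
        have : i t₀ ≠ i t := fun h => ht (hi h).symm
        rw [hcol, if_neg this, zero_mul]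
      · intro h; exact absurd (Finset.mem_univ _) h
    · have ha' : ∀ t, a ≠ i t := fun t h => ha ⟨t, h⟩
      rw [hPu a ha']
      apply Finset.sum_eq_zero
      intro t _
      rw [hcol, if_neg (ha' t), zero_mul]
  have h2 : P'.mulVec ((P * M).mulVec c) = P'.mulVec (P.mulVec u) := by rw [hPM, hw]
  rwa [Matrix.mulVec_mulVec, Matrix.mulVec_mulVec, ← Matrix.mul_assoc, hP'P, Matrix.one_mul,
    Matrix.one_mulVec] at h2

/-- In the situation of the rank lemma the rank is exactly `r` at every point. -/
theorem rank_eq_of_rowReduce (ev : S → Λ →+* K) (hev : ∀ a : Λ, (∀ s, ev s a = 0) → a = 0)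
    (res : Λ →+* k) (hres : ∀ a : Λ, res a ≠ 0 → IsUnit a)
    (M : Matrix m n Λ) (r : ℕ) (hgen : ∀ s, (M.map (ev s)).rank ≤ r)
    (hsp : r ≤ (M.map res).rank) (s : S) : (M.map (ev s)).rank = r := by
  classical
  refine le_antisymm (hgen s) ?_
  obtain ⟨P, P', i, j, hPP', hP'P, hi, hj, hcol, hrow⟩ :=
    exists_rowReduce ev hev res hres M r hgen hsp
  have hle : ((P * M).map (ev s)).rank ≤ (M.map (ev s)).rank := by
    rw [Matrix.map_mul]; exact Matrix.rank_mul_le_right _ _
  refine le_trans ?_ hle
  -- the pivot columns of `P * M` are independent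
  have hli : LinearIndependent K (fun t => ((P * M).map (ev s)).col (j t)) := by
    have := (Pi.basisFun K m).linearIndependent.comp i hi
    have h2 : (fun t => ((P * M).map (ev s)).col (j t)) = (⇑(Pi.basisFun K m)) ∘ i := by
      funext t a
      simp only [Matrix.col_apply, Matrix.map_apply, hcol, Function.comp_apply,
        Pi.basisFun_apply, Pi.single_apply]
      split_ifs <;> simp
    rw [h2]; exact this
  rw [Matrix.rank_eq_finrank_span_cols]
  have hle2 : Submodule.span K (Set.range fun t => ((P * M).map (ev s)).col (j t)) ≤
      Submodule.span K (Set.range ((P * M).map (ev s)).col) := by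
    apply Submodule.span_mono
    rintro _ ⟨t, rfl⟩
    exact ⟨j t, rfl⟩
  have := Submodule.finrank_mono hle2
  rwa [finrank_span_eq_card hli, Fintype.card_fin] at this

/-- **Kernel criterion**, compatible with every specialisation `φ : Λ →+* R` (a point of `S`,
the closed point, the identity): for row-reduced data `P, P', i` as produced by
`exists_rowReduce`, the kernel of `M.map φ` is cut out by the `r` pivot rows of `P * M`. -/
theorem mulVec_map_eq_zero_iff {R : Type*} [CommRing R] (φ : Λ →+* R) (M : Matrix m n Λ)
    {r : ℕ} (P P' : Matrix m m Λ) (i : Fin r → m) (hP'P : P' * P = 1)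
    (hrow : ∀ a, (∀ t, a ≠ i t) → ∀ b, (P * M) a b = 0) (c : n → R) :
    (M.map φ).mulVec c = 0 ↔ ∀ t, ∑ b, φ ((P * M) (i t) b) * c b = 0 := by
  classical
  have hN : ((P * M).map φ).mulVec c = (P.map φ).mulVec ((M.map φ).mulVec c) := by
    rw [Matrix.mulVec_mulVec, ← Matrix.map_mul]
  constructor
  · intro h t
    have h1 := congrFun hN (i t)
    rw [h, Matrix.mulVec_zero] at h1
    simpa [Matrix.mulVec, dotProduct, Matrix.map_apply] using h1
  · intro h
    have hzero : ((P * M).map φ).mulVec c = 0 := by
      funext a
      by_cases ha : ∃ t, a = i t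
      · obtain ⟨t, rfl⟩ := ha
        simpa [Matrix.mulVec, dotProduct, Matrix.map_apply] using h t
      · have ha' : ∀ t, a ≠ i t := fun t h' => ha ⟨t, h'⟩
        simp only [Matrix.mulVec, dotProduct, Matrix.map_apply, Pi.zero_apply]
        apply Finset.sum_eq_zero
        intro b _
        rw [hrow a ha' b, map_zero, zero_mul]
    have h2 : (P'.map φ).mulVec (((P * M).map φ).mulVec c) = 0 := by
      rw [hzero, Matrix.mulVec_zero]
    rw [Matrix.mulVec_mulVec, ← Matrix.map_mul, ← Matrix.mul_assoc, hP'P, Matrix.one_mul] at h2
    exact h2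

/-- **Image criterion**, compatible with every specialisation `φ : Λ →+* R`: for row-reduced
data as produced by `exists_rowReduce`, a vector `u` lies in the image of `M.map φ` if and only
if `P u` vanishes outside the pivot rows; the coefficients can be taken on the pivot columns. -/
theorem exists_mulVec_map_eq_iff {R : Type*} [CommRing R] (φ : Λ →+* R) (M : Matrix m n Λ)
    {r : ℕ} (P P' : Matrix m m Λ) (i : Fin r → m) (j : Fin r → n) (hP'P : P' * P = 1)
    (hi : Function.Injective i)
    (hcol : ∀ t a, (P * M) a (j t) = if a = i t then 1 else 0)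
    (hrow : ∀ a, (∀ t, a ≠ i t) → ∀ b, (P * M) a b = 0) (u : m → R) :
    (∃ c : n → R, (M.map φ).mulVec c = u) ↔ ∀ a, (∀ t, a ≠ i t) → (P.map φ).mulVec u a = 0 := by
  classical
  constructor
  · rintro ⟨c, rfl⟩ a ha
    rw [Matrix.mulVec_mulVec, ← Matrix.map_mul]
    simp only [Matrix.mulVec, dotProduct, Matrix.map_apply]
    apply Finset.sum_eq_zero
    intro b _
    rw [hrow a ha b, map_zero, zero_mul]
  · intro hPu
    obtain ⟨w, hw⟩ : ∃ w : m → R, w = (P.map φ).mulVec u := ⟨_, rfl⟩
    rw [← hw] at hPu
    let c : n → R := fun b => ∑ t, if b = j t then w (i t) else 0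
    refine ⟨c, ?_⟩
    have hPM : ((P * M).map φ).mulVec c = w := by
      funext a
      have hsum : ((P * M).map φ).mulVec c a = ∑ t, φ ((P * M) a (j t)) * w (i t) := by
        simp only [Matrix.mulVec, dotProduct, c, Finset.mul_sum, Matrix.map_apply]
        rw [Finset.sum_comm]
        apply Finset.sum_congr rfl
        intro t _
        rw [Finset.sum_eq_single (j t)]
        · rw [if_pos rfl]
        · intro b _ hb; rw [if_neg hb, mul_zero]
        · intro h; exact absurd (Finset.mem_univ _) h
      rw [hsum]
      by_cases ha : ∃ t, a = i t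
      · obtain ⟨t₀, rfl⟩ := ha
        rw [Finset.sum_eq_single t₀]
        · rw [hcol, if_pos rfl, map_one, one_mul]
        · intro t _ ht
          have : i t₀ ≠ i t := fun h => ht (hi h).symm
          rw [hcol, if_neg this, map_zero, zero_mul]
        · intro h; exact absurd (Finset.mem_univ _) h
      · have ha' : ∀ t, a ≠ i t := fun t h => ha ⟨t, h⟩
        rw [hPu a ha']
        apply Finset.sum_eq_zero
        intro t _
        rw [hcol, if_neg (ha' t), map_zero, zero_mul]
    have h2 : (P'.map φ).mulVec (((P * M).map φ).mulVec c) =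
        (P'.map φ).mulVec ((P.map φ).mulVec u) := by rw [hPM, hw]
    rwa [Matrix.mulVec_mulVec, Matrix.mulVec_mulVec, ← Matrix.map_mul, ← Matrix.map_mul,
      ← Matrix.mul_assoc, hP'P, Matrix.one_mul, Matrix.map_one _ (map_zero φ) (map_one φ),
      Matrix.one_mulVec] at h2

end Main

end Fermat.Agent.T6.helper51
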