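import Mathlib
import Fermat.Prelude.Def_AlgebraicCurve_Correspondence
import Fermat.Agent.T6.helper58_WeilVal

/-!
# T6 [W1] (helper58): products of linear factors `t - a` and their behaviour at a place
-/

set_option autoImplicit false
set_option linter.unusedSectionVars false

open AlgebraicCurve Polynomial

namespace Fermat.Agent.T6.helper58

open Fermat.Agent.S24.helper75

variable {K F : Type*} [Field K] [Field F] [Algebra K F]

/-- the product of the linear factors `t - a`, `a ∈ M` -/
noncomputable def linProd (t : F) (M : Multiset K) : F :=
  (M.map (fun a => t - algebraMap K F a)).prod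

@[simp] theorem linProd_zero (t : F) : linProd t (0 : Multiset K) = 1 := by
  simp [linProd]

@[simp] theorem linProd_cons (t : F) (a : K) (M : Multiset K) :
    linProd t (a ::ₘ M) = (t - algebraMap K F a) * linProd t M := by
  simp [linProd]

theorem linProd_add (t : F) (M M' : Multiset K) :
    linProd t (M + M') = linProd t M * linProd t M' := by
  simp [linProd]

theorem linProd_replicate (t : F) (n : ℕ) (a : K) :
    linProd t (Multiset.replicate n a) = (t - algebraMap K F a) ^ n := by
  simp [linProd]

theorem linProd_ne_zero {t : F} (ht : ∀ a : K, t ≠ algebraMap K F a) (M : Multiset K) :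
    linProd t M ≠ 0 := by
  induction M using Multiset.induction_on with
  | empty => simp
  | cons a M ih =>
    rw [linProd_cons]
    exact mul_ne_zero (sub_ne_zero.mpr (ht a)) ih

theorem linProd_eq_pow_mul [DecidableEq K] (t : F) (a : K) (M : Multiset K) :
    linProd t M = (t - algebraMap K F a) ^ (M.count a) * linProd t (M.filter (fun b => ¬ b = a)) := by
  conv_lhs => rw [← Multiset.filter_add_not (fun b => b = a) M]
  rw [linProd_add, Multiset.filter_eq', linProd_replicate]

/-- the factorisation of a polynomial value into linear factors -/
theorem aeval_eq_linProd [IsAlgClosed K] (p : K[X]) (t : F) :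
    aeval t p = algebraMap K F p.leadingCoeff * linProd t p.roots := by
  have h := (IsAlgClosed.splits p).eq_prod_roots
  conv_lhs => rw [h]
  rw [map_mul, aeval_C, map_multiset_prod, Multiset.map_map]
  congr 2
  refine Multiset.map_congr rfl fun a _ => ?_
  simp

/-- values of a product of linear factors at a place where `t` has the value `a` -/
theorem isVal_linProd {P : Place K F} {t : F} {a : K} (h : IsVal P t a) (M : Multiset K) :
    IsVal P (linProd t M) ((M.map (fun b => a - b)).prod) := by
  induction M using Multiset.induction_on with
  | empty => simpa using isVal_one P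
  | cons b M ih =>
    rw [linProd_cons, Multiset.map_cons, Multiset.prod_cons]
    exact (h.sub (isVal_algebraMap P b)).mul ih

theorem prod_sub_ne_zero {a : K} {M : Multiset K} (ha : a ∉ M) :
    (M.map (fun b => a - b)).prod ≠ 0 := by
  induction M using Multiset.induction_on with
  | empty => simp
  | cons b M ih =>
    rw [Multiset.map_cons, Multiset.prod_cons]
    rw [Multiset.mem_cons, not_or] at ha
    exact mul_ne_zero (sub_ne_zero.mpr ha.1) (ih ha.2)

theorem ord_neg (P : Place K F) (x : F) : P.ord (-x) = P.ord x := by
  rcases eq_or_ne x 0 with rfl | hx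
  · simp
  have h1 : -x = algebraMap K F (-1) * x := by
    rw [map_neg, map_one]
    ring
  rw [h1, P.ord_mul (by simp) hx, place_ord_algebraMap, zero_add]

theorem ord_pow (P : Place K F) (x : F) (n : ℕ) : P.ord (x ^ n) = n * P.ord x := by
  rw [← zpow_natCast, P.ord_zpow]

/-- order of a product of linear factors at a place where `t` has the value `a` -/
theorem ord_linProd_of_isVal [DecidableEq K] {P : Place K F} {t : F} {a : K} (h : IsVal P t a)
    (ht : ∀ b : K, t ≠ algebraMap K F b) (M : Multiset K) :
    P.ord (linProd t M) = M.count a * P.ord (t - algebraMap K F a) := by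
  rw [linProd_eq_pow_mul t a M,
    P.ord_mul (pow_ne_zero _ (sub_ne_zero.mpr (ht a))) (linProd_ne_zero ht _), ord_pow]
  have h1 := isVal_linProd h (M.filter (fun b => ¬ b = a))
  have h2 : a ∉ M.filter (fun b => ¬ b = a) := by
    intro hmem
    exact (Multiset.mem_filter.mp hmem).2 rfl
  rw [h1.ord_eq_zero (prod_sub_ne_zero h2), add_zero]

/-- at a pole of `t` -/
theorem ord_sub_of_pole {P : Place K F} {t : F} (h : P.ord t < 0) (b : K) :
    P.ord (t - algebraMap K F b) = P.ord t := by
  have ht0 : t ≠ 0 := by
    rintro rfl
    simp at h
  have htb : t - algebraMap K F b ≠ 0 := by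
    intro h0
    rw [sub_eq_zero] at h0
    rw [h0, place_ord_algebraMap] at h
    exact lt_irrefl 0 h
  have h1 := place_ord_add_ge P (f := t) (g := -algebraMap K F b)
    (by rw [← sub_eq_add_neg]; exact htb)
  rw [← sub_eq_add_neg, ord_neg, place_ord_algebraMap] at h1
  have h2 := place_ord_add_ge P (f := t - algebraMap K F b) (g := algebraMap K F b)
    (by rw [sub_add_cancel]; exact ht0)
  rw [sub_add_cancel, place_ord_algebraMap] at h2
  rcases le_total (P.ord t) 0 with h3 | h3
  · rw [min_eq_left h3] at h1
    rcases le_total (P.ord (t - algebraMap K F b)) 0 with h4 | h4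
    · rw [min_eq_left h4] at h2
      omega
    · omega
  · omega

theorem isVal_inv_of_pole {P : Place K F} {t : F} (h : P.ord t < 0) : IsVal P t⁻¹ 0 := by
  rw [isVal_zero_iff]
  right
  rw [P.ord_inv]
  omega

theorem isVal_sub_div_of_pole {P : Place K F} {t : F} (h : P.ord t < 0) (b : K) :
    IsVal P ((t - algebraMap K F b) / t) 1 := by
  have ht0 : t ≠ 0 := by
    rintro rfl
    simp at h
  have h1 : (t - algebraMap K F b) / t = 1 - algebraMap K F b * t⁻¹ := by
    field_simp
  rw [h1]
  have := (isVal_one P).sub ((isVal_algebraMap P b).mul (isVal_inv_of_pole h))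
  simpa using this

theorem isVal_linProd_div_of_pole {P : Place K F} {t : F} (h : P.ord t < 0) (M : Multiset K) :
    IsVal P (linProd t M / t ^ (Multiset.card M)) 1 := by
  have ht0 : t ≠ 0 := by
    rintro rfl
    simp at h
  induction M using Multiset.induction_on with
  | empty => simpa using isVal_one P
  | cons b M ih =>
    rw [linProd_cons, Multiset.card_cons, pow_succ]
    have h1 : (t - algebraMap K F b) * linProd t M / (t ^ Multiset.card M * t) =
        ((t - algebraMap K F b) / t) * (linProd t M / t ^ Multiset.card M) := by
      field_simp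
    rw [h1]
    have := (isVal_sub_div_of_pole h b).mul ih
    simpa using this

theorem ord_linProd_of_pole {P : Place K F} {t : F} (h : P.ord t < 0) (M : Multiset K) :
    P.ord (linProd t M) = Multiset.card M * P.ord t := by
  induction M using Multiset.induction_on with
  | empty => simp
  | cons b M ih =>
    have ht : ∀ b : K, t ≠ algebraMap K F b := by
      intro b hb
      rw [hb, place_ord_algebraMap] at h
      exact lt_irrefl 0 h
    rw [linProd_cons, P.ord_mul (sub_ne_zero.mpr (ht b)) (linProd_ne_zero ht M), ih,
      ord_sub_of_pole h, Multiset.card_cons]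
    push_cast
    ring

end Fermat.Agent.T6.helper58
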