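import Mathlib
import Fermat.Prelude.Def_AlgebraicCurve_Correspondence
import Fermat.Agent.T6.helper58_WeilLin

/-!
# T6 [W1] (helper58): the rational function field `K(g)` inside a function field - factored forms,
uniqueness of the place `g = a` and of the pole of `g`, fibres of `F / K(g)`
-/

set_option autoImplicit false
set_option linter.unusedSectionVars false
set_option linter.style.haveILetI false

open AlgebraicCurve Polynomial IntermediateField

namespace Fermat.Agent.T6.helper58

open Fermat.Agent.S24.helper75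

section Factored

variable {K F : Type*} [Field K] [Field F] [Algebra K F]

/-- `x` is `c * ∏_{a ∈ M₁} (t - a) / ∏_{b ∈ M₂} (t - b)` -/
def IsFactored (t x : F) (c : K) (M₁ M₂ : Multiset K) : Prop :=
  c ≠ 0 ∧ x = algebraMap K F c * linProd t M₁ / linProd t M₂

theorem exists_isFactored [IsAlgClosed K] {g x : F} (hx : x ∈ K⟮g⟯) (hx0 : x ≠ 0) :
    ∃ (c : K) (M₁ M₂ : Multiset K), IsFactored g x c M₁ M₂ := by
  obtain ⟨r, s, hrs⟩ := (mem_adjoin_simple_iff K x).mp hx
  have hr : aeval g r ≠ 0 := by
    intro h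
    rw [h, zero_div] at hrs
    exact hx0 hrs
  have hs : aeval g s ≠ 0 := by
    intro h
    rw [h, div_zero] at hrs
    exact hx0 hrs
  have hr0 : r.leadingCoeff ≠ 0 := by
    rw [ne_eq, leadingCoeff_eq_zero]
    rintro rfl
    simp at hr
  have hs0 : s.leadingCoeff ≠ 0 := by
    rw [ne_eq, leadingCoeff_eq_zero]
    rintro rfl
    simp at hs
  refine ⟨r.leadingCoeff / s.leadingCoeff, r.roots, s.roots, div_ne_zero hr0 hs0, ?_⟩
  rw [hrs, aeval_eq_linProd r g, aeval_eq_linProd s g, map_div₀]
  have h1 : algebraMap K F s.leadingCoeff ≠ 0 := by simpa using hs0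
  have h2 : linProd g s.roots ≠ 0 := by
    intro h
    apply hs
    rw [aeval_eq_linProd s g, h, mul_zero]
  field_simp

variable {t x : F} {c : K} {M₁ M₂ : Multiset K}

theorem IsFactored.ord_of_isVal [DecidableEq K] (h : IsFactored t x c M₁ M₂) {P : Place K F}
    {a : K} (ha : IsVal P t a) (ht : ∀ b : K, t ≠ algebraMap K F b) :
    P.ord x = ((M₁.count a : ℤ) - M₂.count a) * P.ord (t - algebraMap K F a) := by
  obtain ⟨hc, rfl⟩ := h
  have hc' : algebraMap K F c ≠ 0 := by simpa using hc
  rw [div_eq_mul_inv, P.ord_mul (mul_ne_zero hc' (linProd_ne_zero ht _))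
    (inv_ne_zero (linProd_ne_zero ht _)), P.ord_mul hc' (linProd_ne_zero ht _), P.ord_inv,
    place_ord_algebraMap, ord_linProd_of_isVal ha ht, ord_linProd_of_isVal ha ht]
  ring

theorem IsFactored.ord_of_pole (h : IsFactored t x c M₁ M₂) {P : Place K F}
    (hP : P.ord t < 0) :
    P.ord x = ((Multiset.card M₁ : ℤ) - Multiset.card M₂) * P.ord t := by
  obtain ⟨hc, rfl⟩ := h
  have ht : ∀ b : K, t ≠ algebraMap K F b := by
    intro b hb
    rw [hb, place_ord_algebraMap] at hP
    exact lt_irrefl 0 hP
  have hc' : algebraMap K F c ≠ 0 := by simpa using hc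
  rw [div_eq_mul_inv, P.ord_mul (mul_ne_zero hc' (linProd_ne_zero ht _))
    (inv_ne_zero (linProd_ne_zero ht _)), P.ord_mul hc' (linProd_ne_zero ht _), P.ord_inv,
    place_ord_algebraMap, ord_linProd_of_pole hP, ord_linProd_of_pole hP]
  ring

/-- the value at a place `t = a` when the multiplicities of `a` cancel -/
theorem IsFactored.isVal_of_isVal [DecidableEq K] (h : IsFactored t x c M₁ M₂) {P : Place K F}
    {a : K} (ha : IsVal P t a) (ht : ∀ b : K, t ≠ algebraMap K F b)
    (hcount : M₁.count a = M₂.count a) :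
    IsVal P x (c * ((M₁.filter (fun b => ¬ b = a)).map (fun b => a - b)).prod /
      ((M₂.filter (fun b => ¬ b = a)).map (fun b => a - b)).prod) := by
  obtain ⟨hc, rfl⟩ := h
  have h2 : ∀ M : Multiset K, a ∉ M.filter (fun b => ¬ b = a) := by
    intro M hmem
    exact (Multiset.mem_filter.mp hmem).2 rfl
  have hx : algebraMap K F c * linProd t M₁ / linProd t M₂ =
      algebraMap K F c * linProd t (M₁.filter (fun b => ¬ b = a)) /
        linProd t (M₂.filter (fun b => ¬ b = a)) := by
    rw [linProd_eq_pow_mul t a M₁, linProd_eq_pow_mul t a M₂, hcount]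
    have h3 : (t - algebraMap K F a) ^ (M₂.count a) ≠ 0 :=
      pow_ne_zero _ (sub_ne_zero.mpr (ht a))
    have h4 := linProd_ne_zero ht (M₂.filter (fun b => ¬ b = a))
    field_simp
  rw [hx]
  exact ((isVal_algebraMap P c).mul (isVal_linProd ha _)).div (isVal_linProd ha _)
    (prod_sub_ne_zero (h2 M₂))

/-- the value at a pole of `t` when the degrees cancel -/
theorem IsFactored.isVal_of_pole (h : IsFactored t x c M₁ M₂) {P : Place K F}
    (hP : P.ord t < 0) (hcard : Multiset.card M₁ = Multiset.card M₂) : IsVal P x c := by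
  obtain ⟨hc, rfl⟩ := h
  have ht : ∀ b : K, t ≠ algebraMap K F b := by
    intro b hb
    rw [hb, place_ord_algebraMap] at hP
    exact lt_irrefl 0 hP
  have ht0 : t ≠ 0 := by
    have := ht 0
    simpa using this
  have hx : algebraMap K F c * linProd t M₁ / linProd t M₂ =
      algebraMap K F c * (linProd t M₁ / t ^ Multiset.card M₁) /
        (linProd t M₂ / t ^ Multiset.card M₂) := by
    rw [hcard]
    have h3 : t ^ Multiset.card M₂ ≠ 0 := pow_ne_zero _ ht0
    have h4 := linProd_ne_zero ht M₂
    field_simp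
  rw [hx]
  have := ((isVal_algebraMap P c).mul (isVal_linProd_div_of_pole hP M₁)).div
    (isVal_linProd_div_of_pole hP M₂) one_ne_zero
  simpa using this

end Factored

section Places

variable {K F : Type*} [Field K] [Field F] [Algebra K F]

/-- two places whose order functions are multiples of the order of one element by the same
integers coincide, and the element is a uniformiser -/
theorem place_eq_of_ord (v v' : Place K F) (u : F) (hu : 0 < v.ord u) (hu' : 0 < v'.ord u)
    (n : F → ℤ) (hn : ∀ x : F, x ≠ 0 → v.ord x = n x * v.ord u ∧ v'.ord x = n x * v'.ord u) :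
    v = v' ∧ v.ord u = 1 := by
  have key : ∀ w : Place K F, 0 < w.ord u → (∀ x : F, x ≠ 0 → w.ord x = n x * w.ord u) →
      w.ord u = 1 := by
    intro w hw hwn
    obtain ⟨π, hπ⟩ := IsDiscreteValuationRing.exists_irreducible w.toValuationSubring
    have h1 := w.ord_coe_irreducible hπ
    have hπ0 : (π : F) ≠ 0 := by
      simpa [ne_eq, ZeroMemClass.coe_eq_zero] using hπ.ne_zero
    have h2 := hwn _ hπ0
    rw [h1] at h2
    exact Int.eq_one_of_mul_eq_one_left hw.le h2.symm
  have h1 := key v hu (fun x hx => (hn x hx).1)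
  have h2 := key v' hu' (fun x hx => (hn x hx).2)
  refine ⟨?_, h1⟩
  apply Place.ext
  ext x
  rcases eq_or_ne x 0 with rfl | hx
  · simp [zero_mem]
  rw [place_mem_iff_ord_nonneg, place_mem_iff_ord_nonneg, (hn x hx).1, (hn x hx).2, h1, h2]

end Places

section Restrict

variable {K F F' : Type*} [Field K] [Field F] [Field F'] [Algebra K F] [Algebra K F']
  [Algebra F F'] [IsScalarTower K F F'] [Algebra.IsIntegral F F']

theorem isVal_restrict_iff (P : Place K F') (x : F) (c : K) :
    IsVal (P.restrict F) x c ↔ IsVal P (algebraMap F F' x) c := by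
  have hpos := P.ramificationIndex_pos (F := F)
  have h1 : algebraMap F F' x - algebraMap K F' c = algebraMap F F' (x - algebraMap K F c) := by
    rw [map_sub, ← IsScalarTower.algebraMap_apply]
  rw [isVal_iff', isVal_iff', h1, P.ord_restrict, map_eq_zero]
  constructor
  · rintro (h | h)
    · exact Or.inl h
    · right
      positivity
  · rintro (h | h)
    · exact Or.inl h
    · right
      by_contra hcon
      push Not at hcon
      have : (P.ramificationIndex F : ℤ) * (P.restrict F).ord (x - algebraMap K F c) ≤ 0 :=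
        mul_nonpos_of_nonneg_of_nonpos (by positivity) hcon
      omega

end Restrict

section Tower

variable {K F : Type*} [Field K] [Field F] [Algebra K F] [IsAlgClosed K]
variable (g : F)

theorem coe_linProd_gen (M : Multiset K) :
    algebraMap K⟮g⟯ F (linProd (AdjoinSimple.gen K g) M) = linProd g M := by
  unfold linProd
  rw [map_multiset_prod, Multiset.map_map]
  refine congrArg Multiset.prod (Multiset.map_congr rfl fun a _ => ?_)
  simp only [Function.comp_apply, map_sub]
  rfl

variable {g}

theorem gen_ne_algebraMap (hg : ∀ b : K, g ≠ algebraMap K F b) (b : K) :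
    AdjoinSimple.gen K g ≠ algebraMap K K⟮g⟯ b := by
  intro h
  apply hg b
  have := congrArg (algebraMap K⟮g⟯ F) h
  exact this

theorem exists_isFactored_gen (x : K⟮g⟯) (hx : x ≠ 0) :
    ∃ (c : K) (M₁ M₂ : Multiset K), IsFactored (AdjoinSimple.gen K g) x c M₁ M₂ ∧
      IsFactored g (algebraMap K⟮g⟯ F x) c M₁ M₂ := by
  have hx' : algebraMap K⟮g⟯ F x ≠ 0 := by simpa using hx
  obtain ⟨c, M₁, M₂, h⟩ := exists_isFactored (K := K) (g := g) (x := algebraMap K⟮g⟯ F x) x.2 hx'
  refine ⟨c, M₁, M₂, ⟨h.1, ?_⟩, h⟩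
  apply (algebraMap K⟮g⟯ F).injective
  rw [h.2, map_div₀, map_mul, coe_linProd_gen, coe_linProd_gen]
  rfl

/-- chosen multiplicity function of `x ∈ K(g)` at `a` -/
noncomputable def multAt (g : F) (a : K) (x : K⟮g⟯) : ℤ := by
  classical
  exact if hx : x ≠ 0 then
    (((exists_isFactored_gen x hx).choose_spec.choose.count a : ℤ) -
      (exists_isFactored_gen x hx).choose_spec.choose_spec.choose.count a)
  else 0

/-- chosen degree of `x ∈ K(g)` -/
noncomputable def degAt (g : F) (x : K⟮g⟯) : ℤ := by
  classical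
  exact if hx : x ≠ 0 then
    ((Multiset.card (exists_isFactored_gen x hx).choose_spec.choose : ℤ) -
      Multiset.card (exists_isFactored_gen x hx).choose_spec.choose_spec.choose)
  else 0

theorem ord_eq_multAt (hg : ∀ b : K, g ≠ algebraMap K F b) {v : Place K K⟮g⟯} {a : K}
    (hv : IsVal v (AdjoinSimple.gen K g) a) (x : K⟮g⟯) (hx : x ≠ 0) :
    v.ord x = multAt g a x * v.ord (AdjoinSimple.gen K g - algebraMap K K⟮g⟯ a) := by
  classical
  have h := (exists_isFactored_gen x hx).choose_spec.choose_spec.choose_spec.1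
  rw [h.ord_of_isVal hv (gen_ne_algebraMap hg)]
  unfold multAt
  rw [dif_pos hx]

theorem ord_eq_degAt {v : Place K K⟮g⟯}
    (hv : v.ord (AdjoinSimple.gen K g) < 0) (x : K⟮g⟯) (hx : x ≠ 0) :
    v.ord x = degAt g x * v.ord (AdjoinSimple.gen K g) := by
  classical
  have h := (exists_isFactored_gen x hx).choose_spec.choose_spec.choose_spec.1
  rw [h.ord_of_pole hv]
  unfold degAt
  rw [dif_pos hx]

/-- uniqueness of the place `g = a` of `K(g)`; `g - a` is a uniformiser there -/
theorem place_gen_unique (hg : ∀ b : K, g ≠ algebraMap K F b) {v v' : Place K K⟮g⟯} {a : K}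
    (hv : IsVal v (AdjoinSimple.gen K g) a) (hv' : IsVal v' (AdjoinSimple.gen K g) a) :
    v = v' ∧ v.ord (AdjoinSimple.gen K g - algebraMap K K⟮g⟯ a) = 1 := by
  have hne := sub_ne_zero.mpr (gen_ne_algebraMap hg a)
  have h1 : 0 < v.ord (AdjoinSimple.gen K g - algebraMap K K⟮g⟯ a) :=
    ((isVal_iff' _ _ _).mp hv).resolve_left hne
  have h2 : 0 < v'.ord (AdjoinSimple.gen K g - algebraMap K K⟮g⟯ a) :=
    ((isVal_iff' _ _ _).mp hv').resolve_left hne
  exact place_eq_of_ord v v' _ h1 h2 (multAt g a)
    (fun x hx => ⟨ord_eq_multAt hg hv x hx, ord_eq_multAt hg hv' x hx⟩)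

/-- uniqueness of the pole of `g` of `K(g)`; `1 / g` is a uniformiser there -/
theorem place_pole_unique {v v' : Place K K⟮g⟯}
    (hv : v.ord (AdjoinSimple.gen K g) < 0) (hv' : v'.ord (AdjoinSimple.gen K g) < 0) :
    v = v' ∧ v.ord (AdjoinSimple.gen K g) = -1 := by
  have h1 : 0 < v.ord (AdjoinSimple.gen K g)⁻¹ := by
    rw [v.ord_inv]
    omega
  have h2 : 0 < v'.ord (AdjoinSimple.gen K g)⁻¹ := by
    rw [v'.ord_inv]
    omega
  have := place_eq_of_ord v v' _ h1 h2 (fun x => -degAt g x)
    (fun x hx => ⟨by rw [ord_eq_degAt hv x hx, v.ord_inv]; ring,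
      by rw [ord_eq_degAt hv' x hx, v'.ord_inv]; ring⟩)
  refine ⟨this.1, ?_⟩
  have h3 := this.2
  rw [v.ord_inv] at h3
  omega

section Fibre

variable [FiniteDimensional K⟮g⟯ F]

theorem isVal_restrict_gen_iff (P : Place K F) (a : K) :
    IsVal (P.restrict K⟮g⟯) (AdjoinSimple.gen K g) a ↔ IsVal P g a :=
  isVal_restrict_iff P (AdjoinSimple.gen K g) a

/-- the fibre of `F / K(g)` through a place with `g = a` consists of the places with `g = a` -/
theorem restrict_eq_iff_isVal (hg : ∀ b : K, g ≠ algebraMap K F b) {P : Place K F} {a : K}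
    (hP : IsVal P g a) (P' : Place K F) :
    P'.restrict K⟮g⟯ = P.restrict K⟮g⟯ ↔ IsVal P' g a := by
  constructor
  · intro h
    rw [← isVal_restrict_gen_iff, h, isVal_restrict_gen_iff]
    exact hP
  · intro h
    exact (place_gen_unique hg ((isVal_restrict_gen_iff P' a).mpr h)
      ((isVal_restrict_gen_iff P a).mpr hP)).1

/-- the ramification index at a place with `g = a` is the order of `g - a` -/
theorem ramificationIndex_eq_ord (hg : ∀ b : K, g ≠ algebraMap K F b) {P : Place K F} {a : K}
    (hP : IsVal P g a) :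
    (P.ramificationIndex K⟮g⟯ : ℤ) = P.ord (g - algebraMap K F a) := by
  have h1 := (place_gen_unique hg ((isVal_restrict_gen_iff P a).mpr hP)
    ((isVal_restrict_gen_iff P a).mpr hP)).2
  have h2 := P.ord_restrict (F := K⟮g⟯) (AdjoinSimple.gen K g - algebraMap K K⟮g⟯ a)
  rw [h1, mul_one] at h2
  rw [← h2]
  rfl

theorem ord_restrict_gen (P : Place K F) :
    P.ord g = P.ramificationIndex K⟮g⟯ * (P.restrict K⟮g⟯).ord (AdjoinSimple.gen K g) :=
  P.ord_restrict (F := K⟮g⟯) (AdjoinSimple.gen K g)

theorem restrict_pole_iff (P : Place K F) :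
    (P.restrict K⟮g⟯).ord (AdjoinSimple.gen K g) < 0 ↔ P.ord g < 0 := by
  have hpos := P.ramificationIndex_pos (F := K⟮g⟯)
  rw [ord_restrict_gen (g := g) P]
  constructor
  · intro h
    exact mul_neg_of_pos_of_neg (by exact_mod_cast hpos) h
  · intro h
    by_contra hcon
    push Not at hcon
    have : (0 : ℤ) ≤ P.ramificationIndex K⟮g⟯ * (P.restrict K⟮g⟯).ord (AdjoinSimple.gen K g) :=
      mul_nonneg (by positivity) hcon
    omega

/-- the fibre of `F / K(g)` through a pole of `g` consists of the poles of `g` -/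
theorem restrict_eq_iff_pole {P : Place K F} (hP : P.ord g < 0) (P' : Place K F) :
    P'.restrict K⟮g⟯ = P.restrict K⟮g⟯ ↔ P'.ord g < 0 := by
  constructor
  · intro h
    rw [← restrict_pole_iff, h, restrict_pole_iff]
    exact hP
  · intro h
    exact (place_pole_unique ((restrict_pole_iff P').mpr h) ((restrict_pole_iff P).mpr hP)).1

/-- the ramification index at a pole of `g` is minus the order of `g` -/
theorem ramificationIndex_eq_neg_ord {P : Place K F} (hP : P.ord g < 0) :
    (P.ramificationIndex K⟮g⟯ : ℤ) = -P.ord g := by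
  have h1 := (place_pole_unique ((restrict_pole_iff P).mpr hP) ((restrict_pole_iff P).mpr hP)).2
  have h2 := ord_restrict_gen (g := g) P
  rw [h1] at h2
  omega

end Fibre

end Tower

end Fermat.Agent.T6.helper58
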