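import Mathlib
import Fermat.Prelude.Def_AlgebraicCurve_Correspondence
import Fermat.Agent.P2.helper74_NonSpecial
import Fermat.Agent.T6.helper58_WeilNV
import Fermat.Agent.T6.helper58_WeilP1

/-!
# T6 [W1] (helper58): Weil reciprocity

For nonzero functions `f`, `g` with disjoint supports on a curve over an algebraically closed
field of characteristic zero: `f(div g) = g(div f)`.
-/

set_option autoImplicit false
set_option linter.unusedSectionVars false
set_option linter.style.haveILetI false

open AlgebraicCurve Polynomial IntermediateField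

namespace Fermat.Agent.T6.helper58

open Fermat.Agent.S24.helper75 Fermat.Agent.P3.helper58 Fermat.Agent.P2.helper74

section Basic

variable {K F : Type*} [Field K] [Field F] [Algebra K F]

theorem surjective_of_exists_isVal (w : Place K F)
    (h : ∀ f : F, f ∈ w.toValuationSubring → ∃ a : K, IsVal w f a) :
    Function.Surjective (algebraMap K w.ResidueField) := by
  intro y
  obtain ⟨r, rfl⟩ := IsLocalRing.residue_surjective y
  obtain ⟨a, ha⟩ := h (r : F) r.2
  obtain ⟨m, hm, hma⟩ := (isVal_iff_mem w _ a).mp ha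
  refine ⟨a, ?_⟩
  have h1 : r = m + algebraMap K w.toValuationSubring a := by
    apply Subtype.ext
    push_cast
    rw [hma]
    simp
  rw [h1, map_add, (IsLocalRing.residue_eq_zero_iff _).mpr hm, zero_add]
  rfl

theorem RiemannSetting.exists_isVal (hS : RiemannSetting K F) (w : Place K F) {f : F}
    (hf : f ∈ w.toValuationSubring) : ∃ a : K, IsVal w f a :=
  hS.residue w f (place_ord_nonneg_of_mem w hf)

theorem RiemannSetting.surjective (hS : RiemannSetting K F) (w : Place K F) :
    Function.Surjective (algebraMap K w.ResidueField) :=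
  surjective_of_exists_isVal w fun _ hf => RiemannSetting.exists_isVal hS w hf

end Basic

section Local

variable {K F : Type*} [Field K] [Field F] [Algebra K F] [IsAlgClosed K] [CharZero K]
variable {g : F} [FiniteDimensional K⟮g⟯ F]

theorem restrict_surjective (hS : RiemannSetting K F) (P : Place K F) :
    Function.Surjective (algebraMap K (P.restrict K⟮g⟯).ResidueField) := by
  apply surjective_of_exists_isVal
  intro x hx
  have hx' : algebraMap K⟮g⟯ F x ∈ P.toValuationSubring := hx
  obtain ⟨a, ha⟩ := RiemannSetting.exists_isVal hS P hx'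
  exact ⟨a, (isVal_restrict_iff P x a).mpr ha⟩

variable {f : F} {c : K} {M₁ M₂ : Multiset K}

/-- (α) the sum of the orders of `f` over the places `g = a` -/
theorem sum_fiber_ord_eq_count [DecidableEq K] (hS : RiemannSetting K F)
    (hg : ∀ b : K, g ≠ algebraMap K F b) (hf : f ≠ 0)
    (hN : IsFactored (AdjoinSimple.gen K g) (Algebra.norm K⟮g⟯ f) c M₁ M₂)
    {P₀ : Place K F} {a : K} (hP₀ : IsVal P₀ g a) :
    haveI := hS.principal
    ∑ P ∈ (P₀.restrict K⟮g⟯).fiber F, P.ord f = (M₁.count a : ℤ) - M₂.count a := by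
  haveI := hS.principal
  haveI : CharZero K⟮g⟯ := charZero_of_injective_algebraMap (algebraMap K K⟮g⟯).injective
  rw [sum_fiber_ord_eq F (P₀.restrict K⟮g⟯) (restrict_surjective hS P₀) hf]
  have hv := (isVal_restrict_gen_iff P₀ a).mpr hP₀
  rw [hN.ord_of_isVal hv (gen_ne_algebraMap hg), (place_gen_unique hg hv hv).2, mul_one]

/-- (β) the sum of the orders of `f` over the poles of `g` -/
theorem sum_fiber_ord_eq_card (hS : RiemannSetting K F) (hf : f ≠ 0)
    (hN : IsFactored (AdjoinSimple.gen K g) (Algebra.norm K⟮g⟯ f) c M₁ M₂)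
    {P₀ : Place K F} (hP₀ : P₀.ord g < 0) :
    haveI := hS.principal
    ∑ P ∈ (P₀.restrict K⟮g⟯).fiber F, P.ord f =
      -((Multiset.card M₁ : ℤ) - Multiset.card M₂) := by
  haveI := hS.principal
  haveI : CharZero K⟮g⟯ := charZero_of_injective_algebraMap (algebraMap K K⟮g⟯).injective
  rw [sum_fiber_ord_eq F (P₀.restrict K⟮g⟯) (restrict_surjective hS P₀) hf]
  have hv := (restrict_pole_iff P₀).mpr hP₀
  rw [hN.ord_of_pole hv, (place_pole_unique hv hv).2]
  ring

/-- (γ) the product of the values of `f` over the places `g = a` -/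
theorem prod_fiber_val_eq [DecidableEq K] (hS : RiemannSetting K F)
    (hg : ∀ b : K, g ≠ algebraMap K F b)
    (hN : IsFactored (AdjoinSimple.gen K g) (Algebra.norm K⟮g⟯ f) c M₁ M₂)
    {P₀ : Place K F} {a : K} (hP₀ : IsVal P₀ g a) (hcount : M₁.count a = M₂.count a)
    (φ : Place K F → K) (hφ : ∀ P : Place K F, IsVal P g a → IsVal P f (φ P)) :
    haveI := hS.principal
    ∏ P ∈ (P₀.restrict K⟮g⟯).fiber F, φ P ^ (P.ord (g - algebraMap K F a)) =
      c * ((M₁.filter (fun b => ¬ b = a)).map (fun b => a - b)).prod /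
        ((M₂.filter (fun b => ¬ b = a)).map (fun b => a - b)).prod := by
  haveI := hS.principal
  haveI : CharZero K⟮g⟯ := charZero_of_injective_algebraMap (algebraMap K K⟮g⟯).injective
  have hv := (isVal_restrict_gen_iff P₀ a).mpr hP₀
  have h1 := isVal_norm F (P₀.restrict K⟮g⟯) (restrict_surjective hS P₀)
    (fun w _ => RiemannSetting.surjective hS w) f φ
    (fun w hw => hφ w ((restrict_eq_iff_isVal hg hP₀ w).mp hw))
  have h2 := hN.isVal_of_isVal hv (gen_ne_algebraMap hg) hcount
  rw [← h1.unique h2]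
  refine Finset.prod_congr rfl fun P hP => ?_
  have hPa : IsVal P g a := (restrict_eq_iff_isVal hg hP₀ P).mp (Place.mem_fiber.mp hP)
  rw [← ramificationIndex_eq_ord hg hPa, zpow_natCast]

/-- (δ) the product of the values of `f` over the poles of `g` -/
theorem prod_fiber_val_eq_pole (hS : RiemannSetting K F)
    (hN : IsFactored (AdjoinSimple.gen K g) (Algebra.norm K⟮g⟯ f) c M₁ M₂)
    {P₀ : Place K F} (hP₀ : P₀.ord g < 0) (hcard : Multiset.card M₁ = Multiset.card M₂)
    (φ : Place K F → K) (hφ : ∀ P : Place K F, P.ord g < 0 → IsVal P f (φ P)) :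
    haveI := hS.principal
    ∏ P ∈ (P₀.restrict K⟮g⟯).fiber F, φ P ^ (-P.ord g) = c := by
  haveI := hS.principal
  haveI : CharZero K⟮g⟯ := charZero_of_injective_algebraMap (algebraMap K K⟮g⟯).injective
  have hv := (restrict_pole_iff P₀).mpr hP₀
  have h1 := isVal_norm F (P₀.restrict K⟮g⟯) (restrict_surjective hS P₀)
    (fun w _ => RiemannSetting.surjective hS w) f φ
    (fun w hw => hφ w ((restrict_eq_iff_pole hP₀ w).mp hw))
  have h2 := hN.isVal_of_pole hv hcard
  rw [← h1.unique h2]
  refine Finset.prod_congr rfl fun P hP => ?_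
  have hPa : P.ord g < 0 := (restrict_eq_iff_pole hP₀ P).mp (Place.mem_fiber.mp hP)
  rw [← ramificationIndex_eq_neg_ord hPa, zpow_natCast]

end Local

section Comb

variable {K : Type*} [Field K]

theorem zpow_sum_eq_prod {ι : Type*} (s : Finset ι) (n : ι → ℤ) {a : K} (ha : a ≠ 0) :
    ∏ i ∈ s, a ^ n i = a ^ (∑ i ∈ s, n i) := by
  classical
  induction s using Finset.induction_on with
  | empty => simp
  | insert i s hi ih => rw [Finset.prod_insert hi, Finset.sum_insert hi, ih, zpow_add₀ ha]

theorem card_filter_ne [DecidableEq K] (M : Multiset K) (a : K) :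
    Multiset.card M = M.count a + Multiset.card (M.filter (fun b => ¬ b = a)) := by
  conv_lhs => rw [← Multiset.filter_add_not (fun b => b = a) M]
  rw [Multiset.card_add, Multiset.filter_eq', Multiset.card_replicate]

/-- the combinatorial identity behind Weil reciprocity on the projective line -/
theorem prod_neg_div_eq [DecidableEq K] (M₁ M₂ : Multiset K) (hcount : M₁.count 0 = M₂.count 0)
    (hcard : Multiset.card M₁ = Multiset.card M₂) (T : Finset K)
    (hT : ∀ a ∈ T, a ≠ 0)
    (h₁ : (M₁.filter (fun b => ¬ b = 0)).toFinset ⊆ T)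
    (h₂ : (M₂.filter (fun b => ¬ b = 0)).toFinset ⊆ T) :
    ((M₁.filter (fun b => ¬ b = 0)).map (fun b => 0 - b)).prod /
      ((M₂.filter (fun b => ¬ b = 0)).map (fun b => 0 - b)).prod =
      ∏ a ∈ T, a ^ ((M₁.count a : ℤ) - M₂.count a) := by
  have hneg : (fun b : K => 0 - b) = Neg.neg := by
    funext b
    simp
  have hc : Multiset.card (M₁.filter (fun b => ¬ b = 0)) =
      Multiset.card (M₂.filter (fun b => ¬ b = 0)) := by
    have h1 := card_filter_ne M₁ 0
    have h2 := card_filter_ne M₂ 0
    omega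
  rw [hneg, Multiset.prod_map_neg, Multiset.prod_map_neg, hc]
  have hsign : ((-1 : K) ^ Multiset.card (M₂.filter (fun b => ¬ b = 0))) ≠ 0 :=
    pow_ne_zero _ (by norm_num)
  rw [mul_div_mul_left _ _ hsign, Finset.prod_multiset_count_of_subset _ T h₁,
    Finset.prod_multiset_count_of_subset _ T h₂, ← Finset.prod_div_distrib]
  refine Finset.prod_congr rfl fun a ha => ?_
  have ha0 := hT a ha
  rw [Multiset.count_filter_of_pos (by exact ha0), Multiset.count_filter_of_pos (by exact ha0),
    zpow_sub₀ ha0, zpow_natCast, zpow_natCast]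

end Comb

section Main

variable {K F : Type*} [Field K] [Field F] [Algebra K F] [IsAlgClosed K] [CharZero K]

/-- the degree-zero property in product form -/
theorem prod_const_zpow_eq_one (hS : RiemannSetting K F) {f : F} (hf : f ≠ 0)
    (D : Divisor K F) (hD : ∀ P, D P = P.ord f) {b : K} (hb : b ≠ 0) :
    D.prod (fun _ n => b ^ n) = 1 := by
  obtain ⟨D', hD', hdeg⟩ := hS.principal.exists_divisor f hf
  have hDD : D = D' := Finsupp.ext fun P => by rw [hD, hD']
  subst hDD
  have h1 : Divisor.degree D = ∑ P ∈ D.support, D P := by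
    unfold Divisor.degree
    rw [Finsupp.liftAddHom_apply, Finsupp.sum]
    refine Finset.sum_congr rfl fun P _ => ?_
    simp [hS.deg_one]
  rw [Finsupp.prod, zpow_sum_eq_prod _ _ hb, ← h1, hdeg, zpow_zero]

/-- Weil reciprocity when `g` is constant -/
theorem weil_const (hS : RiemannSetting K F) {f : F} (hf : f ≠ 0) {b : K} (hb : b ≠ 0)
    (Df Dg : Divisor K F) (hDf : ∀ P, Df P = P.ord f)
    (hDg : ∀ P, Dg P = P.ord (algebraMap K F b))
    (φf φg : Place K F → K)
    (hφg : ∀ P : Place K F, P.ord f ≠ 0 → IsVal P (algebraMap K F b) (φg P)) :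
    Dg.prod (fun P n => φf P ^ n) = Df.prod (fun P n => φg P ^ n) := by
  have hDg0 : Dg = 0 := Finsupp.ext fun P => by
    rw [hDg, place_ord_algebraMap]
    rfl
  rw [hDg0, Finsupp.prod_zero_index, ← prod_const_zpow_eq_one hS hf Df hDf hb]
  refine Finsupp.prod_congr fun P hP => ?_
  have hP' : P.ord f ≠ 0 := by
    rw [← hDf]
    exact Finsupp.mem_support_iff.mp hP
  rw [(hφg P hP').unique (isVal_algebraMap P b)]

/-- Weil reciprocity when `g` is not constant -/
theorem weil_nonconst (hS : RiemannSetting K F) {f g : F} (hf : f ≠ 0)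
    (hgn : ∀ b : K, g ≠ algebraMap K F b) [FiniteDimensional K⟮g⟯ F]
    (hdisj : ∀ P : Place K F, P.ord f = 0 ∨ P.ord g = 0)
    (Df Dg : Divisor K F) (hDf : ∀ P, Df P = P.ord f) (hDg : ∀ P, Dg P = P.ord g)
    (φf φg : Place K F → K)
    (hφf : ∀ P : Place K F, P.ord g ≠ 0 → IsVal P f (φf P))
    (hφg : ∀ P : Place K F, P.ord f ≠ 0 → IsVal P g (φg P)) :
    Dg.prod (fun P n => φf P ^ n) = Df.prod (fun P n => φg P ^ n) := by
  classical
  haveI := hS.principal
  have hg0 : g ≠ 0 := by
    have := hgn 0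
    simpa using this
  have hN0 : Algebra.norm K⟮g⟯ f ≠ 0 := Algebra.norm_ne_zero_iff.mpr hf
  obtain ⟨c, M₁, M₂, hN, -⟩ := exists_isFactored_gen (Algebra.norm K⟮g⟯ f) hN0
  have hc0 : c ≠ 0 := hN.1
  -- a zero and a pole of `g`
  obtain ⟨P0, hP0⟩ := exists_zero_of_nonconstant hS (x := g)
    (by rintro ⟨b, hb⟩; exact hgn b hb.symm)
  obtain ⟨Pi, hPi'⟩ := exists_zero_of_nonconstant hS (x := g⁻¹)
    (by
      rintro ⟨b, hb⟩
      apply hgn b⁻¹
      rw [map_inv₀, hb, inv_inv])
  have hPi : Pi.ord g < 0 := by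
    rw [Place.ord_inv] at hPi'
    omega
  have hP0v : IsVal P0 g 0 := (isVal_zero_iff _ _).mpr (Or.inr hP0)
  have hval0 : ∀ P : Place K F, IsVal P g 0 ↔ 0 < P.ord g := fun P => by
    rw [isVal_zero_iff]
    exact ⟨fun h => h.resolve_left hg0, Or.inr⟩
  -- the multiplicities at `0` and `∞` cancel
  have hcount0 : M₁.count 0 = M₂.count 0 := by
    have h := sum_fiber_ord_eq_count hS hgn hf hN hP0v
    rw [Finset.sum_eq_zero] at h
    · omega
    · intro P hP
      have hPa := (restrict_eq_iff_isVal hgn hP0v P).mp (Place.mem_fiber.mp hP)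
      have := (hval0 P).mp hPa
      exact (hdisj P).resolve_right (by omega)
  have hcard : Multiset.card M₁ = Multiset.card M₂ := by
    have h := sum_fiber_ord_eq_card hS hf hN hPi
    rw [Finset.sum_eq_zero] at h
    · omega
    · intro P hP
      have hPa := (restrict_eq_iff_pole hPi P).mp (Place.mem_fiber.mp hP)
      exact (hdisj P).resolve_right (by omega)
  -- the values of the norm at `0` and `∞`
  have hγ := prod_fiber_val_eq hS hgn hN hP0v hcount0 φf
    (fun P hP => hφf P (by have := (hval0 P).mp hP; omega))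
  have hδ := prod_fiber_val_eq_pole hS hN hPi hcard φf (fun P hP => hφf P (by omega))
  simp only [map_zero, sub_zero] at hγ
  -- the left hand side
  have hsupp : Dg.support = (P0.restrict K⟮g⟯).fiber F ∪ (Pi.restrict K⟮g⟯).fiber F := by
    ext P
    rw [Finsupp.mem_support_iff, hDg, Finset.mem_union, Place.mem_fiber, Place.mem_fiber,
      restrict_eq_iff_isVal hgn hP0v, restrict_eq_iff_pole hPi, hval0]
    omega
  have hdj : Disjoint ((P0.restrict K⟮g⟯).fiber F) ((Pi.restrict K⟮g⟯).fiber F) := by
    rw [Finset.disjoint_left]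
    intro P h1 h2
    rw [Place.mem_fiber, restrict_eq_iff_isVal hgn hP0v, hval0] at h1
    rw [Place.mem_fiber, restrict_eq_iff_pole hPi] at h2
    omega
  have hLHS : Dg.prod (fun P n => φf P ^ n) =
      ((M₁.filter (fun b => ¬ b = 0)).map (fun b => 0 - b)).prod /
        ((M₂.filter (fun b => ¬ b = 0)).map (fun b => 0 - b)).prod := by
    rw [Finsupp.prod, hsupp, Finset.prod_union hdj]
    have h1 : ∏ P ∈ (P0.restrict K⟮g⟯).fiber F, φf P ^ Dg P =
        ∏ P ∈ (P0.restrict K⟮g⟯).fiber F, φf P ^ P.ord g :=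
      Finset.prod_congr rfl fun P _ => by rw [hDg]
    have h2 : ∏ P ∈ (Pi.restrict K⟮g⟯).fiber F, φf P ^ Dg P =
        (∏ P ∈ (Pi.restrict K⟮g⟯).fiber F, φf P ^ (-P.ord g))⁻¹ := by
      rw [← Finset.prod_inv_distrib]
      refine Finset.prod_congr rfl fun P _ => ?_
      rw [hDg, zpow_neg, inv_inv]
    rw [h1, h2, hγ, hδ]
    field_simp
  -- the right hand side
  set T : Finset K := ((M₁.filter (fun b => ¬ b = 0)) + (M₂.filter (fun b => ¬ b = 0))).toFinset
    with hTdef
  have hT0 : ∀ a ∈ T, a ≠ 0 := by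
    intro a ha
    rw [hTdef, Multiset.mem_toFinset, Multiset.mem_add] at ha
    rcases ha with ha | ha
    · exact (Multiset.mem_filter.mp ha).2
    · exact (Multiset.mem_filter.mp ha).2
  set A : Finset K := Df.support.image φg with hAdef
  have hA0 : ∀ a ∈ A, a ≠ 0 := by
    intro a ha
    obtain ⟨P, hP, rfl⟩ := Finset.mem_image.mp ha
    have hP' : P.ord f ≠ 0 := by
      rw [← hDf]
      exact Finsupp.mem_support_iff.mp hP
    exact (hφg P hP').ne_zero_of_ord_eq_zero hg0 ((hdisj P).resolve_left hP')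
  have hinner : ∀ a ∈ A ∪ T, ∏ P ∈ Df.support with φg P = a, φg P ^ Df P =
      a ^ ((M₁.count a : ℤ) - M₂.count a) := by
    intro a ha
    have ha0 : a ≠ 0 := by
      rcases Finset.mem_union.mp ha with h | h
      · exact hA0 a h
      · exact hT0 a h
    obtain ⟨Pa, hPa⟩ := exists_zero_of_nonconstant hS (x := g - algebraMap K F a)
      (by
        rintro ⟨b, hb⟩
        apply hgn (b + a)
        rw [map_add, hb]
        ring)
    have hPav : IsVal Pa g a := Or.inr hPa
    have hα := sum_fiber_ord_eq_count hS hgn hf hN hPav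
    rw [← hα, ← zpow_sum_eq_prod _ _ ha0]
    have hsub : (Df.support.filter fun P => φg P = a) ⊆ (Pa.restrict K⟮g⟯).fiber F := by
      intro P hP
      rw [Finset.mem_filter, Finsupp.mem_support_iff, hDf] at hP
      rw [Place.mem_fiber, restrict_eq_iff_isVal hgn hPav]
      rw [← hP.2]
      exact hφg P hP.1
    rw [← Finset.prod_subset hsub]
    · refine Finset.prod_congr rfl fun P hP => ?_
      rw [(Finset.mem_filter.mp hP).2, hDf]
    · intro P hP hP2
      have hPv : IsVal P g a := (restrict_eq_iff_isVal hgn hPav P).mp (Place.mem_fiber.mp hP)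
      have : P.ord f = 0 := by
        by_contra hne
        apply hP2
        rw [Finset.mem_filter, Finsupp.mem_support_iff, hDf]
        exact ⟨hne, (hφg P hne).unique hPv⟩
      rw [this, zpow_zero]
  have hRHS : Df.prod (fun P n => φg P ^ n) = ∏ a ∈ T, a ^ ((M₁.count a : ℤ) - M₂.count a) := by
    rw [Finsupp.prod, ← Finset.prod_fiberwise_of_maps_to (t := A ∪ T) (g := φg)
      (fun P hP => Finset.mem_union_left _ (Finset.mem_image_of_mem φg hP)),
      Finset.prod_congr rfl hinner]
    symm
    apply Finset.prod_subset Finset.subset_union_right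
    intro a ha haT
    have ha0 : a ≠ 0 := by
      rcases Finset.mem_union.mp ha with h | h
      · exact hA0 a h
      · exact absurd h haT
    have hnot : ∀ M : Multiset K, M.filter (fun b => ¬ b = 0) ≤ M₁.filter (fun b => ¬ b = 0)
        + M₂.filter (fun b => ¬ b = 0) → M.count a = 0 := by
      intro M hM
      rw [Multiset.count_eq_zero]
      intro hmem
      apply haT
      rw [hTdef, Multiset.mem_toFinset]
      exact Multiset.mem_of_le hM (Multiset.mem_filter.mpr ⟨hmem, ha0⟩)
    rw [hnot M₁ (Multiset.le_add_right _ _), hnot M₂ (Multiset.le_add_left _ _)]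
    simp
  rw [hLHS, hRHS]
  exact prod_neg_div_eq M₁ M₂ hcount0 hcard T hT0
    (by
      intro a ha
      rw [hTdef, Multiset.mem_toFinset, Multiset.mem_add]
      exact Or.inl (Multiset.mem_toFinset.mp ha))
    (by
      intro a ha
      rw [hTdef, Multiset.mem_toFinset, Multiset.mem_add]
      exact Or.inr (Multiset.mem_toFinset.mp ha))

/-- **Weil reciprocity**: `f(div g) = g(div f)` for functions with disjoint supports. -/
theorem weil_reciprocity (hS : RiemannSetting K F)
    (hfin : ∀ g : F, (∀ b : K, g ≠ algebraMap K F b) → FiniteDimensional K⟮g⟯ F)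
    {f g : F} (hf : f ≠ 0) (hg : g ≠ 0)
    (hdisj : ∀ P : Place K F, P.ord f = 0 ∨ P.ord g = 0)
    (Df Dg : Divisor K F) (hDf : ∀ P, Df P = P.ord f) (hDg : ∀ P, Dg P = P.ord g)
    (φf φg : Place K F → K)
    (hφf : ∀ P : Place K F, P.ord g ≠ 0 → IsVal P f (φf P))
    (hφg : ∀ P : Place K F, P.ord f ≠ 0 → IsVal P g (φg P)) :
    Dg.prod (fun P n => φf P ^ n) = Df.prod (fun P n => φg P ^ n) := by
  by_cases hgc : ∃ b : K, g = algebraMap K F b
  · obtain ⟨b, rfl⟩ := hgc
    have hb : b ≠ 0 := by
      rintro rfl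
      simp at hg
    exact weil_const hS hf hb Df Dg hDf hDg φf φg hφg
  · push Not at hgc
    haveI := hfin g hgc
    exact weil_nonconst hS hf hgc hdisj Df Dg hDf hDg φf φg hφf hφg

end Main

end Fermat.Agent.T6.helper58
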