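import Mathlib
import Fermat.Agent.P2.helper74_RiemannSep
import Fermat.Agent.S24.helper82_FFBasic
import Fermat.Agent.T6.helper26_PVal
import Fermat.Agent.T6.helper58_Weil

/-!
# T6 [W1] (helper58): the contract `helper26.WeilRec` - UNCONDITIONAL for function fields

* `weilRec_of_riemannSetting` : `helper26.WeilRec K F` on a `RiemannSetting` finite over every
  `K(g)`, `g` non-constant;
* `weilRec_ff` : `helper26.WeilRec K F` for `F` finite over `K(x)`, `x` transcendental, `K`
  algebraically closed of characteristic zero.
-/

set_option autoImplicit false
set_option linter.unusedSectionVars false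
set_option linter.style.haveILetI false

open AlgebraicCurve IntermediateField

namespace Fermat.Agent.T6.helper58

open Fermat.Agent.P2.helper74

variable {K F : Type*} [Field K] [Field F] [Algebra K F] [IsAlgClosed K] [CharZero K]

/-- **Weil reciprocity** in the vocabulary of `helper26` (`dval`, `divOf`, `pval`). -/
theorem weilRec_of_riemannSetting (hS : RiemannSetting K F)
    (hfin : ∀ g : F, (∀ b : K, g ≠ algebraMap K F b) → FiniteDimensional K⟮g⟯ F) :
    Fermat.Agent.T6.helper26.WeilRec K F := by
  intro f g hf hg hdisj
  unfold Fermat.Agent.T6.helper26.dval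
  refine weil_reciprocity hS hfin hf hg hdisj _ _
    (Fermat.Agent.T6.helper26.divOf_apply hS f) (Fermat.Agent.T6.helper26.divOf_apply hS g)
    _ _ (fun P hP => ?_) (fun P hP => ?_)
  · have h0 : P.ord f = 0 := (hdisj P).resolve_right hP
    exact Fermat.Agent.T6.helper26.isVal_pval hS (by rw [h0])
  · have h0 : P.ord g = 0 := (hdisj P).resolve_left hP
    exact Fermat.Agent.T6.helper26.isVal_pval hS (by rw [h0])

/-- **Weil reciprocity** for every function field of one variable over an algebraically closed
field of characteristic zero. -/
theorem weilRec_ff (x : F) (hx : Transcendental K x) [FiniteDimensional K⟮x⟯ F] :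
    Fermat.Agent.T6.helper26.WeilRec K F := by
  haveI : CharZero K⟮x⟯ := charZero_of_injective_algebraMap (algebraMap K K⟮x⟯).injective
  have hS : RiemannSetting K F := riemannSetting_of_separating x hx
  refine weilRec_of_riemannSetting hS fun g hg => ?_
  exact (Fermat.Agent.S24.helper82.ff_transcendental x hx g
    (by rintro ⟨b, hb⟩; exact hg b hb.symm)).2

end Fermat.Agent.T6.helper58
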