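/-
TIER 6 (S19), block [W1-NV], helper68: **the norm modulo the maximal ideal** (Mathlib only).

For a local ring `R` and a finite free `R`-algebra `S` which is a Dedekind domain, the class of
`N_{S/R}(x)` in the residue field is the product over the primes `P` of `S` above the maximal
ideal of `a_P ^ (e_P f_P)` whenever `x = a_P mod P` with `a_P` in `R`.

* `det_algebraMap_add_nilpotent`, `norm_eq_pow_of_isNilpotent_sub` : scalar plus nilpotent;
* `det_blockDiagonal'_eq`, `norm_pi_eq_prod` : the norm on a finite product of algebras;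
* `norm_quotient_mk` : the norm commutes with reduction modulo the maximal ideal;
* `mk_norm_eq_prod`, `mk_norm_eq_prod_finset`, `mk_norm_eq_prod_heightOne` : the formula.
-/
import Mathlib

set_option autoImplicit false
set_option linter.style.haveILetI false
set_option linter.deprecated false
set_option linter.unusedSectionVars false
set_option linter.unusedVariables false

namespace Fermat.Agent.T6.helper68

open Module Matrix Polynomial IsLocalRing UniqueFactorizationMonoid

section Pre
variable {k V : Type*} [Field k] [AddCommGroup V] [Module k V] [FiniteDimensional k V]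
theorem det_algebraMap_add_nilpotent (N : Module.End k V) (hN : IsNilpotent N) (a : k) :
    LinearMap.det (algebraMap k (Module.End k V) a + N) = a ^ finrank k V := by
  have h1 : IsNilpotent (-N) := hN.neg
  have h2 := LinearMap.eval_charpoly (-N) a
  rw [h1.charpoly_eq_X_pow_finrank, eval_pow, eval_X, sub_neg_eq_add] at h2
  exact h2.symm
variable {C : Type*} [CommRing C] [Algebra k C] [FiniteDimensional k C]
theorem norm_eq_pow_of_isNilpotent_sub (y : C) (a : k)
    (h : IsNilpotent (y - algebraMap k C a)) : Algebra.norm k y = a ^ finrank k C := by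
  rw [Algebra.norm_apply]
  have h1 : Algebra.lmul k C y =
      algebraMap k (Module.End k C) a + Algebra.lmul k C (y - algebraMap k C a) := by
    ext z
    simp [Algebra.smul_def]
  rw [h1]
  exact det_algebraMap_add_nilpotent _ (h.map (Algebra.lmul k C)) a
end Pre

section BD
variable {R : Type*} [CommRing R] {ι : Type*} [Fintype ι] [DecidableEq ι]
  {J : ι → Type*} [∀ i, Fintype (J i)] [∀ i, DecidableEq (J i)]
theorem det_blockDiagonal'_eq (D : ∀ i, Matrix (J i) (J i) R) :
    (Matrix.blockDiagonal' D).det = ∏ i, (D i).det := by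
  classical
  letI : LinearOrder ι := LinearOrder.lift' (Fintype.equivFin ι) (Fintype.equivFin ι).injective
  rw [(Matrix.blockTriangular_blockDiagonal' D).det_fintype]
  refine Finset.prod_congr rfl fun i _ => ?_
  have h : (Matrix.blockDiagonal' D).toSquareBlock Sigma.fst i =
      Matrix.reindex (Equiv.sigmaSubtype i).symm (Equiv.sigmaSubtype i).symm (D i) := by
    ext ⟨⟨i1, a⟩, ha⟩ ⟨⟨i2, c⟩, hc⟩
    simp only at ha hc
    subst ha
    subst hc
    simp [Matrix.toSquareBlock_def, Matrix.blockDiagonal'_apply, Equiv.sigmaSubtype]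
  rw [h, Matrix.det_reindex_self]
end BD

section PiNorm
variable {k : Type*} [CommRing k] {ι : Type*} [Fintype ι] [DecidableEq ι]
  (C : ι → Type*) [∀ i, CommRing (C i)] [∀ i, Algebra k (C i)]
  [∀ i, Module.Free k (C i)] [∀ i, Module.Finite k (C i)]
theorem norm_pi_eq_prod (y : ∀ i, C i) :
    Algebra.norm k y = ∏ i, Algebra.norm k (y i) := by
  classical
  let b : ∀ i, Basis (Free.ChooseBasisIndex k (C i)) k (C i) := fun i => Free.chooseBasis k (C i)
  rw [Algebra.norm_eq_matrix_det (Pi.basis b)]
  have h : Algebra.leftMulMatrix (Pi.basis b) y =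
      Matrix.blockDiagonal' fun i => Algebra.leftMulMatrix (b i) (y i) := by
    ext ⟨i, a⟩ ⟨j, c⟩
    rw [Algebra.leftMulMatrix_eq_repr_mul, Pi.basis_repr, Matrix.blockDiagonal'_apply]
    simp only [Pi.basis_apply, Pi.mul_apply]
    by_cases hij : i = j
    · subst hij
      simp [Algebra.leftMulMatrix_eq_repr_mul]
    · rw [dif_neg hij, Pi.single_eq_of_ne hij, mul_zero, map_zero]
      rfl
  rw [h, det_blockDiagonal'_eq]
  exact Finset.prod_congr rfl fun i _ => (Algebra.norm_eq_matrix_det (b i) (y i)).symm
end PiNorm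

section Quot
variable {R S : Type*} [CommRing R] [CommRing S] [Algebra R S]
  [Module.Free R S] [Module.Finite R S] [IsLocalRing R]
attribute [local instance] Ideal.Quotient.field
theorem norm_quotient_mk (x : S) :
    Algebra.norm (R ⧸ maximalIdeal R)
        (Ideal.Quotient.mk (Ideal.map (algebraMap R S) (maximalIdeal R)) x) =
      Ideal.Quotient.mk (maximalIdeal R) (Algebra.norm R x) := by
  classical
  let ι := Module.Free.ChooseBasisIndex R S
  let b : Module.Basis ι R S := Module.Free.chooseBasis R S
  rw [Algebra.norm_eq_matrix_det b, Algebra.norm_eq_matrix_det (basisQuotient b),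
    RingHom.map_det]
  congr 1
  ext i j
  simp only [Algebra.leftMulMatrix_apply, Algebra.coe_lmul_eq_mul, LinearMap.toMatrix_apply,
    basisQuotient_apply, LinearMap.mul_apply', RingHom.mapMatrix_apply, Matrix.map_apply,
    ← map_mul, basisQuotient_repr]
end Quot

section Dedekind

variable {R S : Type*} [CommRing R] [CommRing S] [Algebra R S] [IsDedekindDomain S]
  [IsLocalRing R] [Module.Free R S] [Module.Finite R S]

attribute [local instance] Ideal.Quotient.field

/-- the CRT isomorphism as an algebra isomorphism over the residue field -/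
noncomputable def crtAlgEquiv (hp : Ideal.map (algebraMap R S) (maximalIdeal R) ≠ ⊥) :
    (S ⧸ Ideal.map (algebraMap R S) (maximalIdeal R)) ≃ₐ[R ⧸ maximalIdeal R]
      ∀ P : (factors (Ideal.map (algebraMap R S) (maximalIdeal R))).toFinset,
        S ⧸ (P : Ideal S) ^ (maximalIdeal R).ramificationIdx' (P : Ideal S) :=
  AlgEquiv.ofRingEquiv (f := Ideal.Factors.piQuotientEquiv (maximalIdeal R) hp) (by
    intro r
    obtain ⟨r', rfl⟩ := Ideal.Quotient.mk_surjective r
    rfl)

theorem crtAlgEquiv_mk (hp : Ideal.map (algebraMap R S) (maximalIdeal R) ≠ ⊥) (x : S) :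
    crtAlgEquiv hp (Ideal.Quotient.mk _ x) = fun P => Ideal.Quotient.mk _ x := rfl

/-- **Norm modulo the maximal ideal** in a finite free extension `S` (Dedekind) of a local ring
`R`: if `x ≡ a_P mod P` with `a_P ∈ R` for every prime `P` over the maximal ideal, then
`N(x) ≡ ∏_P a_P ^ (e_P f_P)`. -/
theorem mk_norm_eq_prod (hp : Ideal.map (algebraMap R S) (maximalIdeal R) ≠ ⊥) (x : S)
    (a : (factors (Ideal.map (algebraMap R S) (maximalIdeal R))).toFinset → R)
    (ha : ∀ P : (factors (Ideal.map (algebraMap R S) (maximalIdeal R))).toFinset,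
      x - algebraMap R S (a P) ∈ (P : Ideal S)) :
    Ideal.Quotient.mk (maximalIdeal R) (Algebra.norm R x) =
      ∏ P, (Ideal.Quotient.mk (maximalIdeal R) (a P)) ^
        ((maximalIdeal R).ramificationIdx' (P : Ideal S) *
          (maximalIdeal R).inertiaDeg' (P : Ideal S)) := by
  classical
  rw [← norm_quotient_mk, ← Algebra.norm_eq_of_algEquiv (crtAlgEquiv hp), crtAlgEquiv_mk,
    norm_pi_eq_prod]
  refine Finset.prod_congr rfl fun P _ => ?_
  rw [← Ideal.Factors.finrank_pow_ramificationIdx]
  refine norm_eq_pow_of_isNilpotent_sub _ _ ?_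
  refine ⟨(maximalIdeal R).ramificationIdx' (P : Ideal S), ?_⟩
  have h1 : (Ideal.Quotient.mk ((P : Ideal S) ^ (maximalIdeal R).ramificationIdx' (P : Ideal S)) x -
      algebraMap (R ⧸ maximalIdeal R) _ (Ideal.Quotient.mk (maximalIdeal R) (a P))) =
      Ideal.Quotient.mk _ (x - algebraMap R S (a P)) := by
    rw [map_sub]
    rfl
  rw [h1, ← map_pow, Ideal.Quotient.eq_zero_iff_mem]
  exact Ideal.pow_mem_pow (ha P) _


open IsDedekindDomain in
/-- `Finset` form of `mk_norm_eq_prod`. -/
theorem mk_norm_eq_prod_finset (hp : Ideal.map (algebraMap R S) (maximalIdeal R) ≠ ⊥) (x : S)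
    (a : Ideal S → R)
    (ha : ∀ P ∈ (factors (Ideal.map (algebraMap R S) (maximalIdeal R))).toFinset,
      x - algebraMap R S (a P) ∈ P) :
    Ideal.Quotient.mk (maximalIdeal R) (Algebra.norm R x) =
      ∏ P ∈ (factors (Ideal.map (algebraMap R S) (maximalIdeal R))).toFinset,
        (Ideal.Quotient.mk (maximalIdeal R) (a P)) ^
          ((maximalIdeal R).ramificationIdx' P * (maximalIdeal R).inertiaDeg' P) := by
  rw [mk_norm_eq_prod hp x (fun P => a P) (fun P => ha P P.2)]
  exact Finset.prod_coe_sort _ (fun P => (Ideal.Quotient.mk (maximalIdeal R) (a P)) ^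
          ((maximalIdeal R).ramificationIdx' P * (maximalIdeal R).inertiaDeg' P))

open IsDedekindDomain in
/-- **Norm modulo the maximal ideal**, indexed by the height one primes of `S`. -/
theorem mk_norm_eq_prod_heightOne [IsDomain R] [Module.IsTorsionFree R S]
    (hm : maximalIdeal R ≠ ⊥) [Fintype (HeightOneSpectrum S)]
    (hover : ∀ Q : HeightOneSpectrum S, Q.asIdeal.LiesOver (maximalIdeal R))
    (x : S) (a : HeightOneSpectrum S → R)
    (ha : ∀ Q : HeightOneSpectrum S, x - algebraMap R S (a Q) ∈ Q.asIdeal) :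
    Ideal.Quotient.mk (maximalIdeal R) (Algebra.norm R x) =
      ∏ Q : HeightOneSpectrum S, (Ideal.Quotient.mk (maximalIdeal R) (a Q)) ^
          ((maximalIdeal R).ramificationIdx' Q.asIdeal *
            (maximalIdeal R).inertiaDeg' Q.asIdeal) := by
  classical
  have hinj : Function.Injective (algebraMap R S) := FaithfulSMul.algebraMap_injective R S
  have hp : Ideal.map (algebraMap R S) (maximalIdeal R) ≠ ⊥ := by
    intro h
    exact hm ((Ideal.map_eq_bot_iff_of_injective hinj).mp h)
  have hmem : ∀ P : Ideal S, P ∈ (factors (Ideal.map (algebraMap R S) (maximalIdeal R))).toFinset ↔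
      P.IsPrime ∧ P.LiesOver (maximalIdeal R) := fun P =>
    IsDedekindDomain.mem_primesOverFinset_iff hm S
  have hne : ∀ P : Ideal S, P.IsPrime ∧ P.LiesOver (maximalIdeal R) → P ≠ ⊥ := by
    rintro P ⟨-, hP⟩ rfl
    apply hm
    rw [hP.over]
    exact Ideal.comap_bot_of_injective _ hinj
  let a' : Ideal S → R := fun P =>
    if h : P.IsPrime ∧ P ≠ ⊥ then a ⟨P, h.1, h.2⟩ else 0
  have ha' : ∀ Q : HeightOneSpectrum S, a' Q.asIdeal = a Q := fun Q => by
    simp only [a']
    rw [dif_pos ⟨Q.isPrime, Q.ne_bot⟩]
  rw [mk_norm_eq_prod_finset hp x a' (fun P hP => by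
    have h := (hmem P).mp hP
    have := ha ⟨P, h.1, hne P h⟩
    rwa [← ha'] at this)]
  symm
  refine Finset.prod_bij (fun Q _ => Q.asIdeal) (fun Q _ => (hmem _).mpr ⟨Q.isPrime, hover Q⟩)
    (fun Q _ Q' _ h => HeightOneSpectrum.ext h)
    (fun P hP => ?_) (fun Q _ => by rw [ha'])
  have h := (hmem P).mp hP
  exact ⟨⟨P, h.1, hne P h⟩, Finset.mem_univ _, rfl⟩

end Dedekind

end Fermat.Agent.T6.helper68
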