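/-
TIER 6 (S19), block [W1-NV], helper68: **the value of a norm** in a finite extension `F'/F` of
function fields over an algebraically closed field `K` of characteristic zero.

`pval_norm` : if `f` is a unit at every place `w` of `F'` over the place `v` of `F`, then
`pval v (N_{F'/F} f) = ∏_{w | v} pval w f ^ e(w | v)`  (helper26 `pval`, Prelude
`Place.fiber`, `Place.ramificationIndex`).

Route: `A = O_v`, `B` = integral closure of `A` in `F'` (P3 `helper58.BV`), the norm modulo the
maximal ideal is the determinant of the multiplication on `B / m B = ∏ B / Q ^ e`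
(`helper68_NormDet.mk_norm_eq_prod_heightOne`), dictionary `HeightOneSpectrum B ↔ places over v`
(P3 `helper58_FFExt`), ramification indices through `HeightOneSpectrum.valuation_liesOver`.
-/
import Mathlib
import Fermat.Agent.P3.helper58_FFExt
import Fermat.Agent.T6.helper26_PVal
import Fermat.Agent.T6.helper68_NormDet

set_option autoImplicit false
set_option linter.style.haveILetI false
set_option linter.deprecated false
set_option linter.unusedSectionVars false
set_option linter.unusedVariables false

noncomputable section

namespace Fermat.Agent.T6.helper68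

open AlgebraicCurve IsDedekindDomain IsLocalRing WithZero
open Fermat.Agent.P2.helper74 Fermat.Agent.T6.helper26 Fermat.Agent.P3.helper58

section Local

variable {K F : Type*} (F' : Type*) [Field K] [Field F] [Field F'] [Algebra K F] [Algebra K F']
  [Algebra F F'] [IsScalarTower K F F'] [FiniteDimensional F F'] [CharZero F]

variable (v : Place K F)

local instance : IsDedekindDomain (BV F' v) :=
  integralClosure.isDedekindDomain v.toValuationSubring F F'

local instance : IsFractionRing (BV F' v) F' :=
  integralClosure.isFractionRing_of_finite_extension F F'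

local instance : Module.Finite v.toValuationSubring (BV F' v) :=
  IsIntegralClosure.finite v.toValuationSubring F F' (BV F' v)

attribute [local instance] Fermat.Agent.P3.helper58.isScalarTower_OV
  Fermat.Agent.P3.helper58.isTorsionFree_OV Fermat.Agent.P3.helper58.isTorsionFree_BV

local instance : Module.Free v.toValuationSubring (BV F' v) :=
  Module.free_of_finite_type_torsion_free'

/-- a function which is regular at all places over `v` lies in the integral closure -/
theorem exists_BV_eq {f : F'}
    (hf : ∀ Q : HeightOneSpectrum (BV F' v),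
      0 ≤ (Place.ofHeightOneSpectrum (K := K) (F := F') Q).ord f) :
    ∃ b : BV F' v, (b : F') = f := by
  rcases eq_or_ne f 0 with rfl | hf0
  · exact ⟨0, rfl⟩
  have h := HeightOneSpectrum.mem_integers_of_valuation_le_one (R := BV F' v) F' f (fun Q => by
    rw [Fermat.Agent.S24.helper75.ofHeightOneSpectrum_valuation (K := K) Q f hf0,
      ← exp_zero, exp_le_exp]
    have := hf Q
    omega)
  obtain ⟨b, hb⟩ := h
  exact ⟨b, hb⟩

/-- the norm of an element of the integral closure -/
theorem norm_coe_BV (b : BV F' v) :
    Algebra.norm F (b : F') =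
      ((Algebra.norm v.toValuationSubring b : v.toValuationSubring) : F) := by
  have : Algebra.IsIntegral v.toValuationSubring (BV F' v) :=
    Algebra.IsIntegral.of_finite _ _
  have h := Algebra.algebraMap_intNorm (A := v.toValuationSubring) (K := F) (L := F')
    (B := BV F' v) b
  rw [Algebra.intNorm_eq_norm] at h
  exact h.symm


/-- membership in a height one prime of the integral closure in terms of the place -/
theorem mem_asIdeal_iff (Q : HeightOneSpectrum (BV F' v)) (b : BV F' v) :
    b ∈ Q.asIdeal ↔ b = 0 ∨ 0 < (Place.ofHeightOneSpectrum (K := K) (F := F') Q).ord (b : F') := by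
  rw [← HeightOneSpectrum.valuation_lt_one_iff_mem (K := F') Q b]
  rcases eq_or_ne b 0 with rfl | hb
  · simp
  have hb' : ((b : BV F' v) : F') ≠ 0 := by
    intro h
    exact hb (Subtype.ext h)
  have hval := Fermat.Agent.S24.helper75.ofHeightOneSpectrum_valuation (K := K) Q (b : F') hb'
  change (Q.valuation F') (Subtype.val b) < 1 ↔ _
  rw [hval, ← exp_zero, exp_lt_exp]
  constructor
  · intro h
    right
    omega
  · rintro (h | h)
    · exact absurd h hb
    · omega

/-- the residue field of a place of a `RiemannSetting` is `K` -/
theorem residue_surjective (hS : RiemannSetting K F) :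
    Function.Surjective (algebraMap K v.ResidueField) := by
  intro x
  obtain ⟨a, rfl⟩ := IsLocalRing.residue_surjective x
  have ha : 0 ≤ v.ord (a : F) := Fermat.Agent.S24.helper75.place_ord_nonneg_of_mem v a.2
  obtain ⟨c, hc⟩ := hS.residue v (a : F) ha
  refine ⟨c, ?_⟩
  have h1 : algebraMap K v.ResidueField c =
      IsLocalRing.residue v.toValuationSubring (algebraMap K v.toValuationSubring c) := rfl
  rw [h1, ← sub_eq_zero, ← map_sub, IsLocalRing.residue_eq_zero_iff,
    Fermat.Agent.S24.helper75.place_mem_maximalIdeal_iff]
  rcases hc with hc | hc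
  · left
    apply Subtype.ext
    simp [hc]
  · right
    have h2 : ((algebraMap K v.toValuationSubring c - a : v.toValuationSubring) : F) =
        -((a : F) - algebraMap K F c) := by
      simp
    rw [h2, ord_neg_eq]
    exact hc


section AlgClosed

variable [IsAlgClosed K]

theorem inertiaDeg'_eq_one (hS : RiemannSetting K F) (Q : HeightOneSpectrum (BV F' v)) :
    (maximalIdeal v.toValuationSubring).inertiaDeg' Q.asIdeal = 1 := by
  haveI := liesOver_maximalIdeal F' v Q
  haveI : Q.asIdeal.IsMaximal := Q.isMaximal
  have hg : ∃ g : K →+* v.toValuationSubring ⧸ IsLocalRing.maximalIdeal v.toValuationSubring,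
      Function.Surjective g := ⟨algebraMap K v.ResidueField, residue_surjective v hS⟩
  obtain ⟨g, hg⟩ := hg
  rw [Ideal.inertiaDeg'_eq_inertiaDeg]
  exact inertiaDeg_eq_one_of_surjective (IsLocalRing.maximalIdeal v.toValuationSubring)
    Q.asIdeal g hg

end AlgClosed

theorem ramificationIdx'_eq (Q : HeightOneSpectrum (BV F' v)) :
    (maximalIdeal v.toValuationSubring).ramificationIdx' Q.asIdeal =
      (Place.ofHeightOneSpectrum (K := K) (F := F') Q).ramificationIndex F := by
  haveI : Q.asIdeal.LiesOver v.heightOneSpectrum.asIdeal := liesOver_maximalIdeal F' v Q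
  obtain ⟨π, hπ⟩ := IsDiscreteValuationRing.exists_irreducible v.toValuationSubring
  have hπ0 : (π : F) ≠ 0 := by
    simpa [ne_eq, ZeroMemClass.coe_eq_zero] using hπ.ne_zero
  have hπ' : algebraMap F F' (π : F) ≠ 0 := by simpa using hπ0
  have h := HeightOneSpectrum.valuation_liesOver F' v.heightOneSpectrum Q (π : F)
  have h1 : v.heightOneSpectrum.valuation F (π : F) = exp (-1 : ℤ) :=
    v.adicValuation_coe_irreducible hπ
  have h2 : Q.valuation F' (algebraMap F F' (π : F)) =
      exp (-((Place.ofHeightOneSpectrum (K := K) (F := F') Q).ramificationIndex F : ℤ)) := by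
    rw [Fermat.Agent.S24.helper75.ofHeightOneSpectrum_valuation (K := K) Q _ hπ',
      Place.ord_restrict, restrict_ofHeightOneSpectrum, v.ord_coe_irreducible hπ, mul_one]
  rw [h1, h2, ← exp_nsmul, exp_inj] at h
  have h3 : ((v.heightOneSpectrum.asIdeal.ramificationIdx' Q.asIdeal : ℕ) : ℤ) =
      (Place.ofHeightOneSpectrum (K := K) (F := F') Q).ramificationIndex F := by
    simp only [nsmul_eq_mul, mul_neg, mul_one, neg_inj] at h
    exact h
  exact_mod_cast h3


section Final

variable [IsAlgClosed K] [HasPrincipalDivisors K F']

/-- **[NV] the value of a norm**: if `f` is a unit at every place `w` of `F'` over `v`, then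
`N_{F'/F}(f)(v) = ∏_{w | v} f(w) ^ e(w | v)`. -/
theorem pval_norm (hS : RiemannSetting K F) (hS' : RiemannSetting K F') {f : F'}
    (hu : ∀ w ∈ v.fiber F', w.ord f = 0) :
    pval v (Algebra.norm F f) = ∏ w ∈ v.fiber F', pval w f ^ (w.ramificationIndex F) := by
  classical
  haveI := finite_heightOneSpectrum_BV F' v
  letI := Fintype.ofFinite (HeightOneSpectrum (BV F' v))
  let W : HeightOneSpectrum (BV F' v) → Place K F' :=
    fun Q => Place.ofHeightOneSpectrum (K := K) (F := F') Q
  have hW : ∀ Q, W Q ∈ v.fiber F' :=
    fun Q => Place.mem_fiber.mpr (restrict_ofHeightOneSpectrum F' v Q)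
  have hinj : Function.Injective W := ofHeightOneSpectrum_injective
  have himg : v.fiber F' = Finset.univ.image W := by
    ext w
    rw [Place.mem_fiber, Finset.mem_image]
    constructor
    · intro hw
      obtain ⟨Q, hQ⟩ := exists_ofHeightOneSpectrum_eq F' v w hw
      exact ⟨Q, Finset.mem_univ _, hQ⟩
    · rintro ⟨Q, -, rfl⟩
      exact restrict_ofHeightOneSpectrum F' v Q
  obtain ⟨b, rfl⟩ := exists_BV_eq F' v (f := f) (fun Q => le_of_eq (hu _ (hW Q)).symm)
  have hcoeK : ∀ x : K, ((algebraMap v.toValuationSubring (BV F' v)
      (algebraMap K v.toValuationSubring x) : BV F' v) : F') = algebraMap K F' x := by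
    intro x
    rw [IsScalarTower.algebraMap_apply K v.toValuationSubring F']
    rfl
  let c : HeightOneSpectrum (BV F' v) → K := fun Q => pval (W Q) (b : F')
  have hc : ∀ Q : HeightOneSpectrum (BV F' v),
      b - algebraMap v.toValuationSubring (BV F' v) (algebraMap K v.toValuationSubring (c Q)) ∈
        Q.asIdeal := by
    intro Q
    rw [mem_asIdeal_iff]
    have hval : IsVal (W Q) (b : F') (c Q) :=
      isVal_pval hS' (P := W Q) (f := (b : F')) (le_of_eq (hu _ (hW Q)).symm)
    have hcoe : ((b - algebraMap v.toValuationSubring (BV F' v)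
        (algebraMap K v.toValuationSubring (c Q)) : BV F' v) : F') =
        (b : F') - algebraMap K F' (c Q) := by
      rw [← hcoeK]
      rfl
    rcases hval with h | h
    · left
      apply Subtype.ext
      rw [hcoe, ← h, sub_self]
      rfl
    · right
      rw [hcoe]
      exact h
  have hm : maximalIdeal v.toValuationSubring ≠ ⊥ :=
    IsDiscreteValuationRing.not_a_field _
  have hcore := mk_norm_eq_prod_heightOne hm (fun Q => liesOver_maximalIdeal F' v Q) b
    (fun Q => algebraMap K v.toValuationSubring (c Q)) hc
  simp only [ramificationIdx'_eq, inertiaDeg'_eq_one F' v hS, mul_one] at hcore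
  rw [himg, Finset.prod_image (fun Q _ Q' _ h => hinj h)]
  apply pval_eq_of_isVal
  have h1 : Ideal.Quotient.mk (maximalIdeal v.toValuationSubring)
      (Algebra.norm v.toValuationSubring b -
        algebraMap K v.toValuationSubring (∏ Q, c Q ^ (W Q).ramificationIndex F)) = 0 := by
    rw [map_sub, hcore, sub_eq_zero]
    simp only [map_prod, map_pow]
    rfl
  rw [Ideal.Quotient.eq_zero_iff_mem, Fermat.Agent.S24.helper75.place_mem_maximalIdeal_iff] at h1
  rw [norm_coe_BV]
  rcases h1 with h | h
  · left
    rw [sub_eq_zero] at h
    rw [h]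
    exact v.coe_algebraMap _
  · right
    have h3 : ((Algebra.norm v.toValuationSubring b -
        algebraMap K v.toValuationSubring (∏ Q, c Q ^ (W Q).ramificationIndex F) :
          v.toValuationSubring) : F) =
        ((Algebra.norm v.toValuationSubring b : v.toValuationSubring) : F) -
          algebraMap K F (∏ Q, c Q ^ (W Q).ramificationIndex F) := by
      rw [← v.coe_algebraMap]
      rfl
    rw [h3] at h
    exact h

end Final

end Local

end Fermat.Agent.T6.helper68
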