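import Mathlib

/-!
# T6 / S32, box [CMP-CH] (helper71): Cayley–Hamilton modules over a surjective rank-2 representation

Mathlib only.  `T` a commutative ring in which `2` is a unit, `G` a group,
`ρ : G →* Matrix (Fin 2) (Fin 2) T` such that the `T`-span of `ρ(G)` is the full matrix algebra,
`L` a `T`-module with a `T`-linear action `r : G →* Module.End T L` satisfying the
Cayley–Hamilton relation of `ρ`:

  `r g * r g = trace (ρ g) • r g - det (ρ g) • 1`   for every `g : G`.

Then the action of the group algebra on `L` factors through the matrix algebra: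

* `graph_snd_eq_zero` : `∑ aᵢ ρ(gᵢ) = 0 → ∑ aᵢ r(gᵢ) = 0` (in span form);
* `exists_algHom`     : there is a `T`-algebra homomorphism `Φ : M₂(T) → End_T L`, `Φ (ρ g) = r g`;
* `exists_embedding`  : if `L` is a finite faithful `T`-module, `T²` embeds `G`-equivariantly
                        into a finite power of `L`.

No completeness, no idempotent lifting, no multiplicity one.
-/

set_option autoImplicit false
set_option linter.unusedSimpArgs false
set_option linter.unusedVariables false
set_option linter.style.longLine false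

noncomputable section

namespace Fermat.Agent.T6.helper71

open Matrix

/-- the algebra of `2 × 2` matrices -/
abbrev Mat2 (T : Type*) [CommRing T] : Type _ := Matrix (Fin 2) (Fin 2) T

section Core

variable {T : Type*} [CommRing T] {G : Type*} [Group G]
variable {L : Type*} [AddCommGroup L] [Module T L]
variable (ρ : G →* Mat2 T) (r : G →* Module.End T L)

/-- the `T`-span of the graph `{(ρ g, r g)}` -/
def graphSpan : Submodule T (Mat2 T × Module.End T L) :=
  Submodule.span T (Set.range fun g : G => ((ρ g, r g) : Mat2 T × Module.End T L))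

theorem graph_mem (g : G) : ((ρ g, r g) : Mat2 T × Module.End T L) ∈ graphSpan ρ r :=
  Submodule.subset_span ⟨g, rfl⟩

theorem one_mem_graphSpan : (1 : Mat2 T × Module.End T L) ∈ graphSpan ρ r := by
  have h := graph_mem ρ r 1
  rwa [map_one, map_one] at h

theorem mul_mem_graphSpan {s s' : Mat2 T × Module.End T L} (hs : s ∈ graphSpan ρ r)
    (hs' : s' ∈ graphSpan ρ r) : s * s' ∈ graphSpan ρ r := by
  refine Submodule.span_induction₂ (p := fun x y _ _ => x * y ∈ graphSpan ρ r)
    ?_ ?_ ?_ ?_ ?_ ?_ ?_ hs hs'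
  · rintro _ _ ⟨g, rfl⟩ ⟨h, rfl⟩
    have := graph_mem ρ r (g * h)
    rw [map_mul, map_mul] at this
    exact this
  · intro y _
    rw [zero_mul]
    exact zero_mem _
  · intro x _
    rw [mul_zero]
    exact zero_mem _
  · intro x y z _ _ _ h1 h2
    rw [add_mul]
    exact add_mem h1 h2
  · intro x y z _ _ _ h1 h2
    rw [mul_add]
    exact add_mem h1 h2
  · intro c x y _ _ h
    rw [smul_mul_assoc]
    exact Submodule.smul_mem _ c h
  · intro c x y _ _ h
    rw [mul_smul_comm]
    exact Submodule.smul_mem _ c h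

/-! ### The polarised Cayley–Hamilton identity -/

variable (T L) in
/-- the defect of the polarised Cayley–Hamilton identity, as a bilinear map -/
def defect : (Mat2 T × Module.End T L) →ₗ[T] (Mat2 T × Module.End T L) →ₗ[T]
    Module.End T L :=
  let fstL : (Mat2 T × Module.End T L) →ₗ[T] Mat2 T := LinearMap.fst T _ _
  let sndL : (Mat2 T × Module.End T L) →ₗ[T] Module.End T L := LinearMap.snd T _ _
  let trL : (Mat2 T × Module.End T L) →ₗ[T] T := (Matrix.traceLinearMap (Fin 2) T T) ∘ₗ fstL
  let one : T →ₗ[T] Module.End T L := LinearMap.toSpanSingleton T (Module.End T L) 1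
  let D1 := (LinearMap.mul T (Module.End T L)).compl₁₂ sndL sndL
  let D3 := (LinearMap.lsmul T (Module.End T L)).compl₁₂ trL sndL
  let D5 := ((LinearMap.mul T T).compl₁₂ trL trL).compr₂ one
  let D6 := (((LinearMap.mul T (Mat2 T)).compl₁₂ fstL fstL).compr₂
    (Matrix.traceLinearMap (Fin 2) T T)).compr₂ one
  D1 + D1.flip - D3.flip - D3 + D5 - D6

theorem defect_apply (s s' : Mat2 T × Module.End T L) :
    defect T L s s' = s.2 * s'.2 + s'.2 * s.2 - s'.1.trace • s.2 - s.1.trace • s'.2
      + (s.1.trace * s'.1.trace) • (1 : Module.End T L) - (s.1 * s'.1).trace • 1 := by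
  simp [defect, LinearMap.compl₁₂_apply, LinearMap.compr₂_apply]

variable {ρ r}

/-- `det (ρ g) • r g⁻¹ = trace (ρ g) • 1 - r g` -/
theorem det_smul_inv (hCH : ∀ g, r g * r g = (ρ g).trace • r g - (ρ g).det • 1) (g : G) :
    (ρ g).det • r g⁻¹ = (ρ g).trace • (1 : Module.End T L) - r g := by
  have h1 : r g * r g⁻¹ = 1 := by rw [← map_mul, mul_inv_cancel, map_one]
  have h2 := congrArg (fun X => X * r g⁻¹) (hCH g)
  simp only [mul_assoc, h1, mul_one, sub_mul, smul_mul_assoc, one_mul] at h2
  rw [h2]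
  abel

/-- the polarised identity for group elements -/
theorem defect_graph (hCH : ∀ g, r g * r g = (ρ g).trace • r g - (ρ g).det • 1) (g h : G) :
    defect T L (ρ g, r g) (ρ h, r h) = 0 := by
  rw [defect_apply]
  have hg := det_smul_inv hCH g
  have hh := det_smul_inv hCH h
  have hgh := det_smul_inv hCH (g * h)
  rw [map_mul, Matrix.det_mul, _root_.mul_inv_rev, map_mul, map_mul] at hgh
  have h3 : ((ρ g).det * (ρ h).det) • (r h⁻¹ * r g⁻¹) =
      ((ρ h).det • r h⁻¹) * ((ρ g).det • r g⁻¹) := by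
    rw [smul_mul_smul_comm, mul_comm]
  rw [h3, hg, hh] at hgh
  simp only [sub_mul, mul_sub, smul_mul_assoc, mul_smul_comm, one_mul, mul_one, smul_sub,
    smul_smul] at hgh
  simp only
  have key : r g * r h = (ρ g * ρ h).trace • (1 : Module.End T L) -
      (((ρ g).trace * (ρ h).trace) • (1 : Module.End T L) - (ρ g).trace • r h -
        ((ρ h).trace • r g - r h * r g)) := by
    rw [hgh]; abel
  rw [key]
  abel

/-- **the polarised Cayley–Hamilton identity** on the graph span -/
theorem defect_eq_zero (hCH : ∀ g, r g * r g = (ρ g).trace • r g - (ρ g).det • 1)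
    {s s' : Mat2 T × Module.End T L} (hs : s ∈ graphSpan ρ r) (hs' : s' ∈ graphSpan ρ r) :
    defect T L s s' = 0 := by
  refine Submodule.span_induction₂ (p := fun x y _ _ => defect T L x y = 0)
    ?_ ?_ ?_ ?_ ?_ ?_ ?_ hs hs'
  · rintro _ _ ⟨g, rfl⟩ ⟨h, rfl⟩
    exact defect_graph hCH g h
  · intro y _
    rw [map_zero, LinearMap.zero_apply]
  · intro x _
    rw [map_zero]
  · intro x y z _ _ _ h1 h2
    rw [map_add, LinearMap.add_apply, h1, h2, add_zero]
  · intro x y z _ _ _ h1 h2
    rw [map_add, h1, h2, add_zero]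
  · intro c x y _ _ h
    rw [map_smul, LinearMap.smul_apply, h, smul_zero]
  · intro c x y _ _ h
    rw [map_smul, h, smul_zero]

/-- explicit form of the polarised identity -/
theorem polar (hCH : ∀ g, r g * r g = (ρ g).trace • r g - (ρ g).det • 1)
    {s s' : Mat2 T × Module.End T L} (hs : s ∈ graphSpan ρ r) (hs' : s' ∈ graphSpan ρ r) :
    s.2 * s'.2 + s'.2 * s.2 = s'.1.trace • s.2 + s.1.trace • s'.2
      - (s.1.trace * s'.1.trace) • (1 : Module.End T L) + (s.1 * s'.1).trace • 1 := by
  have h := defect_eq_zero hCH hs hs'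
  rw [defect_apply] at h
  rw [← sub_eq_zero, ← h]
  abel

/-- elements of the graph span over the zero matrix anticommute with the action up to the
trace -/
theorem anti (hCH : ∀ g, r g * r g = (ρ g).trace • r g - (ρ g).det • 1)
    {x v : Mat2 T × Module.End T L} (hx : x ∈ graphSpan ρ r) (hx0 : x.1 = 0)
    (hv : v ∈ graphSpan ρ r) : x.2 * v.2 = v.1.trace • x.2 - v.2 * x.2 := by
  have h := polar hCH hx hv
  simp only [hx0, Matrix.trace_zero, zero_mul, zero_smul, add_zero, sub_zero] at h
  rw [← h]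
  abel

/-- commutators of the action kill the elements over the zero matrix -/
theorem comm_mul (hCH : ∀ g, r g * r g = (ρ g).trace • r g - (ρ g).det • 1)
    {x v w : Mat2 T × Module.End T L} (hx : x ∈ graphSpan ρ r) (hx0 : x.1 = 0)
    (hv : v ∈ graphSpan ρ r) (hw : w ∈ graphSpan ρ r) :
    w.2 * (v.2 * x.2) = v.2 * (w.2 * x.2) := by
  have h1v := anti hCH hx hx0 hv
  have h1w := anti hCH hx hx0 hw
  have h1vw := anti hCH hx hx0 (mul_mem_graphSpan ρ r hv hw)
  have hP := polar hCH hv hw
  simp only [Prod.snd_mul, Prod.fst_mul] at h1vw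
  -- `R (a b)` in two ways
  have e1 : x.2 * (v.2 * w.2) = (v.1.trace * w.1.trace) • x.2 - v.1.trace • (w.2 * x.2)
      - w.1.trace • (v.2 * x.2) + v.2 * (w.2 * x.2) := by
    rw [← mul_assoc, h1v, sub_mul, smul_mul_assoc, h1w, mul_assoc v.2 x.2 w.2, h1w]
    simp only [smul_sub, mul_sub, smul_smul, mul_smul_comm]
    abel
  have hF := congrArg (fun X => X * x.2) hP
  simp only [add_mul, sub_mul, smul_mul_assoc, one_mul, mul_assoc] at hF
  have e2 : w.1.trace • (v.2 * x.2) + v.1.trace • (w.2 * x.2)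
      - (v.1.trace * w.1.trace) • x.2 + (v.1 * w.1).trace • x.2
      = v.2 * (w.2 * x.2) + v.2 * (w.2 * x.2) := by
    have h3 := h1vw.symm.trans e1
    rw [mul_assoc] at h3
    calc w.1.trace • (v.2 * x.2) + v.1.trace • (w.2 * x.2)
          - (v.1.trace * w.1.trace) • x.2 + (v.1 * w.1).trace • x.2
        = ((v.1 * w.1).trace • x.2 - v.2 * (w.2 * x.2))
          - ((v.1.trace * w.1.trace) • x.2 - v.1.trace • (w.2 * x.2)
            - w.1.trace • (v.2 * x.2) + v.2 * (w.2 * x.2))
          + (v.2 * (w.2 * x.2) + v.2 * (w.2 * x.2)) := by abel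
      _ = v.2 * (w.2 * x.2) + v.2 * (w.2 * x.2) := by rw [h3, sub_self, zero_add]
  rw [e2] at hF
  exact add_left_cancel hF

/-- the matrix unit `E₁₂` -/
def e12 (T : Type*) [CommRing T] : Mat2 T := !![0, 1; 0, 0]

/-- the matrix unit `E₂₁` -/
def e21 (T : Type*) [CommRing T] : Mat2 T := !![0, 0; 1, 0]

theorem trace_e12 : (e12 T).trace = 0 := by simp [e12, Matrix.trace_fin_two]

theorem trace_e21 : (e21 T).trace = 0 := by simp [e21, Matrix.trace_fin_two]

theorem e12_mul_e12 : e12 T * e12 T = 0 := by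
  ext i j; fin_cases i <;> fin_cases j <;> simp [e12, Matrix.mul_apply, Fin.sum_univ_two]

theorem e21_mul_e21 : e21 T * e21 T = 0 := by
  ext i j; fin_cases i <;> fin_cases j <;> simp [e21, Matrix.mul_apply, Fin.sum_univ_two]

theorem trace_e12_mul_e21 : (e12 T * e21 T).trace = 1 := by
  simp [e12, e21, Matrix.trace_fin_two]

/-- **KEY**: an element of the graph span over the zero matrix is zero, as soon as the matrix
units `E₁₂`, `E₂₁` are in the image and `2` is a unit. -/
theorem graph_snd_eq_zero_of_units (h2 : IsUnit (2 : T))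
    (hCH : ∀ g, r g * r g = (ρ g).trace • r g - (ρ g).det • 1)
    {v₀ w₀ : Mat2 T × Module.End T L} (hv₀ : v₀ ∈ graphSpan ρ r) (hw₀ : w₀ ∈ graphSpan ρ r)
    (hv₀1 : v₀.1 = e12 T) (hw₀1 : w₀.1 = e21 T)
    {x : Mat2 T × Module.End T L} (hx : x ∈ graphSpan ρ r) (hx0 : x.1 = 0) : x.2 = 0 := by
  -- `n² = 0`, `n'² = 0`, `n n' + n' n = 1`
  have hn : v₀.2 * v₀.2 = 0 := by
    have h := polar hCH hv₀ hv₀
    rw [hv₀1, trace_e12, e12_mul_e12, Matrix.trace_zero] at h
    simp only [zero_smul, zero_mul, add_zero, sub_zero] at h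
    have h' : (2 : T) • (v₀.2 * v₀.2) = 0 := by rw [two_smul]; exact h
    exact (h2.smul_eq_zero).mp h'
  have hn' : w₀.2 * w₀.2 = 0 := by
    have h := polar hCH hw₀ hw₀
    rw [hw₀1, trace_e21, e21_mul_e21, Matrix.trace_zero] at h
    simp only [zero_smul, zero_mul, add_zero, sub_zero] at h
    have h' : (2 : T) • (w₀.2 * w₀.2) = 0 := by rw [two_smul]; exact h
    exact (h2.smul_eq_zero).mp h'
  have hone : v₀.2 * w₀.2 + w₀.2 * v₀.2 = 1 := by
    have h := polar hCH hv₀ hw₀
    rw [hv₀1, hw₀1, trace_e12, trace_e21, trace_e12_mul_e21] at h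
    simp only [zero_smul, zero_mul, add_zero, sub_zero, one_smul, zero_add] at h
    exact h
  -- the commutator kills `R`
  have hc := comm_mul hCH hx hx0 hv₀ hw₀
  -- `(n n' + n' n) R = R`
  have hR : v₀.2 * (w₀.2 * x.2) + w₀.2 * (v₀.2 * x.2) = x.2 := by
    rw [← mul_assoc, ← mul_assoc, ← add_mul, hone, one_mul]
  -- `n n' R = 0`
  have h0 : v₀.2 * (w₀.2 * x.2) = 0 := by
    have h := congrArg (fun X => v₀.2 * (w₀.2 * X)) hR
    simp only [mul_add] at h
    rw [hc] at h
    -- both terms vanish: `n n' n n' R = n n' n' n R = 0` after the swap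
    have t1 : v₀.2 * (w₀.2 * (v₀.2 * (w₀.2 * x.2))) = 0 := by
      rw [← hc, ← mul_assoc w₀.2 w₀.2, hn', zero_mul, mul_zero]
    rw [t1, zero_add] at h
    exact h.symm
  rw [← hR, hc, h0, add_zero]

variable (r) in
/-- the first projection of the graph span is onto, if the image of `ρ` spans the matrices -/
theorem exists_graph_fst_eq (hsurj : Submodule.span T (Set.range ρ) = ⊤) (A : Mat2 T) :
    ∃ s ∈ graphSpan ρ r, s.1 = A := by
  have h : (graphSpan ρ r).map (LinearMap.fst T (Mat2 T) (Module.End T L)) = ⊤ := by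
    rw [graphSpan, Submodule.map_span, ← hsurj]
    congr 1
    ext B
    constructor
    · rintro ⟨_, ⟨g, rfl⟩, rfl⟩
      exact ⟨g, rfl⟩
    · rintro ⟨g, rfl⟩
      exact ⟨_, ⟨g, rfl⟩, rfl⟩
  have hA : A ∈ (graphSpan ρ r).map (LinearMap.fst T (Mat2 T) (Module.End T L)) := by
    rw [h]; exact Submodule.mem_top
  obtain ⟨s, hs, hsA⟩ := hA
  exact ⟨s, hs, hsA⟩

/-- **KEY**: the second projection of the graph span is determined by the first. -/
theorem graph_snd_eq_zero (h2 : IsUnit (2 : T))
    (hCH : ∀ g, r g * r g = (ρ g).trace • r g - (ρ g).det • 1)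
    (hsurj : Submodule.span T (Set.range ρ) = ⊤)
    {x : Mat2 T × Module.End T L} (hx : x ∈ graphSpan ρ r) (hx0 : x.1 = 0) : x.2 = 0 := by
  obtain ⟨v₀, hv₀, hv₀1⟩ := exists_graph_fst_eq r hsurj (e12 T)
  obtain ⟨w₀, hw₀, hw₀1⟩ := exists_graph_fst_eq r hsurj (e21 T)
  exact graph_snd_eq_zero_of_units h2 hCH hv₀ hw₀ hv₀1 hw₀1 hx hx0

theorem graph_snd_unique (h2 : IsUnit (2 : T))
    (hCH : ∀ g, r g * r g = (ρ g).trace • r g - (ρ g).det • 1)
    (hsurj : Submodule.span T (Set.range ρ) = ⊤)
    {x y : Mat2 T × Module.End T L} (hx : x ∈ graphSpan ρ r) (hy : y ∈ graphSpan ρ r)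
    (hxy : x.1 = y.1) : x.2 = y.2 := by
  have h := graph_snd_eq_zero h2 hCH hsurj (sub_mem hx hy)
    (by rw [Prod.fst_sub, hxy, sub_self])
  rw [Prod.snd_sub] at h
  exact sub_eq_zero.mp h

/-- **the action on `L` factors through the matrix algebra.** -/
theorem exists_algHom (h2 : IsUnit (2 : T))
    (hCH : ∀ g, r g * r g = (ρ g).trace • r g - (ρ g).det • 1)
    (hsurj : Submodule.span T (Set.range ρ) = ⊤) :
    ∃ Φ : Mat2 T →ₐ[T] Module.End T L, ∀ g, Φ (ρ g) = r g := by
  classical
  choose f hf hf1 using exists_graph_fst_eq r hsurj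
  have huniq : ∀ (A : Mat2 T) (s : Mat2 T × Module.End T L), s ∈ graphSpan ρ r → s.1 = A →
      (f A).2 = s.2 := fun A s hs hsA =>
    graph_snd_unique h2 hCH hsurj (hf A) hs ((hf1 A).trans hsA.symm)
  let Φl : Mat2 T →ₗ[T] Module.End T L :=
    { toFun := fun A => (f A).2
      map_add' := fun A B => by
        refine huniq (A + B) (f A + f B) (add_mem (hf A) (hf B)) ?_
        rw [Prod.fst_add, hf1, hf1]
      map_smul' := fun c A => by
        refine huniq (c • A) (c • f A) (Submodule.smul_mem _ c (hf A)) ?_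
        rw [Prod.smul_fst, hf1] }
  have hΦl : ∀ A, Φl A = (f A).2 := fun A => rfl
  refine ⟨AlgHom.ofLinearMap Φl ?_ ?_, fun g => ?_⟩
  · rw [hΦl]
    exact huniq 1 1 (one_mem_graphSpan ρ r) rfl
  · intro A B
    rw [hΦl, hΦl, hΦl]
    refine huniq (A * B) (f A * f B) (mul_mem_graphSpan ρ r (hf A) (hf B)) ?_
    rw [Prod.fst_mul, hf1, hf1]
  · show Φl (ρ g) = r g
    rw [hΦl]
    exact huniq (ρ g) (ρ g, r g) (graph_mem ρ r g) rfl

/-! ### The equivariant embedding -/

/-- the matrix unit `E₁₁` -/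
def e11 (T : Type*) [CommRing T] : Mat2 T := !![1, 0; 0, 0]

/-- the matrix with first column `v` and second column `0`, linear in `v` -/
def colMat : (Fin 2 → T) →ₗ[T] Mat2 T where
  toFun v := !![v 0, 0; v 1, 0]
  map_add' v w := by
    ext i j; fin_cases i <;> fin_cases j <;> simp
  map_smul' c v := by
    ext i j; fin_cases i <;> fin_cases j <;> simp

theorem colMat_apply (v : Fin 2 → T) : colMat v = !![v 0, 0; v 1, 0] := rfl

theorem mul_colMat (A : Mat2 T) (v : Fin 2 → T) : A * colMat v = colMat (A *ᵥ v) := by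
  ext i j
  fin_cases i <;> fin_cases j <;>
    simp [colMat_apply, Matrix.mul_apply, Matrix.mulVec, dotProduct, Fin.sum_univ_two]

theorem smul_one_eq_zero (v : Fin 2 → T) :
    v 0 • (1 : Mat2 T) = e11 T * colMat v + e21 T * e11 T * colMat v * e12 T := by
  ext i j
  fin_cases i <;> fin_cases j <;>
    simp [colMat_apply, e11, e12, e21, Matrix.mul_apply, Fin.sum_univ_two, Matrix.one_apply]

theorem smul_one_eq_one (v : Fin 2 → T) :
    v 1 • (1 : Mat2 T) = e12 T * colMat v + e21 T * e12 T * colMat v * e12 T := by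
  ext i j
  fin_cases i <;> fin_cases j <;>
    simp [colMat_apply, e11, e12, e21, Matrix.mul_apply, Fin.sum_univ_two, Matrix.one_apply]

/-- if `Φ (colMat v)` vanishes on a faithful module then `v = 0` -/
theorem eq_zero_of_algHom_colMat (Φ : Mat2 T →ₐ[T] Module.End T L)
    (hfaith : ∀ t : T, (∀ x : L, t • x = 0) → t = 0) (v : Fin 2 → T)
    (hv : Φ (colMat v) = 0) : v = 0 := by
  have h0 : v 0 • (1 : Module.End T L) = 0 := by
    have h := congrArg Φ (smul_one_eq_zero v)
    rw [map_smul, map_one, map_add, map_mul, map_mul, map_mul, hv] at h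
    rw [h, mul_zero, mul_zero, zero_mul, add_zero]
  have h1 : v 1 • (1 : Module.End T L) = 0 := by
    have h := congrArg Φ (smul_one_eq_one v)
    rw [map_smul, map_one, map_add, map_mul, map_mul, map_mul, hv] at h
    rw [h, mul_zero, mul_zero, zero_mul, add_zero]
  have key : ∀ t : T, t • (1 : Module.End T L) = 0 → t = 0 := fun t ht =>
    hfaith t fun x => by
      have := congrArg (fun F : Module.End T L => F x) ht
      simpa using this
  funext i
  fin_cases i
  · exact key _ h0
  · exact key _ h1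

/-- **the equivariant embedding** (matrix form): `T²` embeds into a finite power of a finite
faithful Cayley–Hamilton module, compatibly with the actions. -/
theorem exists_embedding_mat [Module.Finite T L] (h2 : IsUnit (2 : T))
    (hCH : ∀ g, r g * r g = (ρ g).trace • r g - (ρ g).det • 1)
    (hsurj : Submodule.span T (Set.range ρ) = ⊤)
    (hfaith : ∀ t : T, (∀ x : L, t • x = 0) → t = 0) :
    ∃ (m : ℕ) (φ : (Fin 2 → T) →ₗ[T] (Fin m → L)), Function.Injective φ ∧
      ∀ (g : G) (v : Fin 2 → T) (i : Fin m), φ (ρ g *ᵥ v) i = r g (φ v i) := by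
  obtain ⟨Φ, hΦ⟩ := exists_algHom h2 hCH hsurj
  obtain ⟨m, w, hw⟩ := Module.Finite.exists_fin (R := T) (M := L)
  let φ : (Fin 2 → T) →ₗ[T] (Fin m → L) :=
    LinearMap.pi fun i => (LinearMap.applyₗ (w i)) ∘ₗ (Φ.toLinearMap ∘ₗ colMat)
  have hφ : ∀ v i, φ v i = Φ (colMat v) (w i) := fun v i => rfl
  refine ⟨m, φ, ?_, fun g v i => ?_⟩
  · rw [injective_iff_map_eq_zero]
    intro v hv
    refine eq_zero_of_algHom_colMat Φ hfaith v ?_
    refine LinearMap.ext_on_range hw fun i => ?_
    rw [LinearMap.zero_apply, ← hφ, hv]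
    rfl
  · rw [hφ, hφ, ← mul_colMat, map_mul, hΦ]
    rfl

end Core

/-! ### General form: a free module of rank `2` with a basis -/

section General

variable {T : Type*} [CommRing T] {G : Type*} [Group G]
variable {V : Type*} [AddCommGroup V] [Module T V]
variable {L : Type*} [AddCommGroup L] [Module T L]

/-- the matrix form of a representation on a module with a basis -/
def matRep (b : Module.Basis (Fin 2) T V) (ρV : G →* Module.End T V) : G →* Mat2 T :=
  ((LinearMap.toMatrixAlgEquiv b : Module.End T V ≃ₐ[T] Mat2 T) : Module.End T V →* Mat2 T).comp ρV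

theorem matRep_apply (b : Module.Basis (Fin 2) T V) (ρV : G →* Module.End T V) (g : G) :
    matRep b ρV g = LinearMap.toMatrix b b (ρV g) := rfl

theorem trace_matRep (b : Module.Basis (Fin 2) T V) (ρV : G →* Module.End T V) (g : G) :
    (matRep b ρV g).trace = LinearMap.trace T V (ρV g) := by
  rw [matRep_apply, ← LinearMap.trace_eq_matrix_trace T b]

theorem det_matRep (b : Module.Basis (Fin 2) T V) (ρV : G →* Module.End T V) (g : G) :
    (matRep b ρV g).det = LinearMap.det (ρV g) := by
  rw [matRep_apply, LinearMap.det_toMatrix]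

theorem span_matRep (b : Module.Basis (Fin 2) T V) (ρV : G →* Module.End T V)
    (hsurj : Submodule.span T (Set.range ρV) = ⊤) :
    Submodule.span T (Set.range (matRep b ρV)) = ⊤ := by
  let f : Module.End T V →ₗ[T] Mat2 T :=
    ((LinearMap.toMatrix b b : (V →ₗ[T] V) ≃ₗ[T] Mat2 T) : (V →ₗ[T] V) →ₗ[T] Mat2 T)
  have hf : Function.Surjective f :=
    (LinearMap.toMatrix b b : (V →ₗ[T] V) ≃ₗ[T] Mat2 T).surjective
  have h1 : Set.range (matRep b ρV) = f '' Set.range ρV := by
    ext A
    constructor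
    · rintro ⟨g, rfl⟩
      exact ⟨ρV g, ⟨g, rfl⟩, rfl⟩
    · rintro ⟨_, ⟨g, rfl⟩, rfl⟩
      exact ⟨g, rfl⟩
  rw [h1, ← Submodule.map_span, hsurj, Submodule.map_top, LinearMap.range_eq_top]
  exact hf

/-- **[CMP-CH] (a)** the action of `G` on a Cayley–Hamilton module `L` factors through
`End_T V`. -/
theorem exists_algHom_end (b : Module.Basis (Fin 2) T V) (ρV : G →* Module.End T V)
    (r : G →* Module.End T L) (h2 : IsUnit (2 : T))
    (hCH : ∀ g, r g * r g = LinearMap.trace T V (ρV g) • r g - LinearMap.det (ρV g) • 1)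
    (hsurj : Submodule.span T (Set.range ρV) = ⊤) :
    ∃ Φ : Module.End T V →ₐ[T] Module.End T L, ∀ g, Φ (ρV g) = r g := by
  obtain ⟨Φ, hΦ⟩ := exists_algHom (ρ := matRep b ρV) (r := r) h2
    (fun g => by rw [trace_matRep, det_matRep]; exact hCH g) (span_matRep b ρV hsurj)
  refine ⟨Φ.comp (LinearMap.toMatrixAlgEquiv b : Module.End T V ≃ₐ[T] Mat2 T).toAlgHom,
    fun g => ?_⟩
  exact hΦ g

/-- **[CMP-CH] (b)** `V` embeds `G`-equivariantly into a finite power of a finite faithful
Cayley–Hamilton module `L`. -/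
theorem exists_embedding [Module.Finite T L] (b : Module.Basis (Fin 2) T V)
    (ρV : G →* Module.End T V) (r : G →* Module.End T L) (h2 : IsUnit (2 : T))
    (hCH : ∀ g, r g * r g = LinearMap.trace T V (ρV g) • r g - LinearMap.det (ρV g) • 1)
    (hsurj : Submodule.span T (Set.range ρV) = ⊤)
    (hfaith : ∀ t : T, (∀ x : L, t • x = 0) → t = 0) :
    ∃ (m : ℕ) (φ : V →ₗ[T] (Fin m → L)), Function.Injective φ ∧
      ∀ (g : G) (v : V) (i : Fin m), φ (ρV g v) i = r g (φ v i) := by
  obtain ⟨m, φ, hinj, heq⟩ := exists_embedding_mat (ρ := matRep b ρV) (r := r) h2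
    (fun g => by rw [trace_matRep, det_matRep]; exact hCH g) (span_matRep b ρV hsurj) hfaith
  refine ⟨m, φ ∘ₗ (b.equivFun : V →ₗ[T] (Fin 2 → T)), ?_, fun g v i => ?_⟩
  · exact hinj.comp b.equivFun.injective
  · have h := heq g (b.equivFun v) i
    have h1 : matRep b ρV g *ᵥ (b.equivFun v) = b.equivFun (ρV g v) := by
      rw [matRep_apply]
      exact LinearMap.toMatrix_mulVec_repr b b (ρV g) v
    rw [h1] at h
    exact h

/-- **[CMP-CH] (b)**, `finrank` form (the shape of the Prelude `GaloisRepAdic`). -/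
theorem exists_embedding_of_finrank [Nontrivial T] [Module.Free T V] [Module.Finite T V]
    [Module.Finite T L] (hV : Module.finrank T V = 2)
    (ρV : G →* Module.End T V) (r : G →* Module.End T L) (h2 : IsUnit (2 : T))
    (hCH : ∀ g, r g * r g = LinearMap.trace T V (ρV g) • r g - LinearMap.det (ρV g) • 1)
    (hsurj : Submodule.span T (Set.range ρV) = ⊤)
    (hfaith : ∀ t : T, (∀ x : L, t • x = 0) → t = 0) :
    ∃ (m : ℕ) (φ : V →ₗ[T] (Fin m → L)), Function.Injective φ ∧
      ∀ (g : G) (v : V) (i : Fin m), φ (ρV g v) i = r g (φ v i) :=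
  exists_embedding (Module.finBasisOfFinrankEq T V hV) ρV r h2 hCH hsurj hfaith

end General

end Fermat.Agent.T6.helper71

end
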