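import Mathlib
import Fermat.Agent.T6.helper71_CmpCH

/-!
# T6 / S32 [X] (helper71): the off-diagonal unit

`T` a local ring in which `2` is invertible, `ρ : G → GL₂(T)` with `span_T (ρ G) = M₂(T)`
(absolutely irreducible residual representation), `c : G` with `tr ρ(c) = 0`, `det ρ(c) = -1`
(complex conjugation).  With

`x12 τ σ = 2 (tr ρ(τ σ) + tr ρ(c τ σ)) - (tr ρ(τ) + tr ρ(c τ)) (tr ρ(σ) + tr ρ(c σ))`,
`x21 τ σ = 2 (tr ρ(τ σ) - tr ρ(c τ σ)) - (tr ρ(τ) - tr ρ(c τ)) (tr ρ(σ) - tr ρ(c σ))`

(the scalars of `P3.helper22.QuadData`, computed from the trace alone):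

* `mX21_eq_mX12` : `x21 σ τ = x12 τ σ` for all `τ`, `σ` (only `tr ρ(c) = 0` is used);
* `exists_isUnit_mX12` : there are `τ₀`, `σ₀` with `x12 τ₀ σ₀` a unit of `T`.
-/

set_option autoImplicit false

namespace Fermat.Agent.T6.helper71

open Matrix

section MatX

variable {T : Type*} [CommRing T]

/-- the scalar `x12` of a triple of `2 × 2` matrices (`C` the involution) -/
def mX12 (C A B : Mat2 T) : T :=
  2 * ((A * B).trace + (C * (A * B)).trace)
    - (A.trace + (C * A).trace) * (B.trace + (C * B).trace)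

/-- the scalar `x21` of a triple of `2 × 2` matrices (`C` the involution) -/
def mX21 (C A B : Mat2 T) : T :=
  2 * ((A * B).trace - (C * (A * B)).trace)
    - (A.trace - (C * A).trace) * (B.trace - (C * B).trace)

/-- the bilinear form `tr (E₁ A E₂ B)` -/
def bX (C A B : Mat2 T) : T := ((1 + C) * A * (1 - C) * B).trace

theorem mX12_sub_mX21 (C A B : Mat2 T) :
    mX12 C A B - mX21 C B A = 2 * ((A * B).trace - A.trace * B.trace) * C.trace := by
  simp only [mX12, mX21, Matrix.trace_fin_two, Matrix.mul_apply, Fin.sum_univ_two]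
  ring

theorem mX21_eq_mX12 {C : Mat2 T} (hC : C.trace = 0) (A B : Mat2 T) :
    mX21 C B A = mX12 C A B := by
  have h := mX12_sub_mX21 C A B
  rw [hC, mul_zero] at h
  exact (sub_eq_zero.mp h).symm

theorem bX_eq (C A B : Mat2 T) :
    bX C A B = mX12 C A B + (1 + C).det * (A.adjugate * B).trace := by
  simp only [bX, mX12, Matrix.trace_fin_two, Matrix.mul_apply, Fin.sum_univ_two,
    Matrix.of_apply, Matrix.cons_val', Matrix.cons_val_zero, Matrix.cons_val_one,
    Matrix.cons_val_fin_one, Matrix.det_fin_two, Matrix.adjugate_fin_two, Matrix.add_apply,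
    Matrix.sub_apply, Matrix.one_apply_eq, Matrix.one_apply_ne, ne_eq, zero_ne_one,
    one_ne_zero, not_false_eq_true]
  ring

theorem bX_add_left (C A A' B : Mat2 T) : bX C (A + A') B = bX C A B + bX C A' B := by
  simp only [bX, mul_add, add_mul, Matrix.trace_add]

theorem bX_add_right (C A B B' : Mat2 T) : bX C A (B + B') = bX C A B + bX C A B' := by
  simp only [bX, mul_add, Matrix.trace_add]

theorem bX_smul_left (C : Mat2 T) (a : T) (A B : Mat2 T) : bX C (a • A) B = a * bX C A B := by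
  simp only [bX, Matrix.mul_smul, Matrix.smul_mul, Matrix.trace_smul, smul_eq_mul]

theorem bX_smul_right (C : Mat2 T) (a : T) (A B : Mat2 T) : bX C A (a • B) = a * bX C A B := by
  simp only [bX, Matrix.mul_smul, Matrix.trace_smul, smul_eq_mul]

theorem bX_zero_left (C B : Mat2 T) : bX C 0 B = 0 := by
  simp only [bX, mul_zero, zero_mul, Matrix.trace_zero]

theorem bX_zero_right (C A : Mat2 T) : bX C A 0 = 0 := by
  simp only [bX, mul_zero, Matrix.trace_zero]

/-- the value of `bX` on a pair of matrix units -/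
theorem bX_single (C : Mat2 T) (i k : Fin 2) :
    bX C (Matrix.single i k 1) (Matrix.single k i 1) = (1 + C) i i * (1 - C) k k := by
  fin_cases i <;> fin_cases k <;>
    simp [bX, Matrix.trace_fin_two, Matrix.mul_apply, Fin.sum_univ_two, Matrix.single_apply]

/-- `det (1 + C) = 0` for an involution of trace `0` -/
theorem det_one_add_eq_zero {C : Mat2 T} (hCC : C * C = 1) (hC : C.trace = 0) :
    (1 + C).det = 0 := by
  have h00 := congrFun (congrFun hCC 0) 0
  have h11 := congrFun (congrFun hCC 1) 1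
  rw [Matrix.trace_fin_two] at hC
  simp only [Matrix.mul_apply, Fin.sum_univ_two, Matrix.one_apply_eq] at h00 h11
  simp only [Matrix.det_fin_two, Matrix.add_apply, Matrix.one_apply_eq, Matrix.one_apply_ne,
    ne_eq, zero_ne_one, one_ne_zero, not_false_eq_true, zero_add]
  linear_combination (1 + C 1 1) * hC - h11

theorem mX12_eq_bX {C : Mat2 T} (hCC : C * C = 1) (hC : C.trace = 0) (A B : Mat2 T) :
    mX12 C A B = bX C A B := by
  rw [bX_eq, det_one_add_eq_zero hCC hC, zero_mul, add_zero]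

end MatX

section UnitX

variable {T : Type*} [CommRing T] [IsLocalRing T] {G : Type*} [Group G]

/-- **[X], matrix form, bilinear version.** -/
theorem exists_isUnit_bX (h2 : IsUnit (2 : T)) (ρ : G →* Mat2 T)
    (hsurj : Submodule.span T (Set.range ρ) = ⊤) (C : Mat2 T) (hC : C.trace = 0) :
    ∃ τ σ : G, IsUnit (bX C (ρ τ) (ρ σ)) := by
  by_contra hcon
  simp only [not_exists] at hcon
  have h1 : ∀ τ σ, bX C (ρ τ) (ρ σ) ∈ IsLocalRing.maximalIdeal T := fun τ σ =>
    (IsLocalRing.mem_maximalIdeal _).2 (hcon τ σ)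
  have h3 : ∀ (A : Mat2 T) (σ : G), bX C A (ρ σ) ∈ IsLocalRing.maximalIdeal T := by
    intro A σ
    have hA : A ∈ Submodule.span T (Set.range ρ) := hsurj ▸ Submodule.mem_top
    induction hA using Submodule.span_induction with
    | mem x hx => obtain ⟨τ, rfl⟩ := hx; exact h1 τ σ
    | zero => rw [bX_zero_left]; exact zero_mem _
    | add x y _ _ hx hy => rw [bX_add_left]; exact add_mem hx hy
    | smul a x _ hx => rw [bX_smul_left]; exact Ideal.mul_mem_left _ _ hx
  have h4 : ∀ A B : Mat2 T, bX C A B ∈ IsLocalRing.maximalIdeal T := by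
    intro A B
    have hB : B ∈ Submodule.span T (Set.range ρ) := hsurj ▸ Submodule.mem_top
    induction hB using Submodule.span_induction with
    | mem x hx => obtain ⟨σ, rfl⟩ := hx; exact h3 A σ
    | zero => rw [bX_zero_right]; exact zero_mem _
    | add x y _ _ hx hy => rw [bX_add_right]; exact add_mem hx hy
    | smul a x _ hx => rw [bX_smul_right]; exact Ideal.mul_mem_left _ _ hx
  rw [Matrix.trace_fin_two] at hC
  have he : IsUnit ((1 + C) 0 0 + (1 + C) 1 1) := by
    have e : (1 + C) 0 0 + (1 + C) 1 1 = 2 := by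
      simp only [Matrix.add_apply, Matrix.one_apply_eq]
      linear_combination hC
    rw [e]; exact h2
  have hf : IsUnit ((1 - C) 0 0 + (1 - C) 1 1) := by
    have e : (1 - C) 0 0 + (1 - C) 1 1 = 2 := by
      simp only [Matrix.sub_apply, Matrix.one_apply_eq]
      linear_combination -hC
    rw [e]; exact h2
  obtain ⟨i, hi⟩ : ∃ i, IsUnit ((1 + C) i i) := by
    rcases IsLocalRing.isUnit_or_isUnit_of_isUnit_add he with h | h
    exacts [⟨0, h⟩, ⟨1, h⟩]
  obtain ⟨k, hk⟩ : ∃ k, IsUnit ((1 - C) k k) := by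
    rcases IsLocalRing.isUnit_or_isUnit_of_isUnit_add hf with h | h
    exacts [⟨0, h⟩, ⟨1, h⟩]
  have h5 := h4 (Matrix.single i k 1) (Matrix.single k i 1)
  rw [bX_single] at h5
  exact (IsLocalRing.mem_maximalIdeal _).1 h5 (hi.mul hk)

/-- **[X], matrix form.** -/
theorem exists_isUnit_mX12 (h2 : IsUnit (2 : T)) (ρ : G →* Mat2 T)
    (hsurj : Submodule.span T (Set.range ρ) = ⊤) (c : G) (hc : c * c = 1)
    (htc : (ρ c).trace = 0) :
    ∃ τ σ : G, IsUnit (mX12 (ρ c) (ρ τ) (ρ σ)) := by
  have hCC : ρ c * ρ c = 1 := by rw [← map_mul, hc, map_one]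
  obtain ⟨τ, σ, h⟩ := exists_isUnit_bX h2 ρ hsurj (ρ c) htc
  exact ⟨τ, σ, by rw [mX12_eq_bX hCC htc]; exact h⟩

end UnitX

/-! ## Trace-function forms -/

section TraceX

variable {T : Type*} [CommRing T] {G : Type*} [Group G]

/-- the scalar `x12` of a "trace function" `t : G → T` and an element `c` -/
def tX12 (t : G → T) (c τ σ : G) : T :=
  2 * (t (τ * σ) + t (c * (τ * σ))) - (t τ + t (c * τ)) * (t σ + t (c * σ))

/-- the scalar `x21` of a "trace function" `t : G → T` and an element `c` -/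
def tX21 (t : G → T) (c τ σ : G) : T :=
  2 * (t (τ * σ) - t (c * (τ * σ))) - (t τ - t (c * τ)) * (t σ - t (c * σ))

theorem tX12_matrix (ρ : G →* Mat2 T) (c τ σ : G) :
    tX12 (fun g => (ρ g).trace) c τ σ = mX12 (ρ c) (ρ τ) (ρ σ) := by
  simp only [tX12, mX12, map_mul]

theorem tX21_matrix (ρ : G →* Mat2 T) (c τ σ : G) :
    tX21 (fun g => (ρ g).trace) c τ σ = mX21 (ρ c) (ρ τ) (ρ σ) := by
  simp only [tX21, mX21, map_mul]

variable {V : Type*} [AddCommGroup V] [Module T V]

theorem tX12_end (b : Module.Basis (Fin 2) T V) (ρV : G →* Module.End T V) (c τ σ : G) :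
    tX12 (fun g => LinearMap.trace T V (ρV g)) c τ σ
      = mX12 (matRep b ρV c) (matRep b ρV τ) (matRep b ρV σ) := by
  rw [← tX12_matrix]
  simp only [trace_matRep]

theorem tX21_end (b : Module.Basis (Fin 2) T V) (ρV : G →* Module.End T V) (c τ σ : G) :
    tX21 (fun g => LinearMap.trace T V (ρV g)) c τ σ
      = mX21 (matRep b ρV c) (matRep b ρV τ) (matRep b ρV σ) := by
  rw [← tX21_matrix]
  simp only [trace_matRep]

/-- **[X], symmetry**: `x21 σ τ = x12 τ σ` as soon as `tr ρ(c) = 0`. -/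
theorem tX21_eq_tX12 [Module.Free T V] [Module.Finite T V] [Nontrivial T]
    (hV : Module.finrank T V = 2)
    (ρV : G →* Module.End T V) (c : G) (htc : LinearMap.trace T V (ρV c) = 0) (τ σ : G) :
    tX21 (fun g => LinearMap.trace T V (ρV g)) c σ τ
      = tX12 (fun g => LinearMap.trace T V (ρV g)) c τ σ := by
  rw [tX21_end (Module.finBasisOfFinrankEq T V hV), tX12_end (Module.finBasisOfFinrankEq T V hV)]
  exact mX21_eq_mX12 (by rw [trace_matRep]; exact htc) _ _

/-- **[X], existence of the unit**: `T` local, `2` invertible, `ρ(G)` spans `End_T V`,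
`c * c = 1`, `tr ρ(c) = 0`; then some `x12 τ₀ σ₀` is a unit. -/
theorem exists_isUnit_tX12 [IsLocalRing T] [Module.Free T V] [Module.Finite T V]
    (h2 : IsUnit (2 : T)) (hV : Module.finrank T V = 2)
    (ρV : G →* Module.End T V) (hsurj : Submodule.span T (Set.range ρV) = ⊤)
    (c : G) (hc : c * c = 1) (htc : LinearMap.trace T V (ρV c) = 0) :
    ∃ τ₀ σ₀ : G, IsUnit (tX12 (fun g => LinearMap.trace T V (ρV g)) c τ₀ σ₀) := by
  obtain ⟨τ, σ, h⟩ := exists_isUnit_mX12 h2 (matRep (Module.finBasisOfFinrankEq T V hV) ρV)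
    (span_matRep _ ρV hsurj) c hc (by rw [trace_matRep]; exact htc)
  exact ⟨τ, σ, by rw [tX12_end (Module.finBasisOfFinrankEq T V hV)]; exact h⟩

end TraceX

end Fermat.Agent.T6.helper71
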