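import Mathlib
import Fermat.Agent.T6.helper71_CmpX
import Fermat.Agent.P3.helper22_QuadAlg
import Fermat.Agent.P3.helper12_TraceRigid

/-!
# T6 / S32 [X] (helper71): the off-diagonal unit, `QuadData` / `GaloisRepAdic` forms

* `map_x12`, `map_x21` : `Θ (Q.x12 τ σ)` is the scalar `tX12` of the trace function `Θ ∘ Q.t`;
* `exists_isUnit_map_x12` : **[X]** for a representation `ρV` on a free module of rank two over
  a local ring `T` (`2` invertible, `ρV(G)` spans `End_T V`) whose trace is `Θ ∘ Q.t`: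
  `∃ τ₀ σ₀, IsUnit (Θ (Q.x12 τ₀ σ₀)) ∧ ∀ τ σ, Θ (Q.x21 σ τ) = Θ (Q.x12 τ σ)`;
* `exists_isUnit_x12_of_residual_absIrr` : the same for a Prelude `GaloisRepAdic T` with
  absolutely irreducible residual representation;
* `exists_mul_sub_one_mem` : `x'` with `Θ (u * x') - 1 ∈ I` for `Θ u` a unit, `T ⧸ I` finite
  (`x'` is a power of `u`);
* `exists_x12_data` : `τ₀`, `σ₀`, `x'` at once, in the shape of the hypotheses `hsym`, `hV` of
  `helper67.exists_subquotient` (before passing to `V ⧸ I V`).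
-/

set_option autoImplicit false

namespace Fermat.Agent.T6.helper71

open Fermat.Agent.P3.helper22

section QuadX

variable {T : Type*} [CommRing T] {G : Type*} [Group G] {B : Type*} [CommRing B]
  {W : Type*} [AddCommGroup W] [Module B W]

theorem map_x12 (Q : QuadData G B W) (Θ : B →+* T) (τ σ : G) :
    Θ (Q.x12 τ σ) = tX12 (fun g => Θ (Q.t g)) Q.c τ σ := by
  simp only [QuadData.x12, tX12, map_sub, map_mul, map_add, map_ofNat]

theorem map_x21 (Q : QuadData G B W) (Θ : B →+* T) (τ σ : G) :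
    Θ (Q.x21 τ σ) = tX21 (fun g => Θ (Q.t g)) Q.c τ σ := by
  simp only [QuadData.x21, tX21, map_sub, map_mul, map_ofNat]

variable {V : Type*} [AddCommGroup V] [Module T V]

/-- **[X]**, general form. -/
theorem exists_isUnit_map_x12 [IsLocalRing T] [Module.Free T V] [Module.Finite T V]
    (h2 : IsUnit (2 : T)) (hV : Module.finrank T V = 2)
    (ρV : G →* Module.End T V) (hsurj : Submodule.span T (Set.range ρV) = ⊤)
    (Q : QuadData G B W) (Θ : B →+* T)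
    (htr : ∀ s, LinearMap.trace T V (ρV s) = Θ (Q.t s)) :
    (∃ τ₀ σ₀ : G, IsUnit (Θ (Q.x12 τ₀ σ₀))) ∧ ∀ τ σ : G, Θ (Q.x21 σ τ) = Θ (Q.x12 τ σ) := by
  have hfun : (fun g => Θ (Q.t g)) = fun g => LinearMap.trace T V (ρV g) :=
    funext fun g => (htr g).symm
  have htc : LinearMap.trace T V (ρV Q.c) = 0 := by rw [htr, Q.t_c, map_zero]
  constructor
  · obtain ⟨τ₀, σ₀, h⟩ := exists_isUnit_tX12 h2 hV ρV hsurj Q.c Q.c_sq htc
    exact ⟨τ₀, σ₀, by rw [map_x12, hfun]; exact h⟩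
  · intro τ σ
    rw [map_x12, map_x21, hfun]
    exact tX21_eq_tX12 hV ρV Q.c htc τ σ

/-- `x'` with `Θ (u * x') ≡ 1` modulo an ideal of finite index (a power of `u`). -/
theorem exists_mul_sub_one_mem (Θ : B →+* T) (I : Ideal T) [Finite (T ⧸ I)] (u : B)
    (hu : IsUnit (Θ u)) : ∃ x' : B, Θ (u * x') - 1 ∈ I := by
  have hu' : IsUnit (Ideal.Quotient.mk I (Θ u)) := hu.map _
  obtain ⟨w, hw⟩ := hu'
  obtain ⟨n, hn, hpow⟩ := (isOfFinOrder_of_finite w).exists_pow_eq_one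
  refine ⟨u ^ (n - 1), ?_⟩
  have e : u * u ^ (n - 1) = u ^ n := by
    rw [← pow_succ', Nat.sub_add_cancel hn]
  rw [e, map_pow, ← Ideal.Quotient.eq, map_pow, map_one, ← hw, ← Units.val_pow_eq_pow_val, hpow,
    Units.val_one]

/-- **[X] + `x'`**: the data `τ₀`, `σ₀`, `x'` of `helper67.exists_subquotient`, in `T`. -/
theorem exists_x12_data [IsLocalRing T] [Module.Free T V] [Module.Finite T V]
    (h2 : IsUnit (2 : T)) (hV : Module.finrank T V = 2)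
    (ρV : G →* Module.End T V) (hsurj : Submodule.span T (Set.range ρV) = ⊤)
    (Q : QuadData G B W) (Θ : B →+* T)
    (htr : ∀ s, LinearMap.trace T V (ρV s) = Θ (Q.t s))
    (I : Ideal T) [Finite (T ⧸ I)] :
    ∃ (τ₀ σ₀ : G) (x' : B), IsUnit (Θ (Q.x12 τ₀ σ₀)) ∧
      Θ (Q.x21 σ₀ τ₀) = Θ (Q.x12 τ₀ σ₀) ∧ Θ (Q.x12 τ₀ σ₀ * x') - 1 ∈ I ∧
      ∀ v : V, Θ (Q.x12 τ₀ σ₀ * x') • v - v ∈ I • (⊤ : Submodule T V) := by
  obtain ⟨⟨τ₀, σ₀, hu⟩, hsym⟩ := exists_isUnit_map_x12 h2 hV ρV hsurj Q Θ htr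
  obtain ⟨x', hx'⟩ := exists_mul_sub_one_mem Θ I (Q.x12 τ₀ σ₀) hu
  refine ⟨τ₀, σ₀, x', hu, hsym τ₀ σ₀, hx', fun v => ?_⟩
  have e : Θ (Q.x12 τ₀ σ₀ * x') • v - v = (Θ (Q.x12 τ₀ σ₀ * x') - 1) • v := by
    rw [sub_smul, one_smul]
  rw [e]
  exact Submodule.smul_mem_smul hx' Submodule.mem_top

end QuadX

section AdicX

variable {T : Type} [CommRing T] [IsLocalRing T] {B : Type*} [CommRing B]
  {W : Type*} [AddCommGroup W] [Module B W]

/-- **[X]** for a Prelude `GaloisRepAdic` with absolutely irreducible residual representation. -/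
theorem exists_isUnit_x12_of_residual_absIrr (h2 : IsUnit (2 : T)) (ρ : GaloisRepAdic T)
    (habs : ρ.residual.IsAbsolutelyIrreducible)
    (Q : QuadData (AlgebraicClosure ℚ ≃ₐ[ℚ] AlgebraicClosure ℚ) B W) (Θ : B →+* T)
    (htr : ∀ s, LinearMap.trace T ρ.V (ρ.ρ s) = Θ (Q.t s)) :
    (∃ τ₀ σ₀ : AlgebraicClosure ℚ ≃ₐ[ℚ] AlgebraicClosure ℚ, IsUnit (Θ (Q.x12 τ₀ σ₀))) ∧
      ∀ τ σ : AlgebraicClosure ℚ ≃ₐ[ℚ] AlgebraicClosure ℚ, Θ (Q.x21 σ τ) = Θ (Q.x12 τ σ) :=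
  exists_isUnit_map_x12 h2 ρ.finrank_eq ρ.ρ
    (Fermat.Agent.P3.helper12.span_range_eq_top_of_residual_absIrr ρ habs) Q Θ htr

/-- **[X] + `x'`** for a Prelude `GaloisRepAdic`. -/
theorem exists_x12_data_of_residual_absIrr (h2 : IsUnit (2 : T)) (ρ : GaloisRepAdic T)
    (habs : ρ.residual.IsAbsolutelyIrreducible)
    (Q : QuadData (AlgebraicClosure ℚ ≃ₐ[ℚ] AlgebraicClosure ℚ) B W) (Θ : B →+* T)
    (htr : ∀ s, LinearMap.trace T ρ.V (ρ.ρ s) = Θ (Q.t s))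
    (I : Ideal T) [Finite (T ⧸ I)] :
    ∃ (τ₀ σ₀ : AlgebraicClosure ℚ ≃ₐ[ℚ] AlgebraicClosure ℚ) (x' : B),
      IsUnit (Θ (Q.x12 τ₀ σ₀)) ∧
      Θ (Q.x21 σ₀ τ₀) = Θ (Q.x12 τ₀ σ₀) ∧ Θ (Q.x12 τ₀ σ₀ * x') - 1 ∈ I ∧
      ∀ v : ρ.V, Θ (Q.x12 τ₀ σ₀ * x') • v - v ∈ I • (⊤ : Submodule T ρ.V) :=
  exists_x12_data h2 ρ.finrank_eq ρ.ρ
    (Fermat.Agent.P3.helper12.span_range_eq_top_of_residual_absIrr ρ habs) Q Θ htr I

/-- `2` is a unit in a local ring whose maximal ideal contains an odd prime. -/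
theorem isUnit_two_of_odd {p : ℕ} (hp : p.Prime) (hodd : p ≠ 2)
    (hpT : (p : T) ∈ IsLocalRing.maximalIdeal T) : IsUnit (2 : T) := by
  by_contra h
  have h2 : (2 : T) ∈ IsLocalRing.maximalIdeal T := (IsLocalRing.mem_maximalIdeal _).2 h
  have hco : Nat.Coprime p 2 := (Nat.coprime_primes hp Nat.prime_two).2 hodd
  have h1 : ((Nat.gcdA p 2 : ℤ) : T) * (p : T) + ((Nat.gcdB p 2 : ℤ) : T) * 2 = 1 := by
    have e := Nat.gcd_eq_gcd_ab p 2
    rw [hco.gcd_eq_one] at e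
    have e' := congrArg (fun z : ℤ => (z : T)) e
    simp only [Int.cast_add, Int.cast_mul, Int.cast_natCast, Nat.cast_one, Int.cast_one,
      Nat.cast_ofNat, Int.cast_ofNat] at e'
    rw [e']
    ring
  have h3 : (1 : T) ∈ IsLocalRing.maximalIdeal T := by
    rw [← h1]
    exact add_mem (Ideal.mul_mem_left _ _ hpT) (Ideal.mul_mem_left _ _ h2)
  exact (IsLocalRing.maximalIdeal.isMaximal T).ne_top
    ((Ideal.eq_top_iff_one _).2 h3)

end AdicX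

end Fermat.Agent.T6.helper71
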