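import Fermat.Agent.T6.helper34_S32Iface
import Fermat.Agent.T6.helper71_CmpXAdic

/-!
# T6 / S32 [X] (helper71): `helper34.XStatement`

`xStatement` : for every comparison setting `X : helper34.CmpSet D ρ` over a local ring `T` in
which `2` is invertible, with `ρ` residually absolutely irreducible,
`helper34.XStatement X` holds, i.e.
`∃ τ₀ σ₀, IsUnit (X.Θ (tx12 X τ₀ σ₀)) ∧ X.Θ (tx21 X σ₀ τ₀) = X.Θ (tx12 X τ₀ σ₀)`.

`xStatement_of_odd` : the same with `IsUnit (2 : T)` replaced by `p ≠ 2`, `(p : T) ∈ 𝔪_T`.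

The vanishing `tr ρ(c) = 0` is NOT a field of `CmpSet`; it follows from `c * c = 1` and
`det ρ(c) = -1` (`trace_eq_zero_of_involution`).
-/

set_option autoImplicit false

namespace Fermat.Agent.T6.helper71

open Fermat.Agent.P3 Fermat.Agent.P3.helper22 Fermat.Agent.T6.helper34

section MatTr

variable {T : Type*} [CommRing T]

/-- an involution of determinant `-1` in `M₂(T)` has trace `0` -/
theorem trace_eq_zero_of_involution {C : Mat2 T} (hCC : C * C = 1) (hdet : C.det = -1) :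
    C.trace = 0 := by
  have h00 := congrFun (congrFun hCC 0) 0
  have h01 := congrFun (congrFun hCC 0) 1
  simp only [Matrix.mul_apply, Fin.sum_univ_two, Matrix.one_apply_eq, Matrix.one_apply_ne,
    ne_eq, zero_ne_one, not_false_eq_true] at h00 h01
  rw [Matrix.det_fin_two] at hdet
  rw [Matrix.trace_fin_two]
  linear_combination (-(C 1 1)) * h00 + (C 0 0) * hdet + (C 1 0) * h01

variable {G : Type*} [Group G] {V : Type*} [AddCommGroup V] [Module T V]

/-- an involution of determinant `-1` on a free module of rank two has trace `0` -/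
theorem trace_eq_zero_of_involution_end [Nontrivial T] [Module.Free T V] [Module.Finite T V]
    (hV : Module.finrank T V = 2) (ρV : G →* Module.End T V) (c : G) (hc : c * c = 1)
    (hdet : LinearMap.det (ρV c) = -1) : LinearMap.trace T V (ρV c) = 0 := by
  have h := trace_eq_zero_of_involution
    (C := matRep (Module.finBasisOfFinrankEq T V hV) ρV c)
    (by rw [← map_mul, hc, map_one]) (by rw [det_matRep]; exact hdet)
  rw [trace_matRep] at h
  exact h

end MatTr

section XBox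

variable {p : ℕ} [Fact p.Prime] {N : ℕ} [NeZero N] {S : Finset ℕ} {M : ℕ} [NeZero M]
  {hNM : N ∣ M} {D : helper67.TateGeom p N S M hNM}
  {T : Type} [CommRing T] [IsLocalRing T] {ρ : GaloisRepAdic T}

theorem map_tx12 (X : CmpSet D ρ) (τ σ : GQ) :
    X.Θ (tx12 X τ σ) = tX12 (fun g => LinearMap.trace T ρ.V (ρ.ρ g)) X.c τ σ := by
  have h : ∀ g, LinearMap.trace T ρ.V (ρ.ρ g) = X.Θ (X.t g) := X.trace_eq
  simp only [tX12, h]
  simp only [tx12, map_sub, map_mul, map_add, map_ofNat]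

theorem map_tx21 (X : CmpSet D ρ) (τ σ : GQ) :
    X.Θ (tx21 X τ σ) = tX21 (fun g => LinearMap.trace T ρ.V (ρ.ρ g)) X.c τ σ := by
  have h : ∀ g, LinearMap.trace T ρ.V (ρ.ρ g) = X.Θ (X.t g) := X.trace_eq
  simp only [tX21, h]
  simp only [tx21, map_sub, map_mul, map_ofNat]

/-- `tr ρ(c) = 0` in a comparison setting -/
theorem trace_c_eq_zero (X : CmpSet D ρ) : LinearMap.trace T ρ.V (ρ.ρ X.c) = 0 := by
  refine trace_eq_zero_of_involution_end ρ.finrank_eq ρ.ρ X.c X.c_sq ?_
  rw [X.det_eq, X.d_c, map_neg, map_one, map_neg, map_one]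

/-- the symmetry `Θ (x21 σ τ) = Θ (x12 τ σ)`, for ALL `τ`, `σ` (no irreducibility needed) -/
theorem map_tx21_eq_map_tx12 (X : CmpSet D ρ) (τ σ : GQ) :
    X.Θ (tx21 X σ τ) = X.Θ (tx12 X τ σ) := by
  rw [map_tx12, map_tx21]
  exact tX21_eq_tX12 ρ.finrank_eq ρ.ρ X.c (trace_c_eq_zero X) τ σ

/-- **[X]** = `helper34.XStatement`. -/
theorem xStatement (X : CmpSet D ρ) (h2 : IsUnit (2 : T))
    (habs : ρ.residual.IsAbsolutelyIrreducible) : XStatement X := by
  obtain ⟨τ₀, σ₀, h⟩ := exists_isUnit_tX12 h2 ρ.finrank_eq ρ.ρ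
    (Fermat.Agent.P3.helper12.span_range_eq_top_of_residual_absIrr ρ habs) X.c X.c_sq
    (trace_c_eq_zero X)
  exact ⟨τ₀, σ₀, by rw [map_tx12]; exact h, map_tx21_eq_map_tx12 X τ₀ σ₀⟩

/-- **[X]** for `p` odd. -/
theorem xStatement_of_odd (X : CmpSet D ρ) (hodd : p ≠ 2)
    (hpT : (p : T) ∈ IsLocalRing.maximalIdeal T)
    (habs : ρ.residual.IsAbsolutelyIrreducible) : XStatement X :=
  xStatement X (isUnit_two_of_odd (Fact.out : p.Prime) hodd hpT) habs

end XBox

end Fermat.Agent.T6.helper71
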