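/-
T6 [I3-b] (helper74, second prover; owner helper96): **the moving divisor `R`**.

`S : S37.helper16.RedSetting M A`, `T` a finite set of places of the special fibre, `D ≥ 0` a
divisor of `F_M`, `n ≥ deg D + S.n₀ + 1`.  Then there is an `A`-integral `s = incl A Z ∈ F_M`
with nonzero reduction such that `R := div s + n ∞ - D` is effective and no point of `R`
reduces into `T`.

Route: on the special fibre a section `s̄ ∈ L̄(n ∞̄ - D̄)` with exact orders on `T`
(`helper98.exists_exact`), lifted through `helper16.W_eq_mapDomain`; Rouché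
(`S37.helper16.RedSetting.rouche`) gives `r_* R = div s̄ + n ∞̄ - D̄`, which vanishes on `T`.
-/
import Mathlib
import Fermat.Agent.T6.helper16_KmLat
import Fermat.Agent.T6.helper98_KMRR
import Fermat.Agent.P2.helper74_RieInst

set_option autoImplicit false
set_option synthInstance.maxHeartbeats 400000
set_option maxHeartbeats 1000000
set_option linter.style.haveILetI false
set_option linter.unusedSectionVars false
set_option linter.unusedVariables false
set_option linter.style.longLine false

noncomputable section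

namespace Fermat.Agent.T6.helper74

open HahnSeries IntermediateField AlgebraicCurve ModularCurve
open Fermat.Agent.S18.helper19 Fermat.Agent.P2.helper29 Fermat.Agent.P2.helper22
open Fermat.Agent.S24
open Fermat.Agent.S37.helper16

/-- a nonnegative finitely supported function whose push-forward vanishes at `Q` vanishes on the
fibre of `Q` -/
theorem eq_zero_of_mapDomain_eq_zero {α β : Type*} (r : α → β) (R : α →₀ ℤ)
    (hR : ∀ v, 0 ≤ R v) {Q : β} (h : Finsupp.mapDomain r R Q = 0) {v : α} (hv : r v = Q) :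
    R v = 0 := by
  classical
  rw [Finsupp.mapDomain, Finsupp.sum_apply, Finsupp.sum] at h
  by_contra hne
  have hmem : v ∈ R.support := Finsupp.mem_support_iff.mpr hne
  have h0 := (Finset.sum_eq_zero_iff_of_nonneg (fun a _ => by
    rw [Finsupp.single_apply]
    split_ifs
    · exact hR a
    · exact le_rfl)).mp h v hmem
  rw [Finsupp.single_apply, if_pos hv] at h0
  exact hne h0

variable {M : ℕ} [NeZero M] {A : ValuationSubring Kb}

/-- shortcut instance (slow to find by synthesis) -/
local instance algebraFFbMv : Algebra (kA A) (FFb A M) := SubalgebraClass.toAlgebra (FFb A M)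

/-- **[I3-b] the moving divisor.** -/
theorem exists_moveR (S : RedSetting M A) (T : Finset (Place (kA A) (FFb A M)))
    {D : Divisor Kb (FF M)} (hD : ∀ v, 0 ≤ D v) {n : ℤ}
    (hn : Divisor.degree D + S.n₀ + 1 ≤ n) :
    ∃ (Z : LaurentSeries A) (hZ : incl A Z ∈ FF M) (R : Divisor Kb (FF M)),
      red A Z ≠ 0 ∧ (∀ v, 0 ≤ R v) ∧
      (∀ v, R v = v.ord (⟨incl A Z, hZ⟩ : FF M) + (Finsupp.single S.Pinf n - D) v) ∧
      (∀ v, R v ≠ 0 → S.rP v ∉ T) := by
  classical
  have hSF := Fermat.Agent.P2.helper74.riemannSetting_FF M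
  haveI : IsAlgClosed (kA A) := Fermat.Agent.P2.helper74.isAlgClosed_residueField A
  haveI : Infinite (kA A) := IsAlgClosed.instInfinite
  have hn' : Divisor.degree D + S.n₀ ≤ n := by omega
  -- the section on the special fibre
  set Xb : Divisor (kA A) (FFb A M) := Finsupp.single S.Qinf n - Finsupp.mapDomain S.rP D
    with hXb
  have hdegXb : Divisor.degree Xb = n - Divisor.degree D := by
    rw [hXb, map_sub, degree_single_of S.hSb, ← S.Eplus_eq_mapDomain hD, S.degree_Eplus hD]
  obtain ⟨sb, hsb, hsb0, hsbT⟩ := Fermat.Agent.T6.helper98.exists_exact S.hSb S.hcb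
    (D := Xb) (by rw [hdegXb]; have := S.cb_lt_n₀; omega) T
  -- lift
  rw [← Fermat.Agent.T6.helper16.W_eq_mapDomain S hD hn'] at hsb
  obtain ⟨Z, ⟨f, hf, hfZ⟩, hZ⟩ := hsb
  have hZmem : incl A Z ∈ FF M := hfZ ▸ f.2
  have hfeq : f = (⟨incl A Z, hZmem⟩ : FF M) := Subtype.ext hfZ
  have hredZ : red A Z ≠ 0 := by
    rw [hZ]
    exact fun h0 => hsb0 (Subtype.ext h0)
  have hf0 : f ≠ 0 := by
    rintro rfl
    apply hredZ
    have h0 : incl A Z = 0 := hfZ.symm
    have hZ0 : Z = 0 := by
      apply incl_injective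
      rw [h0, map_zero]
    rw [hZ0, map_zero]
  obtain ⟨Df, hDf, -⟩ := hSF.principal.exists_divisor f hf0
  refine ⟨Z, hZmem, Df + (Finsupp.single S.Pinf n - D), hredZ, ?_, ?_, ?_⟩
  · intro v
    have h := (Fermat.Agent.P2.helper74.mem_L_iff' hf0).mp hf v
    rw [Finsupp.add_apply, hDf]
    unfold RedSetting.XD at h
    linarith
  · intro v
    rw [Finsupp.add_apply, hDf, hfeq]
  · intro v hv hvT
    apply hv
    have hR0 : ∀ w, 0 ≤ (Df + (Finsupp.single S.Pinf n - D)) w := by
      intro w
      have h := (Fermat.Agent.P2.helper74.mem_L_iff' hf0).mp hf w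
      rw [Finsupp.add_apply, hDf]
      unfold RedSetting.XD at h
      linarith
    refine eq_zero_of_mapDomain_eq_zero S.rP _ hR0 ?_ rfl
    have hL : InL (FF M) n (incl A Z) := by
      have := inL_of_mem_L S.hPinf (S.XD_le hD n) hf
      rwa [hfZ] at this
    have hb : red A Z ∈ FFb A M := (S.hReg n Z hL).1
    have hrou := S.rouche hL hb hredZ Df (fun P => by rw [hDf, hfeq]) (S.rP v)
    have hsbeq : (⟨red A Z, hb⟩ : FFb A M) = sb := Subtype.ext hZ
    rw [Finsupp.mapDomain_add, Finsupp.add_apply, hrou, hsbeq, hsbT _ hvT,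
      Finsupp.mapDomain_sub, Finsupp.mapDomain_single, S.rP_Pinf]
    rw [hXb]
    abel

end Fermat.Agent.T6.helper74

end
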