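/-
T6 (S32) block (CL), helper75: **wiring forms of the closure theorem**.

* `FlatShape.subquotient_pi_of_finite` : (CL) with an arbitrary finite index type `ι : Type`;
* `FlatShape.of_submodule_quotient` : (CL) in the exact output shape of the abstract [CMP] core
  (`helper67.exists_subquotient`): a stable submodule `A₁` of a finite power `ι → X` together
  with a surjective equivariant linear map `A₁ → Z`;
* `FlatShape.congr` : transport along an equivariant additive equivalence;
* `FlatShape.iff_exists_order` : the flat shape is equivalent to the existence of a Hopf order;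
* `isFlatAt_iff_flatShape` : `GaloisRepAdic.IsFlatAt` in terms of `FlatShape`;
* `flatShape_torsAct_iff` : the body of the frozen statement S19 in terms of `FlatShape`;
* `isFlatAt_of_submodule_quotient` : **the end of S32**: `IsFlatAt` from the flat shape of the
  torsion groups `X I` and the [CMP] data (stable submodules of finite powers of `X I` with
  surjective equivariant maps onto `V / I V`).
-/
import Mathlib
import Fermat.Agent.T6.helper75_Closure

set_option autoImplicit false
set_option linter.unusedSectionVars false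
set_option linter.unusedVariables false
set_option linter.style.longLine false
set_option linter.style.haveILetI false

noncomputable section

namespace Fermat.Agent.T6.helper75

open Fermat.Agent.S28.helper94 (Zl)
open Fermat.Agent.T6.helper33 (Qb GQ pre pre_apply IsHopfOrder torsAct coe_torsAct
  torsAct_surjective torsAct_zero)

section Wire

variable {ℓ : ℕ} [hℓ : Fact ℓ.Prime]

/-- the flat shape is equivalent to the existence of a Hopf order. -/
theorem FlatShape.iff_exists_order {X : Type} [AddCommGroup X] [Finite X] {actX : GQ → X → X}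
    (hsurj : ∀ σ, Function.Surjective (actX σ)) (hzero : ∀ σ, actX σ 0 = 0) :
    FlatShape ℓ actX ↔ ∃ H : Subalgebra (Zl ℓ) (X → Qb), IsHopfOrder ℓ actX H :=
  ⟨fun h => h.exists_order hsurj hzero, fun ⟨_, h⟩ => FlatShape.of_order h⟩

/-- **(CL)** with an arbitrary finite index type. -/
theorem FlatShape.subquotient_pi_of_finite {X Y Z : Type} [AddCommGroup X] [Finite X]
    [AddCommGroup Y] [AddCommGroup Z] {actX : GQ → X → X} {actY : GQ → Y → Y}
    {actZ : GQ → Z → Z}
    (hsurj : ∀ σ, Function.Surjective (actX σ)) (hzero : ∀ σ, actX σ 0 = 0)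
    (hX : FlatShape ℓ actX) (ι : Type) [Finite ι]
    (i : Y →+ (ι → X)) (hi : Function.Injective i)
    (hiact : ∀ σ y j, i (actY σ y) j = actX σ (i y j))
    (p : Y →+ Z) (hp : Function.Surjective p) (hpact : ∀ σ y, p (actY σ y) = actZ σ (p y)) :
    FlatShape ℓ actZ := by
  haveI : Finite Y := Finite.of_injective i hi
  haveI : Finite Z := Finite.of_surjective p hp
  obtain ⟨H, h⟩ := hX.exists_order hsurj hzero
  obtain ⟨H', h'⟩ := h.exists_subquotient_pi ι i hi hiact p hp hpact
  exact FlatShape.of_order h'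

/-- **(CL) in the output shape of the abstract [CMP] core**: a stable submodule `A₁` of a finite
power of `X` with a surjective equivariant linear map onto `Z`. -/
theorem FlatShape.of_submodule_quotient {B : Type*} [Ring B] {X Z : Type}
    [AddCommGroup X] [Module B X] [Finite X] [AddCommGroup Z] [Module B Z]
    {actX : GQ → X → X} {actZ : GQ → Z → Z}
    (hsurj : ∀ σ, Function.Surjective (actX σ)) (hzero : ∀ σ, actX σ 0 = 0)
    (hX : FlatShape ℓ actX) (ι : Type) [Finite ι]
    (A₁ : Submodule B (ι → X)) (f : A₁ →ₗ[B] Z)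
    (hA : ∀ (s : GQ) (z : ι → X), z ∈ A₁ → (fun k => actX s (z k)) ∈ A₁)
    (hf : Function.Surjective f)
    (hfact : ∀ (s : GQ) (z : A₁) (hz : (fun k => actX s ((z : ι → X) k)) ∈ A₁),
      f ⟨_, hz⟩ = actZ s (f z)) :
    FlatShape ℓ actZ := by
  refine FlatShape.subquotient_pi_of_finite (Y := A₁)
    (actY := fun s z => ⟨fun k => actX s ((z : ι → X) k), hA s z z.2⟩) hsurj hzero hX ι
    A₁.subtype.toAddMonoidHom Subtype.val_injective (fun σ y j => rfl)
    f.toAddMonoidHom hf (fun σ y => ?_)
  exact hfact σ y (hA σ y y.2)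

/-- transport of the flat shape along an equivariant additive equivalence. -/
theorem FlatShape.congr {X Z : Type} [AddCommGroup X] [Finite X] [AddCommGroup Z]
    {actX : GQ → X → X} {actZ : GQ → Z → Z}
    (hsurj : ∀ σ, Function.Surjective (actX σ)) (hzero : ∀ σ, actX σ 0 = 0)
    (hX : FlatShape ℓ actX) (e : X ≃+ Z) (he : ∀ σ x, e (actX σ x) = actZ σ (e x)) :
    FlatShape ℓ actZ :=
  FlatShape.quotient hsurj hzero hX e.toAddMonoidHom e.surjective he


/-- `GaloisRepAdic.IsFlatAt` in terms of `FlatShape`. -/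
theorem isFlatAt_iff_flatShape {A : Type} [CommRing A] [IsLocalRing A] (ρ : GaloisRepAdic A)
    (p : ℕ) :
    ρ.IsFlatAt p ↔ Finite (IsLocalRing.ResidueField A) ∧ ∀ I : Ideal A, Finite (A ⧸ I) →
      FlatShape p (fun σ (x : ρ.V ⧸ (I • (⊤ : Submodule A ρ.V))) => ρ.levelAction I σ x) :=
  Iff.rfl

omit hℓ in
/-- the body of the frozen statement S19 (for the `n`-torsion of a group `J` with an action of
`G_ℚ`) in terms of `FlatShape`. -/
theorem flatShape_torsAct_iff {J : Type} [AddCommGroup J] [DistribMulAction GQ J] (n : ℤ) :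
    FlatShape ℓ (torsAct (J := J) n) ↔
    ∃ (H : Type) (_ : CommRing H) (_ : HopfAlgebra (GaloisRep.ratLocalizedAt ℓ) H),
      Module.Finite (GaloisRep.ratLocalizedAt ℓ) H ∧ Module.Flat (GaloisRep.ratLocalizedAt ℓ) H ∧
      Coalgebra.IsCocomm (GaloisRep.ratLocalizedAt ℓ) H ∧
      ∃ e : WithConv (H →ₐ[GaloisRep.ratLocalizedAt ℓ] AlgebraicClosure ℚ) ≃
          ↥(Submodule.torsionBy ℤ J n),
        (∀ f g, e (f * g) = e f + e g) ∧
        ∀ (σ : AlgebraicClosure ℚ ≃ₐ[ℚ] AlgebraicClosure ℚ)
          (f g : WithConv (H →ₐ[GaloisRep.ratLocalizedAt ℓ] AlgebraicClosure ℚ)),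
          (∀ h : H, g h = σ (f h)) → ((e g : J)) = σ • (e f : J) := by
  constructor
  · rintro ⟨H, i1, i2, h1, h2, h3, e, he1, he2⟩
    exact ⟨H, i1, i2, h1, h2, h3, e, he1, fun σ f g hfg => by rw [he2 σ f g hfg, coe_torsAct]⟩
  · rintro ⟨H, i1, i2, h1, h2, h3, e, he1, he2⟩
    exact ⟨H, i1, i2, h1, h2, h3, e, he1, fun σ f g hfg => Subtype.ext (he2 σ f g hfg)⟩

/-- **The end of S32**: `IsFlatAt` from the flat shape of torsion groups and the [CMP] data.

For every ideal `I` of finite index there are a group `J` with an action of `G_ℚ`, an integer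
`n` such that `J[n]` is finite and has the flat shape, a finite index type `ι`, a ring `B`
acting on `J[n]` and on `V / I V`, a stable `B`-submodule `A₁` of `ι → J[n]` and a surjective
equivariant `B`-linear map `A₁ → V / I V`. -/
theorem isFlatAt_of_submodule_quotient {A : Type} [CommRing A] [IsLocalRing A]
    (ρ : GaloisRepAdic A) (p : ℕ) [Fact p.Prime]
    (hres : Finite (IsLocalRing.ResidueField A))
    (h : ∀ I : Ideal A, Finite (A ⧸ I) →
      ∃ (J : Type) (_ : AddCommGroup J) (_ : DistribMulAction GQ J) (n : ℤ)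
        (_ : Finite (Submodule.torsionBy ℤ J n)) (_ : FlatShape p (torsAct (J := J) n))
        (B : Type) (_ : Ring B) (_ : Module B (Submodule.torsionBy ℤ J n))
        (_ : Module B (ρ.V ⧸ (I • (⊤ : Submodule A ρ.V))))
        (ι : Type) (_ : Finite ι) (A₁ : Submodule B (ι → Submodule.torsionBy ℤ J n))
        (f : A₁ →ₗ[B] (ρ.V ⧸ (I • (⊤ : Submodule A ρ.V)))),
        (∀ (s : GQ) (z : ι → Submodule.torsionBy ℤ J n), z ∈ A₁ →
          (fun k => torsAct n s (z k)) ∈ A₁) ∧
        Function.Surjective f ∧
        ∀ (s : GQ) (z : A₁)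
          (hz : (fun k => torsAct n s ((z : ι → Submodule.torsionBy ℤ J n) k)) ∈ A₁),
          f ⟨_, hz⟩ = ρ.levelAction I s (f z)) :
    ρ.IsFlatAt p := by
  refine (isFlatAt_iff_flatShape ρ p).mpr ⟨hres, fun I hI => ?_⟩
  obtain ⟨J, i1, i2, n, i3, hX, B, i4, i5, i6, ι, i7, A₁, f, hA, hf, hfact⟩ := h I hI
  exact FlatShape.of_submodule_quotient (torsAct_surjective n) (torsAct_zero n) hX ι A₁ f hA hf
    hfact

end Wire

end Fermat.Agent.T6.helper75

end
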