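import Mathlib
import Fermat.Agent.P2.helper74_NonSpecial

/-!
# T6 [KM-RR] (helper80): the two lemmas of Khuri-Makdisi for a function field with a weak
Riemann-Roch theorem

Setting: a `RiemannSetting K F` (P2 `helper74_Riemann`), `K` infinite, with Riemann's equality
`ℓ(D) + g = deg D + 1` for all divisors of degree `≥ c`.  No canonical divisor, no
hypothesis on the characteristic: the statements hold on both fibres.

* `mul_mem_L` : `L(D₁) · L(D₂) ⊆ L(D₁ + D₂)`.
* `division` (Khuri-Makdisi, Lemma 2.3): if `deg D₂ ≥ c + 1` then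
  `{f | f · L(D₂) ⊆ L(D₁)} = L(D₁ - D₂)`.
* `exists_pencil` : for `deg D ≥ c + 1` every nonzero `s₁ ∈ L(D)` has a partner `s₂ ∈ L(D)`
  without common zero.
* `pencil_trick` : the base point free pencil trick, `L(D₁) s₁ + L(D₁) s₂ = L(D₁ + D₂)`.
* `L_sub_sup_L_sub` : `L(N - E) + L(N - E') = L(N)` for disjoint sets of points.
* `span_mul_eq` (Khuri-Makdisi, Lemma 2.2): if `deg D₁, deg D₂ ≥ 2 c + 1` then the products
  `f h`, `f ∈ L(D₁)`, `h ∈ L(D₂)`, span `L(D₁ + D₂)`.
* `eq_of_L_sub_eq` : `E ↦ L(D - E)` is injective as long as `deg (D - E) ≥ c + 1`.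
-/

set_option autoImplicit false

noncomputable section

namespace Fermat.Agent.T6.helper80

open AlgebraicCurve Fermat.Agent.P2.helper74

variable {K F : Type*} [Field K] [Field F] [Algebra K F]

/-! ### Products -/

/-- `L(D₁) · L(D₂) ⊆ L(D₁ + D₂)`. -/
theorem mul_mem_L {D₁ D₂ : Divisor K F} {f h : F} (hf : f ∈ riemannRochSpace D₁)
    (hh : h ∈ riemannRochSpace D₂) : f * h ∈ riemannRochSpace (D₁ + D₂) := by
  rcases eq_or_ne f 0 with rfl | hf0
  · rw [zero_mul]
    exact zero_mem _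
  rcases eq_or_ne h 0 with rfl | hh0
  · rw [mul_zero]
    exact zero_mem _
  rw [mem_L_iff' (mul_ne_zero hf0 hh0)]
  intro v
  have h1 := (mem_L_iff' hf0).mp hf v
  have h2 := (mem_L_iff' hh0).mp hh v
  rw [Place.ord_mul v hf0 hh0, Finsupp.add_apply]
  omega

/-- the set of products -/
def mulSet (D₁ D₂ : Divisor K F) : Set F :=
  {x | ∃ f ∈ riemannRochSpace D₁, ∃ h ∈ riemannRochSpace D₂, x = f * h}

theorem span_mulSet_le (D₁ D₂ : Divisor K F) :
    Submodule.span K (mulSet D₁ D₂) ≤ riemannRochSpace (D₁ + D₂) := by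
  rw [Submodule.span_le]
  rintro x ⟨f, hf, h, hh, rfl⟩
  exact mul_mem_L hf hh

theorem mulSet_comm (D₁ D₂ : Divisor K F) : mulSet D₁ D₂ = mulSet D₂ D₁ := by
  ext x
  constructor
  · rintro ⟨f, hf, h, hh, rfl⟩
    exact ⟨h, hh, f, hf, mul_comm f h⟩
  · rintro ⟨f, hf, h, hh, rfl⟩
    exact ⟨h, hh, f, hf, mul_comm f h⟩

theorem mulSet_mono {D₁ D₂ D₂' : Divisor K F}
    (h : riemannRochSpace D₂' ≤ riemannRochSpace D₂) : mulSet D₁ D₂' ⊆ mulSet D₁ D₂ := by
  rintro x ⟨f, hf, s, hs, rfl⟩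
  exact ⟨f, hf, s, h hs, rfl⟩

section Setting

variable (hS : RiemannSetting K F) {g : ℕ} {c : ℤ}
  (hc : ∀ D : Divisor K F, c ≤ Divisor.degree D → (ell D : ℤ) + g = Divisor.degree D + 1)

include hS hc

/-! ### Division -/

/-- **Khuri-Makdisi, Lemma 2.3 (division).** If `deg D₂ ≥ c + 1` (so that `L(D₂)` has no base
point), then `f · L(D₂) ⊆ L(D₁)` if and only if `f ∈ L(D₁ - D₂)`. -/
theorem division {D₁ D₂ : Divisor K F} (hD₂ : c + 1 ≤ Divisor.degree D₂) (f : F) :
    (∀ h ∈ riemannRochSpace D₂, f * h ∈ riemannRochSpace D₁) ↔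
      f ∈ riemannRochSpace (D₁ - D₂) := by
  constructor
  · intro H
    rcases eq_or_ne f 0 with rfl | hf0
    · exact zero_mem _
    rw [mem_L_iff' hf0]
    intro v
    obtain ⟨h, hh0, hhD, hord⟩ := exists_mem_L_ord_eq hS hc hD₂ v
    have h1 := (mem_L_iff' (mul_ne_zero hf0 hh0)).mp (H h hhD) v
    rw [Place.ord_mul v hf0 hh0, hord] at h1
    rw [Finsupp.sub_apply]
    omega
  · intro hf h hh
    have := mul_mem_L hf hh
    rwa [sub_add_cancel] at this

/-- `E ↦ L(D - E)` is injective as long as the degrees of `D - E` are at least `c + 1`. -/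
theorem eq_of_L_sub_eq {D E E' : Divisor K F} (hE : c + 1 ≤ Divisor.degree (D - E))
    (hE' : c + 1 ≤ Divisor.degree (D - E'))
    (h : riemannRochSpace (D - E) = riemannRochSpace (D - E')) : E = E' := by
  have key : ∀ {E₁ E₂ : Divisor K F}, c + 1 ≤ Divisor.degree (D - E₁) →
      riemannRochSpace (D - E₁) ≤ riemannRochSpace (D - E₂) → ∀ v, E₂ v ≤ E₁ v := by
    intro E₁ E₂ h1 hle v
    obtain ⟨f, hf0, hfD, hord⟩ := exists_mem_L_ord_eq hS hc h1 v
    have h2 := (mem_L_iff' hf0).mp (hle hfD) v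
    rw [hord, Finsupp.sub_apply, Finsupp.sub_apply] at h2
    omega
  ext v
  exact le_antisymm (key hE' h.ge v) (key hE h.le v)

/-! ### Pencils without base points -/

omit hc in
/-- the set of zeros of a nonzero section of `L(D)` is finite -/
theorem finite_zeros {D : Divisor K F} {s : F} (hs0 : s ≠ 0) :
    {v : Place K F | v.ord s ≠ -D v}.Finite := by
  classical
  obtain ⟨Z, hZ, -⟩ := hS.principal.exists_divisor s hs0
  refine (Z.support ∪ D.support).finite_toSet.subset fun v hv => ?_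
  have hv' : v.ord s ≠ -D v := hv
  rw [Finset.coe_union, Set.mem_union, Finset.mem_coe, Finset.mem_coe, Finsupp.mem_support_iff,
    Finsupp.mem_support_iff]
  by_contra hcon
  rw [not_or, not_not, not_not] at hcon
  apply hv'
  rw [← hZ v, hcon.1, hcon.2, neg_zero]

/-- **Pencils.** For `deg D ≥ c + 1` every nonzero `s₁ ∈ L(D)` has a partner `s₂ ∈ L(D)` such
that `s₁`, `s₂` have no common zero. -/
theorem exists_pencil [Infinite K] {D : Divisor K F} (hD : c + 1 ≤ Divisor.degree D) {s₁ : F}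
    (hs₁ : s₁ ∈ riemannRochSpace D) (hs₁0 : s₁ ≠ 0) :
    ∃ s₂ : F, s₂ ≠ 0 ∧ s₂ ∈ riemannRochSpace D ∧
      ∀ v : Place K F, v.ord s₁ = -D v ∨ v.ord s₂ = -D v := by
  classical
  set T : Finset (Place K F) := (finite_zeros hS (D := D) hs₁0).toFinset with hT
  have hTmem : ∀ v, v ∈ T ↔ v.ord s₁ ≠ -D v := by
    intro v
    rw [hT, Set.Finite.mem_toFinset]
    rfl
  rcases T.eq_empty_or_nonempty with hemp | ⟨P₀, hP₀⟩
  · refine ⟨s₁, hs₁0, hs₁, fun v => Or.inl ?_⟩
    by_contra hv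
    have : v ∈ T := (hTmem v).mpr hv
    rw [hemp] at this
    exact absurd this (Finset.notMem_empty v)
  let p : T → Submodule K (riemannRochSpace D) := fun P =>
    (riemannRochSpace (D - Finsupp.single (P : Place K F) 1)).comap (riemannRochSpace D).subtype
  have hp : ∀ P : T, p P ≠ ⊤ := by
    intro P hP
    obtain ⟨f, hf0, hfD, hford⟩ := exists_mem_L_ord_eq hS hc hD (P : Place K F)
    have hmem : (⟨f, hfD⟩ : riemannRochSpace D) ∈ p P := by
      rw [hP]
      exact Submodule.mem_top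
    have hmem' : f ∈ riemannRochSpace (D - Finsupp.single (P : Place K F) 1) := hmem
    have := ((mem_L_sub_single_iff hf0).mp hmem').2
    omega
  obtain ⟨⟨t, htD⟩, ht⟩ := Submodule.exists_forall_notMem_of_forall_ne_top p hp
  have ht0 : t ≠ 0 := by
    rintro rfl
    exact ht ⟨P₀, hP₀⟩ (zero_mem _)
  refine ⟨t, ht0, htD, fun v => ?_⟩
  by_cases hv : v ∈ T
  · right
    have h1 := (mem_L_iff' ht0).mp htD v
    have h2 : ¬ (-D v < v.ord t) := fun h =>
      ht ⟨v, hv⟩ ((mem_L_sub_single_iff ht0).mpr ⟨htD, h⟩)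
    omega
  · left
    by_contra h
    exact hv ((hTmem v).mpr h)

/-! ### The base point free pencil trick -/

/-- the map `(a, b) ↦ a s₁ + b s₂` on `L(D₁) × L(D₁)` -/
def pencilMap (D₁ : Divisor K F) (s₁ s₂ : F) :
    (riemannRochSpace D₁ × riemannRochSpace D₁) →ₗ[K] F :=
  (LinearMap.mulRight K s₁ ∘ₗ (riemannRochSpace D₁).subtype).coprod
    (LinearMap.mulRight K s₂ ∘ₗ (riemannRochSpace D₁).subtype)

omit hS hc in
theorem pencilMap_apply (D₁ : Divisor K F) (s₁ s₂ : F)
    (x : riemannRochSpace D₁ × riemannRochSpace D₁) :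
    pencilMap D₁ s₁ s₂ x = (x.1 : F) * s₁ + (x.2 : F) * s₂ := by
  simp [pencilMap, LinearMap.coprod_apply]

/-- the kernel of the pencil map is `L(D₁ - D₂)` -/
def pencilKer (D₁ D₂ : Divisor K F) (s₁ s₂ : F) (hs₁ : s₁ ∈ riemannRochSpace D₂)
    (hs₂ : s₂ ∈ riemannRochSpace D₂) :
    riemannRochSpace (D₁ - D₂) →ₗ[K] (riemannRochSpace D₁ × riemannRochSpace D₁) where
  toFun u := (⟨(u : F) * s₂, by
      have := mul_mem_L u.2 hs₂
      rwa [sub_add_cancel] at this⟩,
    ⟨-((u : F) * s₁), by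
      have := mul_mem_L u.2 hs₁
      rw [sub_add_cancel] at this
      exact neg_mem this⟩)
  map_add' u u' := by
    ext
    · simp [add_mul]
    · simp [add_mul]
      ring
  map_smul' a u := by
    ext
    · simp [Algebra.smul_def, mul_assoc]
    · simp [Algebra.smul_def, mul_assoc]

omit hS hc in
theorem pencilKer_injective (D₁ D₂ : Divisor K F) {s₁ s₂ : F} (hs₁ : s₁ ∈ riemannRochSpace D₂)
    (hs₂ : s₂ ∈ riemannRochSpace D₂) (hs₂0 : s₂ ≠ 0) :
    Function.Injective (pencilKer D₁ D₂ s₁ s₂ hs₁ hs₂) := by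
  intro u u' h
  have h1 := congrArg (fun x => ((x.1 : riemannRochSpace D₁) : F)) h
  simp only [pencilKer, LinearMap.coe_mk, AddHom.coe_mk] at h1
  exact Subtype.ext (mul_right_cancel₀ hs₂0 h1)

omit hS hc in
theorem range_pencilKer (D₁ D₂ : Divisor K F) {s₁ s₂ : F} (hs₁ : s₁ ∈ riemannRochSpace D₂)
    (hs₂ : s₂ ∈ riemannRochSpace D₂) (hs₁0 : s₁ ≠ 0) (hs₂0 : s₂ ≠ 0)
    (hbpf : ∀ v : Place K F, v.ord s₁ = -D₂ v ∨ v.ord s₂ = -D₂ v) :
    LinearMap.range (pencilKer D₁ D₂ s₁ s₂ hs₁ hs₂) = LinearMap.ker (pencilMap D₁ s₁ s₂) := by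
  apply le_antisymm
  · rintro _ ⟨u, rfl⟩
    rw [LinearMap.mem_ker, pencilMap_apply]
    simp only [pencilKer, LinearMap.coe_mk, AddHom.coe_mk]
    ring
  · rintro ⟨a, b⟩ hab
    rw [LinearMap.mem_ker, pencilMap_apply] at hab
    simp only at hab
    -- `u = a / s₂ = - b / s₁`
    have hrel : (a : F) * s₁ = -((b : F) * s₂) := by linear_combination hab
    have hu : (a : F) / s₂ ∈ riemannRochSpace (D₁ - D₂) := by
      rcases eq_or_ne (a : F) 0 with ha0 | ha0
      · rw [ha0, zero_div]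
        exact zero_mem _
      have hb0 : (b : F) ≠ 0 := by
        intro hb
        rw [hb, zero_mul, neg_zero] at hrel
        exact (mul_ne_zero ha0 hs₁0) hrel
      rw [mem_L_iff' (div_ne_zero ha0 hs₂0)]
      intro v
      rw [Finsupp.sub_apply]
      have ha := (mem_L_iff' ha0).mp a.2 v
      have hb := (mem_L_iff' hb0).mp b.2 v
      have h1 := (mem_L_iff' hs₁0).mp hs₁ v
      have h2 := (mem_L_iff' hs₂0).mp hs₂ v
      have e1 : v.ord ((a : F) / s₂) = v.ord (a : F) - v.ord s₂ := by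
        rw [div_eq_mul_inv, Place.ord_mul v ha0 (inv_ne_zero hs₂0), Place.ord_inv]
        ring
      have e2 : v.ord (a : F) + v.ord s₁ = v.ord (b : F) + v.ord s₂ := by
        rw [← Place.ord_mul v ha0 hs₁0, ← Place.ord_mul v hb0 hs₂0, hrel]
        have : -((b : F) * s₂) = (-1 : F) * ((b : F) * s₂) := by ring
        rw [this, Place.ord_mul v (by norm_num) (mul_ne_zero hb0 hs₂0)]
        have hneg : v.ord (-1 : F) = 0 := by
          have h3 : v.ord ((-1 : F) * (-1 : F)) = v.ord (-1 : F) + v.ord (-1 : F) :=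
            Place.ord_mul v (by norm_num) (by norm_num)
          rw [show ((-1 : F) * (-1 : F)) = 1 by ring, Place.ord_one] at h3
          omega
        rw [hneg, zero_add]
      rcases hbpf v with h | h
      · rw [e1]
        omega
      · rw [e1]
        omega
    refine ⟨⟨(a : F) / s₂, hu⟩, ?_⟩
    ext
    · simp only [pencilKer, LinearMap.coe_mk, AddHom.coe_mk]
      rw [div_mul_cancel₀ _ hs₂0]
    · simp only [pencilKer, LinearMap.coe_mk, AddHom.coe_mk]
      have : (b : F) = -((a : F) * s₁) / s₂ := by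
        rw [eq_div_iff hs₂0]
        linear_combination hrel
      rw [this]
      field_simp

/-- **The base point free pencil trick.** If `s₁, s₂ ∈ L(D₂)` have no common zero and
Riemann's equality holds for `D₁`, `D₁ - D₂` and `D₁ + D₂`, then
`L(D₁) s₁ + L(D₁) s₂ = L(D₁ + D₂)`. -/
theorem pencil_trick {D₁ D₂ : Divisor K F} (h1 : c ≤ Divisor.degree D₁)
    (h2 : c ≤ Divisor.degree (D₁ - D₂)) (h3 : c ≤ Divisor.degree (D₁ + D₂)) {s₁ s₂ : F}
    (hs₁ : s₁ ∈ riemannRochSpace D₂) (hs₂ : s₂ ∈ riemannRochSpace D₂) (hs₁0 : s₁ ≠ 0)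
    (hs₂0 : s₂ ≠ 0) (hbpf : ∀ v : Place K F, v.ord s₁ = -D₂ v ∨ v.ord s₂ = -D₂ v) :
    LinearMap.range (pencilMap D₁ s₁ s₂) = riemannRochSpace (D₁ + D₂) := by
  have hfd1 := finiteDimensional_L hS D₁
  have hfd2 := finiteDimensional_L hS (D₁ + D₂)
  have hfd3 := finiteDimensional_L hS (D₁ - D₂)
  have hle : LinearMap.range (pencilMap D₁ s₁ s₂) ≤ riemannRochSpace (D₁ + D₂) := by
    rintro _ ⟨x, rfl⟩
    rw [pencilMap_apply]
    exact add_mem (mul_mem_L x.1.2 hs₁) (mul_mem_L x.2.2 hs₂)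
  refine Submodule.eq_of_le_of_finrank_le hle ?_
  -- rank-nullity
  have hrn := LinearMap.finrank_range_add_finrank_ker (pencilMap D₁ s₁ s₂)
  rw [← range_pencilKer D₁ D₂ hs₁ hs₂ hs₁0 hs₂0 hbpf,
    LinearMap.finrank_range_of_inj (pencilKer_injective D₁ D₂ hs₁ hs₂ hs₂0),
    Module.finrank_prod] at hrn
  have e1 := hc D₁ h1
  have e2 := hc (D₁ - D₂) h2
  have e3 := hc (D₁ + D₂) h3
  rw [map_sub] at e2
  rw [map_add] at e3
  have hell1 : Module.finrank K (riemannRochSpace D₁) = ell D₁ := rfl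
  have hell2 : Module.finrank K (riemannRochSpace (D₁ - D₂)) = ell (D₁ - D₂) := rfl
  have hell3 : Module.finrank K (riemannRochSpace (D₁ + D₂)) = ell (D₁ + D₂) := rfl
  rw [hell1, hell2] at hrn
  rw [hell3]
  have : (ell (D₁ + D₂) : ℤ) ≤ Module.finrank K (LinearMap.range (pencilMap D₁ s₁ s₂)) := by
    have hrn' : (Module.finrank K (LinearMap.range (pencilMap D₁ s₁ s₂)) : ℤ) +
        ell (D₁ - D₂) = ell D₁ + ell D₁ := by exact_mod_cast hrn
    linarith
  exact_mod_cast this

/-! ### Two disjoint sets of points -/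

omit hS hc in
/-- `L(N - E) ∩ L(N - E') = L(N - E - E')` for disjoint sets of points. -/
theorem L_sub_inf_L_sub (N : Divisor K F) {Q Q' : Finset (Place K F)} (hQ : Disjoint Q Q') :
    riemannRochSpace (N - sumSingle Q) ⊓ riemannRochSpace (N - sumSingle Q') =
      riemannRochSpace (N - sumSingle Q - sumSingle Q') := by
  classical
  ext f
  rw [Submodule.mem_inf]
  rcases eq_or_ne f 0 with rfl | hf0
  · simp
  rw [mem_L_iff' hf0, mem_L_iff' hf0, mem_L_iff' hf0]
  constructor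
  · rintro ⟨h1, h2⟩ v
    have a1 := h1 v
    have a2 := h2 v
    rw [Finsupp.sub_apply, sumSingle_apply] at a1 a2
    rw [Finsupp.sub_apply, Finsupp.sub_apply, sumSingle_apply, sumSingle_apply]
    by_cases hv : v ∈ Q
    · have hv' : v ∉ Q' := Finset.disjoint_left.mp hQ hv
      rw [if_pos hv] at a1
      rw [if_pos hv, if_neg hv']
      omega
    · rw [if_neg hv]
      split_ifs at a2 ⊢ <;> omega
  · intro h
    refine ⟨fun v => ?_, fun v => ?_⟩
    · have a := h v
      rw [Finsupp.sub_apply, Finsupp.sub_apply, sumSingle_apply, sumSingle_apply] at a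
      rw [Finsupp.sub_apply, sumSingle_apply]
      split_ifs at a ⊢ <;> omega
    · have a := h v
      rw [Finsupp.sub_apply, Finsupp.sub_apply, sumSingle_apply, sumSingle_apply] at a
      rw [Finsupp.sub_apply, sumSingle_apply]
      split_ifs at a ⊢ <;> omega

/-- `L(N - E) + L(N - E') = L(N)` for disjoint sets of points, if Riemann's equality holds for
`N - E - E'`. -/
theorem L_sub_sup_L_sub (N : Divisor K F) {Q Q' : Finset (Place K F)} (hQ : Disjoint Q Q')
    (hN : c ≤ Divisor.degree (N - sumSingle Q - sumSingle Q')) :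
    riemannRochSpace (N - sumSingle Q) ⊔ riemannRochSpace (N - sumSingle Q') =
      riemannRochSpace N := by
  classical
  have hfd := finiteDimensional_L hS N
  have hle1 : riemannRochSpace (N - sumSingle Q) ≤ riemannRochSpace N :=
    L_mono fun v => by
      rw [Finsupp.sub_apply]
      have := sumSingle_nonneg Q v
      omega
  have hle2 : riemannRochSpace (N - sumSingle Q') ≤ riemannRochSpace N :=
    L_mono fun v => by
      rw [Finsupp.sub_apply]
      have := sumSingle_nonneg Q' v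
      omega
  have hfd1 : FiniteDimensional K (riemannRochSpace (N - sumSingle Q)) :=
    finiteDimensional_L hS _
  have hfd2 : FiniteDimensional K (riemannRochSpace (N - sumSingle Q')) :=
    finiteDimensional_L hS _
  refine Submodule.eq_of_le_of_finrank_le (sup_le hle1 hle2) ?_
  have hdim := Submodule.finrank_sup_add_finrank_inf_eq (riemannRochSpace (N - sumSingle Q))
    (riemannRochSpace (N - sumSingle Q'))
  rw [L_sub_inf_L_sub N hQ] at hdim
  have d1 : Divisor.degree (N - sumSingle Q) = Divisor.degree N - Q.card := by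
    rw [map_sub, degree_sumSingle hS]
  have d2 : Divisor.degree (N - sumSingle Q') = Divisor.degree N - Q'.card := by
    rw [map_sub, degree_sumSingle hS]
  have d3 : Divisor.degree (N - sumSingle Q - sumSingle Q') =
      Divisor.degree N - Q.card - Q'.card := by
    rw [map_sub, map_sub, degree_sumSingle hS, degree_sumSingle hS]
  rw [d3] at hN
  have e0 := hc N (by linarith)
  have e1 := hc (N - sumSingle Q) (by rw [d1]; linarith)
  have e2 := hc (N - sumSingle Q') (by rw [d2]; linarith)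
  have e3 := hc (N - sumSingle Q - sumSingle Q') (by rw [d3]; linarith)
  rw [d1] at e1
  rw [d2] at e2
  rw [d3] at e3
  have hdim' : (Module.finrank K
      ↥(riemannRochSpace (N - sumSingle Q) ⊔ riemannRochSpace (N - sumSingle Q')) : ℤ) +
      ell (N - sumSingle Q - sumSingle Q') = ell (N - sumSingle Q) + ell (N - sumSingle Q') := by
    exact_mod_cast hdim
  have : (Module.finrank K (riemannRochSpace N) : ℤ) ≤ Module.finrank K
      ↥(riemannRochSpace (N - sumSingle Q) ⊔ riemannRochSpace (N - sumSingle Q')) := by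
    have hN' : (Module.finrank K (riemannRochSpace N) : ℤ) = ell N := rfl
    rw [hN']
    linarith
  exact_mod_cast this

/-! ### Multiplication is onto -/

/-- one half: the products span `L(D₁ + D₂ - E)` for a set `E` of `c` points -/
theorem L_sub_le_span_mulSet [Infinite K] {D₁ D₂ : Divisor K F} (hc0 : 0 ≤ c)
    (hD₁ : 2 * c + 1 ≤ Divisor.degree D₁) (hD₂ : 2 * c + 1 ≤ Divisor.degree D₂)
    (h12 : Divisor.degree D₂ ≤ Divisor.degree D₁) (Q : Finset (Place K F))
    (hQ : (Q.card : ℤ) = c) :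
    riemannRochSpace (D₁ + D₂ - sumSingle Q) ≤ Submodule.span K (mulSet D₁ D₂) := by
  classical
  have dQ : Divisor.degree (D₂ - sumSingle Q) = Divisor.degree D₂ - c := by
    rw [map_sub, degree_sumSingle hS, hQ]
  have hdeg : c + 1 ≤ Divisor.degree (D₂ - sumSingle Q) := by
    rw [dQ]
    linarith
  obtain ⟨P₀⟩ := hS.nonempty
  obtain ⟨s₁, hs₁0, hs₁, -⟩ := exists_mem_L_ord_eq hS hc hdeg P₀
  obtain ⟨s₂, hs₂0, hs₂, hbpf⟩ := exists_pencil hS hc hdeg hs₁ hs₁0
  have hle : riemannRochSpace (D₂ - sumSingle Q) ≤ riemannRochSpace D₂ :=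
    L_mono fun v => by
      rw [Finsupp.sub_apply]
      have := sumSingle_nonneg Q v
      omega
  have htrick := pencil_trick hS hc (D₁ := D₁) (D₂ := D₂ - sumSingle Q) (by linarith)
    (by rw [map_sub, dQ]; linarith) (by rw [map_add, dQ]; linarith) hs₁ hs₂ hs₁0 hs₂0 hbpf
  have hD : D₁ + (D₂ - sumSingle Q) = D₁ + D₂ - sumSingle Q := by abel
  rw [hD] at htrick
  rw [← htrick]
  rintro _ ⟨x, rfl⟩
  rw [pencilMap_apply]
  exact add_mem (Submodule.subset_span ⟨x.1, x.1.2, s₁, hle hs₁, rfl⟩)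
    (Submodule.subset_span ⟨x.2, x.2.2, s₂, hle hs₂, rfl⟩)

/-- multiplication is onto, ordered degrees -/
theorem span_mulSet_eq_of_le [Infinite K] {D₁ D₂ : Divisor K F} (hc0 : 0 ≤ c)
    (hD₁ : 2 * c + 1 ≤ Divisor.degree D₁) (hD₂ : 2 * c + 1 ≤ Divisor.degree D₂)
    (h12 : Divisor.degree D₂ ≤ Divisor.degree D₁) :
    Submodule.span K (mulSet D₁ D₂) = riemannRochSpace (D₁ + D₂) := by
  classical
  refine le_antisymm (span_mulSet_le D₁ D₂) ?_
  have hinf := infinite_place hS hc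
  -- two disjoint sets of `c` points
  obtain ⟨Q, hQ⟩ := Infinite.exists_subset_card_eq (Place K F) c.toNat
  obtain ⟨Q', hQ'sub, hQ'⟩ := Infinite.exists_superset_card_eq Q (2 * c.toNat) (by omega)
  have hcn : ((c.toNat : ℕ) : ℤ) = c := Int.toNat_of_nonneg hc0
  have hQc : (Q.card : ℤ) = c := by rw [hQ, hcn]
  have hQ2 : ((Q' \ Q).card : ℤ) = c := by
    rw [Finset.card_sdiff_of_subset hQ'sub, hQ', hQ]
    omega
  have hdisj : Disjoint Q (Q' \ Q) := Finset.disjoint_sdiff
  have hsup := L_sub_sup_L_sub hS hc (D₁ + D₂) hdisj (by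
    rw [map_sub, map_sub, map_add, degree_sumSingle hS, degree_sumSingle hS, hQc, hQ2]
    linarith)
  rw [← hsup]
  exact sup_le (L_sub_le_span_mulSet hS hc hc0 hD₁ hD₂ h12 Q hQc)
    (L_sub_le_span_mulSet hS hc hc0 hD₁ hD₂ h12 (Q' \ Q) hQ2)

/-- **Khuri-Makdisi, Lemma 2.2 (multiplication is onto).** If `deg D₁, deg D₂ ≥ 2 c + 1`, then
the products `f h`, `f ∈ L(D₁)`, `h ∈ L(D₂)`, span `L(D₁ + D₂)`. -/
theorem span_mul_eq [Infinite K] {D₁ D₂ : Divisor K F} (hc0 : 0 ≤ c)
    (hD₁ : 2 * c + 1 ≤ Divisor.degree D₁) (hD₂ : 2 * c + 1 ≤ Divisor.degree D₂) :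
    Submodule.span K (mulSet D₁ D₂) = riemannRochSpace (D₁ + D₂) := by
  rcases le_total (Divisor.degree D₂) (Divisor.degree D₁) with h | h
  · exact span_mulSet_eq_of_le hS hc hc0 hD₁ hD₂ h
  · rw [mulSet_comm, add_comm]
    exact span_mulSet_eq_of_le hS hc hc0 hD₂ hD₁ h

/-- Lemma 2.2 in the form of a surjective multiplication map: every element of `L(D₁ + D₂)` is
a finite sum of products. -/
theorem exists_sum_mul [Infinite K] {D₁ D₂ : Divisor K F} (hc0 : 0 ≤ c)
    (hD₁ : 2 * c + 1 ≤ Divisor.degree D₁) (hD₂ : 2 * c + 1 ≤ Divisor.degree D₂) {x : F}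
    (hx : x ∈ riemannRochSpace (D₁ + D₂)) :
    ∃ (n : ℕ) (f h : Fin n → F), (∀ i, f i ∈ riemannRochSpace D₁) ∧
      (∀ i, h i ∈ riemannRochSpace D₂) ∧ x = ∑ i, f i * h i := by
  rw [← span_mul_eq hS hc hc0 hD₁ hD₂] at hx
  induction hx using Submodule.span_induction with
  | mem y hy =>
    obtain ⟨f, hf, h, hh, rfl⟩ := hy
    exact ⟨1, fun _ => f, fun _ => h, fun _ => hf, fun _ => hh, by simp⟩
  | zero => exact ⟨0, Fin.elim0, Fin.elim0, fun i => i.elim0, fun i => i.elim0, by simp⟩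
  | add y z _ _ hy hz =>
    obtain ⟨n, f, h, hf, hh, rfl⟩ := hy
    obtain ⟨m, f', h', hf', hh', rfl⟩ := hz
    refine ⟨n + m, Fin.append f f', Fin.append h h', fun i => ?_, fun i => ?_, ?_⟩
    · refine Fin.addCases (fun j => ?_) (fun j => ?_) i
      · rw [Fin.append_left]; exact hf j
      · rw [Fin.append_right]; exact hf' j
    · refine Fin.addCases (fun j => ?_) (fun j => ?_) i
      · rw [Fin.append_left]; exact hh j
      · rw [Fin.append_right]; exact hh' j
    · rw [Fin.sum_univ_add]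
      simp only [Fin.append_left, Fin.append_right]
  | smul a y _ hy =>
    obtain ⟨n, f, h, hf, hh, rfl⟩ := hy
    refine ⟨n, fun i => a • f i, h, fun i => Submodule.smul_mem _ a (hf i), hh, ?_⟩
    rw [Finset.smul_sum]
    refine Finset.sum_congr rfl fun i _ => ?_
    rw [smul_mul_assoc]

end Setting

end Fermat.Agent.T6.helper80

end
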