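/-
T6 (S19), block [A2]/[A3] CRIT, part 1 (helper83): the dot pairing between functions on a finite
abelian group `G` and the group algebra `K[G]` (convolution), dual families, expansions.

* `cfn`, `cof` : coefficient function of an element of `AddMonoidAlgebra K G` and back;
  `cfn_mul` (convolution formula).
* `dotp f c = ∑ u, f u * c u`; `dotp_mul` : `⟨f, c * c'⟩ = ∑ u v, f (u + v) c(u) c'(v)`;
  `dotp_mul_of_decomp`.
* `exists_dual_family` : an `R`-basis of a module of functions, linearly independent over the
  field of values and with `#G` elements, has a dual family (completeness relation,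
  coordinates).
* `expand_of_complete`, `expand₂_of_complete` : expansions from a completeness relation.
* `exists_common_den` : common denominators.

Mathlib only.
-/
import Mathlib

set_option autoImplicit false
set_option linter.unusedSectionVars false
set_option linter.unusedVariables false

open scoped BigOperators

namespace Fermat.Agent.T6.helper83

noncomputable section

section Conv

variable {K G : Type*} [CommRing K] [AddCommGroup G] [Fintype G]

/-- the function of an element of the group algebra -/
def cfn (c : AddMonoidAlgebra K G) : G → K := fun u => c.coeff u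

/-- the element of the group algebra of a function -/
def cof (f : G → K) : AddMonoidAlgebra K G := .ofCoeff (Finsupp.equivFunOnFinite.symm f)

@[simp] theorem cfn_cof (f : G → K) : cfn (cof f) = f := by
  funext u
  simp [cfn, cof]

@[simp] theorem cof_cfn (c : AddMonoidAlgebra K G) : cof (cfn c) = c := by
  apply AddMonoidAlgebra.coeff_injective
  ext u
  simp [cfn, cof]

theorem cfn_injective : Function.Injective (cfn : AddMonoidAlgebra K G → G → K) := by
  intro a b h
  rw [← cof_cfn a, ← cof_cfn b, h]

@[simp] theorem cfn_add (c c' : AddMonoidAlgebra K G) : cfn (c + c') = cfn c + cfn c' := by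
  funext u
  simp [cfn]

@[simp] theorem cfn_zero : cfn (0 : AddMonoidAlgebra K G) = 0 := by
  funext u
  simp [cfn]

theorem cfn_mul (c c' : AddMonoidAlgebra K G) (w : G) :
    cfn (c * c') w = ∑ u, cfn c u * cfn c' (w - u) := by
  unfold cfn
  rw [AddMonoidAlgebra.coeff_mul_apply_left, Finsupp.sum_fintype _ _ (fun i => by simp)]
  refine Finset.sum_congr rfl fun u _ => ?_
  rw [neg_add_eq_sub]

theorem cfn_one [DecidableEq G] (w : G) :
    cfn (1 : AddMonoidAlgebra K G) w = if w = 0 then 1 else 0 := by
  unfold cfn
  rw [AddMonoidAlgebra.one_def, AddMonoidAlgebra.coeff_single, Finsupp.single_apply]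
  simp only [eq_comm]

theorem cfn_algebraMap {R : Type*} [CommRing R] [Algebra R K] [DecidableEq G] (r : R) (w : G) :
    cfn (algebraMap R (AddMonoidAlgebra K G) r) w = if w = 0 then algebraMap R K r else 0 := by
  unfold cfn
  rw [AddMonoidAlgebra.coe_algebraMap, Function.comp_apply, AddMonoidAlgebra.coeff_single,
    Finsupp.single_apply]
  simp only [eq_comm]

theorem cfn_smul {R : Type*} [CommRing R] [Algebra R K] (r : R) (c : AddMonoidAlgebra K G) :
    cfn (r • c) = r • cfn c := by
  funext u
  simp [cfn]

/-- the coefficient function as a linear map -/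
def cfnL (R : Type*) [CommRing R] [Algebra R K] : AddMonoidAlgebra K G →ₗ[R] (G → K) where
  toFun := cfn
  map_add' := cfn_add
  map_smul' := fun r c => cfn_smul r c

@[simp] theorem cfnL_apply (R : Type*) [CommRing R] [Algebra R K] (c : AddMonoidAlgebra K G) :
    cfnL R c = cfn c := rfl

theorem cof_add (f g : G → K) : cof (f + g) = cof f + cof g := by
  apply cfn_injective
  rw [cfn_add, cfn_cof, cfn_cof, cfn_cof]

theorem cof_smul {R : Type*} [CommRing R] [Algebra R K] (r : R) (f : G → K) :
    cof (r • f) = r • cof f := by
  apply cfn_injective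
  rw [cfn_smul, cfn_cof, cfn_cof]

theorem cof_sum {ι : Type*} (s : Finset ι) (f : ι → G → K) :
    cof (∑ i ∈ s, f i) = ∑ i ∈ s, cof (f i) := by
  classical
  induction s using Finset.induction_on with
  | empty =>
    apply cfn_injective
    simp
  | insert a s ha ih => rw [Finset.sum_insert ha, Finset.sum_insert ha, cof_add, ih]

/-- the dot pairing -/
def dotp (f c : G → K) : K := ∑ u, f u * c u

theorem dotp_comm (f c : G → K) : dotp f c = dotp c f := by
  unfold dotp
  exact Finset.sum_congr rfl fun u _ => mul_comm _ _

theorem dotp_add_right (f c c' : G → K) : dotp f (c + c') = dotp f c + dotp f c' := by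
  unfold dotp
  rw [← Finset.sum_add_distrib]
  exact Finset.sum_congr rfl fun u _ => by rw [Pi.add_apply, mul_add]

theorem dotp_add_left (f f' c : G → K) : dotp (f + f') c = dotp f c + dotp f' c := by
  rw [dotp_comm, dotp_add_right, dotp_comm c f, dotp_comm c f']

theorem dotp_smul_right (a : K) (f c : G → K) : dotp f (a • c) = a * dotp f c := by
  unfold dotp
  rw [Finset.mul_sum]
  exact Finset.sum_congr rfl fun u _ => by rw [Pi.smul_apply, smul_eq_mul]; ring

theorem dotp_smul_left (a : K) (f c : G → K) : dotp (a • f) c = a * dotp f c := by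
  rw [dotp_comm, dotp_smul_right, dotp_comm]

theorem dotp_smul_right' {R : Type*} [CommRing R] [Algebra R K] (r : R) (f c : G → K) :
    dotp f (r • c) = algebraMap R K r * dotp f c := by
  rw [← dotp_smul_right, algebraMap_smul]

theorem dotp_smul_left' {R : Type*} [CommRing R] [Algebra R K] (r : R) (f c : G → K) :
    dotp (r • f) c = algebraMap R K r * dotp f c := by
  rw [← dotp_smul_left, algebraMap_smul]

theorem dotp_sum_right {ι : Type*} (s : Finset ι) (f : G → K) (c : ι → G → K) :
    dotp f (∑ i ∈ s, c i) = ∑ i ∈ s, dotp f (c i) := by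
  unfold dotp
  rw [Finset.sum_comm]
  refine Finset.sum_congr rfl fun u _ => ?_
  rw [Finset.sum_apply, Finset.mul_sum]

theorem dotp_sum_left {ι : Type*} (s : Finset ι) (f : ι → G → K) (c : G → K) :
    dotp (∑ i ∈ s, f i) c = ∑ i ∈ s, dotp (f i) c := by
  rw [dotp_comm, dotp_sum_right]
  exact Finset.sum_congr rfl fun i _ => dotp_comm _ _

theorem dotp_zero_right (f : G → K) : dotp f 0 = 0 := by
  unfold dotp
  simp

/-- the pairing with a convolution product -/
theorem dotp_mul (f : G → K) (c c' : AddMonoidAlgebra K G) :
    dotp f (cfn (c * c')) = ∑ u, ∑ v, f (u + v) * (cfn c u * cfn c' v) := by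
  unfold dotp
  simp only [cfn_mul, Finset.mul_sum]
  rw [Finset.sum_comm]
  refine Finset.sum_congr rfl fun u _ => ?_
  exact (Fintype.sum_equiv (Equiv.addLeft u) (fun v => f (u + v) * (cfn c u * cfn c' v))
    (fun w => f w * (cfn c u * cfn c' (w - u))) (fun v => by simp)).symm

/-- the pairing with a convolution product, for a function with a decomposition of
`(u, v) ↦ F (u + v)` -/
theorem dotp_mul_of_decomp {ι : Type*} (s : Finset ι) (F : G → K) (α β : ι → G → K)
    (hF : ∀ u v, F (u + v) = ∑ i ∈ s, α i u * β i v) (c c' : AddMonoidAlgebra K G) :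
    dotp F (cfn (c * c')) = ∑ i ∈ s, dotp (α i) (cfn c) * dotp (β i) (cfn c') := by
  rw [dotp_mul]
  have h1 : ∀ i ∈ s, dotp (α i) (cfn c) * dotp (β i) (cfn c') =
      ∑ u, ∑ v, (α i u * β i v) * (cfn c u * cfn c' v) := by
    intro i _
    unfold dotp
    rw [Finset.sum_mul_sum]
    refine Finset.sum_congr rfl fun u _ => Finset.sum_congr rfl fun v _ => ?_
    ring
  rw [Finset.sum_congr rfl h1]
  have h2 : ∀ u : G, ∑ v, F (u + v) * (cfn c u * cfn c' v) =
      ∑ i ∈ s, ∑ v, (α i u * β i v) * (cfn c u * cfn c' v) := by
    intro u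
    rw [Finset.sum_comm (s := s) (t := Finset.univ)
      (f := fun i v => (α i u * β i v) * (cfn c u * cfn c' v))]
    refine Finset.sum_congr rfl fun v _ => ?_
    rw [hF, Finset.sum_mul]
  rw [Finset.sum_congr rfl (fun u _ => h2 u)]
  exact Finset.sum_comm (s := Finset.univ) (t := s)
    (f := fun u i => ∑ v, (α i u * β i v) * (cfn c u * cfn c' v))

/-- the pairing with the unit -/
theorem dotp_one [DecidableEq G] (f : G → K) : dotp f (cfn (1 : AddMonoidAlgebra K G)) = f 0 := by
  unfold dotp
  simp [cfn_one]

theorem dotp_algebraMap {R : Type*} [CommRing R] [Algebra R K] [DecidableEq G] (f : G → K) (r : R) :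
    dotp f (cfn (algebraMap R (AddMonoidAlgebra K G) r)) = algebraMap R K r * f 0 := by
  unfold dotp
  simp only [cfn_algebraMap, mul_ite, mul_zero, Finset.sum_ite_eq', Finset.mem_univ, if_true]
  exact mul_comm _ _

/-- the pairing with a multiplicative function is multiplicative -/
theorem dotp_char_mul (χ : G → K) (hχ : ∀ u v, χ (u + v) = χ u * χ v)
    (c c' : AddMonoidAlgebra K G) :
    dotp χ (cfn (c * c')) = dotp χ (cfn c) * dotp χ (cfn c') := by
  have := dotp_mul_of_decomp (Finset.univ : Finset Unit) χ (fun _ => χ) (fun _ => χ)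
    (fun u v => by simp [hχ]) c c'
  simpa using this

end Conv

section Dual

variable {K G : Type*} [Field K] [Fintype G]

/-- **Dual family.**  An `R`-basis of a module of functions which is linearly independent over
the field of values and has as many elements as there are points has a dual family for the dot
pairing: completeness relation and coordinates. -/
theorem exists_dual_family {R N ι : Type*} [CommRing R] [Algebra R K] [AddCommGroup N] [Module R N]
    [Fintype ι] [DecidableEq G]
    (φ : N →ₗ[R] (G → K)) (b : Module.Basis ι R N)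
    (hli : LinearIndependent K (fun i => φ (b i))) (hcard : Fintype.card ι = Fintype.card G) :
    ∃ d : ι → G → K,
      (∀ u v, ∑ i, φ (b i) u * d i v = if u = v then 1 else 0) ∧
      (∀ x j, dotp (φ x) (d j) = algebraMap R K (b.repr x j)) := by
  classical
  have hspan : Submodule.span K (Set.range fun i => φ (b i)) = ⊤ :=
    hli.span_eq_top_of_card_eq_finrank' (by rw [hcard, Module.finrank_fintype_fun_eq_card])
  set B : Module.Basis ι K (G → K) := Module.Basis.mk hli hspan.ge with hB
  have hBi : ∀ i, B i = φ (b i) := fun i => by rw [hB, Module.Basis.mk_apply]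
  have hrepr : ∀ (f : G → K) j, dotp f (fun v => B.repr (Pi.single v 1) j) = B.repr f j := by
    intro f j
    have hf : f = ∑ v, f v • (Pi.single v (1 : K) : G → K) := by
      funext z
      simp [Finset.sum_apply, Pi.single_apply]
    conv_rhs => rw [hf]
    rw [map_sum, Finsupp.coe_finsetSum, Finset.sum_apply]
    unfold dotp
    refine Finset.sum_congr rfl fun v _ => ?_
    rw [map_smul, Finsupp.smul_apply, smul_eq_mul]
  refine ⟨fun j v => B.repr (Pi.single v 1) j, ?_, ?_⟩
  · intro u v
    have h1 := congrFun (B.sum_repr (Pi.single v (1 : K))) u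
    rw [Finset.sum_apply] at h1
    rw [show (if u = v then (1 : K) else 0) = (Pi.single v (1 : K) : G → K) u by
      rw [Pi.single_apply], ← h1]
    refine Finset.sum_congr rfl fun i _ => ?_
    rw [Pi.smul_apply, smul_eq_mul, hBi, mul_comm]
  · intro x j
    rw [hrepr]
    have hx : φ x = ∑ i, algebraMap R K (b.repr x i) • B i := by
      conv_lhs => rw [← b.sum_repr x]
      rw [map_sum]
      refine Finset.sum_congr rfl fun i _ => ?_
      rw [map_smul, hBi, algebraMap_smul]
    rw [hx, B.repr_sum_self]

variable {ι : Type*} [Fintype ι] [DecidableEq G]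

/-- the completeness relation is symmetric -/
theorem complete_symm (p d : ι → G → K)
    (hc : ∀ u v, ∑ i, p i u * d i v = if u = v then 1 else 0) :
    ∀ u v, ∑ i, d i u * p i v = if u = v then 1 else 0 := by
  intro u v
  rw [show (if u = v then (1 : K) else 0) = if v = u then 1 else 0 by simp only [eq_comm],
    ← hc v u]
  exact Finset.sum_congr rfl fun i _ => mul_comm _ _

/-- expansion of a function from a completeness relation -/
theorem expand_of_complete (p d : ι → G → K)
    (hc : ∀ u v, ∑ i, p i u * d i v = if u = v then 1 else 0) (f : G → K) (v : G) :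
    f v = ∑ i, dotp f (p i) * d i v := by
  have h1 : ∀ i, dotp f (p i) * d i v = ∑ u, f u * (p i u * d i v) := by
    intro i
    unfold dotp
    rw [Finset.sum_mul]
    exact Finset.sum_congr rfl fun u _ => by ring
  rw [Finset.sum_congr rfl (fun i _ => h1 i),
    Finset.sum_comm (s := Finset.univ) (t := Finset.univ) (f := fun i u => f u * (p i u * d i v))]
  have h2 : ∀ u, ∑ i, f u * (p i u * d i v) = if u = v then f u else 0 := by
    intro u
    rw [← Finset.mul_sum, hc u v]
    split_ifs <;> simp
  rw [Finset.sum_congr rfl (fun u _ => h2 u)]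
  simp

/-- expansion of a function as a linear combination -/
theorem expand_of_complete' (p d : ι → G → K)
    (hc : ∀ u v, ∑ i, p i u * d i v = if u = v then 1 else 0) (f : G → K) :
    f = ∑ i, dotp f (p i) • d i := by
  funext v
  rw [expand_of_complete p d hc f v, Finset.sum_apply]
  rfl

/-- a function orthogonal to a complete family vanishes -/
theorem eq_zero_of_dotp_eq_zero (p d : ι → G → K)
    (hc : ∀ u v, ∑ i, p i u * d i v = if u = v then 1 else 0) (f : G → K)
    (hf : ∀ i, dotp f (p i) = 0) : f = 0 := by
  rw [expand_of_complete' p d hc f]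
  simp [hf]

/-- expansion of a function of two variables from a completeness relation -/
theorem expand₂_of_complete (p d : ι → G → K)
    (hc : ∀ u v, ∑ i, p i u * d i v = if u = v then 1 else 0) (F : G → G → K) (u v : G) :
    F u v = ∑ a, ∑ b, (∑ u', ∑ v', F u' v' * (p a u' * p b v')) * (d a u * d b v) := by
  have h1 : F u v = ∑ a, dotp (fun u' => F u' v) (p a) * d a u :=
    expand_of_complete p d hc (fun u' => F u' v) u
  rw [h1]
  refine Finset.sum_congr rfl fun a _ => ?_
  have h2 : dotp (fun u' => F u' v) (p a) =
      ∑ b, (∑ u', ∑ v', F u' v' * (p a u' * p b v')) * d b v := by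
    unfold dotp
    have h3 : ∀ u', F u' v * p a u' = ∑ b, (∑ v', F u' v' * (p a u' * p b v')) * d b v := by
      intro u'
      rw [expand_of_complete p d hc (F u') v, Finset.sum_mul]
      refine Finset.sum_congr rfl fun b _ => ?_
      unfold dotp
      rw [Finset.sum_mul, Finset.sum_mul, Finset.sum_mul]
      exact Finset.sum_congr rfl fun v' _ => by ring
    rw [Finset.sum_congr rfl (fun u' _ => h3 u'),
      Finset.sum_comm (s := Finset.univ) (t := Finset.univ)
        (f := fun u' b => (∑ v', F u' v' * (p a u' * p b v')) * d b v)]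
    refine Finset.sum_congr rfl fun b _ => ?_
    rw [Finset.sum_mul]
  rw [h2, Finset.sum_mul]
  refine Finset.sum_congr rfl fun b _ => ?_
  ring

end Dual

section Misc

/-- common denominators -/
theorem exists_common_den {R K ι : Type*} [CommRing R] [IsDomain R] [Field K] [Algebra R K]
    (A : Subring K) (hRA : ∀ r : R, algebraMap R K r ∈ A)
    (hden : ∀ z : K, ∃ r : R, r ≠ 0 ∧ algebraMap R K r * z ∈ A) [Fintype ι] (z : ι → K) :
    ∃ d : R, d ≠ 0 ∧ ∀ i, algebraMap R K d * z i ∈ A := by
  classical
  choose r hr0 hr using fun i => hden (z i)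
  refine ⟨∏ i, r i, Finset.prod_ne_zero_iff.mpr fun i _ => hr0 i, fun i => ?_⟩
  rw [← Finset.mul_prod_erase Finset.univ r (Finset.mem_univ i), map_mul, mul_comm (algebraMap R K (r i)),
    mul_assoc]
  exact A.mul_mem (hRA _) (hr i)

variable {k K G : Type*} [Field k] [Field K] [Algebra k K] [Fintype G]

/-- the dot pairing of equivariant functions is Galois-invariant -/
theorem dotp_fixed (σ : K ≃ₐ[k] K) (s : G → G) (hs : Function.Bijective s) (f c : G → K)
    (hf : ∀ x, f (s x) = σ (f x)) (hc : ∀ x, c (s x) = σ (c x)) : σ (dotp f c) = dotp f c := by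
  unfold dotp
  rw [map_sum]
  rw [← hs.sum_comp (fun u => f u * c u)]
  refine Finset.sum_congr rfl fun u _ => ?_
  rw [map_mul, hf, hc]

end Misc

end

end Fermat.Agent.T6.helper83
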