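/-
T6 (S19), block [A3] CRIT, part 2 (helper83): THE FOURIER CRITERION.

Setting: `R` a principal ideal domain with fraction field `k`, `K / k` Galois, `A` a subring of
`K` with `A ∩ k = R` and denominators in `R`; `G` a finite abelian group with an additive action
`act` of `Gal(K/k)`; `χ : X → G → K` a finite family of multiplicative functions spanning all
functions `G → K`, each of which is a combination, with coefficients in `A`, of
Galois-equivariant `A`-valued functions (`IsACombo`).  These hypotheses are the structure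
`CritHyp R A act χ`.

`CritHyp.exists_flat_model` : then there is a commutative Hopf algebra `H` over `R`, finite,
flat, cocommutative, with an equivalence `WithConv (H →ₐ[R] K) ≃ G` which is additive and
Galois-equivariant (the shape of the frozen S19 / `IsFlatAt`).

Proof (no tensor products, only bases and the dot pairing `⟨f, c⟩ = ∑ u, f u * c u`):
`O` = the maximal order (ALL equivariant `A`-valued functions), finite over `R` by pairing;
`E j` = the dual family of an `R`-basis of `O`; `Λ` = the `R`-subalgebra of the group algebra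
`K[G]` (convolution) generated by the `E j`; the Fourier coefficients of `Λ` lie in `A`, so `Λ`
is a lattice; `H` = the dual lattice of `Λ`.  `H` is a ring because `Λ` is stable under the
diagonal (structure constants of `O`), `H` is stable under `h ↦ h (x + y)` because `Λ` is a
ring, under `h ↦ h (-x)` because `O` is, and `h 0 ∈ R` because `1 ∈ Λ`.
-/
import Mathlib
import Fermat.Agent.T6.helper30_DescentBridge
import Fermat.Agent.T6.helper83_CritBase
import Fermat.Agent.T6.helper83_HopfOrder

set_option autoImplicit false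
set_option linter.unusedSectionVars false
set_option linter.unusedVariables false
set_option linter.style.haveILetI false

open scoped BigOperators

namespace Fermat.Agent.T6.helper83

noncomputable section

universe uK uG

section Crit

variable {R k : Type*} {K : Type uK} {G : Type uG} [CommRing R] [IsDomain R]
  [IsPrincipalIdealRing R]
  [Field k] [Field K] [Algebra R k] [IsFractionRing R k] [Algebra k K] [Algebra R K]
  [IsScalarTower R k K] [IsGalois k K] [AddCommGroup G] [Fintype G] [DecidableEq G]

/-- the maximal order: all Galois-equivariant functions with values in `A` -/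
def maxOrder (A : Subring K) (hRA : ∀ r : R, algebraMap R K r ∈ A)
    (act : (K ≃ₐ[k] K) → G → G) : Subalgebra R (G → K) where
  carrier := {f | (∀ σ x, f (act σ x) = σ (f x)) ∧ ∀ x, f x ∈ A}
  mul_mem' := fun {f g} hf hg =>
    ⟨fun σ x => by rw [Pi.mul_apply, Pi.mul_apply, hf.1 σ x, hg.1 σ x, map_mul],
      fun x => A.mul_mem (hf.2 x) (hg.2 x)⟩
  add_mem' := fun {f g} hf hg =>
    ⟨fun σ x => by rw [Pi.add_apply, Pi.add_apply, hf.1 σ x, hg.1 σ x, map_add],
      fun x => A.add_mem (hf.2 x) (hg.2 x)⟩
  algebraMap_mem' := fun r =>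
    ⟨fun σ x => by
      rw [Pi.algebraMap_apply, Pi.algebraMap_apply, IsScalarTower.algebraMap_apply R k K,
        σ.commutes],
      fun x => hRA r⟩

theorem mem_maxOrder {A : Subring K} {hRA : ∀ r : R, algebraMap R K r ∈ A}
    {act : (K ≃ₐ[k] K) → G → G} {f : G → K} :
    f ∈ maxOrder A hRA act ↔ (∀ σ x, f (act σ x) = σ (f x)) ∧ ∀ x, f x ∈ A := Iff.rfl

/-- `χ` is a combination, with coefficients in `A`, of equivariant `A`-valued functions -/
def IsACombo (A : Subring K) (act : (K ≃ₐ[k] K) → G → G) (χ : G → K) : Prop :=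
  ∃ (m : ℕ) (a : Fin m → K) (f : Fin m → G → K),
    (∀ i, a i ∈ A) ∧ (∀ i σ x, f i (act σ x) = σ (f i x)) ∧ (∀ i x, f i x ∈ A) ∧
    ∀ x, χ x = ∑ i, a i * f i x

/-- **The hypotheses of the criterion.**  `A` is a subring of `K` with `A ∩ k = R` and with
denominators in `R`; the action is additive; `χ` is a spanning family of multiplicative
functions each of which is an `A`-combination of equivariant `A`-valued functions. -/
structure CritHyp (R : Type*) {k K G X : Type*} [CommRing R] [Field k] [Field K] [Algebra R k]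
    [Algebra k K] [Algebra R K] [AddCommGroup G] (A : Subring K) (act : (K ≃ₐ[k] K) → G → G)
    (χ : X → G → K) : Prop where
  hRA : ∀ r : R, algebraMap R K r ∈ A
  hAk : ∀ x : k, algebraMap k K x ∈ A → x ∈ Set.range (algebraMap R k)
  hden : ∀ z : K, ∃ r : R, r ≠ 0 ∧ algebraMap R K r * z ∈ A
  act_add : ∀ σ u v, act σ (u + v) = act σ u + act σ v
  χ_mul : ∀ x u v, χ x (u + v) = χ x u * χ x v
  χ_span : Submodule.span K (Set.range χ) = ⊤
  hTI : ∀ x, IsACombo A act (χ x)

variable {X : Type*} {A : Subring K} {act : (K ≃ₐ[k] K) → G → G} {χ : X → G → K}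

namespace CritHyp

variable (h : CritHyp R A act χ)
include h

theorem fixed_mem {z : K} (hz : z ∈ A) (hfix : ∀ σ : K ≃ₐ[k] K, σ z = z) :
    z ∈ (algebraMap R K).range := by
  obtain ⟨q, hq⟩ := (InfiniteGalois.mem_range_algebraMap_iff_fixed (k := k) (K := K) z).mpr hfix
  obtain ⟨r, hr⟩ := h.hAk q (by rw [hq]; exact hz)
  exact ⟨r, by rw [IsScalarTower.algebraMap_apply R k K, hr, hq]⟩

theorem act_zero (σ : K ≃ₐ[k] K) : act σ 0 = 0 := by
  have := h.act_add σ 0 0
  rw [add_zero] at this
  exact left_eq_add.mp this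

theorem act_neg (σ : K ≃ₐ[k] K) (u : G) : act σ (-u) = -act σ u := by
  have := h.act_add σ (-u) u
  rw [neg_add_cancel, h.act_zero] at this
  exact eq_neg_of_add_eq_zero_left this.symm

theorem act_sub (σ : K ≃ₐ[k] K) (u v : G) : act σ (u - v) = act σ u - act σ v := by
  rw [sub_eq_add_neg, h.act_add, h.act_neg, ← sub_eq_add_neg]

theorem span_maxOrder : Submodule.span K (maxOrder A h.hRA act : Set (G → K)) = ⊤ := by
  rw [eq_top_iff, ← h.χ_span, Submodule.span_le]
  rintro _ ⟨x, rfl⟩
  obtain ⟨m, a, f, ha, hfe, hfA, hχ⟩ := h.hTI x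
  have : χ x = ∑ i, a i • f i := by
    funext u
    rw [hχ u, Finset.sum_apply]
    rfl
  rw [this]
  exact Submodule.sum_mem _ fun i _ => Submodule.smul_mem _ _
    (Submodule.subset_span ⟨fun σ u => hfe i σ u, fun u => hfA i u⟩)

theorem sep {u v : G} (huv : u ≠ v) : ∃ f ∈ maxOrder A h.hRA act, f u ≠ f v := by
  classical
  by_contra hcon
  push Not at hcon
  have h1 : (Pi.single u (1 : K) : G → K) ∈
      Submodule.span K (maxOrder A h.hRA act : Set (G → K)) := by
    rw [h.span_maxOrder]
    trivial
  have h2 : ∀ f ∈ Submodule.span K (maxOrder A h.hRA act : Set (G → K)), f u = f v := by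
    intro f hf
    induction hf using Submodule.span_induction with
    | mem f hf => exact hcon f hf
    | zero => rfl
    | add f g _ _ hf hg => rw [Pi.add_apply, Pi.add_apply, hf, hg]
    | smul a f _ hf => rw [Pi.smul_apply, Pi.smul_apply, hf]
  have h3 := h2 _ h1
  rw [Pi.single_eq_same, Pi.single_eq_of_ne (Ne.symm huv)] at h3
  exact one_ne_zero h3

theorem act_injective (σ : K ≃ₐ[k] K) : Function.Injective (act σ) := by
  intro u v huv
  by_contra hne
  obtain ⟨f, hf, hfuv⟩ := h.sep hne
  apply hfuv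
  have h1 := hf.1 σ u
  rw [huv, hf.1 σ v] at h1
  exact σ.injective h1.symm

theorem act_bijective (σ : K ≃ₐ[k] K) : Function.Bijective (act σ) :=
  Finite.injective_iff_bijective.mp (h.act_injective σ)

/-- the dot pairing of two elements of the maximal order lies in `R` -/
theorem dotp_maxOrder_mem {f g : G → K} (hf : f ∈ maxOrder A h.hRA act)
    (hg : g ∈ maxOrder A h.hRA act) : dotp f g ∈ (algebraMap R K).range := by
  apply h.fixed_mem
  · exact A.sum_mem fun u _ => A.mul_mem (hf.2 u) (hg.2 u)
  · intro σ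
    exact dotp_fixed σ (act σ) (h.act_bijective σ) f g (hf.1 σ) (hg.1 σ)

theorem finite_maxOrder : Module.Finite R (maxOrder A h.hRA act) := by
  classical
  obtain ⟨bs, hbs, hspan, hli⟩ := exists_linearIndependent K (maxOrder A h.hRA act : Set (G → K))
  rw [h.span_maxOrder] at hspan
  haveI : Fintype bs := hli.setFinite.fintype
  set B : Module.Basis bs K (G → K) := Module.Basis.mk hli (by
    rw [Subtype.range_coe_subtype]
    exact hspan.ge) with hB
  have hcard : Fintype.card bs = Fintype.card G := by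
    rw [← Module.finrank_eq_card_basis B, Module.finrank_fintype_fun_eq_card]
  have hBi : ∀ i, B i = (i : G → K) := fun i => by rw [hB, Module.Basis.mk_apply]
  obtain ⟨d, hc, -⟩ := exists_dual_family (R := K) (LinearMap.id : (G → K) →ₗ[K] (G → K)) B
    (by
      have : (fun i => (LinearMap.id : (G → K) →ₗ[K] (G → K)) (B i)) = fun i : bs => (i : G → K) := by
        funext i
        rw [LinearMap.id_apply, hBi]
      rw [this]
      exact hli) hcard
  have hc' : ∀ u v, ∑ i : bs, (i : G → K) u * d i v = if u = v then 1 else 0 := by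
    intro u v
    rw [← hc u v]
    refine Finset.sum_congr rfl fun i _ => ?_
    rw [LinearMap.id_apply, hBi]
  have hle : Subalgebra.toSubmodule (maxOrder A h.hRA act) ≤ Submodule.span R (Set.range d) := by
    intro f hf
    rw [expand_of_complete' (fun i : bs => (i : G → K)) d hc' f]
    refine Submodule.sum_mem _ fun i _ => ?_
    obtain ⟨r, hr⟩ := h.dotp_maxOrder_mem hf (hbs i.2)
    rw [← hr]
    rw [algebraMap_smul]
    exact Submodule.smul_mem _ _ (Submodule.subset_span ⟨i, rfl⟩)
  have hfg : (Subalgebra.toSubmodule (maxOrder A h.hRA act)).FG :=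
    Submodule.FG.of_le (Submodule.fg_span (Set.finite_range d)) hle
  exact Module.Finite.iff_fg.mpr hfg


/-- a basis of the maximal order, with its dual family -/
theorem exists_basis_maxOrder :
    ∃ (n : ℕ) (b : Module.Basis (Fin n) R (maxOrder A h.hRA act)) (E : Fin n → G → K),
      n = Fintype.card G ∧
      (∀ u v, ∑ i, (b i : G → K) u * E i v = if u = v then 1 else 0) ∧
      (∀ (x : maxOrder A h.hRA act) j, dotp (x : G → K) (E j) = algebraMap R K (b.repr x j)) := by
  classical
  haveI := h.finite_maxOrder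
  obtain ⟨n, b, hli, -, hn⟩ := Fermat.Agent.T6.helper30.exists_basis_of_equivariant (k := k) act
    (maxOrder A h.hRA act) (fun f hf σ x => hf.1 σ x) h.finite_maxOrder
    (fun u v huv => h.sep huv)
  rw [Nat.card_eq_fintype_card] at hn
  obtain ⟨E, hc, hco⟩ := exists_dual_family (maxOrder A h.hRA act).val.toLinearMap b hli
    (by rw [Fintype.card_fin, hn])
  exact ⟨n, b, E, hn, hc, hco⟩

end CritHyp

/-- the dual family of an equivariant family is equivariant -/
theorem dual_equivariant {ι : Type*} [Fintype ι] (p d : ι → G → K)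
    (hc : ∀ u v, ∑ i, p i u * d i v = if u = v then 1 else 0)
    (σ : K ≃ₐ[k] K) (s : G → G) (hs : Function.Bijective s) (hp : ∀ i x, p i (s x) = σ (p i x))
    (hfix : ∀ i j, σ (dotp (p i) (d j)) = dotp (p i) (d j)) (j : ι) (x : G) :
    d j (s x) = σ (d j x) := by
  set c' : G → K := fun u => σ.symm (d j (s u)) with hc'
  have h1 : ∀ i, dotp c' (p i) = dotp (d j) (p i) := by
    intro i
    have h2 : σ (dotp c' (p i)) = dotp (d j) (p i) := by
      unfold dotp
      rw [map_sum, ← hs.sum_comp (fun u => d j u * p i u)]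
      refine Finset.sum_congr rfl fun u _ => ?_
      rw [map_mul, hc', AlgEquiv.apply_symm_apply, hp]
    have h3 := hfix i j
    rw [dotp_comm] at h3
    rw [← h3] at h2
    exact σ.injective h2
  have h4 : c' = d j := by
    rw [expand_of_complete' p d hc c', expand_of_complete' p d hc (d j)]
    exact Finset.sum_congr rfl fun i _ => by rw [h1]
  have h5 := congrFun h4 x
  rw [hc'] at h5
  simp only at h5
  rw [← h5, AlgEquiv.apply_symm_apply]


/-- the subalgebra of the group algebra generated by a family of functions -/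
def genAlg (R : Type*) [CommRing R] [Algebra R K] {ι : Type*} (E : ι → G → K) :
    Subalgebra R (AddMonoidAlgebra K G) :=
  Algebra.adjoin R (Set.range fun j => cof (E j))

theorem cof_mem_genAlg {ι : Type*} (E : ι → G → K) (j : ι) : cof (E j) ∈ genAlg R E :=
  Algebra.subset_adjoin ⟨j, rfl⟩

namespace CritHyp

variable (h : CritHyp R A act χ)
include h

/-- the subalgebra of equivariant elements of the group algebra -/
def equivAlg : Subalgebra R (AddMonoidAlgebra K G) where
  carrier := {c | ∀ σ u, cfn c (act σ u) = σ (cfn c u)}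
  mul_mem' := by
    intro c c' hc hc' σ w
    rw [cfn_mul, cfn_mul, map_sum, ← (h.act_bijective σ).sum_comp
      (fun u => cfn c u * cfn c' (act σ w - u))]
    refine Finset.sum_congr rfl fun u _ => ?_
    rw [← h.act_sub, hc, hc', map_mul]
  add_mem' := by
    intro c c' hc hc' σ w
    rw [cfn_add, Pi.add_apply, Pi.add_apply, hc, hc', map_add]
  algebraMap_mem' := by
    intro r σ w
    rw [cfn_algebraMap, cfn_algebraMap]
    have h0 : act σ w = 0 ↔ w = 0 := by
      constructor
      · intro hw
        exact h.act_injective σ (by rw [hw, h.act_zero])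
      · rintro rfl
        exact h.act_zero σ
    by_cases hw : w = 0
    · rw [if_pos hw, if_pos (h0.mpr hw), IsScalarTower.algebraMap_apply R k K, σ.commutes]
    · rw [if_neg hw, if_neg (fun h' => hw (h0.mp h')), map_zero]

theorem χ_zero_mem (x : X) : χ x 0 ∈ A := by
  have h1 := h.χ_mul x 0 0
  rw [add_zero] at h1
  have h2 : χ x 0 * (χ x 0 - 1) = 0 := by
    rw [mul_sub, mul_one, ← h1, sub_self]
  rcases mul_eq_zero.mp h2 with h3 | h3
  · rw [h3]
    exact A.zero_mem
  · rw [sub_eq_zero.mp h3]
    exact A.one_mem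

/-- the subalgebra of elements with integral Fourier coefficient at `χ x` -/
def fourierAlg (x : X) : Subalgebra R (AddMonoidAlgebra K G) where
  carrier := {c | dotp (χ x) (cfn c) ∈ A}
  mul_mem' := by
    intro c c' hc hc'
    show dotp (χ x) (cfn (c * c')) ∈ A
    rw [dotp_char_mul (χ x) (h.χ_mul x)]
    exact A.mul_mem hc hc'
  add_mem' := by
    intro c c' hc hc'
    show dotp (χ x) (cfn (c + c')) ∈ A
    rw [cfn_add, dotp_add_right]
    exact A.add_mem hc hc'
  algebraMap_mem' := by
    intro r
    show dotp (χ x) (cfn (algebraMap R (AddMonoidAlgebra K G) r)) ∈ A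
    rw [dotp_algebraMap]
    exact A.mul_mem (h.hRA r) (h.χ_zero_mem x)


section OSide

variable {n : ℕ} (b : Module.Basis (Fin n) R (maxOrder A h.hRA act)) (E : Fin n → G → K)
  (hc : ∀ u v, ∑ i, (b i : G → K) u * E i v = if u = v then 1 else 0)
  (hco : ∀ (x : maxOrder A h.hRA act) j, dotp (x : G → K) (E j) = algebraMap R K (b.repr x j))
include hc hco

theorem E_equivariant (j : Fin n) (σ : K ≃ₐ[k] K) (u : G) : E j (act σ u) = σ (E j u) :=
  dual_equivariant (fun i => (b i : G → K)) E hc σ (act σ) (h.act_bijective σ)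
    (fun i x => (b i).2.1 σ x)
    (fun i j => by rw [hco (b i) j, IsScalarTower.algebraMap_apply R k K, σ.commutes]) j u

omit hc in
theorem dotp_E_mem {f : G → K} (hf : f ∈ maxOrder A h.hRA act) (j : Fin n) :
    dotp f (E j) ∈ (algebraMap R K).range :=
  ⟨b.repr ⟨f, hf⟩ j, (hco ⟨f, hf⟩ j).symm⟩

theorem genAlg_le_equivAlg : genAlg R E ≤ h.equivAlg := by
  apply Algebra.adjoin_le
  rintro _ ⟨j, rfl⟩
  intro σ u
  rw [cfn_cof]
  exact h.E_equivariant b E hc hco j σ u

omit hc in
theorem genAlg_le_fourierAlg (x : X) : genAlg R E ≤ h.fourierAlg x := by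
  apply Algebra.adjoin_le
  rintro _ ⟨j, rfl⟩
  show dotp (χ x) (cfn (cof (E j))) ∈ A
  rw [cfn_cof]
  obtain ⟨m, a, f, ha, hfe, hfA, hχ⟩ := h.hTI x
  have h1 : χ x = ∑ i, a i • f i := by
    funext u
    rw [hχ u, Finset.sum_apply]
    rfl
  rw [h1, dotp_sum_left]
  refine A.sum_mem fun i _ => ?_
  rw [dotp_smul_left]
  refine A.mul_mem (ha i) ?_
  obtain ⟨r, hr⟩ := h.dotp_E_mem b E hco (f := f i) ⟨hfe i, hfA i⟩ j
  rw [← hr]
  exact h.hRA r

theorem finite_genAlg [Fintype X] : Module.Finite R (genAlg R E) := by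
  have hβ : ∀ j : Fin n, ∃ β : X → K, ∑ x, β x • χ x = (b j : G → K) := fun j =>
    (Submodule.mem_span_range_iff_exists_fun K).mp (by rw [h.χ_span]; trivial)
  choose β hβ using hβ
  obtain ⟨d, hd0, hd⟩ := exists_common_den A h.hRA h.hden (fun p : Fin n × X => β p.1 p.2)
  have hdK : algebraMap R K d ≠ 0 := fun h0 =>
    hd0 (Fermat.Agent.T6.helper30.algebraMap_injective_of_tower R k K (by rw [h0, map_zero]))
  have key : ∀ c ∈ genAlg R E, ∀ j,
      algebraMap R K d * dotp (cfn c) (b j : G → K) ∈ (algebraMap R K).range := by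
    intro c hcm j
    apply h.fixed_mem
    · rw [dotp_comm, ← hβ j, dotp_sum_left, Finset.mul_sum]
      refine A.sum_mem fun x _ => ?_
      rw [dotp_smul_left, ← mul_assoc]
      exact A.mul_mem (hd (j, x)) (h.genAlg_le_fourierAlg b E hco x hcm)
    · intro σ
      rw [map_mul, IsScalarTower.algebraMap_apply R k K, σ.commutes]
      congr 1
      exact dotp_fixed σ (act σ) (h.act_bijective σ) _ _
        (h.genAlg_le_equivAlg b E hc hco hcm σ) ((b j).2.1 σ)
  have hle : Subalgebra.toSubmodule (genAlg R E) ≤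
      Submodule.span R (Set.range fun j => cof ((algebraMap R K d)⁻¹ • E j)) := by
    intro c hcm
    have h1 : cfn c = ∑ j, dotp (cfn c) (b j : G → K) • E j :=
      expand_of_complete' (fun j => (b j : G → K)) E hc (cfn c)
    rw [← cof_cfn c, h1, cof_sum]
    refine Submodule.sum_mem _ fun j _ => ?_
    obtain ⟨r, hr⟩ := key c hcm j
    have h2 : dotp (cfn c) (b j : G → K) • E j = r • ((algebraMap R K d)⁻¹ • E j) := by
      rw [← algebraMap_smul K r, hr, smul_smul, mul_comm (algebraMap R K d), mul_assoc,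
        mul_inv_cancel₀ hdK, mul_one]
    rw [h2, cof_smul]
    exact Submodule.smul_mem _ _ (Submodule.subset_span ⟨j, rfl⟩)
  exact Module.Finite.iff_fg.mpr (Submodule.FG.of_le (Submodule.fg_span (Set.finite_range _)) hle)

omit hc hco in
theorem isTorsionFree_genAlg : Module.IsTorsionFree R (genAlg R E) := by
  refine ⟨fun r hr x y hxy => ?_⟩
  have hr0 : algebraMap R K r ≠ 0 := by
    intro h0
    have : r = 0 := Fermat.Agent.T6.helper30.algebraMap_injective_of_tower R k K
      (by rw [h0, map_zero])
    exact hr.ne_zero this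
  apply Subtype.ext
  apply cfn_injective
  funext u
  have h1 : (r • x : genAlg R E) = r • y := hxy
  have h2 : cfn ((r • x : genAlg R E) : AddMonoidAlgebra K G) u =
      cfn ((r • y : genAlg R E) : AddMonoidAlgebra K G) u := by rw [h1]
  rw [Subalgebra.coe_smul, Subalgebra.coe_smul, cfn_smul, cfn_smul, Pi.smul_apply,
    Pi.smul_apply, Algebra.smul_def, Algebra.smul_def] at h2
  exact mul_left_cancel₀ hr0 h2

/-- a basis of the generated algebra, with its dual family -/
theorem exists_basis_genAlg [Fintype X] :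
    ∃ (m : ℕ) (bΛ : Module.Basis (Fin m) R (genAlg R E)) (hd : Fin m → G → K),
      m = Fintype.card G ∧
      (∀ u v, ∑ a, cfn (bΛ a : AddMonoidAlgebra K G) u * hd a v = if u = v then 1 else 0) ∧
      (∀ (c : genAlg R E) a,
        dotp (cfn (c : AddMonoidAlgebra K G)) (hd a) = algebraMap R K (bΛ.repr c a)) := by
  haveI := h.finite_genAlg b E hc hco
  haveI := h.isTorsionFree_genAlg E
  haveI : Module.Free R (genAlg R E) := Module.free_of_finite_type_torsion_free'
  let bΛ : Module.Basis (Fin (Module.finrank R (genAlg R E))) R (genAlg R E) :=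
    Module.finBasis R (genAlg R E)
  let φ : genAlg R E →ₗ[R] (G → K) := (cfnL R).comp (genAlg R E).val.toLinearMap
  have hφ : ∀ c : genAlg R E, φ c = cfn (c : AddMonoidAlgebra K G) := fun c => rfl
  have hφinj : Function.Injective φ := by
    intro x y hxy
    exact Subtype.ext (cfn_injective hxy)
  have hR : LinearIndependent R (fun a => φ (bΛ a)) :=
    bΛ.linearIndependent.map' φ (LinearMap.ker_eq_bot.mpr hφinj)
  have hk : LinearIndependent k (fun a => φ (bΛ a)) :=
    (LinearIndependent.iff_fractionRing R k).mp hR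
  have hK : LinearIndependent K (fun a => φ (bΛ a)) :=
    Fermat.Agent.T6.helper30.linearIndependent_of_equivariant act _
      (fun a σ x => h.genAlg_le_equivAlg b E hc hco (bΛ a).2 σ x) hk
  have hspan : ⊤ ≤ Submodule.span K (Set.range fun a => φ (bΛ a)) := by
    intro f _
    rw [expand_of_complete' (fun j => (b j : G → K)) E hc f]
    refine Submodule.sum_mem _ fun j _ => Submodule.smul_mem _ _ ?_
    obtain ⟨c, hcE⟩ : ∃ c : genAlg R E, φ c = E j :=
      ⟨⟨cof (E j), cof_mem_genAlg E j⟩, by rw [hφ]; exact cfn_cof (E j)⟩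
    have h1 : φ c = ∑ a, bΛ.repr c a • φ (bΛ a) := by
      conv_lhs => rw [← bΛ.sum_repr c]
      rw [map_sum]
      exact Finset.sum_congr rfl fun a _ => by rw [map_smul]
    rw [← hcE, h1]
    refine Submodule.sum_mem _ fun a _ => ?_
    rw [← algebraMap_smul K]
    exact Submodule.smul_mem _ _ (Submodule.subset_span ⟨a, rfl⟩)
  have hcard : Module.finrank R (genAlg R E) = Fintype.card G := by
    have := Module.finrank_eq_card_basis (Module.Basis.mk hK hspan)
    rw [Module.finrank_fintype_fun_eq_card, Fintype.card_fin] at this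
    exact this.symm
  obtain ⟨hd, hcΛ, hcoΛ⟩ := exists_dual_family φ bΛ hK (by rw [Fintype.card_fin, hcard])
  exact ⟨_, bΛ, hd, hcard, hcΛ, hcoΛ⟩

end OSide

end CritHyp

/-- the dual lattice of the generated algebra -/
def dualSet (R : Type*) [CommRing R] [Algebra R K] {ι : Type*} (E : ι → G → K) : Set (G → K) :=
  {f | ∀ c ∈ genAlg R E, dotp f (cfn c) ∈ (algebraMap R K).range}

omit [IsDomain R] [IsPrincipalIdealRing R] [DecidableEq G] in
theorem dualSet_add {ι : Type*} (E : ι → G → K) {f g : G → K} (hf : f ∈ dualSet R E)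
    (hg : g ∈ dualSet R E) : f + g ∈ dualSet R E := by
  intro c hc
  rw [dotp_add_left]
  exact Subring.add_mem _ (hf c hc) (hg c hc)

omit [IsDomain R] [IsPrincipalIdealRing R] [DecidableEq G] in
theorem dualSet_smul {ι : Type*} (E : ι → G → K) (r : R) {f : G → K} (hf : f ∈ dualSet R E) :
    r • f ∈ dualSet R E := by
  intro c hc
  rw [dotp_smul_left']
  exact Subring.mul_mem _ ⟨r, rfl⟩ (hf c hc)

omit [IsDomain R] [IsPrincipalIdealRing R] [DecidableEq G] in
theorem dualSet_sum {ι κ : Type*} (E : ι → G → K) (s : Finset κ) (f : κ → G → K)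
    (hf : ∀ i ∈ s, f i ∈ dualSet R E) : ∑ i ∈ s, f i ∈ dualSet R E := by
  intro c hc
  rw [dotp_sum_left]
  exact Subring.sum_mem _ fun i hi => hf i hi c hc

omit [IsDomain R] [IsPrincipalIdealRing R] in
/-- the value at `0` of an element of the dual lattice -/
theorem dualSet_zero_mem {ι : Type*} (E : ι → G → K) {f : G → K} (hf : f ∈ dualSet R E) :
    f 0 ∈ (algebraMap R K).range := by
  have := hf 1 (one_mem _)
  rwa [dotp_one] at this

namespace CritHyp

variable (h : CritHyp R A act χ)
include h

section LSide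

variable {n : ℕ} (b : Module.Basis (Fin n) R (maxOrder A h.hRA act)) (E : Fin n → G → K)
  (hc : ∀ u v, ∑ i, (b i : G → K) u * E i v = if u = v then 1 else 0)
  (hco : ∀ (x : maxOrder A h.hRA act) j, dotp (x : G → K) (E j) = algebraMap R K (b.repr x j))
  {m : ℕ} (bΛ : Module.Basis (Fin m) R (genAlg R E)) (hd : Fin m → G → K)
  (hcΛ : ∀ u v, ∑ a, cfn (bΛ a : AddMonoidAlgebra K G) u * hd a v = if u = v then 1 else 0)
  (hcoΛ : ∀ (c : genAlg R E) a,
    dotp (cfn (c : AddMonoidAlgebra K G)) (hd a) = algebraMap R K (bΛ.repr c a))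

include hcoΛ in
theorem hd_mem (a : Fin m) : hd a ∈ dualSet R E := by
  intro c hcm
  rw [dotp_comm, hcoΛ ⟨c, hcm⟩ a]
  exact ⟨_, rfl⟩

include hcΛ in
theorem dualSet_expand {f : G → K} (hf : f ∈ dualSet R E) :
    ∃ r : Fin m → R, f = ∑ a, r a • hd a := by
  have h1 := expand_of_complete' (fun a => cfn (bΛ a : AddMonoidAlgebra K G)) hd hcΛ f
  have h2 : ∀ a, ∃ r : R, algebraMap R K r = dotp f (cfn (bΛ a : AddMonoidAlgebra K G)) :=
    fun a => hf _ (bΛ a).2
  choose r hr using h2
  refine ⟨r, ?_⟩
  conv_lhs => rw [h1]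
  exact Finset.sum_congr rfl fun a _ => by rw [← hr a, algebraMap_smul]

include hc in
theorem dualSet_le_maxOrder {f : G → K} (hf : f ∈ dualSet R E) : f ∈ maxOrder A h.hRA act := by
  have h1 := expand_of_complete' E (fun j => (b j : G → K))
    (complete_symm (fun j => (b j : G → K)) E hc) f
  rw [h1]
  refine Subalgebra.sum_mem _ fun j _ => ?_
  obtain ⟨r, hr⟩ := hf (cof (E j)) (cof_mem_genAlg E j)
  rw [cfn_cof] at hr
  rw [← hr, algebraMap_smul]
  exact Subalgebra.smul_mem _ (b j).2 r

include hcΛ in
/-- the comultiplication on the dual lattice -/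
theorem dualSet_comul {f : G → K} (hf : f ∈ dualSet R E) :
    ∃ r : Fin m × Fin m → R,
      ∀ u v, f (u + v) = ∑ p : Fin m × Fin m, algebraMap R K (r p) * (hd p.1 u * hd p.2 v) := by
  have h2 : ∀ p : Fin m × Fin m, ∃ r : R, algebraMap R K r =
      dotp f (cfn ((bΛ p.1 : AddMonoidAlgebra K G) * (bΛ p.2 : AddMonoidAlgebra K G))) :=
    fun p => hf _ (mul_mem (bΛ p.1).2 (bΛ p.2).2)
  choose r hr using h2
  refine ⟨r, fun u v => ?_⟩
  rw [expand₂_of_complete (fun a => cfn (bΛ a : AddMonoidAlgebra K G)) hd hcΛ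
    (fun u v => f (u + v)) u v, Fintype.sum_prod_type]
  refine Finset.sum_congr rfl fun a _ => Finset.sum_congr rfl fun b' _ => ?_
  rw [hr (a, b'), dotp_mul]

include hco in
theorem one_mem_dualSet : (1 : G → K) ∈ dualSet R E := by
  intro c hcm
  induction hcm using Algebra.adjoin_induction with
  | mem c hc' =>
    obtain ⟨j, rfl⟩ := hc'
    rw [cfn_cof]
    exact h.dotp_E_mem b E hco (one_mem _) j
  | algebraMap r =>
    rw [dotp_algebraMap, Pi.one_apply, mul_one]
    exact ⟨r, rfl⟩
  | add c c' _ _ hc1 hc2 =>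
    rw [cfn_add, dotp_add_right]
    exact Subring.add_mem _ hc1 hc2
  | mul c c' _ _ hc1 hc2 =>
    rw [dotp_char_mul (1 : G → K) (fun u v => by simp)]
    exact Subring.mul_mem _ hc1 hc2

include hc hco hcΛ hcoΛ in
theorem mul_mem_dualSet {f g : G → K} (hf : f ∈ dualSet R E) (hg : g ∈ dualSet R E) :
    f * g ∈ dualSet R E := by
  intro c hcm
  induction hcm using Algebra.adjoin_induction generalizing f g with
  | mem c hc' =>
    obtain ⟨j, rfl⟩ := hc'
    rw [cfn_cof]
    exact h.dotp_E_mem b E hco
      (mul_mem (h.dualSet_le_maxOrder b E hc hf) (h.dualSet_le_maxOrder b E hc hg)) j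
  | algebraMap r =>
    rw [dotp_algebraMap, Pi.mul_apply]
    exact Subring.mul_mem _ ⟨r, rfl⟩
      (Subring.mul_mem _ (dualSet_zero_mem E hf) (dualSet_zero_mem E hg))
  | add c c' _ _ hc1 hc2 =>
    rw [cfn_add, dotp_add_right]
    exact Subring.add_mem _ (hc1 hf hg) (hc2 hf hg)
  | mul c c' _ _ hc1 hc2 =>
    obtain ⟨rf, hrf⟩ := h.dualSet_comul E bΛ hd hcΛ hf
    obtain ⟨rg, hrg⟩ := h.dualSet_comul E bΛ hd hcΛ hg
    have hF : ∀ u v, (f * g) (u + v) =
        ∑ i ∈ (Finset.univ : Finset ((Fin m × Fin m) × (Fin m × Fin m))),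
          ((algebraMap R K (rf i.1) * algebraMap R K (rg i.2)) • (hd i.1.1 * hd i.2.1)) u *
            (hd i.1.2 * hd i.2.2) v := by
      intro u v
      rw [Pi.mul_apply, hrf u v, hrg u v, Finset.sum_mul_sum, ← Finset.sum_product',
        Finset.univ_product_univ]
      refine Finset.sum_congr rfl fun i _ => ?_
      simp only [Pi.smul_apply, Pi.mul_apply, smul_eq_mul]
      ring
    rw [dotp_mul_of_decomp _ _ _ _ hF]
    refine Subring.sum_mem _ fun i _ => Subring.mul_mem _ ?_ ?_
    · rw [dotp_smul_left]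
      exact Subring.mul_mem _ (Subring.mul_mem _ ⟨_, rfl⟩ ⟨_, rfl⟩)
        (hc1 (h.hd_mem E bΛ hd hcoΛ _) (h.hd_mem E bΛ hd hcoΛ _))
    · exact hc2 (h.hd_mem E bΛ hd hcoΛ _) (h.hd_mem E bΛ hd hcoΛ _)

end LSide

end CritHyp

/-- the antipode of the group algebra -/
def negAlg (R : Type*) [CommRing R] [Algebra R K] :
    AddMonoidAlgebra K G →ₐ[R] AddMonoidAlgebra K G :=
  AddMonoidAlgebra.mapDomainAlgHom R K (-(AddMonoidHom.id G))

omit [IsDomain R] [IsPrincipalIdealRing R] [DecidableEq G] in
theorem cfn_negAlg (c : AddMonoidAlgebra K G) (u : G) : cfn (negAlg R c) u = cfn c (-u) := by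
  unfold negAlg cfn
  rw [AddMonoidAlgebra.mapDomainAlgHom_apply, AddMonoidAlgebra.coeff_mapDomain]
  have hinj : Function.Injective (⇑(-(AddMonoidHom.id G))) := by
    intro x y hxy
    simpa using hxy
  have := Finsupp.mapDomain_apply hinj c.coeff (-u)
  simpa using this

omit [IsDomain R] [IsPrincipalIdealRing R] [DecidableEq G] in
theorem dotp_comp_neg (f c : G → K) :
    dotp (fun u => f (-u)) c = dotp f (fun u => c (-u)) := by
  unfold dotp
  exact Fintype.sum_equiv (Equiv.neg G) _ _ (fun u => by simp)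

namespace CritHyp

variable (h : CritHyp R A act χ)
include h

section LSide2

variable {n : ℕ} (b : Module.Basis (Fin n) R (maxOrder A h.hRA act)) (E : Fin n → G → K)
  (hc : ∀ u v, ∑ i, (b i : G → K) u * E i v = if u = v then 1 else 0)
  (hco : ∀ (x : maxOrder A h.hRA act) j, dotp (x : G → K) (E j) = algebraMap R K (b.repr x j))
include hc hco

omit hc hco in
theorem comp_neg_mem_maxOrder {f : G → K} (hf : f ∈ maxOrder A h.hRA act) :
    (fun u => f (-u)) ∈ maxOrder A h.hRA act :=
  ⟨fun σ x => by
    show f (-act σ x) = σ (f (-x))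
    rw [← h.act_neg, hf.1], fun x => hf.2 _⟩

theorem negAlg_mem_genAlg {c : AddMonoidAlgebra K G} (hcm : c ∈ genAlg R E) :
    negAlg R c ∈ genAlg R E := by
  have h1 : (genAlg R E).map (negAlg R) ≤ genAlg R E := by
    unfold genAlg
    rw [AlgHom.map_adjoin]
    apply Algebra.adjoin_le
    rintro _ ⟨_, ⟨j, rfl⟩, rfl⟩
    have h2 : negAlg R (cof (E j)) = cof (fun u => E j (-u)) := by
      apply cfn_injective
      funext u
      rw [cfn_negAlg, cfn_cof, cfn_cof]
    rw [h2, expand_of_complete' (fun j => (b j : G → K)) E hc (fun u => E j (-u)), cof_sum]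
    refine Subalgebra.sum_mem _ fun i _ => ?_
    obtain ⟨r, hr⟩ := h.dotp_E_mem b E hco (h.comp_neg_mem_maxOrder (b i).2) j
    have h3 : dotp (fun u => E j (-u)) (b i : G → K) = algebraMap R K r := by
      rw [hr, dotp_comp_neg, dotp_comm]
    rw [h3, algebraMap_smul, cof_smul]
    exact Subalgebra.smul_mem _ (Algebra.subset_adjoin (Set.mem_range_self i)) r
  exact h1 ⟨c, hcm, rfl⟩

theorem comp_neg_mem_dualSet {f : G → K} (hf : f ∈ dualSet R E) :
    (fun u => f (-u)) ∈ dualSet R E := by
  intro c hcm
  have h1 : dotp (fun u => f (-u)) (cfn c) = dotp f (cfn (negAlg R c)) := by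
    rw [dotp_comp_neg]
    congr 1
    funext u
    rw [cfn_negAlg]
  rw [h1]
  exact hf _ (h.negAlg_mem_genAlg b E hc hco hcm)

end LSide2

/-- **The criterion.**  If every member of a spanning family of multiplicative functions on a
finite Galois module `G` is a combination, with coefficients in `A`, of Galois-equivariant
`A`-valued functions, then `G` is the group of points of a finite flat cocommutative Hopf
algebra over `R = A ∩ k`, Galois-equivariantly. -/
theorem exists_flat_model [Fintype X] :
    ∃ (H' : Type (max uG uK)) (_ : CommRing H') (_ : HopfAlgebra R H'),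
      Module.Finite R H' ∧ Module.Flat R H' ∧ Coalgebra.IsCocomm R H' ∧
      ∃ e : WithConv (H' →ₐ[R] K) ≃ G,
        (∀ f g, e (f * g) = e f + e g) ∧
        ∀ (σ : K ≃ₐ[k] K) (f f' : WithConv (H' →ₐ[R] K)),
          (∀ x : H', f' x = σ (f x)) → e f' = act σ (e f) := by
  obtain ⟨n, b, E, hn, hc, hco⟩ := h.exists_basis_maxOrder
  obtain ⟨m, bΛ, hd, hm, hcΛ, hcoΛ⟩ := h.exists_basis_genAlg b E hc hco
  let H : Subalgebra R (G → K) :=
    { carrier := dualSet R E
      mul_mem' := fun hf hg => h.mul_mem_dualSet b E hc hco bΛ hd hcΛ hcoΛ hf hg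
      add_mem' := fun hf hg => dualSet_add E hf hg
      algebraMap_mem' := fun r => by
        have h1 : algebraMap R (G → K) r = r • (1 : G → K) := Algebra.algebraMap_eq_smul_one r
        rw [h1]
        exact dualSet_smul E r (h.one_mem_dualSet b E hco) }
  have hH : ∀ x : H, (x : G → K) ∈ dualSet R E := fun x => x.2
  have hbi : ∀ a a', dotp (hd a) (cfn (bΛ a' : AddMonoidAlgebra K G)) =
      if a' = a then 1 else 0 := by
    intro a a'
    rw [dotp_comm, hcoΛ (bΛ a') a, bΛ.repr_self, Finsupp.single_apply]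
    split_ifs <;> simp
  let v : Fin m → H := fun a => ⟨hd a, h.hd_mem E bΛ hd hcoΛ a⟩
  have hliK : LinearIndependent K (fun a => H.val (v a)) := by
    rw [Fintype.linearIndependent_iff]
    intro g hg a'
    have h1 := congrArg (fun f => dotp f (cfn (bΛ a' : AddMonoidAlgebra K G))) hg
    simp only [dotp_sum_left, dotp_smul_left] at h1
    have h2 : ∀ a, g a * dotp (H.val (v a)) (cfn (bΛ a' : AddMonoidAlgebra K G)) =
        if a' = a then g a else 0 := by
      intro a
      have : H.val (v a) = hd a := rfl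
      rw [this, hbi]
      split_ifs <;> simp
    rw [Finset.sum_congr rfl (fun a _ => h2 a)] at h1
    simpa [dotp_comm, dotp_zero_right] using h1
  have hinj : Function.Injective (algebraMap R K) :=
    Fermat.Agent.T6.helper30.algebraMap_injective_of_tower R k K
  have hliR : LinearIndependent R v := by
    have h1 : LinearIndependent R (fun a => H.val (v a)) :=
      hliK.restrict_scalars (by
        intro r r' hrr'
        simp only [Algebra.smul_def, mul_one] at hrr'
        exact hinj hrr')
    exact LinearIndependent.of_comp H.val.toLinearMap h1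
  have hspan : ⊤ ≤ Submodule.span R (Set.range v) := by
    intro f _
    obtain ⟨r, hr⟩ := h.dualSet_expand E bΛ hd hcΛ (hH f)
    have h1 : f = ∑ a, r a • v a := by
      apply Subtype.ext
      rw [hr]
      simp only [AddSubmonoidClass.coe_finsetSum, Subalgebra.coe_smul]
      rfl
    rw [h1]
    exact Submodule.sum_mem _ fun a _ => Submodule.smul_mem _ _ (Submodule.subset_span ⟨a, rfl⟩)
  let b' : Module.Basis (Fin m) R H := Module.Basis.mk hliR hspan
  have hb' : ∀ a, b' a = v a := fun a => Module.Basis.mk_apply hliR hspan a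
  refine Fermat.Agent.T6.helper83.exists_flat_model (G := K ≃ₐ[k] K) H.val b' hinj ?_ ?_ ?_ ?_ ?_
    (fun σ z => σ z) act ?_
  · have : (fun a => H.val (b' a)) = fun a => H.val (v a) := by
      funext a
      rw [hb']
    rw [this]
    exact hliK
  · rw [Fintype.card_fin, hm, Nat.card_eq_fintype_card]
  · intro x
    obtain ⟨r, hr⟩ := h.dualSet_comul E bΛ hd hcΛ (hH x)
    refine ⟨m * m, fun i => r (finProdFinEquiv.symm i) • v (finProdFinEquiv.symm i).1,
      fun i => v (finProdFinEquiv.symm i).2, fun u w => ?_⟩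
    have h1 : H.val x (u + w) = (x : G → K) (u + w) := rfl
    rw [h1, hr u w]
    symm
    refine Fintype.sum_equiv finProdFinEquiv.symm _ _ fun i => ?_
    have h2 : H.val (r (finProdFinEquiv.symm i) • v (finProdFinEquiv.symm i).1) u =
        algebraMap R K (r (finProdFinEquiv.symm i)) * hd (finProdFinEquiv.symm i).1 u := by
      rw [map_smul, Pi.smul_apply, Algebra.smul_def]
      rfl
    have h3 : H.val (v (finProdFinEquiv.symm i).2) w = hd (finProdFinEquiv.symm i).2 w := rfl
    rw [h2, h3]
    ring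
  · intro x
    exact ⟨⟨fun u => (x : G → K) (-u), h.comp_neg_mem_dualSet b E hc hco (hH x)⟩, fun u => rfl⟩
  · intro x
    obtain ⟨r, hr⟩ := dualSet_zero_mem E (hH x)
    exact ⟨r, hr⟩
  · intro σ x u
    exact (h.dualSet_le_maxOrder b E hc (hH x)).1 σ u

end CritHyp

end Crit

end

end Fermat.Agent.T6.helper83
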