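/-
T6 (S19), block [A3] CRIT, part 3 (helper83): adapters of the Fourier criterion.

* `span_eq_top_of_injective` : `#G` distinct characters of `G` span all functions (Dedekind).
* `exists_den_of_isAlgebraic` : denominators for a valuation subring of an algebraic extension.
* `mem_of_mem_Zl`, `mem_Zl_of_mem` : `A ∩ ℚ = ℤ_(ℓ)` for a valuation subring `A` of `ℚ̄` over `ℓ`.
* `critHyp_torsion` : the hypotheses `CritHyp` for `J₀(p)[n]` from a family of characters.
* `s19_of_TI` : **the frozen conclusion of S19 at `(p, ℓ, k)`** from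
  (1) finiteness of `J₀(p)[ℓ^k]`, (2) a valuation subring `A` of `ℚ̄` over `ℓ`, (3) a family of
  `#J₀(p)[ℓ^k]` distinct characters of `J₀(p)[ℓ^k]` (e.g. `y ↦ e_n(·, y)`), each of which is a
  combination with coefficients in `A` of Galois-equivariant `A`-valued functions.
-/
import Mathlib
import Fermat.Agent.T6.helper83_Crit
import Fermat.Agent.T6.helper83_S19Wire

set_option autoImplicit false
set_option linter.unusedSectionVars false
set_option linter.unusedVariables false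
set_option linter.style.haveILetI false

open scoped BigOperators

open ModularCurve

namespace Fermat.Agent.T6.helper83

noncomputable section

section Span

variable {K G X : Type*} [Field K] [AddCommGroup G] [Fintype G] [Fintype X]

/-- `#G` distinct characters of a finite abelian group span all functions -/
theorem span_eq_top_of_injective (χ : X → G → K) (hmul : ∀ x u v, χ x (u + v) = χ x u * χ x v)
    (hone : ∀ x, χ x 0 = 1) (hinj : Function.Injective χ)
    (hcard : Fintype.card G ≤ Fintype.card X) : Submodule.span K (Set.range χ) = ⊤ := by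
  let ψ : X → (Multiplicative G →* K) := fun x =>
    { toFun := fun u => χ x (Multiplicative.toAdd u)
      map_one' := hone x
      map_mul' := fun u v => hmul x _ _ }
  have hψ : Function.Injective ψ := by
    intro x y hxy
    apply hinj
    funext u
    exact DFunLike.congr_fun hxy (Multiplicative.ofAdd u)
  have li0 := (linearIndependent_monoidHom (Multiplicative G) K).comp ψ hψ
  have li : LinearIndependent K χ := li0
  apply li.span_eq_top_of_card_eq_finrank'
  rw [Module.finrank_fintype_fun_eq_card]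
  refine le_antisymm ?_ hcard
  have := li.fintype_card_le_finrank
  rwa [Module.finrank_fintype_fun_eq_card] at this

end Span

section Den

variable {R k K : Type*} [CommRing R] [IsDomain R] [Field k] [Field K] [Algebra R k]
  [IsFractionRing R k] [Algebra k K] [Algebra R K] [IsScalarTower R k K]

/-- denominators for a valuation subring of an algebraic extension -/
theorem exists_den_of_isAlgebraic [Algebra.IsAlgebraic k K] (A : ValuationSubring K)
    (hRA : ∀ r : R, algebraMap R K r ∈ A) (z : K) :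
    ∃ r : R, r ≠ 0 ∧ algebraMap R K r * z ∈ A := by
  have hz : IsAlgebraic R z :=
    (IsFractionRing.isAlgebraic_iff R k K).mpr (Algebra.IsAlgebraic.isAlgebraic z)
  obtain ⟨y, hy0, hint⟩ := hz.exists_integral_multiple
  refine ⟨y, hy0, ?_⟩
  rw [Algebra.smul_def] at hint
  letI : Algebra R A := ((algebraMap R K).codRestrict A.toSubring hRA).toAlgebra
  haveI : IsScalarTower R A K := IsScalarTower.of_algebraMap_eq (fun r => rfl)
  have h1 : IsIntegral A (algebraMap R K y * z) := hint.tower_top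
  obtain ⟨a, ha⟩ := IsIntegrallyClosed.isIntegral_iff.mp h1
  rw [← ha]
  exact a.2

end Den

section Zl

variable (A : ValuationSubring (AlgebraicClosure ℚ)) {ℓ : ℕ} [hℓ : Fact ℓ.Prime]

theorem val_intCast_le_one (m : ℤ) : A.valuation ((m : ℤ) : AlgebraicClosure ℚ) ≤ 1 :=
  (A.valuation_le_one_iff _).mpr (intCast_mem A m)

theorem val_natCast_lt_one (hA : A.LiesOverPrime ℓ) :
    A.valuation ((ℓ : ℕ) : AlgebraicClosure ℚ) < 1 :=
  (A.mem_nonunits_iff).mp hA

theorem val_intCast_eq_one (hA : A.LiesOverPrime ℓ) (m : ℤ) (hm : ¬ (ℓ : ℤ) ∣ m) :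
    A.valuation ((m : ℤ) : AlgebraicClosure ℚ) = 1 := by
  refine le_antisymm (val_intCast_le_one A m) (not_lt.mp fun hlt => ?_)
  have hp : Prime (ℓ : ℤ) := Nat.prime_iff_prime_int.mp hℓ.out
  have hcop : IsCoprime (ℓ : ℤ) m := hp.coprime_iff_not_dvd.mpr hm
  obtain ⟨u, w, huw⟩ := hcop
  have h1 : A.valuation (((u : ℤ) : AlgebraicClosure ℚ) * ((ℓ : ℕ) : AlgebraicClosure ℚ)) < 1 := by
    rw [map_mul]
    calc A.valuation ((u : ℤ) : AlgebraicClosure ℚ) * A.valuation ((ℓ : ℕ) : AlgebraicClosure ℚ)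
        ≤ 1 * A.valuation ((ℓ : ℕ) : AlgebraicClosure ℚ) :=
          mul_le_mul_left (val_intCast_le_one A u) _
      _ < 1 := by rw [one_mul]; exact val_natCast_lt_one A hA
  have h2 : A.valuation (((w : ℤ) : AlgebraicClosure ℚ) * ((m : ℤ) : AlgebraicClosure ℚ)) < 1 := by
    rw [map_mul]
    calc A.valuation ((w : ℤ) : AlgebraicClosure ℚ) * A.valuation ((m : ℤ) : AlgebraicClosure ℚ)
        ≤ 1 * A.valuation ((m : ℤ) : AlgebraicClosure ℚ) :=
          mul_le_mul_left (val_intCast_le_one A w) _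
      _ < 1 := by rw [one_mul]; exact hlt
  have h3 := Valuation.map_add_lt _ h1 h2
  have h4 : ((u : ℤ) : AlgebraicClosure ℚ) * ((ℓ : ℕ) : AlgebraicClosure ℚ) +
      ((w : ℤ) : AlgebraicClosure ℚ) * ((m : ℤ) : AlgebraicClosure ℚ) = 1 := by
    have := congrArg (Int.cast : ℤ → AlgebraicClosure ℚ) huw
    push_cast at this
    exact this
  rw [h4, map_one] at h3
  exact lt_irrefl _ h3

/-- `ℤ_(ℓ) ⊆ A` -/
theorem mem_of_mem_Zl (hA : A.LiesOverPrime ℓ) (a : GaloisRep.ratLocalizedAt ℓ) :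
    algebraMap (GaloisRep.ratLocalizedAt ℓ) (AlgebraicClosure ℚ) a ∈ A := by
  have h0 : algebraMap (GaloisRep.ratLocalizedAt ℓ) (AlgebraicClosure ℚ) a =
      ((a : ℚ) : AlgebraicClosure ℚ) := by
    show algebraMap ℚ (AlgebraicClosure ℚ) (a : ℚ) = _
    rw [eq_ratCast]
  rw [h0, ← A.valuation_le_one_iff, Rat.cast_def, map_div₀]
  have hden : ¬ (ℓ : ℤ) ∣ (((a : ℚ).den : ℕ) : ℤ) := by
    have h1 : (a : ℚ).den.Coprime ℓ := a.2
    rw [Nat.coprime_comm, Nat.Prime.coprime_iff_not_dvd hℓ.out] at h1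
    exact_mod_cast h1
  have h2 := val_intCast_eq_one A hA _ hden
  rw [Int.cast_natCast] at h2
  rw [h2, div_one]
  exact val_intCast_le_one A _

/-- `A ∩ ℚ ⊆ ℤ_(ℓ)` -/
theorem mem_Zl_of_mem (hA : A.LiesOverPrime ℓ) (x : ℚ)
    (hx : algebraMap ℚ (AlgebraicClosure ℚ) x ∈ A) :
    x ∈ Set.range (algebraMap (GaloisRep.ratLocalizedAt ℓ) ℚ) := by
  suffices h : x.den.Coprime ℓ from ⟨⟨x, h⟩, rfl⟩
  rw [Nat.coprime_comm, Nat.Prime.coprime_iff_not_dvd hℓ.out]
  intro hdvd
  have hnum : ¬ (ℓ : ℤ) ∣ x.num := by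
    intro h1
    have h2 : ℓ ∣ x.num.natAbs := Int.natCast_dvd.mp h1
    have h3 := Nat.dvd_gcd h2 hdvd
    rw [x.reduced] at h3
    exact hℓ.out.one_lt.ne' (Nat.dvd_one.mp h3)
  have h1 := val_intCast_eq_one A hA _ hnum
  have h2 : (x : AlgebraicClosure ℚ) * ((x.den : ℕ) : AlgebraicClosure ℚ) =
      ((x.num : ℤ) : AlgebraicClosure ℚ) := by
    have := congrArg (fun q : ℚ => (q : AlgebraicClosure ℚ)) (Rat.mul_den_eq_num x)
    push_cast at this
    exact this
  rw [eq_ratCast] at hx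
  have h3 : A.valuation (x : AlgebraicClosure ℚ) ≤ 1 := (A.valuation_le_one_iff _).mpr hx
  have h4 : A.valuation ((x.den : ℕ) : AlgebraicClosure ℚ) < 1 := by
    obtain ⟨d, hd⟩ := hdvd
    rw [hd, Nat.cast_mul, map_mul]
    calc A.valuation ((ℓ : ℕ) : AlgebraicClosure ℚ) * A.valuation ((d : ℕ) : AlgebraicClosure ℚ)
        ≤ A.valuation ((ℓ : ℕ) : AlgebraicClosure ℚ) * 1 :=
          mul_le_mul_right (by
            have := val_intCast_le_one A (d : ℤ)
            rwa [Int.cast_natCast] at this) _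
      _ < 1 := by rw [mul_one]; exact val_natCast_lt_one A hA
  have h5 : A.valuation ((x.num : ℤ) : AlgebraicClosure ℚ) < 1 := by
    rw [← h2, map_mul]
    calc A.valuation (x : AlgebraicClosure ℚ) * A.valuation ((x.den : ℕ) : AlgebraicClosure ℚ)
        ≤ 1 * A.valuation ((x.den : ℕ) : AlgebraicClosure ℚ) := mul_le_mul_left h3 _
      _ < 1 := by rw [one_mul]; exact h4
  rw [h1] at h5
  exact lt_irrefl _ h5

end Zl

section S19

variable (p : ℕ) [NeZero p] (ℓ : ℕ) [hℓ : Fact ℓ.Prime] (n : ℤ)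

theorem torsSmul_add (σ : AlgebraicClosure ℚ ≃ₐ[ℚ] AlgebraicClosure ℚ)
    (u v : ↥(Submodule.torsionBy ℤ (JZero p) n)) :
    torsSmul p n σ (u + v) = torsSmul p n σ u + torsSmul p n σ v := by
  apply Subtype.ext
  show σ • ((u : JZero p) + (v : JZero p)) = σ • (u : JZero p) + σ • (v : JZero p)
  exact smul_add σ _ _

/-- **The hypotheses of the criterion for `J₀(p)[n]`**, from a spanning family of
multiplicative functions which are `A`-combinations of equivariant `A`-valued functions, `A` a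
valuation subring of `ℚ̄` over `ℓ`. -/
theorem critHyp_torsion (A : ValuationSubring (AlgebraicClosure ℚ)) (hA : A.LiesOverPrime ℓ)
    {X : Type*} (χ : X → ↥(Submodule.torsionBy ℤ (JZero p) n) → AlgebraicClosure ℚ)
    (hmul : ∀ x u v, χ x (u + v) = χ x u * χ x v)
    (hspan : Submodule.span (AlgebraicClosure ℚ) (Set.range χ) = ⊤)
    (hTI : ∀ x, IsACombo A.toSubring (torsSmul p n) (χ x)) :
    CritHyp (GaloisRep.ratLocalizedAt ℓ) A.toSubring (torsSmul p n) χ := by
  haveI : IsFractionRing ↥(GaloisRep.ratLocalizedAt ℓ) ℚ :=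
    Fermat.Agent.S28.helper94.isFractionRing_Zl ℓ
  haveI : Algebra.IsAlgebraic ℚ (AlgebraicClosure ℚ) := AlgebraicClosure.isAlgebraic ℚ
  exact
    { hRA := fun r => mem_of_mem_Zl A hA r
      hAk := fun x hx => mem_Zl_of_mem A hA x hx
      hden := fun z => exists_den_of_isAlgebraic (k := ℚ) A (fun r => mem_of_mem_Zl A hA r) z
      act_add := fun σ u v => torsSmul_add p n σ u v
      χ_mul := hmul
      χ_span := hspan
      hTI := hTI }

/-- **S19 from (TI), spanning form.** -/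
theorem s19_of_TI_span (k : ℕ) [Finite ↥(Submodule.torsionBy ℤ (JZero p) ((ℓ : ℤ) ^ k))]
    (A : ValuationSubring (AlgebraicClosure ℚ)) (hA : A.LiesOverPrime ℓ)
    {X : Type*} [Fintype X]
    (χ : X → ↥(Submodule.torsionBy ℤ (JZero p) ((ℓ : ℤ) ^ k)) → AlgebraicClosure ℚ)
    (hmul : ∀ x u v, χ x (u + v) = χ x u * χ x v)
    (hspan : Submodule.span (AlgebraicClosure ℚ) (Set.range χ) = ⊤)
    (hTI : ∀ x, IsACombo A.toSubring (torsSmul p ((ℓ : ℤ) ^ k)) (χ x)) :
    ∃ (H : Type) (_ : CommRing H) (_ : HopfAlgebra (GaloisRep.ratLocalizedAt ℓ) H),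
      Module.Finite (GaloisRep.ratLocalizedAt ℓ) H ∧ Module.Flat (GaloisRep.ratLocalizedAt ℓ) H ∧
      Coalgebra.IsCocomm (GaloisRep.ratLocalizedAt ℓ) H ∧
      ∃ e : WithConv (H →ₐ[GaloisRep.ratLocalizedAt ℓ] AlgebraicClosure ℚ) ≃
          ↥(Submodule.torsionBy ℤ (JZero p) ((ℓ : ℤ) ^ k)),
        (∀ f g, e (f * g) = e f + e g) ∧
        ∀ (σ : AlgebraicClosure ℚ ≃ₐ[ℚ] AlgebraicClosure ℚ)
          (f g : WithConv (H →ₐ[GaloisRep.ratLocalizedAt ℓ] AlgebraicClosure ℚ)),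
          (∀ h : H, g h = σ (f h)) → ((e g : JZero p)) = σ • (e f : JZero p) := by
  classical
  haveI : Fintype ↥(Submodule.torsionBy ℤ (JZero p) ((ℓ : ℤ) ^ k)) := Fintype.ofFinite _
  haveI : IsPrincipalIdealRing ↥(GaloisRep.ratLocalizedAt ℓ) :=
    Fermat.Agent.S28.helper94.isPrincipalIdealRing_Zl ℓ
  haveI : IsFractionRing ↥(GaloisRep.ratLocalizedAt ℓ) ℚ :=
    Fermat.Agent.S28.helper94.isFractionRing_Zl ℓ
  haveI : IsGalois ℚ (AlgebraicClosure ℚ) := Fermat.Agent.S51.isGalois_Qbar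
  have hC := critHyp_torsion p ℓ ((ℓ : ℤ) ^ k) A hA χ hmul hspan hTI
  obtain ⟨H', i1, i2, h1, h2, h3, e, he, heq⟩ := hC.exists_flat_model
  refine ⟨H', i1, i2, h1, h2, h3, e, he, ?_⟩
  intro σ f g hfg
  rw [heq σ f g hfg]
  rfl

/-- **S19 from (TI)**: the frozen conclusion of S19 at `(p, ℓ, k)` from `#J₀(p)[ℓ^k]` distinct
characters of `J₀(p)[ℓ^k]` each of which is a combination, with coefficients in `A`, of
Galois-equivariant `A`-valued functions. -/
theorem s19_of_TI (k : ℕ) [Finite ↥(Submodule.torsionBy ℤ (JZero p) ((ℓ : ℤ) ^ k))]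
    (A : ValuationSubring (AlgebraicClosure ℚ)) (hA : A.LiesOverPrime ℓ)
    {X : Type*} [Fintype X]
    (χ : X → ↥(Submodule.torsionBy ℤ (JZero p) ((ℓ : ℤ) ^ k)) → AlgebraicClosure ℚ)
    (hmul : ∀ x u v, χ x (u + v) = χ x u * χ x v) (hone : ∀ x, χ x 0 = 1)
    (hinj : Function.Injective χ)
    (hcard : Nat.card ↥(Submodule.torsionBy ℤ (JZero p) ((ℓ : ℤ) ^ k)) ≤ Fintype.card X)
    (hTI : ∀ x, IsACombo A.toSubring (torsSmul p ((ℓ : ℤ) ^ k)) (χ x)) :
    ∃ (H : Type) (_ : CommRing H) (_ : HopfAlgebra (GaloisRep.ratLocalizedAt ℓ) H),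
      Module.Finite (GaloisRep.ratLocalizedAt ℓ) H ∧ Module.Flat (GaloisRep.ratLocalizedAt ℓ) H ∧
      Coalgebra.IsCocomm (GaloisRep.ratLocalizedAt ℓ) H ∧
      ∃ e : WithConv (H →ₐ[GaloisRep.ratLocalizedAt ℓ] AlgebraicClosure ℚ) ≃
          ↥(Submodule.torsionBy ℤ (JZero p) ((ℓ : ℤ) ^ k)),
        (∀ f g, e (f * g) = e f + e g) ∧
        ∀ (σ : AlgebraicClosure ℚ ≃ₐ[ℚ] AlgebraicClosure ℚ)
          (f g : WithConv (H →ₐ[GaloisRep.ratLocalizedAt ℓ] AlgebraicClosure ℚ)),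
          (∀ h : H, g h = σ (f h)) → ((e g : JZero p)) = σ • (e f : JZero p) := by
  haveI : Fintype ↥(Submodule.torsionBy ℤ (JZero p) ((ℓ : ℤ) ^ k)) := Fintype.ofFinite _
  refine s19_of_TI_span p ℓ k A hA χ hmul ?_ hTI
  apply span_eq_top_of_injective χ hmul hone hinj
  rw [← Nat.card_eq_fintype_card]
  exact hcard

/-- **(TI) at `(p, ℓ, k)`**: `J₀(p)[ℓ^k]` is finite and has a family, indexed by itself, of
distinct characters each of which is a combination, with coefficients in a valuation subring `A`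
of `ℚ̄` over `ℓ`, of Galois-equivariant `A`-valued functions. -/
def TIAt (k : ℕ) : Prop :=
  Finite ↥(Submodule.torsionBy ℤ (JZero p) ((ℓ : ℤ) ^ k)) ∧
    ∃ (A : ValuationSubring (AlgebraicClosure ℚ)) (_ : A.LiesOverPrime ℓ)
      (χ : ↥(Submodule.torsionBy ℤ (JZero p) ((ℓ : ℤ) ^ k)) →
        ↥(Submodule.torsionBy ℤ (JZero p) ((ℓ : ℤ) ^ k)) → AlgebraicClosure ℚ),
      (∀ x u v, χ x (u + v) = χ x u * χ x v) ∧ (∀ x, χ x 0 = 1) ∧ Function.Injective χ ∧
      ∀ x, IsACombo A.toSubring (torsSmul p ((ℓ : ℤ) ^ k)) (χ x)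

/-- **S19 at `(p, ℓ, k)` from (TI) at `(p, ℓ, k)`** (the conclusion is the frozen statement of
S19, verbatim). -/
theorem s19_of_TIAt (k : ℕ) (hTI : TIAt p ℓ k) :
    ∃ (H : Type) (_ : CommRing H) (_ : HopfAlgebra (GaloisRep.ratLocalizedAt ℓ) H),
      Module.Finite (GaloisRep.ratLocalizedAt ℓ) H ∧ Module.Flat (GaloisRep.ratLocalizedAt ℓ) H ∧
      Coalgebra.IsCocomm (GaloisRep.ratLocalizedAt ℓ) H ∧
      ∃ e : WithConv (H →ₐ[GaloisRep.ratLocalizedAt ℓ] AlgebraicClosure ℚ) ≃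
          ↥(Submodule.torsionBy ℤ (JZero p) ((ℓ : ℤ) ^ k)),
        (∀ f g, e (f * g) = e f + e g) ∧
        ∀ (σ : AlgebraicClosure ℚ ≃ₐ[ℚ] AlgebraicClosure ℚ)
          (f g : WithConv (H →ₐ[GaloisRep.ratLocalizedAt ℓ] AlgebraicClosure ℚ)),
          (∀ h : H, g h = σ (f h)) → ((e g : JZero p)) = σ • (e f : JZero p) := by
  obtain ⟨hfin, A, hA, χ, hmul, hone, hinj, hTI'⟩ := hTI
  haveI := hfin
  haveI : Fintype ↥(Submodule.torsionBy ℤ (JZero p) ((ℓ : ℤ) ^ k)) := Fintype.ofFinite _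
  exact s19_of_TI p ℓ k A hA χ hmul hone hinj (by rw [Nat.card_eq_fintype_card]) hTI'

end S19

end

end Fermat.Agent.T6.helper83
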