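/-
T6 (S32), END WIRING (helper83): `GaloisRepAdic.IsFlatAt` from orders of functions on the finite
quotients of the representation.

`FlatPackage ρ p I` : a commutative `ℤ_(p)`-algebra `H`, free of rank `#(V / I V)`, with an
algebra homomorphism `ev : H → (V / I V → ℚ̄)` whose basis functions are linearly independent
over `ℚ̄`, consisting of Galois-equivariant functions, closed under the group law.

`isFlatAt_of_package` : finite residue field + `FlatPackage ρ p I` for every ideal `I` of finite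
index => `ρ.IsFlatAt p`.
-/
import Mathlib
import Fermat.Prelude.Def_GaloisRep_Flat
import Fermat.Agent.T6.helper83_HopfOrder

set_option autoImplicit false

namespace Fermat.Agent.T6.helper83

variable {A : Type} [CommRing A] [IsLocalRing A]

/-- **The package for flatness at one finite level.** -/
def FlatPackage (ρ : GaloisRepAdic A) (p : ℕ) (I : Ideal A) : Prop :=
  ∃ (H : Type) (_ : CommRing H) (_ : Algebra (GaloisRep.ratLocalizedAt p) H)
    (ev : H →ₐ[GaloisRep.ratLocalizedAt p]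
      ((ρ.V ⧸ (I • (⊤ : Submodule A ρ.V))) → AlgebraicClosure ℚ))
    (ι : Type) (_ : Fintype ι) (b : Module.Basis ι (GaloisRep.ratLocalizedAt p) H),
    Finite (ρ.V ⧸ (I • (⊤ : Submodule A ρ.V))) ∧
    LinearIndependent (AlgebraicClosure ℚ) (fun i => ev (b i)) ∧
    Fintype.card ι = Nat.card (ρ.V ⧸ (I • (⊤ : Submodule A ρ.V))) ∧
    (∀ h : H, ∃ (n : ℕ) (a c : Fin n → H),
      ∀ x y, ev h (x + y) = ∑ i, ev (a i) x * ev (c i) y) ∧
    (∀ h : H, ∃ h' : H, ∀ x, ev h' x = ev h (-x)) ∧
    (∀ h : H, ∃ r : GaloisRep.ratLocalizedAt p,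
      algebraMap (GaloisRep.ratLocalizedAt p) (AlgebraicClosure ℚ) r = ev h 0) ∧
    ∀ (σ : AlgebraicClosure ℚ ≃ₐ[ℚ] AlgebraicClosure ℚ) (h : H)
      (x : ρ.V ⧸ (I • (⊤ : Submodule A ρ.V))),
      ev h (ρ.levelAction I σ x) = σ (ev h x)

theorem algebraMap_ratLocalizedAt_injective' (p : ℕ) :
    Function.Injective
      (algebraMap (GaloisRep.ratLocalizedAt p) (AlgebraicClosure ℚ)) := by
  intro a b hab
  have h1 : algebraMap ℚ (AlgebraicClosure ℚ) (a : ℚ) = algebraMap ℚ (AlgebraicClosure ℚ) (b : ℚ) :=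
    hab
  exact Subtype.ext ((algebraMap ℚ (AlgebraicClosure ℚ)).injective h1)

/-- one level of `IsFlatAt` from the package -/
theorem flat_level_of_package (ρ : GaloisRepAdic A) (p : ℕ) (I : Ideal A)
    (hP : FlatPackage ρ p I) :
    ∃ (H : Type) (_ : CommRing H) (_ : HopfAlgebra (GaloisRep.ratLocalizedAt p) H),
      Module.Finite (GaloisRep.ratLocalizedAt p) H ∧
      Module.Flat (GaloisRep.ratLocalizedAt p) H ∧
      Coalgebra.IsCocomm (GaloisRep.ratLocalizedAt p) H ∧
      ∃ e : WithConv (H →ₐ[GaloisRep.ratLocalizedAt p] AlgebraicClosure ℚ) ≃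
          (ρ.V ⧸ (I • (⊤ : Submodule A ρ.V))),
        (∀ f g : WithConv (H →ₐ[GaloisRep.ratLocalizedAt p] AlgebraicClosure ℚ),
          e (f * g) = e f + e g) ∧
        ∀ (σ : AlgebraicClosure ℚ ≃ₐ[ℚ] AlgebraicClosure ℚ)
          (f g : WithConv (H →ₐ[GaloisRep.ratLocalizedAt p] AlgebraicClosure ℚ)),
          (∀ h : H, g h = σ (f h)) → e g = ρ.levelAction I σ (e f) := by
  obtain ⟨H, _, _, ev, ι, _, b, hfin, hli, hcard, hcomul, hanti, hcounit, hequiv⟩ := hP
  exact exists_flat_model ev b (algebraMap_ratLocalizedAt_injective' p) hli hcard hcomul hanti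
    hcounit (fun σ : AlgebraicClosure ℚ ≃ₐ[ℚ] AlgebraicClosure ℚ => fun z => σ z)
    (fun σ => fun x => ρ.levelAction I σ x) hequiv

/-- **`IsFlatAt` from the packages.** -/
theorem isFlatAt_of_package (ρ : GaloisRepAdic A) (p : ℕ)
    (hres : Finite (IsLocalRing.ResidueField A))
    (hP : ∀ I : Ideal A, Finite (A ⧸ I) → FlatPackage ρ p I) : ρ.IsFlatAt p :=
  ⟨hres, fun I hI => flat_level_of_package ρ p I (hP I hI)⟩

end Fermat.Agent.T6.helper83
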