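import Mathlib
import Fermat.Agent.P3.helper67_TateGeom
import Fermat.Agent.T6.helper75_ClosureWire
import Fermat.Agent.T6.helper85_FinT6

/-!
# T6 / S32, box [EMB] (helper85): `Λ / p^k Λ` embeds into `J₀(M)[p^k]`

`D : TateGeom p N S M hNM` (P3 `helper67`), `k : ℕ`.

* `powSub D k`  : the `𝔸`-submodule `p^k Λ` of `Λ`;
* `Lk D k`      : the `𝔸`-module `Λ / p^k Λ`;
* `rA D g`      : the Galois action on `Λ` as an `𝔸`-linear map; `actL D k g` : the induced
                  `𝔸`-linear action on `Lk D k`;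
* `proj_eq_zero_iff` : `D.proj k v = 0 ↔ v ∈ powSub D k`;
* `emb D k`     : the additive map `Lk D k → J₀(M)[p^k]` induced by `D.proj k`;
                  `emb_injective`, `emb_actL` (equivariance for `helper33.torsAct`);
* `finite_Lk`   : `Lk D k` is finite;
* `flatShape_Lk` : the flat shape (`helper75.FlatShape`) of `J₀(M)[p^k]` passes to `Lk D k`;
* `embOf`, `embOf_injective`, `embOf_act`, `finite_of_model`, `flatShape_of_model` : the same
  for ANY model `π : Λ →+ L` of `Λ / p^k Λ` (`π` surjective with kernel `p^k Λ`).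
-/

set_option autoImplicit false
set_option linter.unusedSectionVars false
set_option linter.style.haveILetI false
set_option linter.style.longLine false

noncomputable section

namespace Fermat.Agent.T6.helper85

open ModularCurve Fermat.Agent.P3 Fermat.Agent.P3.helper67
open Fermat.Agent.T6.helper33 (torsAct coe_torsAct torsAct_surjective torsAct_zero)
open Fermat.Agent.T6.helper75 (FlatShape)

variable {p : ℕ} [Fact p.Prime] {N : ℕ} [NeZero N] {S : Finset ℕ} {M : ℕ} [NeZero M]
  {hNM : N ∣ M} (D : TateGeom p N S M hNM) (k : ℕ)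

/-- `p^k Λ` as an `𝔸`-submodule of `Λ`. -/
def powSub : Submodule D.𝔸 D.Λ where
  carrier := {v | ∃ w : D.Λ, v = (p : ℤ_[p]) ^ k • w}
  add_mem' := by
    rintro _ _ ⟨w, rfl⟩ ⟨w', rfl⟩
    exact ⟨w + w', (smul_add _ _ _).symm⟩
  zero_mem' := ⟨0, (smul_zero _).symm⟩
  smul_mem' := by
    rintro a _ ⟨w, rfl⟩
    exact ⟨a • w, smul_comm a ((p : ℤ_[p]) ^ k) w⟩

theorem mem_powSub {v : D.Λ} : v ∈ powSub D k ↔ ∃ w : D.Λ, v = (p : ℤ_[p]) ^ k • w := Iff.rfl

/-- the `𝔸`-module `Λ / p^k Λ`. -/
abbrev Lk : Type := D.Λ ⧸ powSub D k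

theorem pow_smul_eq_nsmul (w : D.Λ) : (p : ℤ_[p]) ^ k • w = (p ^ k : ℕ) • w := by
  rw [← Nat.cast_smul_eq_nsmul ℤ_[p] (p ^ k) w]
  push_cast
  rfl

/-- the kernel of `D.proj k` is `p^k Λ`. -/
theorem proj_eq_zero_iff (v : D.Λ) : D.proj k v = 0 ↔ v ∈ powSub D k := by
  constructor
  · intro h
    exact D.exists_smul_of_proj_eq_zero k v h
  · rintro ⟨w, rfl⟩
    rw [pow_smul_eq_nsmul, map_nsmul]
    exact D.pow_smul_proj k w

theorem proj_mem_torsionBy (v : D.Λ) :
    D.proj k v ∈ Submodule.torsionBy ℤ (JZero M) ((p : ℤ) ^ k) := by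
  rw [Submodule.mem_torsionBy_iff]
  have h := D.pow_smul_proj k v
  have h2 : ((p : ℤ) ^ k) • D.proj k v = (p ^ k : ℕ) • D.proj k v := by
    rw [← natCast_zsmul]
    push_cast
    rfl
  rw [h2, h]

/-- `D.proj k` with values in the torsion subgroup. -/
def projTors : D.Λ →+ ↥(Submodule.torsionBy ℤ (JZero M) ((p : ℤ) ^ k)) where
  toFun v := ⟨D.proj k v, proj_mem_torsionBy D k v⟩
  map_zero' := Subtype.ext (map_zero _)
  map_add' v w := Subtype.ext (map_add _ v w)

@[simp] theorem coe_projTors (v : D.Λ) : ((projTors D k v : _) : JZero M) = D.proj k v := rfl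

theorem projTors_eq_zero_iff (v : D.Λ) : projTors D k v = 0 ↔ v ∈ powSub D k := by
  rw [← proj_eq_zero_iff]
  constructor
  · intro h
    have := congrArg Subtype.val h
    simpa using this
  · intro h
    exact Subtype.ext h

theorem projTors_r (g : GQ) (v : D.Λ) :
    projTors D k (D.r g v) = torsAct ((p : ℤ) ^ k) g (projTors D k v) :=
  Subtype.ext (D.proj_r k g v)

/-! ### model-free form -/

section Model

variable {L : Type} [AddCommGroup L] (π : D.Λ →+ L) (hπ : Function.Surjective π)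
  (hker : ∀ v : D.Λ, π v = 0 ↔ v ∈ powSub D k)

/-- the embedding of a model `L` of `Λ / p^k Λ` into `J₀(M)[p^k]`. -/
def embOf : L →+ ↥(Submodule.torsionBy ℤ (JZero M) ((p : ℤ) ^ k)) :=
  AddMonoidHom.liftOfRightInverse π (Function.surjInv hπ) (Function.rightInverse_surjInv hπ)
    ⟨projTors D k, fun v hv => (projTors_eq_zero_iff D k v).mpr ((hker v).mp hv)⟩

theorem embOf_apply (v : D.Λ) : embOf D k π hπ hker (π v) = projTors D k v :=
  AddMonoidHom.liftOfRightInverse_comp_apply π (Function.surjInv hπ)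
    (Function.rightInverse_surjInv hπ) _ v

theorem embOf_injective : Function.Injective (embOf D k π hπ hker) := by
  rw [injective_iff_map_eq_zero]
  intro x hx
  obtain ⟨v, rfl⟩ := hπ x
  rw [embOf_apply] at hx
  exact (hker v).mpr ((projTors_eq_zero_iff D k v).mp hx)

/-- equivariance of the embedding, for any action on `L` compatible with `π`. -/
theorem embOf_act (actL : GQ → L → L) (hact : ∀ g v, actL g (π v) = π (D.r g v)) (g : GQ)
    (x : L) : embOf D k π hπ hker (actL g x) = torsAct ((p : ℤ) ^ k) g (embOf D k π hπ hker x) := by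
  obtain ⟨v, rfl⟩ := hπ x
  rw [hact, embOf_apply, embOf_apply, projTors_r]

include D hπ hker in
theorem finite_of_model : Finite L :=
  haveI := finite_torsionBy_jZero M p k
  Finite.of_injective _ (embOf_injective D k π hπ hker)

include hπ hker in
/-- the flat shape of `J₀(M)[p^k]` passes to any model of `Λ / p^k Λ`. -/
theorem flatShape_of_model (actL : GQ → L → L) (hact : ∀ g v, actL g (π v) = π (D.r g v))
    (hX : FlatShape p (torsAct (J := JZero M) ((p : ℤ) ^ k))) : FlatShape p actL :=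
  haveI := finite_torsionBy_jZero M p k
  FlatShape.sub (torsAct_surjective _) (torsAct_zero _) hX (embOf D k π hπ hker)
    (embOf_injective D k π hπ hker) (embOf_act D k π hπ hker actL hact)

end Model

/-! ### the model `Lk D k` -/

/-- the Galois action on `Λ`, as an `𝔸`-linear map. -/
def rA (g : GQ) : D.Λ →ₗ[D.𝔸] D.Λ where
  toFun v := D.r g v
  map_add' v w := map_add _ v w
  map_smul' a v := D.r_smul g a v

@[simp] theorem rA_apply (g : GQ) (v : D.Λ) : rA D g v = D.r g v := rfl

theorem rA_mem_powSub (g : GQ) {v : D.Λ} (hv : v ∈ powSub D k) : rA D g v ∈ powSub D k := by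
  obtain ⟨w, rfl⟩ := hv
  exact ⟨D.r g w, by rw [rA_apply, map_smul]⟩

/-- the Galois action on `Λ / p^k Λ`, as an `𝔸`-linear map. -/
def actL (g : GQ) : Lk D k →ₗ[D.𝔸] Lk D k :=
  Submodule.mapQ (powSub D k) (powSub D k) (rA D g) fun _ hv => rA_mem_powSub D k g hv

@[simp] theorem actL_mk (g : GQ) (v : D.Λ) :
    actL D k g (Submodule.Quotient.mk v) = Submodule.Quotient.mk (D.r g v) := rfl

theorem actL_one (x : Lk D k) : actL D k 1 x = x := by
  obtain ⟨v, rfl⟩ := Submodule.Quotient.mk_surjective _ x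
  rw [actL_mk, map_one]
  rfl

theorem actL_mul (g g' : GQ) (x : Lk D k) : actL D k (g * g') x = actL D k g (actL D k g' x) := by
  obtain ⟨v, rfl⟩ := Submodule.Quotient.mk_surjective _ x
  rw [actL_mk, actL_mk, actL_mk, map_mul]
  rfl

/-- the Galois action on `Λ / p^k Λ` as a monoid homomorphism to `End_𝔸`. -/
def actLHom : GQ →* Module.End D.𝔸 (Lk D k) where
  toFun g := actL D k g
  map_one' := LinearMap.ext fun x => actL_one D k x
  map_mul' g g' := LinearMap.ext fun x => actL_mul D k g g' x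

@[simp] theorem actLHom_apply (g : GQ) (x : Lk D k) : actLHom D k g x = actL D k g x := rfl

/-- the quotient map `Λ → Λ / p^k Λ` as an additive map. -/
def mkL : D.Λ →+ Lk D k := (Submodule.mkQ (powSub D k)).toAddMonoidHom

@[simp] theorem mkL_apply (v : D.Λ) : mkL D k v = Submodule.Quotient.mk v := rfl

theorem mkL_surjective : Function.Surjective (mkL D k) := Submodule.Quotient.mk_surjective _

theorem mkL_eq_zero_iff (v : D.Λ) : mkL D k v = 0 ↔ v ∈ powSub D k :=
  Submodule.Quotient.mk_eq_zero _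

/-- **[EMB]** the embedding `Λ / p^k Λ → J₀(M)[p^k]`. -/
def emb : Lk D k →+ ↥(Submodule.torsionBy ℤ (JZero M) ((p : ℤ) ^ k)) :=
  embOf D k (mkL D k) (mkL_surjective D k) (mkL_eq_zero_iff D k)

theorem emb_mk (v : D.Λ) :
    emb D k (Submodule.Quotient.mk v) = projTors D k v :=
  embOf_apply D k (mkL D k) (mkL_surjective D k) (mkL_eq_zero_iff D k) v

theorem coe_emb_mk (v : D.Λ) :
    ((emb D k (Submodule.Quotient.mk v) : _) : JZero M) = D.proj k v := by
  rw [emb_mk]
  rfl

theorem emb_injective : Function.Injective (emb D k) :=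
  embOf_injective D k (mkL D k) (mkL_surjective D k) (mkL_eq_zero_iff D k)

/-- **[EMB]** equivariance. -/
theorem emb_actL (g : GQ) (x : Lk D k) :
    emb D k (actL D k g x) = torsAct ((p : ℤ) ^ k) g (emb D k x) :=
  embOf_act D k (mkL D k) (mkL_surjective D k) (mkL_eq_zero_iff D k)
    (fun g x => actL D k g x) (fun _ _ => rfl) g x

/-- **[EMB]** finiteness. -/
theorem finite_Lk : Finite (Lk D k) :=
  finite_of_model D k (mkL D k) (mkL_surjective D k) (mkL_eq_zero_iff D k)

/-- `p^k` kills `Λ / p^k Λ`. -/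
theorem pow_smul_Lk (x : Lk D k) : (p ^ k : ℕ) • x = 0 := by
  obtain ⟨v, rfl⟩ := Submodule.Quotient.mk_surjective _ x
  rw [← Submodule.Quotient.mk_smul, Submodule.Quotient.mk_eq_zero]
  exact ⟨v, (pow_smul_eq_nsmul D k v).symm⟩

/-- **[EMB]** the flat shape of `J₀(M)[p^k]` passes to `Λ / p^k Λ`. -/
theorem flatShape_Lk (hX : FlatShape p (torsAct (J := JZero M) ((p : ℤ) ^ k))) :
    FlatShape p (fun g (x : Lk D k) => actL D k g x) :=
  flatShape_of_model D k (mkL D k) (mkL_surjective D k) (mkL_eq_zero_iff D k)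
    (fun g x => actL D k g x) (fun _ _ => rfl) hX

end Fermat.Agent.T6.helper85

end
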