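/-
T6 [W1-WR] (helper87): **Weil reciprocity** for a function field of one variable over an
algebraically closed field of characteristic zero - assembly.

`weilRec_of_finite : WeilRec K F` for `F` finite over `K(x)`, `x` transcendental.

Route (`f, g ≠ 0` with disjoint divisors, `g` non-constant, `F0 = K(g)`, `N = N_{F/F0}`):
  `f(div g) = f(π^* div_{F0} g) = N(f)(div_{F0} g)`      (value of a norm, helper48 `normVal`)
  `        = g(div_{F0} N f)`                            (the projective line, `weilRec_rat`)
  `        = g(π_* div f) = g(div f)`                    (norm formula, helper58 `FFExt`).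
-/
import Mathlib
import Fermat.Agent.T6.helper87_WeilP1
import Fermat.Agent.T6.helper48_NormVal
import Fermat.Agent.T6.helper98_CycCover

set_option autoImplicit false
set_option linter.unusedSectionVars false
set_option linter.unusedVariables false
set_option linter.style.haveILetI false
set_option linter.style.longLine false

noncomputable section

open AlgebraicCurve Polynomial IntermediateField
open Fermat.Agent.T6.helper26
open Fermat.Agent.P2.helper74 (RiemannSetting)

namespace Fermat.Agent.T6.helper87

/-! ### Field theory: every transcendental element is a separating coordinate -/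

section Fin

universe uK uF

variable {K : Type uK} {F : Type uF} [Field K] [Field F] [Algebra K F]

/-- the generator of `K(g)` generates -/
theorem adjoin_gen_eq_top (g : F) :
    K⟮AdjoinSimple.gen K g⟯ = (⊤ : IntermediateField K K⟮g⟯) := by
  apply IntermediateField.map_injective (K⟮g⟯.val)
  rw [IntermediateField.adjoin_map, Set.image_singleton, ← AlgHom.fieldRange_eq_map,
    IntermediateField.fieldRange_val]
  rfl

theorem isGen_gen {g : F} (hg : Transcendental K g) : IsGen K (AdjoinSimple.gen K g) :=
  ⟨(transcendental_algebraMap_iff (algebraMap K⟮g⟯ F).injective).mp hg, adjoin_gen_eq_top g⟩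

/-- a function field of one variable is finite over `K(g)` for every transcendental `g` -/
theorem finiteDimensional_adjoin_of_transcendental (x : F) (hx : Transcendental K x)
    [FiniteDimensional K⟮x⟯ F] (g : F) (hg : Transcendental K g) :
    FiniteDimensional K⟮g⟯ F := by
  -- `{x}` is a transcendence basis
  have hxAI : AlgebraicIndependent K (fun _ : PUnit.{uF + 1} => x) :=
    algebraicIndependent_unique_type_iff.mpr hx
  have hgAI : AlgebraicIndependent K (fun _ : PUnit.{uF + 1} => g) :=
    algebraicIndependent_unique_type_iff.mpr hg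
  have hxalg : Algebra.IsAlgebraic (Algebra.adjoin K (Set.range fun _ : PUnit.{uF + 1} => x)) F := by
    rw [Set.range_const, ← IntermediateField.isAlgebraic_adjoin_iff_top]
    exact Algebra.IsAlgebraic.of_finite K⟮x⟯ F
  have hxB : IsTranscendenceBasis K (fun _ : PUnit.{uF + 1} => x) :=
    hxAI.isTranscendenceBasis_iff_isAlgebraic.mpr hxalg
  have htr : Cardinal.mk PUnit.{uF + 1} = Algebra.trdeg K F := hxB.cardinalMk_eq_trdeg
  have hgB : IsTranscendenceBasis K (fun _ : PUnit.{uF + 1} => g) := by
    apply hgAI.isTranscendenceBasis_of_trdeg_le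
    · rw [← htr]
      exact Cardinal.lt_aleph0_of_finite PUnit.{uF + 1}
    · rw [← htr]
  have hgalg : Algebra.IsAlgebraic K⟮g⟯ F := by
    have := hgB.isAlgebraic_field
    rwa [Set.range_const] at this
  -- finite generation
  haveI : Algebra.EssFiniteType K K⟮x⟯ :=
    IntermediateField.essFiniteType_iff.mpr
      (IntermediateField.fg_adjoin_of_finite (Set.finite_singleton x))
  haveI : Algebra.EssFiniteType K F := Algebra.EssFiniteType.comp K K⟮x⟯ F
  haveI : Algebra.EssFiniteType K⟮g⟯ F := Algebra.EssFiniteType.of_comp K K⟮g⟯ F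
  exact Algebra.finite_of_essFiniteType_of_isAlgebraic

/-- algebraic elements are constants -/
theorem exists_eq_algebraMap_of_isAlgebraic [IsAlgClosed K] {g : F} (hg : IsAlgebraic K g) :
    ∃ a : K, g = algebraMap K F a := by
  have hint : IsIntegral K g := hg.isIntegral
  have hirr := minpoly.irreducible hint
  have hdeg := IsAlgClosed.degree_eq_one_of_irreducible K hirr
  obtain ⟨a, ha⟩ := minpoly.mem_range_of_degree_eq_one K g hdeg
  exact ⟨a, ha.symm⟩

end Fin

/-! ### Values and divisors in a finite extension of function fields -/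

section DVal

variable {K F : Type*} [Field K] [Field F] [Algebra K F]

theorem disj_of_single_add {f : F} {w : Place K F} {n : ℤ} {D : Divisor K F}
    (hw : w ∉ D.support) (hn : n ≠ 0) (h : Disj f (Finsupp.single w n + D)) :
    Disj f (Finsupp.single w n) ∧ Disj f D := by
  classical
  have hD : D w = 0 := Finsupp.notMem_support_iff.mp hw
  constructor
  · refine Disj.single h.1 (h.2 w ?_) n
    rw [Finsupp.add_apply, Finsupp.single_eq_same, hD, add_zero]
    exact hn
  · refine ⟨h.1, fun P hP => h.2 P ?_⟩
    have hPw : P ≠ w := by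
      rintro rfl
      exact hP hD
    rw [Finsupp.add_apply, Finsupp.single_eq_of_ne hPw, zero_add]
    exact hP

theorem dval_sum_single (hS : RiemannSetting K F) {f : F} (hf : f ≠ 0) (s : Finset (Place K F))
    (n : Place K F → ℤ) (h : ∀ w ∈ s, w.ord f = 0) :
    Disj f (∑ w ∈ s, Finsupp.single w (n w)) ∧
      dval f (∑ w ∈ s, Finsupp.single w (n w)) = ∏ w ∈ s, pval w f ^ n w := by
  classical
  induction s using Finset.induction_on with
  | empty =>
    exact ⟨Disj.zero_right hf, by rw [Finset.sum_empty, dval_zero_right, Finset.prod_empty]⟩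
  | insert a s ha ih =>
    have ih' := ih (fun w hw => h w (Finset.mem_insert_of_mem hw))
    have h1 : Disj f (Finsupp.single a (n a)) :=
      Disj.single hf (h a (Finset.mem_insert_self a s)) _
    rw [Finset.sum_insert ha, Finset.prod_insert ha]
    exact ⟨h1.add ih'.1, by rw [dval_add hS h1 ih'.1, dval_single, ih'.2]⟩

end DVal

section Cover

variable {K F F' : Type*} [Field K] [Field F] [Field F'] [Algebra K F] [Algebra K F']
  [Algebra F F'] [IsScalarTower K F F'] [FiniteDimensional F F'] [HasPrincipalDivisors K F']

theorem ord_algebraMap_eq_zero_iff (Q : Place K F') (y : F) :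
    Q.ord (algebraMap F F' y) = 0 ↔ (Q.restrict F).ord y = 0 := by
  rw [Q.ord_restrict]
  have he : (Q.ramificationIndex F : ℤ) ≠ 0 := by
    exact_mod_cast (Q.ramificationIndex_pos (F := F)).ne'
  constructor
  · intro h
    exact (mul_eq_zero.mp h).resolve_left he
  · intro h
    rw [h, mul_zero]

theorem ord_algebraMap_pos_iff (Q : Place K F') (y : F) :
    0 < Q.ord (algebraMap F F' y) ↔ 0 < (Q.restrict F).ord y := by
  rw [Q.ord_restrict]
  have he : (0 : ℤ) < (Q.ramificationIndex F : ℤ) := by
    exact_mod_cast Q.ramificationIndex_pos (F := F)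
  constructor
  · intro h
    exact (mul_pos_iff_of_pos_left he).mp h
  · intro h
    exact mul_pos he h

/-- `y(Q) = y(Q ∩ F)` for `y ∈ F` -/
theorem isVal_algebraMap_iff (Q : Place K F') (y : F) (a : K) :
    IsVal Q (algebraMap F F' y) a ↔ IsVal (Q.restrict F) y a := by
  unfold IsVal
  have e : algebraMap F F' y - algebraMap K F' a = algebraMap F F' (y - algebraMap K F a) := by
    rw [map_sub, ← IsScalarTower.algebraMap_apply]
  have e2 : algebraMap F F' y = algebraMap K F' a ↔ y = algebraMap K F a := by
    rw [IsScalarTower.algebraMap_apply K F F']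
    exact (algebraMap F F').injective.eq_iff
  rw [e, ord_algebraMap_pos_iff, e2]

theorem pval_algebraMap_restrict (Q : Place K F') (y : F) :
    pval Q (algebraMap F F' y) = pval (Q.restrict F) y := by
  by_cases h : ∃ a, IsVal (Q.restrict F) y a
  · obtain ⟨a, ha⟩ := h
    rw [pval_eq_of_isVal ha, pval_eq_of_isVal ((isVal_algebraMap_iff Q y a).mpr ha)]
  · rw [pval_of_not_exists h]
    apply pval_of_not_exists
    rintro ⟨a, ha⟩
    exact h ⟨a, (isVal_algebraMap_iff Q y a).mp ha⟩

/-- `div (y) = π^* div_F (y)` for `y ∈ F` -/
theorem divOf_algebraMap_eq_pullback (hS : RiemannSetting K F) (y : F) :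
    divOf K (algebraMap F F' y) = Divisor.pullback F' (divOf K y) :=
  divOf_eq_of_forall fun Q => by
    rw [Divisor.pullback_apply, divOf_apply hS, Q.ord_restrict]

theorem disj_pushforward {y : F} {D' : Divisor K F'} (h : Disj (algebraMap F F' y) D') :
    Disj y (Divisor.pushforward F D') := by
  classical
  have hy : y ≠ 0 := fun h0 => h.1 (by rw [h0, map_zero])
  refine ⟨hy, fun v hv => ?_⟩
  rw [Divisor.pushforward_apply] at hv
  obtain ⟨w, hw, hne⟩ := Finset.exists_ne_zero_of_sum_ne_zero hv
  have hwv : w.restrict F = v := by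
    by_contra h1
    exact hne (if_neg h1)
  have h0 := h.2 w (Finsupp.mem_support_iff.mp hw)
  rw [← hwv]
  exact (ord_algebraMap_eq_zero_iff w y).mp h0

variable [CharZero F] [IsAlgClosed K]

/-- `y(D') = y(π_* D')` for `y ∈ F` -/
theorem dval_algebraMap_eq (hS : RiemannSetting K F) (hS' : RiemannSetting K F') (y : F)
    (D' : Divisor K F') (h : Disj (algebraMap F F' y) D') :
    dval (algebraMap F F' y) D' = dval y (Divisor.pushforward F D') := by
  classical
  induction D' using Finsupp.induction with
  | zero => rw [map_zero, dval_zero_right, dval_zero_right]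
  | single_add w n D hw hn ih =>
    obtain ⟨h1, h2⟩ := disj_of_single_add hw hn h
    have hin : w.inertiaDeg F = 1 :=
      Fermat.Agent.P3.helper58.inertiaDeg_eq_one (F := F) hS.deg_one hS'.deg_one w
    rw [dval_add hS' h1 h2, map_add, dval_add hS (disj_pushforward h1) (disj_pushforward h2),
      ih h2, dval_single, Divisor.pushforward_single, dval_single, hin, Nat.cast_one, mul_one,
      pval_algebraMap_restrict]

theorem norm_ne_zero' {f' : F'} (hf : f' ≠ 0) : Algebra.norm F f' ≠ 0 := by
  rw [Ne, Algebra.norm_eq_zero_iff]
  exact hf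

/-- `div_F (N f') = π_* div (f')` -/
theorem divOf_norm_eq_pushforward (hS : RiemannSetting K F) (hS' : RiemannSetting K F')
    {f' : F'} (hf : f' ≠ 0) :
    divOf K (Algebra.norm F f') = Divisor.pushforward F (divOf K f') :=
  divOf_eq_of_forall fun v =>
    Fermat.Agent.P3.helper58.pushforwardNormFormula_of_surjective
      (fun v => Fermat.Agent.T6.helper98.residue_surjective hS v) hS'.deg_one f' hf
      (divOf K f') (fun w => divOf_apply hS' f' w) v

theorem ord_norm_eq_zero (hS : RiemannSetting K F) {f' : F'} (hf : f' ≠ 0) (v : Place K F)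
    (h : ∀ w ∈ v.fiber F', w.ord f' = 0) : v.ord (Algebra.norm F f') = 0 := by
  rw [← Fermat.Agent.P3.helper58.sum_fiber_ord_eq F' v
    (Fermat.Agent.T6.helper98.residue_surjective hS v) hf]
  exact Finset.sum_eq_zero h

theorem disj_norm (hS : RiemannSetting K F) {f' : F'} {D : Divisor K F}
    (h : Disj f' (Divisor.pullback F' D)) : Disj (Algebra.norm F f') D := by
  refine ⟨norm_ne_zero' h.1, fun v hv => ord_norm_eq_zero hS h.1 v fun w hw => h.2 w ?_⟩
  rw [Divisor.pullback_apply, Place.mem_fiber.mp hw]
  have he : (w.ramificationIndex F : ℤ) ≠ 0 := by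
    exact_mod_cast (w.ramificationIndex_pos (F := F)).ne'
  exact mul_ne_zero he hv

theorem normVal_single (hS : RiemannSetting K F) (hS' : RiemannSetting K F') (f' : F')
    (v : Place K F) (n : ℤ) (hn : n ≠ 0)
    (h : Disj f' (Divisor.pullback F' (Finsupp.single v n))) :
    dval (Algebra.norm F f') (Finsupp.single v n)
      = dval f' (Divisor.pullback F' (Finsupp.single v n)) := by
  classical
  have h0 : ∀ w ∈ v.fiber F', w.ord f' = 0 := by
    intro w hw
    refine h.2 w ?_
    rw [Divisor.pullback_single_apply_of_restrict_eq (Place.mem_fiber.mp hw)]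
    have he : (w.ramificationIndex F : ℤ) ≠ 0 := by
      exact_mod_cast (w.ramificationIndex_pos (F := F)).ne'
    exact mul_ne_zero hn he
  rw [dval_single, Fermat.Agent.T6.helper48.normVal F' v hS hS' f' h.1 h0,
    Divisor.pullback_single, (dval_sum_single hS' h.1 _ _ h0).2, ← Finset.prod_zpow]
  refine Finset.prod_congr rfl fun w _ => ?_
  rw [← zpow_natCast, ← zpow_mul, mul_comm]

/-- **the value of a norm on divisors**: `N(f')(D) = f'(π^* D)` -/
theorem normVal_dval (hS : RiemannSetting K F) (hS' : RiemannSetting K F') (f' : F')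
    (D : Divisor K F) (h : Disj f' (Divisor.pullback F' D)) :
    dval (Algebra.norm F f') D = dval f' (Divisor.pullback F' D) := by
  classical
  induction D using Finsupp.induction with
  | zero => rw [map_zero, dval_zero_right, dval_zero_right]
  | single_add v n D hv hn ih =>
    have hDv : D v = 0 := Finsupp.notMem_support_iff.mp hv
    have he : ∀ w : Place K F', (w.ramificationIndex F : ℤ) ≠ 0 := fun w => by
      exact_mod_cast (w.ramificationIndex_pos (F := F)).ne'
    have h1 : Disj f' (Divisor.pullback F' (Finsupp.single v n)) := by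
      refine ⟨h.1, fun w hw => h.2 w ?_⟩
      rw [Divisor.pullback_apply] at hw ⊢
      have hwv : w.restrict F = v := by
        by_contra h1
        rw [Finsupp.single_eq_of_ne h1, mul_zero] at hw
        exact hw rfl
      rw [hwv, Finsupp.add_apply, Finsupp.single_eq_same, hDv, add_zero]
      exact mul_ne_zero (he w) hn
    have h2 : Disj f' (Divisor.pullback F' D) := by
      refine ⟨h.1, fun w hw => h.2 w ?_⟩
      rw [Divisor.pullback_apply] at hw ⊢
      have hD : D (w.restrict F) ≠ 0 := fun h0 => hw (by rw [h0, mul_zero])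
      have hwv : w.restrict F ≠ v := by
        intro h1
        rw [h1] at hD
        exact hD hDv
      rw [Finsupp.add_apply, Finsupp.single_eq_of_ne hwv, zero_add]
      exact hw
    rw [dval_add hS (disj_norm hS h1) (disj_norm hS h2), map_add, dval_add hS' h1 h2, ih h2,
      normVal_single hS hS' f' v n hn h1]

end Cover

/-! ### Weil reciprocity -/

section Main

variable {K F : Type*} [Field K] [Field F] [Algebra K F] [IsAlgClosed K] [CharZero K]

omit [CharZero K] [IsAlgClosed K] in
/-- reciprocity against a constant -/
theorem weilRec_const (hS : RiemannSetting K F) (f : F) {a : K} (ha : a ≠ 0) :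
    dval f (divOf K (algebraMap K F a)) = dval (algebraMap K F a) (divOf K f) := by
  rw [divOf_algebraMap, dval_zero_right, dval_algebraMap hS ha, degree_divOf hS, zpow_zero]

/-- reciprocity against a non-constant function `g`, through `K(g)` -/
theorem weilRec_of_transcendental (hS : RiemannSetting K F) (x : F) (hx : Transcendental K x)
    [FiniteDimensional K⟮x⟯ F] {f g : F} (hf : f ≠ 0) (hg : Transcendental K g)
    (hd : ∀ P : Place K F, P.ord f = 0 ∨ P.ord g = 0) :
    dval f (divOf K g) = dval g (divOf K f) := by
  haveI : FiniteDimensional K⟮g⟯ F := finiteDimensional_adjoin_of_transcendental x hx g hg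
  haveI : CharZero K⟮g⟯ := charZero_of_injective_algebraMap (algebraMap K K⟮g⟯).injective
  haveI : HasPrincipalDivisors K F := hS.principal
  have hG : IsGen K (AdjoinSimple.gen K g) := isGen_gen hg
  have hS0 : RiemannSetting K K⟮g⟯ := riemannSetting_rat hG
  have hg0 : g ≠ 0 := by
    rintro rfl
    exact hg isAlgebraic_zero
  have e : algebraMap K⟮g⟯ F (AdjoinSimple.gen K g) = g := rfl
  have hdisj : Disj f (divOf K g) := disj_divOf_of_forall hS hf hd
  have hdisj' : Disj g (divOf K f) := disj_divOf_of_forall hS hg0 (fun P => (hd P).symm)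
  have hpb : divOf K g = Divisor.pullback F (divOf K (AdjoinSimple.gen K g)) := by
    conv_lhs => rw [← e]
    exact divOf_algebraMap_eq_pullback hS0 _
  have hN0 : Algebra.norm K⟮g⟯ f ≠ 0 := norm_ne_zero' hf
  have hd0 : ∀ P : Place K K⟮g⟯,
      P.ord (Algebra.norm K⟮g⟯ f) = 0 ∨ P.ord (AdjoinSimple.gen K g) = 0 := by
    intro P
    by_cases hP : P.ord (AdjoinSimple.gen K g) = 0
    · exact Or.inr hP
    · left
      apply ord_norm_eq_zero hS0 hf P
      intro w hw
      refine (hd w).resolve_right ?_
      rw [← e, ord_algebraMap_eq_zero_iff, Place.mem_fiber.mp hw]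
      exact hP
  calc dval f (divOf K g)
      = dval f (Divisor.pullback F (divOf K (AdjoinSimple.gen K g))) := by rw [← hpb]
    _ = dval (Algebra.norm K⟮g⟯ f) (divOf K (AdjoinSimple.gen K g)) :=
        (normVal_dval hS0 hS f _ (by rw [← hpb]; exact hdisj)).symm
    _ = dval (AdjoinSimple.gen K g) (divOf K (Algebra.norm K⟮g⟯ f)) := weilRec_rat hG hN0 hd0
    _ = dval (AdjoinSimple.gen K g) (Divisor.pushforward K⟮g⟯ (divOf K f)) := by
        rw [divOf_norm_eq_pushforward hS0 hS hf]
    _ = dval (algebraMap K⟮g⟯ F (AdjoinSimple.gen K g)) (divOf K f) :=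
        (dval_algebraMap_eq hS0 hS _ _ (by rw [e]; exact hdisj')).symm
    _ = dval g (divOf K f) := by rw [e]

/-- **Weil reciprocity** for a function field of one variable (`RiemannSetting` given) -/
theorem weilRec_of_riemannSetting (hS : RiemannSetting K F) (x : F) (hx : Transcendental K x)
    [FiniteDimensional K⟮x⟯ F] : WeilRec K F := by
  intro f g hf hg hd
  by_cases hgt : Transcendental K g
  · exact weilRec_of_transcendental hS x hx hf hgt hd
  · obtain ⟨a, rfl⟩ := exists_eq_algebraMap_of_isAlgebraic (not_not.mp hgt)
    have ha : a ≠ 0 := by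
      rintro rfl
      exact hg (map_zero _)
    exact weilRec_const hS f ha

/-- **Weil reciprocity** [W1] for every function field of one variable over an algebraically
closed field of characteristic zero: `f(div g) = g(div f)` for `f, g ≠ 0` with disjoint
divisors. -/
theorem weilRec_of_finite (x : F) (hx : Transcendental K x) [FiniteDimensional K⟮x⟯ F] :
    WeilRec K F := by
  haveI : CharZero K⟮x⟯ := charZero_of_injective_algebraMap (algebraMap K K⟮x⟯).injective
  exact weilRec_of_riemannSetting
    (Fermat.Agent.P2.helper74.riemannSetting_of_separating x hx) x hx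

/-- the same statement in existential form -/
theorem weilRec_of_exists (h : ∃ x : F, Transcendental K x ∧ FiniteDimensional K⟮x⟯ F) :
    WeilRec K F := by
  obtain ⟨x, hx, hfin⟩ := h
  exact weilRec_of_finite x hx

end Main

end Fermat.Agent.T6.helper87

end
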