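/-
T6 (S19 / S32), block [A2] FOURIER (helper88).

`M` a finite abelian group, `K` a field of characteristic `0` with enough roots of unity
(e.g. `ℚ̄`).  The group algebra `K[M]` (Mathlib `AddMonoidAlgebra K M`, multiplication =
convolution) and its Fourier transform:

* `four χ : K[M] →ₐ[K] K`, `four χ c = ∑ u, c u * χ u`, for a character `χ : AddChar M K`;
* `sum_addChar_apply` : the orthogonality relation `∑_χ χ w = #M̂ · [w = 0]`;
* `sum_four_mul` : Fourier inversion, `∑_χ (four χ c) χ(-u) = #M̂ · c u`;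
* `four_injective` : an element of `K[M]` with vanishing Fourier transform is `0`;
* `conjChar` : the Galois conjugate `σ · χ = σ ∘ χ ∘ (act σ)⁻¹` of a character of a `G_ℚ`-module,
  `map_four` : `σ (four χ c) = four (σ · χ) c` for an equivariant `c`;
* `isIntegral_of_four_mem` : **integrality** - an equivariant `c ∈ ℚ̄[M]` all of whose Fourier
  values lie in a valuation ring `A` over `ℓ` is integral over `ℤ_(ℓ)` (for the convolution
  product); `fg_adjoin_of_four_mem` : finitely many such elements generate a finitely generated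
  `ℤ_(ℓ)`-module.

Function form (`ofFn : (M → K) ≃ₗ[K] K[M]`): `coeff_ofFn`, `four_ofFn`, `coeff_mul_eq_sum`
(`(c * d) u = ∑ v, c v * d (u - v)`).
-/
import Mathlib
import Fermat.Agent.T6.helper33_HopfOrder

set_option autoImplicit false
set_option linter.unusedSectionVars false
set_option linter.unusedVariables false
set_option linter.style.longLine false
set_option linter.style.haveILetI false

noncomputable section

namespace Fermat.Agent.T6.helper88

open Fermat.Agent.T6.helper33 (Qb GQ exists_rat_of_fixed)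
open Fermat.Agent.S28.helper94 (Zl)
open Polynomial

/-! ## Characters of a finite abelian group -/

section Char

variable {K : Type*} [Field K] {M : Type*} [AddCommGroup M] [Finite M]

/-- the characters of a finite group with values in a field are finite in number -/
instance finite_addChar : Finite (AddChar M K) := by
  have h : Function.Injective
      (fun ψ : AddChar M K => (ψ.toMonoidHom.toHomUnits : Multiplicative M →* Kˣ)) := by
    intro ψ₁ ψ₂ h
    ext a
    have h1 := congrArg (fun f : Multiplicative M →* Kˣ =>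
      ((f (Multiplicative.ofAdd a) : Kˣ) : K)) h
    simpa using h1
  exact Finite.of_injective _ h

/-- characters separate the points (enough roots of unity) -/
theorem exists_addChar_apply_ne_one
    [HasEnoughRootsOfUnity K (Monoid.exponent (Multiplicative M))] {w : M} (hw : w ≠ 0) :
    ∃ ψ : AddChar M K, ψ w ≠ 1 := by
  obtain ⟨φ, hφ⟩ := CommGroup.exists_apply_ne_one_of_hasEnoughRootsOfUnity (Multiplicative M) K
    (a := Multiplicative.ofAdd w) (by simpa using hw)
  refine ⟨AddChar.toMonoidHomEquiv.symm ((Units.coeHom K).comp φ), fun h => hφ ?_⟩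
  ext
  simpa using h

/-- **orthogonality**: `∑_χ χ w = #M̂ · [w = 0]` -/
theorem sum_addChar_apply [Fintype (AddChar M K)]
    [HasEnoughRootsOfUnity K (Monoid.exponent (Multiplicative M))] (w : M) [Decidable (w = 0)] :
    ∑ ψ : AddChar M K, ψ w = if w = 0 then (Fintype.card (AddChar M K) : K) else 0 := by
  split_ifs with h
  · subst h
    simp
  · obtain ⟨ψ₀, hψ₀⟩ := exists_addChar_apply_ne_one (K := K) h
    refine eq_zero_of_mul_eq_self_left hψ₀ ?_
    rw [Finset.mul_sum]
    exact Fintype.sum_equiv (Equiv.addLeft ψ₀) _ _ fun ψ => (AddChar.add_apply ψ₀ ψ w).symm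

end Char

/-! ## The Fourier transform on the group algebra -/

section Four

variable {K : Type*} [Field K] {M : Type*} [AddCommGroup M]

/-- the Fourier coefficient of `c ∈ K[M]` at the character `χ` -/
def four (χ : AddChar M K) : AddMonoidAlgebra K M →ₐ[K] K :=
  AddMonoidAlgebra.lift K K M χ.toMonoidHom

theorem four_single (χ : AddChar M K) (u : M) (a : K) :
    four χ (AddMonoidAlgebra.single u a) = a * χ u := by
  rw [four, AddMonoidAlgebra.lift_single, smul_eq_mul]
  rfl

theorem four_apply [Fintype M] (χ : AddChar M K) (c : AddMonoidAlgebra K M) :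
    four χ c = ∑ u, c.coeff u * χ u := by
  rw [four, AddMonoidAlgebra.lift_apply, Finsupp.sum_fintype]
  · rfl
  · intro i
    rw [zero_smul]

/-- function form of the group algebra -/
def ofFn [Finite M] : (M → K) ≃ₗ[K] AddMonoidAlgebra K M :=
  (Finsupp.linearEquivFunOnFinite K K M).symm.trans
    (AddMonoidAlgebra.coeffLinearEquiv K).symm

@[simp]
theorem coeff_ofFn [Finite M] (c : M → K) (u : M) : (ofFn c : AddMonoidAlgebra K M).coeff u = c u :=
  rfl

theorem ofFn_symm_apply [Finite M] (c : AddMonoidAlgebra K M) (u : M) :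
    (ofFn (K := K) (M := M)).symm c u = c.coeff u :=
  rfl

theorem four_ofFn [Fintype M] (χ : AddChar M K) (c : M → K) :
    four χ (ofFn c) = ∑ u, c u * χ u := by
  rw [four_apply]
  rfl

theorem coeff_injective {c d : AddMonoidAlgebra K M} (h : ∀ u, c.coeff u = d.coeff u) : c = d := by
  apply (AddMonoidAlgebra.coeffEquiv (R := K) (M := M)).injective
  exact Finsupp.ext h

/-- multiplication in the group algebra is convolution -/
theorem coeff_mul_eq_sum [Fintype M] (c d : AddMonoidAlgebra K M) (u : M) :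
    (c * d).coeff u = ∑ v, c.coeff v * d.coeff (u - v) := by
  classical
  rw [AddMonoidAlgebra.coeff_mul, Finsupp.sum_fintype _ _ (fun i => by simp)]
  refine Finset.sum_congr rfl fun v _ => ?_
  rw [Finsupp.sum_fintype _ _ (fun i => by simp)]
  rw [Finset.sum_eq_single (u - v)]
  · rw [if_pos (add_sub_cancel v u)]
  · intro w _ hw
    rw [if_neg]
    intro h
    exact hw (eq_sub_of_add_eq' h)
  · intro h
    exact absurd (Finset.mem_univ _) h

/-- **Fourier inversion** -/
theorem sum_four_mul [Fintype M] [Fintype (AddChar M K)]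
    [HasEnoughRootsOfUnity K (Monoid.exponent (Multiplicative M))]
    (c : AddMonoidAlgebra K M) (u : M) :
    ∑ χ : AddChar M K, four χ c * χ (-u) = (Fintype.card (AddChar M K) : K) * c.coeff u := by
  classical
  have h1 : ∀ χ : AddChar M K, four χ c * χ (-u) = ∑ v, c.coeff v * χ (v - u) := by
    intro χ
    rw [four_apply, Finset.sum_mul]
    refine Finset.sum_congr rfl fun v _ => ?_
    rw [mul_assoc, ← AddChar.map_add_eq_mul, sub_eq_add_neg]
  simp_rw [h1]
  rw [Finset.sum_comm]
  simp_rw [← Finset.mul_sum, sum_addChar_apply]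
  rw [Finset.sum_eq_single u]
  · rw [if_pos (sub_self u), mul_comm]
  · intro v _ hv
    rw [if_neg (sub_ne_zero.mpr hv), mul_zero]
  · intro h
    exact absurd (Finset.mem_univ _) h

/-- the Fourier transform is injective -/
theorem four_injective [Finite M] [CharZero K]
    [HasEnoughRootsOfUnity K (Monoid.exponent (Multiplicative M))]
    {c : AddMonoidAlgebra K M} (h : ∀ χ : AddChar M K, four χ c = 0) : c = 0 := by
  classical
  haveI := Fintype.ofFinite M
  haveI := Fintype.ofFinite (AddChar M K)
  apply coeff_injective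
  intro u
  have h1 := sum_four_mul c u
  simp only [h, zero_mul, Finset.sum_const_zero] at h1
  have h2 : (Fintype.card (AddChar M K) : K) ≠ 0 :=
    Nat.cast_ne_zero.mpr Fintype.card_ne_zero
  rcases mul_eq_zero.mp h1.symm with h3 | h3
  · exact absurd h3 h2
  · exact h3

theorem four_eq_iff [Finite M] [CharZero K]
    [HasEnoughRootsOfUnity K (Monoid.exponent (Multiplicative M))]
    {c d : AddMonoidAlgebra K M} : (∀ χ : AddChar M K, four χ c = four χ d) ↔ c = d := by
  constructor
  · intro h
    rw [← sub_eq_zero]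
    apply four_injective
    intro χ
    rw [map_sub, h χ, sub_self]
  · rintro rfl χ
    rfl

end Four

/-! ## Rational elements of a valuation ring over `ℓ` -/

section Rat

variable {ℓ : ℕ} [hℓ : Fact ℓ.Prime]

/-- a rational number in a valuation ring of `ℚ̄` over `ℓ` lies in `ℤ_(ℓ)` -/
theorem mem_ratLocalizedAt_of_mem (A : ValuationSubring Qb) (hA : A.LiesOverPrime ℓ) (q : ℚ)
    (hq : algebraMap ℚ Qb q ∈ A) : q ∈ GaloisRep.ratLocalizedAt ℓ := by
  show q.den.Coprime ℓ
  rw [Nat.coprime_comm, Nat.Prime.coprime_iff_not_dvd hℓ.out]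
  intro hdvd
  have hℓA : (ℓ : Qb) ∈ A.nonunits := hA
  have hv : A.valuation (ℓ : Qb) < 1 := (ValuationSubring.mem_nonunits_iff A).mp hℓA
  have hint : ∀ n : ℤ, A.valuation (n : Qb) ≤ 1 := fun n =>
    (A.valuation_le_one_iff _).mpr (intCast_mem A n)
  -- the numerator is a non-unit
  have hnum : A.valuation ((q.num : ℤ) : Qb) < 1 := by
    obtain ⟨d, hd⟩ := hdvd
    have h1 : ((q.num : ℤ) : Qb) = algebraMap ℚ Qb q * ((ℓ : Qb) * ((d : ℤ) : Qb)) := by
      have h2 : (q.num : ℚ) = q * (q.den : ℚ) := (Rat.mul_den_eq_num q).symm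
      have h3 : ((q.num : ℤ) : Qb) = algebraMap ℚ Qb (q.num : ℚ) := by simp
      rw [h3, h2, map_mul, hd]
      simp
    rw [h1, map_mul, map_mul]
    calc A.valuation (algebraMap ℚ Qb q) * (A.valuation (ℓ : Qb) * A.valuation ((d : ℤ) : Qb))
        ≤ 1 * (A.valuation (ℓ : Qb) * 1) := by
          gcongr
          · exact (A.valuation_le_one_iff _).mpr hq
          · exact hint d
      _ < 1 := by rw [one_mul, mul_one]; exact hv
  -- but the numerator is prime to `ℓ`
  have hcop : IsCoprime (q.num : ℤ) (ℓ : ℤ) := by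
    have h1 : Nat.Coprime q.num.natAbs ℓ := by
      have h2 := q.reduced
      exact Nat.Coprime.coprime_dvd_right hdvd h2
    rw [Int.isCoprime_iff_gcd_eq_one, Int.gcd_eq_natAbs, Int.natAbs_natCast]
    exact h1
  obtain ⟨a, b, hab⟩ := hcop
  have h1 : (1 : Qb) = (a : Qb) * ((q.num : ℤ) : Qb) + (b : Qb) * (ℓ : Qb) := by
    have := congrArg (fun z : ℤ => (z : Qb)) hab
    simp only [Int.cast_add, Int.cast_mul, Int.cast_one, Int.cast_natCast] at this
    exact this.symm
  have h2 : A.valuation (1 : Qb) < 1 := by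
    rw [h1]
    refine lt_of_le_of_lt (A.valuation.map_add _ _) (max_lt ?_ ?_)
    · rw [map_mul]
      calc A.valuation (a : Qb) * A.valuation ((q.num : ℤ) : Qb)
          ≤ 1 * A.valuation ((q.num : ℤ) : Qb) := by gcongr; exact hint a
        _ < 1 := by rw [one_mul]; exact hnum
    · rw [map_mul]
      calc A.valuation (b : Qb) * A.valuation (ℓ : Qb)
          ≤ 1 * A.valuation (ℓ : Qb) := by gcongr; exact hint b
        _ < 1 := by rw [one_mul]; exact hv
  rw [map_one] at h2
  exact lt_irrefl _ h2

end Rat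

/-! ## Galois conjugation of Fourier values -/

section Galois

variable {M : Type*} [AddCommGroup M] [Finite M]
  (act : GQ → M → M) (hadd : ∀ σ u v, act σ (u + v) = act σ u + act σ v)
  (hsurj : ∀ σ, Function.Surjective (act σ))

/-- `act σ` as an additive automorphism -/
def actEquiv (σ : GQ) : M ≃+ M :=
  AddEquiv.ofBijective (AddMonoidHom.mk' (act σ) (hadd σ))
    ⟨Finite.injective_iff_surjective.mpr (hsurj σ), hsurj σ⟩

@[simp]
theorem actEquiv_apply (σ : GQ) (u : M) : actEquiv act hadd hsurj σ u = act σ u := rfl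

theorem actEquiv_symm_act (σ : GQ) (u : M) : (actEquiv act hadd hsurj σ).symm (act σ u) = u :=
  (actEquiv act hadd hsurj σ).symm_apply_apply u

/-- the Galois conjugate `σ ∘ χ ∘ (act σ)⁻¹` of a character -/
def conjChar (σ : GQ) (χ : AddChar M Qb) : AddChar M Qb :=
  ((σ : Qb →+* Qb) : Qb →* Qb).compAddChar
    (χ.compAddMonoidHom (actEquiv act hadd hsurj σ).symm.toAddMonoidHom)

theorem conjChar_apply (σ : GQ) (χ : AddChar M Qb) (u : M) :
    conjChar act hadd hsurj σ χ u = σ (χ ((actEquiv act hadd hsurj σ).symm u)) := rfl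

theorem conjChar_act (σ : GQ) (χ : AddChar M Qb) (u : M) :
    conjChar act hadd hsurj σ χ (act σ u) = σ (χ u) := by
  rw [conjChar_apply, actEquiv_symm_act]

theorem conjChar_injective (σ : GQ) : Function.Injective (conjChar act hadd hsurj σ) := by
  intro χ χ' h
  ext u
  have h1 := congrArg (fun ψ : AddChar M Qb => ψ (act σ u)) h
  simp only [conjChar_act] at h1
  exact σ.injective h1

/-- conjugation of characters as a permutation -/
def conjEquiv (σ : GQ) : AddChar M Qb ≃ AddChar M Qb :=
  Equiv.ofBijective (conjChar act hadd hsurj σ)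
    ⟨conjChar_injective act hadd hsurj σ,
      Finite.injective_iff_surjective.mp (conjChar_injective act hadd hsurj σ)⟩

@[simp]
theorem conjEquiv_apply (σ : GQ) (χ : AddChar M Qb) :
    conjEquiv act hadd hsurj σ χ = conjChar act hadd hsurj σ χ := rfl

/-- **Galois conjugation of Fourier values**: `σ (χ(c)) = (σ · χ)(c)` for an equivariant `c`. -/
theorem map_four (σ : GQ) (χ : AddChar M Qb) (c : AddMonoidAlgebra Qb M)
    (hc : ∀ u, c.coeff (act σ u) = σ (c.coeff u)) :
    σ (four χ c) = four (conjChar act hadd hsurj σ χ) c := by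
  classical
  haveI := Fintype.ofFinite M
  rw [four_apply, four_apply, map_sum]
  rw [← Equiv.sum_comp (actEquiv act hadd hsurj σ).toEquiv
    (fun v => c.coeff v * conjChar act hadd hsurj σ χ v)]
  refine Finset.sum_congr rfl fun u _ => ?_
  rw [map_mul]
  show σ (c.coeff u) * σ (χ u) = c.coeff (act σ u) * conjChar act hadd hsurj σ χ (act σ u)
  rw [hc, conjChar_act]

end Galois

/-! ## Integrality -/

section Integral

variable {ℓ : ℕ} [hℓ : Fact ℓ.Prime] {M : Type*} [AddCommGroup M] [Finite M]

/-- the (noncanonical) `Fintype` structure on the characters used in `fourPoly` -/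
local instance fintypeAddCharQb : Fintype (AddChar M Qb) := Fintype.ofFinite _

/-- the characteristic polynomial of the Fourier transform of `c` -/
def fourPoly (c : AddMonoidAlgebra Qb M) : Polynomial Qb :=
  ∏ χ : AddChar M Qb, (X - C (four χ c))

theorem fourPoly_monic (c : AddMonoidAlgebra Qb M) : (fourPoly c).Monic := by
  unfold fourPoly
  exact Polynomial.monic_prod_of_monic _ _ fun χ _ => Polynomial.monic_X_sub_C _

theorem eval_four_fourPoly (c : AddMonoidAlgebra Qb M) (χ : AddChar M Qb) :
    (fourPoly c).eval (four χ c) = 0 := by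
  unfold fourPoly
  rw [Polynomial.eval_prod]
  exact Finset.prod_eq_zero (Finset.mem_univ χ) (by simp)

/-- the polynomial is Galois invariant when `c` is equivariant -/
theorem map_fourPoly (act : GQ → M → M)
    (hadd : ∀ σ u v, act σ (u + v) = act σ u + act σ v)
    (hsurj : ∀ σ, Function.Surjective (act σ)) (c : AddMonoidAlgebra Qb M)
    (hc : ∀ (σ : GQ) (u : M), c.coeff (act σ u) = σ (c.coeff u)) (σ : GQ) :
    (fourPoly c).map (σ : Qb →+* Qb) = fourPoly c := by
  unfold fourPoly
  rw [Polynomial.map_prod]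
  rw [← Equiv.prod_comp (conjEquiv act hadd hsurj σ) (fun χ => X - C (four χ c))]
  refine Finset.prod_congr rfl fun χ _ => ?_
  rw [Polynomial.map_sub, Polynomial.map_X, Polynomial.map_C, conjEquiv_apply,
    ← map_four act hadd hsurj σ χ c (hc σ)]
  rfl

/-- the coefficients lie in `A` when the Fourier values do -/
theorem coeff_fourPoly_mem (A : ValuationSubring Qb) (c : AddMonoidAlgebra Qb M)
    (hA : ∀ χ : AddChar M Qb, four χ c ∈ A) (n : ℕ) : (fourPoly c).coeff n ∈ A := by
  have h1 : fourPoly c
      = (∏ χ : AddChar M Qb, (X - C (⟨four χ c, hA χ⟩ : A))).map A.subtype := by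
    unfold fourPoly
    rw [Polynomial.map_prod]
    refine Finset.prod_congr rfl fun χ _ => ?_
    rw [Polynomial.map_sub, Polynomial.map_X, Polynomial.map_C]
    rfl
  rw [h1, Polynomial.coeff_map]
  exact Subtype.property _

/-- the coefficients lie in `ℤ_(ℓ)` -/
theorem coeff_fourPoly_mem_range (act : GQ → M → M)
    (hadd : ∀ σ u v, act σ (u + v) = act σ u + act σ v)
    (hsurj : ∀ σ, Function.Surjective (act σ))
    (A : ValuationSubring Qb) (hAℓ : A.LiesOverPrime ℓ)
    (c : AddMonoidAlgebra Qb M)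
    (hc : ∀ (σ : GQ) (u : M), c.coeff (act σ u) = σ (c.coeff u))
    (hA : ∀ χ : AddChar M Qb, four χ c ∈ A) (n : ℕ) :
    (fourPoly c).coeff n ∈ Set.range (algebraMap (Zl ℓ) Qb) := by
  have hfix : ∀ σ : GQ, σ ((fourPoly c).coeff n) = (fourPoly c).coeff n := by
    intro σ
    have h1 := congrArg (fun p : Polynomial Qb => p.coeff n) (map_fourPoly act hadd hsurj c hc σ)
    simp only [Polynomial.coeff_map] at h1
    exact h1
  obtain ⟨q, hq⟩ := exists_rat_of_fixed _ hfix
  have hqA : algebraMap ℚ Qb q ∈ A := by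
    rw [hq]
    exact coeff_fourPoly_mem A c hA n
  exact ⟨⟨q, mem_ratLocalizedAt_of_mem A hAℓ q hqA⟩, hq⟩

/-- `ℚ̄` has enough roots of unity for every finite abelian group -/
theorem hasEnoughRootsOfUnity_Qb (M : Type*) [AddCommGroup M] [Finite M] :
    HasEnoughRootsOfUnity Qb (Monoid.exponent (Multiplicative M)) := by
  haveI : NeZero (Monoid.exponent (Multiplicative M)) := ⟨Monoid.exponent_ne_zero_of_finite⟩
  infer_instance

/-- **Integrality**: an equivariant element of `ℚ̄[M]` all of whose Fourier values lie in a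
valuation ring `A` over `ℓ` is integral over `ℤ_(ℓ)` (for the convolution product). -/
theorem isIntegral_of_four_mem (act : GQ → M → M)
    (hadd : ∀ σ u v, act σ (u + v) = act σ u + act σ v)
    (hsurj : ∀ σ, Function.Surjective (act σ))
    (A : ValuationSubring Qb) (hAℓ : A.LiesOverPrime ℓ)
    (c : AddMonoidAlgebra Qb M)
    (hc : ∀ (σ : GQ) (u : M), c.coeff (act σ u) = σ (c.coeff u))
    (hA : ∀ χ : AddChar M Qb, four χ c ∈ A) :
    IsIntegral (Zl ℓ) c := by
  have hl : fourPoly c ∈ Polynomial.lifts (algebraMap (Zl ℓ) Qb) := by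
    rw [Polynomial.lifts_iff_coeff_lifts]
    exact coeff_fourPoly_mem_range act hadd hsurj A hAℓ c hc hA
  obtain ⟨P, hP, -, hPm⟩ := Polynomial.lifts_and_degree_eq_and_monic hl (fourPoly_monic c)
  refine ⟨P, hPm, ?_⟩
  haveI := hasEnoughRootsOfUnity_Qb M
  apply four_injective
  intro χ
  have h1 := Polynomial.hom_eval₂ P (algebraMap (Zl ℓ) (AddMonoidAlgebra Qb M))
    ((four χ : AddMonoidAlgebra Qb M →ₐ[Qb] Qb) : AddMonoidAlgebra Qb M →+* Qb) c
  have h2 : (((four χ : AddMonoidAlgebra Qb M →ₐ[Qb] Qb) : AddMonoidAlgebra Qb M →+* Qb).comp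
      (algebraMap (Zl ℓ) (AddMonoidAlgebra Qb M))) = algebraMap (Zl ℓ) Qb := by
    ext r
    rw [RingHom.comp_apply, IsScalarTower.algebraMap_apply (Zl ℓ) Qb (AddMonoidAlgebra Qb M)]
    exact (four χ).commutes _
  rw [h2] at h1
  have h3 : four χ (Polynomial.eval₂ (algebraMap (Zl ℓ) (AddMonoidAlgebra Qb M)) c P)
      = Polynomial.eval₂ (algebraMap (Zl ℓ) Qb) (four χ c) P := h1
  rw [h3, ← Polynomial.eval_map, hP]
  exact eval_four_fourPoly c χ

/-- finitely many such elements generate a finitely generated `ℤ_(ℓ)`-module (under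
convolution). -/
theorem fg_adjoin_of_four_mem (act : GQ → M → M)
    (hadd : ∀ σ u v, act σ (u + v) = act σ u + act σ v)
    (hsurj : ∀ σ, Function.Surjective (act σ))
    (A : ValuationSubring Qb) (hAℓ : A.LiesOverPrime ℓ)
    (S : Set (AddMonoidAlgebra Qb M)) (hS : S.Finite)
    (hc : ∀ c ∈ S, ∀ (σ : GQ) (u : M), c.coeff (act σ u) = σ (c.coeff u))
    (hA : ∀ c ∈ S, ∀ χ : AddChar M Qb, four χ c ∈ A) :
    (Algebra.adjoin (Zl ℓ) S).toSubmodule.FG :=
  fg_adjoin_of_finite hS fun c hcS =>
    isIntegral_of_four_mem act hadd hsurj A hAℓ c (hc c hcS) (hA c hcS)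

/-! ### Function form -/

/-- a multiplicative function `M → ℚ̄` as a character -/
def addCharOfFn (χ : M → Qb) (h0 : χ 0 = 1) (hmul : ∀ u v, χ (u + v) = χ u * χ v) :
    AddChar M Qb where
  toFun := χ
  map_zero_eq_one' := h0
  map_add_eq_mul' := hmul

@[simp]
theorem addCharOfFn_apply (χ : M → Qb) (h0 : χ 0 = 1) (hmul : ∀ u v, χ (u + v) = χ u * χ v)
    (u : M) : addCharOfFn χ h0 hmul u = χ u := rfl

/-- the pairing `⟨f, c⟩ = ∑ u, f u * c u` between functions and the group algebra -/
def pair [Fintype M] (f : M → Qb) (c : AddMonoidAlgebra Qb M) : Qb := ∑ u, f u * c.coeff u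

theorem four_eq_pair [Fintype M] (χ : AddChar M Qb) (c : AddMonoidAlgebra Qb M) :
    four χ c = pair (χ : M → Qb) c := by
  rw [four_apply, pair]
  exact Finset.sum_congr rfl fun u _ => mul_comm _ _

/-- if `χ = ∑ a_i f_i` as functions then `χ(c) = ∑ a_i ⟨f_i, c⟩` -/
theorem four_eq_sum_pair [Fintype M] (χ : AddChar M Qb) {n : ℕ} (a : Fin n → Qb)
    (f : Fin n → M → Qb) (hχ : ∀ u, χ u = ∑ i, a i * f i u) (c : AddMonoidAlgebra Qb M) :
    four χ c = ∑ i, a i * pair (f i) c := by
  rw [four_eq_pair, pair]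
  simp_rw [hχ, pair, Finset.mul_sum, Finset.sum_mul]
  rw [Finset.sum_comm]
  refine Finset.sum_congr rfl fun i _ => Finset.sum_congr rfl fun u _ => ?_
  rw [mul_assoc]

/-- **Integrality, function form**: `c : M → ℚ̄` equivariant, all `∑ u, c u * χ u ∈ A`. -/
theorem isIntegral_ofFn (act : GQ → M → M)
    (hadd : ∀ σ u v, act σ (u + v) = act σ u + act σ v)
    (hsurj : ∀ σ, Function.Surjective (act σ))
    (A : ValuationSubring Qb) (hAℓ : A.LiesOverPrime ℓ) (c : M → Qb)
    (hc : ∀ (σ : GQ) (u : M), c (act σ u) = σ (c u))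
    (hA : ∀ χ : AddChar M Qb, four χ (ofFn c) ∈ A) :
    IsIntegral (Zl ℓ) (ofFn c : AddMonoidAlgebra Qb M) :=
  isIntegral_of_four_mem act hadd hsurj A hAℓ (ofFn c) (fun σ u => hc σ u) hA

end Integral

end Fermat.Agent.T6.helper88
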