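/-
T6 / S32 block [X] (helper95): **the off-diagonal scalar `x₁₂` is a unit**.

For a `GaloisRepAdic` over a local ring `A` with `2` invertible, an involution `c` of trace `0`
and absolutely irreducible residual representation there are `τ₀ σ₀` such that
`x₁₂(τ₀, σ₀)` is a unit of `A`, and `x₂₁(σ₀, τ₀) = x₁₂(τ₀, σ₀)`.

* `mat_mul_mul_of_det_eq_zero` : `E A E = tr(E A) E` for a `2 × 2` matrix with `det E = 0`;
* `end_mul_mul_of_det_eq_zero`, `end_E1_E2_E1` : the same for endomorphisms of a free module of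
  rank `2`, and `(1 + C) A (1 - C) B (1 + C) = x₁₂ (1 + C)`;
* `trX21_eq_trX12` : `x₂₁(B, A) = x₁₂(A, B)` as soon as `tr C = 0`;
* `exists_trX12_ne_zero` : irreducible over a field of characteristic `≠ 2`;
* `X12`, `X21`, `x21_eq_x12`, `exists_isUnit_x12` : the statements for a `GaloisRepAdic`;
* `exists_isUnit_map_x12` : the form with `helper22.QuadData` and `Θ`.
-/
import Mathlib
import Fermat.Prelude.Def_GaloisRep_Adic
import Fermat.Prelude.Def_CuspForm_HeckeGaloisRepDatum
import Fermat.Agent.P3.helper22_QuadAlg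

set_option autoImplicit false
set_option linter.unusedSectionVars false
set_option linter.unusedVariables false
set_option linter.style.longLine false
set_option linter.unusedSimpArgs false

noncomputable section

namespace Fermat.Agent.T6.helper95

open Matrix

/-! ### `2 × 2` matrices -/

section Mat

variable {R : Type*} [CommRing R]

/-- `E A E = tr(E A) E` for a `2 × 2` matrix `E` with `det E = 0`. -/
theorem mat_mul_mul_of_det_eq_zero (E A : Matrix (Fin 2) (Fin 2) R) (hE : E.det = 0) :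
    E * A * E = (E * A).trace • E := by
  rw [Matrix.det_fin_two] at hE
  ext i j
  fin_cases i <;> fin_cases j
  · simp only [Matrix.mul_apply, Fin.sum_univ_two, Matrix.trace_fin_two, Matrix.smul_apply,
      smul_eq_mul, Fin.zero_eta, Fin.isValue, Fin.mk_one]
    linear_combination (-(A 1 1)) * hE
  · simp only [Matrix.mul_apply, Fin.sum_univ_two, Matrix.trace_fin_two, Matrix.smul_apply,
      smul_eq_mul, Fin.zero_eta, Fin.isValue, Fin.mk_one]
    linear_combination (A 0 1) * hE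
  · simp only [Matrix.mul_apply, Fin.sum_univ_two, Matrix.trace_fin_two, Matrix.smul_apply,
      smul_eq_mul, Fin.zero_eta, Fin.isValue, Fin.mk_one]
    linear_combination (A 1 0) * hE
  · simp only [Matrix.mul_apply, Fin.sum_univ_two, Matrix.trace_fin_two, Matrix.smul_apply,
      smul_eq_mul, Fin.zero_eta, Fin.isValue, Fin.mk_one]
    linear_combination (-(A 0 0)) * hE

/-- `det C = -1` for a `2 × 2` matrix with `C² = 1`, `tr C = 0`. -/
theorem mat_det_eq_neg_one (C : Matrix (Fin 2) (Fin 2) R) (hC : C * C = 1)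
    (htr : C.trace = 0) : C.det = -1 := by
  rw [Matrix.det_fin_two]
  rw [Matrix.trace_fin_two] at htr
  have h00 := congrFun (congrFun hC 0) 0
  simp only [Matrix.mul_apply, Fin.sum_univ_two, Matrix.one_apply_eq] at h00
  linear_combination (-1 : R) * h00 + (C 0 0) * htr

theorem mat_det_one_add (C : Matrix (Fin 2) (Fin 2) R) (hC : C * C = 1)
    (htr : C.trace = 0) : (1 + C).det = 0 := by
  have hd := mat_det_eq_neg_one C hC htr
  rw [Matrix.det_fin_two] at hd ⊢
  rw [Matrix.trace_fin_two] at htr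
  simp only [Matrix.add_apply, Matrix.one_apply_eq, Matrix.one_apply_ne, ne_eq, zero_ne_one,
    not_false_eq_true, one_ne_zero, zero_add, Fin.isValue]
  linear_combination hd + htr

theorem mat_det_one_sub (C : Matrix (Fin 2) (Fin 2) R) (hC : C * C = 1)
    (htr : C.trace = 0) : (1 - C).det = 0 := by
  have hd := mat_det_eq_neg_one C hC htr
  rw [Matrix.det_fin_two] at hd ⊢
  rw [Matrix.trace_fin_two] at htr
  simp only [Matrix.sub_apply, Matrix.one_apply_eq, Matrix.one_apply_ne, ne_eq, zero_ne_one,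
    not_false_eq_true, one_ne_zero, zero_sub, Fin.isValue]
  linear_combination hd - htr

/-- the polarised Cayley-Hamilton identity behind `x₂₁(B, A) = x₁₂(A, B)`. -/
theorem mat_trace_polar (C A B : Matrix (Fin 2) (Fin 2) R) (htr : C.trace = 0) :
    (C * (A * B)).trace + (C * (B * A)).trace
      = A.trace * (C * B).trace + (C * A).trace * B.trace := by
  rw [Matrix.trace_fin_two] at htr
  have h11 : C 1 1 = - C 0 0 := by linear_combination htr
  simp only [Matrix.mul_apply, Fin.sum_univ_two, Matrix.trace_fin_two, Fin.isValue, h11]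
  ring

end Mat

/-! ### Endomorphisms of a free module of rank `2` -/

section End

variable {R : Type*} [CommRing R] {W : Type*} [AddCommGroup W] [Module R W]

theorem end_det_one_add (b : Module.Basis (Fin 2) R W) (C : Module.End R W) (hC : C * C = 1)
    (htr : LinearMap.trace R W C = 0) : LinearMap.det (1 + C) = 0 := by
  rw [← LinearMap.det_toMatrix b, map_add]
  have h1 : LinearMap.toMatrix b b (1 : Module.End R W) = 1 := LinearMap.toMatrix_one b
  rw [h1]
  refine mat_det_one_add _ ?_ ?_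
  · rw [← LinearMap.toMatrix_mul, hC, h1]
  · rw [← LinearMap.trace_eq_matrix_trace R b, htr]

theorem end_det_one_sub (b : Module.Basis (Fin 2) R W) (C : Module.End R W) (hC : C * C = 1)
    (htr : LinearMap.trace R W C = 0) : LinearMap.det (1 - C) = 0 := by
  rw [← LinearMap.det_toMatrix b, map_sub]
  have h1 : LinearMap.toMatrix b b (1 : Module.End R W) = 1 := LinearMap.toMatrix_one b
  rw [h1]
  refine mat_det_one_sub _ ?_ ?_
  · rw [← LinearMap.toMatrix_mul, hC, h1]
  · rw [← LinearMap.trace_eq_matrix_trace R b, htr]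

/-- `E A E = tr(E A) E` for an endomorphism `E` with `det E = 0` of a free module of rank `2`. -/
theorem end_mul_mul_of_det_eq_zero (b : Module.Basis (Fin 2) R W) (E A : Module.End R W)
    (hE : LinearMap.det E = 0) : E * A * E = LinearMap.trace R W (E * A) • E := by
  apply (LinearMap.toMatrix b b).injective
  rw [LinearMap.toMatrix_mul, LinearMap.toMatrix_mul, map_smul,
    LinearMap.trace_eq_matrix_trace R b, LinearMap.toMatrix_mul]
  exact mat_mul_mul_of_det_eq_zero _ _ (by rw [LinearMap.det_toMatrix b, hE])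

/-- the scalar `x₁₂(A, B)` of two endomorphisms with respect to the involution `C` -/
def trX12 (C A B : Module.End R W) : R :=
  2 * (LinearMap.trace R W (A * B) + LinearMap.trace R W (C * (A * B)))
    - (LinearMap.trace R W A + LinearMap.trace R W (C * A))
      * (LinearMap.trace R W B + LinearMap.trace R W (C * B))

/-- the scalar `x₂₁(A, B)` of two endomorphisms with respect to the involution `C` -/
def trX21 (C A B : Module.End R W) : R :=
  2 * (LinearMap.trace R W (A * B) - LinearMap.trace R W (C * (A * B)))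
    - (LinearMap.trace R W A - LinearMap.trace R W (C * A))
      * (LinearMap.trace R W B - LinearMap.trace R W (C * B))

/-- `(1 + C) A (1 - C) B (1 + C) = x₁₂(A, B) (1 + C)` -/
theorem end_E1_E2_E1 (b : Module.Basis (Fin 2) R W) (C A B : Module.End R W) (hC : C * C = 1)
    (htr : LinearMap.trace R W C = 0) :
    (1 + C) * A * (1 - C) * B * (1 + C) = trX12 C A B • (1 + C) := by
  have hdet := end_det_one_add b C hC htr
  have hE2 : (1 - C : Module.End R W) = (2 : R) • (1 : Module.End R W) - (1 + C) := by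
    rw [two_smul]; abel
  have e : (1 + C) * A * (1 - C) * B * (1 + C)
      = (2 : R) • ((1 + C) * (A * B) * (1 + C)) - ((1 + C) * A * (1 + C)) * (B * (1 + C)) := by
    rw [hE2]
    simp only [mul_sub, sub_mul, mul_smul_comm, smul_mul_assoc, mul_one, mul_assoc]
  have e2 : ((1 + C) * A * (1 + C)) * (B * (1 + C))
      = LinearMap.trace R W ((1 + C) * A) • ((1 + C) * B * (1 + C)) := by
    rw [end_mul_mul_of_det_eq_zero b _ A hdet, smul_mul_assoc, mul_assoc]
  have t1 : ∀ X : Module.End R W, LinearMap.trace R W ((1 + C) * X)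
      = LinearMap.trace R W X + LinearMap.trace R W (C * X) := fun X => by
    rw [add_mul, one_mul, map_add]
  rw [e, e2, end_mul_mul_of_det_eq_zero b _ (A * B) hdet, end_mul_mul_of_det_eq_zero b _ B hdet,
    smul_smul, smul_smul, ← sub_smul, t1, t1, t1, trX12]

/-- `x₂₁(B, A) = x₁₂(A, B)` as soon as `tr C = 0` (no other hypothesis). -/
theorem trX21_eq_trX12 (b : Module.Basis (Fin 2) R W) (C A B : Module.End R W)
    (htr : LinearMap.trace R W C = 0) : trX21 C B A = trX12 C A B := by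
  have hpol : LinearMap.trace R W (C * (A * B)) + LinearMap.trace R W (C * (B * A))
      = LinearMap.trace R W A * LinearMap.trace R W (C * B)
        + LinearMap.trace R W (C * A) * LinearMap.trace R W B := by
    simp only [LinearMap.trace_eq_matrix_trace R b, LinearMap.toMatrix_mul]
    exact mat_trace_polar _ _ _ (by rw [← LinearMap.trace_eq_matrix_trace R b, htr])
  have hcomm : LinearMap.trace R W (B * A) = LinearMap.trace R W (A * B) :=
    LinearMap.trace_mul_comm R B A
  rw [trX21, trX12, hcomm]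
  linear_combination (-2 : R) * hpol

end End

/-! ### Irreducible representations of dimension `2` over a field -/

section Field

variable {K : Type*} [Field K] {W : Type*} [AddCommGroup W] [Module K W]
  {G : Type*} [Group G]

/-- the span of the orbit of a nonzero vector under an irreducible representation is everything -/
theorem span_orbit_eq_top (r : G →* Module.End K W)
    (hirr : ∀ U : Submodule K W, (∀ σ : G, ∀ x ∈ U, r σ x ∈ U) → U = ⊥ ∨ U = ⊤)
    {w : W} (hw : w ≠ 0) : Submodule.span K (Set.range fun σ : G => r σ w) = ⊤ := by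
  have hst : ∀ σ : G, ∀ x ∈ Submodule.span K (Set.range fun σ : G => r σ w),
      r σ x ∈ Submodule.span K (Set.range fun σ : G => r σ w) := by
    intro σ x hx
    refine Submodule.span_induction (p := fun x _ =>
      r σ x ∈ Submodule.span K (Set.range fun σ : G => r σ w)) ?_ ?_ ?_ ?_ hx
    · rintro _ ⟨τ, rfl⟩
      refine Submodule.subset_span ⟨σ * τ, ?_⟩
      simp only [map_mul, Module.End.mul_apply]
    · rw [map_zero]
      exact Submodule.zero_mem _
    · intro x y _ _ hx hy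
      rw [map_add]
      exact Submodule.add_mem _ hx hy
    · intro a x _ hx
      rw [map_smul]
      exact Submodule.smul_mem _ a hx
  rcases hirr _ hst with h | h
  · exfalso
    have hmem : w ∈ Submodule.span K (Set.range fun σ : G => r σ w) :=
      Submodule.subset_span ⟨1, by simp⟩
    rw [h, Submodule.mem_bot] at hmem
    exact hw hmem
  · exact h

/-- a nonzero endomorphism does not kill the whole orbit of a nonzero vector -/
theorem exists_apply_orbit_ne_zero (r : G →* Module.End K W)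
    (hirr : ∀ U : Submodule K W, (∀ σ : G, ∀ x ∈ U, r σ x ∈ U) → U = ⊥ ∨ U = ⊤)
    {w : W} (hw : w ≠ 0) {E : Module.End K W} (hE : E ≠ 0) : ∃ σ : G, E (r σ w) ≠ 0 := by
  by_contra hcon
  have hcon : ∀ σ : G, E (r σ w) = 0 := fun σ => by
    by_contra h
    exact hcon ⟨σ, h⟩
  apply hE
  have hle : Submodule.span K (Set.range fun σ : G => r σ w) ≤ LinearMap.ker E := by
    rw [Submodule.span_le]
    rintro _ ⟨σ, rfl⟩
    exact hcon σ
  rw [span_orbit_eq_top r hirr hw] at hle
  ext x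
  exact hle (Submodule.mem_top (x := x))

/-- **irreducible ⟹ some `x₁₂(τ, σ)` is nonzero** (dimension `2`, characteristic `≠ 2`,
`c² = 1`, `tr r(c) = 0`). -/
theorem exists_trX12_ne_zero (b : Module.Basis (Fin 2) K W) (h2 : (2 : K) ≠ 0)
    (r : G →* Module.End K W)
    (hirr : ∀ U : Submodule K W, (∀ σ : G, ∀ x ∈ U, r σ x ∈ U) → U = ⊥ ∨ U = ⊤)
    (c : G) (hc : c * c = 1) (htr : LinearMap.trace K W (r c) = 0) :
    ∃ τ σ : G, trX12 (r c) (r τ) (r σ) ≠ 0 := by
  have hC : r c * r c = 1 := by rw [← map_mul, hc, map_one]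
  have hfin : Module.finrank K W = 2 := by
    rw [Module.finrank_eq_card_basis b, Fintype.card_fin]
  have : Module.Finite K W := Module.Finite.of_basis b
  have htr1 : LinearMap.trace K W (1 : Module.End K W) = 2 := by
    rw [LinearMap.trace_one, hfin]; norm_num
  have hE1 : (1 + r c : Module.End K W) ≠ 0 := by
    intro h
    have := congrArg (LinearMap.trace K W) h
    rw [map_add, htr1, htr, add_zero, map_zero] at this
    exact h2 this
  have hE2 : (1 - r c : Module.End K W) ≠ 0 := by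
    intro h
    have := congrArg (LinearMap.trace K W) h
    rw [map_sub, htr1, htr, sub_zero, map_zero] at this
    exact h2 this
  obtain ⟨w₀, hw₀⟩ : ∃ w₀ : W, (1 + r c : Module.End K W) w₀ ≠ 0 := by
    by_contra hcon
    refine hE1 (LinearMap.ext fun x => ?_)
    by_contra h
    exact hcon ⟨x, h⟩
  obtain ⟨σ, hσ⟩ := exists_apply_orbit_ne_zero r hirr hw₀ hE2
  obtain ⟨τ, hτ⟩ := exists_apply_orbit_ne_zero r hirr hσ hE1
  refine ⟨τ, σ, fun hx => hτ ?_⟩
  have key := congrArg (fun f : Module.End K W => f w₀) (end_E1_E2_E1 b (r c) (r τ) (r σ) hC htr)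
  simp only [Module.End.mul_apply, LinearMap.smul_apply, hx, zero_smul] at key
  exact key

end Field

/-! ### Galois representations over a local ring -/

section Adic

local notation "Γℚ" => (AlgebraicClosure ℚ ≃ₐ[ℚ] AlgebraicClosure ℚ)

variable {A : Type} [CommRing A] [IsLocalRing A]

/-- the scalar `x₁₂(τ, σ)` of a Galois representation with respect to `c`
(`= helper22.QuadData.x12` with `t` replaced by the trace of `ρ`) -/
def X12 (ρ : GaloisRepAdic A) (c τ σ : Γℚ) : A :=
  2 * (ρ.trace (τ * σ) + ρ.trace (c * (τ * σ)))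
    - (ρ.trace τ + ρ.trace (c * τ)) * (ρ.trace σ + ρ.trace (c * σ))

/-- the scalar `x₂₁(τ, σ)` of a Galois representation with respect to `c` -/
def X21 (ρ : GaloisRepAdic A) (c τ σ : Γℚ) : A :=
  2 * (ρ.trace (τ * σ) - ρ.trace (c * (τ * σ)))
    - (ρ.trace τ - ρ.trace (c * τ)) * (ρ.trace σ - ρ.trace (c * σ))

theorem X12_eq_trX12 (ρ : GaloisRepAdic A) (c τ σ : Γℚ) :
    X12 ρ c τ σ = trX12 (ρ.ρ c) (ρ.ρ τ) (ρ.ρ σ) := by
  simp only [X12, trX12, GaloisRepAdic.trace, map_mul]

theorem X21_eq_trX21 (ρ : GaloisRepAdic A) (c τ σ : Γℚ) :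
    X21 ρ c τ σ = trX21 (ρ.ρ c) (ρ.ρ τ) (ρ.ρ σ) := by
  simp only [X21, trX21, GaloisRepAdic.trace, map_mul]

/-- **symmetry**: `x₂₁(σ, τ) = x₁₂(τ, σ)` as soon as `tr ρ(c) = 0`. -/
theorem x21_eq_x12 (ρ : GaloisRepAdic A) (c : Γℚ) (htr : ρ.trace c = 0) (τ σ : Γℚ) :
    X21 ρ c σ τ = X12 ρ c τ σ := by
  rw [X12_eq_trX12, X21_eq_trX21]
  exact trX21_eq_trX12 (Module.finBasisOfFinrankEq A ρ.V ρ.finrank_eq) _ _ _ htr

/-- the trace of the geometric residual representation is the image of the trace -/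
theorem trace_residual_baseChange (ρ : GaloisRepAdic A) (σ : Γℚ) :
    LinearMap.trace (AlgebraicClosure (IsLocalRing.ResidueField A))
        (ρ.residual.baseChange (AlgebraicClosure (IsLocalRing.ResidueField A))).V
        ((ρ.residual.baseChange (AlgebraicClosure (IsLocalRing.ResidueField A))).ρ σ)
      = algebraMap (IsLocalRing.ResidueField A) (AlgebraicClosure (IsLocalRing.ResidueField A))
          (algebraMap A (IsLocalRing.ResidueField A) (ρ.trace σ)) := by
  have h1 : LinearMap.trace (IsLocalRing.ResidueField A) ρ.residual.V (ρ.residual.ρ σ)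
      = algebraMap A (IsLocalRing.ResidueField A) (ρ.trace σ) :=
    LinearMap.trace_baseChange (ρ.ρ σ) (IsLocalRing.ResidueField A)
  rw [← h1]
  exact LinearMap.trace_baseChange (ρ.residual.ρ σ)
    (AlgebraicClosure (IsLocalRing.ResidueField A))

/-- **[X]**: if `2` is invertible, `c² = 1`, `tr ρ(c) = 0` and the residual representation is
absolutely irreducible, then some `x₁₂(τ₀, σ₀)` is a unit. -/
theorem exists_isUnit_x12 (ρ : GaloisRepAdic A) (h2 : IsUnit (2 : A)) (c : Γℚ) (hc : c * c = 1)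
    (htr : ρ.trace c = 0) (hirr : ρ.residual.IsAbsolutelyIrreducible) :
    ∃ τ₀ σ₀ : Γℚ, IsUnit (X12 ρ c τ₀ σ₀) := by
  set k := IsLocalRing.ResidueField A with hk
  set kb := AlgebraicClosure k with hkb
  set Wr := ρ.residual.baseChange kb with hWr
  let φ : A →+* kb := (algebraMap k kb).comp (algebraMap A k)
  have htrace : ∀ σ : Γℚ, LinearMap.trace kb Wr.V (Wr.ρ σ) = φ (ρ.trace σ) :=
    fun σ => trace_residual_baseChange ρ σ
  have h2' : (2 : kb) ≠ 0 := by
    have h := h2.map φ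
    rw [map_ofNat] at h
    exact h.ne_zero
  have htr' : LinearMap.trace kb Wr.V (Wr.ρ c) = 0 := by rw [htrace, htr, map_zero]
  obtain ⟨τ, σ, hx⟩ := exists_trX12_ne_zero (Module.finBasisOfFinrankEq kb Wr.V Wr.finrank_eq)
    h2' Wr.ρ hirr c hc htr'
  refine ⟨τ, σ, ?_⟩
  have hval : trX12 (Wr.ρ c) (Wr.ρ τ) (Wr.ρ σ) = φ (X12 ρ c τ σ) := by
    simp only [trX12, X12, ← map_mul, htrace]
    simp only [map_sub, map_add, map_mul, map_ofNat]
  rw [hval] at hx
  by_contra hnu
  apply hx
  have hm : X12 ρ c τ σ ∈ IsLocalRing.maximalIdeal A := hnu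
  have h0 : algebraMap A k (X12 ρ c τ σ) = 0 := by
    rw [IsLocalRing.ResidueField.algebraMap_eq]
    exact (IsLocalRing.residue_eq_zero_iff _).mpr hm
  show (algebraMap k kb) (algebraMap A k (X12 ρ c τ σ)) = 0
  rw [h0, map_zero]

/-- **[X] in the form of the [CMP] instance**: `Q` a `helper22.QuadData` over `B` whose trace
function is mapped to the trace of `ρ` by `Θ : B →+* A`. -/
theorem exists_isUnit_map_x12 {B : Type*} [CommRing B] {L : Type*} [AddCommGroup L] [Module B L]
    (Q : Fermat.Agent.P3.helper22.QuadData Γℚ B L) (ρ : GaloisRepAdic A) (Θ : B →+* A)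
    (hΘ : ∀ g : Γℚ, Θ (Q.t g) = ρ.trace g) (h2 : IsUnit (2 : A))
    (hirr : ρ.residual.IsAbsolutelyIrreducible) :
    ∃ τ₀ σ₀ : Γℚ, IsUnit (Θ (Q.x12 τ₀ σ₀)) ∧ Θ (Q.x21 σ₀ τ₀) = Θ (Q.x12 τ₀ σ₀) := by
  have htr : ρ.trace Q.c = 0 := by rw [← hΘ, Q.t_c, map_zero]
  have h12 : ∀ τ σ : Γℚ, Θ (Q.x12 τ σ) = X12 ρ Q.c τ σ := fun τ σ => by
    simp only [Fermat.Agent.P3.helper22.QuadData.x12, X12, map_sub, map_mul, map_add,
      map_ofNat, hΘ]
  have h21 : ∀ τ σ : Γℚ, Θ (Q.x21 τ σ) = X21 ρ Q.c τ σ := fun τ σ => by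
    simp only [Fermat.Agent.P3.helper22.QuadData.x21, X21, map_sub, map_mul, map_add,
      map_ofNat, hΘ]
  obtain ⟨τ₀, σ₀, hu⟩ := exists_isUnit_x12 ρ h2 Q.c Q.c_sq htr hirr
  exact ⟨τ₀, σ₀, by rw [h12]; exact hu, by rw [h21, h12, x21_eq_x12 ρ Q.c htr]⟩

/-- `2` is a unit in a local ring whose maximal ideal contains an odd prime. -/
theorem isUnit_two_of_odd_prime_mem {p : ℕ} (hp : p.Prime) (hp2 : p ≠ 2)
    (hpA : (p : A) ∈ IsLocalRing.maximalIdeal A) : IsUnit (2 : A) := by
  by_contra h2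
  have h2m : (2 : A) ∈ IsLocalRing.maximalIdeal A := h2
  obtain ⟨m, hm⟩ : ∃ m : ℕ, p = 2 * m + 1 := by
    rcases hp.eq_two_or_odd' with h | h
    · exact absurd h hp2
    · exact h
  have h1 : (1 : A) = (p : A) - 2 * (m : A) := by
    rw [hm]
    push_cast
    ring
  have hmem : (1 : A) ∈ IsLocalRing.maximalIdeal A := by
    rw [h1]
    exact Ideal.sub_mem _ hpA (Ideal.mul_mem_right _ _ h2m)
  exact (Ideal.ne_top_iff_one _).mp (IsLocalRing.maximalIdeal.isMaximal A).ne_top hmem

end Adic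

/-! ### The form for a Hecke-Galois datum (hypotheses of S32) -/

section Datum

local notation "Γℚ" => (AlgebraicClosure ℚ ≃ₐ[ℚ] AlgebraicClosure ℚ)

variable {p : ℕ} {N : ℕ} [NeZero N] {S : Finset ℕ}
  {𝒪 : Type} [CommRing 𝒪] [IsDomain 𝒪] [IsDiscreteValuationRing 𝒪]
  [IsAdicComplete (IsLocalRing.maximalIdeal 𝒪) 𝒪]
  {θ : CuspForm.heckeAlgebra N 2 (↑S : Set ℕ) →+* IsLocalRing.ResidueField 𝒪}
  {T : Type} [CommRing T] [IsLocalRing T] [IsNoetherianRing T]
  [IsAdicComplete (IsLocalRing.maximalIdeal T) T] [Algebra 𝒪 T] [IsLocalHom (algebraMap 𝒪 T)]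
  [Module.Finite 𝒪 T] [Module.Free 𝒪 T]

/-- `p` lies in the maximal ideal of `T`. -/
theorem natCast_mem_maximalIdeal_of_algebra (hp𝒪 : (p : 𝒪) ∈ IsLocalRing.maximalIdeal 𝒪) :
    (p : T) ∈ IsLocalRing.maximalIdeal T := by
  have h := map_nonunit (algebraMap 𝒪 T) (p : 𝒪) hp𝒪
  rwa [map_natCast] at h

/-- `2` is a unit of `T` (hypotheses of S32). -/
theorem isUnit_two_datum (hp : p.Prime) (hp2 : p ≠ 2)
    (hp𝒪 : (p : 𝒪) ∈ IsLocalRing.maximalIdeal 𝒪) : IsUnit (2 : T) :=
  isUnit_two_of_odd_prime_mem hp hp2 (natCast_mem_maximalIdeal_of_algebra (T := T) hp𝒪)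

/-- **[X] for a Hecke-Galois datum**: with the hypotheses of S32, a `QuadData` `Q` over `B` and
`Θ : B →+* T` mapping the trace function of `Q` to the trace of `H.ρ`, there are `τ₀ σ₀` with
`Θ (x₁₂ τ₀ σ₀)` a unit and `Θ (x₂₁ σ₀ τ₀) = Θ (x₁₂ τ₀ σ₀)`. -/
theorem exists_isUnit_map_x12_datum (hp : p.Prime) (hp2 : p ≠ 2)
    (hp𝒪 : (p : 𝒪) ∈ IsLocalRing.maximalIdeal 𝒪)
    (H : CuspForm.HeckeGaloisRepDatum N (↑S : Set ℕ) 𝒪 θ T)
    {B : Type*} [CommRing B] {L : Type*} [AddCommGroup L] [Module B L]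
    (Q : Fermat.Agent.P3.helper22.QuadData Γℚ B L) (Θ : B →+* T)
    (hΘ : ∀ g : Γℚ, Θ (Q.t g) = H.ρ.trace g) :
    ∃ τ₀ σ₀ : Γℚ, IsUnit (Θ (Q.x12 τ₀ σ₀)) ∧ Θ (Q.x21 σ₀ τ₀) = Θ (Q.x12 τ₀ σ₀) :=
  exists_isUnit_map_x12 Q H.ρ Θ hΘ (isUnit_two_datum (T := T) hp hp2 hp𝒪) H.residual_absIrr

/-- **power trick**: a unit `Θ x` has an inverse modulo an ideal of finite index which comes
from `B` (namely a power of `x`). -/
theorem exists_mul_sub_one_mem {B : Type*} [CommRing B] {A : Type*} [CommRing A] (Θ : B →+* A)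
    (I : Ideal A) [Finite (A ⧸ I)] (x : B) (hx : IsUnit (Θ x)) :
    ∃ x' : B, Θ (x * x') - 1 ∈ I := by
  have hu : IsUnit (Ideal.Quotient.mk I (Θ x)) := hx.map (Ideal.Quotient.mk I)
  obtain ⟨u, hu⟩ := hu
  have hfin : Finite (A ⧸ I)ˣ := inferInstance
  have hn : 0 < Nat.card (A ⧸ I)ˣ := Nat.card_pos
  have h1 : u ^ Nat.card (A ⧸ I)ˣ = 1 := pow_card_eq_one'
  refine ⟨x ^ (Nat.card (A ⧸ I)ˣ - 1), ?_⟩
  rw [← pow_succ', Nat.sub_add_cancel hn, map_pow, ← Ideal.Quotient.eq, map_pow, map_one, ← hu,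
    ← Units.val_pow_eq_pow_val, h1, Units.val_one]

/-- **[X] + power trick for a Hecke-Galois datum**: `τ₀ σ₀ x'` as needed by
`helper67.exists_subquotient` (`hsym`, `hV` for `V / I V`, on which `B` acts through `Θ`). -/
theorem exists_x12_datum (hp : p.Prime) (hp2 : p ≠ 2)
    (hp𝒪 : (p : 𝒪) ∈ IsLocalRing.maximalIdeal 𝒪)
    (H : CuspForm.HeckeGaloisRepDatum N (↑S : Set ℕ) 𝒪 θ T)
    {B : Type*} [CommRing B] {L : Type*} [AddCommGroup L] [Module B L]
    (Q : Fermat.Agent.P3.helper22.QuadData Γℚ B L) (Θ : B →+* T)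
    (hΘ : ∀ g : Γℚ, Θ (Q.t g) = H.ρ.trace g) (I : Ideal T) [Finite (T ⧸ I)] :
    ∃ (τ₀ σ₀ : Γℚ) (x' : B), IsUnit (Θ (Q.x12 τ₀ σ₀)) ∧
      Θ (Q.x21 σ₀ τ₀) = Θ (Q.x12 τ₀ σ₀) ∧ Θ (Q.x12 τ₀ σ₀ * x') - 1 ∈ I := by
  obtain ⟨τ₀, σ₀, hu, hs⟩ := exists_isUnit_map_x12_datum hp hp2 hp𝒪 H Q Θ hΘ
  obtain ⟨x', hx'⟩ := exists_mul_sub_one_mem Θ I (Q.x12 τ₀ σ₀) hu
  exact ⟨τ₀, σ₀, x', hu, hs, hx'⟩

end Datum

end Fermat.Agent.T6.helper95
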