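import Mathlib
import Fermat.Agent.T6.helper33_HopfOrderGen
import Fermat.Agent.S37.helper39_PullInj
import Fermat.Agent.P3.helper10_GalHecke

/-!
# T6 (S19), [LEVEL] (helper95): S19 at ARBITRARY level from Hopf orders at the GOOD levels

The frozen statement S19 is for an arbitrary level `p` and an arbitrary prime `ℓ ∤ p`; the
geometric construction of the Hopf order works at the good levels `M` (`4 ∣ M` or `9 ∣ M`).

The pull-back `β_r^* = S37.helper16.pullPic N r : J₀(N) → J₀(N r)` along `β_r : f(q) ↦ f(q^r)` is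
injective on torsion for `r = 4, 9` (`S37.helper39.pullInj_four / pullInj_nine`) and commutes with
the action of `G_ℚ`.  Hence `J₀(N)[ℓ^k]` is a `G_ℚ`-stable subgroup of `J₀(N r)[ℓ^k]`, and a Hopf
order of functions on `J₀(N r)[ℓ^k]` restricts to a Hopf order on `J₀(N)[ℓ^k]`.

* `IsHopfOrder.comap_of_injective` : restriction of a Hopf order along an injective equivariant
  homomorphism (Mathlib only).
* `pullPic_smul` : `pullPic N r (σ • x) = σ • pullPic N r x`.
* `OrderStatement M ℓ k` : `J₀(M)[ℓ^k]` is finite and carries a Hopf order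
  (`helper33.IsHopfOrder ℓ (torsAct (ℓ^k))`).
* `orderStatement_of_mul` : `OrderStatement (N * r) ℓ k → OrderStatement N ℓ k` (`r = 4, 9`).
* `s19_of_orderStatement` : the frozen conclusion of S19 from `OrderStatement p ℓ k`.
* `s19_of_good` : **the frozen statement S19 (all levels) from `OrderStatement` at the good
  levels.**
-/

set_option autoImplicit false
set_option linter.unusedSectionVars false
set_option linter.unusedVariables false
set_option linter.style.longLine false
set_option linter.style.haveILetI false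

noncomputable section

open AlgebraicCurve ModularCurve

namespace Fermat.Agent.T6.helper95

open Fermat.Agent.S28.helper94 (Zl)
open Fermat.Agent.T6.helper33 (Qb GQ IsHopfOrder pre pre_apply torsAct coe_torsAct
  torsAct_surjective torsAct_zero exists_hopf_torsion)
open Fermat.Agent.S37.helper16 (pullPic pullPic_mk pullDegZero coe_pullDegZero betaR
  betaR_integral hasPD_mul PullInjStatement)

/-! ### Restriction of a Hopf order along an injective equivariant homomorphism -/

section Comap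

variable {ℓ : ℕ} [hℓ : Fact ℓ.Prime] {T T' : Type} [AddCommGroup T] [Finite T]
  [AddCommGroup T'] [Finite T']

/-- **restriction of a Hopf order** along an injective equivariant homomorphism `u : T' → T`:
the functions `φ ∘ u`, `φ ∈ H`, form a Hopf order on `T'`. -/
theorem IsHopfOrder.comap_of_injective {act : GQ → T → T} {act' : GQ → T' → T'}
    {H : Subalgebra (Zl ℓ) (T → Qb)} (h : IsHopfOrder ℓ act H) (u : T' →+ T)
    (hu : Function.Injective u) (hact : ∀ σ x, u (act' σ x) = act σ (u x))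
    (hsurj : ∀ σ, Function.Surjective (act' σ)) (hzero : ∀ σ, act' σ 0 = 0) :
    IsHopfOrder ℓ act' (H.map (pre ℓ (u : T' → T))) where
  act_surj := hsurj
  act_zero := hzero
  fg := by
    have e : (H.map (pre ℓ (u : T' → T))).toSubmodule =
        H.toSubmodule.map (pre ℓ (u : T' → T)).toLinearMap := Subalgebra.map_toSubmodule
    rw [e]
    exact h.fg.map _
  equivariant := by
    rintro _ ⟨φ, hφ, rfl⟩ σ x
    show φ (u (act' σ x)) = σ (φ (u x))
    rw [hact, h.equivariant φ hφ]
  sep := by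
    intro x y hxy
    obtain ⟨φ, hφ, hne⟩ := h.sep (u x) (u y) (fun e => hxy (hu e))
    exact ⟨pre ℓ (u : T' → T) φ, ⟨φ, hφ, rfl⟩, hne⟩
  comul := by
    rintro _ ⟨φ, hφ, rfl⟩
    obtain ⟨n, a, b, ha, hb, hab⟩ := h.comul φ hφ
    refine ⟨n, fun i => pre ℓ (u : T' → T) (a i), fun i => pre ℓ (u : T' → T) (b i),
      fun i => ⟨a i, ha i, rfl⟩, fun i => ⟨b i, hb i, rfl⟩, fun x y => ?_⟩
    show φ (u (x + y)) = ∑ i, a i (u x) * b i (u y)
    rw [map_add, hab]
  neg := by
    rintro _ ⟨φ, hφ, rfl⟩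
    refine ⟨fun x => φ (-x), h.neg φ hφ, ?_⟩
    funext x
    show φ (-(u x)) = φ (u (-x))
    rw [map_neg]

end Comap

/-! ### The pull-back along `β_r` commutes with the Galois action -/

section Pull

variable (N r : ℕ) [NeZero N] [NeZero r]

/-- the pull-back of divisor classes along `β_r` commutes with the action of `G_ℚ`. -/
theorem pullPic_smul (σ : GQ) (x : JZero N) :
    pullPic N r (σ • x) = σ • pullPic N r x := by
  obtain ⟨D, rfl⟩ := Pic0.mk_surjective x
  rw [galois_smul_pic0_def, galois_smul_pic0_def, SemilinearAut.pic0_smul_mk, pullPic_mk,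
    pullPic_mk, SemilinearAut.pic0_smul_mk]
  refine congrArg Pic0.mk (Subtype.ext ?_)
  rw [coe_pullDegZero, SemilinearAut.coe_degZeroSMulHom, SemilinearAut.coe_degZeroSMulHom,
    coe_pullDegZero]
  haveI := hasPD_mul N r
  exact Fermat.Agent.P3.helper10.pullbackAlong_smul (betaR N r) (betaR_integral N r)
    (Fermat.Agent.P3.helper10.intertwines_heckeBetaBar N r σ) _

/-- the pull-back on the `n`-torsion -/
def pullTors (n : ℤ) :
    Submodule.torsionBy ℤ (JZero N) n →+ Submodule.torsionBy ℤ (JZero (N * r)) n where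
  toFun x := ⟨pullPic N r (x : JZero N), by
    rw [Submodule.mem_torsionBy_iff, ← map_zsmul, (Submodule.mem_torsionBy_iff _ _).mp x.2,
      map_zero]⟩
  map_zero' := Subtype.ext (map_zero _)
  map_add' x y := Subtype.ext (map_add _ _ _)

@[simp]
theorem coe_pullTors (n : ℤ) (x : Submodule.torsionBy ℤ (JZero N) n) :
    ((pullTors N r n x : Submodule.torsionBy ℤ (JZero (N * r)) n) : JZero (N * r)) =
      pullPic N r (x : JZero N) := rfl

variable {N r}

theorem pullTors_injective (hP : PullInjStatement N r) {n : ℤ} (hn : n ≠ 0) :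
    Function.Injective (pullTors N r n) := by
  rw [injective_iff_map_eq_zero]
  intro x hx
  have h1 : pullPic N r (x : JZero N) = 0 := congrArg Subtype.val hx
  have h2 : n • (x : JZero N) = 0 := (Submodule.mem_torsionBy_iff _ _).mp x.2
  have h3 : n.natAbs • (x : JZero N) = 0 := by
    rw [← natCast_zsmul]
    have hcases : ((n.natAbs : ℕ) : ℤ) = n ∨ ((n.natAbs : ℕ) : ℤ) = -n := by omega
    rcases hcases with e | e
    · rw [e]
      exact h2
    · rw [e, neg_smul, h2, neg_zero]
  exact Subtype.ext (hP n.natAbs (Int.natAbs_ne_zero.mpr hn) _ h3 h1)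

theorem pullTors_torsAct (n : ℤ) (σ : GQ) (x : Submodule.torsionBy ℤ (JZero N) n) :
    pullTors N r n (torsAct n σ x) = torsAct n σ (pullTors N r n x) :=
  Subtype.ext (pullPic_smul N r σ _)

end Pull

/-! ### The order statement and the level change -/

section Level

/-- **the order statement at level `M`**: the group `J₀(M)[ℓ^k]` is finite and carries a Hopf
order of functions (in the sense of `helper33.IsHopfOrder`). -/
def OrderStatement (M : ℕ) [NeZero M] (ℓ : ℕ) [Fact ℓ.Prime] (k : ℕ) : Prop :=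
  ∃ (_ : Finite (Submodule.torsionBy ℤ (JZero M) ((ℓ : ℤ) ^ k)))
    (H : Subalgebra (Zl ℓ) (Submodule.torsionBy ℤ (JZero M) ((ℓ : ℤ) ^ k) → Qb)),
    IsHopfOrder ℓ (torsAct ((ℓ : ℤ) ^ k)) H

variable {N r : ℕ} [NeZero N] [NeZero r] {ℓ : ℕ} [Fact ℓ.Prime] {k : ℕ}

/-- **level change**: a Hopf order at level `N r` restricts to a Hopf order at level `N`
(`r = 4, 9`). -/
theorem orderStatement_of_mul (hP : PullInjStatement N r) (h : OrderStatement (N * r) ℓ k) :
    OrderStatement N ℓ k := by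
  obtain ⟨hfin, H, hH⟩ := h
  have hn : ((ℓ : ℤ) ^ k) ≠ 0 := pow_ne_zero k (by exact_mod_cast (Fact.out : ℓ.Prime).ne_zero)
  have hinj := pullTors_injective hP hn
  haveI : Finite (Submodule.torsionBy ℤ (JZero N) ((ℓ : ℤ) ^ k)) := Finite.of_injective _ hinj
  exact ⟨inferInstance, _, IsHopfOrder.comap_of_injective hH (pullTors N r ((ℓ : ℤ) ^ k)) hinj
    (pullTors_torsAct _) (torsAct_surjective _) (torsAct_zero _)⟩

/-- the frozen conclusion of S19 at `(p, ℓ, k)` from the order statement. -/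
theorem s19_of_orderStatement (p : ℕ) [NeZero p] (ℓ : ℕ) [Fact ℓ.Prime] (k : ℕ)
    (h : OrderStatement p ℓ k) :
    ∃ (H : Type) (_ : CommRing H) (_ : HopfAlgebra (GaloisRep.ratLocalizedAt ℓ) H),
      Module.Finite (GaloisRep.ratLocalizedAt ℓ) H ∧ Module.Flat (GaloisRep.ratLocalizedAt ℓ) H ∧
      Coalgebra.IsCocomm (GaloisRep.ratLocalizedAt ℓ) H ∧
      ∃ e : WithConv (H →ₐ[GaloisRep.ratLocalizedAt ℓ] AlgebraicClosure ℚ) ≃
          ↥(Submodule.torsionBy ℤ (JZero p) ((ℓ : ℤ) ^ k)),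
        (∀ f g, e (f * g) = e f + e g) ∧
        ∀ (σ : AlgebraicClosure ℚ ≃ₐ[ℚ] AlgebraicClosure ℚ)
          (f g : WithConv (H →ₐ[GaloisRep.ratLocalizedAt ℓ] AlgebraicClosure ℚ)),
          (∀ h : H, g h = σ (f h)) → ((e g : JZero p)) = σ • (e f : JZero p) := by
  obtain ⟨hfin, H, hH⟩ := h
  exact exists_hopf_torsion ((ℓ : ℤ) ^ k) H hH

/-- **the order statement at ALL levels from the good levels.** -/
theorem orderStatement_of_good
    (hG : ∀ (M : ℕ) [NeZero M], (4 ∣ M ∨ 9 ∣ M) → ∀ (ℓ : ℕ) [Fact ℓ.Prime], ¬ ℓ ∣ M →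
      ∀ k : ℕ, OrderStatement M ℓ k)
    (p : ℕ) [NeZero p] (ℓ : ℕ) [Fact ℓ.Prime] (hℓp : ¬ ℓ ∣ p) (k : ℕ) :
    OrderStatement p ℓ k := by
  have hℓ : ℓ.Prime := Fact.out
  by_cases h2 : ℓ = 2
  · -- `ℓ = 2`: level `9 p`
    refine orderStatement_of_mul (r := 9) (Fermat.Agent.S37.helper39.pullInj_nine p)
      (hG (p * 9) (Or.inr (dvd_mul_left 9 p)) ℓ ?_ k)
    intro h
    rcases (Nat.Prime.dvd_mul hℓ).mp h with h' | h'
    · exact hℓp h'
    · subst h2
      omega
  · -- `ℓ` odd: level `4 p`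
    refine orderStatement_of_mul (r := 4) (Fermat.Agent.S37.helper39.pullInj_four p)
      (hG (p * 4) (Or.inl (dvd_mul_left 4 p)) ℓ ?_ k)
    intro h
    rcases (Nat.Prime.dvd_mul hℓ).mp h with h' | h'
    · exact hℓp h'
    · have h4 : ℓ ∣ 2 ^ 2 := by norm_num; exact h'
      exact h2 ((Nat.prime_dvd_prime_iff_eq hℓ Nat.prime_two).mp (hℓ.dvd_of_dvd_pow h4))

/-- **the frozen statement S19 (every level `p`, every prime `ℓ ∤ p`, every `k`) from the
order statement at the good levels.** -/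
theorem s19_of_good
    (hG : ∀ (M : ℕ) [NeZero M], (4 ∣ M ∨ 9 ∣ M) → ∀ (ℓ : ℕ) [Fact ℓ.Prime], ¬ ℓ ∣ M →
      ∀ k : ℕ, OrderStatement M ℓ k)
    (p : ℕ) [NeZero p] (ℓ : ℕ) [Fact ℓ.Prime] (hℓp : ¬ ℓ ∣ p) (k : ℕ) :
    ∃ (H : Type) (_ : CommRing H) (_ : HopfAlgebra (GaloisRep.ratLocalizedAt ℓ) H),
      Module.Finite (GaloisRep.ratLocalizedAt ℓ) H ∧ Module.Flat (GaloisRep.ratLocalizedAt ℓ) H ∧
      Coalgebra.IsCocomm (GaloisRep.ratLocalizedAt ℓ) H ∧
      ∃ e : WithConv (H →ₐ[GaloisRep.ratLocalizedAt ℓ] AlgebraicClosure ℚ) ≃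
          ↥(Submodule.torsionBy ℤ (JZero p) ((ℓ : ℤ) ^ k)),
        (∀ f g, e (f * g) = e f + e g) ∧
        ∀ (σ : AlgebraicClosure ℚ ≃ₐ[ℚ] AlgebraicClosure ℚ)
          (f g : WithConv (H →ₐ[GaloisRep.ratLocalizedAt ℓ] AlgebraicClosure ℚ)),
          (∀ h : H, g h = σ (f h)) → ((e g : JZero p)) = σ • (e f : JZero p) :=
  s19_of_orderStatement p ℓ k (orderStatement_of_good hG p ℓ hℓp k)

end Level

end Fermat.Agent.T6.helper95

end
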