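/-
helper96 — T6 (S19 / S32), block [I3-b]: the MOVING DIVISOR `R`.

At every `S37.helper16.RedSetting M A`, for an effective divisor `D`, a finite set `T` of places
of the special fibre and `n ≥ deg D + n₀ + 1` there is an `A`-integral function `s = incl Z`
with nonzero reduction such that `R := div s + n ∞ - D` is effective and NO point of `R` reduces
into `T`.

* `exists_moveR` : the statement;
* `exists_moveR_class` : the same with the class identity `R - n ∞ + D = div s` spelled out as
  a principal divisor.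

Proof: `helper98.exists_exact` on the special fibre, lifting by `helper16.W_eq_mapDomain`
(the reduction of the lattice of `L(n ∞ - D)` is all of `L̄(n ∞̄ - r_* D)`), and conservation of
number `RedSetting.rouche`.
-/
import Mathlib
import Fermat.Agent.T6.helper16_KmLat
import Fermat.Agent.T6.helper98_KMRR
import Fermat.Agent.P2.helper74_RieInst

set_option autoImplicit false
set_option synthInstance.maxHeartbeats 400000
set_option maxHeartbeats 1000000
set_option linter.unusedSectionVars false
set_option linter.unusedVariables false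
set_option linter.style.longLine false

noncomputable section

namespace Fermat.Agent.T6.helper96

open HahnSeries IntermediateField AlgebraicCurve ModularCurve
open Fermat.Agent.S18.helper19 Fermat.Agent.P2.helper29 Fermat.Agent.P2.helper22
open Fermat.Agent.S24
open Fermat.Agent.S37.helper16

variable {M : ℕ} [NeZero M] {A : ValuationSubring Kb}

/-- shortcut instance (slow to find by synthesis) -/
local instance algebraFFbMv : Algebra (kA A) (FFb A M) := SubalgebraClass.toAlgebra (FFb A M)

variable (S : RedSetting M A)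

/-- a nonnegative finitely supported function with a vanishing push-forward value vanishes on
the fibre -/
theorem eq_zero_of_mapDomain_eq_zero {α β : Type*} (r : α → β) (R : α →₀ ℤ)
    (hR : ∀ v, 0 ≤ R v) {Q : β} (h : Finsupp.mapDomain r R Q = 0) (v : α) (hv : r v = Q) :
    R v = 0 := by
  classical
  by_contra hne
  have hpos : 0 < R v := lt_of_le_of_ne (hR v) (Ne.symm hne)
  have hsum : Finsupp.mapDomain r R Q = ∑ a ∈ R.support, if r a = Q then R a else 0 := by
    rw [Finsupp.mapDomain, Finsupp.sum_apply, Finsupp.sum]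
    refine Finset.sum_congr rfl fun a _ => ?_
    rw [Finsupp.single_apply]
  rw [hsum] at h
  have hvs : v ∈ R.support := Finsupp.mem_support_iff.mpr hne
  have hnn : ∀ a ∈ R.support, 0 ≤ (if r a = Q then R a else 0) := fun a _ => by
    split_ifs
    · exact hR a
    · exact le_rfl
  have h0 := (Finset.sum_eq_zero_iff_of_nonneg hnn).mp h v hvs
  rw [if_pos hv] at h0
  omega

/-- push-forward of divisors along the reduction of places is additive -/
theorem mapDomain_sub' {α β : Type*} (r : α → β) (X Y : α →₀ ℤ) :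
    Finsupp.mapDomain r (X - Y) = Finsupp.mapDomain r X - Finsupp.mapDomain r Y :=
  map_sub (Finsupp.mapDomain.addMonoidHom r : (α →₀ ℤ) →+ (β →₀ ℤ)) X Y

/-- **[I3-b] the moving divisor, full form**: an effective `R = div s + n ∞ - D`, `s = incl Z`
an `A`-integral function of `L(n ∞ - D)` with nonzero reduction in the special fibre field,
such that the reduction of `s` has exact order `-(n ∞̄ - r_* D)` on `T`, the push-forward of `R`
vanishes on `T`, and no point of `R` reduces into `T`. -/
theorem exists_moveR_full (T : Finset (Place (kA A) (FFb A M))) {D : Divisor Kb (FF M)}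
    (hD : ∀ v, 0 ≤ D v) {n : ℤ} (hn : Divisor.degree D + S.n₀ + 1 ≤ n) :
    ∃ (Z : LaurentSeries A) (hZ : incl A Z ∈ FF M) (hb : red A Z ∈ FFb A M)
      (R : Divisor Kb (FF M)),
      red A Z ≠ 0 ∧ InL (FF M) n (incl A Z) ∧
      (⟨incl A Z, hZ⟩ : FF M) ∈ riemannRochSpace (Finsupp.single S.Pinf n - D) ∧
      (∀ v, 0 ≤ R v) ∧
      (∀ v, R v = v.ord (⟨incl A Z, hZ⟩ : FF M) + (Finsupp.single S.Pinf n - D) v) ∧
      (∀ Q ∈ T, Q.ord (⟨red A Z, hb⟩ : FFb A M) =
        -((Finsupp.single S.Qinf n - Finsupp.mapDomain S.rP D :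
          Divisor (kA A) (FFb A M)) Q)) ∧
      (∀ Q ∈ T, Finsupp.mapDomain S.rP R Q = 0) ∧
      ∀ v, R v ≠ 0 → S.rP v ∉ T := by
  classical
  have : IsAlgClosed (kA A) := Fermat.Agent.P2.helper74.isAlgClosed_residueField A
  have : Infinite (kA A) := IsAlgClosed.instInfinite
  have hS := riemannSetting_FF M
  set Xb : Divisor (kA A) (FFb A M) :=
    Finsupp.single S.Qinf n - Finsupp.mapDomain S.rP D with hXb
  have hdegXb : Divisor.degree Xb = n - Divisor.degree D := by
    rw [hXb, map_sub, degree_single_of S.hSb, ← S.Eplus_eq_mapDomain hD, S.degree_Eplus hD]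
  have hcb := S.cb_lt_n₀
  obtain ⟨sb, hsbL, hsb0, hsbT⟩ := Fermat.Agent.T6.helper98.exists_exact S.hSb S.hcb
    (D := Xb) (by rw [hdegXb]; omega) T
  -- lift to the lattice of `L(n ∞ - D)`
  have hW : sb ∈ S.W D n := by
    rw [Fermat.Agent.T6.helper16.W_eq_mapDomain S hD (by omega)]
    exact hsbL
  obtain ⟨Z, ⟨f, hf, hfZ⟩, hZred⟩ := hW
  have hZmem : incl A Z ∈ FF M := hfZ ▸ f.2
  have hred0 : red A Z ≠ 0 := by
    rw [hZred]
    intro h
    exact hsb0 (Subtype.ext h)
  have hfe : (⟨incl A Z, hZmem⟩ : FF M) = f := Subtype.ext hfZ.symm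
  have hf0 : f ≠ 0 := by
    rintro rfl
    apply hred0
    have h0 : incl A Z = 0 := hfZ.symm
    have hZ0 : Z = 0 := by
      ext k
      have hk := congrArg (fun u : LaurentSeries Kb => u.coeff k) h0
      simp only [coeffMap_coeff, HahnSeries.coeff_zero] at hk
      simpa using hk
    rw [hZ0, map_zero]
  obtain ⟨Df, hDf, hDfdeg⟩ := hS.principal.exists_divisor f hf0
  have hRnn : ∀ v, 0 ≤ (Df + S.XD D n) v := by
    intro v
    have h1 := (Fermat.Agent.P2.helper74.mem_L_iff' hf0).mp hf v
    rw [Finsupp.add_apply, hDf v]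
    omega
  have hInL : InL (FF M) n (incl A Z) := by
    rw [← hfZ]
    exact inL_of_mem_L S.hPinf (S.XD_le hD n) hf
  have hb : red A Z ∈ FFb A M := by
    rw [hZred]
    exact sb.2
  have hsbe : (⟨red A Z, hb⟩ : FFb A M) = sb := Subtype.ext hZred
  have hpush : ∀ Q ∈ T, Finsupp.mapDomain S.rP (Df + S.XD D n) Q = 0 := by
    intro Q hQ
    have hro := S.rouche hInL hb hred0 Df (fun P => by rw [hDf P, hfe]) Q
    rw [hsbe, hsbT _ hQ] at hro
    unfold RedSetting.XD
    rw [Finsupp.mapDomain_add, mapDomain_sub', Finsupp.mapDomain_single, S.rP_Pinf,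
      Finsupp.add_apply, hro, hXb, Finsupp.sub_apply]
    ring
  refine ⟨Z, hZmem, hb, Df + S.XD D n, hred0, hInL, ?_, hRnn, fun v => ?_, fun Q hQ => ?_,
    hpush, fun v hv hT => ?_⟩
  · rw [hfe]
    exact hf
  · rw [Finsupp.add_apply, hDf v, hfe]
    rfl
  · rw [hsbe]
    exact hsbT Q hQ
  · exact hv (eq_zero_of_mapDomain_eq_zero S.rP _ hRnn (hpush _ hT) v rfl)

/-- **[I3-b] the moving divisor**: an effective `R = div s + n ∞ - D`, `s` an `A`-integral
function with nonzero reduction, such that no point of `R` reduces into `T`. -/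
theorem exists_moveR (T : Finset (Place (kA A) (FFb A M))) {D : Divisor Kb (FF M)}
    (hD : ∀ v, 0 ≤ D v) {n : ℤ} (hn : Divisor.degree D + S.n₀ + 1 ≤ n) :
    ∃ (Z : LaurentSeries A) (hZ : incl A Z ∈ FF M) (R : Divisor Kb (FF M)),
      red A Z ≠ 0 ∧ (∀ v, 0 ≤ R v) ∧
      (∀ v, R v = v.ord (⟨incl A Z, hZ⟩ : FF M) + (Finsupp.single S.Pinf n - D) v) ∧
      ∀ v, R v ≠ 0 → S.rP v ∉ T := by
  obtain ⟨Z, hZ, -, R, h0, -, -, hR, hRe, -, -, hT⟩ := exists_moveR_full S T hD hn
  exact ⟨Z, hZ, R, h0, hR, hRe, hT⟩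

/-- the degree of the moving divisor -/
theorem degree_moveR {D R : Divisor Kb (FF M)} {n : ℤ} {s : FF M} (hs : s ≠ 0)
    (hR : ∀ v, R v = v.ord s + (Finsupp.single S.Pinf n - D) v) :
    Divisor.degree R = n - Divisor.degree D := by
  classical
  have hS := riemannSetting_FF M
  obtain ⟨Ds, hDs, hDsdeg⟩ := hS.principal.exists_divisor s hs
  have e : R = Ds + (Finsupp.single S.Pinf n - D) := by
    ext v
    rw [hR v, Finsupp.add_apply, hDs v]
  rw [e, map_add, hDsdeg, map_sub, degree_single_of hS, zero_add]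

end Fermat.Agent.T6.helper96

end
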