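/-
T6 (S19 / S32), helper97: **[I5] core, Mathlib only** - the algebra behind the integrality
statement (TI) of the Fourier criterion.

`K` a field (`ℚ̄`), `A` a subring (a valuation ring over `ℓ`), `Γ` acting on a set `X` (`act`) and
on `K` (`gal`; any family of ring endomorphisms: the full Galois group, a decomposition group or
an inertia group).

* `eqInt A act gal` : the monoid of the equivariant `A`-valued functions `X → K`;
* `tiAlg A act gal` : the `A`-algebra generated (= `A`-span, `tiAlg_toSubmodule`) by them;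
  (TI) for a character `χ` is the statement `χ ∈ tiAlg`, in finite-sum form
  `exists_sum_of_mem_tiAlg` / `mem_tiAlg_of_sum`;
* `inv_mem_tiAlg` : a unit-valued element of `tiAlg` has its inverse in `tiAlg`;
* `symPoly x s = ∏_{P ∈ s} (∑ j, x_j(P) X_j)` : its coefficients are the polarised symmetric
  functions of the points of the multiset `s`; `coeff_symPoly_mem_eqInt`, `symProd_mem_tiAlg`:
  for an equivariant family `u ↦ s u` the function `u ↦ ∏_{P ∈ s u} ∑ j, x_j(P) b_j` is in `tiAlg`;
* `comp_mem_tiAlg` : functions of an invariant quantity;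
* `mem_tiAlg_of_mul_eq` : `χ * N = Φ`, `N` unit-valued, `N, Φ ∈ tiAlg` gives `χ ∈ tiAlg`.
-/
import Mathlib

set_option autoImplicit false

noncomputable section

namespace Fermat.Agent.T6.helper97

open MvPolynomial

section Span

variable {K : Type*} [Field K] (A : Subring K)
variable {Γ X : Type*} (act : Γ → X → X) (gal : Γ → K →+* K)

/-- The multiplicative monoid of the equivariant `A`-valued functions. -/
def eqInt : Submonoid (X → K) where
  carrier := {f | (∀ γ x, f (act γ x) = gal γ (f x)) ∧ ∀ x, f x ∈ A}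
  one_mem' := ⟨fun γ x => by simp, fun x => A.one_mem⟩
  mul_mem' := fun {f g} hf hg =>
    ⟨fun γ x => by simp [hf.1 γ x, hg.1 γ x], fun x => A.mul_mem (hf.2 x) (hg.2 x)⟩

theorem mem_eqInt {f : X → K} :
    f ∈ eqInt A act gal ↔ (∀ γ x, f (act γ x) = gal γ (f x)) ∧ ∀ x, f x ∈ A := Iff.rfl

/-- The `A`-algebra generated (= spanned) by the equivariant `A`-valued functions. -/
def tiAlg : Subalgebra A (X → K) := Algebra.adjoin A (eqInt A act gal : Set (X → K))

theorem tiAlg_toSubmodule :
    Subalgebra.toSubmodule (tiAlg A act gal) =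
      Submodule.span A (eqInt A act gal : Set (X → K)) := by
  rw [tiAlg, Algebra.adjoin_eq_span, Submonoid.closure_eq]

theorem mem_tiAlg_of_eqInt {f : X → K} (hf : f ∈ eqInt A act gal) : f ∈ tiAlg A act gal :=
  Algebra.subset_adjoin hf

theorem const_mem_tiAlg (a : K) (ha : a ∈ A) : (fun _ : X => a) ∈ tiAlg A act gal := by
  have : (fun _ : X => a) = algebraMap A (X → K) ⟨a, ha⟩ := by
    funext x; rfl
  rw [this]; exact Subalgebra.algebraMap_mem _ _

theorem const_mul_mem_tiAlg (a : K) (ha : a ∈ A) {f : X → K} (hf : f ∈ tiAlg A act gal) :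
    (fun x => a * f x) ∈ tiAlg A act gal :=
  (tiAlg A act gal).mul_mem (const_mem_tiAlg A act gal a ha) hf

/-- The elements of `tiAlg` are `A`-valued. -/
theorem apply_mem_of_mem_tiAlg {f : X → K} (hf : f ∈ tiAlg A act gal) (x : X) : f x ∈ A := by
  induction hf using Algebra.adjoin_induction with
  | mem f hf => exact hf.2 x
  | algebraMap r => exact r.2
  | add f g _ _ hf hg => exact A.add_mem hf hg
  | mul f g _ _ hf hg => exact A.mul_mem hf hg

/-- Finite-sum form of membership in `tiAlg`. -/
theorem exists_sum_of_mem_span {χ : X → K}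
    (h : χ ∈ Submodule.span A (eqInt A act gal : Set (X → K))) :
    ∃ (n : ℕ) (a : Fin n → K) (f : Fin n → X → K), (∀ i, a i ∈ A) ∧
      (∀ i, (∀ γ x, f i (act γ x) = gal γ (f i x)) ∧ ∀ x, f i x ∈ A) ∧
      ∀ x, χ x = ∑ i, a i * f i x := by
  induction h using Submodule.span_induction with
  | mem f hf =>
    exact ⟨1, fun _ => 1, fun _ => f, fun _ => A.one_mem, fun _ => hf, fun x => by simp⟩
  | zero => exact ⟨0, Fin.elim0, Fin.elim0, fun i => i.elim0, fun i => i.elim0, fun x => by simp⟩
  | add f g _ _ hf hg =>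
    obtain ⟨n, a, F, ha, hF, hs⟩ := hf
    obtain ⟨n', a', F', ha', hF', hs'⟩ := hg
    refine ⟨n + n', Fin.append a a', Fin.append F F', ?_, ?_, ?_⟩
    · intro i
      induction i using Fin.addCases with
      | left i => simpa using ha i
      | right i => simpa using ha' i
    · intro i
      induction i using Fin.addCases with
      | left i => simpa using hF i
      | right i => simpa using hF' i
    · intro x
      simp [Fin.sum_univ_add, hs x, hs' x]
  | smul r f _ hf =>
    obtain ⟨n, a, F, ha, hF, hs⟩ := hf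
    refine ⟨n, fun i => r * a i, F, fun i => A.mul_mem r.2 (ha i), hF, fun x => ?_⟩
    have : (r • f) x = (r : K) * f x := rfl
    rw [this, hs x, Finset.mul_sum]
    exact Finset.sum_congr rfl fun i _ => (mul_assoc _ _ _).symm

/-- Finite-sum form of membership in `tiAlg`. -/
theorem exists_sum_of_mem_tiAlg {χ : X → K} (hχ : χ ∈ tiAlg A act gal) :
    ∃ (n : ℕ) (a : Fin n → K) (f : Fin n → X → K), (∀ i, a i ∈ A) ∧
      (∀ i, (∀ γ x, f i (act γ x) = gal γ (f i x)) ∧ ∀ x, f i x ∈ A) ∧
      ∀ x, χ x = ∑ i, a i * f i x := by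
  apply exists_sum_of_mem_span
  rw [← tiAlg_toSubmodule]; exact hχ

/-- Converse: a finite `A`-combination of equivariant `A`-valued functions lies in `tiAlg`. -/
theorem mem_tiAlg_of_sum {χ : X → K} {n : ℕ} (a : Fin n → K) (f : Fin n → X → K)
    (ha : ∀ i, a i ∈ A) (hf : ∀ i, f i ∈ eqInt A act gal) (h : ∀ x, χ x = ∑ i, a i * f i x) :
    χ ∈ tiAlg A act gal := by
  have : χ = ∑ i, (fun x => a i * f i x) := by
    funext x; rw [h x]; simp
  rw [this]
  exact Subalgebra.sum_mem _ fun i _ =>
    const_mul_mem_tiAlg A act gal (a i) (ha i) (mem_tiAlg_of_eqInt A act gal (hf i))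

/-- **Inverses**: a unit-valued element of `tiAlg` has its inverse in `tiAlg`
(characteristic polynomial `∏ (T - φ x)` with unit constant term). -/
theorem inv_mem_tiAlg [Finite X] {φ : X → K} (hφ : φ ∈ tiAlg A act gal)
    (hu : ∀ x, ∃ a ∈ A, φ x * a = 1) : (fun x => (φ x)⁻¹) ∈ tiAlg A act gal := by
  classical
  cases nonempty_fintype X
  have hA : ∀ x, φ x ∈ A := apply_mem_of_mem_tiAlg A act gal hφ
  -- the characteristic polynomial over `A`
  set p : Polynomial A := ∏ x : X, (Polynomial.X - Polynomial.C ⟨φ x, hA x⟩) with hp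
  have hev : Polynomial.aeval φ p = 0 := by
    funext x
    have h1 : (Polynomial.aeval φ p) x = Polynomial.aeval (φ x) p := by
      have := Polynomial.aeval_algHom_apply (Pi.evalAlgHom A (fun _ : X => K) x) φ p
      simpa using this.symm
    rw [h1, hp, map_prod]
    simp only [Pi.zero_apply]
    apply Finset.prod_eq_zero (Finset.mem_univ x)
    simp only [map_sub, Polynomial.aeval_X, Polynomial.aeval_C]
    exact sub_self (φ x)
  -- the constant term is a unit
  have hc0 : ∃ e : A, p.coeff 0 * e = 1 := by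
    choose a ha hmul using hu
    refine ⟨∏ x : X, -(⟨a x, ha x⟩ : A), ?_⟩
    rw [Polynomial.coeff_zero_eq_eval_zero, hp, Polynomial.eval_prod, ← Finset.prod_mul_distrib]
    apply Finset.prod_eq_one
    intro x _
    simp only [Polynomial.eval_sub, Polynomial.eval_X, Polynomial.eval_C, zero_sub, neg_mul_neg]
    exact Subtype.ext (hmul x)
  obtain ⟨e, he⟩ := hc0
  -- `p = divX p * X + C (coeff 0)`
  have hdec : Polynomial.aeval φ (Polynomial.divX p) * φ + algebraMap A (X → K) (p.coeff 0) = 0 := by
    rw [← hev]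
    conv_rhs => rw [← Polynomial.divX_mul_X_add p]
    simp
  have hinv : (fun x => (φ x)⁻¹) = (-e) • Polynomial.aeval φ (Polynomial.divX p) := by
    funext x
    have h1 := congrFun hdec x
    simp only [Pi.add_apply, Pi.mul_apply, Pi.zero_apply] at h1
    have h2 : (algebraMap A (X → K) (p.coeff 0)) x = ((p.coeff 0 : A) : K) := rfl
    rw [h2] at h1
    have h3 : ((p.coeff 0 : A) : K) * (e : K) = 1 := by
      have := congrArg (Subtype.val) he
      simpa using this
    have hx0 : φ x ≠ 0 := by
      obtain ⟨a, _, h⟩ := hu x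
      intro h0; rw [h0, zero_mul] at h; exact zero_ne_one h
    have h4 : ((-e) • Polynomial.aeval φ (Polynomial.divX p)) x
        = -(e : K) * (Polynomial.aeval φ (Polynomial.divX p)) x := rfl
    rw [h4]
    set q := (Polynomial.aeval φ (Polynomial.divX p)) x with hq
    have h5 : q * φ x = -((p.coeff 0 : A) : K) := by linear_combination h1
    symm
    apply eq_inv_of_mul_eq_one_left
    linear_combination (-(e : K)) * h5 + h3
  rw [hinv]
  apply Subalgebra.smul_mem
  have : Polynomial.aeval φ (Polynomial.divX p) ∈ Algebra.adjoin A {φ} :=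
    Polynomial.aeval_mem_adjoin_singleton _ _
  exact (Algebra.adjoin_le (by simpa using hφ) : Algebra.adjoin A {φ} ≤ tiAlg A act gal) this

end Span

section Sym

variable {K : Type*} [Field K] (A : Subring K) {ι Pt : Type*} [Fintype ι]

/-- The linear form `∑ j, x_j(P) X_j` attached to a point `P` with coordinates `x_j(P)`. -/
def linForm (x : Pt → ι → K) (P : Pt) : MvPolynomial ι K := ∑ j, C (x P j) * X j

/-- The product of the linear forms of the points of a multiset `s`: its coefficients are the
polarised symmetric functions of the points of `s`. -/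
def symPoly (x : Pt → ι → K) (s : Multiset Pt) : MvPolynomial ι K := (s.map (linForm x)).prod

theorem eval_linForm (x : Pt → ι → K) (b : ι → K) (P : Pt) :
    eval b (linForm x P) = ∑ j, x P j * b j := by
  simp [linForm]

theorem eval_symPoly (x : Pt → ι → K) (b : ι → K) (s : Multiset Pt) :
    eval b (symPoly x s) = (s.map fun P => ∑ j, x P j * b j).prod := by
  rw [symPoly, map_multiset_prod, Multiset.map_map]
  congr 1
  apply Multiset.map_congr rfl
  intro P _
  exact eval_linForm x b P

theorem symPoly_congr {x x' : Pt → ι → K} {s : Multiset Pt} (h : ∀ P ∈ s, ∀ j, x P j = x' P j) :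
    symPoly x s = symPoly x' s := by
  rw [symPoly, symPoly]
  congr 1
  apply Multiset.map_congr rfl
  intro P hP
  simp only [linForm]
  exact Finset.sum_congr rfl fun j _ => by rw [h P hP j]

theorem symPoly_map (g : Pt → Pt) (x : Pt → ι → K) (s : Multiset Pt) :
    symPoly x (s.map g) = symPoly (fun P => x (g P)) s := by
  rw [symPoly, symPoly, Multiset.map_map]
  rfl

theorem map_symPoly (σ : K →+* K) (x : Pt → ι → K) (s : Multiset Pt) :
    MvPolynomial.map σ (symPoly x s) = symPoly (fun P j => σ (x P j)) s := by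
  rw [symPoly, symPoly, map_multiset_prod, Multiset.map_map]
  congr 1
  apply Multiset.map_congr rfl
  intro P _
  simp [linForm]

theorem linForm_mem_range (x : Pt → ι → K) (P : Pt) (h : ∀ j, x P j ∈ A) :
    linForm x P ∈ (MvPolynomial.map (σ := ι) A.subtype).range := by
  refine ⟨∑ j, C ⟨x P j, h j⟩ * X j, ?_⟩
  simp [linForm]

theorem symPoly_mem_range (x : Pt → ι → K) (s : Multiset Pt) (h : ∀ P ∈ s, ∀ j, x P j ∈ A) :
    symPoly x s ∈ (MvPolynomial.map (σ := ι) A.subtype).range := by
  rw [symPoly]
  apply Subring.multiset_prod_mem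
  intro q hq
  obtain ⟨P, hP, rfl⟩ := Multiset.mem_map.1 hq
  exact linForm_mem_range A x P (h P hP)

/-- The coefficients of `symPoly` lie in `A` when the coordinates do. -/
theorem coeff_symPoly_mem (x : Pt → ι → K) (s : Multiset Pt) (h : ∀ P ∈ s, ∀ j, x P j ∈ A)
    (α : ι →₀ ℕ) : coeff α (symPoly x s) ∈ A := by
  obtain ⟨q, hq⟩ := symPoly_mem_range A x s h
  rw [← hq, MvPolynomial.coeff_map]
  exact (coeff α q).2

end Sym

section Equivariant

variable {K : Type*} [Field K] (A : Subring K)
variable {Γ X : Type*} (act : Γ → X → X) (gal : Γ → K →+* K)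
variable {ι Pt : Type*} [Fintype ι]

/-- The polarised symmetric functions of the points of an equivariant family of multisets are
equivariant `A`-valued functions. -/
theorem coeff_symPoly_mem_eqInt (actP : Γ → Pt → Pt) (x : Pt → ι → K) (s : X → Multiset Pt)
    (hs : ∀ γ u, s (act γ u) = (s u).map (actP γ))
    (hx : ∀ γ u, ∀ P ∈ s u, ∀ j, x (actP γ P) j = gal γ (x P j))
    (hxA : ∀ u, ∀ P ∈ s u, ∀ j, x P j ∈ A) (α : ι →₀ ℕ) :
    (fun u => coeff α (symPoly x (s u))) ∈ eqInt A act gal := by
  refine ⟨fun γ u => ?_, fun u => coeff_symPoly_mem A x (s u) (hxA u) α⟩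
  show coeff α (symPoly x (s (act γ u))) = gal γ (coeff α (symPoly x (s u)))
  rw [hs γ u, symPoly_map, ← MvPolynomial.coeff_map, map_symPoly]
  congr 1
  exact symPoly_congr fun P hP j => hx γ u P hP j

/-- **Symmetric functions**: `u ↦ ∏_{P ∈ s u} ∑ j, x_j(P) b_j` lies in `tiAlg` for constants
`b_j ∈ A`, an equivariant family of multisets `s u` and equivariant `A`-valued coordinates. -/
theorem symProd_mem_tiAlg [Finite X] (actP : Γ → Pt → Pt) (x : Pt → ι → K)
    (s : X → Multiset Pt) (hs : ∀ γ u, s (act γ u) = (s u).map (actP γ))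
    (hx : ∀ γ u, ∀ P ∈ s u, ∀ j, x (actP γ P) j = gal γ (x P j))
    (hxA : ∀ u, ∀ P ∈ s u, ∀ j, x P j ∈ A) (b : ι → K) (hb : ∀ j, b j ∈ A) :
    (fun u => ((s u).map fun P => ∑ j, x P j * b j).prod) ∈ tiAlg A act gal := by
  classical
  cases nonempty_fintype X
  set S : Finset (ι →₀ ℕ) := Finset.univ.biUnion fun u : X => (symPoly x (s u)).support with hS
  have key : (fun u => ((s u).map fun P => ∑ j, x P j * b j).prod)
      = ∑ α ∈ S, fun u => (∏ j, b j ^ α j) * coeff α (symPoly x (s u)) := by
    funext u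
    rw [← eval_symPoly, MvPolynomial.eval_eq', Finset.sum_apply]
    have hsub : (symPoly x (s u)).support ⊆ S := by
      intro α hα
      exact Finset.mem_biUnion.2 ⟨u, Finset.mem_univ u, hα⟩
    rw [← Finset.sum_subset hsub]
    · exact Finset.sum_congr rfl fun α _ => mul_comm _ _
    · intro α _ hα
      rw [MvPolynomial.notMem_support_iff.1 hα, mul_zero]
  rw [key]
  refine Subalgebra.sum_mem _ fun α _ => ?_
  refine const_mul_mem_tiAlg A act gal _ ?_ (mem_tiAlg_of_eqInt A act gal
    (coeff_symPoly_mem_eqInt A act gal actP x s hs hx hxA α))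
  exact Subring.prod_mem _ fun j _ => Subring.pow_mem _ (hb j) _

/-- A function of an invariant quantity with values in `A` lies in `tiAlg`. -/
theorem comp_mem_tiAlg [Finite X] {M : Type*} (m : X → M) (hm : ∀ γ u, m (act γ u) = m u)
    (F : M → K) (hF : ∀ k, F k ∈ A) : (fun u => F (m u)) ∈ tiAlg A act gal := by
  classical
  cases nonempty_fintype X
  have key : (fun u => F (m u))
      = ∑ k ∈ Finset.univ.image m, fun u => F k * (if m u = k then 1 else 0) := by
    funext u
    rw [Finset.sum_apply]
    rw [Finset.sum_eq_single (m u)]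
    · simp
    · intro k _ hk
      rw [if_neg (Ne.symm hk), mul_zero]
    · intro h
      exact absurd (Finset.mem_image_of_mem m (Finset.mem_univ u)) h
  rw [key]
  refine Subalgebra.sum_mem _ fun k _ => ?_
  refine const_mul_mem_tiAlg A act gal _ (hF k) (mem_tiAlg_of_eqInt A act gal ⟨?_, ?_⟩)
  · intro γ u
    show (if m (act γ u) = k then (1 : K) else 0) = gal γ (if m u = k then 1 else 0)
    rw [hm γ u]
    split_ifs <;> simp
  · intro u
    show (if m u = k then (1 : K) else 0) ∈ A
    split_ifs
    · exact A.one_mem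
    · exact A.zero_mem

/-- **Abstract assembly**: if `χ * N = Φ` with `N, Φ ∈ tiAlg` and `N` unit-valued, then
`χ ∈ tiAlg`. -/
theorem mem_tiAlg_of_mul_eq [Finite X] {χ N Φ : X → K} (hN : N ∈ tiAlg A act gal)
    (hΦ : Φ ∈ tiAlg A act gal) (hu : ∀ u, ∃ a ∈ A, N u * a = 1) (h : ∀ u, χ u * N u = Φ u) :
    χ ∈ tiAlg A act gal := by
  have hinv := inv_mem_tiAlg A act gal hN hu
  have : χ = Φ * fun u => (N u)⁻¹ := by
    funext u
    have hN0 : N u ≠ 0 := by
      obtain ⟨a, _, ha⟩ := hu u
      intro h0; rw [h0, zero_mul] at ha; exact zero_ne_one ha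
    simp only [Pi.mul_apply]
    rw [← h u, mul_assoc, mul_inv_cancel₀ hN0, mul_one]
  rw [this]
  exact Subalgebra.mul_mem _ hΦ hinv

end Equivariant

end Fermat.Agent.T6.helper97
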