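/-
TIER 6 (S19 / S32), helper98, block **[W3a]**, part 5: the divisor identities of the cyclic cover
in the contract shape `helper17.CoverDiv`, so that `helper17.exists_pairing_eq'` is a plug-in.

* `tauAut_smul_place`     : the `SemilinearAut` action of `σ` on places is `galSmul σ`;
* `CycSetting.pushforward_pullback` : `π_* π^* D = ℓ D`;
* `CycSetting.pullback_pushforward` : `π^* π_* D' = ∑_{i < ℓ} σ^i D'`;
* `CycSetting.pushforward_tau`      : `π_* σ D' = π_* D'`;
* `CycSetting.normFormula`          : `div N(f') = π_* div f'`;
* `CycSetting.coverDiv`   : `helper17.CoverDiv F ℓ (tauDiv σ)`;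
* `CycSetting.exists_pairing_eq`    : **the Kummer computation for the cyclic cover**: from
  Weil reciprocity on `F'` and the divisibility of `Pic⁰(F')` a class `[D]` of order dividing `ℓ`
  with `ν(D_y) = ζ h(D)`.
-/
import Mathlib
import Fermat.Agent.T6.helper98_CycPVal
import Fermat.Agent.T6.helper17_W3cAdapt

set_option autoImplicit false
set_option linter.unusedSectionVars false
set_option linter.unusedVariables false
set_option linter.style.longLine false
set_option linter.style.haveILetI false

noncomputable section

namespace Fermat.Agent.T6.helper98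

open AlgebraicCurve Fermat.Agent.P2.helper74 Fermat.Agent.T6.helper26
open Fermat.Agent.T6.helper17 (tauAut tauDiv CoverDiv NormVal partNorm)

section Generic

variable {K F F' : Type*} [Field K] [Field F] [Field F'] [Algebra K F] [Algebra K F']
  [Algebra F F'] [IsScalarTower K F F']

/-- the `SemilinearAut` action of `σ` on places is `galSmul σ` -/
theorem tauAut_smul_place (σ : F' ≃ₐ[F] F') (Q : Place K F') :
    (tauAut (K := K) σ) • Q = galSmul σ Q := by
  apply Place.ext
  ext x
  rw [SemilinearAut.smul_toValuationSubring, ValuationSubring.mem_pointwise_smul_iff_inv_smul_mem,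
    galSmul, Place.smul_toValuationSubring,
    ValuationSubring.mem_pointwise_smul_iff_inv_smul_mem]
  rfl

theorem tauDiv_single (σ : F' ≃ₐ[F] F') (Q : Place K F') (n : ℤ) :
    tauDiv (K := K) σ (Finsupp.single Q n) = Finsupp.single (galSmul σ Q) n := by
  show (tauAut (K := K) σ) • Finsupp.single Q n = _
  rw [SemilinearAut.smul_single, tauAut_smul_place]

theorem tauDiv_iterate_single (σ : F' ≃ₐ[F] F') (Q : Place K F') (n : ℤ) (i : ℕ) :
    (⇑(tauDiv (K := K) σ))^[i] (Finsupp.single Q n) = Finsupp.single (galSmul (σ ^ i) Q) n := by
  induction i with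
  | zero => simp
  | succ i ih =>
    rw [Function.iterate_succ_apply', ih, tauDiv_single, ← galSmul_pow_succ]

end Generic

section Cyc

variable {K F F' : Type*} [Field K] [Field F] [Field F'] [Algebra K F] [Algebra K F']
  [Algebra F F'] [IsScalarTower K F F'] [FiniteDimensional F F'] [IsAlgClosed K] [CharZero K]
  {ℓ : ℕ} {h : F} {w : F'} {ζ : K} {σ : F' ≃ₐ[F] F'} (C : CycSetting K ℓ h w ζ σ)

include C

/-- `π_* π^* D = ℓ D` -/
theorem CycSetting.pushforward_pullback (D : Divisor K F) :
    haveI := C.setting'.principal
    Divisor.pushforward F (Divisor.pullback F' D) = ℓ • D := by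
  classical
  haveI := C.setting'.principal
  induction D using Finsupp.induction_linear with
  | zero => simp
  | add D₁ D₂ h₁ h₂ => rw [map_add, map_add, h₁, h₂, nsmul_add]
  | single P n =>
    rw [Divisor.pullback_single, map_sum]
    have h1 : ∀ Q ∈ P.fiber F', Divisor.pushforward F
        (Finsupp.single Q (n * (Q.ramificationIndex F : ℤ))) = Finsupp.single P n := by
      intro Q hQ
      rw [Divisor.pushforward_single, Place.mem_fiber.mp hQ, C.ramificationIndex_eq_one,
        C.inertiaDeg_eq_one, Nat.cast_one, mul_one, mul_one]
    rw [Finset.sum_congr rfl h1, Finset.sum_const, C.card_fiber]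

/-- `π^* π_* D' = ∑_{i < ℓ} σ^i D'` -/
theorem CycSetting.pullback_pushforward (D' : Divisor K F') :
    haveI := C.setting'.principal
    Divisor.pullback F' (Divisor.pushforward F D') = partNorm (tauDiv (K := K) σ) ℓ D' := by
  classical
  haveI := C.setting'.principal
  induction D' using Finsupp.induction_linear with
  | zero => simp [Fermat.Agent.T6.helper17.partNorm_zero]
  | add D₁ D₂ h₁ h₂ =>
    rw [map_add, map_add, h₁, h₂, Fermat.Agent.T6.helper17.partNorm_add]
  | single Q n =>
    have hCfib : (Q.restrict F).fiber F'
        = (Finset.range ℓ).image (fun i : ℕ => galSmul (σ ^ i) Q) := by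
      haveI : CharZero F := charZero_of_injective_algebraMap (algebraMap K F).injective
      exact fiber_eq_image C.setting C.setting' C.finrank_eq C.ne_zero C.dvd_ord C.root_pow
        C.primitive C.sigma_root Q
    rw [Divisor.pushforward_single, C.inertiaDeg_eq_one, Nat.cast_one, mul_one,
      Divisor.pullback_single, hCfib, Finset.sum_image (C.galSmul_pow_injOn Q)]
    unfold Fermat.Agent.T6.helper17.partNorm
    refine Finset.sum_congr rfl fun i _ => ?_
    rw [tauDiv_iterate_single, C.ramificationIndex_eq_one, Nat.cast_one, mul_one]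

/-- `π_* σ D' = π_* D'` -/
theorem CycSetting.pushforward_tau (D' : Divisor K F') :
    Divisor.pushforward F (tauDiv (K := K) σ D') = Divisor.pushforward F D' := by
  induction D' using Finsupp.induction_linear with
  | zero => simp
  | add D₁ D₂ h₁ h₂ => rw [map_add, map_add, map_add, h₁, h₂]
  | single Q n =>
    rw [tauDiv_single, Divisor.pushforward_single, Divisor.pushforward_single,
      restrict_galSmul, C.inertiaDeg_eq_one, C.inertiaDeg_eq_one]

/-- `div N(f') = π_* div f'` -/
theorem CycSetting.normFormula :
    haveI := C.setting'.principal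
    Divisor.PushforwardNormFormula K F F' :=
  haveI := C.setting'.principal
  haveI : CharZero F := charZero_of_injective_algebraMap (algebraMap K F).injective
  Fermat.Agent.P3.helper58.pushforwardNormFormula_of_surjective (residue_surjective C.setting)
    C.setting'.deg_one

/-- **the contract `CoverDiv` of helper17** -/
theorem CycSetting.coverDiv :
    haveI := C.setting'.principal
    CoverDiv F ℓ (tauDiv (K := K) σ) :=
  haveI := C.setting'.principal
  { deg_T := fun D' => SemilinearAut.degree_smul _ D'
    push_T := C.pushforward_tau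
    pull_push := C.pullback_pushforward
    push_pull := C.pushforward_pullback
    norm := C.normFormula }

/-- **the Kummer computation for the cyclic cover** (plug-in of `helper17.exists_pairing_eq'`):
the only inputs left are Weil reciprocity on `F'`, the divisibility of `Pic⁰(F')` and Riemann's
theorem for `F'`. -/
theorem CycSetting.exists_pairing_eq {g' : ℕ} {c' : ℤ}
    (hc' : ∀ D : Divisor K F', c' ≤ Divisor.degree D →
      (ell D : ℤ) + g' = Divisor.degree D + 1)
    (hd : ∀ x : Pic0 K F', ∃ y : Pic0 K F', ℓ • y = x)
    (hW : WeilRec K F')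
    (Dy : Divisor K F) (hDy : ∀ v : Place K F, ((ℓ : ℤ) • Dy) v = v.ord h) :
    ∃ (D : Divisor K F) (ν : F), ν ≠ 0 ∧ Divisor.degree D = 0 ∧
      (∀ v : Place K F, v.ord ν = ((ℓ : ℤ) • D) v) ∧ Disj ν Dy ∧ Disj h D ∧
      dval ν Dy = ζ * dval h D := by
  haveI := C.setting'.principal
  haveI : Infinite K := IsAlgClosed.instInfinite
  exact Fermat.Agent.T6.helper17.exists_pairing_eq' C.setting C.setting' hc' C.pos.ne'
    C.finrank_eq σ C.coverDiv hd hW C.normVal w h C.ne_zero C.root_pow ζ
    (C.primitive.ne_zero C.pos.ne') C.sigma_root Dy hDy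

end Cyc

end Fermat.Agent.T6.helper98

end
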