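import Mathlib
import Fermat.Agent.LEF.helper82_L6
import Fermat.Agent.LEF.helper95_Verbatim
import Fermat.Agent.LEF.helper99_L5Final

/-!
# T6 block [W3b], part 1 (helper99): saturation of the conorm on `Pic⁰`

For a constant field extension `C : F/K → F'/K'` of function fields over algebraically closed
fields of characteristic `0`:

* `exists_conPic0_eq_of_stabilizer` : a class of `Pic⁰(F')` whose stabiliser in `Aut(K'/K)` has
  finite index is a conorm (the proof of LEF-L6, with the torsion hypothesis removed);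
* `act_smul_conPic0`               : conorm classes are fixed by `Aut(K'/K)`;
* `exists_stabilizer_of_nsmul`     : if `n • c' = con c₀` and `Pic⁰(F')[n]` is finite, the
  stabiliser of `c'` has finite index;
* `conPic0_saturated`              : `n • c' = con c₀`, `Pic⁰(F')[n]` finite `⟹` `c' = con d₀`
  with `n • d₀ = c₀`;
* `divisible_of_constExt`          : `n`-divisibility of `Pic⁰` descends from `F'` to `F`.
-/

set_option autoImplicit false

noncomputable section

open AlgebraicCurve

namespace Fermat.Agent.T6.helper99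

open Fermat.Agent.LEF Fermat.Agent.P2.helper74

variable {K F K' F' : Type*} [Field K] [Field F] [Algebra K F] [Field K'] [Field F']
  [Algebra K' F'] (C : ConstExt K F K' F')

/-- **L6, stabiliser form**: a class of `Pic⁰(F')` fixed by a subgroup of finite index of
`Aut(K'/K)` is a conorm. -/
theorem exists_conPic0_eq_of_stabilizer [IsAlgClosed K] [IsAlgClosed K'] [CharZero K]
    (hS : RiemannSetting K F) (hS' : RiemannSetting K' F')
    (hR : ∃ g : ℤ, ∀ D : Divisor K' F', Divisor.degree D + 1 - g ≤ (ell D : ℤ))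
    (c : Pic0 K' F') (H : Subgroup (RingAut K')) (hH : H ≤ C.gal)
    (hHfin : (H.subgroupOf C.gal).FiniteIndex) (hHc : ∀ σ ∈ H, C.act σ • c = c) :
    ∃ c₀ : Pic0 K F, C.conPic0 c₀ = c := by
  classical
  obtain ⟨D', rfl⟩ := Pic0.mk_surjective c
  obtain ⟨P₀⟩ := hS.nonempty
  obtain ⟨Q₀, hQ₀⟩ := Fermat.Agent.LEF.helper99.exists_isExt C hS P₀
  obtain ⟨m, hm⟩ := helper67.exists_ell_add_eq_one hS' hR (D' : Divisor K' F') Q₀
  obtain ⟨E₁, ⟨hE₁eff, hE₁pr⟩, hE₁uniq⟩ :=
    helper67.existsUnique_effective_of_ell_eq_one hS' _ hm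
  -- `E₁` is stable under `H`
  have hstab : ∀ σ ∈ H, C.act σ • E₁ = E₁ := by
    intro σ hσ
    refine hE₁uniq _ ⟨fun v => ?_, ?_⟩
    · rw [SemilinearAut.divisor_smul_apply]
      exact hE₁eff _
    · have h1 : C.act σ • (E₁ - ((D' : Divisor K' F') + Finsupp.single Q₀ m)) ∈
          Divisor.principal (K := K') (F := F') := SemilinearAut.smul_mem_principal _ hE₁pr
      have h2 : (C.act σ • (D' : Divisor K' F')) - (D' : Divisor K' F') ∈
          Divisor.principal (K := K') (F := F') := by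
        have h3 := hHc σ hσ
        rw [SemilinearAut.pic0_smul_mk] at h3
        have h4 := (helper82.l6_mk_eq_mk_iff _ _).mp h3.symm
        exact h4
      have h5 : C.act σ • Q₀ = Q₀ :=
        helper95.act_smul_of_isExt C hS σ (hH hσ)
          (fun h h' => Fermat.Agent.LEF.helper99.isExt_unique C hS h h') hQ₀
      have h6 : C.act σ • E₁ - ((D' : Divisor K' F') + Finsupp.single Q₀ m) =
          C.act σ • (E₁ - ((D' : Divisor K' F') + Finsupp.single Q₀ m)) +
            ((C.act σ • (D' : Divisor K' F')) - (D' : Divisor K' F')) := by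
        rw [smul_sub, smul_add, SemilinearAut.smul_single, h5]
        abel
      rw [h6]
      exact add_mem h1 h2
  obtain ⟨E₀, hE₀⟩ := helper82.exists_con_eq_of_stable C hS hS' H hH hHfin E₁ hstab
  -- degrees
  have hdegE₁ : Divisor.degree E₁ = m := by
    have h1 := helper82.l6_degree_eq_zero_of_principal hS' hE₁pr
    rw [map_sub, map_add, Divisor.degree_single, hS'.deg_one] at h1
    have h2 : Divisor.degree (D' : Divisor K' F') = 0 := D'.2
    rw [h2] at h1
    simpa [sub_eq_zero] using h1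
  have hdegE₀ : Divisor.degree E₀ = m := by
    rw [← helper82.l6_degree_con C hS hS', hE₀, hdegE₁]
  have hD₀ : E₀ - Finsupp.single P₀ m ∈ Divisor.degZero (K := K) (F := F) := by
    rw [Divisor.mem_degZero, map_sub, hdegE₀, Divisor.degree_single, hS.deg_one]
    simp
  refine ⟨Pic0.mk ⟨E₀ - Finsupp.single P₀ m, hD₀⟩, ?_⟩
  rw [helper37.conPic0_mk (helper82.l6_conOK C hS hS'), helper82.l6_mk_eq_mk_iff]
  have h7 : ((C.conDegZero (helper82.l6_conOK C hS hS') ⟨E₀ - Finsupp.single P₀ m, hD₀⟩ :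
      Divisor.degZero (K := K') (F := F')) : Divisor K' F') =
      E₁ - Finsupp.single Q₀ m := by
    show C.con (E₀ - Finsupp.single P₀ m) = _
    rw [map_sub, hE₀, helper37.con_single_of_isExt (helper82.l6_plInputs C hS) hQ₀]
  rw [h7]
  have h8 : (D' : Divisor K' F') - (E₁ - Finsupp.single Q₀ m) =
      -(E₁ - ((D' : Divisor K' F') + Finsupp.single Q₀ m)) := by abel
  rw [h8]
  exact neg_mem hE₁pr

/-- Conorm classes are fixed by `Aut(K'/K)`. -/
theorem act_smul_conPic0 (hS : RiemannSetting K F) (hS' : RiemannSetting K' F')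
    (σ : RingAut K') (hσ : σ ∈ C.gal) (c₀ : Pic0 K F) :
    C.act σ • C.conPic0 c₀ = C.conPic0 c₀ := by
  obtain ⟨D, rfl⟩ := Pic0.mk_surjective c₀
  rw [helper37.conPic0_mk (helper82.l6_conOK C hS hS'), SemilinearAut.pic0_smul_mk]
  refine congrArg Pic0.mk (Subtype.ext ?_)
  rw [SemilinearAut.coe_degZeroSMulHom]
  exact helper95.V.act_smul_con C hS σ hσ (D : Divisor K F)

/-- If `n • c' = con c₀` and `Pic⁰(F')[n]` is finite, the stabiliser of `c'` in `Aut(K'/K)` has
finite index. -/
theorem exists_stabilizer_of_nsmul (hS : RiemannSetting K F) (hS' : RiemannSetting K' F')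
    (n : ℕ) (hfin : Finite (Pic0.torsion K' F' n)) (c' : Pic0 K' F') (c₀ : Pic0 K F)
    (hc : n • c' = C.conPic0 c₀) :
    ∃ H : Subgroup (RingAut K'), H ≤ C.gal ∧ (H.subgroupOf C.gal).FiniteIndex ∧
      ∀ σ ∈ H, C.act σ • c' = c' := by
  classical
  let _ : MulAction C.gal (Pic0 K' F') := MulAction.compHom (Pic0 K' F') (helper82.l6ActHom C)
  have hact : ∀ (σ : C.gal) (e : Pic0 K' F'), σ • e = C.act (σ : RingAut K') • e :=
    fun _ _ => rfl
  -- the orbit of `c'` lies in `c' + Pic⁰(F')[n]`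
  have horb : MulAction.orbit C.gal c' ⊆
      (fun t : Pic0.torsion K' F' n => c' + (t : Pic0 K' F')) '' Set.univ := by
    rintro e ⟨σ, rfl⟩
    have h0 : n • (C.act (σ : RingAut K') • c') = C.act (σ : RingAut K') • (n • c') :=
      (map_nsmul (DistribSMul.toAddMonoidHom (Pic0 K' F') (C.act (σ : RingAut K')))
        n c').symm
    have h1 : n • (σ • c' - c') = 0 := by
      rw [nsmul_sub, hact, h0, hc, act_smul_conPic0 C hS hS' _ σ.2, sub_self]
    refine ⟨⟨σ • c' - c', ?_⟩, Set.mem_univ _, ?_⟩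
    · rw [Pic0.mem_torsion, natCast_zsmul]
      exact h1
    · show c' + (σ • c' - c') = σ • c'
      abel
  have hfinorb : (MulAction.orbit C.gal c').Finite :=
    (Set.finite_univ.image _).subset horb
  have : Finite (MulAction.orbit C.gal c') := hfinorb
  set S : Subgroup C.gal := MulAction.stabilizer C.gal c' with hSdef
  have : Finite (C.gal ⧸ S) :=
    Finite.of_equiv _ (MulAction.orbitEquivQuotientStabilizer C.gal c')
  have hSfin : S.FiniteIndex := Subgroup.finiteIndex_of_finite_quotient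
  refine ⟨S.map C.gal.subtype, Subgroup.map_subtype_le S, ?_, ?_⟩
  · have : (S.map C.gal.subtype).subgroupOf C.gal = S :=
      Subgroup.comap_map_eq_self_of_injective (Subgroup.subtype_injective _) S
    rw [this]
    exact hSfin
  · rintro σ ⟨s, hs, rfl⟩
    exact MulAction.mem_stabilizer_iff.mp hs

/-- **Saturation of the conorm**: if `n • c'` is a conorm and `Pic⁰(F')[n]` is finite, then `c'`
is a conorm. -/
theorem conPic0_saturated [IsAlgClosed K] [IsAlgClosed K'] [CharZero K]
    (hS : RiemannSetting K F) (hS' : RiemannSetting K' F')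
    (hR : ∃ g : ℤ, ∀ D : Divisor K' F', Divisor.degree D + 1 - g ≤ (ell D : ℤ))
    (n : ℕ) (hfin : Finite (Pic0.torsion K' F' n)) (c' : Pic0 K' F') (c₀ : Pic0 K F)
    (hc : n • c' = C.conPic0 c₀) :
    ∃ d₀ : Pic0 K F, C.conPic0 d₀ = c' ∧ n • d₀ = c₀ := by
  obtain ⟨H, hH, hHfin, hHc⟩ := exists_stabilizer_of_nsmul C hS hS' n hfin c' c₀ hc
  obtain ⟨d₀, hd₀⟩ := exists_conPic0_eq_of_stabilizer C hS hS' hR c' H hH hHfin hHc
  refine ⟨d₀, hd₀, ?_⟩
  apply Fermat.Agent.LEF.helper99.conPic0_injective C hS hS'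
  rw [map_nsmul, hd₀, hc]

/-- **Descent of divisibility**: if every class of `Pic⁰(F')` is divisible by `n` and
`Pic⁰(F')[n]` is finite, every class of `Pic⁰(F)` is divisible by `n`. -/
theorem divisible_of_constExt [IsAlgClosed K] [IsAlgClosed K'] [CharZero K]
    (C : ConstExt K F K' F') (hS : RiemannSetting K F) (hS' : RiemannSetting K' F')
    (hR : ∃ g : ℤ, ∀ D : Divisor K' F', Divisor.degree D + 1 - g ≤ (ell D : ℤ))
    (n : ℕ) (hfin : Finite (Pic0.torsion K' F' n))
    (hdiv : ∀ c' : Pic0 K' F', ∃ d' : Pic0 K' F', n • d' = c') (c₀ : Pic0 K F) :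
    ∃ d₀ : Pic0 K F, n • d₀ = c₀ := by
  obtain ⟨d', hd'⟩ := hdiv (C.conPic0 c₀)
  obtain ⟨d₀, -, hd₀⟩ := conPic0_saturated C hS hS' hR n hfin d' c₀ hd'
  exact ⟨d₀, hd₀⟩

end Fermat.Agent.T6.helper99

end
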