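import Mathlib
import Fermat.Agent.T6.helper99_W3b
import Fermat.Agent.P5.helper25_S27Wire
import Fermat.Agent.S24.helper77_Degree
import Fermat.Agent.S24.helper77_Transc

/-!
# T6 block [W3b] (helper99): `Pic⁰` of a function field is DIVISIBLE

For a function field `F/K` of a curve over an algebraically closed field `K` of characteristic
`0` (hypotheses of the frozen S27: `[IsCurveOver K F] [Algebra.EssFiniteType K F]`):

* `pic0_divisible K F n hn c : ∃ d : Pic0 K F, n • d = c`     (`0 < n`);
* `pic0_divisible_of_separating x hx` : the same from a separating element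
  (`Transcendental K x`, `[FiniteDimensional K⟮x⟯ F]`);
* `pic0_divisible_int` : the `ℤ`-form `(n : ℤ) • d = c`, `n ≠ 0`;
* `jZero_divisible M`  : the instance `J₀(M)(ℚ̄) = Pic0 ℚ̄ (F_ℚ̄(M))`.

Proof: over `ℂ` this is P5 (`helper25.pic0Divisible_of_modules`, Riemann-Hilbert dictionary).
For countable `K` take a complex model `F'/ℂ` of `F/K` (constant field extension along an
embedding `K → ℂ`): an `ℓ`-th root `d'` of `con c` in `Pic⁰(F')` has finitely many conjugates
under `Aut(ℂ/K)` (they differ by `ℓ`-torsion, which is finite by S27), hence `d'` is a conorm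
(`conPic0_saturated`, LEF-L6 in stabiliser form) and its preimage is an `ℓ`-th root of `c`.
For general `K` take a countable model containing `c` (LEF-KASM).
-/

set_option autoImplicit false
set_option linter.style.haveILetI false

noncomputable section

open AlgebraicCurve IntermediateField

namespace Fermat.Agent.T6.helper99

open Fermat.Agent.LEF Fermat.Agent.P2.helper74 Fermat.Agent.P5.helper25 Fermat.Agent.P5.helper42

universe u v

/-- **P5 [AN-div]**, unconditional: `Pic⁰` of a complex function field is divisible. -/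
theorem pic0Divisible_complex : Pic0Divisible :=
  pic0Divisible_of_modules existsCutModel_final rhStatement_final
    Fermat.Agent.P5.helper56.combDivisible Fermat.Agent.P5.helper42.rrConStatement

/-- The `ℓ`-torsion of `Pic⁰` is finite (S27). -/
theorem finite_torsion_prime (K : Type u) (F : Type v) [Field K] [Field F] [Algebra K F]
    [IsAlgClosed K] [CharZero K] [IsCurveOver K F] [Algebra.EssFiniteType K F]
    (ℓ : ℕ) (hℓ : ℓ.Prime) : Finite (Pic0.torsion K F ℓ) := by
  haveI : Fact ℓ.Prime := ⟨hℓ⟩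
  have h := s27_final K F ℓ 1
  rw [pow_one] at h
  have hpos : 0 < Nat.card (Pic0.torsion K F ℓ) := by
    rw [h]
    exact pow_pos hℓ.pos _
  exact (Nat.card_pos_iff.mp hpos).2

/-- Divisibility by a prime, countable constant field. -/
theorem divisible_prime_of_countable (K : Type u) (F : Type v) [Field K] [Field F]
    [Algebra K F] [IsAlgClosed K] [CharZero K] [IsCurveOver K F] [Algebra.EssFiniteType K F]
    [Countable K] (ℓ : ℕ) (hℓ : ℓ.Prime) (c : Pic0 K F) : ∃ d : Pic0 K F, ℓ • d = c := by
  obtain ⟨x, hx, hfd, -, -⟩ := exists_separating_transcendental (K := K) (F := F)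
  haveI := hfd
  haveI : Countable F := helper13.countable_of_essFiniteType K F
  obtain ⟨K₁, F₁, instK₁, instF₁, instA₁, eK, eF, he⟩ := helper13.exists_small_model K F
  haveI : Countable K₁ := eK.symm.toEquiv.injective.countable
  haveI : CharZero K₁ := charZero_of_injective_ringHom eK.toRingHom.injective
  haveI : IsAlgClosed K₁ := Fermat.Agent.LEF.helper99.isAlgClosed_of_ringEquiv' eK
  obtain ⟨κ₁⟩ := helper13.exists_ringHom_complex K₁
  obtain ⟨F', instF', instA', C₁, -⟩ := helper57.exists_constExt K₁ F₁ ℂ κ₁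
  obtain ⟨C, -, -⟩ := helper86.exists_constExt_comp eK eF he C₁
  obtain ⟨hx', hfd'⟩ := helper86.transcendental_ι C x hx
  haveI := hfd'
  obtain ⟨hcurve, hess⟩ := helper67.isCurveOver_of_transcendental ℂ F' (C.ι x) hx'
  have hS : RiemannSetting K F := riemannSetting_of_separating x hx
  have hS' : RiemannSetting ℂ F' := riemannSetting_of_separating (C.ι x) hx'
  obtain ⟨g', hg'⟩ := exists_hasRiemannGenus (K := ℂ) (F := F') (C.ι x) hx'
  have hR : ∃ g₀ : ℤ, ∀ D : Divisor ℂ F', Divisor.degree D + 1 - g₀ ≤ (ell D : ℤ) := by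
    refine ⟨g', fun D => ?_⟩
    have := HasRiemannGenus.ineq hS' hg' D
    linarith
  refine divisible_of_constExt C hS hS' hR ℓ (finite_torsion_prime ℂ F' ℓ hℓ) (fun c' => ?_) c
  obtain ⟨d', hd'⟩ := pic0Divisible_complex F' ℓ hℓ.pos c'
  exact ⟨d', by rwa [natCast_zsmul] at hd'⟩

/-- Divisibility by a prime. -/
theorem divisible_prime (K : Type u) (F : Type v) [Field K] [Field F] [Algebra K F]
    [IsAlgClosed K] [CharZero K] [IsCurveOver K F] [Algebra.EssFiniteType K F]
    (ℓ : ℕ) (hℓ : ℓ.Prime) (c : Pic0 K F) : ∃ d : Pic0 K F, ℓ • d = c := by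
  classical
  obtain ⟨M⟩ := Fermat.Agent.LEF.helper99.existsCountableModel_uncond K F {c}
  letI := M.fieldK
  letI := M.fieldF
  letI := M.alg
  haveI := M.algClosed
  haveI := M.charZero
  haveI := M.curve
  haveI := M.ess
  haveI := M.countable
  obtain ⟨c₀, hc₀⟩ := M.mem_range c (Finset.mem_singleton_self c)
  obtain ⟨d₀, hd₀⟩ := divisible_prime_of_countable M.K₀ M.F₀ ℓ hℓ c₀
  exact ⟨M.tr.con d₀, by rw [← map_nsmul, hd₀, hc₀]⟩

/-- an additive group divisible by all primes is divisible -/
theorem divisible_of_prime {A : Type*} [AddCommGroup A]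
    (h : ∀ ℓ : ℕ, ℓ.Prime → ∀ c : A, ∃ d : A, ℓ • d = c) (n : ℕ) (hn : 0 < n) (c : A) :
    ∃ d : A, n • d = c := by
  induction n using Nat.strong_induction_on generalizing c with
  | _ n ih =>
    rcases Nat.eq_or_lt_of_le (Nat.succ_le_of_lt hn) with h1 | h1
    · exact ⟨c, by rw [← h1, one_nsmul]⟩
    · obtain ⟨p, hp, m, rfl⟩ := Nat.exists_prime_and_dvd (show n ≠ 1 from (ne_of_lt h1).symm)
      have hm : 0 < m := Nat.pos_of_ne_zero (by rintro rfl; simp at hn)
      have hlt : m < p * m := by
        have := hp.one_lt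
        nlinarith
      obtain ⟨e, he⟩ := ih m hlt hm c
      obtain ⟨d, hd⟩ := h p hp e
      exact ⟨d, by rw [mul_nsmul, hd, he]⟩

/-- **[W3b]** `Pic⁰` of the function field of a curve over an algebraically closed field of
characteristic `0` is divisible. -/
theorem pic0_divisible (K : Type u) (F : Type v) [Field K] [Field F] [Algebra K F]
    [IsAlgClosed K] [CharZero K] [IsCurveOver K F] [Algebra.EssFiniteType K F]
    (n : ℕ) (hn : 0 < n) (c : Pic0 K F) : ∃ d : Pic0 K F, n • d = c :=
  divisible_of_prime (fun ℓ hℓ c => divisible_prime K F ℓ hℓ c) n hn c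

/-- **[W3b]**, `ℤ`-form. -/
theorem pic0_divisible_int (K : Type u) (F : Type v) [Field K] [Field F] [Algebra K F]
    [IsAlgClosed K] [CharZero K] [IsCurveOver K F] [Algebra.EssFiniteType K F]
    (n : ℤ) (hn : n ≠ 0) (c : Pic0 K F) : ∃ d : Pic0 K F, n • d = c := by
  obtain ⟨d, hd⟩ := pic0_divisible K F n.natAbs (Int.natAbs_pos.mpr hn) c
  rcases Int.natAbs_eq n with h | h
  · exact ⟨d, by rw [h, natCast_zsmul, hd]⟩
  · exact ⟨-d, by rw [h, neg_smul, smul_neg, neg_neg, natCast_zsmul, hd]⟩

/-- **[W3b]** from a separating element. -/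
theorem pic0_divisible_of_separating {K : Type u} {F : Type v} [Field K] [Field F]
    [Algebra K F] [IsAlgClosed K] [CharZero K] (x : F) (hx : Transcendental K x)
    [FiniteDimensional K⟮x⟯ F] (n : ℕ) (hn : 0 < n) (c : Pic0 K F) :
    ∃ d : Pic0 K F, n • d = c := by
  obtain ⟨hcurve, hess⟩ := helper67.isCurveOver_of_transcendental K F x hx
  exact pic0_divisible K F n hn c

/-- `Pic⁰` is a divisible group (Mathlib form). -/
theorem pic0_divisibleBy_nonempty (K : Type u) (F : Type v) [Field K] [Field F] [Algebra K F]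
    [IsAlgClosed K] [CharZero K] [IsCurveOver K F] [Algebra.EssFiniteType K F] :
    Nonempty (DivisibleBy (Pic0 K F) ℕ) :=
  ⟨divisibleByOfSMulRightSurj (Pic0 K F) ℕ fun {n} hn c =>
    pic0_divisible K F n (Nat.pos_of_ne_zero hn) c⟩

/-- **[W3b]** for `J₀(M)(ℚ̄)`. -/
theorem jZero_divisible (M : ℕ) [NeZero M] (n : ℕ) (hn : 0 < n) (c : ModularCurve.JZero M) :
    ∃ d : ModularCurve.JZero M, n • d = c :=
  haveI : FiniteDimensional Fermat.Agent.S24.Kbar⟮Fermat.Agent.S24.xJ M⟯
      (Fermat.Agent.S24.FN M) := Fermat.Agent.S24.helper77.an_finiteDimensional M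
  pic0_divisible_of_separating (K := Fermat.Agent.S24.Kbar) (F := Fermat.Agent.S24.FN M)
    (Fermat.Agent.S24.xJ M) (Fermat.Agent.S24.helper77.an_transcendental M) n hn c

end Fermat.Agent.T6.helper99

end
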