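/-
TIER 6 (S19), block [W3a] -> [W3c] plug-in, helper9: **the Kummer cover satisfies the contracts
of the W3c core** (helper17 `exists_pairing_eq'`).

* `ofAlgAut_smul_place / ofAlgAut_smul_divisor` : the two Prelude actions (`SemilinearAut` via
  `ofAlgAut`, and `AlgEquiv`) on places and divisors agree (definitionally);
* `IsKummerCover.tauF` : the generator as an `F`-automorphism; `IsKummerCover.inv`;
* `IsKummerCover.coverDiv` : `helper17.CoverDiv F ℓ (tauDiv tauF)`;
* `IsKummerCover.isGalois`, `IsKummerCover.norm_eq_prod` : `N(f') = ∏_{i<ℓ} τ^i f'`;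
* `IsKummerCover.pval_norm_cover` : `N(f')(P) = ∏_{i<ℓ} f'(τ^i P')`;
* `IsKummerCover.normVal` : `helper17.NormVal K F F'` (`N(f')(D) = f'(π^* D)`);
* `exists_pairing_of_weilRec_of_divisible` : the value computation `ν(D_y) = ζ · h(D)` with
  Weil reciprocity and divisibility of `Pic⁰` of function fields as the only hypotheses.
-/
import Fermat.Agent.T6.helper9_CoverDiv
import Fermat.Agent.T6.helper9_CoverField
import Fermat.Agent.T6.helper17_W3cAdapt
import Fermat.Agent.T6.helper98_CycNorm

set_option autoImplicit false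
set_option linter.unusedSectionVars false
set_option linter.style.haveILetI false
set_option linter.unusedVariables false

noncomputable section

namespace Fermat.Agent.T6.helper9

open AlgebraicCurve Fermat.Agent.P2.helper74 Fermat.Agent.T6.helper26
open scoped Pointwise

section Bridge

variable {K F : Type*} [Field K] [Field F] [Algebra K F]

/-- the two Prelude actions on places agree: `SemilinearAut` (via `ofAlgAut`) and `AlgEquiv`. -/
theorem ofAlgAut_smul_place (σ : F ≃ₐ[K] F) (w : Place K F) :
    SemilinearAut.ofAlgAut σ • w = σ • w := rfl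

/-- the two Prelude actions on divisors agree. -/
theorem ofAlgAut_smul_divisor (σ : F ≃ₐ[K] F) (D : Divisor K F) :
    SemilinearAut.ofAlgAut σ • D = σ • D := rfl

/-- the value at a conjugate place -/
theorem pval_algEquiv (σ : F ≃ₐ[K] F) (w : Place K F) (f : F) :
    pval w (σ f) = pval (σ⁻¹ • w) f := by
  have h1 := pval_smul (SemilinearAut.ofAlgAut σ) (σ⁻¹ • w) f
  rw [ofAlgAut_smul_place, smul_inv_smul] at h1
  exact h1

/-- the order at a conjugate place -/
theorem ord_algEquiv (σ : F ≃ₐ[K] F) (w : Place K F) (f : F) :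
    w.ord (σ f) = (σ⁻¹ • w).ord f := by
  have h1 := Place.ord_smul σ (σ⁻¹ • w) f
  rw [smul_inv_smul] at h1
  exact h1

/-- the value of a finite product of functions regular at the place -/
theorem pval_prod (hS : RiemannSetting K F) (w : Place K F) {ι : Type*} (s : Finset ι)
    (f : ι → F) (hf : ∀ i ∈ s, 0 ≤ w.ord (f i)) :
    pval w (∏ i ∈ s, f i) = ∏ i ∈ s, pval w (f i) := by
  classical
  induction s using Finset.induction_on with
  | empty => simp [pval_one]
  | insert a s ha ih =>
    have h1 : ∀ i ∈ s, 0 ≤ w.ord (f i) := fun i hi => hf i (Finset.mem_insert_of_mem hi)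
    have h2 : 0 ≤ w.ord (∏ i ∈ s, f i) := by
      clear ih
      induction s using Finset.induction_on with
      | empty => simp
      | insert b s hb ih' =>
        rw [Finset.prod_insert hb]
        exact ord_mul_nonneg w (h1 b (Finset.mem_insert_self b s))
          (ih' (fun h => ha (Finset.mem_insert_of_mem h))
            (fun i hi => hf i (by
              rcases Finset.mem_insert.mp hi with h | h
              · exact Finset.mem_insert.mpr (Or.inl h)
              · exact Finset.mem_insert.mpr (Or.inr (Finset.mem_insert_of_mem h))))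
            (fun i hi => h1 i (Finset.mem_insert_of_mem hi)))
    rw [Finset.prod_insert ha, Finset.prod_insert ha,
      pval_mul hS (hf a (Finset.mem_insert_self a s)) h2, ih h1]

/-- `Disj` passes to finite sums of divisors -/
theorem disj_sum {ι : Type*} (s : Finset ι) {f : F} (hf : f ≠ 0) (E : ι → Divisor K F)
    (h : ∀ i ∈ s, Disj f (E i)) : Disj f (∑ i ∈ s, E i) := by
  classical
  induction s using Finset.induction_on with
  | empty => simpa using Disj.zero_right hf
  | insert a s ha ih =>
    rw [Finset.sum_insert ha]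
    exact (h a (Finset.mem_insert_self a s)).add
      (ih fun i hi => h i (Finset.mem_insert_of_mem hi))

/-- the value at a finite sum of divisors -/
theorem dval_sum (hS : RiemannSetting K F) {ι : Type*} (s : Finset ι) {f : F} (hf : f ≠ 0)
    (E : ι → Divisor K F) (h : ∀ i ∈ s, Disj f (E i)) :
    dval f (∑ i ∈ s, E i) = ∏ i ∈ s, dval f (E i) := by
  classical
  induction s using Finset.induction_on with
  | empty => simp
  | insert a s ha ih =>
    rw [Finset.sum_insert ha, Finset.prod_insert ha,
      dval_add hS (h a (Finset.mem_insert_self a s))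
        (disj_sum s hf E fun i hi => h i (Finset.mem_insert_of_mem hi)),
      ih fun i hi => h i (Finset.mem_insert_of_mem hi)]

end Bridge

variable {K F F' : Type*} [Field K] [Field F] [Field F'] [Algebra K F] [Algebra K F']
  [Algebra F F'] [IsScalarTower K F F']

namespace IsKummerCover

variable {ℓ : ℕ} {h : F} {D : Divisor K F} {z : F'} {ζ : K} {τ : F' ≃ₐ[K] F'}

/-- the generator `τ` as an `F`-automorphism of `F'` -/
def tauF (H : IsKummerCover ℓ h D z ζ τ) : F' ≃ₐ[F] F' :=
  AlgEquiv.ofRingEquiv (f := (τ : F' ≃+* F')) H.tau_fix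

@[simp] theorem tauF_apply (H : IsKummerCover ℓ h D z ζ τ) (x : F') : H.tauF x = τ x := rfl

theorem tauF_restrictScalars (H : IsKummerCover ℓ h D z ζ τ) :
    H.tauF.restrictScalars K = τ := by
  ext x
  rfl

theorem tauF_z (H : IsKummerCover ℓ h D z ζ τ) : H.tauF z = algebraMap K F' ζ * z := H.tau_z

theorem tauF_pow_apply (H : IsKummerCover ℓ h D z ζ τ) (i : ℕ) (x : F') :
    (H.tauF ^ i) x = (τ ^ i) x := by
  induction i generalizing x with
  | zero => rfl
  | succ i ih => rw [pow_succ, pow_succ, AlgEquiv.mul_apply, AlgEquiv.mul_apply, ih, tauF_apply]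

theorem tauAut_tauF (H : IsKummerCover ℓ h D z ζ τ) :
    helper17.tauAut (K := K) H.tauF = SemilinearAut.ofAlgAut τ := by
  rw [helper17.tauAut, H.tauF_restrictScalars]

theorem tauDiv_tauF (H : IsKummerCover ℓ h D z ζ τ) (D' : Divisor K F') :
    helper17.tauDiv (K := K) H.tauF D' = τ • D' := by
  show helper17.tauAut (K := K) H.tauF • D' = τ • D'
  rw [H.tauAut_tauF]
  rfl

theorem iterate_tauDiv_tauF (H : IsKummerCover ℓ h D z ζ τ) (i : ℕ) (D' : Divisor K F') :
    (⇑(helper17.tauDiv (K := K) H.tauF))^[i] D' = (τ ^ i) • D' := by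
  induction i with
  | zero => simp
  | succ i ih =>
    rw [Function.iterate_succ_apply', ih, H.tauDiv_tauF, pow_succ', mul_smul]

theorem partNorm_tauDiv_tauF (H : IsKummerCover ℓ h D z ζ τ) (k : ℕ) (D' : Divisor K F') :
    helper17.partNorm (helper17.tauDiv (K := K) H.tauF) k D' =
      ∑ i ∈ Finset.range k, (τ ^ i) • D' := by
  rw [helper17.partNorm]
  exact Finset.sum_congr rfl fun i _ => H.iterate_tauDiv_tauF i D'

/-- the inverse generator: `(ζ⁻¹, τ⁻¹)` is again a Kummer cover datum -/
theorem inv (H : IsKummerCover ℓ h D z ζ τ) : IsKummerCover ℓ h D z ζ⁻¹ τ⁻¹ where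
  two_le := H.two_le
  h_ne := H.h_ne
  pow_eq := H.pow_eq
  ord_h := H.ord_h
  zeta := H.zeta.inv
  tau_fix f := by
    rw [AlgEquiv.aut_inv, AlgEquiv.symm_apply_eq, H.tau_fix]
  tau_z := by
    have hζ0 : ζ ≠ 0 := H.zeta.ne_zero H.ell_ne_zero
    rw [AlgEquiv.aut_inv, AlgEquiv.symm_apply_eq, map_mul, H.tau_z, AlgEquiv.commutes,
      ← mul_assoc, ← map_mul, inv_mul_cancel₀ hζ0, map_one, one_mul]

variable (H : IsKummerCover ℓ h D z ζ τ) [FiniteDimensional F F'] [IsAlgClosed K]
  (hS : RiemannSetting K F) (hS' : RiemannSetting K F') [HasPrincipalDivisors K F']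
  [FundamentalIdentity K F F'] (hrank : Module.finrank F F' = ℓ)

include hS hS' hrank in
/-- **the contract `CoverDiv` of [W3c] (helper17)** for a Kummer cover -/
theorem coverDiv (hN : Divisor.PushforwardNormFormula K F F') :
    helper17.CoverDiv F ℓ (helper17.tauDiv (K := K) H.tauF) where
  deg_T D' := SemilinearAut.degree_smul _ _
  push_T D' := by
    rw [H.tauDiv_tauF]
    exact H.pushforward_smul hS hS' hrank D'
  pull_push D' := by
    rw [H.partNorm_tauDiv_tauF]
    exact H.pullback_pushforward hS hS' hrank D'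
  push_pull D₀ := H.pushforward_pullback hS hS' hrank D₀
  norm := hN

include H hrank in
/-- a Kummer cover is Galois -/
theorem isGalois : IsGalois F F' := by
  classical
  apply IsGalois.of_card_aut_eq_finrank
  rw [Nat.card_eq_fintype_card]
  refine le_antisymm AlgEquiv.card_le ?_
  rw [hrank]
  have hinj : Function.Injective (fun i : Fin ℓ => H.tauF ^ (i : ℕ)) := by
    intro i j hij
    have h1 : (H.tauF ^ (i : ℕ)) z = (H.tauF ^ (j : ℕ)) z := by
      change H.tauF ^ (i : ℕ) = H.tauF ^ (j : ℕ) at hij
      rw [hij]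
    rw [H.tauF_pow_apply, H.tauF_pow_apply, H.tau_pow_z, H.tau_pow_z] at h1
    have h2 := mul_right_cancel₀ H.z_ne h1
    exact Fin.ext (H.zeta.pow_inj i.2 j.2 ((algebraMap K F').injective h2))
  have := Fintype.card_le_of_injective _ hinj
  rwa [Fintype.card_fin] at this

include H hrank in
/-- **the norm is the product of the conjugates** -/
theorem norm_eq_prod (f' : F') :
    algebraMap F F' (Algebra.norm F f') = ∏ i ∈ Finset.range ℓ, (τ ^ i) f' := by
  haveI := H.isGalois hrank
  rw [helper98.norm_eq_prod_pow hrank H.z_ne H.zeta H.tauF_z f']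
  exact Finset.prod_congr rfl fun i _ => H.tauF_pow_apply i f'

include H hS hS' hrank in
/-- the value of a function of `F` at a place of `F'` -/
theorem pval_algebraMap_cover (w : Place K F') (f : F) (hf : 0 ≤ (w.restrict F).ord f) :
    pval w (algebraMap F F' f) = pval (w.restrict F) f := by
  have hv := isVal_pval hS hf
  generalize pval (w.restrict F) f = a at hv ⊢
  apply pval_eq_of_isVal
  rcases hv with h1 | h1
  · left
    rw [h1, ← IsScalarTower.algebraMap_apply]
  · right
    have h2 := H.ord_algebraMap hS hS' hrank w (f - algebraMap K F a)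
    rw [map_sub, ← IsScalarTower.algebraMap_apply] at h2
    rw [h2]
    exact h1

include H hS hS' hrank in
/-- the order of a norm -/
theorem ord_norm_cover (w₀ : Place K F') {f' : F'} (hf' : f' ≠ 0) :
    (w₀.restrict F).ord (Algebra.norm F f') = ∑ i ∈ Finset.range ℓ, (τ ^ i • w₀).ord f' := by
  rw [← H.ord_algebraMap hS hS' hrank, H.inv.norm_eq_prod hrank,
    ord_prod w₀ _ _ (fun i _ => (map_ne_zero _).mpr hf')]
  refine Finset.sum_congr rfl fun i _ => ?_
  rw [ord_algEquiv, inv_pow, inv_inv]

include H hS hS' hrank in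
/-- **the value of a norm**: `N(f')(P) = ∏_{i < ℓ} f'(τ^i P')` -/
theorem pval_norm_cover (w₀ : Place K F') {f' : F'}
    (hf : ∀ i ∈ Finset.range ℓ, 0 ≤ (τ ^ i • w₀).ord f') :
    pval (w₀.restrict F) (Algebra.norm F f') = ∏ i ∈ Finset.range ℓ, pval (τ ^ i • w₀) f' := by
  rcases eq_or_ne f' 0 with rfl | hf'
  · rw [Algebra.norm_zero, pval_zero]
    symm
    apply Finset.prod_eq_zero (Finset.mem_range.mpr H.ell_pos)
    exact pval_zero _
  have h0 : 0 ≤ (w₀.restrict F).ord (Algebra.norm F f') := by
    rw [H.ord_norm_cover hS hS' hrank w₀ hf']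
    exact Finset.sum_nonneg hf
  rw [← H.pval_algebraMap_cover hS hS' hrank w₀ _ h0, H.inv.norm_eq_prod hrank,
    pval_prod hS' w₀]
  · refine Finset.prod_congr rfl fun i _ => ?_
    rw [pval_algEquiv, inv_pow, inv_inv]
  · intro i hi
    rw [ord_algEquiv, inv_pow, inv_inv]
    exact hf i hi

include H hS hS' hrank in
/-- `NormVal` on a single place -/
theorem normVal_single (w₀ : Place K F') (n : ℤ) {f' : F'} (hf' : f' ≠ 0)
    (hf : ∀ i ∈ Finset.range ℓ, (τ ^ i • w₀).ord f' = 0) :
    dval (Algebra.norm F f') (Finsupp.single (w₀.restrict F) n) =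
      dval f' (Divisor.pullback F' (Finsupp.single (w₀.restrict F) n)) := by
  rw [dval_single, H.pval_norm_cover hS hS' hrank w₀ (fun i hi => (hf i hi).ge),
    H.pullback_single_cover hS hS' hrank,
    dval_sum hS' _ hf' _ (fun i hi => Disj.single hf' (hf i hi) n), ← Finset.prod_zpow]
  exact Finset.prod_congr rfl fun i _ => (dval_single _ _ _).symm

include H hS hS' hrank in
/-- **the contract `NormVal` of [W3c] (helper17)** for a Kummer cover:
`N(f')(D) = f'(π^* D)`. -/
theorem normVal : helper17.NormVal K F F' := by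
  classical
  intro f' D₀ hdisj
  have hf' : f' ≠ 0 := hdisj.1
  have hN0 : Algebra.norm F f' ≠ 0 := Algebra.norm_ne_zero_iff.mpr hf'
  have hyp : ∀ w : Place K F', D₀ (w.restrict F) ≠ 0 → w.ord f' = 0 := fun w hw =>
    hdisj.2 w (by rwa [H.pullback_apply_cover hS hS' hrank])
  clear hdisj
  -- the two `Disj` statements from the pointwise hypothesis
  have hdisjN : ∀ E : Divisor K F, (∀ w : Place K F', E (w.restrict F) ≠ 0 → w.ord f' = 0) →
      Disj (Algebra.norm F f') E := by
    intro E hE
    refine ⟨hN0, fun v hv => ?_⟩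
    obtain ⟨w₀, rfl⟩ := H.restrict_surjective hS hS' hrank v
    rw [H.ord_norm_cover hS hS' hrank w₀ hf']
    refine Finset.sum_eq_zero fun i _ => hE _ ?_
    rwa [H.restrict_pow_smul]
  have hdisj' : ∀ E : Divisor K F, (∀ w : Place K F', E (w.restrict F) ≠ 0 → w.ord f' = 0) →
      Disj f' (Divisor.pullback F' E) := by
    intro E hE
    refine ⟨hf', fun w hw => hE w ?_⟩
    rwa [H.pullback_apply_cover hS hS' hrank] at hw
  induction D₀ using Finsupp.induction with
  | zero => simp
  | single_add P n D₁ hP hn ih =>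
    have hP0 : D₁ P = 0 := Finsupp.notMem_support_iff.mp hP
    have hyp1 : ∀ w : Place K F', D₁ (w.restrict F) ≠ 0 → w.ord f' = 0 := by
      intro w hw
      apply hyp w
      have hne : P ≠ w.restrict F := by
        rintro rfl
        exact hw hP0
      rwa [Finsupp.add_apply, Finsupp.single_apply, if_neg hne, zero_add]
    have hyp0 : ∀ w : Place K F', (Finsupp.single P n : Divisor K F) (w.restrict F) ≠ 0 →
        w.ord f' = 0 := by
      intro w hw
      apply hyp w
      have heq : P = w.restrict F := by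
        by_contra hne
        rw [Finsupp.single_apply, if_neg hne] at hw
        exact hw rfl
      rw [← heq, Finsupp.add_apply, Finsupp.single_apply, if_pos rfl, hP0, add_zero]
      exact hn
    rw [dval_add hS (hdisjN _ hyp0) (hdisjN _ hyp1), map_add,
      dval_add hS' (hdisj' _ hyp0) (hdisj' _ hyp1), ih hyp1]
    congr 1
    obtain ⟨w₀, rfl⟩ := H.restrict_surjective hS hS' hrank P
    refine H.normVal_single hS hS' hrank w₀ n hf' fun i _ => hyp0 _ ?_
    rw [H.restrict_pow_smul, Finsupp.single_apply, if_pos rfl]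
    exact hn

end IsKummerCover

/-! ### The plug-in: non-degeneracy of the Weil pairing at a prime level -/

section Plug

universe u v

variable {K : Type u} {F : Type v} [Field K] [Field F] [Algebra K F]

open IntermediateField in
/-- **[W3], modulo Weil reciprocity and divisibility of `Pic⁰` on the cover**: if `h` is not an
`ℓ`-th power and `div h = ℓ D_y`, there are a divisor `D` of degree `0`, a function `ν` with
`div ν = ℓ D` and a primitive `ℓ`-th root of unity `ζ` with `ν(D_y) = ζ · h(D)`. -/
theorem exists_pairing_of_weilRec_of_divisible [IsAlgClosed K] [CharZero K] (x : F)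
    (hx : Transcendental K x) [FiniteDimensional K⟮x⟯ F] {ℓ : ℕ} (hℓ : ℓ.Prime) {h : F}
    (hh : ∀ g : F, g ^ ℓ ≠ h) {Dy : Divisor K F} (hD : ∀ v : Place K F, v.ord h = ℓ * Dy v)
    (hW : ∀ (F' : Type v) [Field F'] [Algebra K F'] (x' : F'), Transcendental K x' →
      FiniteDimensional K⟮x'⟯ F' → WeilRec K F')
    (hd : ∀ (F' : Type v) [Field F'] [Algebra K F'] (x' : F'), Transcendental K x' →
      FiniteDimensional K⟮x'⟯ F' → ∀ c : Pic0 K F', ∃ c' : Pic0 K F', ℓ • c' = c) :
    ∃ (ζ : K) (D : Divisor K F) (ν : F), IsPrimitiveRoot ζ ℓ ∧ ν ≠ 0 ∧ Divisor.degree D = 0 ∧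
      (∀ v : Place K F, v.ord ν = ((ℓ : ℤ) • D) v) ∧ Disj ν Dy ∧ Disj h D ∧
      dval ν Dy = ζ * dval h D := by
  obtain ⟨F', _, _, _, _, _, z, ζ, τ, H, hrank, hx', hfin'⟩ := exists_kummerCover x hx hℓ hh hD
  haveI := hfin'
  haveI : CharZero F := charZero_of_injective_algebraMap (algebraMap K F).injective
  haveI : CharZero F' := charZero_of_injective_algebraMap (algebraMap K F').injective
  haveI : CharZero K⟮algebraMap F F' x⟯ :=
    charZero_of_injective_algebraMap (algebraMap K _).injective
  haveI : HasPrincipalDivisors K F' := hasPrincipalDivisors_cover x hx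
  haveI : FundamentalIdentity K F F' := fundamentalIdentity_cover x hx
  have hS : RiemannSetting K F := riemannSetting_of_ff x hx
  have hS' : RiemannSetting K F' := riemannSetting_cover x hx
  have hN : Divisor.PushforwardNormFormula K F F' := normFormula_cover x hx
  obtain ⟨g', c', hc'⟩ := exists_hasRiemannGenus (algebraMap F F' x) hx'
  have hζ0 : ζ ≠ 0 := H.zeta.ne_zero hℓ.ne_zero
  obtain ⟨D, ν, hν, hdeg, hdiv, hd1, hd2, hval⟩ :=
    helper17.exists_pairing_eq' hS hS' hc' hℓ.ne_zero hrank H.tauF
      (H.coverDiv hS hS' hrank hN) (hd F' (algebraMap F F' x) hx' hfin')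
      (hW F' (algebraMap F F' x) hx' hfin') (H.normVal hS hS' hrank) z h H.h_ne H.pow_eq ζ hζ0
      H.tauF_z Dy (fun v => by rw [Finsupp.smul_apply, smul_eq_mul, hD v])
  exact ⟨ζ, D, ν, H.zeta, hν, hdeg, hdiv, hd1, hd2, hval⟩

end Plug

end Fermat.Agent.T6.helper9

end
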