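/-
TIER 6 (S19), block [W3] plug-in, helper9: **non-degeneracy of the Weil pairing at a prime
level, modulo Weil reciprocity only** (divisibility of `Pic⁰` from [W3b], helper91).
-/
import Fermat.Agent.T6.helper9_CoverPlug
import Fermat.Agent.T6.helper91_Pic0Div

set_option autoImplicit false
set_option linter.unusedSectionVars false
set_option linter.style.haveILetI false
set_option linter.unusedVariables false

noncomputable section

namespace Fermat.Agent.T6.helper9

open AlgebraicCurve Fermat.Agent.P2.helper74 Fermat.Agent.T6.helper26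

section PlugDiv

universe u v

variable {K : Type u} {F : Type v} [Field K] [Field F] [Algebra K F]

open IntermediateField in
/-- **[W3], modulo Weil reciprocity only** -/
theorem exists_pairing_of_weilRec [IsAlgClosed K] [CharZero K] (x : F)
    (hx : Transcendental K x) [FiniteDimensional K⟮x⟯ F] {ℓ : ℕ} (hℓ : ℓ.Prime) {h : F}
    (hh : ∀ g : F, g ^ ℓ ≠ h) {Dy : Divisor K F} (hD : ∀ v : Place K F, v.ord h = ℓ * Dy v)
    (hW : ∀ (F' : Type v) [Field F'] [Algebra K F'] (x' : F'), Transcendental K x' →
      FiniteDimensional K⟮x'⟯ F' → WeilRec K F') :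
    ∃ (ζ : K) (D : Divisor K F) (ν : F), IsPrimitiveRoot ζ ℓ ∧ ν ≠ 0 ∧ Divisor.degree D = 0 ∧
      (∀ v : Place K F, v.ord ν = ((ℓ : ℤ) • D) v) ∧ Disj ν Dy ∧ Disj h D ∧
      dval ν Dy = ζ * dval h D := by
  refine exists_pairing_of_weilRec_of_divisible x hx hℓ hh hD hW ?_
  intro F' _ _ x' hx' hfin' c
  haveI := hfin'
  obtain ⟨c', hc'⟩ := helper91.pic0_divisible_of_transcendental K F' x' hx' ℓ hℓ.pos c
  exact ⟨c', by rw [← hc', natCast_zsmul]⟩

end PlugDiv

end Fermat.Agent.T6.helper9

end
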