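/-
TIER 6 (S19 / S32), helper9: **Hensel closure of an order** (Mathlib only).

Setting: `C` a commutative ring (think: `I`-equivariant functions `S → A` on a finite set, `A` the
valuation ring of `ℚ̄` over `ℓ`), `B` a subring (think: the order `O₀[t₁, …, t_r]` generated by
coordinate functions), `ϖ ∈ B` (think: `ℓ`).  Hypotheses:

* `C` is integral over `B`;
* conductor: `ϖ ^ M₀ • C ⊆ B`;
* `ϖ` lies in the Jacobson radical of `C`.

Then `B` is "henselian inside `C`":

* `inv_mem_of_integral` : `B ∩ Cˣ = Bˣ`;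
* `mem_of_simple_root` : a root `c ∈ C` of `P ∈ B[T]` with `P'(c) ∈ Cˣ` which is congruent to an
  element of `B` modulo the radical of `ϖ C` lies in `B`.
-/
import Mathlib

set_option autoImplicit false

namespace Fermat.Agent.T6.helper9

open Polynomial

variable {C : Type*} [CommRing C]

/-- `B ∩ Cˣ = Bˣ` for an element whose inverse is integral over `B`. -/
theorem inv_mem_of_isIntegral (B : Subring C) {u v : C} (hu : u ∈ B) (huv : u * v = 1)
    (hint : IsIntegral B v) : v ∈ B := by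
  obtain ⟨p, hp, hpv⟩ := hint
  -- `v^n + b₁ v^(n-1) + ⋯ + b_n = 0`; multiply by `u^(n-1)`
  have key : ∀ (n : ℕ) (q : Polynomial B), q.natDegree ≤ n →
      u ^ n * Polynomial.eval₂ (algebraMap B C) v q ∈ B := by
    intro n q hq
    rw [Polynomial.eval₂_eq_sum_range' (algebraMap B C) (Nat.lt_succ_of_le hq), Finset.mul_sum]
    refine Subring.sum_mem _ fun i hi => ?_
    have hi' : i ≤ n := Nat.lt_succ_iff.mp (Finset.mem_range.mp hi)
    have : u ^ n * ((algebraMap B C) (q.coeff i) * v ^ i) =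
        (q.coeff i : C) * u ^ (n - i) * (u * v) ^ i := by
      rw [mul_pow, show (algebraMap B C) (q.coeff i) = (q.coeff i : C) from rfl]
      have : u ^ n = u ^ (n - i) * u ^ i := by rw [← pow_add, Nat.sub_add_cancel hi']
      rw [this]; ring
    rw [this, huv, one_pow, mul_one]
    exact B.mul_mem (q.coeff i).2 (B.pow_mem hu _)
  by_cases hdeg : p.natDegree = 0
  · -- `p = 1`, so `C` is trivial
    have h1 : p = 1 := by
      rw [Polynomial.eq_C_of_natDegree_eq_zero hdeg]
      have := hp.coeff_natDegree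
      rw [hdeg] at this
      rw [this, Polynomial.C_1]
    rw [h1, Polynomial.eval₂_one] at hpv
    have : v = 0 := by rw [← mul_one v, hpv, mul_zero]
    rw [this]; exact B.zero_mem
  · set n := p.natDegree with hn
    obtain ⟨m, hm⟩ : ∃ m, n = m + 1 := ⟨n - 1, by omega⟩
    -- `p = X^n + q`, `deg q ≤ m`
    have hq : (p.eraseLead).natDegree ≤ m := by
      have := Polynomial.eraseLead_natDegree_le p
      omega
    have hsplit : p = p.eraseLead + Polynomial.X ^ n := by
      conv_lhs => rw [← Polynomial.eraseLead_add_C_mul_X_pow p]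
      rw [hp.leadingCoeff, Polynomial.C_1, one_mul]
    have h0 : Polynomial.eval₂ (algebraMap B C) v p.eraseLead + v ^ n = 0 := by
      rw [hsplit, Polynomial.eval₂_add, Polynomial.eval₂_pow, Polynomial.eval₂_X] at hpv
      exact hpv
    have h1 := key m _ hq
    have h2 : u ^ m * Polynomial.eval₂ (algebraMap B C) v p.eraseLead = - v := by
      have : Polynomial.eval₂ (algebraMap B C) v p.eraseLead = - v ^ n := by
        rw [eq_neg_iff_add_eq_zero]; exact h0
      rw [this, hm, pow_succ, mul_neg, ← mul_assoc, ← mul_pow, huv, one_pow, one_mul]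
    rw [h2] at h1
    simpa using B.neg_mem h1

/-- elements of the radical of `ϖ C` lie in the Jacobson radical of `C` as soon as `ϖ` does -/
theorem mem_jacobson_of_pow_mem {ϖ e : C} (hjac : ϖ ∈ Ideal.jacobson (⊥ : Ideal C)) {n : ℕ}
    {d : C} (he : e ^ n = ϖ * d) : e ∈ Ideal.jacobson (⊥ : Ideal C) := by
  have h1 : e ∈ (Ideal.jacobson (⊥ : Ideal C)).radical :=
    ⟨n, by rw [he]; exact Ideal.mul_mem_right _ _ hjac⟩
  have h2 : (Ideal.jacobson (⊥ : Ideal C)).radical ≤ Ideal.jacobson (⊥ : Ideal C) := by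
    calc (Ideal.jacobson (⊥ : Ideal C)).radical
        ≤ Ideal.jacobson (Ideal.jacobson (⊥ : Ideal C)) := Ideal.radical_le_jacobson
      _ = Ideal.jacobson (⊥ : Ideal C) := Ideal.jacobson_idem
  exact h2 h1

/-- a unit plus an element of the Jacobson radical is a unit -/
theorem isUnit_add_of_mem_jacobson {u x : C} (hu : IsUnit u)
    (hx : x ∈ Ideal.jacobson (⊥ : Ideal C)) : IsUnit (u + x) := by
  obtain ⟨v, rfl⟩ := hu
  have h := (Ideal.mem_jacobson_bot.mp hx) (↑v⁻¹ : C)
  have : (v : C) + x = v * (x * ↑v⁻¹ + 1) := by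
    rw [mul_add, mul_one, mul_comm x, ← mul_assoc, Units.mul_inv, one_mul, add_comm]
  rw [this]
  exact v.isUnit.mul h

section Newton

variable (B : Subring C)

/-- one Newton step inside `B`: if `c` is a root of `P ∈ B[T]` with `P'(c) ∈ Cˣ`, and `b ∈ B`
with `c - b = E` in the Jacobson radical, then there is `b' ∈ B` with `c - b' ∈ E² C`. -/
theorem newton_step (hint : ∀ c : C, IsIntegral B c) (P : Polynomial B) {c : C}
    (hroot : P.eval₂ B.subtype c = 0) (hder : IsUnit (P.derivative.eval₂ B.subtype c))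
    (b : B) (hE : c - b ∈ Ideal.jacobson (⊥ : Ideal C)) :
    ∃ b' : B, ∃ d : C, c - b' = (c - b) ^ 2 * d := by
  set E : C := c - b with hEdef
  set Pc : Polynomial C := P.map B.subtype with hPc
  have hroot' : Pc.eval c = 0 := by rw [hPc, Polynomial.eval_map]; exact hroot
  have hder' : IsUnit (Pc.derivative.eval c) := by
    rw [hPc, Polynomial.derivative_map, Polynomial.eval_map]; exact hder
  have hPb : Pc.eval (b : C) = ((P.eval b : B) : C) := by
    rw [hPc, Polynomial.eval_map]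
    exact Polynomial.eval₂_at_apply B.subtype b
  have hP'b : Pc.derivative.eval (b : C) = ((P.derivative.eval b : B) : C) := by
    rw [hPc, Polynomial.derivative_map, Polynomial.eval_map]
    exact Polynomial.eval₂_at_apply B.subtype b
  -- `P'(b)` is a unit of `C`
  obtain ⟨z, hz⟩ := Pc.derivative.evalSubFactor (b : C) c
  have hunit : IsUnit (Pc.derivative.eval (b : C)) := by
    have : Pc.derivative.eval (b : C) = Pc.derivative.eval c + (- (z * E)) := by
      have : (b : C) - c = - E := by rw [hEdef]; ring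
      rw [this] at hz
      rw [← sub_eq_iff_eq_add', hz]; ring
    rw [this]
    exact isUnit_add_of_mem_jacobson hder'
      ((Ideal.jacobson (⊥ : Ideal C)).neg_mem (Ideal.mul_mem_left _ _ hE))
  obtain ⟨w, hw⟩ := hunit
  have hwv : Pc.derivative.eval (b : C) * (↑w⁻¹ : C) = 1 := by rw [← hw, Units.mul_inv]
  have hvB : (↑w⁻¹ : C) ∈ B := by
    refine inv_mem_of_isIntegral B ?_ hwv (hint _)
    rw [hP'b]; exact (P.derivative.eval b).2
  -- Taylor expansion at `b`
  obtain ⟨k, hk⟩ := Pc.binomExpansion (b : C) E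
  have hcb : (b : C) + E = c := by rw [hEdef]; ring
  rw [hcb, hroot'] at hk
  refine ⟨b - P.eval b * ⟨_, hvB⟩, - (k * ↑w⁻¹), ?_⟩
  have h1 : ((b - P.eval b * ⟨_, hvB⟩ : B) : C) = (b : C) - Pc.eval (b : C) * ↑w⁻¹ := by
    rw [hPb]; rfl
  rw [h1]
  have h2 : Pc.eval (b : C) = - (Pc.derivative.eval (b : C) * E) - k * E ^ 2 := by
    linear_combination -hk
  rw [h2]
  have h3 : c - ((b : C) - (-(Pc.derivative.eval (b : C) * E) - k * E ^ 2) * ↑w⁻¹) =
      E - (Pc.derivative.eval (b : C) * ↑w⁻¹) * E - k * ↑w⁻¹ * E ^ 2 := by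
    rw [hEdef]; ring
  rw [h3, hwv]; ring

/-- iterated Newton steps -/
theorem newton_iter (hint : ∀ c : C, IsIntegral B c) (P : Polynomial B) {c : C}
    (hroot : P.eval₂ B.subtype c = 0) (hder : IsUnit (P.derivative.eval₂ B.subtype c))
    (b₀ : B) (hE : c - b₀ ∈ Ideal.jacobson (⊥ : Ideal C)) (k : ℕ) :
    ∃ b : B, ∃ d : C, c - b = (c - b₀) ^ (2 ^ k) * d := by
  induction k with
  | zero => exact ⟨b₀, 1, by simp⟩
  | succ k ih =>
    obtain ⟨b, d, hbd⟩ := ih
    have hEb : c - b ∈ Ideal.jacobson (⊥ : Ideal C) := by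
      rw [hbd]
      rcases Nat.eq_zero_or_pos (2 ^ k) with h | h
      · exact absurd h (by positivity)
      · obtain ⟨m, hm⟩ : ∃ m, 2 ^ k = m + 1 := ⟨2 ^ k - 1, by omega⟩
        rw [hm, pow_succ, mul_assoc]
        exact Ideal.mul_mem_left _ _ (Ideal.mul_mem_right _ _ hE)
    obtain ⟨b', d', hb'⟩ := newton_step B hint P hroot hder b hEb
    refine ⟨b', d ^ 2 * d', ?_⟩
    rw [hb', hbd, pow_succ 2 k, pow_mul]; ring

/-- **Hensel closure of an order.**  `B ⊆ C` with `C` integral over `B`, conductor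
`ϖ ^ M₀ • C ⊆ B`, `ϖ` in the Jacobson radical of `C`.  A root `c ∈ C` of `P ∈ B[T]` with
`P'(c) ∈ Cˣ` which is congruent to some `b₀ ∈ B` modulo the radical of `ϖ C` lies in `B`. -/
theorem mem_of_simple_root (hint : ∀ c : C, IsIntegral B c) {ϖ : C} {M₀ : ℕ}
    (hcond : ∀ c : C, ϖ ^ M₀ * c ∈ B) (hjac : ϖ ∈ Ideal.jacobson (⊥ : Ideal C))
    (P : Polynomial B) {c : C} (hroot : P.eval₂ B.subtype c = 0)
    (hder : IsUnit (P.derivative.eval₂ B.subtype c)) (b₀ : B) {n : ℕ} {d : C}
    (hb₀ : (c - b₀) ^ n = ϖ * d) : c ∈ B := by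
  have hE := mem_jacobson_of_pow_mem hjac hb₀
  obtain ⟨k, hk⟩ : ∃ k, n * M₀ ≤ 2 ^ k := ⟨n * M₀, Nat.lt_two_pow_self.le⟩
  obtain ⟨b, d', hbd⟩ := newton_iter B hint P hroot hder b₀ hE k
  have h1 : (c - b₀) ^ (2 ^ k) = ϖ ^ M₀ * (d ^ M₀ * (c - b₀) ^ (2 ^ k - n * M₀)) := by
    conv_lhs => rw [← Nat.add_sub_cancel' hk, pow_add, pow_mul, hb₀, mul_pow]
    ring
  have h2 : c - b ∈ B := by
    rw [hbd, h1, mul_assoc]
    exact hcond _
  have : c = (c - b) + b := by ring
  rw [this]
  exact B.add_mem h2 b.2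

end Newton

end Fermat.Agent.T6.helper9
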