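/-
TIER 6 (S19 / S32), helper9: **the frame of a local order of functions** (Mathlib only).

`A` a local ring (think: the valuation ring of `ℚ̄` over `ℓ`), `O` a subring over which `A` is
integral (think: `O₀ = k0Ring A`), `S` a finite set (think: a fibre of the reduction map on
`J[ℓ^k]`, or a product of two fibres).  A subring `B` of `S → A` is a *frame* if it contains the
constants of `O` and every `b ∈ B` is constant modulo the maximal ideal of `A`, with constant
in `O` (`IsFrame`).  Examples: `O[c_ip]` for coordinate functions `c_ip` which are congruent to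
constants (`isFrame_adjoin`).

Results:
* `IsFrame.inv_mem` : an element of `B` which is a unit at ONE point is a unit at every point
  and its pointwise inverse lies in `B` ("unit pivots");
* `IsFrame.isLocalRing` : `B` is a local ring;
* `IsFrame.isUnit_iff` : units of `B` = functions with a unit value;
* `prodRing B₁ B₂` : the subring of `S₁ × S₂ → A` generated by `B₁` and `B₂`
  (= image of `B₁ ⊗ B₂`); its elements are the finite sums `∑ aᵢ(x) bᵢ(y)`
  (`mem_prodRing_iff`), and it is a frame if `B₁` and `B₂` are (`IsFrame.prod`).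
-/
import Fermat.Agent.T6.helper9_HenselOrder

set_option autoImplicit false
set_option linter.unusedSectionVars false
set_option linter.style.haveILetI false

namespace Fermat.Agent.T6.helper9

open IsLocalRing

variable {A : Type*} [CommRing A] [IsLocalRing A] {S : Type*}

/-- the constant function -/
def constFn (S : Type*) (a : A) : S → A := fun _ => a

variable (O : Subring A)

/-- `b` is constant modulo the maximal ideal, with constant in `O` -/
def IsConstMod (b : S → A) : Prop :=
  ∃ c ∈ O, ∀ s, b s - c ∈ maximalIdeal A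

/-- a **frame**: a subring of `S → A` containing the constants of `O`, all of whose elements are
constant modulo the maximal ideal of `A`. -/
structure IsFrame (B : Subring (S → A)) : Prop where
  const_mem : ∀ c ∈ O, constFn S c ∈ B
  constMod : ∀ b ∈ B, IsConstMod O b

variable {O}

theorem isConstMod_const {c : A} (hc : c ∈ O) : IsConstMod O (constFn S c) :=
  ⟨c, hc, fun _ => by simp [constFn]⟩

theorem IsConstMod.add {a b : S → A} (ha : IsConstMod O a) (hb : IsConstMod O b) :
    IsConstMod O (a + b) := by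
  obtain ⟨c, hc, h⟩ := ha
  obtain ⟨d, hd, h'⟩ := hb
  refine ⟨c + d, O.add_mem hc hd, fun s => ?_⟩
  have : (a + b) s - (c + d) = (a s - c) + (b s - d) := by simp only [Pi.add_apply]; ring
  rw [this]; exact Ideal.add_mem _ (h s) (h' s)

theorem IsConstMod.neg {a : S → A} (ha : IsConstMod O a) : IsConstMod O (-a) := by
  obtain ⟨c, hc, h⟩ := ha
  refine ⟨-c, O.neg_mem hc, fun s => ?_⟩
  have : (-a) s - -c = -(a s - c) := by simp only [Pi.neg_apply]; ring
  rw [this]; exact Ideal.neg_mem_iff _ |>.mpr (h s)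

theorem IsConstMod.mul {a b : S → A} (ha : IsConstMod O a) (hb : IsConstMod O b) :
    IsConstMod O (a * b) := by
  obtain ⟨c, hc, h⟩ := ha
  obtain ⟨d, hd, h'⟩ := hb
  refine ⟨c * d, O.mul_mem hc hd, fun s => ?_⟩
  have : (a * b) s - c * d = (a s - c) * b s + c * (b s - d) := by
    simp only [Pi.mul_apply]; ring
  rw [this]
  exact Ideal.add_mem _ (Ideal.mul_mem_right _ _ (h s)) (Ideal.mul_mem_left _ _ (h' s))

variable (O) in
/-- the subring of all functions which are constant modulo the maximal ideal -/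
def constModRing (S : Type*) : Subring (S → A) where
  carrier := {b | IsConstMod O b}
  mul_mem' ha hb := ha.mul hb
  one_mem' := isConstMod_const (c := 1) O.one_mem
  add_mem' ha hb := ha.add hb
  zero_mem' := isConstMod_const (c := 0) O.zero_mem
  neg_mem' ha := ha.neg

theorem mem_constModRing {b : S → A} : b ∈ constModRing O S ↔ IsConstMod O b := Iff.rfl

/-- the ring generated over `O` by functions which are constant modulo the maximal ideal is a
frame -/
theorem isFrame_closure {T : Set (S → A)} (hT : ∀ t ∈ T, IsConstMod O t) :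
    IsFrame O (Subring.closure (Set.range (fun c : O => constFn S (c : A)) ∪ T)) where
  const_mem c hc := Subring.subset_closure (Or.inl ⟨⟨c, hc⟩, rfl⟩)
  constMod b hb := by
    have : Subring.closure (Set.range (fun c : O => constFn S (c : A)) ∪ T) ≤
        constModRing O S := by
      rw [Subring.closure_le]
      rintro x (⟨c, rfl⟩ | hx)
      · exact isConstMod_const c.2
      · exact hT x hx
    exact this hb

section Integral

variable [Finite S]

/-- every function `S → A` is integral over the constants of `O` (hence over any subring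
containing them), if `A` is integral over `O`. -/
theorem isIntegral_fn (hint : ∀ a : A, IsIntegral O a) {B : Subring (S → A)}
    (hB : ∀ c ∈ O, constFn S c ∈ B) (f : S → A) : IsIntegral B f := by
  classical
  haveI := Fintype.ofFinite S
  choose p hp hpz using fun s => hint (f s)
  -- the ring hom `O → B`
  let φ : O →+* B :=
    { toFun := fun c => ⟨constFn S (c : A), hB c c.2⟩
      map_one' := rfl
      map_mul' := fun _ _ => rfl
      map_zero' := rfl
      map_add' := fun _ _ => rfl }
  refine ⟨(∏ s, p s).map φ, (Polynomial.monic_prod_of_monic _ _ fun s _ => hp s).map φ, ?_⟩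
  rw [Polynomial.eval₂_map]
  funext s
  have h1 : ∀ q : Polynomial O, (Polynomial.eval₂ ((algebraMap B (S → A)).comp φ) f q) s =
      Polynomial.eval₂ (algebraMap O A) (f s) q := by
    intro q
    induction q using Polynomial.induction_on' with
    | add a b ha hb => rw [Polynomial.eval₂_add, Polynomial.eval₂_add, Pi.add_apply, ha, hb]
    | monomial n a =>
      rw [Polynomial.eval₂_monomial, Polynomial.eval₂_monomial]
      rfl
  rw [h1, Polynomial.eval₂_finsetProd]
  exact Finset.prod_eq_zero (Finset.mem_univ s) (hpz s)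

end Integral

namespace IsFrame

variable {B : Subring (S → A)}

/-- an element of a frame with a unit value has only unit values -/
theorem isUnit_apply (hB : IsFrame O B) {b : S → A} (hb : b ∈ B) {s₀ : S}
    (h : IsUnit (b s₀)) (s : S) : IsUnit (b s) := by
  obtain ⟨c, -, hc⟩ := hB.constMod b hb
  have hcu : IsUnit c := by
    by_contra hcn
    have h1 : c ∈ maximalIdeal A := (IsLocalRing.mem_maximalIdeal c).mpr hcn
    have h2 : b s₀ ∈ maximalIdeal A := by
      have := Ideal.add_mem _ (hc s₀) h1
      simpa using this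
    exact (IsLocalRing.mem_maximalIdeal _).mp h2 h
  by_contra hn
  have h1 : b s ∈ maximalIdeal A := (IsLocalRing.mem_maximalIdeal _).mpr hn
  have h2 : c ∈ maximalIdeal A := by
    have := Ideal.sub_mem _ h1 (hc s)
    simpa using this
  exact (IsLocalRing.mem_maximalIdeal _).mp h2 hcu

variable [Finite S]

/-- **unit pivots**: an element of a frame which is a unit at one point has its pointwise
inverse in the frame. -/
theorem inv_mem (hB : IsFrame O B) (hint : ∀ a : A, IsIntegral O a) {b : S → A} (hb : b ∈ B)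
    {s₀ : S} (h : IsUnit (b s₀)) :
    ∃ v ∈ B, b * v = 1 := by
  have hu := hB.isUnit_apply hb h
  choose w hw using fun s => (hu s).exists_right_inv
  refine ⟨w, ?_, funext hw⟩
  exact inv_mem_of_isIntegral B hb (funext hw) (isIntegral_fn hint hB.const_mem w)

/-- units of a frame = functions with a unit value -/
theorem isUnit_iff (hB : IsFrame O B) (hint : ∀ a : A, IsIntegral O a) (b : B) (s₀ : S) :
    IsUnit b ↔ IsUnit ((b : S → A) s₀) := by
  constructor
  · intro h
    exact (h.map (B.subtype)).map (Pi.evalRingHom (fun _ => A) s₀)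
  · intro h
    obtain ⟨v, hv, hbv⟩ := hB.inv_mem hint b.2 h
    exact IsUnit.of_mul_eq_one (⟨v, hv⟩ : B) (Subtype.ext hbv)

/-- a frame on a nonempty finite set is a local ring -/
theorem isLocalRing (hB : IsFrame O B) (hint : ∀ a : A, IsIntegral O a) [Nonempty S] :
    IsLocalRing B := by
  obtain ⟨s₀⟩ := ‹Nonempty S›
  haveI : Nontrivial B := by
    refine ⟨⟨0, 1, fun h => ?_⟩⟩
    have := congrArg (fun b : B => (b : S → A) s₀) h
    simp at this
  refine IsLocalRing.of_isUnit_or_isUnit_of_isUnit_add fun a b hab => ?_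
  have h1 : IsUnit ((a : S → A) s₀ + (b : S → A) s₀) :=
    (hB.isUnit_iff hint (a + b) s₀).mp hab
  rcases IsLocalRing.isUnit_or_isUnit_of_isUnit_add h1 with h | h
  · exact Or.inl ((hB.isUnit_iff hint a s₀).mpr h)
  · exact Or.inr ((hB.isUnit_iff hint b s₀).mpr h)

/-- the maximal ideal of a frame: functions with values in the maximal ideal -/
theorem mem_nonunits_iff (hB : IsFrame O B) (hint : ∀ a : A, IsIntegral O a) (b : B) (s : S) :
    ¬ IsUnit b ↔ (b : S → A) s ∈ maximalIdeal A := by
  rw [hB.isUnit_iff hint b s, IsLocalRing.mem_maximalIdeal]; rfl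

end IsFrame

/-! ### The product frame -/

section Prod

variable {S₁ S₂ : Type*}

/-- the subring of functions on `S₁ × S₂` generated by the pull-backs of `B₁` and `B₂` -/
def prodRing (B₁ : Subring (S₁ → A)) (B₂ : Subring (S₂ → A)) : Subring (S₁ × S₂ → A) :=
  Subring.closure ({f | ∃ a ∈ B₁, f = fun x => a x.1} ∪ {f | ∃ b ∈ B₂, f = fun x => b x.2})

variable {B₁ : Subring (S₁ → A)} {B₂ : Subring (S₂ → A)}

theorem fst_mem_prodRing {a : S₁ → A} (ha : a ∈ B₁) :
    (fun x : S₁ × S₂ => a x.1) ∈ prodRing B₁ B₂ :=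
  Subring.subset_closure (Or.inl ⟨a, ha, rfl⟩)

theorem snd_mem_prodRing {b : S₂ → A} (hb : b ∈ B₂) :
    (fun x : S₁ × S₂ => b x.2) ∈ prodRing B₁ B₂ :=
  Subring.subset_closure (Or.inr ⟨b, hb, rfl⟩)

/-- `f` is a finite sum `∑ aᵢ(x) bᵢ(y)` with `aᵢ ∈ B₁`, `bᵢ ∈ B₂` -/
def IsSumProd (B₁ : Subring (S₁ → A)) (B₂ : Subring (S₂ → A)) (f : S₁ × S₂ → A) : Prop :=
  ∃ (n : ℕ) (a : Fin n → S₁ → A) (b : Fin n → S₂ → A), (∀ i, a i ∈ B₁) ∧ (∀ i, b i ∈ B₂) ∧
    ∀ x y, f (x, y) = ∑ i, a i x * b i y

theorem IsSumProd.mem_prodRing {f : S₁ × S₂ → A} (h : IsSumProd B₁ B₂ f) :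
    f ∈ prodRing B₁ B₂ := by
  obtain ⟨n, a, b, ha, hb, hf⟩ := h
  have : f = ∑ i, (fun x : S₁ × S₂ => a i x.1) * (fun x : S₁ × S₂ => b i x.2) := by
    funext x
    rw [Finset.sum_apply]
    exact hf x.1 x.2
  rw [this]
  exact Subring.sum_mem _ fun i _ =>
    Subring.mul_mem _ (fst_mem_prodRing (ha i)) (snd_mem_prodRing (hb i))

theorem isSumProd_fst {a : S₁ → A} (ha : a ∈ B₁) :
    IsSumProd B₁ B₂ (fun x : S₁ × S₂ => a x.1) :=
  ⟨1, fun _ => a, fun _ => 1, fun _ => ha, fun _ => B₂.one_mem, fun x y => by simp⟩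

theorem isSumProd_snd {b : S₂ → A} (hb : b ∈ B₂) :
    IsSumProd B₁ B₂ (fun x : S₁ × S₂ => b x.2) :=
  ⟨1, fun _ => 1, fun _ => b, fun _ => B₁.one_mem, fun _ => hb, fun x y => by simp⟩

theorem IsSumProd.add {f g : S₁ × S₂ → A} (hf : IsSumProd B₁ B₂ f) (hg : IsSumProd B₁ B₂ g) :
    IsSumProd B₁ B₂ (f + g) := by
  obtain ⟨n, a, b, ha, hb, hf⟩ := hf
  obtain ⟨m, a', b', ha', hb', hg⟩ := hg
  refine ⟨n + m, Fin.append a a', Fin.append b b', ?_, ?_, fun x y => ?_⟩
  · intro i
    induction i using Fin.addCases with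
    | left i => rw [Fin.append_left]; exact ha i
    | right i => rw [Fin.append_right]; exact ha' i
  · intro i
    induction i using Fin.addCases with
    | left i => rw [Fin.append_left]; exact hb i
    | right i => rw [Fin.append_right]; exact hb' i
  · rw [Pi.add_apply, hf, hg, Fin.sum_univ_add]
    simp only [Fin.append_left, Fin.append_right]

theorem IsSumProd.neg {f : S₁ × S₂ → A} (hf : IsSumProd B₁ B₂ f) : IsSumProd B₁ B₂ (-f) := by
  obtain ⟨n, a, b, ha, hb, hf⟩ := hf
  refine ⟨n, fun i => - a i, b, fun i => B₁.neg_mem (ha i), hb, fun x y => ?_⟩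
  rw [Pi.neg_apply, hf, ← Finset.sum_neg_distrib]
  exact Finset.sum_congr rfl fun i _ => by simp

theorem IsSumProd.mul {f g : S₁ × S₂ → A} (hf : IsSumProd B₁ B₂ f) (hg : IsSumProd B₁ B₂ g) :
    IsSumProd B₁ B₂ (f * g) := by
  obtain ⟨n, a, b, ha, hb, hf⟩ := hf
  obtain ⟨m, a', b', ha', hb', hg⟩ := hg
  let e := finProdFinEquiv (m := n) (n := m)
  refine ⟨n * m, fun i => a (e.symm i).1 * a' (e.symm i).2,
    fun i => b (e.symm i).1 * b' (e.symm i).2,
    fun i => B₁.mul_mem (ha _) (ha' _), fun i => B₂.mul_mem (hb _) (hb' _), fun x y => ?_⟩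
  rw [Pi.mul_apply, hf, hg, Finset.sum_mul_sum, ← Finset.sum_product',
    Finset.univ_product_univ, ← Equiv.sum_comp e.symm]
  refine Finset.sum_congr rfl fun i _ => ?_
  simp only [Pi.mul_apply]; ring

theorem isSumProd_one : IsSumProd B₁ B₂ (1 : S₁ × S₂ → A) :=
  ⟨1, fun _ => 1, fun _ => 1, fun _ => B₁.one_mem, fun _ => B₂.one_mem, fun x y => by simp⟩

theorem isSumProd_zero : IsSumProd B₁ B₂ (0 : S₁ × S₂ → A) :=
  ⟨0, Fin.elim0, Fin.elim0, fun i => i.elim0, fun i => i.elim0, fun x y => by simp⟩

/-- **elements of the product ring are the finite sums `∑ aᵢ(x) bᵢ(y)`** -/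
theorem mem_prodRing_iff {f : S₁ × S₂ → A} : f ∈ prodRing B₁ B₂ ↔ IsSumProd B₁ B₂ f := by
  refine ⟨fun h => ?_, IsSumProd.mem_prodRing⟩
  let R : Subring (S₁ × S₂ → A) :=
    { carrier := {f | IsSumProd B₁ B₂ f}
      mul_mem' := fun ha hb => ha.mul hb
      one_mem' := isSumProd_one
      add_mem' := fun ha hb => ha.add hb
      zero_mem' := isSumProd_zero
      neg_mem' := fun ha => ha.neg }
  have : prodRing B₁ B₂ ≤ R := by
    rw [prodRing, Subring.closure_le]
    rintro x (⟨a, ha, rfl⟩ | ⟨b, hb, rfl⟩)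
    · exact isSumProd_fst ha
    · exact isSumProd_snd hb
  exact this h

/-- the product of two frames is a frame -/
theorem IsFrame.prod [Nonempty S₂] (h₁ : IsFrame O B₁) (h₂ : IsFrame O B₂) :
    IsFrame O (prodRing B₁ B₂) where
  const_mem c hc := by
    have := fst_mem_prodRing (B₂ := B₂) (h₁.const_mem c hc)
    exact this
  constMod f hf := by
    have : prodRing B₁ B₂ ≤ constModRing O (S₁ × S₂) := by
      rw [prodRing, Subring.closure_le]
      rintro x (⟨a, ha, rfl⟩ | ⟨b, hb, rfl⟩)
      · obtain ⟨c, hc, h⟩ := h₁.constMod a ha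
        exact ⟨c, hc, fun s => h s.1⟩
      · obtain ⟨c, hc, h⟩ := h₂.constMod b hb
        exact ⟨c, hc, fun s => h s.2⟩
    exact this hf

end Prod

end Fermat.Agent.T6.helper9
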